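import Mathlib
import Fermat.Prelude.Def_GaloisRep_LocalConditions
import Fermat.Agent.Pack.S43GC.G0E2L0
import Fermat.Agent.Pack.S43GC.G0E12L3
import Fermat.Agent.Pack.S43GC.G0E0L1
import Fermat.Agent.Pack.S43GC.G0E4L3
import Fermat.Agent.Pack.S43GC.G0E13L3
import Fermat.Agent.Pack.S43GC.G0E0L0
import Fermat.Agent.Pack.S43MC.G0E12L3
import Fermat.Agent.Pack.S43MC.G0E15L3
import Fermat.Agent.Pack.S44C.G0E21L3
import Fermat.Agent.Pack.S43GC.G0E22L3
import Fermat.Agent.Pack.S43GC.G0E22L1
import Fermat.Agent.Pack.S43GC.G0E22L0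
import Fermat.Agent.Pack.S43GC.G0E23L0
import Fermat.Agent.Pack.S44C.G0E30L1
import Fermat.Agent.Pack.S44C.G0E30L3
import Fermat.Agent.Pack.S44C.G0E31L0
import Fermat.Agent.Pack.Fast891

-- ===== PACK-BEGIN S38/H901/IANil.lean
section


/-!
# Row 37 (S38/S43), Ihara avoidance: a uniform nilpotency bound (helper901)

`maximalIdeal_pow_card_le_ker` : a ring homomorphism from a local ring `A` to a finite ring `F`
kills `𝔪_A ^ (Nat.card F)`.  (Uniform in the homomorphism: this is what makes limits of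
homomorphisms `A → M_d(S ⧸ I ^ n)` along an ultrafilter compatible with limits in `A`.)
-/

set_option autoImplicit false
set_option linter.unnecessarySimpa false
set_option linter.style.haveILetI false

namespace Fermat.Agent.S38.H901

open IsLocalRing

/-- In a finite commutative ring `Q`, an ideal `𝔫` contained in the Jacobson radical satisfies
`𝔫 ^ (Nat.card Q) = ⊥`. -/
theorem pow_card_eq_bot_of_le_jacobson {Q : Type*} [CommRing Q] [Finite Q] (𝔫 : Ideal Q)
    (h𝔫 : 𝔫 ≤ Ideal.jacobson ⊥) : 𝔫 ^ (Nat.card Q) = ⊥ := by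
  classical
  have key : ∀ j : ℕ, 𝔫 ^ j = ⊥ ∨ j + Nat.card (↥(𝔫 ^ j)) ≤ Nat.card Q := by
    intro j
    induction j with
    | zero =>
      right
      rw [pow_zero, Ideal.one_eq_top, zero_add]
      exact Nat.card_le_card_of_injective (fun x : (⊤ : Ideal Q) => (x : Q))
        Subtype.val_injective
    | succ j ih =>
      rcases ih with h0 | hcard
      · left
        rw [pow_succ, h0, Ideal.bot_mul]
      · by_cases hb : 𝔫 ^ (j + 1) = ⊥
        · exact Or.inl hb
        · right
          have hle : 𝔫 ^ (j + 1) ≤ 𝔫 ^ j := Ideal.pow_le_pow_right (Nat.le_succ j)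
          have hne : 𝔫 ^ (j + 1) ≠ 𝔫 ^ j := by
            intro heq
            apply hb
            have hfg : (𝔫 ^ j : Submodule Q Q).FG := by
              haveI : IsNoetherianRing Q := inferInstance
              exact IsNoetherian.noetherian _
            have hN : 𝔫 ^ j ≤ 𝔫 • (𝔫 ^ j : Submodule Q Q) := by
              rw [smul_eq_mul, ← pow_succ', heq]
            have := Submodule.eq_bot_of_le_smul_of_le_jacobson_bot 𝔫 (𝔫 ^ j) hfg hN h𝔫
            rw [heq]
            exact this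
          have hlt : 𝔫 ^ (j + 1) < 𝔫 ^ j := lt_of_le_of_ne hle hne
          have hss : ((𝔫 ^ (j + 1) : Ideal Q) : Set Q) ⊂ ((𝔫 ^ j : Ideal Q) : Set Q) := by
            exact_mod_cast hlt
          have hc : Set.ncard ((𝔫 ^ (j + 1) : Ideal Q) : Set Q) <
              Set.ncard ((𝔫 ^ j : Ideal Q) : Set Q) :=
            Set.ncard_lt_ncard hss (Set.toFinite _)
          have e1 : Nat.card (↥(𝔫 ^ (j + 1))) = Set.ncard ((𝔫 ^ (j + 1) : Ideal Q) : Set Q) := rfl
          have e2 : Nat.card (↥(𝔫 ^ j)) = Set.ncard ((𝔫 ^ j : Ideal Q) : Set Q) := rfl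
          omega
  rcases key (Nat.card Q) with h | h
  · exact h
  · exfalso
    have hpos : 0 < Nat.card (↥(𝔫 ^ (Nat.card Q))) := Nat.card_pos
    omega

/-- A ring homomorphism from a local ring to a finite ring kills `𝔪 ^ (Nat.card F)`. -/
theorem maximalIdeal_pow_card_le_ker {A F : Type*} [CommRing A] [IsLocalRing A] [Ring F]
    [Finite F] (ρ : A →+* F) : maximalIdeal A ^ (Nat.card F) ≤ RingHom.ker ρ := by
  classical
  set I := RingHom.ker ρ with hI
  -- the quotient `A ⧸ I` is finite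
  haveI : Finite (A ⧸ I) :=
    Finite.of_injective (RingHom.kerLift ρ) (RingHom.kerLift_injective ρ)
  have hcard : Nat.card (A ⧸ I) ≤ Nat.card F :=
    Nat.card_le_card_of_injective (RingHom.kerLift ρ) (RingHom.kerLift_injective ρ)
  set 𝔫 : Ideal (A ⧸ I) := (maximalIdeal A).map (Ideal.Quotient.mk I) with h𝔫
  have hjac : 𝔫 ≤ Ideal.jacobson ⊥ := by
    rw [h𝔫, Ideal.map_le_iff_le_comap]
    intro x hx
    rw [Ideal.mem_comap, Ideal.mem_jacobson_bot]
    intro y
    obtain ⟨y, rfl⟩ := Ideal.Quotient.mk_surjective y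
    have hxy : x * y ∈ maximalIdeal A := Ideal.mul_mem_right _ _ hx
    have hu : IsUnit (x * y + 1) := by
      by_contra hnu
      have h1 : x * y + 1 ∈ maximalIdeal A := (IsLocalRing.mem_maximalIdeal _).mpr hnu
      have h2 : (1 : A) ∈ maximalIdeal A := by
        have := Ideal.sub_mem _ h1 hxy
        simpa using this
      exact (Ideal.ne_top_iff_one _).mp (IsLocalRing.maximalIdeal.isMaximal A).ne_top h2
    have := hu.map (Ideal.Quotient.mk I)
    simpa using this
  have hbot := pow_card_eq_bot_of_le_jacobson 𝔫 hjac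
  have h1 : maximalIdeal A ^ (Nat.card (A ⧸ I)) ≤ I := by
    intro a ha
    have h2 : Ideal.Quotient.mk I a ∈ 𝔫 ^ (Nat.card (A ⧸ I)) := by
      rw [h𝔫, ← Ideal.map_pow]
      exact Ideal.mem_map_of_mem _ ha
    rw [hbot] at h2
    exact Ideal.Quotient.eq_zero_iff_mem.mp h2
  exact (Ideal.pow_le_pow_right hcard).trans h1

end Fermat.Agent.S38.H901

end
-- ===== PACK-END S38/H901/IANil.lean

-- ===== PACK-BEGIN S38/H901/IASingle.lean
section


/-!
# Row 37 (S38/S43), Ihara avoidance, "single-sided" commutative-algebra core (helper901)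

Only the `χ`-side module has to be patched.  Inputs (for the patched `χ`-module `M` over
`R = R^χ_loc⟦x⟧`, finite free over `S = S_∞`):

* `s • M ⊆ lam • M` (`s = tr Φ - ε(1+q)` or `s = q (tr Φ)² - (1+q)² det Φ`): inherited from the
  finite levels, where `s` kills the trivial-character module `M¹_n` (all forms are `q`-new
  Steinberg under the contradiction hypothesis) and `M¹_n / lam ≃ M^χ_n / lam`;
* a point `x : R → V` (valuation ring) in the support of `M` with `x lam ∤ x s`
  (the explicit point `Σ = diag(ζ, ζ⁻¹)`, `Φ = ε·diag(α, q/α)`, `v(α - 1) = v(lam)/3`).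

Then `False`.  No ring `R¹`, no second patched module, no un-patching.

Main results (Mathlib only):
* `dvd_of_monic_rel` : in a valuation ring, `a^n + ∑_{k<n} l^(n-k) e_k a^k = 0 → l ∣ a`;
* `map_dvd_of_smul_le` : Cayley–Hamilton core, `x lam ∣ x s` at every point of the support;
* `annihilator_eq_bot_of_dim_le` : faithfulness from the dimension count
  (`R` domain, `dim R ≤ dim S < ∞`, `M` finite and faithful over noetherian `S`);
* `ia_single_false` : the contradiction.
-/

set_option autoImplicit false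
set_option linter.unnecessarySimpa false
set_option linter.style.haveILetI false

namespace Fermat.Agent.S38.H901

open Polynomial

/-- In a valuation ring, a monic relation `a^n + ∑_{k<n} l^(n-k) e_k a^k = 0` forces `l ∣ a`. -/
theorem dvd_of_monic_rel {V : Type*} [CommRing V] [IsDomain V] [ValuationRing V]
    (l a : V) (n : ℕ) (e : ℕ → V)
    (h : a ^ n + ∑ k ∈ Finset.range n, l ^ (n - k) * e k * a ^ k = 0) : l ∣ a := by
  rcases ValuationRing.dvd_total l a with h1 | ⟨t, ht⟩
  · exact h1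
  · by_cases hu : IsUnit t
    · obtain ⟨u, rfl⟩ := hu
      refine ⟨((u⁻¹ : Vˣ) : V), ?_⟩
      rw [ht, mul_assoc, Units.mul_inv, mul_one]
    · have key : a ^ n * (1 + ∑ k ∈ Finset.range n, t ^ (n - k) * e k) = 0 := by
        rw [mul_add, mul_one, Finset.mul_sum, ← h]
        congr 1
        apply Finset.sum_congr rfl
        intro k hk
        have hk' := Finset.mem_range.mp hk
        have e1 : a ^ n = a ^ (n - k) * a ^ k := by
          rw [← pow_add]; congr 1; omega
        rw [ht, mul_pow, e1]; ring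
      have hmem : (∑ k ∈ Finset.range n, t ^ (n - k) * e k) ∈ IsLocalRing.maximalIdeal V := by
        apply Ideal.sum_mem
        intro k hk
        have hk' := Finset.mem_range.mp hk
        apply Ideal.mul_mem_right
        apply Ideal.pow_mem_of_mem _ ((IsLocalRing.mem_maximalIdeal t).mpr hu)
        omega
      have hunit : IsUnit (1 + ∑ k ∈ Finset.range n, t ^ (n - k) * e k) := by
        by_contra hnu
        have h2 : (1 + ∑ k ∈ Finset.range n, t ^ (n - k) * e k) ∈ IsLocalRing.maximalIdeal V :=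
          (IsLocalRing.mem_maximalIdeal _).mpr hnu
        have h3 : (1 : V) ∈ IsLocalRing.maximalIdeal V := by
          have := Ideal.sub_mem _ h2 hmem
          simpa using this
        exact (Ideal.ne_top_iff_one _).mp (IsLocalRing.maximalIdeal.isMaximal V).ne_top h3
      have h4 : a ^ n = 0 := by
        rcases mul_eq_zero.mp key with h5 | h5
        · exact h5
        · exact absurd h5 hunit.ne_zero
      have h6 : a = 0 := pow_eq_zero_iff (n := n) (by
        rintro rfl
        simp at h4) |>.mp h4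
      exact ⟨0, by rw [h6, mul_zero]⟩

/-- **Cayley–Hamilton core.**  If `s • M ⊆ lam • M` for a finite `R`-module `M`, then at every
point `x : R → V` of the support of `M` (`Ann M ≤ ker x`) with values in a valuation ring,
`x lam ∣ x s`. -/
theorem map_dvd_of_smul_le {R : Type*} [CommRing R] {M : Type*} [AddCommGroup M] [Module R M]
    [Module.Finite R M] (lam s : R) (hs : ∀ m : M, ∃ m' : M, s • m = lam • m')
    {V : Type*} [CommRing V] [IsDomain V] [ValuationRing V] (x : R →+* V)
    (hx : Module.annihilator R M ≤ RingHom.ker x) : x lam ∣ x s := by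
  classical
  have hrange : LinearMap.range (algebraMap R (Module.End R M) s) ≤
      (Ideal.span {lam} : Ideal R) • (⊤ : Submodule R M) := by
    rintro _ ⟨m, rfl⟩
    obtain ⟨m', hm'⟩ := hs m
    rw [Module.algebraMap_end_apply, hm']
    exact Submodule.smul_mem_smul (Ideal.mem_span_singleton_self lam) Submodule.mem_top
  obtain ⟨p, hmon, -, hcoeff, hp⟩ :=
    LinearMap.exists_monic_and_natDegree_eq_and_coeff_mem_pow_and_aeval_eq_zero R
      (algebraMap R (Module.End R M) s) (Ideal.span {lam}) hrange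
  have hann : p.eval s ∈ Module.annihilator R M := by
    rw [Module.mem_annihilator]
    intro m
    have h1 : aeval (algebraMap R (Module.End R M) s) p = algebraMap R (Module.End R M) (p.eval s) := by
      rw [Polynomial.aeval_algebraMap_apply, Polynomial.coe_aeval_eq_eval]
    have h2 := congrArg (fun f : Module.End R M => f m) hp
    simp only [h1, Module.algebraMap_end_apply, LinearMap.zero_apply] at h2
    exact h2
  have hzero : x (p.eval s) = 0 := hx hann
  -- coefficients
  have hc : ∀ k, ∃ d : R, p.coeff k = lam ^ (p.natDegree - k) * d := by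
    intro k
    have := hcoeff k
    rw [Ideal.span_singleton_pow, Ideal.mem_span_singleton'] at this
    obtain ⟨d, hd⟩ := this
    exact ⟨d, by rw [← hd, mul_comm]⟩
  choose d hd using hc
  apply dvd_of_monic_rel (x lam) (x s) p.natDegree (fun k => x (d k))
  rw [Polynomial.eval_eq_sum_range, Finset.sum_range_succ, map_add, map_sum] at hzero
  rw [add_comm]
  rw [hmon.coeff_natDegree, one_mul, map_pow] at hzero
  rw [← hzero]
  congr 1
  apply Finset.sum_congr rfl
  intro k _
  rw [hd k]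
  simp only [map_mul, map_pow]


/-- **Cayley–Hamilton core, ideal form.**  If `s • M ⊆ lam • M` for a finite `R`-module `M`,
then a power of `s` lies in `(lam) + Ann M`. -/
theorem exists_pow_mem_sup_annihilator {R : Type*} [CommRing R] {M : Type*} [AddCommGroup M]
    [Module R M] [Module.Finite R M] (lam s : R) (hs : ∀ m : M, ∃ m' : M, s • m = lam • m') :
    ∃ n : ℕ, s ^ n ∈ Ideal.span {lam} ⊔ Module.annihilator R M := by
  classical
  have hrange : LinearMap.range (algebraMap R (Module.End R M) s) ≤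
      (Ideal.span {lam} : Ideal R) • (⊤ : Submodule R M) := by
    rintro _ ⟨m, rfl⟩
    obtain ⟨m', hm'⟩ := hs m
    rw [Module.algebraMap_end_apply, hm']
    exact Submodule.smul_mem_smul (Ideal.mem_span_singleton_self lam) Submodule.mem_top
  obtain ⟨p, hmon, -, hcoeff, hp⟩ :=
    LinearMap.exists_monic_and_natDegree_eq_and_coeff_mem_pow_and_aeval_eq_zero R
      (algebraMap R (Module.End R M) s) (Ideal.span {lam}) hrange
  have hann : p.eval s ∈ Module.annihilator R M := by
    rw [Module.mem_annihilator]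
    intro m
    have h1 : aeval (algebraMap R (Module.End R M) s) p =
        algebraMap R (Module.End R M) (p.eval s) := by
      rw [Polynomial.aeval_algebraMap_apply, Polynomial.coe_aeval_eq_eval]
    have h2 := congrArg (fun f : Module.End R M => f m) hp
    simp only [h1, Module.algebraMap_end_apply, LinearMap.zero_apply] at h2
    exact h2
  refine ⟨p.natDegree, ?_⟩
  have hsum : s ^ p.natDegree =
      p.eval s - ∑ k ∈ Finset.range p.natDegree, p.coeff k * s ^ k := by
    rw [Polynomial.eval_eq_sum_range, Finset.sum_range_succ, hmon.coeff_natDegree, one_mul]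
    ring
  rw [hsum]
  apply Ideal.sub_mem
  · exact Ideal.mem_sup_right hann
  · apply Ideal.sum_mem
    intro k hk
    have hk' := Finset.mem_range.mp hk
    apply Ideal.mem_sup_left
    apply Ideal.mul_mem_right
    have h1 := hcoeff k
    have h2 : (Ideal.span {lam} : Ideal R) ^ (p.natDegree - k) ≤ Ideal.span {lam} := by
      have hpos : p.natDegree - k ≠ 0 := by omega
      exact Ideal.pow_le_self hpos
    exact h2 h1

/-! ### Faithfulness from the dimension count -/

open nonZeroDivisors in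
/-- Going up: an injective integral extension does not lower the Krull dimension. -/
theorem ringKrullDim_le_of_isIntegral_of_injective {S B : Type*} [CommRing S] [CommRing B]
    [Algebra S B] [Algebra.IsIntegral S B] (hinj : Function.Injective (algebraMap S B)) :
    ringKrullDim S ≤ ringKrullDim B := by
  rw [ringKrullDim, ringKrullDim, Order.krullDim, Order.krullDim]
  apply iSup_le
  intro l
  have hker : (⊥ : Ideal B).comap (algebraMap S B) ≤ (RelSeries.head l).asIdeal := by
    rw [← RingHom.ker_eq_comap_bot, (RingHom.injective_iff_ker_eq_bot _).mp hinj]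
    exact bot_le
  obtain ⟨P, -, hP, hPc⟩ :=
    Ideal.exists_ideal_over_prime_of_isIntegral (RelSeries.head l).asIdeal (⊥ : Ideal B) hker
  haveI := hP
  haveI : P.LiesOver (RelSeries.head l).asIdeal := ⟨hPc.symm⟩
  obtain ⟨L, hlen, -, -⟩ := Ideal.exists_ltSeries_of_hasGoingUp l P
  rw [← hlen]
  exact le_iSup (fun L : LTSeries (PrimeSpectrum B) => (L.length : WithBot ℕ∞)) L

/-- Every element of `R` is integral over `S` modulo the annihilator of an `S`-finite module. -/
theorem exists_monic_aeval_mem_annihilator {S R M : Type*} [CommRing S] [CommRing R]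
    [Algebra S R] [AddCommGroup M] [Module S M] [Module R M] [IsScalarTower S R M]
    [Module.Finite S M] (r : R) :
    ∃ p : S[X], p.Monic ∧ aeval r p ∈ Module.annihilator R M := by
  classical
  let f : Module.End S M :=
    { toFun := fun m => r • m
      map_add' := fun a b => smul_add r a b
      map_smul' := fun a m => by
        simp only [RingHom.id_apply]
        exact smul_comm r a m }
  obtain ⟨p, hmon, -, hp⟩ := LinearMap.exists_monic_and_natDegree_eq_and_aeval_eq_zero S f
  refine ⟨p, hmon, ?_⟩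
  rw [Module.mem_annihilator]
  intro m
  have key : ∀ (q : S[X]) (m : M), (aeval r q) • m = (aeval f q) m := by
    intro q
    induction q using Polynomial.induction_on' with
    | add a b ha hb =>
      intro m
      rw [map_add, map_add, add_smul, ha, hb, LinearMap.add_apply]
    | monomial n a =>
      intro m
      rw [Polynomial.aeval_monomial, Polynomial.aeval_monomial]
      rw [Module.End.mul_apply, Module.algebraMap_end_apply]
      have hpow : ∀ (k : ℕ) (m : M), (f ^ k) m = r ^ k • m := by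
        intro k
        induction k with
        | zero => intro m; simp
        | succ k ih =>
          intro m
          rw [pow_succ, Module.End.mul_apply, ih, pow_succ, mul_smul]
          rfl
      rw [hpow, mul_smul, algebraMap_smul]
  rw [key, hp, LinearMap.zero_apply]

/-- **Support lemma.**  `S` a domain of finite Krull dimension, `M` an `S`-finite module on which
`S` acts faithfully, with a compatible `R`-action; `P₀` a prime of `R` contained in every prime of
`R` lying over `0` of `S` (e.g. `P₀ = ⊥` for a domain `R`; or the unique characteristic-zero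
component), with `dim R/P₀ ≤ dim S`.  Then `Ann_R M ≤ P₀`. -/
theorem annihilator_le_of_dim_le {S R M : Type*} [CommRing S] [IsDomain S] [CommRing R]
    [Algebra S R] [AddCommGroup M] [Module S M] [Module R M] [IsScalarTower S R M]
    [Module.Finite S M] (hfaith : ∀ a : S, (∀ m : M, a • m = 0) → a = 0)
    (P₀ : Ideal R) [P₀.IsPrime]
    (hP₀ : ∀ P : Ideal R, P.IsPrime → P.comap (algebraMap S R) = ⊥ → P₀ ≤ P)
    (hdim : ringKrullDim (R ⧸ P₀) ≤ ringKrullDim S) (hfin : ringKrullDim S < ⊤) :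
    Module.annihilator R M ≤ P₀ := by
  classical
  set I := Module.annihilator R M with hI
  -- `R ⧸ I` is integral over `S`
  haveI hint : Algebra.IsIntegral S (R ⧸ I) := by
    refine ⟨fun t => ?_⟩
    obtain ⟨r, rfl⟩ := Ideal.Quotient.mk_surjective t
    obtain ⟨p, hmon, hp⟩ := exists_monic_aeval_mem_annihilator (S := S) (M := M) r
    refine ⟨p, hmon, ?_⟩
    have h1 : Polynomial.eval₂ (algebraMap S (R ⧸ I)) (Ideal.Quotient.mk I r) p =
        Ideal.Quotient.mk I (aeval r p) := by
      rw [Polynomial.aeval_def, Polynomial.hom_eval₂]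
      rfl
    rw [h1]
    exact Ideal.Quotient.eq_zero_iff_mem.mpr hp
  have hinj : Function.Injective (algebraMap S (R ⧸ I)) := by
    rw [injective_iff_map_eq_zero]
    intro a ha
    apply hfaith
    intro m
    have h2 : algebraMap S R a ∈ I := by
      have : algebraMap S (R ⧸ I) a = Ideal.Quotient.mk I (algebraMap S R a) := rfl
      rw [this] at ha
      exact Ideal.Quotient.eq_zero_iff_mem.mp ha
    have h3 := (Module.mem_annihilator.mp h2) m
    rwa [algebraMap_smul] at h3
  -- a prime of `R ⧸ I` over `0`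
  have hker : (⊥ : Ideal (R ⧸ I)).comap (algebraMap S (R ⧸ I)) ≤ (⊥ : Ideal S) := by
    rw [← RingHom.ker_eq_comap_bot, (RingHom.injective_iff_ker_eq_bot _).mp hinj]
  obtain ⟨Q, -, hQ, hQc⟩ :=
    Ideal.exists_ideal_over_prime_of_isIntegral (⊥ : Ideal S) (⊥ : Ideal (R ⧸ I)) hker
  haveI := hQ
  set P : Ideal R := Q.comap (Ideal.Quotient.mk I) with hPdef
  haveI hPprime : P.IsPrime := Ideal.comap_isPrime _ _
  have hIP : I ≤ P := by
    intro a ha
    rw [hPdef, Ideal.mem_comap, Ideal.Quotient.eq_zero_iff_mem.mpr ha]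
    exact Q.zero_mem
  have hPS : P.comap (algebraMap S R) = ⊥ := by
    rw [hPdef, Ideal.comap_comap]
    exact hQc
  have hP₀P : P₀ ≤ P := hP₀ P hPprime hPS
  -- `R ⧸ P` is integral over `S` and `S → R ⧸ P` is injective
  haveI hint' : Algebra.IsIntegral S (R ⧸ P) := by
    refine ⟨fun t => ?_⟩
    obtain ⟨r, rfl⟩ := Ideal.Quotient.mk_surjective t
    obtain ⟨p, hmon, hp⟩ := exists_monic_aeval_mem_annihilator (S := S) (M := M) r
    refine ⟨p, hmon, ?_⟩
    have h1 : Polynomial.eval₂ (algebraMap S (R ⧸ P)) (Ideal.Quotient.mk P r) p =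
        Ideal.Quotient.mk P (aeval r p) := by
      rw [Polynomial.aeval_def, Polynomial.hom_eval₂]
      rfl
    rw [h1]
    exact Ideal.Quotient.eq_zero_iff_mem.mpr (hIP hp)
  have hinj' : Function.Injective (algebraMap S (R ⧸ P)) := by
    rw [injective_iff_map_eq_zero]
    intro a ha
    have h2 : algebraMap S R a ∈ P := by
      have : algebraMap S (R ⧸ P) a = Ideal.Quotient.mk P (algebraMap S R a) := rfl
      rw [this] at ha
      exact Ideal.Quotient.eq_zero_iff_mem.mp ha
    have h3 : a ∈ P.comap (algebraMap S R) := h2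
    rw [hPS] at h3
    exact h3
  have hd1 : ringKrullDim S ≤ ringKrullDim (R ⧸ P) :=
    ringKrullDim_le_of_isIntegral_of_injective hinj'
  -- if `P₀ < P` then `dim R/P + 1 ≤ dim R/P₀`
  by_contra hcon
  have hne : P₀ ≠ P := by
    rintro rfl
    exact hcon hIP
  obtain ⟨a, haP, haP₀⟩ : ∃ a, a ∈ P ∧ a ∉ P₀ := by
    by_contra h
    push Not at h
    exact hne (le_antisymm hP₀P (fun a ha => h a ha))
  have hd2 : ringKrullDim (R ⧸ P) + 1 ≤ ringKrullDim (R ⧸ P₀) := by
    refine ringKrullDim_succ_le_of_surjective (Ideal.Quotient.factor hP₀P)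
      (Ideal.Quotient.factor_surjective hP₀P) (r := Ideal.Quotient.mk P₀ a) ?_ ?_
    · apply mem_nonZeroDivisors_of_ne_zero
      intro h0
      exact haP₀ (Ideal.Quotient.eq_zero_iff_mem.mp h0)
    · rw [Ideal.Quotient.factor_mk]
      exact Ideal.Quotient.eq_zero_iff_mem.mpr haP
  have hd3 : ringKrullDim S + 1 ≤ ringKrullDim S :=
    le_trans (le_trans (by gcongr) hd2) hdim
  -- `dim S` is a natural number
  have hbot : ringKrullDim S ≠ ⊥ := by
    intro h
    have h0 : (0 : WithBot ℕ∞) ≤ ringKrullDim S := ringKrullDim_nonneg_of_nontrivial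
    rw [h] at h0
    exact absurd h0 (by simp)
  obtain ⟨n, hn⟩ : ∃ n : ℕ, ringKrullDim S = n := by
    cases h : ringKrullDim S with
    | bot => exact absurd h hbot
    | coe c =>
      cases hc : c with
      | top => rw [h, hc] at hfin; exact absurd hfin (lt_irrefl _)
      | coe n => exact ⟨n, rfl⟩
  rw [hn] at hd3
  have : ((n + 1 : ℕ) : WithBot ℕ∞) ≤ (n : ℕ) := by
    simpa using hd3
  have h5 : n + 1 ≤ n := by exact_mod_cast this
  omega

/-- **Single-sided Ihara avoidance, commutative-algebra core.**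
`S = S_∞` (domain of finite dimension), `R = R^χ_∞`, `M = M^χ_∞` finite over `S` with faithful
`S`-action and compatible `R`-action; `P₀` the characteristic-zero component of `R`
(`dim R/P₀ ≤ dim S`); `s • M ⊆ lam • M`; `x : R → V` a point with values in a valuation ring,
lying on `P₀`, with `x lam ∤ x s`.  Contradiction. -/
theorem ia_single_false {S R M V : Type*} [CommRing S] [IsDomain S] [CommRing R]
    [Algebra S R] [AddCommGroup M] [Module S M] [Module R M] [IsScalarTower S R M]
    [Module.Finite S M] (hfaith : ∀ a : S, (∀ m : M, a • m = 0) → a = 0)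
    (P₀ : Ideal R) [P₀.IsPrime]
    (hP₀ : ∀ P : Ideal R, P.IsPrime → P.comap (algebraMap S R) = ⊥ → P₀ ≤ P)
    (hdim : ringKrullDim (R ⧸ P₀) ≤ ringKrullDim S) (hfin : ringKrullDim S < ⊤)
    (lam s : R) (hs : ∀ m : M, ∃ m' : M, s • m = lam • m')
    [CommRing V] [IsDomain V] [ValuationRing V] (x : R →+* V) (hx₀ : P₀ ≤ RingHom.ker x)
    (hx : ¬ x lam ∣ x s) : False := by
  haveI : Module.Finite R M := Module.Finite.of_restrictScalars_finite S R M
  exact hx (map_dvd_of_smul_le lam s hs x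
    ((annihilator_le_of_dim_le hfaith P₀ hP₀ hdim hfin).trans hx₀))

/-- Ideal form of `ia_single_false`: a power of `s` lies in `(lam) + P₀`.  (So it suffices that
`s` is not nilpotent in `R ⧸ (lam, P₀)`, a computation in the special fibre.) -/
theorem ia_single_pow_mem {S R M : Type*} [CommRing S] [IsDomain S] [CommRing R]
    [Algebra S R] [AddCommGroup M] [Module S M] [Module R M] [IsScalarTower S R M]
    [Module.Finite S M] (hfaith : ∀ a : S, (∀ m : M, a • m = 0) → a = 0)
    (P₀ : Ideal R) [P₀.IsPrime]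
    (hP₀ : ∀ P : Ideal R, P.IsPrime → P.comap (algebraMap S R) = ⊥ → P₀ ≤ P)
    (hdim : ringKrullDim (R ⧸ P₀) ≤ ringKrullDim S) (hfin : ringKrullDim S < ⊤)
    (lam s : R) (hs : ∀ m : M, ∃ m' : M, s • m = lam • m') :
    ∃ n : ℕ, s ^ n ∈ Ideal.span {lam} ⊔ P₀ := by
  haveI : Module.Finite R M := Module.Finite.of_restrictScalars_finite S R M
  obtain ⟨n, hn⟩ := exists_pow_mem_sup_annihilator (M := M) lam s hs
  exact ⟨n, (sup_le_sup_left (annihilator_le_of_dim_le hfaith P₀ hP₀ hdim hfin) _) hn⟩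

/-- The domain case `P₀ = ⊥`. -/
theorem ia_single_false_of_isDomain {S R M V : Type*} [CommRing S] [IsDomain S] [CommRing R]
    [IsDomain R] [Algebra S R] [AddCommGroup M] [Module S M] [Module R M] [IsScalarTower S R M]
    [Module.Finite S M] (hfaith : ∀ a : S, (∀ m : M, a • m = 0) → a = 0)
    (hdim : ringKrullDim R ≤ ringKrullDim S) (hfin : ringKrullDim S < ⊤)
    (lam s : R) (hs : ∀ m : M, ∃ m' : M, s • m = lam • m')
    [CommRing V] [IsDomain V] [ValuationRing V] (x : R →+* V)
    (hx : ¬ x lam ∣ x s) : False := by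
  haveI : (⊥ : Ideal R).IsPrime := Ideal.isPrime_bot
  refine ia_single_false (S := S) (M := M) hfaith (⊥ : Ideal R) (fun _ _ _ => bot_le) ?_ hfin
    lam s hs x bot_le hx
  rw [ringKrullDim_eq_of_ringEquiv (RingEquiv.quotientBot R)]
  exact hdim

end Fermat.Agent.S38.H901

end
-- ===== PACK-END S38/H901/IASingle.lean

-- ===== PACK-BEGIN S38/H901/IAPatch.lean
section





/-!
# Row 37 (S38/S43), Ihara avoidance: single-sided patching in coordinates (helper901)

`exists_patched` : from levels `(φ n : S →+* A, ρ n : A →+* M_d(S ⧸ I ^ n))` with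
`ρ n ∘ φ n = scalar`, `φ n lamS = lamA`, `ρ n s ∈ lamS · M_d` one gets
`Φ : S →+* A`, `P : A →+* M_d(S)` with the same properties (limits along the hyperfilter;
`S`, `A` adically complete with finite quotients, `A` local).  No compatibility between the
levels and no "level 0" is required.

`ia_single_levels_false` : the complete commutative-algebra core of single-sided Ihara avoidance:
levels + local data (`P₀`, dimension bound, explicit point) give `False`.
-/

set_option autoImplicit false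
set_option linter.unnecessarySimpa false
set_option linter.style.haveILetI false
set_option linter.unusedSectionVars false

namespace Fermat.Agent.S38.H901

open IsLocalRing Filter Fermat.Agent.S59.Patch.H967

section Patch

variable {S A : Type*} [CommRing S] [CommRing A] [IsLocalRing A] {I : Ideal S} {d : ℕ}

/-- An entrywise lift of a matrix over `S ⧸ J`. -/
noncomputable def liftMat (J : Ideal S) (m : Matrix (Fin d) (Fin d) (S ⧸ J)) :
    Matrix (Fin d) (Fin d) S :=
  fun i j => (Ideal.Quotient.mk_surjective (m i j)).choose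

theorem mk_liftMat (J : Ideal S) (m : Matrix (Fin d) (Fin d) (S ⧸ J)) (i j : Fin d) :
    Ideal.Quotient.mk J (liftMat J m i j) = m i j :=
  (Ideal.Quotient.mk_surjective (m i j)).choose_spec

theorem liftMat_sub_mem (J : Ideal S) (m : Matrix (Fin d) (Fin d) (S ⧸ J)) (i j : Fin d)
    (c : S) (hc : Ideal.Quotient.mk J c = m i j) : liftMat J m i j - c ∈ J := by
  rw [← Ideal.Quotient.eq, mk_liftMat, hc]

variable (hS : IsProfiniteAdic I) (ρ : ∀ n, A →+* Matrix (Fin d) (Fin d) (S ⧸ I ^ n))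

/-- The limit of the matrices `ρ n a` along the hyperfilter. -/
noncomputable def limMat (a : A) : Matrix (Fin d) (Fin d) S :=
  fun i j => ulim hS (fun n => liftMat (I ^ n) (ρ n a) i j)

theorem limMat_eq_of_mem (a : A) (c : ℕ → Matrix (Fin d) (Fin d) S)
    (hc : ∀ n i j, Ideal.Quotient.mk (I ^ n) (c n i j) = ρ n a i j) (i j : Fin d) :
    limMat hS ρ a i j = ulim hS (fun n => c n i j) :=
  ulim_congr_of_mem_pow hS fun n => liftMat_sub_mem (I ^ n) (ρ n a) i j (c n i j) (hc n i j)

/-- The limit representation. -/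
noncomputable def limRep : A →+* Matrix (Fin d) (Fin d) S where
  toFun a := limMat hS ρ a
  map_one' := by
    ext i j
    rw [limMat_eq_of_mem hS ρ 1 (fun _ => 1) (fun n i j => by
      rw [map_one]
      by_cases h : i = j
      · subst h; simp
      · simp [Matrix.one_apply_ne h]) i j]
    exact ulim_const hS _
  map_zero' := by
    ext i j
    rw [limMat_eq_of_mem hS ρ 0 (fun _ => 0) (fun n i j => by simp) i j]
    exact ulim_const hS _
  map_add' a b := by
    ext i j
    rw [limMat_eq_of_mem hS ρ (a + b)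
      (fun n => liftMat (I ^ n) (ρ n a) + liftMat (I ^ n) (ρ n b)) (fun n i j => by
        rw [map_add, Matrix.add_apply, Matrix.add_apply, map_add, mk_liftMat, mk_liftMat]) i j]
    simp only [Matrix.add_apply]
    exact ulim_add hS _ _
  map_mul' a b := by
    ext i j
    rw [limMat_eq_of_mem hS ρ (a * b)
      (fun n => liftMat (I ^ n) (ρ n a) * liftMat (I ^ n) (ρ n b)) (fun n i j => by
        rw [map_mul, Matrix.mul_apply, Matrix.mul_apply, map_sum]
        apply Finset.sum_congr rfl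
        intro k _
        rw [map_mul, mk_liftMat, mk_liftMat]) i j]
    simp only [Matrix.mul_apply]
    rw [ulim_sum hS]
    apply Finset.sum_congr rfl
    intro k _
    exact ulim_mul hS _ _

theorem limRep_apply (a : A) (i j : Fin d) :
    limRep hS ρ a i j = ulim hS (fun n => liftMat (I ^ n) (ρ n a) i j) := rfl

/-- The entries of `ρ n a` vanish modulo `I ^ k` (`k ≤ n`) for `a` in a fixed power of `𝔪_A`. -/
theorem liftMat_mem_of_mem_pow (hS : IsProfiniteAdic I) (k n : ℕ) (hkn : k ≤ n) (a : A)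
    (ha : a ∈ maximalIdeal A ^ (Nat.card (Matrix (Fin d) (Fin d) (S ⧸ I ^ k)))) (i j : Fin d) :
    liftMat (I ^ n) (ρ n a) i j ∈ I ^ k := by
  haveI : Finite (S ⧸ I ^ k) := hS.fin k
  haveI : Finite (Matrix (Fin d) (Fin d) (S ⧸ I ^ k)) :=
    inferInstanceAs (Finite (Fin d → Fin d → S ⧸ I ^ k))
  have hle : I ^ n ≤ I ^ k := Ideal.pow_le_pow_right hkn
  let red : Matrix (Fin d) (Fin d) (S ⧸ I ^ n) →+* Matrix (Fin d) (Fin d) (S ⧸ I ^ k) :=
    (Ideal.Quotient.factor hle).mapMatrix
  have h0 : (red.comp (ρ n)) a = 0 := by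
    have := maximalIdeal_pow_card_le_ker (red.comp (ρ n)) ha
    exact this
  have h1 : Ideal.Quotient.factor hle (ρ n a i j) = 0 := by
    have := congrFun (congrFun h0 i) j
    simpa [red] using this
  rw [← mk_liftMat (I ^ n) (ρ n a) i j, Ideal.Quotient.factor_mk] at h1
  exact Ideal.Quotient.eq_zero_iff_mem.mp h1

/-- **Single-sided patching in coordinates.** -/
theorem exists_patched (hS : IsProfiniteAdic I) (hA : IsProfiniteAdic (maximalIdeal A))
    (lamS : S) (lamA s : A) (φ : ℕ → S →+* A)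
    (ρ : ∀ n, A →+* Matrix (Fin d) (Fin d) (S ⧸ I ^ n))
    (hlam : ∀ n, φ n lamS = lamA)
    (hscal : ∀ n f, ρ n (φ n f) = Matrix.scalar (Fin d) (Ideal.Quotient.mk (I ^ n) f))
    (hs : ∀ n, ∃ B : Matrix (Fin d) (Fin d) (S ⧸ I ^ n),
      ρ n s = Ideal.Quotient.mk (I ^ n) lamS • B) :
    ∃ (Φ : S →+* A) (P : A →+* Matrix (Fin d) (Fin d) S),
      Φ lamS = lamA ∧ (∀ f, P (Φ f) = Matrix.scalar (Fin d) f) ∧
        ∃ B : Matrix (Fin d) (Fin d) S, P s = lamS • B := by
  classical
  let Φ : S →+* A := (ulimHom hA).comp (RingHom.pi φ)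
  have hΦ : ∀ f, Φ f = ulim hA (fun n => φ n f) := fun f => rfl
  refine ⟨Φ, limRep hS ρ, ?_, ?_, ?_⟩
  · rw [hΦ]
    have : (fun n => φ n lamS) = fun _ => lamA := funext hlam
    rw [this]
    exact ulim_const hA lamA
  · intro f
    ext i j
    rw [limRep_apply]
    apply IsUlim.eq_ulim hS
    intro k
    have hΦu := isUlim_ulim hA (fun n => φ n f)
      (Nat.card (Matrix (Fin d) (Fin d) (S ⧸ I ^ k)))
    have hge : ∀ᶠ n in ((hyperfilter ℕ : Ultrafilter ℕ) : Filter ℕ), k ≤ n :=
      Nat.hyperfilter_le_atTop (eventually_ge_atTop k)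
    filter_upwards [hΦu, hge] with n hn hkn
    -- `Φ f - φ n f ∈ 𝔪 ^ K`
    have hmem : Φ f - φ n f ∈
        maximalIdeal A ^ (Nat.card (Matrix (Fin d) (Fin d) (S ⧸ I ^ k))) := by
      have : Φ f - φ n f = -(φ n f - ulim hA (fun n => φ n f)) := by rw [hΦ]; ring
      rw [this]
      exact Ideal.neg_mem_iff _ |>.mpr hn
    have h1 := liftMat_mem_of_mem_pow ρ hS k n hkn (Φ f - φ n f) hmem i j
    -- compare lifts
    have hle : I ^ n ≤ I ^ k := Ideal.pow_le_pow_right hkn
    have h2 : liftMat (I ^ n) (ρ n (Φ f)) i j -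
        (liftMat (I ^ n) (ρ n (Φ f - φ n f)) i j + Matrix.scalar (Fin d) f i j) ∈ I ^ n := by
      rw [← Ideal.Quotient.eq, map_add, mk_liftMat, mk_liftMat, map_sub, Matrix.sub_apply,
        hscal n f]
      have : Ideal.Quotient.mk (I ^ n) (Matrix.scalar (Fin d) f i j) =
          Matrix.scalar (Fin d) (Ideal.Quotient.mk (I ^ n) f) i j := by
        by_cases h : i = j
        · subst h; simp
        · simp [Matrix.scalar_apply, Matrix.diagonal_apply_ne _ h]
      rw [this]
      ring
    have h3 : liftMat (I ^ n) (ρ n (Φ f)) i j - Matrix.scalar (Fin d) f i j =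
        (liftMat (I ^ n) (ρ n (Φ f)) i j -
          (liftMat (I ^ n) (ρ n (Φ f - φ n f)) i j + Matrix.scalar (Fin d) f i j)) +
        liftMat (I ^ n) (ρ n (Φ f - φ n f)) i j := by ring
    rw [h3]
    exact Ideal.add_mem _ (hle h2) h1
  · choose B hB using hs
    refine ⟨Matrix.of (fun i j => ulim hS (fun n => liftMat (I ^ n) (B n) i j)), ?_⟩
    ext i j
    rw [limRep_apply, Matrix.smul_apply, smul_eq_mul, Matrix.of_apply]
    have h1 : ulim hS (fun n => liftMat (I ^ n) (ρ n s) i j) =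
        ulim hS (fun n => lamS * liftMat (I ^ n) (B n) i j) := by
      apply ulim_congr_of_mem_pow hS
      intro n
      rw [← Ideal.Quotient.eq, mk_liftMat, map_mul, mk_liftMat, hB n, Matrix.smul_apply,
        smul_eq_mul]
    rw [h1, ulim_mul hS, ulim_const hS]

end Patch

/-- The contradiction for a patched object in coordinates. -/
theorem ia_single_patched_false {S A V : Type*} [CommRing S] [IsDomain S] [CommRing A]
    (hfin : ringKrullDim S < ⊤) {d : ℕ} (hd : 0 < d)
    (lamS : S) (hlamS : lamS ≠ 0) (lamA s : A)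
    (P₀ : Ideal A) [P₀.IsPrime] (hP₀ : ∀ P : Ideal A, P.IsPrime → lamA ∉ P → P₀ ≤ P)
    (hdim : ringKrullDim (A ⧸ P₀) ≤ ringKrullDim S)
    (Φ : S →+* A) (P : A →+* Matrix (Fin d) (Fin d) S)
    (h1 : Φ lamS = lamA) (h2 : ∀ f, P (Φ f) = Matrix.scalar (Fin d) f)
    (B : Matrix (Fin d) (Fin d) S) (hB : P s = lamS • B)
    [CommRing V] [IsDomain V] [ValuationRing V] (x : A →+* V) (hx₀ : P₀ ≤ RingHom.ker x)
    (hx : ¬ x lamA ∣ x s) : False := by
  classical
  letI : Algebra S A := Φ.toAlgebra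
  have halg : ∀ f : S, algebraMap S A f = Φ f := fun f => rfl
  let P' : A →+* Module.End S (Fin d → S) :=
    ((Matrix.toLinAlgEquiv' : Matrix (Fin d) (Fin d) S ≃ₐ[S] _).toAlgHom.toRingHom).comp P
  letI : Module A (Fin d → S) := Module.compHom (Fin d → S) P'
  have hsmul : ∀ (a : A) (m : Fin d → S), a • m = (P a).mulVec m := by
    intro a m
    show (P' a) m = _
    simp [P', Matrix.toLinAlgEquiv'_apply]
  haveI : IsScalarTower S A (Fin d → S) := by
    refine ⟨fun f a m => ?_⟩
    rw [hsmul, hsmul, Algebra.smul_def, halg, map_mul, h2, ← Matrix.mulVec_mulVec]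
    ext i
    simp [Matrix.mulVec, dotProduct, Matrix.scalar_apply, Matrix.diagonal_apply,
      Finset.sum_ite_eq]
  have hfaith : ∀ a : S, (∀ m : Fin d → S, a • m = 0) → a = 0 := by
    intro a ha
    have := congrFun (ha (fun _ => 1)) ⟨0, hd⟩
    simpa using this
  have hP₀' : ∀ Q : Ideal A, Q.IsPrime → Q.comap (algebraMap S A) = ⊥ → P₀ ≤ Q := by
    intro Q hQ hQS
    apply hP₀ Q hQ
    intro hmem
    apply hlamS
    have : lamS ∈ Q.comap (algebraMap S A) := by
      rw [Ideal.mem_comap, halg, h1]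
      exact hmem
    rw [hQS] at this
    exact this
  have hs' : ∀ m : Fin d → S, ∃ m' : Fin d → S, s • m = lamA • m' := by
    intro m
    refine ⟨B.mulVec m, ?_⟩
    rw [hsmul, hsmul, hB, ← h1, h2, Matrix.smul_mulVec]
    ext i
    simp [Matrix.mulVec, dotProduct, Matrix.scalar_apply, Matrix.diagonal_apply,
      Finset.sum_ite_eq]
  exact ia_single_false (S := S) (R := A) (M := Fin d → S) hfaith P₀ hP₀' hdim hfin lamA s hs'
    x hx₀ hx

/-- Ideal form of `ia_single_patched_false`: a power of `s` lies in `(lamA) + P₀`. -/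
theorem ia_single_patched_pow_mem {S A : Type*} [CommRing S] [IsDomain S] [CommRing A]
    (hfin : ringKrullDim S < ⊤) {d : ℕ} (hd : 0 < d)
    (lamS : S) (hlamS : lamS ≠ 0) (lamA s : A)
    (P₀ : Ideal A) [P₀.IsPrime] (hP₀ : ∀ P : Ideal A, P.IsPrime → lamA ∉ P → P₀ ≤ P)
    (hdim : ringKrullDim (A ⧸ P₀) ≤ ringKrullDim S)
    (Φ : S →+* A) (P : A →+* Matrix (Fin d) (Fin d) S)
    (h1 : Φ lamS = lamA) (h2 : ∀ f, P (Φ f) = Matrix.scalar (Fin d) f)
    (B : Matrix (Fin d) (Fin d) S) (hB : P s = lamS • B) :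
    ∃ n : ℕ, s ^ n ∈ Ideal.span {lamA} ⊔ P₀ := by
  classical
  letI : Algebra S A := Φ.toAlgebra
  have halg : ∀ f : S, algebraMap S A f = Φ f := fun f => rfl
  let P' : A →+* Module.End S (Fin d → S) :=
    ((Matrix.toLinAlgEquiv' : Matrix (Fin d) (Fin d) S ≃ₐ[S] _).toAlgHom.toRingHom).comp P
  letI : Module A (Fin d → S) := Module.compHom (Fin d → S) P'
  have hsmul : ∀ (a : A) (m : Fin d → S), a • m = (P a).mulVec m := by
    intro a m
    show (P' a) m = _
    simp [P', Matrix.toLinAlgEquiv'_apply]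
  haveI : IsScalarTower S A (Fin d → S) := by
    refine ⟨fun f a m => ?_⟩
    rw [hsmul, hsmul, Algebra.smul_def, halg, map_mul, h2, ← Matrix.mulVec_mulVec]
    ext i
    simp [Matrix.mulVec, dotProduct, Matrix.scalar_apply, Matrix.diagonal_apply,
      Finset.sum_ite_eq]
  have hfaith : ∀ a : S, (∀ m : Fin d → S, a • m = 0) → a = 0 := by
    intro a ha
    have := congrFun (ha (fun _ => 1)) ⟨0, hd⟩
    simpa using this
  have hP₀' : ∀ Q : Ideal A, Q.IsPrime → Q.comap (algebraMap S A) = ⊥ → P₀ ≤ Q := by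
    intro Q hQ hQS
    apply hP₀ Q hQ
    intro hmem
    apply hlamS
    have : lamS ∈ Q.comap (algebraMap S A) := by
      rw [Ideal.mem_comap, halg, h1]
      exact hmem
    rw [hQS] at this
    exact this
  have hs' : ∀ m : Fin d → S, ∃ m' : Fin d → S, s • m = lamA • m' := by
    intro m
    refine ⟨B.mulVec m, ?_⟩
    rw [hsmul, hsmul, hB, ← h1, h2, Matrix.smul_mulVec]
    ext i
    simp [Matrix.mulVec, dotProduct, Matrix.scalar_apply, Matrix.diagonal_apply,
      Finset.sum_ite_eq]
  exact ia_single_pow_mem (S := S) (R := A) (M := Fin d → S) hfaith P₀ hP₀' hdim hfin lamA s hs'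

/-- **Single-sided Ihara avoidance, ideal form**: levels give `s ^ n ∈ (lamA) + P₀`; so it
suffices that `s` is NOT nilpotent in the special fibre `A ⧸ (lamA, P₀)`. -/
theorem ia_single_levels_pow_mem {S A : Type*} [CommRing S] [IsDomain S] [CommRing A]
    [IsLocalRing A] {I : Ideal S} (hS : IsProfiniteAdic I)
    (hA : IsProfiniteAdic (maximalIdeal A)) (hfin : ringKrullDim S < ⊤) {d : ℕ} (hd : 0 < d)
    (lamS : S) (hlamS : lamS ≠ 0) (lamA s : A)
    (P₀ : Ideal A) [P₀.IsPrime] (hP₀ : ∀ P : Ideal A, P.IsPrime → lamA ∉ P → P₀ ≤ P)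
    (hdim : ringKrullDim (A ⧸ P₀) ≤ ringKrullDim S)
    (φ : ℕ → S →+* A) (ρ : ∀ n, A →+* Matrix (Fin d) (Fin d) (S ⧸ I ^ n))
    (hlam : ∀ n, φ n lamS = lamA)
    (hscal : ∀ n f, ρ n (φ n f) = Matrix.scalar (Fin d) (Ideal.Quotient.mk (I ^ n) f))
    (hs : ∀ n, ∃ B : Matrix (Fin d) (Fin d) (S ⧸ I ^ n),
      ρ n s = Ideal.Quotient.mk (I ^ n) lamS • B) :
    ∃ n : ℕ, s ^ n ∈ Ideal.span {lamA} ⊔ P₀ := by
  obtain ⟨Φ, P, h1, h2, B, hB⟩ := exists_patched hS hA lamS lamA s φ ρ hlam hscal hs
  exact ia_single_patched_pow_mem hfin hd lamS hlamS lamA s P₀ hP₀ hdim Φ P h1 h2 B hB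

/-- **Single-sided Ihara avoidance: the complete commutative-algebra core.**

* `S = S_∞` (a domain, adically complete with finite quotients, finite Krull dimension),
* `A = R^χ_∞` (local, adically complete with finite quotients), `lamA ∈ A` the uniformiser,
  `s ∈ A` the Steinberg element (`tr Φ - ε(1+q)` or `q (tr Φ)² - (1+q)² det Φ`),
* `P₀` = the characteristic-zero component of `A` (`⊥` if `A` is a domain): contained in every
  prime not containing `lamA`, with `dim A/P₀ ≤ dim S`,
* levels: for every `n` a homomorphism `φ n : S → A` and an action `ρ n` of `A` on the free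
  module `(S ⧸ I ^ n) ^ d` (`d > 0`) inducing the `S`-action, with `ρ n s ∈ lamS · M_d`,
* a point `x : A → V` (valuation ring) on `P₀` with `x lamA ∤ x s`.

Then `False`. -/
theorem ia_single_levels_false {S A V : Type*} [CommRing S] [IsDomain S] [CommRing A]
    [IsLocalRing A] {I : Ideal S} (hS : IsProfiniteAdic I)
    (hA : IsProfiniteAdic (maximalIdeal A)) (hfin : ringKrullDim S < ⊤) {d : ℕ} (hd : 0 < d)
    (lamS : S) (hlamS : lamS ≠ 0) (lamA s : A)
    (P₀ : Ideal A) [P₀.IsPrime] (hP₀ : ∀ P : Ideal A, P.IsPrime → lamA ∉ P → P₀ ≤ P)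
    (hdim : ringKrullDim (A ⧸ P₀) ≤ ringKrullDim S)
    (φ : ℕ → S →+* A) (ρ : ∀ n, A →+* Matrix (Fin d) (Fin d) (S ⧸ I ^ n))
    (hlam : ∀ n, φ n lamS = lamA)
    (hscal : ∀ n f, ρ n (φ n f) = Matrix.scalar (Fin d) (Ideal.Quotient.mk (I ^ n) f))
    (hs : ∀ n, ∃ B : Matrix (Fin d) (Fin d) (S ⧸ I ^ n),
      ρ n s = Ideal.Quotient.mk (I ^ n) lamS • B)
    [CommRing V] [IsDomain V] [ValuationRing V] (x : A →+* V) (hx₀ : P₀ ≤ RingHom.ker x)
    (hx : ¬ x lamA ∣ x s) : False := by
  obtain ⟨Φ, P, h1, h2, B, hB⟩ := exists_patched hS hA lamS lamA s φ ρ hlam hscal hs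
  exact ia_single_patched_false hfin hd lamS hlamS lamA s P₀ hP₀ hdim Φ P h1 h2 B hB x hx₀ hx

end Fermat.Agent.S38.H901

end
-- ===== PACK-END S38/H901/IAPatch.lean

-- ===== PACK-BEGIN S38/H901/IALevel.lean
section



/-!
# Row 37 (S38/S43), Ihara avoidance: module-theoretic levels (helper901)

`IALevel S A J d lamS lamA s` is the finite-level input of single-sided Ihara avoidance in the
style of the Prelude's `Algebra.PatchingLevel`: an `A`-module `N` (think `M^χ_{Q_n}`, `A = R^χ_∞`
acting through `R^χ_{Q_n}`), a homomorphism `φ : S → A` (`S = 𝒪⟦y⟧`, `y_i ↦` a lift of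
`δ_i - 1`), and `b : Fin d → N` which is a basis of `N` over `S ⧸ J` (`b_span`, `b_rel`), such that
`s • N ⊆ lamA • N`.

`IALevel.exists_rep` turns a level with `J ≤ I ^ n` into the coordinate data of
`exists_patched`; `ia_single_of_ialevels` is the resulting contradiction.
-/

set_option autoImplicit false
set_option linter.unnecessarySimpa false
set_option linter.style.haveILetI false
set_option linter.unusedSectionVars false

namespace Fermat.Agent.S38.H901

open IsLocalRing Fermat.Agent.S59.Patch.H967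

universe u v w

/-- A finite level of single-sided Ihara avoidance (module-theoretic form). -/
structure IALevel (S : Type u) (A : Type v) [CommRing S] [CommRing A] (J : Ideal S) (d : ℕ)
    (lamS : S) (lamA s : A) : Type (max u v (w + 1)) where
  /-- the module `M^χ_Q` -/
  N : Type w
  [instAddCommGroup : AddCommGroup N]
  [instModule : Module A N]
  /-- the structure map `S → A` at this level -/
  φ : S →+* A
  φ_lam : φ lamS = lamA
  /-- a basis of `N` over `S ⧸ J` -/
  b : Fin d → N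
  b_span : ∀ x : N, ∃ c : Fin d → S, x = ∑ i, φ (c i) • b i
  b_rel : ∀ c : Fin d → S, ∑ i, φ (c i) • b i = 0 ↔ ∀ i, c i ∈ J
  /-- the Steinberg element is divisible by the uniformiser on `N` -/
  s_smul : ∀ x : N, ∃ y : N, s • x = lamA • y

attribute [instance] IALevel.instAddCommGroup IALevel.instModule

namespace IALevel

variable {S : Type u} {A : Type v} [CommRing S] [CommRing A] {J : Ideal S} {d : ℕ}
  {lamS : S} {lamA s : A} (L : IALevel.{u, v, w} S A J d lamS lamA s)

/-- The linear combination `∑ φ (c i) • b i`. -/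
def comb (c : Fin d → S) : L.N := ∑ i, L.φ (c i) • L.b i

theorem comb_add (c c' : Fin d → S) : L.comb (c + c') = L.comb c + L.comb c' := by
  simp only [_root_.Fermat.Agent.S38.H901.IALevel.comb, Pi.add_apply, map_add, add_smul, Finset.sum_add_distrib]

theorem comb_sub (c c' : Fin d → S) : L.comb (c - c') = L.comb c - L.comb c' := by
  simp only [_root_.Fermat.Agent.S38.H901.IALevel.comb, Pi.sub_apply, map_sub, sub_smul, Finset.sum_sub_distrib]

theorem comb_eq_iff (c c' : Fin d → S) : L.comb c = L.comb c' ↔ ∀ i, c i - c' i ∈ J := by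
  rw [← sub_eq_zero, ← L.comb_sub]
  exact L.b_rel (c - c')

theorem smul_comb (a : A) (c : Fin d → S) :
    a • L.comb c = ∑ i, L.φ (c i) • (a • L.b i) := by
  simp only [_root_.Fermat.Agent.S38.H901.IALevel.comb, Finset.smul_sum, smul_smul, mul_comm]

/-- Coordinates of `a • b j`. -/
noncomputable def coord (a : A) (j : Fin d) : Fin d → S := (L.b_span (a • L.b j)).choose

theorem comb_coord (a : A) (j : Fin d) : L.comb (L.coord a j) = a • L.b j :=
  ((L.b_span (a • L.b j)).choose_spec).symm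

/-- If `a • b j = comb (c j)` for all `j`, then `a • comb e = comb (c *ᵥ e)`. -/
theorem smul_comb_eq (a : A) (c : Fin d → Fin d → S) (hc : ∀ j, a • L.b j = L.comb (c j))
    (e : Fin d → S) : a • L.comb e = L.comb (fun i => ∑ j, c j i * e j) := by
  rw [L.smul_comb]
  simp only [hc, _root_.Fermat.Agent.S38.H901.IALevel.comb, Finset.smul_sum, smul_smul, map_sum, map_mul, Finset.sum_smul]
  rw [Finset.sum_comm]
  apply Finset.sum_congr rfl
  intro i _
  apply Finset.sum_congr rfl
  intro j _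
  rw [mul_comm]

variable (I : Ideal S) (n : ℕ)

/-- The matrix of `a` modulo `K` (any ideal `K ≥ J`). -/
noncomputable def repMat (K : Ideal S) (a : A) : Matrix (Fin d) (Fin d) (S ⧸ K) :=
  fun i j => Ideal.Quotient.mk K (L.coord a j i)

theorem repMat_eq (K : Ideal S) (hJK : J ≤ K) (a : A) (c : Fin d → Fin d → S)
    (hc : ∀ j, a • L.b j = L.comb (c j)) (i j : Fin d) :
    L.repMat K a i j = Ideal.Quotient.mk K (c j i) := by
  rw [repMat, Ideal.Quotient.eq]
  apply hJK
  have := (L.comb_eq_iff (L.coord a j) (c j)).mp (by rw [L.comb_coord, hc])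
  exact this i

/-- The representation of `A` on `(S ⧸ K) ^ d` attached to a level, `J ≤ K`. -/
noncomputable def rep (K : Ideal S) (hJK : J ≤ K) : A →+* Matrix (Fin d) (Fin d) (S ⧸ K) where
  toFun a := L.repMat K a
  map_one' := by
    classical
    ext i j
    rw [L.repMat_eq K hJK 1 (fun j i => if i = j then 1 else 0) (fun j => by
      simp [_root_.Fermat.Agent.S38.H901.IALevel.comb, Finset.sum_ite_eq']) i j]
    by_cases h : i = j
    · subst h; simp
    · simp [h, Matrix.one_apply_ne h]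
  map_zero' := by
    ext i j
    rw [L.repMat_eq K hJK 0 (fun _ _ => 0) (fun j => by simp [_root_.Fermat.Agent.S38.H901.IALevel.comb]) i j]
    simp
  map_add' a a' := by
    ext i j
    rw [L.repMat_eq K hJK (a + a') (fun j => L.coord a j + L.coord a' j) (fun j => by
      rw [add_smul, L.comb_add, L.comb_coord, L.comb_coord]) i j]
    simp [repMat]
  map_mul' a a' := by
    ext i j
    rw [L.repMat_eq K hJK (a * a') (fun j i => ∑ k, L.coord a k i * L.coord a' j k) (fun j => by
      rw [mul_smul, ← L.comb_coord a' j,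
        L.smul_comb_eq a (fun k => L.coord a k) (fun k => (L.comb_coord a k).symm)]) i j]
    simp [repMat, Matrix.mul_apply, map_sum, map_mul]

theorem rep_apply (K : Ideal S) (hJK : J ≤ K) (a : A) (i j : Fin d) :
    L.rep K hJK a i j = Ideal.Quotient.mk K (L.coord a j i) := rfl

theorem rep_phi (K : Ideal S) (hJK : J ≤ K) (f : S) :
    L.rep K hJK (L.φ f) = Matrix.scalar (Fin d) (Ideal.Quotient.mk K f) := by
  classical
  ext i j
  show L.repMat K (L.φ f) i j = _
  rw [L.repMat_eq K hJK (L.φ f) (fun j i => if i = j then f else 0) (fun j => by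
    rw [_root_.Fermat.Agent.S38.H901.IALevel.comb, Finset.sum_eq_single j]
    · simp
    · intro i _ hij
      simp [hij]
    · intro h
      exact absurd (Finset.mem_univ j) h) i j]
  by_cases h : i = j
  · subst h; simp
  · simp [h, Matrix.scalar_apply]

theorem rep_s (K : Ideal S) (hJK : J ≤ K) :
    ∃ B : Matrix (Fin d) (Fin d) (S ⧸ K), L.rep K hJK s = Ideal.Quotient.mk K lamS • B := by
  classical
  have h1 : ∀ j, ∃ y : L.N, s • L.b j = lamA • y := fun j => L.s_smul (L.b j)
  choose y hy using h1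
  have h2 : ∀ j, ∃ e : Fin d → S, y j = L.comb e := fun j => L.b_span (y j)
  choose e he using h2
  refine ⟨Matrix.of (fun i j => Ideal.Quotient.mk K (e j i)), ?_⟩
  ext i j
  show L.repMat K s i j = _
  rw [L.repMat_eq K hJK s (fun j i => lamS * e j i) (fun j => by
    have h3 : lamA • L.comb (e j) = L.φ lamS • L.comb (e j) := by rw [L.φ_lam]
    rw [hy j, he j, h3]
    simp only [_root_.Fermat.Agent.S38.H901.IALevel.comb, Finset.smul_sum, smul_smul, map_mul]) i j]
  rw [Matrix.smul_apply, Matrix.of_apply, map_mul, smul_eq_mul]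

end IALevel

/-- **Single-sided Ihara avoidance from module-theoretic levels** (ideal form): if for every
`n` there is a level with relation ideal `J n ≤ I ^ n`, then a power of `s` lies in
`(lamA) + P₀`. -/
theorem ia_single_pow_mem_of_ialevels {S : Type u} {A : Type v} [CommRing S] [IsDomain S]
    [CommRing A] [IsLocalRing A] {I : Ideal S} (hS : IsProfiniteAdic I)
    (hA : IsProfiniteAdic (maximalIdeal A)) (hfin : ringKrullDim S < ⊤) {d : ℕ} (hd : 0 < d)
    (lamS : S) (hlamS : lamS ≠ 0) (lamA s : A)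
    (P₀ : Ideal A) [P₀.IsPrime] (hP₀ : ∀ P : Ideal A, P.IsPrime → lamA ∉ P → P₀ ≤ P)
    (hdim : ringKrullDim (A ⧸ P₀) ≤ ringKrullDim S)
    (J : ℕ → Ideal S) (hJ : ∀ n, J n ≤ I ^ n)
    (L : ∀ n, IALevel.{u, v, w} S A (J n) d lamS lamA s) :
    ∃ n : ℕ, s ^ n ∈ Ideal.span {lamA} ⊔ P₀ :=
  ia_single_levels_pow_mem hS hA hfin hd lamS hlamS lamA s P₀ hP₀ hdim
    (fun n => (L n).φ) (fun n => (L n).rep (I ^ n) (hJ n)) (fun n => (L n).φ_lam)
    (fun n f => (L n).rep_phi (I ^ n) (hJ n) f) (fun n => (L n).rep_s (I ^ n) (hJ n))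

/-- **Single-sided Ihara avoidance from module-theoretic levels** (point form). -/
theorem ia_single_false_of_ialevels {S : Type u} {A : Type v} {V : Type*} [CommRing S]
    [IsDomain S] [CommRing A] [IsLocalRing A] {I : Ideal S} (hS : IsProfiniteAdic I)
    (hA : IsProfiniteAdic (maximalIdeal A)) (hfin : ringKrullDim S < ⊤) {d : ℕ} (hd : 0 < d)
    (lamS : S) (hlamS : lamS ≠ 0) (lamA s : A)
    (P₀ : Ideal A) [P₀.IsPrime] (hP₀ : ∀ P : Ideal A, P.IsPrime → lamA ∉ P → P₀ ≤ P)
    (hdim : ringKrullDim (A ⧸ P₀) ≤ ringKrullDim S)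
    (J : ℕ → Ideal S) (hJ : ∀ n, J n ≤ I ^ n)
    (L : ∀ n, IALevel.{u, v, w} S A (J n) d lamS lamA s)
    [CommRing V] [IsDomain V] [ValuationRing V] (x : A →+* V) (hx₀ : P₀ ≤ RingHom.ker x)
    (hx : ¬ x lamA ∣ x s) : False :=
  ia_single_levels_false hS hA hfin hd lamS hlamS lamA s P₀ hP₀ hdim
    (fun n => (L n).φ) (fun n => (L n).rep (I ^ n) (hJ n)) (fun n => (L n).φ_lam)
    (fun n f => (L n).rep_phi (I ^ n) (hJ n) f) (fun n => (L n).rep_s (I ^ n) (hJ n)) x hx₀ hx

end Fermat.Agent.S38.H901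

end
-- ===== PACK-END S38/H901/IALevel.lean

-- ===== PACK-BEGIN S38/IA/SpecBridge.lean
section



/-!
# Row HARD: frozen interface, part 3 — the LEVEL BRIDGE (Mathlib-only content)   (helper995)

From a Hecke-side module at one Taylor–Wiles set (`H959.IsGroupRingBasis`) to a module-theoretic
level `H901.IALevel` of the patching core.

`A` = the patched ring (`P ⧸ J`, local, adically complete with finite quotients), acting on the
`T`-module `M` through a surjection `γ : A → T`; `w_i ∈ T` with lifts `ω_i ≡ 1`;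
`M / (w_i^(p^n) - 1)` free over `𝒪[(ℤ/p^n)^r]` with basis `b`; `s • M ⊆ lam • M`.  Then there is an
`IALevel` over `S = 𝒪⟦y_1..y_r⟧` with relation ideal `J_n = ((1 + y_i)^(p^n) - 1)_i`,
`N = M ⧸ (w_i^(p^n) - 1) M`, `φ : y_i ↦ ω_i - 1`.  (`b_span`, `b_rel`: Weierstrass division,
`S59.TW.H959.WeierstrassStatement`, owner helper788.)  Also `J_n ≤ 𝔪_S ^ n`.
-/

set_option autoImplicit false

open IsLocalRing

namespace Fermat.Agent.S38.IA

open Fermat.Agent.S59.TW.H959 Fermat.Agent.S59.Patch.H967 Fermat.Agent.S38.H901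

/-- The relation ideal `J_n = ((1 + y_i)^(p^n) - 1 : i)` of `𝒪⟦y_1..y_r⟧`. -/
noncomputable def twRelIdeal (𝒪 : Type) [CommRing 𝒪] (p n r : ℕ) :
    Ideal (MvPowerSeries (Fin r) 𝒪) :=
  Ideal.span (Set.range fun i : Fin r =>
    ((1 + MvPowerSeries.X i) ^ (p ^ n) - 1 : MvPowerSeries (Fin r) 𝒪))

/-- **LEAF BRIDGE-1**: `J_n ≤ 𝔪_S ^ n`. -/
def IABridgeIdealStatement : Prop :=
  ∀ (p : ℕ) [Fact p.Prime]
    (𝒪 : Type) [CommRing 𝒪] [IsDomain 𝒪] [IsDiscreteValuationRing 𝒪]
    (_hp𝒪 : (p : 𝒪) ∈ maximalIdeal 𝒪) (n r : ℕ),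
    twRelIdeal 𝒪 p n r ≤ maximalIdeal (MvPowerSeries (Fin r) 𝒪) ^ n

/-- **LEAF BRIDGE-2**: the level. -/
def IABridgeStatement : Prop :=
  ∀ (p : ℕ) [Fact p.Prime]
    (𝒪 : Type) [CommRing 𝒪] [IsDomain 𝒪] [IsDiscreteValuationRing 𝒪]
    [IsAdicComplete (maximalIdeal 𝒪) 𝒪] [Finite (ResidueField 𝒪)]
    (_hp𝒪 : (p : 𝒪) ∈ maximalIdeal 𝒪)
    (A : Type) [CommRing A] [IsLocalRing A] [Algebra 𝒪 A]
    (_hA : IsProfiniteAdic (maximalIdeal A))
    (T : Type) [CommRing T] [Algebra 𝒪 T] (γ : A →ₐ[𝒪] T)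
    (M : Type) [AddCommGroup M] [Module T M]
    (n r d : ℕ) (w : Fin r → T) (b : Fin d → M) (_hb : IsGroupRingBasis 𝒪 (p ^ n) w b)
    (_hw : ∀ i, ∃ ω : A, γ ω = w i ∧ ω - 1 ∈ maximalIdeal A)
    (lam : 𝒪) (s : A) (_hs : ∀ m : M, ∃ m' : M, γ s • m = algebraMap 𝒪 T lam • m'),
    Nonempty (IALevel.{0, 0, 0} (MvPowerSeries (Fin r) 𝒪) A (twRelIdeal 𝒪 p n r) d
      (MvPowerSeries.C lam) (algebraMap 𝒪 A lam) s)

/-- **LEAF BRIDGE-3**: `S = 𝒪⟦y_1..y_r⟧` is adically complete with finite quotients and has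
Krull dimension `r + 1`. -/
def IABridgeBaseStatement : Prop :=
  ∀ (𝒪 : Type) [CommRing 𝒪] [IsDomain 𝒪] [IsDiscreteValuationRing 𝒪]
    [IsAdicComplete (maximalIdeal 𝒪) 𝒪] [Finite (ResidueField 𝒪)] (r : ℕ),
    IsProfiniteAdic (maximalIdeal (MvPowerSeries (Fin r) 𝒪)) ∧
      ringKrullDim (MvPowerSeries (Fin r) 𝒪) = ((r + 1 : ℕ) : WithBot ℕ∞)

end Fermat.Agent.S38.IA

end
-- ===== PACK-END S38/IA/SpecBridge.lean

-- ===== PACK-BEGIN S38/IA/Multi.lean
section



/-!
# Row HARD (row 37): single-sided Ihara avoidance, MULTI-COMPONENT form   (helper995)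

`helper901`'s core (`S38/H901/IASingle.lean`, `IAPatch.lean`, `IALevel.lean`) assumes ONE
characteristic-zero component `P₀` of the patched ring `A`.  With the type input in the weak form
(NU) ("not unipotent at the pivot": the inertial type is `ψ ⊕ ψ⁻¹` for SOME `ψ ≠ 1` of `p`-power
order) the ring `A` has several characteristic-zero components `𝔓 i` (one for every choice of the
types at the pivots).  This file proves the same statements for a family `𝔓 : ι → Ideal A` of
primes such that every prime of `A` not containing `lamA` contains some `𝔓 i`: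

* `exists_annihilator_le_of_dim_le` : the support lemma, `∃ i, Ann_R M ≤ 𝔓 i`;
* `ia_multi_false`, `ia_multi_pow_mem` : the contradiction for a patched module;
* `ia_multi_patched_false`, `ia_multi_levels_false`, `ia_multi_false_of_ialevels` : the same from
  a patched object in coordinates / levels in coordinates / module-theoretic levels `H901.IALevel`.

Mathlib + `H901` only.
-/

set_option autoImplicit false
set_option linter.unnecessarySimpa false
set_option linter.style.haveILetI false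
set_option linter.unusedSectionVars false

namespace Fermat.Agent.S38.IA

open IsLocalRing Fermat.Agent.S59.Patch.H967 Fermat.Agent.S38.H901 Polynomial

/-- A prime of `R` over `0 ⊂ S` containing the annihilator of `M`, with `dim S ≤ dim R/P`. -/
theorem exists_prime_over_bot_ge_annihilator {S R M : Type*} [CommRing S] [IsDomain S]
    [CommRing R] [Algebra S R] [AddCommGroup M] [Module S M] [Module R M] [IsScalarTower S R M]
    [Module.Finite S M] (hfaith : ∀ a : S, (∀ m : M, a • m = 0) → a = 0) :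
    ∃ P : Ideal R, P.IsPrime ∧ Module.annihilator R M ≤ P ∧ P.comap (algebraMap S R) = ⊥ ∧
      ringKrullDim S ≤ ringKrullDim (R ⧸ P) := by
  classical
  set I := Module.annihilator R M with hI
  haveI hint : Algebra.IsIntegral S (R ⧸ I) := by
    refine ⟨fun t => ?_⟩
    obtain ⟨r, rfl⟩ := Ideal.Quotient.mk_surjective t
    obtain ⟨p, hmon, hp⟩ := exists_monic_aeval_mem_annihilator (S := S) (M := M) r
    refine ⟨p, hmon, ?_⟩
    have h1 : Polynomial.eval₂ (algebraMap S (R ⧸ I)) (Ideal.Quotient.mk I r) p =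
        Ideal.Quotient.mk I (aeval r p) := by
      rw [Polynomial.aeval_def, Polynomial.hom_eval₂]
      rfl
    rw [h1]
    exact Ideal.Quotient.eq_zero_iff_mem.mpr hp
  have hinj : Function.Injective (algebraMap S (R ⧸ I)) := by
    rw [injective_iff_map_eq_zero]
    intro a ha
    apply hfaith
    intro m
    have h2 : algebraMap S R a ∈ I := by
      have : algebraMap S (R ⧸ I) a = Ideal.Quotient.mk I (algebraMap S R a) := rfl
      rw [this] at ha
      exact Ideal.Quotient.eq_zero_iff_mem.mp ha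
    have h3 := (Module.mem_annihilator.mp h2) m
    rwa [algebraMap_smul] at h3
  have hker : (⊥ : Ideal (R ⧸ I)).comap (algebraMap S (R ⧸ I)) ≤ (⊥ : Ideal S) := by
    rw [← RingHom.ker_eq_comap_bot, (RingHom.injective_iff_ker_eq_bot _).mp hinj]
  obtain ⟨Q, -, hQ, hQc⟩ :=
    Ideal.exists_ideal_over_prime_of_isIntegral (⊥ : Ideal S) (⊥ : Ideal (R ⧸ I)) hker
  haveI := hQ
  set P : Ideal R := Q.comap (Ideal.Quotient.mk I) with hPdef
  haveI hPprime : P.IsPrime := Ideal.comap_isPrime _ _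
  have hIP : I ≤ P := by
    intro a ha
    rw [hPdef, Ideal.mem_comap, Ideal.Quotient.eq_zero_iff_mem.mpr ha]
    exact Q.zero_mem
  have hPS : P.comap (algebraMap S R) = ⊥ := by
    rw [hPdef, Ideal.comap_comap]
    exact hQc
  haveI hint' : Algebra.IsIntegral S (R ⧸ P) := by
    refine ⟨fun t => ?_⟩
    obtain ⟨r, rfl⟩ := Ideal.Quotient.mk_surjective t
    obtain ⟨p, hmon, hp⟩ := exists_monic_aeval_mem_annihilator (S := S) (M := M) r
    refine ⟨p, hmon, ?_⟩
    have h1 : Polynomial.eval₂ (algebraMap S (R ⧸ P)) (Ideal.Quotient.mk P r) p =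
        Ideal.Quotient.mk P (aeval r p) := by
      rw [Polynomial.aeval_def, Polynomial.hom_eval₂]
      rfl
    rw [h1]
    exact Ideal.Quotient.eq_zero_iff_mem.mpr (hIP hp)
  have hinj' : Function.Injective (algebraMap S (R ⧸ P)) := by
    rw [injective_iff_map_eq_zero]
    intro a ha
    have h2 : algebraMap S R a ∈ P := by
      have : algebraMap S (R ⧸ P) a = Ideal.Quotient.mk P (algebraMap S R a) := rfl
      rw [this] at ha
      exact Ideal.Quotient.eq_zero_iff_mem.mp ha
    have h3 : a ∈ P.comap (algebraMap S R) := h2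
    rw [hPS] at h3
    exact h3
  exact ⟨P, hPprime, hIP, hPS, ringKrullDim_le_of_isIntegral_of_injective hinj'⟩

/-- **Support lemma, multi-component form.**  `S` a domain of finite Krull dimension, `M` an
`S`-finite module on which `S` acts faithfully, with a compatible `R`-action; `𝔓 i` primes of `R`
such that every prime of `R` lying over `0` of `S` contains one of them, `dim R/𝔓 i ≤ dim S`.
Then `Ann_R M ≤ 𝔓 i` for some `i`. -/
theorem exists_annihilator_le_of_dim_le {S R M : Type*} {ι : Type*} [CommRing S] [IsDomain S]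
    [CommRing R] [Algebra S R] [AddCommGroup M] [Module S M] [Module R M] [IsScalarTower S R M]
    [Module.Finite S M] (hfaith : ∀ a : S, (∀ m : M, a • m = 0) → a = 0)
    (𝔓 : ι → Ideal R) (h𝔓 : ∀ i, (𝔓 i).IsPrime)
    (hcov : ∀ P : Ideal R, P.IsPrime → P.comap (algebraMap S R) = ⊥ → ∃ i, 𝔓 i ≤ P)
    (hdim : ∀ i, ringKrullDim (R ⧸ 𝔓 i) ≤ ringKrullDim S) (hfin : ringKrullDim S < ⊤) :
    ∃ i, Module.annihilator R M ≤ 𝔓 i := by
  classical
  obtain ⟨P, hPprime, hIP, hPS, hd1⟩ :=
    exists_prime_over_bot_ge_annihilator (S := S) (R := R) (M := M) hfaith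
  obtain ⟨i, hi⟩ := hcov P hPprime hPS
  refine ⟨i, ?_⟩
  haveI := h𝔓 i
  by_contra hcon
  have hne : 𝔓 i ≠ P := by
    intro h
    exact hcon (h ▸ hIP)
  obtain ⟨a, haP, haP₀⟩ : ∃ a, a ∈ P ∧ a ∉ 𝔓 i := by
    by_contra h
    push Not at h
    exact hne (le_antisymm hi (fun a ha => h a ha))
  have hd2 : ringKrullDim (R ⧸ P) + 1 ≤ ringKrullDim (R ⧸ 𝔓 i) := by
    refine ringKrullDim_succ_le_of_surjective (Ideal.Quotient.factor hi)
      (Ideal.Quotient.factor_surjective hi) (r := Ideal.Quotient.mk (𝔓 i) a) ?_ ?_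
    · apply mem_nonZeroDivisors_of_ne_zero
      intro h0
      exact haP₀ (Ideal.Quotient.eq_zero_iff_mem.mp h0)
    · rw [Ideal.Quotient.factor_mk]
      exact Ideal.Quotient.eq_zero_iff_mem.mpr haP
  have hd3 : ringKrullDim S + 1 ≤ ringKrullDim S :=
    le_trans (le_trans (by gcongr) hd2) (hdim i)
  have hbot : ringKrullDim S ≠ ⊥ := by
    intro h
    have h0 : (0 : WithBot ℕ∞) ≤ ringKrullDim S := ringKrullDim_nonneg_of_nontrivial
    rw [h] at h0
    exact absurd h0 (by simp)
  obtain ⟨n, hn⟩ : ∃ n : ℕ, ringKrullDim S = n := by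
    cases h : ringKrullDim S with
    | bot => exact absurd h hbot
    | coe c =>
      cases hc : c with
      | top => rw [h, hc] at hfin; exact absurd hfin (lt_irrefl _)
      | coe n => exact ⟨n, rfl⟩
  rw [hn] at hd3
  have : ((n + 1 : ℕ) : WithBot ℕ∞) ≤ (n : ℕ) := by
    simpa using hd3
  have h5 : n + 1 ≤ n := by exact_mod_cast this
  omega

/-- **Single-sided Ihara avoidance, multi-component core, ideal form**: a power of `s` lies in
`(lam) + 𝔓 i` for some `i`. -/
theorem ia_multi_pow_mem {S R M : Type*} {ι : Type*} [CommRing S] [IsDomain S] [CommRing R]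
    [Algebra S R] [AddCommGroup M] [Module S M] [Module R M] [IsScalarTower S R M]
    [Module.Finite S M] (hfaith : ∀ a : S, (∀ m : M, a • m = 0) → a = 0)
    (𝔓 : ι → Ideal R) (h𝔓 : ∀ i, (𝔓 i).IsPrime)
    (hcov : ∀ P : Ideal R, P.IsPrime → P.comap (algebraMap S R) = ⊥ → ∃ i, 𝔓 i ≤ P)
    (hdim : ∀ i, ringKrullDim (R ⧸ 𝔓 i) ≤ ringKrullDim S) (hfin : ringKrullDim S < ⊤)
    (lam s : R) (hs : ∀ m : M, ∃ m' : M, s • m = lam • m') :
    ∃ i, ∃ n : ℕ, s ^ n ∈ Ideal.span {lam} ⊔ 𝔓 i := by
  haveI : Module.Finite R M := Module.Finite.of_restrictScalars_finite S R M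
  obtain ⟨i, hi⟩ := exists_annihilator_le_of_dim_le (M := M) hfaith 𝔓 h𝔓 hcov hdim hfin
  obtain ⟨n, hn⟩ := exists_pow_mem_sup_annihilator (M := M) lam s hs
  exact ⟨i, n, (sup_le_sup_left hi _) hn⟩

/-- **Single-sided Ihara avoidance, multi-component core, point form**: if every component
carries a point `x i : R → V i` (valuation ring) with `x i lam ∤ x i s`, contradiction. -/
theorem ia_multi_false {S R M : Type*} {ι : Type*} [CommRing S] [IsDomain S] [CommRing R]
    [Algebra S R] [AddCommGroup M] [Module S M] [Module R M] [IsScalarTower S R M]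
    [Module.Finite S M] (hfaith : ∀ a : S, (∀ m : M, a • m = 0) → a = 0)
    (𝔓 : ι → Ideal R) (h𝔓 : ∀ i, (𝔓 i).IsPrime)
    (hcov : ∀ P : Ideal R, P.IsPrime → P.comap (algebraMap S R) = ⊥ → ∃ i, 𝔓 i ≤ P)
    (hdim : ∀ i, ringKrullDim (R ⧸ 𝔓 i) ≤ ringKrullDim S) (hfin : ringKrullDim S < ⊤)
    (lam s : R) (hs : ∀ m : M, ∃ m' : M, s • m = lam • m')
    (hpt : ∀ i, ∃ (V : Type) (_ : CommRing V) (_ : IsDomain V) (_ : ValuationRing V)
      (x : R →+* V), 𝔓 i ≤ RingHom.ker x ∧ ¬ x lam ∣ x s) : False := by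
  haveI : Module.Finite R M := Module.Finite.of_restrictScalars_finite S R M
  obtain ⟨i, hi⟩ := exists_annihilator_le_of_dim_le (M := M) hfaith 𝔓 h𝔓 hcov hdim hfin
  obtain ⟨V, _, _, _, x, hx₀, hx⟩ := hpt i
  exact hx (map_dvd_of_smul_le lam s hs x (hi.trans hx₀))

section Coord

variable {S A : Type*} [CommRing S] [IsDomain S] [CommRing A] {ι : Type*}

/-- The module structure on `S^d` attached to a patched object in coordinates, and the
hypotheses of the core. -/
theorem ia_multi_patched_core (hfin : ringKrullDim S < ⊤) {d : ℕ} (hd : 0 < d)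
    (lamS : S) (hlamS : lamS ≠ 0) (lamA s : A)
    (𝔓 : ι → Ideal A) (h𝔓 : ∀ i, (𝔓 i).IsPrime)
    (hcov : ∀ P : Ideal A, P.IsPrime → lamA ∉ P → ∃ i, 𝔓 i ≤ P)
    (hdim : ∀ i, ringKrullDim (A ⧸ 𝔓 i) ≤ ringKrullDim S)
    (Φ : S →+* A) (P : A →+* Matrix (Fin d) (Fin d) S)
    (h1 : Φ lamS = lamA) (h2 : ∀ f, P (Φ f) = Matrix.scalar (Fin d) f)
    (B : Matrix (Fin d) (Fin d) S) (hB : P s = lamS • B) :
    ∃ i, ∃ n : ℕ, s ^ n ∈ Ideal.span {lamA} ⊔ 𝔓 i := by
  classical
  letI : Algebra S A := Φ.toAlgebra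
  have halg : ∀ f : S, algebraMap S A f = Φ f := fun f => rfl
  let P' : A →+* Module.End S (Fin d → S) :=
    ((Matrix.toLinAlgEquiv' : Matrix (Fin d) (Fin d) S ≃ₐ[S] _).toAlgHom.toRingHom).comp P
  letI : Module A (Fin d → S) := Module.compHom (Fin d → S) P'
  have hsmul : ∀ (a : A) (m : Fin d → S), a • m = (P a).mulVec m := by
    intro a m
    show (P' a) m = _
    simp [P', Matrix.toLinAlgEquiv'_apply]
  haveI : IsScalarTower S A (Fin d → S) := by
    refine ⟨fun f a m => ?_⟩
    rw [hsmul, hsmul, Algebra.smul_def, halg, map_mul, h2, ← Matrix.mulVec_mulVec]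
    ext i
    simp [Matrix.mulVec, dotProduct, Matrix.scalar_apply, Matrix.diagonal_apply,
      Finset.sum_ite_eq]
  have hfaith : ∀ a : S, (∀ m : Fin d → S, a • m = 0) → a = 0 := by
    intro a ha
    have := congrFun (ha (fun _ => 1)) ⟨0, hd⟩
    simpa using this
  have hcov' : ∀ Q : Ideal A, Q.IsPrime → Q.comap (algebraMap S A) = ⊥ → ∃ i, 𝔓 i ≤ Q := by
    intro Q hQ hQS
    apply hcov Q hQ
    intro hmem
    apply hlamS
    have : lamS ∈ Q.comap (algebraMap S A) := by
      rw [Ideal.mem_comap, halg, h1]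
      exact hmem
    rw [hQS] at this
    exact this
  have hs' : ∀ m : Fin d → S, ∃ m' : Fin d → S, s • m = lamA • m' := by
    intro m
    refine ⟨B.mulVec m, ?_⟩
    rw [hsmul, hsmul, hB, ← h1, h2, Matrix.smul_mulVec]
    ext i
    simp [Matrix.mulVec, dotProduct, Matrix.scalar_apply, Matrix.diagonal_apply,
      Finset.sum_ite_eq]
  exact ia_multi_pow_mem (S := S) (R := A) (M := Fin d → S) hfaith 𝔓 h𝔓 hcov' hdim hfin
    lamA s hs'

/-- **Multi-component Ihara avoidance from levels in coordinates**, ideal form. -/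
theorem ia_multi_levels_pow_mem [IsLocalRing A] {I : Ideal S} (hS : IsProfiniteAdic I)
    (hA : IsProfiniteAdic (maximalIdeal A)) (hfin : ringKrullDim S < ⊤) {d : ℕ} (hd : 0 < d)
    (lamS : S) (hlamS : lamS ≠ 0) (lamA s : A)
    (𝔓 : ι → Ideal A) (h𝔓 : ∀ i, (𝔓 i).IsPrime)
    (hcov : ∀ P : Ideal A, P.IsPrime → lamA ∉ P → ∃ i, 𝔓 i ≤ P)
    (hdim : ∀ i, ringKrullDim (A ⧸ 𝔓 i) ≤ ringKrullDim S)
    (φ : ℕ → S →+* A) (ρ : ∀ n, A →+* Matrix (Fin d) (Fin d) (S ⧸ I ^ n))
    (hlam : ∀ n, φ n lamS = lamA)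
    (hscal : ∀ n f, ρ n (φ n f) = Matrix.scalar (Fin d) (Ideal.Quotient.mk (I ^ n) f))
    (hs : ∀ n, ∃ B : Matrix (Fin d) (Fin d) (S ⧸ I ^ n),
      ρ n s = Ideal.Quotient.mk (I ^ n) lamS • B) :
    ∃ i, ∃ n : ℕ, s ^ n ∈ Ideal.span {lamA} ⊔ 𝔓 i := by
  obtain ⟨Φ, P, h1, h2, B, hB⟩ := exists_patched hS hA lamS lamA s φ ρ hlam hscal hs
  exact ia_multi_patched_core hfin hd lamS hlamS lamA s 𝔓 h𝔓 hcov hdim Φ P h1 h2 B hB

end Coord

/-- **Multi-component Ihara avoidance from module-theoretic levels** (`H901.IALevel`), ideal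
form: a power of `s` lies in `(lamA) + 𝔓 i` for some `i`. -/
theorem ia_multi_pow_mem_of_ialevels {S A : Type*} {ι : Type*} [CommRing S]
    [IsDomain S] [CommRing A] [IsLocalRing A] {I : Ideal S} (hS : IsProfiniteAdic I)
    (hA : IsProfiniteAdic (maximalIdeal A)) (hfin : ringKrullDim S < ⊤) {d : ℕ} (hd : 0 < d)
    (lamS : S) (hlamS : lamS ≠ 0) (lamA s : A)
    (𝔓 : ι → Ideal A) (h𝔓 : ∀ i, (𝔓 i).IsPrime)
    (hcov : ∀ P : Ideal A, P.IsPrime → lamA ∉ P → ∃ i, 𝔓 i ≤ P)
    (hdim : ∀ i, ringKrullDim (A ⧸ 𝔓 i) ≤ ringKrullDim S)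
    (J : ℕ → Ideal S) (hJ : ∀ n, J n ≤ I ^ n)
    (L : ∀ n, IALevel.{_, _, 0} S A (J n) d lamS lamA s) :
    ∃ i, ∃ n : ℕ, s ^ n ∈ Ideal.span {lamA} ⊔ 𝔓 i :=
  ia_multi_levels_pow_mem hS hA hfin hd lamS hlamS lamA s 𝔓 h𝔓 hcov hdim
    (fun n => (L n).φ) (fun n => (L n).rep (I ^ n) (hJ n)) (fun n => (L n).φ_lam)
    (fun n f => (L n).rep_phi (I ^ n) (hJ n) f) (fun n => (L n).rep_s (I ^ n) (hJ n))

/-- **Multi-component Ihara avoidance for a patched object in coordinates**, point form. -/
theorem ia_multi_patched_false {S A : Type*} {ι : Type*} [CommRing S] [IsDomain S] [CommRing A]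
    (hfin : ringKrullDim S < ⊤) {d : ℕ} (hd : 0 < d)
    (lamS : S) (hlamS : lamS ≠ 0) (lamA s : A)
    (𝔓 : ι → Ideal A) (h𝔓 : ∀ i, (𝔓 i).IsPrime)
    (hcov : ∀ P : Ideal A, P.IsPrime → lamA ∉ P → ∃ i, 𝔓 i ≤ P)
    (hdim : ∀ i, ringKrullDim (A ⧸ 𝔓 i) ≤ ringKrullDim S)
    (Φ : S →+* A) (P : A →+* Matrix (Fin d) (Fin d) S)
    (h1 : Φ lamS = lamA) (h2 : ∀ f, P (Φ f) = Matrix.scalar (Fin d) f)
    (B : Matrix (Fin d) (Fin d) S) (hB : P s = lamS • B)
    (hpt : ∀ i, ∃ (V : Type) (_ : CommRing V) (_ : IsDomain V) (_ : ValuationRing V)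
      (x : A →+* V), 𝔓 i ≤ RingHom.ker x ∧ ¬ x lamA ∣ x s) : False := by
  classical
  letI : Algebra S A := Φ.toAlgebra
  have halg : ∀ f : S, algebraMap S A f = Φ f := fun f => rfl
  let P' : A →+* Module.End S (Fin d → S) :=
    ((Matrix.toLinAlgEquiv' : Matrix (Fin d) (Fin d) S ≃ₐ[S] _).toAlgHom.toRingHom).comp P
  letI : Module A (Fin d → S) := Module.compHom (Fin d → S) P'
  have hsmul : ∀ (a : A) (m : Fin d → S), a • m = (P a).mulVec m := by
    intro a m
    show (P' a) m = _
    simp [P', Matrix.toLinAlgEquiv'_apply]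
  haveI : IsScalarTower S A (Fin d → S) := by
    refine ⟨fun f a m => ?_⟩
    rw [hsmul, hsmul, Algebra.smul_def, halg, map_mul, h2, ← Matrix.mulVec_mulVec]
    ext i
    simp [Matrix.mulVec, dotProduct, Matrix.scalar_apply, Matrix.diagonal_apply,
      Finset.sum_ite_eq]
  have hfaith : ∀ a : S, (∀ m : Fin d → S, a • m = 0) → a = 0 := by
    intro a ha
    have := congrFun (ha (fun _ => 1)) ⟨0, hd⟩
    simpa using this
  have hcov' : ∀ Q : Ideal A, Q.IsPrime → Q.comap (algebraMap S A) = ⊥ → ∃ i, 𝔓 i ≤ Q := by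
    intro Q hQ hQS
    apply hcov Q hQ
    intro hmem
    apply hlamS
    have : lamS ∈ Q.comap (algebraMap S A) := by
      rw [Ideal.mem_comap, halg, h1]
      exact hmem
    rw [hQS] at this
    exact this
  have hs' : ∀ m : Fin d → S, ∃ m' : Fin d → S, s • m = lamA • m' := by
    intro m
    refine ⟨B.mulVec m, ?_⟩
    rw [hsmul, hsmul, hB, ← h1, h2, Matrix.smul_mulVec]
    ext i
    simp [Matrix.mulVec, dotProduct, Matrix.scalar_apply, Matrix.diagonal_apply,
      Finset.sum_ite_eq]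
  exact ia_multi_false (S := S) (R := A) (M := Fin d → S) hfaith 𝔓 h𝔓 hcov' hdim hfin
    lamA s hs' hpt

/-- **Multi-component Ihara avoidance from levels in coordinates**, point form. -/
theorem ia_multi_levels_false {S A : Type*} {ι : Type*} [CommRing S] [IsDomain S] [CommRing A]
    [IsLocalRing A] {I : Ideal S} (hS : IsProfiniteAdic I)
    (hA : IsProfiniteAdic (maximalIdeal A)) (hfin : ringKrullDim S < ⊤) {d : ℕ} (hd : 0 < d)
    (lamS : S) (hlamS : lamS ≠ 0) (lamA s : A)
    (𝔓 : ι → Ideal A) (h𝔓 : ∀ i, (𝔓 i).IsPrime)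
    (hcov : ∀ P : Ideal A, P.IsPrime → lamA ∉ P → ∃ i, 𝔓 i ≤ P)
    (hdim : ∀ i, ringKrullDim (A ⧸ 𝔓 i) ≤ ringKrullDim S)
    (φ : ℕ → S →+* A) (ρ : ∀ n, A →+* Matrix (Fin d) (Fin d) (S ⧸ I ^ n))
    (hlam : ∀ n, φ n lamS = lamA)
    (hscal : ∀ n f, ρ n (φ n f) = Matrix.scalar (Fin d) (Ideal.Quotient.mk (I ^ n) f))
    (hs : ∀ n, ∃ B : Matrix (Fin d) (Fin d) (S ⧸ I ^ n),
      ρ n s = Ideal.Quotient.mk (I ^ n) lamS • B)
    (hpt : ∀ i, ∃ (V : Type) (_ : CommRing V) (_ : IsDomain V) (_ : ValuationRing V)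
      (x : A →+* V), 𝔓 i ≤ RingHom.ker x ∧ ¬ x lamA ∣ x s) : False := by
  obtain ⟨Φ, P, h1, h2, B, hB⟩ := exists_patched hS hA lamS lamA s φ ρ hlam hscal hs
  exact ia_multi_patched_false hfin hd lamS hlamS lamA s 𝔓 h𝔓 hcov hdim Φ P h1 h2 B hB hpt

/-- **Multi-component Ihara avoidance from module-theoretic levels** (`H901.IALevel`), point
form: if every component `𝔓 i` carries a point `x : A → V` (valuation ring) with
`x lamA ∤ x s`, then there cannot be levels `IALevel S A (J n) d lamS lamA s` with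
`J n ≤ I ^ n` for every `n`. -/
theorem ia_multi_false_of_ialevels {S A : Type*} {ι : Type*} [CommRing S]
    [IsDomain S] [CommRing A] [IsLocalRing A] {I : Ideal S} (hS : IsProfiniteAdic I)
    (hA : IsProfiniteAdic (maximalIdeal A)) (hfin : ringKrullDim S < ⊤) {d : ℕ} (hd : 0 < d)
    (lamS : S) (hlamS : lamS ≠ 0) (lamA s : A)
    (𝔓 : ι → Ideal A) (h𝔓 : ∀ i, (𝔓 i).IsPrime)
    (hcov : ∀ P : Ideal A, P.IsPrime → lamA ∉ P → ∃ i, 𝔓 i ≤ P)
    (hdim : ∀ i, ringKrullDim (A ⧸ 𝔓 i) ≤ ringKrullDim S)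
    (J : ℕ → Ideal S) (hJ : ∀ n, J n ≤ I ^ n)
    (L : ∀ n, IALevel.{_, _, 0} S A (J n) d lamS lamA s)
    (hpt : ∀ i, ∃ (V : Type) (_ : CommRing V) (_ : IsDomain V) (_ : ValuationRing V)
      (x : A →+* V), 𝔓 i ≤ RingHom.ker x ∧ ¬ x lamA ∣ x s) : False :=
  ia_multi_levels_false hS hA hfin hd lamS hlamS lamA s 𝔓 h𝔓 hcov hdim
    (fun n => (L n).φ) (fun n => (L n).rep (I ^ n) (hJ n)) (fun n => (L n).φ_lam)
    (fun n f => (L n).rep_phi (I ^ n) (hJ n) f) (fun n => (L n).rep_s (I ^ n) (hJ n)) hpt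

end Fermat.Agent.S38.IA

end
-- ===== PACK-END S38/IA/Multi.lean

-- ===== PACK-BEGIN S38/IA/H607/Bridge.lean
section



/-!
# Row HARD (row 37), cell BRIDGE: from a Taylor–Wiles level of Ihara avoidance to `H901.IALevel`
(helper607; board `coord/HARD.md` v3, §3.3)

Pure algebra.  Data at one level: the patched ring `A` (an `𝒪`-algebra), a structure map
`γ : A → T` to the Hecke ring of the level, a `T`-module `M`, the inertia values `w_i ∈ T`, a
homomorphism `φ : S = 𝒪⟦y₁..y_r⟧ → A` with `γ (φ y_i) = w_i - 1`, a family `b : Fin d → M` such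
that `M / (w_i^m - 1) M` is free over the group ring `𝒪[(ℤ/m)^r]` with basis `b`
(`H959.IsGroupRingBasis`), the spanning property of the group-ring monomials modulo
`J = ((1 + y_j)^m - 1)` (Weierstrass, `H959.WeierstrassStatement`), and the Steinberg divisibility
`s • M ⊆ lam • M`.  Then `N := M / (w_i^m - 1) M` is an `H901.IALevel S A J d lam lam s`.

* `nonempty_iaLevel_of_hom` : the statement above;
* `nonempty_iaLevel` : the same with `φ` constructed from lifts `ω_i ∈ 1 + 𝔪_A` of the `w_i`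
  (`A` complete local), in `Bridge2.lean`.
-/

set_option autoImplicit false
set_option linter.style.haveILetI false
set_option linter.unusedSectionVars false

open MvPowerSeries

namespace Fermat.Agent.S38.IA.H607

open Fermat.Agent.S59.TW.H959 Fermat.Agent.S38.H901

section Bridge

variable {𝒪 : Type} [CommRing 𝒪] {r : ℕ}
  {A : Type} [CommRing A] [Algebra 𝒪 A]
  {T : Type} [CommRing T] [Algebra 𝒪 T] {M : Type} [AddCommGroup M] [Module T M]

/-- The relation ideal `((1 + y_j)^m - 1 : j)` of `𝒪⟦y₁..y_r⟧`. -/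
noncomputable abbrev iaRelJ (𝒪 : Type) [CommRing 𝒪] (r m : ℕ) :
    Ideal (MvPowerSeries (Fin r) 𝒪) :=
  Ideal.span (Set.range fun j : Fin r => ((1 + X j) ^ m - 1 : MvPowerSeries (Fin r) 𝒪))

/-- The group-ring monomial combination `∑_a c_a ∏ (1 + y_i)^(a_i)`. -/
noncomputable def iaGrpElt (m : ℕ) (c : (Fin r → Fin m) → 𝒪) : MvPowerSeries (Fin r) 𝒪 :=
  ∑ a, algebraMap 𝒪 (MvPowerSeries (Fin r) 𝒪) (c a) * ∏ i, (1 + X i) ^ (a i : ℕ)

/-- The submodule `(w_i^m - 1 : i) M`. -/
abbrev iaRelK (M : Type) [AddCommGroup M] [Module T M] (m : ℕ) (w : Fin r → T) :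
    Submodule T M :=
  Ideal.span (Set.range fun i => w i ^ m - 1) • (⊤ : Submodule T M)

variable (m : ℕ) (γ : A →ₐ[𝒪] T) (φ : MvPowerSeries (Fin r) 𝒪 →ₐ[𝒪] A) (w : Fin r → T)

theorem γ_φ_one_add_X (hγφ : ∀ i, γ (φ (X i)) = w i - 1) (i : Fin r) :
    γ (φ (1 + X i)) = w i := by
  rw [map_add, map_add, map_one, map_one, hγφ]
  ring

theorem γ_φ_iaGrpElt (hγφ : ∀ i, γ (φ (X i)) = w i - 1) (c : (Fin r → Fin m) → 𝒪) :
    γ (φ (iaGrpElt m c)) = ∑ a, algebraMap 𝒪 T (c a) * ∏ i, w i ^ (a i : ℕ) := by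
  unfold iaGrpElt
  rw [map_sum, map_sum]
  refine Finset.sum_congr rfl fun a _ => ?_
  rw [map_mul, map_mul, AlgHom.commutes, AlgHom.commutes, map_prod, map_prod]
  congr 1
  refine Finset.prod_congr rfl fun i _ => ?_
  rw [map_pow, map_pow, γ_φ_one_add_X γ φ w hγφ]

theorem γ_φ_mem_of_mem_iaRelJ (hγφ : ∀ i, γ (φ (X i)) = w i - 1)
    {f : MvPowerSeries (Fin r) 𝒪} (hf : f ∈ iaRelJ 𝒪 r m) :
    γ (φ f) ∈ Ideal.span (Set.range fun i => w i ^ m - 1) := by
  have : iaRelJ 𝒪 r m ≤ (Ideal.span (Set.range fun i => w i ^ m - 1)).comap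
      ((γ : A →+* T).comp (φ : MvPowerSeries (Fin r) 𝒪 →+* A)) := by
    rw [Ideal.span_le]
    rintro _ ⟨j, rfl⟩
    show γ (φ ((1 + X j) ^ m - 1)) ∈ Ideal.span (Set.range fun i => w i ^ m - 1)
    rw [map_sub, map_sub, map_pow, map_pow, map_one, map_one, γ_φ_one_add_X γ φ w hγφ]
    exact Ideal.subset_span ⟨j, rfl⟩
  exact this hf

/-- **BRIDGE, one level.**  From the Hecke-side data of one Taylor–Wiles level to a
module-theoretic level `H901.IALevel` of single-sided Ihara avoidance. -/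
theorem nonempty_iaLevel_of_hom
    (hγφ : ∀ i, γ (φ (X i)) = w i - 1)
    {d : ℕ} (b : Fin d → M) (hb : IsGroupRingBasis 𝒪 m w b)
    (hW : ∀ f : MvPowerSeries (Fin r) 𝒪, ∃ c : (Fin r → Fin m) → 𝒪,
      f - iaGrpElt m c ∈ iaRelJ 𝒪 r m)
    (lam : 𝒪) (s : A) (hs : ∀ x : M, ∃ y : M, γ s • x = algebraMap 𝒪 T lam • y) :
    Nonempty (IALevel.{0, 0, 0} (MvPowerSeries (Fin r) 𝒪) A (iaRelJ 𝒪 r m) d
      (algebraMap 𝒪 (MvPowerSeries (Fin r) 𝒪) lam) (algebraMap 𝒪 A lam) s) := by
  classical
  -- the module `N`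
  letI instN : Module A (M ⧸ iaRelK M m w) :=
    Module.compHom (M ⧸ iaRelK M m w) (γ : A →+* T)
  have hsmul : ∀ (f : A) (x : M),
      f • (Submodule.Quotient.mk x : M ⧸ iaRelK M m w) = Submodule.Quotient.mk (γ f • x) :=
    fun f x => rfl
  -- vanishing of `J`
  have hJ0 : ∀ f ∈ iaRelJ 𝒪 r m, ∀ x : M,
      (φ f) • (Submodule.Quotient.mk x : M ⧸ iaRelK M m w) = 0 := by
    intro f hf x
    rw [hsmul, Submodule.Quotient.mk_eq_zero]
    exact Submodule.smul_mem_smul (γ_φ_mem_of_mem_iaRelJ m γ φ w hγφ hf) Submodule.mem_top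
  -- sums
  have hsum : ∀ c : Fin d → MvPowerSeries (Fin r) 𝒪,
      (∑ j, φ (c j) • (Submodule.Quotient.mk (b j) : M ⧸ iaRelK M m w)) =
        Submodule.Quotient.mk (∑ j, γ (φ (c j)) • b j) := by
    intro c
    have h1 : (Submodule.Quotient.mk (∑ j, γ (φ (c j)) • b j) : M ⧸ iaRelK M m w) =
        ∑ j, Submodule.Quotient.mk (γ (φ (c j)) • b j) :=
      map_sum (Submodule.mkQ (iaRelK M m w)) _ _
    rw [h1]
    exact Finset.sum_congr rfl fun j _ => hsmul _ _
  have hgrp : ∀ c : Fin d → (Fin r → Fin m) → 𝒪,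
      (∑ j, γ (φ (iaGrpElt m (c j))) • b j) =
        ∑ j, ∑ a, (algebraMap 𝒪 T (c j a) * ∏ i, w i ^ (a i : ℕ)) • b j := by
    intro c
    refine Finset.sum_congr rfl fun j _ => ?_
    rw [γ_φ_iaGrpElt m γ φ w hγφ, Finset.sum_smul]
  refine ⟨
    { N := M ⧸ iaRelK M m w
      instAddCommGroup := inferInstance
      instModule := instN
      φ := (φ : MvPowerSeries (Fin r) 𝒪 →+* A)
      φ_lam := ?_
      b := fun j => Submodule.Quotient.mk (b j)
      b_span := ?_
      b_rel := ?_
      s_smul := ?_ }⟩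
  · -- φ_lam
    exact AlgHom.commutes φ lam
  · -- b_span
    intro x
    obtain ⟨x, rfl⟩ := Submodule.Quotient.mk_surjective _ x
    obtain ⟨c, hc⟩ := hb.1 x
    refine ⟨fun j => iaGrpElt m (c j), ?_⟩
    have := hsum fun j => iaGrpElt m (c j)
    rw [hgrp] at this
    show (Submodule.Quotient.mk x : M ⧸ iaRelK M m w) =
      ∑ j, φ (iaGrpElt m (c j)) • (Submodule.Quotient.mk (b j) : M ⧸ iaRelK M m w)
    rw [this]
    exact (Submodule.Quotient.eq _).mpr hc
  · -- b_rel
    intro c
    constructor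
    · intro h0
      have h0' : (∑ j, φ (c j) • (Submodule.Quotient.mk (b j) : M ⧸ iaRelK M m w)) = 0 := h0
      choose c' hc' using fun j => hW (c j)
      have h1 : (∑ j, φ (iaGrpElt m (c' j)) •
          (Submodule.Quotient.mk (b j) : M ⧸ iaRelK M m w)) = 0 := by
        have h2 : ∀ j, φ (iaGrpElt m (c' j)) •
            (Submodule.Quotient.mk (b j) : M ⧸ iaRelK M m w) =
            φ (c j) • (Submodule.Quotient.mk (b j) : M ⧸ iaRelK M m w) -
              φ (c j - iaGrpElt m (c' j)) • Submodule.Quotient.mk (b j) := by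
          intro j
          rw [← sub_smul, ← map_sub, sub_sub_cancel]
        rw [Finset.sum_congr rfl fun j _ => h2 j, Finset.sum_sub_distrib, h0',
          Finset.sum_eq_zero fun j _ => hJ0 _ (hc' j) (b j), sub_zero]
      rw [hsum, hgrp, Submodule.Quotient.mk_eq_zero] at h1
      have h3 := hb.2 c' h1
      intro j
      have h4 : iaGrpElt m (c' j) = 0 := by
        unfold iaGrpElt
        refine Finset.sum_eq_zero fun a _ => ?_
        rw [h3 j a, map_zero, zero_mul]
      have := hc' j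
      rwa [h4, sub_zero] at this
    · intro hc
      exact Finset.sum_eq_zero fun j _ => hJ0 _ (hc j) (b j)
  · -- s_smul
    intro x
    obtain ⟨x, rfl⟩ := Submodule.Quotient.mk_surjective _ x
    obtain ⟨y, hy⟩ := hs x
    refine ⟨Submodule.Quotient.mk y, ?_⟩
    rw [hsmul, hsmul, hy, AlgHom.commutes]

end Bridge

end Fermat.Agent.S38.IA.H607

end
-- ===== PACK-END S38/IA/H607/Bridge.lean

-- ===== PACK-BEGIN S38/IA/H607/Bridge2.lean
section







/-!
# Row HARD (row 37), cell BRIDGE: the three frozen leaves of `S38/IA/SpecBridge.lean`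
(helper607; board `coord/HARD.md` v3, §3.3)

* `iaBridgeIdeal : IABridgeIdealStatement` — `J_n ≤ 𝔪_S ^ n`;
* `iaBridge : IABridgeStatement` — the level `H901.IALevel` from the Hecke-side data of one
  Taylor–Wiles set (`φ : y_i ↦ ω_i - 1` by `S53.H596.evalCNL`, spanning by helper206's
  `weierstrass`, the module-theoretic part is `nonempty_iaLevel_of_hom` of `Bridge.lean`);
* `iaBridgeBase : IABridgeBaseStatement` — `S = 𝒪⟦y_1..y_r⟧` is profinite-adic of dimension
  `r + 1` (dimension: helper474's `ringKrullDim_mvPowerSeries_dvr`).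

All three verbatim at the frozen types.
-/

set_option autoImplicit false
set_option linter.style.haveILetI false
set_option linter.unusedSectionVars false

open MvPowerSeries IsLocalRing

namespace Fermat.Agent.S38.IA.H607

open Fermat.Agent.S59.TW.H959 Fermat.Agent.S59.Patch.H967 Fermat.Agent.S38.H901
open Fermat.Agent.S38.IA

/-- The frozen relation ideal is the relation ideal of `Bridge.lean`. -/
theorem twRelIdeal_eq_iaRelJ (𝒪 : Type) [CommRing 𝒪] (p n r : ℕ) :
    twRelIdeal 𝒪 p n r = iaRelJ 𝒪 r (p ^ n) := rfl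

/-- **LEAF BRIDGE-1.** -/
theorem iaBridgeIdeal : IABridgeIdealStatement := by
  intro p _ 𝒪 _ _ _ hp𝒪 n r
  refine le_trans ?_ (Ideal.pow_le_pow_right (Nat.le_succ n))
  exact Fermat.Agent.S59.H607.twIdeal_le hp𝒪 n

/-- **LEAF BRIDGE-3.** -/
theorem iaBridgeBase : IABridgeBaseStatement := by
  intro 𝒪 _ _ _ _ _ r
  haveI : IsAdicComplete (maximalIdeal (MvPowerSeries (Fin r) 𝒪)) (MvPowerSeries (Fin r) 𝒪) :=
    Fermat.Agent.S53.H596.isAdicComplete_mvPowerSeries
  exact ⟨⟨inferInstance, inferInstance,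
    fun K => Fermat.Agent.S59.H607.finite_quotient_maximalIdeal_pow_mvPowerSeries K⟩,
    Fermat.Agent.S38.IA.H474.ringKrullDim_mvPowerSeries_dvr 𝒪 r⟩

/-- **LEAF BRIDGE-2.** -/
theorem iaBridge : IABridgeStatement := by
  intro p _ 𝒪 _ _ _ _ _ hp𝒪 A _ _ _ hA T _ _ γ M _ _ n r d w b hb hw lam s hs
  haveI : IsHausdorff (maximalIdeal A) A := hA.haus
  haveI : IsPrecomplete (maximalIdeal A) A := hA.prec
  haveI : IsAdicComplete (maximalIdeal A) A := {}
  choose ω hω1 hω2 using hw
  have hγφ : ∀ i, γ (Fermat.Agent.S53.H596.evalCNL (R := 𝒪) (maximalIdeal A)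
      (fun i => ω i - 1) hω2 (X i)) = w i - 1 := by
    intro i
    rw [Fermat.Agent.S53.H596.evalCNL_X, map_sub, map_one, hω1]
  exact nonempty_iaLevel_of_hom (p ^ n) γ
    (Fermat.Agent.S53.H596.evalCNL (R := 𝒪) (maximalIdeal A) (fun i => ω i - 1) hω2) w hγφ b hb
    (fun f => Fermat.Agent.S59.TW.H206.weierstrass p 𝒪 hp𝒪 n r f) lam s hs

end Fermat.Agent.S38.IA.H607

end
-- ===== PACK-END S38/IA/H607/Bridge2.lean

-- ===== PACK-BEGIN S38/IA/Gal/H1/Congr.lean
section


/-!
# IA-GAL / LOC-GEN (helper1), part 3a: congruence subgroups of `Aut_A(V)` (Mathlib only)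

`A` a commutative ring, `V` an `A`-module, `I` an ideal of `A`.

* `congrSubgroup V I` : the automorphisms `g` of `V` with `g v - v ∈ I V` for all `v`
  (a normal subgroup of `(Module.End A V)ˣ`).
* `pow_mem_congrSubgroup_succ` : if `p ∈ 𝔪` and `g ≡ 1 mod 𝔪 ^ (k + 1)` then
  `g ^ p ≡ 1 mod 𝔪 ^ (k + 2)`.
* `pow_prime_pow_mem_congrSubgroup` : if `g ≡ 1 mod 𝔪` then `g ^ p ^ k ≡ 1 mod 𝔪 ^ (k + 1)`.
-/

set_option autoImplicit false

namespace Fermat.Agent.S38.IA.Gal

variable {A : Type*} [CommRing A] (V : Type*) [AddCommGroup V] [Module A V]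

variable {V} in
/-- Linear maps preserve `I V`. -/
theorem apply_mem_smul_top (f : Module.End A V) {I : Ideal A} {v : V}
    (hv : v ∈ I • (⊤ : Submodule A V)) : f v ∈ I • (⊤ : Submodule A V) :=
  Submodule.smul_top_le_comap_smul_top I f hv

variable {V} in
/-- A linear map with values in `J V` maps `I V` into `(I * J) V`. -/
theorem apply_mem_mul_smul_top (f : Module.End A V) {I J : Ideal A}
    (hf : ∀ v, f v ∈ J • (⊤ : Submodule A V)) {w : V} (hw : w ∈ I • (⊤ : Submodule A V)) :
    f w ∈ (I * J) • (⊤ : Submodule A V) := by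
  have h1 : Submodule.map f (I • (⊤ : Submodule A V)) ≤ (I * J) • (⊤ : Submodule A V) := by
    rw [Submodule.map_smul'', Submodule.mul_smul]
    refine Submodule.smul_mono le_rfl ?_
    rintro _ ⟨v, -, rfl⟩
    exact hf v
  exact h1 (Submodule.mem_map_of_mem hw)

/-- The congruence subgroup of level `I`: automorphisms congruent to the identity modulo `I V`. -/
def congrSubgroup (I : Ideal A) : Subgroup (Module.End A V)ˣ where
  carrier := {g | ∀ v, (g : Module.End A V) v - v ∈ I • (⊤ : Submodule A V)}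
  one_mem' := fun v => by
    rw [Units.val_one, Module.End.one_apply, sub_self]
    exact zero_mem _
  mul_mem' := fun {g h} hg hh v => by
    have h1 : ((g * h : (Module.End A V)ˣ) : Module.End A V) v - v =
        (g : Module.End A V) ((h : Module.End A V) v - v) + ((g : Module.End A V) v - v) := by
      rw [Units.val_mul, Module.End.mul_apply, map_sub]
      abel
    rw [h1]
    exact add_mem (apply_mem_smul_top _ (hh v)) (hg v)
  inv_mem' := fun {g} hg v => by
    have h1 : ((g⁻¹ : (Module.End A V)ˣ) : Module.End A V) v - v =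
        -((g⁻¹ : (Module.End A V)ˣ) : Module.End A V) ((g : Module.End A V) v - v) := by
      rw [map_sub, ← Module.End.mul_apply, ← Units.val_mul, inv_mul_cancel, Units.val_one,
        Module.End.one_apply]
      abel
    rw [h1]
    exact neg_mem (apply_mem_smul_top _ (hg v))

variable {V}

theorem mem_congrSubgroup {I : Ideal A} {g : (Module.End A V)ˣ} :
    g ∈ congrSubgroup V I ↔ ∀ v, (g : Module.End A V) v - v ∈ I • (⊤ : Submodule A V) :=
  Iff.rfl

instance congrSubgroup_normal (I : Ideal A) : (congrSubgroup V I).Normal where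
  conj_mem := fun g hg h v => by
    have h1 : ((h * g * h⁻¹ : (Module.End A V)ˣ) : Module.End A V) v - v =
        (h : Module.End A V) ((g : Module.End A V)
          (((h⁻¹ : (Module.End A V)ˣ) : Module.End A V) v) -
            ((h⁻¹ : (Module.End A V)ˣ) : Module.End A V) v) := by
      rw [map_sub, ← Module.End.mul_apply (h : Module.End A V)
        (((h⁻¹ : (Module.End A V)ˣ) : Module.End A V)), ← Units.val_mul, mul_inv_cancel,
        Units.val_one, Module.End.one_apply]
      rfl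
    rw [h1]
    exact apply_mem_smul_top _ (hg _)

theorem congrSubgroup_mono {I J : Ideal A} (h : I ≤ J) :
    congrSubgroup V I ≤ congrSubgroup V J := fun _ hg v =>
  Submodule.smul_mono h le_rfl (hg v)

/-- Telescoping: `g ^ n v - v = ∑_{i < n} g ^ i (g v - v)`. -/
theorem pow_apply_sub_eq_sum (g : Module.End A V) (v : V) (n : ℕ) :
    (g ^ n) v - v = ∑ i ∈ Finset.range n, (g ^ i) (g v - v) := by
  induction n with
  | zero => simp
  | succ n ih =>
    rw [Finset.sum_range_succ, ← ih, map_sub, ← Module.End.mul_apply, ← pow_succ]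
    abel

/-- If `p ∈ 𝔪` and `g ≡ 1 mod 𝔪 ^ (k + 1)` then `g ^ p ≡ 1 mod 𝔪 ^ (k + 2)`. -/
theorem pow_mem_congrSubgroup_succ {𝔪 : Ideal A} {p : ℕ} (hp : (p : A) ∈ 𝔪) {k : ℕ}
    {g : (Module.End A V)ˣ} (hg : g ∈ congrSubgroup V (𝔪 ^ (k + 1))) :
    g ^ p ∈ congrSubgroup V (𝔪 ^ (k + 2)) := by
  intro v
  rw [Units.val_pow_eq_pow_val, pow_apply_sub_eq_sum]
  set w := (g : Module.End A V) v - v with hw
  have hwm : w ∈ (𝔪 ^ (k + 1)) • (⊤ : Submodule A V) := hg v
  have hle : 𝔪 ^ (k + 1) * 𝔪 ^ (k + 1) ≤ 𝔪 ^ (k + 2) := by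
    rw [← pow_add]
    exact Ideal.pow_le_pow_right (by omega)
  have hterm : ∀ i : ℕ, ((g : Module.End A V) ^ i) w - w ∈
      (𝔪 ^ (k + 2)) • (⊤ : Submodule A V) := by
    intro i
    have hgi : g ^ i ∈ congrSubgroup V (𝔪 ^ (k + 1)) := pow_mem hg i
    have h1 : ∀ u, ((g : Module.End A V) ^ i - 1) u ∈ (𝔪 ^ (k + 1)) • (⊤ : Submodule A V) := by
      intro u
      have := hgi u
      rwa [Units.val_pow_eq_pow_val] at this
    have h2 := apply_mem_mul_smul_top ((g : Module.End A V) ^ i - 1) h1 hwm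
    have h3 : ((g : Module.End A V) ^ i - 1) w = ((g : Module.End A V) ^ i) w - w := rfl
    rw [h3] at h2
    exact Submodule.smul_mono hle le_rfl h2
  have hsum : ∑ i ∈ Finset.range p, ((g : Module.End A V) ^ i) w =
      (p : A) • w + ∑ i ∈ Finset.range p, (((g : Module.End A V) ^ i) w - w) := by
    rw [Finset.sum_sub_distrib, Finset.sum_const, Finset.card_range, Nat.cast_smul_eq_nsmul]
    abel
  rw [hsum]
  refine add_mem ?_ (sum_mem (fun i _ => hterm i))
  have h4 : (p : A) • w ∈ (𝔪 * 𝔪 ^ (k + 1)) • (⊤ : Submodule A V) := by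
    rw [Submodule.mul_smul]
    exact Submodule.smul_mem_smul hp hwm
  rw [← pow_succ'] at h4
  exact h4

/-- If `p ∈ 𝔪` and `g ≡ 1 mod 𝔪` then `g ^ p ^ k ≡ 1 mod 𝔪 ^ (k + 1)`. -/
theorem pow_prime_pow_mem_congrSubgroup {𝔪 : Ideal A} {p : ℕ} (hp : (p : A) ∈ 𝔪)
    {g : (Module.End A V)ˣ} (hg : g ∈ congrSubgroup V 𝔪) (k : ℕ) :
    g ^ p ^ k ∈ congrSubgroup V (𝔪 ^ (k + 1)) := by
  induction k with
  | zero =>
    have h1 : g ^ p ^ 0 = g := by rw [pow_zero, pow_one]
    have h2 : 𝔪 ^ (0 + 1) = 𝔪 := by rw [zero_add, pow_one]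
    rw [h1, h2]
    exact hg
  | succ k ih =>
    have h1 : g ^ p ^ (k + 1) = (g ^ p ^ k) ^ p := by rw [← pow_mul, ← pow_succ]
    rw [h1]
    exact pow_mem_congrSubgroup_succ hp ih

end Fermat.Agent.S38.IA.Gal

end
-- ===== PACK-END S38/IA/Gal/H1/Congr.lean

-- ===== PACK-BEGIN S38/H113/Kill.lean
section



/-!
# Row HARD, leaves (ST) / (NU): the **KILL** lemma — from points to the module   (helper113)

Clauses (SUPP-NU) and (ST) of `S38.IA.HasIAModule` are statements on a module `M` over the Hecke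
ring `T`, while the Galois input (`StGal`, `NuGal`) is pointwise.  The bridge:

* `exists_scalar_of_ann` (Mathlib only): `a ∈ T` integral over the domain `𝒪`, `a M = 0`,
  `χ : T → D` a point (`D` a domain) with `χ a ≠ 0`.  Then there are `c ∈ T` and `0 ≠ λ ∈ 𝒪`
  with `χ c = 0` and `c m = λ m` for all `m ∈ M`.   (`g(a) = 0`, `g = X^k h`, `h(0) ≠ 0`:
  `c = h(a)`, `λ = h(0)`.)
* `kill_of_points` (Mathlib only): `T` integral over `𝒪`, `M` an `𝒪`-torsion-free `T`-module,
  a finite jointly injective family of points `χ_j : T → D_j`; if `t ∈ T` vanishes at every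
  point of the family which kills `Ann_T(M)`, then `t M = 0`.
* `kill` : the same for a reduced local ring `T`, finite and free over a complete DVR `𝒪` of
  characteristic `0` with finite residue field, with `p`-adic points (`S31.PadicPoint`, all of
  them local homomorphisms): if `χ t = 0` at every local `p`-adic point `χ` with
  `Ann_T(M) ≤ ker χ`, then `t M = 0`.   (Points exist by `S59.G4.H109.points`.)
* `suppNU_of_points` : clause (SUPP-NU) VERBATIM (for any `T`, `ρ`, `Piv`) from the pointwise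
  statement "every local `p`-adic point through `Ann_T(M)` is not unipotent at the pivots".
-/

set_option autoImplicit false
set_option linter.style.haveILetI false

open Polynomial IsLocalRing

namespace Fermat.Agent.S38.H113

/-! ## Mathlib-only part -/

section Abstract

variable {𝒪 T : Type*} [CommRing 𝒪] [IsDomain 𝒪] [CommRing T] [Algebra 𝒪 T]
  {M : Type*} [AddCommGroup M] [Module T M]

omit [IsDomain 𝒪] in
/-- The value of a polynomial at an element killing `M` acts on `M` as the constant term. -/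
theorem aeval_smul_of_ann (a : T) (ha : ∀ m : M, a • m = 0) (h : 𝒪[X]) (m : M) :
    (aeval a h) • m = algebraMap 𝒪 T (h.coeff 0) • m := by
  have e : h = divX h * X + C (h.coeff 0) := (divX_mul_X_add h).symm
  have e2 : aeval a h = aeval a (divX h) * a + algebraMap 𝒪 T (h.coeff 0) := by
    conv_lhs => rw [e]
    rw [map_add, map_mul, aeval_X, aeval_C]
  rw [e2, add_smul, mul_smul, ha m, smul_zero, zero_add]

/-- **The local step.**  An element `a` of `Ann_T(M)`, integral over `𝒪`, which does not vanish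
at the point `χ`, gives `c ∈ T` vanishing at `χ` and acting on `M` as a nonzero scalar. -/
theorem exists_scalar_of_ann {D : Type*} [CommRing D] [IsDomain D] (χ : T →+* D)
    (a : T) (hint : IsIntegral 𝒪 a) (ha : ∀ m : M, a • m = 0) (hχ : χ a ≠ 0) :
    ∃ (c : T) (l : 𝒪), l ≠ 0 ∧ χ c = 0 ∧ ∀ m : M, c • m = algebraMap 𝒪 T l • m := by
  obtain ⟨g, hgmonic, hg⟩ := hint
  have hg0 : g ≠ 0 := hgmonic.ne_zero
  obtain ⟨h, hgh, hh⟩ := Polynomial.exists_eq_pow_rootMultiplicity_mul_and_not_dvd g hg0 0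
  rw [map_zero, sub_zero] at hgh hh
  have hh0 : h.coeff 0 ≠ 0 := by
    intro h0
    apply hh
    rw [Polynomial.X_dvd_iff]
    exact h0
  refine ⟨aeval a h, h.coeff 0, hh0, ?_, fun m => aeval_smul_of_ann a ha h m⟩
  have h1 : aeval a g = 0 := by
    rw [← hg]; rfl
  rw [hgh, map_mul, map_pow, aeval_X] at h1
  have h2 := congrArg χ h1
  rw [map_mul, map_pow, map_zero] at h2
  rcases mul_eq_zero.mp h2 with h3 | h3
  · exact absurd h3 (pow_ne_zero _ hχ)
  · exact h3

/-- **KILL, abstract form.**  `M` is `𝒪`-torsion-free; the points `χ j` (`j ∈ s`) are jointly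
injective; `t` vanishes at every point which kills the annihilator of `M`. -/
theorem kill_of_points [Algebra.IsIntegral 𝒪 T]
    (htf : ∀ l : 𝒪, l ≠ 0 → ∀ m : M, algebraMap 𝒪 T l • m = 0 → m = 0)
    {ι : Type*} (s : Finset ι) (D : ι → Type*) [∀ j, CommRing (D j)] [∀ j, IsDomain (D j)]
    (χ : ∀ j, T →+* D j)
    (hinj : ∀ u : T, (∀ j ∈ s, χ j u = 0) → u = 0)
    (t : T)
    (ht : ∀ j ∈ s, (∀ a : T, (∀ m : M, a • m = 0) → χ j a = 0) → χ j t = 0) :
    ∀ m : M, t • m = 0 := by
  classical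
  -- for every point: `c` acting as a nonzero scalar with `χ (t c) = 0`
  have hloc : ∀ j ∈ s, ∃ (c : T) (l : 𝒪), l ≠ 0 ∧ χ j (t * c) = 0 ∧
      ∀ m : M, c • m = algebraMap 𝒪 T l • m := by
    intro j hj
    by_cases hj1 : ∀ a : T, (∀ m : M, a • m = 0) → χ j a = 0
    · refine ⟨1, 1, one_ne_zero, ?_, fun m => by rw [map_one]⟩
      rw [mul_one]
      exact ht j hj hj1
    · obtain ⟨a, hna⟩ := not_forall.mp hj1
      obtain ⟨ha, hχa⟩ := Classical.not_imp.mp hna
      obtain ⟨c, l, hl, hc, hcm⟩ :=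
        exists_scalar_of_ann (𝒪 := 𝒪) (χ j) a (Algebra.IsIntegral.isIntegral a) ha hχa
      exact ⟨c, l, hl, by rw [map_mul, hc, mul_zero], hcm⟩
  -- the product over a finset
  have hprod : ∀ s' : Finset ι, s' ⊆ s → ∃ (c : T) (l : 𝒪), l ≠ 0 ∧
      (∀ j ∈ s', χ j (t * c) = 0) ∧ ∀ m : M, c • m = algebraMap 𝒪 T l • m := by
    intro s'
    induction s' using Finset.induction_on with
    | empty =>
      intro _
      exact ⟨1, 1, one_ne_zero, fun j hj => absurd hj (Finset.notMem_empty j),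
        fun m => by rw [map_one]⟩
    | insert j₀ s' hj₀ ih =>
      intro hsub
      obtain ⟨c, l, hl, hc, hcm⟩ := ih (fun j hj => hsub (Finset.mem_insert_of_mem hj))
      obtain ⟨c₀, l₀, hl₀, hc₀, hcm₀⟩ := hloc j₀ (hsub (Finset.mem_insert_self j₀ s'))
      refine ⟨c₀ * c, l₀ * l, mul_ne_zero hl₀ hl, ?_, ?_⟩
      · intro j hj
        rcases Finset.mem_insert.mp hj with rfl | hj'
        · have : t * (c₀ * c) = (t * c₀) * c := by ring
          rw [this, map_mul, hc₀, zero_mul]
        · have : t * (c₀ * c) = (t * c) * c₀ := by ring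
          rw [this, map_mul, hc j hj', zero_mul]
      · intro m
        rw [mul_smul, hcm m, hcm₀, map_mul, mul_smul]
  obtain ⟨c, l, hl, hc, hcm⟩ := hprod s (Finset.Subset.refl s)
  have h0 : t * c = 0 := hinj _ hc
  intro m
  apply htf l hl
  have : algebraMap 𝒪 T l • (t • m) = (t * c) • m := by
    rw [mul_smul, hcm m, smul_comm]
  rw [this, h0, zero_smul]

end Abstract

/-! ## `p`-adic points of a reduced local finite free algebra over a complete DVR -/

section Padic

open Fermat.Agent.S31 Fermat.Agent.S59.G4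

variable (p : ℕ) [Fact p.Prime]
  {𝒪 : Type} [CommRing 𝒪] [IsDomain 𝒪] [IsDiscreteValuationRing 𝒪]
  [IsAdicComplete (maximalIdeal 𝒪) 𝒪] [Finite (ResidueField 𝒪)] [CharZero 𝒪]
  {T : Type} [CommRing T] [IsLocalRing T] [Algebra 𝒪 T] [Module.Finite 𝒪 T] [Module.Free 𝒪 T]
  [IsReduced T]
  {M : Type*} [AddCommGroup M] [Module T M]

/-- **KILL.**  `T` reduced local, finite free over the complete DVR `𝒪`; `M` an `𝒪`-torsion-free
`T`-module.  If `t ∈ T` vanishes at every local `p`-adic point of `T` which kills `Ann_T(M)`,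
then `t M = 0`. -/
theorem kill (hp𝒪 : (p : 𝒪) ∈ maximalIdeal 𝒪)
    (htf : ∀ l : 𝒪, l ≠ 0 → ∀ m : M, algebraMap 𝒪 T l • m = 0 → m = 0)
    (t : T)
    (ht : ∀ P : PadicPoint p T, IsLocalHom P.χ →
      (∀ a : T, (∀ m : M, a • m = 0) → P.χ a = 0) → P.χ t = 0) :
    ∀ m : M, t • m = 0 := by
  classical
  obtain ⟨F, hF, hloc⟩ := Fermat.Agent.S59.G4.H109.points p 𝒪 hp𝒪 T
  haveI : IsNoetherianRing T := IsNoetherianRing.of_finite 𝒪 T
  haveI : Algebra.IsIntegral 𝒪 T := Algebra.IsIntegral.of_finite 𝒪 T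
  -- joint injectivity
  have hinj : ∀ u : T, (∀ j ∈ (Finset.univ : Finset (Fin F.length)), (F.get j).χ u = 0) →
      u = 0 := by
    intro u hu
    have hmem : ∀ n : ℕ, u ∈ maximalIdeal T ^ n := by
      intro n
      obtain ⟨n', hn'⟩ := hF n
      apply hn' u
      intro P hP
      obtain ⟨j, rfl⟩ := List.mem_iff_get.mp hP
      rw [hu j (Finset.mem_univ j)]
      exact Ideal.zero_mem _
    have hbot : (⨅ n : ℕ, maximalIdeal T ^ n) = ⊥ :=
      Ideal.iInf_pow_eq_bot_of_isLocalRing (maximalIdeal T) (IsLocalRing.maximalIdeal.isMaximal T).ne_top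
    have : u ∈ (⨅ n : ℕ, maximalIdeal T ^ n) := by
      rw [Ideal.mem_iInf]
      exact hmem
    rw [hbot] at this
    exact this
  exact kill_of_points (𝒪 := 𝒪) htf (Finset.univ : Finset (Fin F.length))
    (fun j => (F.get j).O) (fun j => (F.get j).χ) hinj t
    (fun j _ hj => ht (F.get j) (hloc _ (List.get_mem F j)) hj)

/-- **Clause (SUPP-NU) from the pointwise statement** (shape of `S38.IA.HasIAModule`, for any
representation `ρ` over `T` and any finite set `Piv`): if the representation is not unipotent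
at the primes of `Piv` at every local `p`-adic point of `T` which kills `Ann_T(M)`, then every
`t ∈ T` vanishing at all characteristic-zero points which are not unipotent at `Piv` kills
`M`. -/
theorem suppNU_of_points (hp𝒪 : (p : 𝒪) ∈ maximalIdeal 𝒪)
    (htf : ∀ l : 𝒪, l ≠ 0 → ∀ m : M, algebraMap 𝒪 T l • m = 0 → m = 0)
    (ρ : GaloisRepAdic T) (Piv : Finset ℕ)
    (hpts : ∀ P : PadicPoint p T, ∀ hP : IsLocalHom P.χ,
      (∀ a : T, (∀ m : M, a • m = 0) → P.χ a = 0) →
      ∀ q ∈ Piv, ¬ (ρ.baseChangeAlong P.χ hP).IsUnipotentOnInertiaAt q) :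
    ∀ t : T,
      (∀ (𝒪' : Type) [CommRing 𝒪'] [IsDomain 𝒪'] [IsDiscreteValuationRing 𝒪'] [CharZero 𝒪']
          [Algebra 𝒪 𝒪'] (x : T →ₐ[𝒪] 𝒪') (hx : IsLocalHom (x : T →+* 𝒪')),
          (∀ q ∈ Piv,
            ¬ (ρ.baseChangeAlong (x : T →+* 𝒪') hx).IsUnipotentOnInertiaAt q) →
          x t = 0) →
      ∀ m : M, t • m = 0 := by
  intro t ht
  refine kill p hp𝒪 htf t ?_
  intro P hP hann
  letI : Algebra 𝒪 P.O := (P.χ.comp (algebraMap 𝒪 T)).toAlgebra
  let x : T →ₐ[𝒪] P.O := { P.χ with commutes' := fun _ => rfl }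
  exact ht P.O x hP (hpts P hP hann)

end Padic

end Fermat.Agent.S38.H113

end
-- ===== PACK-END S38/H113/Kill.lean

-- ===== PACK-BEGIN S38/H264/Hocc.lean
section


/-!
# Row HARD, leaf IA-ST: the transfer of occurrence along a corestriction (helper264)

Pure algebra (Mathlib only).  `T` a commutative ring acting on `V` (`a`), `B` a ring acting on
`V₁` (`Ψ`), `c : V → V₁` additive, intertwining `a (t i)` and `Ψ (b i)` for two families
`t : I → T`, `b : I → B`.

* `cor_lift_apply` : `c (a (P(t)) v) = Ψ (P(b)) (c v)` for every integer noncommutative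
  polynomial `P ∈ FreeAlgebra ℤ I`;
* `map_freeAlgebra_lift` : `x (P(t)) = P(x ∘ t)` for a ring homomorphism `x : T → D`;
* `hocc_of_cor` : if moreover `c v = 0` implies `n • v ∈ W` (a fixed `n ≠ 0`; `W` an additive
  subgroup of `V`) and `x : T → D` (`D` a domain of characteristic `0`) kills every `s ∈ T` with
  `a s V ⊆ W`, then every `P` with `Ψ (P(b)) = 0` satisfies `P(x ∘ t) = 0`.

This is the hypothesis `hocc` of `H53.st_of_action_h53` (`I = GoodIdx N S`, `b = tFamA N S`,
`t i = H.π T_i`), with `c` = the corestriction `V → V₁`, `W = chiRelIA 1 V`.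
-/

set_option autoImplicit false

namespace Fermat.Agent.S38.H264

section Abs

variable {𝒪 : Type*} [CommRing 𝒪] {T B : Type*} [CommRing T] [Ring B]
  {V V₁ : Type*} [AddCommGroup V] [Module 𝒪 V] [AddCommGroup V₁] [Module 𝒪 V₁]
  {I : Type*}

/-- `c ∘ a(P(t)) = Ψ(P(b)) ∘ c`. -/
theorem cor_lift_apply (a : T →+* Module.End 𝒪 V) (Ψ : B →+* Module.End 𝒪 V₁) (c : V →+ V₁)
    (t : I → T) (b : I → B) (hc : ∀ i v, c (a (t i) v) = Ψ (b i) (c v))
    (P : FreeAlgebra ℤ I) (v : V) :
    c (a (FreeAlgebra.lift ℤ t P) v) = Ψ (FreeAlgebra.lift ℤ b P) (c v) := by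
  induction P using FreeAlgebra.induction generalizing v with
  | grade0 n =>
    rw [AlgHom.commutes, AlgHom.commutes, eq_intCast, eq_intCast, map_intCast, map_intCast]
    rw [Module.End.intCast_apply, Module.End.intCast_apply, map_zsmul]
  | grade1 i =>
    rw [FreeAlgebra.lift_ι_apply, FreeAlgebra.lift_ι_apply]
    exact hc i v
  | add x y hx hy =>
    rw [map_add, map_add, map_add, map_add, LinearMap.add_apply, LinearMap.add_apply, map_add,
      hx, hy]
  | mul x y hx hy =>
    rw [map_mul, map_mul, map_mul, map_mul, Module.End.mul_apply, Module.End.mul_apply, hx, hy]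

/-- `x (P(t)) = P(x ∘ t)`. -/
theorem map_freeAlgebra_lift {D : Type*} [CommRing D] (x : T →+* D) (t : I → T)
    (P : FreeAlgebra ℤ I) :
    x (FreeAlgebra.lift ℤ t P) = FreeAlgebra.lift ℤ (fun i => x (t i)) P := by
  induction P using FreeAlgebra.induction with
  | grade0 n =>
    rw [AlgHom.commutes, AlgHom.commutes, eq_intCast, eq_intCast, map_intCast]
  | grade1 i =>
    rw [FreeAlgebra.lift_ι_apply, FreeAlgebra.lift_ι_apply]
  | add x' y' hx hy =>
    rw [map_add, map_add, map_add, hx, hy]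
  | mul x' y' hx hy =>
    rw [map_mul, map_mul, map_mul, hx, hy]

/-- **Transfer of occurrence.**  See the header. -/
theorem hocc_of_cor (a : T →+* Module.End 𝒪 V) (Ψ : B →+* Module.End 𝒪 V₁) (c : V →+ V₁)
    (t : I → T) (b : I → B) (hc : ∀ i v, c (a (t i) v) = Ψ (b i) (c v))
    (W : AddSubgroup V) (n : ℕ) (hn : n ≠ 0) (hker : ∀ v : V, c v = 0 → n • v ∈ W)
    {D : Type*} [CommRing D] [IsDomain D] [CharZero D] (x : T →+* D)
    (hsupp : ∀ s : T, (∀ v : V, a s v ∈ W) → x s = 0)
    (P : FreeAlgebra ℤ I) (hP : Ψ (FreeAlgebra.lift ℤ b P) = 0) :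
    FreeAlgebra.lift ℤ (fun i => x (t i)) P = 0 := by
  rw [← map_freeAlgebra_lift]
  have h1 : ∀ v : V, a ((n : T) * FreeAlgebra.lift ℤ t P) v ∈ W := by
    intro v
    have h2 : c (a (FreeAlgebra.lift ℤ t P) v) = 0 := by
      rw [cor_lift_apply a Ψ c t b hc P v, hP, LinearMap.zero_apply]
    have h3 := hker _ h2
    rw [map_mul, Module.End.mul_apply, map_natCast, Module.End.natCast_apply]
    exact h3
  have h4 := hsupp _ h1
  rw [map_mul, map_natCast] at h4
  rcases mul_eq_zero.mp h4 with h5 | h5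
  · exact absurd (Nat.cast_eq_zero.mp h5) hn
  · exact h5

end Abs

end Fermat.Agent.S38.H264

end
-- ===== PACK-END S38/H264/Hocc.lean

-- ===== PACK-BEGIN S38/H59/Torsion.lean
section


/-!
# Row HARD, leaf TW-MIN, TORS: elements of finite order of `SL(2,ℤ)` (helper59) — Mathlib only

`pow_twelve_eq_one_of_isOfFinOrder_h59 : IsOfFinOrder g → g ^ 12 = 1` for `g : SL(2,ℤ)`.

Cayley–Hamilton `A² = t A - 1`, `t = tr A`.  If `|t| ≥ 3` the absolute values of the traces of the
powers of `A` increase strictly; if `t = ± 2` then `± A` is unipotent, hence `= 1`; if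
`t ∈ {0, 1, -1}` then `A⁴ = 1`, `A³ = -1`, `A³ = 1`.
-/

set_option autoImplicit false

namespace Fermat.Agent.S38.H59

open Matrix

/-- Cayley–Hamilton for `2 × 2` integral matrices of determinant `1`. -/
theorem mul_self_eq_h59 (A : Matrix (Fin 2) (Fin 2) ℤ) (hA : A.det = 1) :
    A * A = A.trace • A - 1 := by
  rw [Matrix.det_fin_two] at hA
  ext i j
  fin_cases i <;> fin_cases j <;>
    simp only [Matrix.mul_apply, Fin.sum_univ_two, Matrix.trace_fin_two, Matrix.sub_apply,
      Matrix.smul_apply, smul_eq_mul, Matrix.one_apply, Fin.zero_eta, Fin.mk_one, Fin.isValue,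
      if_true, one_ne_zero, zero_ne_one, if_false] <;>
    first | ring1 | linear_combination -hA

theorem pow_add_two_eq_h59 (A : Matrix (Fin 2) (Fin 2) ℤ) (hA : A.det = 1) (k : ℕ) :
    A ^ (k + 2) = A.trace • A ^ (k + 1) - A ^ k := by
  rw [pow_add, pow_two, mul_self_eq_h59 A hA, mul_sub, mul_one, Matrix.mul_smul, ← pow_succ]

/-- A unipotent integral matrix of finite order is `1`. -/
theorem eq_one_of_unipotent_h59 (B : Matrix (Fin 2) (Fin 2) ℤ) (hB : B * B = (2 : ℤ) • B - 1)
    (n : ℕ) (hn : 0 < n) (hBn : B ^ n = 1) : B = 1 := by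
  have hN : (B - 1) * (B - 1) = 0 := by
    rw [sub_mul, mul_sub, mul_sub, hB]
    simp only [mul_one, one_mul, two_smul]
    abel
  have hpow : ∀ m : ℕ, B ^ m = 1 + (m : ℤ) • (B - 1) := by
    intro m
    induction m with
    | zero => simp
    | succ m ih =>
      have hB2 : (B - 1) * B = B - 1 := by
        have h0 : (B - 1) * B = (B - 1) * (B - 1) + (B - 1) := by
          rw [mul_sub (B - 1) B 1, mul_one]
          abel
        rw [h0, hN, zero_add]
      rw [pow_succ, ih, add_mul, one_mul, Matrix.smul_mul, hB2]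
      push_cast
      rw [add_smul, one_smul]
      abel
  have h1 := hpow n
  rw [hBn] at h1
  have h2 : (n : ℤ) • (B - 1) = 0 := by
    have := h1
    rw [left_eq_add] at this
    exact this
  have h3 : B - 1 = 0 := by
    ext i j
    have := congrFun (congrFun h2 i) j
    simp only [Matrix.smul_apply, smul_eq_mul, Matrix.zero_apply] at this
    rcases mul_eq_zero.mp this with h | h
    · exact absurd (by exact_mod_cast h) hn.ne'
    · exact h
  exact sub_eq_zero.mp h3

/-- If `|tr A| ≥ 3` the absolute values of the traces of the powers increase strictly. -/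
theorem abs_trace_pow_lt_h59 (A : Matrix (Fin 2) (Fin 2) ℤ) (hA : A.det = 1)
    (ht : 3 ≤ |A.trace|) (k : ℕ) : |(A ^ k).trace| < |(A ^ (k + 1)).trace| := by
  induction k with
  | zero =>
    simp only [pow_zero, zero_add, pow_one, Matrix.trace_one, Fintype.card_fin]
    have : |((2 : ℕ) : ℤ)| = 2 := by norm_num
    rw [this]
    omega
  | succ k ih =>
    have h1 : (A ^ (k + 2)).trace = A.trace * (A ^ (k + 1)).trace - (A ^ k).trace := by
      rw [pow_add_two_eq_h59 A hA, Matrix.trace_sub, Matrix.trace_smul, smul_eq_mul]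
    rw [show k + 1 + 1 = k + 2 from rfl, h1]
    have h2 : |A.trace * (A ^ (k + 1)).trace| - |(A ^ k).trace| ≤
        |A.trace * (A ^ (k + 1)).trace - (A ^ k).trace| := abs_sub_abs_le_abs_sub _ _
    rw [abs_mul] at h2
    have h3 : 0 ≤ |(A ^ k).trace| := abs_nonneg _
    have h4 : 3 * |(A ^ (k + 1)).trace| ≤ |A.trace| * |(A ^ (k + 1)).trace| :=
      mul_le_mul_of_nonneg_right ht (abs_nonneg _)
    linarith

theorem three_le_abs_trace_pow_h59 (A : Matrix (Fin 2) (Fin 2) ℤ) (hA : A.det = 1)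
    (ht : 3 ≤ |A.trace|) (k : ℕ) : 3 ≤ |(A ^ (k + 1)).trace| := by
  induction k with
  | zero => simpa using ht
  | succ k ih =>
    have := abs_trace_pow_lt_h59 A hA ht (k + 1)
    linarith

/-- **TORS** for matrices. -/
theorem matrix_pow_twelve_h59 (A : Matrix (Fin 2) (Fin 2) ℤ) (hA : A.det = 1)
    (n : ℕ) (hn : 0 < n) (hAn : A ^ n = 1) : A ^ 12 = 1 := by
  have hCH := mul_self_eq_h59 A hA
  by_cases ht : 3 ≤ |A.trace|
  · exfalso
    obtain ⟨m, rfl⟩ : ∃ m, n = m + 1 := Nat.exists_eq_succ_of_ne_zero hn.ne'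
    have h1 := three_le_abs_trace_pow_h59 A hA ht m
    rw [hAn, Matrix.trace_one, Fintype.card_fin] at h1
    have : |((2 : ℕ) : ℤ)| = 2 := by norm_num
    rw [this] at h1
    omega
  · push Not at ht
    have hlo : -2 ≤ A.trace := by
      have := neg_abs_le A.trace
      omega
    have hhi : A.trace ≤ 2 := by
      have := le_abs_self A.trace
      omega
    obtain h | h | h | h | h : A.trace = -2 ∨ A.trace = -1 ∨ A.trace = 0 ∨ A.trace = 1 ∨
        A.trace = 2 := by omega
    · -- `-A` is unipotent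
      have hB : (-A) * (-A) = (2 : ℤ) • (-A) - 1 := by
        rw [neg_mul_neg, hCH, h]
        simp only [smul_neg, neg_smul]
      have hBn : (-A) ^ (2 * n) = 1 := by
        rw [pow_mul, neg_pow_two, ← pow_mul, mul_comm, pow_mul, hAn, one_pow]
      have h1 := eq_one_of_unipotent_h59 (-A) hB (2 * n) (by omega) hBn
      have h2 : A = -1 := by rw [← h1, neg_neg]
      rw [h2]
      exact Even.neg_one_pow (by decide)
    · -- `A³ = 1`
      rw [h] at hCH
      have h3 : A ^ 3 = 1 := by
        rw [pow_succ, pow_two, hCH, sub_mul, one_mul, Matrix.smul_mul, hCH]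
        simp only [neg_smul, one_smul, neg_sub]
        abel
      rw [show 12 = 3 * 4 from rfl, pow_mul, h3, one_pow]
    · -- `A² = -1`
      rw [h] at hCH
      have h2 : A ^ 2 = -1 := by
        rw [pow_two, hCH, zero_smul, zero_sub]
      rw [show 12 = 2 * 6 from rfl, pow_mul, h2]
      exact Even.neg_one_pow (by decide)
    · -- `A³ = -1`
      rw [h] at hCH
      have h3 : A ^ 3 = -1 := by
        rw [pow_succ, pow_two, hCH, sub_mul, one_mul, Matrix.smul_mul, hCH]
        simp only [one_smul]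
        abel
      rw [show 12 = 3 * 4 from rfl, pow_mul, h3]
      exact Even.neg_one_pow (by decide)
    · -- `A` is unipotent
      rw [h] at hCH
      have h1 := eq_one_of_unipotent_h59 A hCH n hn hAn
      rw [h1, one_pow]

/-- **TORS.**  An element of finite order of `SL(2,ℤ)` has order dividing `12`. -/
theorem pow_twelve_eq_one_of_isOfFinOrder_h59 (g : Matrix.SpecialLinearGroup (Fin 2) ℤ)
    (hg : IsOfFinOrder g) : g ^ 12 = 1 := by
  obtain ⟨n, hn, hgn⟩ := isOfFinOrder_iff_pow_eq_one.mp hg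
  apply Subtype.ext
  rw [Matrix.SpecialLinearGroup.coe_pow, Matrix.SpecialLinearGroup.coe_one]
  refine matrix_pow_twelve_h59 g.1 g.2 n hn ?_
  have := congrArg Subtype.val hgn
  rwa [Matrix.SpecialLinearGroup.coe_pow, Matrix.SpecialLinearGroup.coe_one] at this

end Fermat.Agent.S38.H59

end
-- ===== PACK-END S38/H59/Torsion.lean

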