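import Mathlib
import Fermat.Prelude.Def_FLTPrelim_Ramification
import Fermat.Prelude.Def_EllipticCurve_FrobeniusTrace
import Fermat.Agent.Pack.S43GC.G0E12L3
import Fermat.Agent.Pack.S43GC.G0E2L0
import Fermat.Agent.Pack.S43GC.G0E13L2
import Fermat.Agent.Pack.S43GC.G0E9L3
import Fermat.Agent.Pack.S43GC.G0E15L3
import Fermat.Agent.Pack.S43GC.G0E4L1
import Fermat.Agent.Pack.S43GC.G0E5L1
import Fermat.Agent.Pack.S43GC.G0E0L0
import Fermat.Agent.Pack.S43MC.G0E10L3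
import Fermat.Agent.Pack.S43MC.G0E5L3
import Fermat.Agent.Pack.S43C.E0L1
import Fermat.Agent.Pack.Fast891

-- ===== PACK-BEGIN S38/IA/Spec.lean
section


/-!
# Row HARD (row 37, hard case `q ≡ 1 mod p`, scalar Frobenius): frozen interface of the
# Ihara-avoidance chain, Hecke side and core statement   (architect / row-lead helper995)

Board: `coord/HARD.md` on the row trunk `origin/helper995`.  Vocabulary = row S59
(`S59/Arch/SpecRT.lean`: `ResidualHyp`, `sigmaCond`, `wilesLevel`, `ResModular`;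
`S59/TW/H959/Iface.lean`: `HeckePkg`, `IsTWSet`, `IsGroupRingBasis`).
Only sorry-free definitions in this file.

## Route (single-sided Ihara avoidance)
`ρ̄` as in S56/S59 (`ResidualHyp`), flat at `p`; `Piv` a finite set of PIVOT primes
(`q ∉ Smin`, `q ≡ 1 mod p`, every Frobenius at `q` is a scalar on `ρ̄`).  Suppose `ρ̄` is modular of
the squarefree level `L = ribetLevel p Smin Piv = ∏_{Smin ∖ p} r · ∏_{Piv} q` and (MIN) of none of
the levels `L / q`, `q ∈ Piv`.  For every Taylor–Wiles set `Q` (relative to `Smin ∪ Piv`) the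
Hecke side provides a module `M_Q` over the Prelude ring `T_Q = heckeLocal (N_min ∏_{Piv ∪ Q} q²)`
(classically: the `χ`-part, `χ = ⊗_{q ∈ Piv} χ_q`, `χ_q` of order `p` and conductor `q`, of
`H¹(Γ₀(N_min) ∩ Γ_H(Piv ∪ Q), 𝒪)_𝔪`, Hecke operators twisted to trivial character) such that
* `M_Q / (w_i^(p^n) - 1)` is free of rank `d > 0` over `𝒪[(ℤ/p^n)^r]` (`w_i ∈ T_Q`, `w_i ≡ 1`);
* (SUPP-NU) `M_Q` is supported on the points of `T_Q` whose Galois representation is NOT unipotent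
  on inertia at the pivots (⇐ frozen S36 + "the twist is `q²`-new", or geometry of `X_H(q)`);
* (ST) `(tr ρ(Frob_q)² - (1+q)²) M_Q ⊆ (ζ_p - 1) M_Q` for `q ∈ Piv`
  (⇐ `M_Q / (ζ_p - 1) ≅ M¹_Q / (ζ_p - 1)`, and on the trivial-character module `M¹_Q` every
  eigensystem is `q`-new by (MIN) + Taylor–Wiles control at the level `L / q`, hence Steinberg at
  `q`: frozen S35, or S34 + "unramified ⇒ old").
`helper901`'s machine-checked core (`S38/H901/IALevel.lean`, multi-component version in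
`S38/IA/Multi.lean`) turns this, a relative presentation of the deformation rings (GAL) and the
local lifting rings of type `ψ` (LOC) into `False`.
-/

set_option autoImplicit false

open Polynomial IsLocalRing

namespace Fermat.Agent.S38.IA

open Fermat.Agent.S59.Arch Fermat.Agent.S59.TW.H959

/-- **Pivot sets.**  Every `q ∈ Piv` is a prime outside `Smin` (so `ρ̄` is unramified at `q` under
`ResidualHyp`), `q ≡ 1 mod p`, and every Frobenius at every place over `q` acts on `ρ̄` as a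
scalar. -/
def IsPivotSet {k : Type} [Field k] (p : ℕ) (ρbar : ResidualGaloisRep k)
    (Smin Piv : Finset ℕ) : Prop :=
  ∀ q ∈ Piv, q.Prime ∧ q ∉ Smin ∧ p ∣ q - 1 ∧
    ∀ P : ValuationSubring (AlgebraicClosure ℚ), P.LiesOverPrime q →
      ∀ φ : AlgebraicClosure ℚ ≃ₐ[ℚ] AlgebraicClosure ℚ, P.IsFrobeniusAt φ q →
        ∃ c : k, ρbar.ρ φ = c • (1 : Module.End k ρbar.V)

/-- **Ribet's level**: the squarefree level `∏_{q ∈ Smin, q ≠ p} q · ∏_{q ∈ Piv} q`. -/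
noncomputable def ribetLevel (p : ℕ) (Smin Piv : Finset ℕ) : ℕ :=
  (∏ q ∈ Smin.erase p, q) * ∏ q ∈ Piv, q

section Hecke

variable (p : ℕ)
  (𝒪 : Type) [CommRing 𝒪] [IsDomain 𝒪] [IsDiscreteValuationRing 𝒪]
  [IsAdicComplete (maximalIdeal 𝒪) 𝒪]
  (ρbar : ResidualGaloisRep (ResidueField 𝒪))

/-- **The Hecke side of Ihara avoidance at one Taylor–Wiles set `Q = {q_i}` of level `n`.**
`lam` is `ζ_p - 1`; `d` is the rank (independent of `Q`). -/
def HasIAModule (Smin Piv : Finset ℕ) (lam : 𝒪) (d n : ℕ) {r : ℕ} (qv : Fin r → ℕ) : Prop :=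
  ∃ (_ : NeZero (wilesLevel p .flat Smin (Smin ∪ Piv ∪ Finset.univ.image qv)))
    (PQ : HeckePkg p 𝒪 ρbar .flat Smin (Smin ∪ Piv ∪ Finset.univ.image qv))
    (MQ : Type) (_ : AddCommGroup MQ) (_ : Module PQ.T MQ)
    (w : Fin r → PQ.T) (b : Fin d → MQ),
    -- freeness over the group ring of the Taylor–Wiles primes
    IsGroupRingBasis 𝒪 (p ^ n) w b ∧
    (∀ i, w i - 1 ∈ maximalIdeal PQ.T) ∧
    -- (SUPP-NU) the module is supported on the points which are not unipotent at the pivots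
    (∀ t : PQ.T,
      (∀ (𝒪' : Type) [CommRing 𝒪'] [IsDomain 𝒪'] [IsDiscreteValuationRing 𝒪'] [CharZero 𝒪']
          [Algebra 𝒪 𝒪'] (x : PQ.T →ₐ[𝒪] 𝒪') (hx : IsLocalHom (x : PQ.T →+* 𝒪')),
          (∀ q ∈ Piv,
            ¬ (PQ.H.ρ.baseChangeAlong (x : PQ.T →+* 𝒪') hx).IsUnipotentOnInertiaAt q) →
          x t = 0) →
      ∀ m : MQ, t • m = 0) ∧
    -- (ST) the Steinberg element is divisible by `lam` on the module
    (∀ q ∈ Piv, ∀ P : ValuationSubring (AlgebraicClosure ℚ), P.LiesOverPrime q →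
      ∀ φ : AlgebraicClosure ℚ ≃ₐ[ℚ] AlgebraicClosure ℚ, P.IsFrobeniusAt φ q →
        ∀ m : MQ, ∃ m' : MQ,
          (PQ.H.ρ.trace φ ^ 2 - ((1 + q : ℕ) : PQ.T) ^ 2) • m = algebraMap 𝒪 PQ.T lam • m')

end Hecke

/-- **LEAF HECKE of row HARD (the mountain; shared with cell TW of row S59).** -/
def IAHeckeStatement : Prop :=
  ∀ (p : ℕ) [Fact p.Prime]
    (𝒪 : Type) [CommRing 𝒪] [IsDomain 𝒪] [IsDiscreteValuationRing 𝒪]
    [IsAdicComplete (maximalIdeal 𝒪) 𝒪] [Finite (ResidueField 𝒪)] [CharZero 𝒪]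
    (ρbar : ResidualGaloisRep (ResidueField 𝒪)) (Smin : Finset ℕ)
    (_h : ResidualHyp p 𝒪 ρbar Smin)
    (_hflat : (GaloisRepAdic.ofResidualGaloisRep ρbar).IsFlatAt p)
    (ζ : 𝒪) (_hζ : IsPrimitiveRoot ζ p)
    (Piv : Finset ℕ) (_hPiv : IsPivotSet p ρbar Smin Piv)
    (_hmod : ResModular 𝒪 ρbar (ribetLevel p Smin Piv) (Smin ∪ Piv))
    (_hmin : ∀ q ∈ Piv, ∀ S : Finset ℕ,
      ¬ ResModular 𝒪 ρbar (ribetLevel p Smin (Piv.erase q)) S),
    ∃ d : ℕ, 0 < d ∧ ∀ (n r : ℕ) (qv : Fin r → ℕ), IsTWSet p ρbar (Smin ∪ Piv) n qv →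
      HasIAModule p 𝒪 ρbar Smin Piv (ζ - 1) d n qv

/-- **IA-CORE: level lowering at a pivot** (the output of the Ihara-avoidance chain).
`𝒪` contains the `p`-power roots of unity of order dividing `q - 1`, `q ∈ Piv`. -/
def IACoreStatement : Prop :=
  ∀ (p : ℕ) [Fact p.Prime]
    (𝒪 : Type) [CommRing 𝒪] [IsDomain 𝒪] [IsDiscreteValuationRing 𝒪]
    [IsAdicComplete (maximalIdeal 𝒪) 𝒪] [Finite (ResidueField 𝒪)] [CharZero 𝒪]
    (ρbar : ResidualGaloisRep (ResidueField 𝒪)) (Smin : Finset ℕ)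
    (_h : ResidualHyp p 𝒪 ρbar Smin)
    (_hflat : (GaloisRepAdic.ofResidualGaloisRep ρbar).IsFlatAt p)
    (Piv : Finset ℕ) (_hPiv : IsPivotSet p ρbar Smin Piv) (_hne : Piv.Nonempty)
    (_hroots : ∀ q ∈ Piv, ∀ m : ℕ, p ^ m ∣ q - 1 → ∃ ζ : 𝒪, IsPrimitiveRoot ζ (p ^ m))
    (_hmod : ResModular 𝒪 ρbar (ribetLevel p Smin Piv) (Smin ∪ Piv)),
    ∃ q ∈ Piv, ∃ S : Finset ℕ, ResModular 𝒪 ρbar (ribetLevel p Smin (Piv.erase q)) S

end Fermat.Agent.S38.IA

end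
-- ===== PACK-END S38/IA/Spec.lean

-- ===== PACK-BEGIN S38/IA/Spec2.lean
section


/-!
# Row HARD: frozen interface, part 2 — local rings (LOC) and Galois side (GAL)   (helper995)

Board `coord/HARD.md` §3.  Notation: `κ` = the pivots, `g` free variables,
`P = LocAmb 𝒪 κ g = 𝒪⟦v_{q,0..2}, w_{q,0..2} (q ∈ κ), x_1..x_g⟧`.
The variables `v_{q,j}`, `w_{q,j}` are the TRACELESS COORDINATES of `Σ_q = ρ(σ_q)` (a generator of
tame inertia at `q`) and of `Φ_q = ρ(φ_q)` (a Frobenius at `q`) in a basis: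
for an endomorphism with matrix `[[a, b], [c, d]]` the traceless coordinates `(u₀, u₁, u₂)` are
`2 u₀ = a - d`, `u₁ = b`, `u₂ = c`  (`IsTracelessCoords`).  With `Q(u) = u₀² + u₁ u₂`:
`tr² - 4 det = 4 Q(u)`, and two endomorphisms commute iff the `2 × 2` minors of their traceless
coordinates vanish.

* type `ψ` at `q` (inertia acts through `ψ ⊕ ψ⁻¹`, `ψ(σ_q) = ζ ≠ 1` of `p`-power order):
  `Q(v_q) = δ²`, `2 δ ζ = ζ² - 1`, and `Φ_q Σ_q = Σ_q Φ_q`;
* the Steinberg element: `tr(Φ_q)² - (1+q)² = 4 Q(w_q) - (q-1)²` (`det Φ_q = q`).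
-/

set_option autoImplicit false

open Polynomial IsLocalRing

namespace Fermat.Agent.S38.IA

open Fermat.Agent.S59.Arch Fermat.Agent.S59.TW.H959

/-! ## The ambient ring and its elements -/

/-- The ambient power series ring `𝒪⟦v_{q,j}, w_{q,j}, x_i⟧`: index `(q, j)` with `j < 3` is
`v_{q,j}`, index `(q, 3 + j)` is `w_{q,j}`. -/
abbrev LocAmb (𝒪 : Type) [CommRing 𝒪] (κ : Type) (g : ℕ) : Type :=
  MvPowerSeries ((κ × Fin 6) ⊕ Fin g) 𝒪

section Amb

variable (𝒪 : Type) [CommRing 𝒪] {κ : Type} (g : ℕ)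

/-- The variable `v_{q,j}` (traceless coordinates of `Σ_q`). -/
noncomputable def vVar (q : κ) (j : Fin 3) : LocAmb 𝒪 κ g :=
  MvPowerSeries.X (Sum.inl (q, Fin.castLE (by norm_num) j))

/-- The variable `w_{q,j}` (traceless coordinates of `Φ_q`). -/
noncomputable def wVar (q : κ) (j : Fin 3) : LocAmb 𝒪 κ g :=
  MvPowerSeries.X (Sum.inl (q, Fin.natAdd 3 j))

/-- `Q(v_q) = v₀² + v₁ v₂`. -/
noncomputable def qV (q : κ) : LocAmb 𝒪 κ g :=
  vVar 𝒪 g q 0 ^ 2 + vVar 𝒪 g q 1 * vVar 𝒪 g q 2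

/-- `Q(w_q) = w₀² + w₁ w₂`. -/
noncomputable def qW (q : κ) : LocAmb 𝒪 κ g :=
  wVar 𝒪 g q 0 ^ 2 + wVar 𝒪 g q 1 * wVar 𝒪 g q 2

/-- The minors `w_i v_j - w_j v_i` (they vanish iff `Φ_q` and `Σ_q` commute). -/
noncomputable def minor (q : κ) (i j : Fin 3) : LocAmb 𝒪 κ g :=
  wVar 𝒪 g q i * vVar 𝒪 g q j - wVar 𝒪 g q j * vVar 𝒪 g q i

/-- **The type ideal** of the type vector `δ` (`δ_q = (ζ_q - ζ_q⁻¹)/2`): generated by
`Q(v_q) - δ_q²` and the minors, for all pivots `q`. -/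
noncomputable def typeIdeal (δ : κ → 𝒪) : Ideal (LocAmb 𝒪 κ g) :=
  Ideal.span ({a | ∃ q : κ, a = qV 𝒪 g q - MvPowerSeries.C (δ q) ^ 2} ∪
    {a | ∃ (q : κ) (i j : Fin 3), a = minor 𝒪 g q i j})

/-- **The Steinberg element** at the pivot `q` (`qn` = the prime number):
`4 Q(w_q) - (qn - 1)² = tr(Φ_q)² - (1 + qn)²` when `det Φ_q = qn`. -/
noncomputable def hElt (q : κ) (qn : ℕ) : LocAmb 𝒪 κ g :=
  4 * qW 𝒪 g q - MvPowerSeries.C (((qn : 𝒪) - 1) ^ 2)

end Amb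

/-- `δ` is a **type value** at a prime `q ≡ 1 mod p`: `2 δ ζ = ζ² - 1` for a root of unity
`ζ ≠ 1` of `p`-power order with `ζ^(q-1) = 1`. -/
def IsTypeValue {𝒪 : Type} [CommRing 𝒪] (p q : ℕ) (δ : 𝒪) : Prop :=
  ∃ ζ : 𝒪, ζ ≠ 1 ∧ (∃ m : ℕ, ζ ^ p ^ m = 1) ∧ ζ ^ (q - 1) = 1 ∧ 2 * δ * ζ = ζ ^ 2 - 1

/-- `u` are the **traceless coordinates** of the endomorphism `f` in the basis `bas`. -/
def IsTracelessCoords {R V : Type} [CommRing R] [AddCommGroup V] [Module R V]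
    (bas : Module.Basis (Fin 2) R V) (f : Module.End R V) (u : Fin 3 → R) : Prop :=
  2 * u 0 = LinearMap.toMatrix bas bas f 0 0 - LinearMap.toMatrix bas bas f 1 1 ∧
    u 1 = LinearMap.toMatrix bas bas f 0 1 ∧ u 2 = LinearMap.toMatrix bas bas f 1 0

/-! ## LOC: the three local leaves (Mathlib only) -/

/-- **LOC-PRIME.**  The type ideal of a vector of type values is prime. -/
def IALocPrimeStatement : Prop :=
  ∀ (p : ℕ) [Fact p.Prime] (_hp2 : p ≠ 2)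
    (𝒪 : Type) [CommRing 𝒪] [IsDomain 𝒪] [IsDiscreteValuationRing 𝒪]
    [IsAdicComplete (maximalIdeal 𝒪) 𝒪] [CharZero 𝒪] (_hp𝒪 : (p : 𝒪) ∈ maximalIdeal 𝒪)
    (Piv : Finset ℕ) (_hPiv : ∀ q ∈ Piv, q.Prime ∧ p ∣ q - 1) (g : ℕ)
    (δ : Piv → 𝒪) (_hδ : ∀ q : Piv, IsTypeValue p (q : ℕ) (δ q)),
    (typeIdeal 𝒪 g δ).IsPrime

/-- **LOC-DIM.**  `dim P / typeIdeal δ ≤ 1 + 3 k + g`. -/
def IALocDimStatement : Prop :=
  ∀ (p : ℕ) [Fact p.Prime] (_hp2 : p ≠ 2)
    (𝒪 : Type) [CommRing 𝒪] [IsDomain 𝒪] [IsDiscreteValuationRing 𝒪]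
    [IsAdicComplete (maximalIdeal 𝒪) 𝒪] [CharZero 𝒪] (_hp𝒪 : (p : 𝒪) ∈ maximalIdeal 𝒪)
    (Piv : Finset ℕ) (_hPiv : ∀ q ∈ Piv, q.Prime ∧ p ∣ q - 1) (g : ℕ)
    (δ : Piv → 𝒪) (_hδ : ∀ q : Piv, IsTypeValue p (q : ℕ) (δ q)),
    ringKrullDim (LocAmb 𝒪 Piv g ⧸ typeIdeal 𝒪 g δ) ≤ ((1 + 3 * Piv.card + g : ℕ) : WithBot ℕ∞)

/-- **LOC-POINT.**  Every component carries an `𝒪`-point at which the Steinberg element at `q₀`
is not divisible by `lam = ζ_p - 1`, provided `𝒪` has an element `ϖ' ∈ 𝔪` with `lam ∤ ϖ'²`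
(e.g. `ϖ' = ζ_{p²} - 1`). -/
def IALocPointStatement : Prop :=
  ∀ (p : ℕ) [Fact p.Prime] (_hp2 : p ≠ 2)
    (𝒪 : Type) [CommRing 𝒪] [IsDomain 𝒪] [IsDiscreteValuationRing 𝒪]
    [IsAdicComplete (maximalIdeal 𝒪) 𝒪] [CharZero 𝒪] (_hp𝒪 : (p : 𝒪) ∈ maximalIdeal 𝒪)
    (lam ϖ' : 𝒪) (_hlam : lam ∣ (p : 𝒪)) (_hϖ' : ϖ' ∈ maximalIdeal 𝒪) (_hϖ'2 : ¬ lam ∣ ϖ' ^ 2)
    (Piv : Finset ℕ) (_hPiv : ∀ q ∈ Piv, q.Prime ∧ p ∣ q - 1) (g : ℕ)
    (δ : Piv → 𝒪) (_hδ : ∀ q : Piv, IsTypeValue p (q : ℕ) (δ q)) (q₀ : Piv),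
    ∃ x : LocAmb 𝒪 Piv g →ₐ[𝒪] 𝒪, typeIdeal 𝒪 g δ ≤ RingHom.ker (x : LocAmb 𝒪 Piv g →+* 𝒪) ∧
      ¬ lam ∣ x (hElt 𝒪 g q₀ (q₀ : ℕ))

/-! ## GAL: the relative presentation -/

/-- **LEAF GAL of row HARD.**  There is `r ≥ 3 k` such that for every `n` there is a
Taylor–Wiles set `Q_n` of `r` primes (relative to `Smin ∪ Piv`) with: every universal
deformation ring `R_{Q_n}` of type `Smin ∪ Piv ∪ Q_n` (NO condition at the pivots) is a quotient
`γ : P ↠ R_{Q_n}` of the ambient ring with `g = r - 3 k` free variables, where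
* `γ(v_{q,j})`, `γ(w_{q,j})` are the traceless coordinates of `ρ^univ(σ_q)`, `ρ^univ(φ_q)` in a
  basis (`φ_q` a Frobenius, `σ_q` an inertia element at a place over `q`), `det = 1` resp. `q`;
* (TYPE) at every characteristic-zero point `y` of `R_{Q_n}` whose representation is not unipotent
  on inertia at the pivots, `y ∘ γ` kills the type ideal of SOME vector of type values. -/
def IAGalStatement : Prop :=
  ∀ (p : ℕ) [Fact p.Prime]
    (𝒪 : Type) [CommRing 𝒪] [IsDomain 𝒪] [IsDiscreteValuationRing 𝒪]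
    [IsAdicComplete (maximalIdeal 𝒪) 𝒪] [Finite (ResidueField 𝒪)] [CharZero 𝒪]
    (ρbar : ResidualGaloisRep (ResidueField 𝒪)) (Smin : Finset ℕ)
    (_h : ResidualHyp p 𝒪 ρbar Smin)
    (_hflat : (GaloisRepAdic.ofResidualGaloisRep ρbar).IsFlatAt p)
    (Piv : Finset ℕ) (_hPiv : IsPivotSet p ρbar Smin Piv)
    (_hroots : ∀ q ∈ Piv, ∀ m : ℕ, p ^ m ∣ q - 1 → ∃ ζ : 𝒪, IsPrimitiveRoot ζ (p ^ m)),
    ∃ r : ℕ, 3 * Piv.card ≤ r ∧ ∀ n : ℕ, ∃ qv : Fin r → ℕ, IsTWSet p ρbar (Smin ∪ Piv) n qv ∧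
      ∀ DQ : GaloisRep.DeformationRingData 𝒪 ρbar
          (sigmaCond 𝒪 p .flat Smin (Smin ∪ Piv ∪ Finset.univ.image qv)),
        ∃ (bas : Module.Basis (Fin 2) DQ.R DQ.ρ.V)
          (Pv : Piv → ValuationSubring (AlgebraicClosure ℚ))
          (φv σv : Piv → (AlgebraicClosure ℚ ≃ₐ[ℚ] AlgebraicClosure ℚ))
          (γ : LocAmb 𝒪 Piv (r - 3 * Piv.card) →ₐ[𝒪] DQ.R),
          Function.Surjective γ ∧
          (∀ q : Piv, (Pv q).LiesOverPrime (q : ℕ) ∧ (Pv q).IsFrobeniusAt (φv q) (q : ℕ) ∧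
            σv q ∈ (Pv q).inertiaSubgroupIn ℚ) ∧
          (∀ q : Piv, IsTracelessCoords bas (DQ.ρ.ρ (σv q))
            (fun j => γ (vVar 𝒪 (r - 3 * Piv.card) q j))) ∧
          (∀ q : Piv, IsTracelessCoords bas (DQ.ρ.ρ (φv q))
            (fun j => γ (wVar 𝒪 (r - 3 * Piv.card) q j))) ∧
          (∀ q : Piv, LinearMap.det (DQ.ρ.ρ (φv q)) = ((q : ℕ) : DQ.R)) ∧
          (∀ (𝒪' : Type) [CommRing 𝒪'] [IsDomain 𝒪'] [IsDiscreteValuationRing 𝒪'] [CharZero 𝒪']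
              [Algebra 𝒪 𝒪'] (y : DQ.R →ₐ[𝒪] 𝒪') (hy : IsLocalHom (y : DQ.R →+* 𝒪')),
              (∀ q ∈ Piv,
                ¬ (DQ.ρ.baseChangeAlong (y : DQ.R →+* 𝒪') hy).IsUnipotentOnInertiaAt q) →
              ∃ δ : Piv → 𝒪, (∀ q : Piv, IsTypeValue p (q : ℕ) (δ q)) ∧
                ∀ a ∈ typeIdeal 𝒪 (r - 3 * Piv.card) δ, y (γ a) = 0)

end Fermat.Agent.S38.IA

end
-- ===== PACK-END S38/IA/Spec2.lean

-- ===== PACK-BEGIN S38/IA/Spec3.lean
section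


/-!
# Row HARD: interface, part 4 — LOC-COMP, the component of a type ideal   (helper995)

`IALocCompStatement` is what the assembly (`S38/IA/Asm.lean`) consumes from the local cell in
place of `IALocPrimeStatement`:  for every vector of type values `δ` there is a PRIME ideal
`𝔓 ⊇ typeIdeal δ` of the ambient ring such that every point `y` of the ambient ring with values
in a separated local domain `D ⊇ 𝒪` which kills `typeIdeal δ` kills `𝔓` (FACTOR).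

* `iaLocComp_of_prime : IALocPrimeStatement → IALocCompStatement` (take `𝔓 = typeIdeal δ`);
* the image-ring models (`Ribet/H85/LocNStd.lean`, `locPsiStd_ker_isPrime`,
  `locPsiStd_factor`; `Ribet/H678/RChi*.lean`; `S59/H359/IAPackage.lean`) give it with
  `𝔓 = ker (P → E⟦T_q, x_j⟧)`: a point `y` killing `typeIdeal δ` has `Q(y v_q) = δ_q² ≠ 0`, so
  `y v_q ≠ 0` and `y w_q` is proportional to it.

The dimension bound for `𝔓` follows from `IALocDimStatement` (`𝔓 ⊇ typeIdeal δ`), and the point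
needed by the engine is constructed in the assembly from FACTOR with `D = 𝒪⟦T⟧`
(`v_q ↦ (δ_q, 0, 0)`, `w_{q₀} ↦ (T, 0, 0)`, then reduce modulo `𝔪_𝒪`).
-/

set_option autoImplicit false

open IsLocalRing

namespace Fermat.Agent.S38.IA

/-- **LOC-COMP.**  Every type ideal lies in a prime ideal with the FACTOR property. -/
def IALocCompStatement : Prop :=
  ∀ (p : ℕ) [Fact p.Prime] (_hp2 : p ≠ 2)
    (𝒪 : Type) [CommRing 𝒪] [IsDomain 𝒪] [IsDiscreteValuationRing 𝒪]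
    [IsAdicComplete (maximalIdeal 𝒪) 𝒪] [CharZero 𝒪] (_hp𝒪 : (p : 𝒪) ∈ maximalIdeal 𝒪)
    (Piv : Finset ℕ) (_hPiv : ∀ q ∈ Piv, q.Prime ∧ p ∣ q - 1) (g : ℕ)
    (δ : Piv → 𝒪) (_hδ : ∀ q : Piv, IsTypeValue p (q : ℕ) (δ q)),
    ∃ 𝔓 : Ideal (LocAmb 𝒪 Piv g), 𝔓.IsPrime ∧ typeIdeal 𝒪 g δ ≤ 𝔓 ∧
      ∀ (D : Type) [CommRing D] [IsDomain D] [IsLocalRing D] [Algebra 𝒪 D]
        (_hsep : ∀ x : D, (∀ n : ℕ, x ∈ maximalIdeal D ^ n) → x = 0)
        (_hinj : Function.Injective (algebraMap 𝒪 D))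
        (y : LocAmb 𝒪 Piv g →ₐ[𝒪] D) (_hy : IsLocalHom (y : LocAmb 𝒪 Piv g →+* D)),
        typeIdeal 𝒪 g δ ≤ RingHom.ker (y : LocAmb 𝒪 Piv g →+* D) →
          𝔓 ≤ RingHom.ker (y : LocAmb 𝒪 Piv g →+* D)

/-- `LOC-PRIME ⇒ LOC-COMP`. -/
theorem iaLocComp_of_prime (h : IALocPrimeStatement) : IALocCompStatement := by
  intro p _ hp2 𝒪 _ _ _ _ _ hp𝒪 Piv hPiv g δ hδ
  exact ⟨typeIdeal 𝒪 g δ, h p hp2 𝒪 hp𝒪 Piv hPiv g δ hδ, le_refl _,
    fun D _ _ _ _ _ _ y _ hy => hy⟩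

end Fermat.Agent.S38.IA

end
-- ===== PACK-END S38/IA/Spec3.lean

-- ===== PACK-BEGIN S38/H506/DimParam.lean
section



/-!
# Row HARD, cell LOC, leaf DIM: dimension by parameters (helper506)

Generic part (Mathlib + `S53.H173.PowerSeries`).

* `ringKrullDim_quotient_le_card`: `P` Noetherian local, `I` an ideal, `s` a finite set of elements
  of the maximal ideal such that every prime containing `I` and `s` contains the maximal ideal.
  Then `dim P ⧸ I ≤ #s`  (Krull's height theorem in the form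
  `ringKrullDim_le_ringKrullDim_quotient_add_card`).
* `maximalIdeal_le_of_X_mem`: in `𝒪⟦X_i : i ∈ σ⟧` (`σ` finite, `𝒪` local with principal maximal
  ideal `(ϖ)`), an ideal which contains `C ϖ` and all the variables contains the maximal ideal.
-/

set_option autoImplicit false
set_option linter.style.haveILetI false

namespace Fermat.Agent.S38.H506

open IsLocalRing

/-- **Dimension by parameters.** -/
theorem ringKrullDim_quotient_le_card {P : Type*} [CommRing P] [IsLocalRing P]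
    [IsNoetherianRing P] (I : Ideal P) (s : Finset P) (hs : ∀ x ∈ s, x ∈ maximalIdeal P)
    (h : ∀ q : Ideal P, q.IsPrime → I ≤ q → (∀ x ∈ s, x ∈ q) → maximalIdeal P ≤ q) :
    ringKrullDim (P ⧸ I) ≤ ((s.card : ℕ) : WithBot ℕ∞) := by
  classical
  let π : P →+* P ⧸ I := Ideal.Quotient.mk I
  have hπ : Function.Surjective π := Ideal.Quotient.mk_surjective
  let s' : Finset (P ⧸ I) := s.image π
  have hjac : (s' : Set (P ⧸ I)) ⊆ Ring.jacobson (P ⧸ I) := by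
    intro y hy
    obtain ⟨x, hx, rfl⟩ := Finset.mem_image.mp (Finset.mem_coe.mp hy)
    rw [Ring.jacobson_eq_sInf_isMaximal, SetLike.mem_coe, Submodule.mem_sInf]
    intro M hM
    have hM' : Ideal.IsMaximal (M : Ideal (P ⧸ I)) := hM
    have h1 : (Ideal.comap π M).IsMaximal := Ideal.comap_isMaximal_of_surjective π hπ
    have h2 : Ideal.comap π M = maximalIdeal P := IsLocalRing.eq_maximalIdeal h1
    have hx' : x ∈ Ideal.comap π M := h2 ▸ hs x hx
    exact hx'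
  have h1 := ringKrullDim_le_ringKrullDim_quotient_add_card s' hjac
  have h2 : ringKrullDim ((P ⧸ I) ⧸ Ideal.span (s' : Set (P ⧸ I))) ≤ 0 := by
    have : Ring.KrullDimLE 0 ((P ⧸ I) ⧸ Ideal.span (s' : Set (P ⧸ I))) := by
      rw [Ring.krullDimLE_zero_iff]
      intro 𝔭 h𝔭
      let ρ : P →+* (P ⧸ I) ⧸ Ideal.span (s' : Set (P ⧸ I)) :=
        (Ideal.Quotient.mk (Ideal.span (s' : Set (P ⧸ I)))).comp π
      have hρ : Function.Surjective ρ :=
        Ideal.Quotient.mk_surjective.comp hπ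
      have hq : (𝔭.comap ρ).IsPrime := Ideal.comap_isPrime ρ 𝔭
      have hI : I ≤ 𝔭.comap ρ := by
        intro x hx
        rw [Ideal.mem_comap]
        have : π x = 0 := Ideal.Quotient.eq_zero_iff_mem.mpr hx
        simp [ρ, this]
      have hsq : ∀ x ∈ s, x ∈ 𝔭.comap ρ := by
        intro x hx
        rw [Ideal.mem_comap]
        have h3 : π x ∈ Ideal.span (s' : Set (P ⧸ I)) :=
          Ideal.subset_span (Finset.mem_coe.mpr (Finset.mem_image_of_mem π hx))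
        have : ρ x = 0 := Ideal.Quotient.eq_zero_iff_mem.mpr h3
        rw [this]
        exact 𝔭.zero_mem
      have h4 : maximalIdeal P ≤ 𝔭.comap ρ := h _ hq hI hsq
      have h5 : 𝔭.comap ρ = maximalIdeal P :=
        ((IsLocalRing.maximalIdeal.isMaximal P).eq_of_le hq.ne_top h4).symm
      have h6 : 𝔭 = (maximalIdeal P).map ρ := by
        rw [← h5, Ideal.map_comap_of_surjective ρ hρ]
      rcases Ideal.map_eq_top_or_isMaximal_of_surjective ρ hρ
        (IsLocalRing.maximalIdeal.isMaximal P) with h7 | h7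
      · exact absurd (h6.trans h7) h𝔭.ne_top
      · rw [h6]; exact h7
    exact Ring.krullDimLE_iff.mp this
  have h3 : s'.card ≤ s.card := Finset.card_image_le
  calc ringKrullDim (P ⧸ I)
      ≤ ringKrullDim ((P ⧸ I) ⧸ Ideal.span (s' : Set (P ⧸ I))) + s'.card := h1
    _ ≤ 0 + ((s.card : ℕ) : WithBot ℕ∞) := by
        gcongr
    _ = ((s.card : ℕ) : WithBot ℕ∞) := zero_add _

/-- In `𝒪⟦X_i⟧` an ideal containing `C ϖ` (`𝔪_𝒪 = (ϖ)`) and all variables contains the maximal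
ideal. -/
theorem maximalIdeal_le_of_X_mem {σ : Type*} [Finite σ] {𝒪 : Type*} [CommRing 𝒪] [IsLocalRing 𝒪]
    (ϖ : 𝒪) (hϖ : maximalIdeal 𝒪 = Ideal.span {ϖ}) (q : Ideal (MvPowerSeries σ 𝒪))
    (hC : MvPowerSeries.C ϖ ∈ q) (hX : ∀ i : σ, (MvPowerSeries.X i : MvPowerSeries σ 𝒪) ∈ q) :
    maximalIdeal (MvPowerSeries σ 𝒪) ≤ q := by
  intro f hf
  rw [Fermat.Agent.S53.H173.mem_maximalIdeal_iff_constantCoeff, hϖ,
    Ideal.mem_span_singleton] at hf
  obtain ⟨u, hu⟩ := hf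
  have h1 : f - MvPowerSeries.C (MvPowerSeries.constantCoeff f) ∈
      (Ideal.span (Set.range (MvPowerSeries.X : σ → MvPowerSeries σ 𝒪))) ^ 1 := by
    refine Fermat.Agent.S53.H173.mem_span_X_pow_of_coeff_eq_zero 1 _ fun e he => ?_
    have he0 : e = 0 := by
      have : e.degree = 0 := by omega
      exact (Finsupp.degree_eq_zero_iff e).mp this
    subst he0
    simp
  rw [pow_one] at h1
  have h2 : Ideal.span (Set.range (MvPowerSeries.X : σ → MvPowerSeries σ 𝒪)) ≤ q := by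
    rw [Ideal.span_le]
    rintro _ ⟨i, rfl⟩
    exact hX i
  have h3 : MvPowerSeries.C (MvPowerSeries.constantCoeff f) ∈ q := by
    rw [hu, map_mul]
    exact q.mul_mem_right _ hC
  have := q.add_mem (h2 h1) h3
  simpa using this

end Fermat.Agent.S38.H506

end
-- ===== PACK-END S38/H506/DimParam.lean

-- ===== PACK-BEGIN S38/H506/LocDim.lean
section



/-!
# Row HARD, cell LOC, leaf DIM (helper506): `iaLocDim : IALocDimStatement`

`dim 𝒪⟦v, w, x⟧ ⧸ typeIdeal δ ≤ 1 + 3 k + g`.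

Proof: Krull's height theorem (`ringKrullDim_quotient_le_card`) with the `1 + g + 3 k` parameters
`ϖ`, `x_i`, and `w_{q,0}`, `w_{q,1} + v_{q,2}`, `w_{q,2} + v_{q,1}` for every pivot `q`.
A prime `𝔮` containing them and the type ideal contains `δ_q ∈ (ϖ)`, hence `Q(v_q)`, and modulo `𝔮`
the minors read `v₀ v₂ = 0`, `v₀ v₁ = 0`, `v₁² = v₂²`; with `v₀² + v₁ v₂ = 0` this forces
`v = 0`, `w = 0`.  So `𝔮` is the maximal ideal.
-/

set_option autoImplicit false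
set_option linter.style.haveILetI false

namespace Fermat.Agent.S38.H506

open IsLocalRing Fermat.Agent.S38.IA

/-- A type value lies in the maximal ideal (`p` odd, residue characteristic `p`). -/
theorem typeValue_mem_maximalIdeal {𝒪 : Type} [CommRing 𝒪] [IsLocalRing 𝒪] (p q : ℕ)
    [Fact p.Prime] (hp2 : p ≠ 2) (hp𝒪 : (p : 𝒪) ∈ maximalIdeal 𝒪) (δ : 𝒪)
    (hδ : IsTypeValue p q δ) : δ ∈ maximalIdeal 𝒪 := by
  obtain ⟨ζ, -, ⟨m, hm⟩, -, h2⟩ := hδ
  have hpk : ((p : ℕ) : ResidueField 𝒪) = 0 := by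
    have := (residue_eq_zero_iff (p : 𝒪)).mpr hp𝒪
    simpa using this
  haveI : CharP (ResidueField 𝒪) p := (CharP.charP_iff_prime_eq_zero Fact.out).mpr hpk
  have hζ : residue 𝒪 ζ = 1 := by
    have h1 : (residue 𝒪 ζ - 1) ^ p ^ m = 0 := by
      rw [sub_pow_char_pow, ← map_pow, hm]
      simp
    exact sub_eq_zero.mp (pow_eq_zero_iff (pow_ne_zero _ (Fact.out : p.Prime).ne_zero) |>.mp h1)
  have h3 : residue 𝒪 (2 * δ * ζ) = residue 𝒪 (ζ ^ 2 - 1) := by rw [h2]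
  simp only [map_mul, map_sub, map_pow, map_one, hζ, mul_one, one_pow, sub_self] at h3
  have h4 : (residue 𝒪 (2 : 𝒪)) ≠ 0 := by
    intro h
    have h5 : ((2 : ℕ) : ResidueField 𝒪) = 0 := by
      rw [Nat.cast_ofNat, ← map_ofNat (residue 𝒪) 2]
      exact h
    have h6 : p ∣ 2 := (CharP.cast_eq_zero_iff (ResidueField 𝒪) p 2).mp h5
    exact hp2 ((Nat.prime_dvd_prime_iff_eq Fact.out Nat.prime_two).mp h6)
  have h5 : residue 𝒪 δ = 0 := by
    rcases mul_eq_zero.mp h3 with h | h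
    · exact absurd h h4
    · exact h
  exact (residue_eq_zero_iff δ).mp h5

/-- The linear algebra behind the parameters. -/
theorem vw_eq_zero_of_params {B : Type*} [CommRing B] [IsDomain B] (a b : Fin 3 → B)
    (h0 : b 0 = 0) (h1 : b 1 + a 2 = 0) (h2 : b 2 + a 1 = 0)
    (hQ : a 0 ^ 2 + a 1 * a 2 = 0)
    (hm : ∀ i j : Fin 3, b i * a j - b j * a i = 0) :
    (∀ j, a j = 0) ∧ ∀ j, b j = 0 := by
  have hb1 : b 1 = -a 2 := eq_neg_of_add_eq_zero_left h1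
  have hb2 : b 2 = -a 1 := eq_neg_of_add_eq_zero_left h2
  have m01 : a 2 * a 0 = 0 := by
    have := hm 0 1
    rw [h0, hb1] at this
    linear_combination this
  have m12 : a 1 ^ 2 = a 2 ^ 2 := by
    have := hm 1 2
    rw [hb1, hb2] at this
    linear_combination this
  have ha : a 0 = 0 ∧ a 1 = 0 ∧ a 2 = 0 := by
    rcases mul_eq_zero.mp m01 with h | h
    · -- a 2 = 0
      have h1' : a 1 = 0 := by
        have : a 1 ^ 2 = 0 := by rw [m12, h]; ring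
        exact pow_eq_zero_iff (two_ne_zero) |>.mp this
      have h0' : a 0 = 0 := by
        have : a 0 ^ 2 = 0 := by
          rw [h, mul_zero, add_zero] at hQ
          exact hQ
        exact pow_eq_zero_iff (two_ne_zero) |>.mp this
      exact ⟨h0', h1', h⟩
    · -- a 0 = 0
      have h12 : a 1 * a 2 = 0 := by
        rw [h] at hQ
        simpa using hQ
      rcases mul_eq_zero.mp h12 with h' | h'
      · have : a 2 ^ 2 = 0 := by rw [← m12, h']; ring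
        exact ⟨h, h', pow_eq_zero_iff (two_ne_zero) |>.mp this⟩
      · have : a 1 ^ 2 = 0 := by rw [m12, h']; ring
        exact ⟨h, pow_eq_zero_iff (two_ne_zero) |>.mp this, h'⟩
  obtain ⟨ha0, ha1, ha2⟩ := ha
  refine ⟨fun j => ?_, fun j => ?_⟩
  · fin_cases j
    · exact ha0
    · exact ha1
    · exact ha2
  · fin_cases j
    · exact h0
    · show b 1 = 0
      rw [hb1, ha2, neg_zero]
    · show b 2 = 0
      rw [hb2, ha1, neg_zero]

/-- **LOC-DIM** (verbatim). -/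
theorem iaLocDim : IALocDimStatement := by
  intro p _ hp2 𝒪 _ _ _ _ _ hp𝒪 Piv _hPiv g δ hδ
  classical
  obtain ⟨ϖ, hϖ⟩ := IsDiscreteValuationRing.exists_irreducible 𝒪
  have hmax : maximalIdeal 𝒪 = Ideal.span {ϖ} := hϖ.maximalIdeal_eq
  -- the parameters
  let par : Unit ⊕ (Fin g ⊕ (Piv × Fin 3)) → LocAmb 𝒪 Piv g := fun t =>
    match t with
    | Sum.inl _ => MvPowerSeries.C ϖ
    | Sum.inr (Sum.inl i) => MvPowerSeries.X (Sum.inr i)
    | Sum.inr (Sum.inr (q, j)) =>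
        if j = 0 then wVar 𝒪 g q 0
        else if j = 1 then wVar 𝒪 g q 1 + vVar 𝒪 g q 2
        else wVar 𝒪 g q 2 + vVar 𝒪 g q 1
  let s : Finset (LocAmb 𝒪 Piv g) := Finset.univ.image par
  have hcard : s.card ≤ 1 + 3 * Piv.card + g := by
    have h1 : s.card ≤ Fintype.card (Unit ⊕ (Fin g ⊕ (Piv × Fin 3))) :=
      Finset.card_image_le.trans (le_of_eq (Finset.card_univ))
    have h2 : Fintype.card (Unit ⊕ (Fin g ⊕ (Piv × Fin 3))) = 1 + 3 * Piv.card + g := by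
      simp only [Fintype.card_sum, Fintype.card_unit, Fintype.card_fin, Fintype.card_prod,
        Fintype.card_coe]
      ring
    exact h1.trans (le_of_eq h2)
  have hCϖ : (MvPowerSeries.C ϖ : LocAmb 𝒪 Piv g) ∈ maximalIdeal (LocAmb 𝒪 Piv g) := by
    rw [Fermat.Agent.S53.H173.mem_maximalIdeal_iff_constantCoeff, MvPowerSeries.constantCoeff_C,
      hmax]
    exact Ideal.mem_span_singleton_self ϖ
  have hXm : ∀ i, (MvPowerSeries.X i : LocAmb 𝒪 Piv g) ∈ maximalIdeal (LocAmb 𝒪 Piv g) :=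
    fun i => Fermat.Agent.S53.H173.X_mem_maximalIdeal i
  have hs : ∀ x ∈ s, x ∈ maximalIdeal (LocAmb 𝒪 Piv g) := by
    intro x hx
    obtain ⟨t, -, rfl⟩ := Finset.mem_image.mp hx
    rcases t with _ | i | ⟨q, j⟩
    · exact hCϖ
    · exact hXm _
    · show (if j = 0 then wVar 𝒪 g q 0
        else if j = 1 then wVar 𝒪 g q 1 + vVar 𝒪 g q 2
        else wVar 𝒪 g q 2 + vVar 𝒪 g q 1) ∈ _
      split_ifs
      · exact hXm _
      · exact Ideal.add_mem _ (hXm _) (hXm _)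
      · exact Ideal.add_mem _ (hXm _) (hXm _)
  have key := ringKrullDim_quotient_le_card (typeIdeal 𝒪 g δ) s hs ?_
  · refine key.trans ?_
    exact_mod_cast hcard
  -- every prime containing the type ideal and the parameters is the maximal ideal
  intro 𝔮 h𝔮 hI hsq
  have hpar : ∀ t, par t ∈ 𝔮 := fun t => hsq _ (Finset.mem_image_of_mem par (Finset.mem_univ t))
  have hC : (MvPowerSeries.C ϖ : LocAmb 𝒪 Piv g) ∈ 𝔮 := hpar (Sum.inl ())
  have hCδ : ∀ q : Piv, (MvPowerSeries.C (δ q) : LocAmb 𝒪 Piv g) ∈ 𝔮 := by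
    intro q
    have h1 := typeValue_mem_maximalIdeal p (q : ℕ) hp2 hp𝒪 (δ q) (hδ q)
    rw [hmax, Ideal.mem_span_singleton] at h1
    obtain ⟨u, hu⟩ := h1
    rw [hu, map_mul]
    exact 𝔮.mul_mem_right _ hC
  have hvw : ∀ q : Piv, (∀ j, vVar 𝒪 g q j ∈ 𝔮) ∧ ∀ j, wVar 𝒪 g q j ∈ 𝔮 := by
    intro q
    have hmk : ∀ x : LocAmb 𝒪 Piv g, x ∈ 𝔮 ↔ Ideal.Quotient.mk 𝔮 x = 0 :=
      fun x => Ideal.Quotient.eq_zero_iff_mem.symm
    have h0 : Ideal.Quotient.mk 𝔮 (wVar 𝒪 g q 0) = 0 := by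
      rw [← hmk]
      have := hpar (Sum.inr (Sum.inr (q, 0)))
      simpa [par] using this
    have h1 : Ideal.Quotient.mk 𝔮 (wVar 𝒪 g q 1) + Ideal.Quotient.mk 𝔮 (vVar 𝒪 g q 2) = 0 := by
      rw [← map_add, ← hmk]
      have := hpar (Sum.inr (Sum.inr (q, 1)))
      simpa [par] using this
    have h2 : Ideal.Quotient.mk 𝔮 (wVar 𝒪 g q 2) + Ideal.Quotient.mk 𝔮 (vVar 𝒪 g q 1) = 0 := by
      rw [← map_add, ← hmk]
      have := hpar (Sum.inr (Sum.inr (q, 2)))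
      simpa [par] using this
    have hQ : Ideal.Quotient.mk 𝔮 (vVar 𝒪 g q 0) ^ 2 +
        Ideal.Quotient.mk 𝔮 (vVar 𝒪 g q 1) * Ideal.Quotient.mk 𝔮 (vVar 𝒪 g q 2) = 0 := by
      have h3 : qV 𝒪 g q - MvPowerSeries.C (δ q) ^ 2 ∈ 𝔮 :=
        hI (Ideal.subset_span (Or.inl ⟨q, rfl⟩))
      have h4 : qV 𝒪 g q ∈ 𝔮 := by
        have := 𝔮.add_mem h3 (𝔮.pow_mem_of_mem (hCδ q) 2 (by norm_num))
        simpa using this
      rw [← map_pow, ← map_mul, ← map_add, ← hmk]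
      exact h4
    have hm : ∀ i j : Fin 3,
        Ideal.Quotient.mk 𝔮 (wVar 𝒪 g q i) * Ideal.Quotient.mk 𝔮 (vVar 𝒪 g q j) -
          Ideal.Quotient.mk 𝔮 (wVar 𝒪 g q j) * Ideal.Quotient.mk 𝔮 (vVar 𝒪 g q i) = 0 := by
      intro i j
      rw [← map_mul, ← map_mul, ← map_sub, ← hmk]
      exact hI (Ideal.subset_span (Or.inr ⟨q, i, j, rfl⟩))
    haveI := h𝔮
    have := vw_eq_zero_of_params (B := LocAmb 𝒪 Piv g ⧸ 𝔮)
      (fun j => Ideal.Quotient.mk 𝔮 (vVar 𝒪 g q j))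
      (fun j => Ideal.Quotient.mk 𝔮 (wVar 𝒪 g q j)) h0 h1 h2 hQ hm
    exact ⟨fun j => (hmk _).mpr (this.1 j), fun j => (hmk _).mpr (this.2 j)⟩
  refine maximalIdeal_le_of_X_mem ϖ hmax 𝔮 hC ?_
  rintro (⟨q, j⟩ | i)
  · fin_cases j
    · exact (hvw q).1 0
    · exact (hvw q).1 1
    · exact (hvw q).1 2
    · exact (hvw q).2 0
    · exact (hvw q).2 1
    · exact (hvw q).2 2
  · exact hpar (Sum.inr (Sum.inl i))

end Fermat.Agent.S38.H506

end
-- ===== PACK-END S38/H506/LocDim.lean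

-- ===== PACK-BEGIN S38/IA/Spec5.lean
section


/-!
# Row HARD: the core statement for `5 ≤ p`   (helper995)

The Hecke side of row HARD is built for `5 ≤ p` only (`S38/IA/Hecke/Spec3.lean`, helper3: for
`p = 3` the freeness of the Betti module needs an auxiliary level).  Frey packages have `p ≥ 5`,
so `IACore5Statement` is what the TOP glue of S43 consumes.
-/

set_option autoImplicit false

open IsLocalRing

namespace Fermat.Agent.S38.IA

open Fermat.Agent.S59.Arch Fermat.Agent.S59.TW.H959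

/-- **IA-CORE for `5 ≤ p`**: level lowering at a pivot. -/
def IACore5Statement : Prop :=
  ∀ (p : ℕ) [Fact p.Prime] (_hp5 : 5 ≤ p)
    (𝒪 : Type) [CommRing 𝒪] [IsDomain 𝒪] [IsDiscreteValuationRing 𝒪]
    [IsAdicComplete (maximalIdeal 𝒪) 𝒪] [Finite (ResidueField 𝒪)] [CharZero 𝒪]
    (ρbar : ResidualGaloisRep (ResidueField 𝒪)) (Smin : Finset ℕ)
    (_h : ResidualHyp p 𝒪 ρbar Smin)
    (_hflat : (GaloisRepAdic.ofResidualGaloisRep ρbar).IsFlatAt p)
    (Piv : Finset ℕ) (_hPiv : IsPivotSet p ρbar Smin Piv) (_hne : Piv.Nonempty)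
    (_hroots : ∀ q ∈ Piv, ∀ m : ℕ, p ^ m ∣ q - 1 → ∃ ζ : 𝒪, IsPrimitiveRoot ζ (p ^ m))
    (_hmod : ResModular 𝒪 ρbar (ribetLevel p Smin Piv) (Smin ∪ Piv)),
    ∃ q ∈ Piv, ∃ S : Finset ℕ, ResModular 𝒪 ρbar (ribetLevel p Smin (Piv.erase q)) S

/-- The general statement implies the one for `5 ≤ p`. -/
theorem iaCore5_of_iaCore (h : IACoreStatement) : IACore5Statement :=
  fun p _ _ 𝒪 _ _ _ _ _ _ ρbar Smin hh hflat Piv hPiv hne hroots hmod =>
    h p 𝒪 ρbar Smin hh hflat Piv hPiv hne hroots hmod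

end Fermat.Agent.S38.IA

end
-- ===== PACK-END S38/IA/Spec5.lean

-- ===== PACK-BEGIN S38/IA/Hecke/Spec.lean
section




/-!
# Row HARD, cell HECKE, LAYER 2: frozen split of `IA.IAHeckeStatement`  (sub-architect helper3)

`IA.IAHeckeStatement` (trunk `S38/IA/Spec.lean`, helper995) asks, for every Taylor–Wiles set `Q`
relative to `Smin ∪ Piv`, for a module `M_Q` over the Prelude ring
`T_Q = heckeLocal (N_min ∏_{Piv ∪ Q} q²)` with elements `w_i ∈ T_Q` (`HasIAModule`).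
This file mirrors layer 2 of the cell TW of row S59 (`S59/TW/Spec.lean`, helper24):

| leaf | Prop | content | status |
|---|---|---|---|
| PKG   | `PkgFlatStatement` | the Hecke package of type `.flat` over a Frobenius character | `pkgFlat_of_pkg` from `TW.PkgStatement` (helper659) |
| INX, INO, CYC | `TW.InertiaExistsStatement`, … | inertia values at the Taylor–Wiles primes | ON MAIN |
| ALG   | `TW.AlgStatement` | basis transfer from the diamonds to the inertia values | helper95 / helper773 |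
| IA-AUT | `IAAutStatement` | the module `M_Q` (`IAAutLevel`) with `Cmp` | THE MOUNTAIN, split in layer 3 |

Assembly (`Hecke/Asm.lean`):
`iaHecke_of_leaves : PkgFlatStatement → IAAutStatement → INX → INO → CYC → ALG →
  IA.IAHeckeStatement`.

## The automorphic module, abstractly (`IAAutLevel`)

Classically `M_Q` = the `χ`-part (`χ = ⊗_{q ∈ Piv} χ_q`, `χ_q` of order `p` and conductor `q`) of
`e · H¹_par(Γ₀(N_min) ∩ Γ_H(Piv ∪ Q), 𝒪)`, `e` the idempotent of the maximal ideal of `ρ̄` and of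
`U_q = α̃_q` (`q ∈ Q`), a module over `T_Q` through the operators twisted to trivial character;
`dia` = the (normalised) diamond operators of `Δ_Q`.
DIFFERENCES with `TW.AutLevel`:
* NO minimal package, NO projection `π`, NO control statement in the interface (single-sided
  Ihara avoidance needs no level `0`); but the RANK `d` is fixed BEFORE `Q`
  (control is used inside the proof of `IAAutStatement`: `M_Q / I_Δ ≅ M_∅`);
* two more fields, VERBATIM the clauses (SUPP-NU) and (ST) of `IA.HasIAModule`.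
Only sorry-free definitions in this file.
-/

set_option autoImplicit false

open Polynomial IsLocalRing

namespace Fermat.Agent.S38.IA.Hecke

open Fermat.Agent.S59.Arch Fermat.Agent.S59.TW.H959 Fermat.Agent.S59.TW Fermat.Agent.S59.H765
open CuspForm

section Aut

variable {p : ℕ}
  {𝒪 : Type} [CommRing 𝒪] [IsDomain 𝒪] [IsDiscreteValuationRing 𝒪]
  [IsAdicComplete (maximalIdeal 𝒪) 𝒪]
  {ρbar : ResidualGaloisRep (ResidueField 𝒪)} {Smin : Finset ℕ}

/-- **The automorphic Ihara-avoidance module at the Taylor–Wiles set `Q = qv`**, abstractly: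
a `T_Q`-module with a diamond action of `∏ (ℤ/q_j)^×` factoring through the `p`-Sylow quotient
`Δ_Q`, FREE OF RANK `d` over `𝒪[Δ_Q]`, supported on the points which are not unipotent at the
pivots (SUPP-NU), and on which the Steinberg elements at the pivots are divisible by `lam`
(ST). -/
structure IAAutLevel (Piv : Finset ℕ) {r : ℕ} (qv : Fin r → ℕ)
    [NeZero (wilesLevel p .flat Smin (Smin ∪ Piv ∪ Finset.univ.image qv))]
    (PQ : HeckePkg p 𝒪 ρbar .flat Smin (Smin ∪ Piv ∪ Finset.univ.image qv))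
    (lam : 𝒪) (d : ℕ) : Type 1 where
  /-- the module `M_Q` -/
  MQ : Type
  [instAddCommGroup : AddCommGroup MQ]
  [instModule : Module PQ.T MQ]
  /-- the (normalised) diamond operators at the Taylor–Wiles primes -/
  dia : (∀ j : Fin r, (ZMod (qv j))ˣ) →* Module.End PQ.T MQ
  /-- the diamond action factors through the `p`-Sylow quotient -/
  dia_pow : ∀ a : ∀ j : Fin r, (ZMod (qv j))ˣ,
    dia (fun j => a j ^ p ^ padicValNat p (qv j - 1)) = 1
  /-- `M_Q` is free of rank `d` over `𝒪[Δ_Q]`: for primitive roots `g_j` mod `q_j`, the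
  elements `dia (g^e) b_i`, `0 ≤ e_j < p^{m_j}` (`m_j = v_p(q_j - 1)`), `i < d`, form an
  `𝒪`-basis. -/
  free : ∀ g : ∀ j : Fin r, (ZMod (qv j))ˣ, (∀ j, orderOf (g j) = qv j - 1) →
    ∃ b : Fin d → MQ, ∀ y : MQ,
      ∃! c : Fin d → (∀ j : Fin r, Fin (p ^ padicValNat p (qv j - 1))) → 𝒪,
        y = ∑ i, ∑ e, algebraMap 𝒪 PQ.T (c i e) • dia (fun j => g j ^ (e j : ℕ)) (b i)
  /-- (SUPP-NU), verbatim from `IA.HasIAModule` -/
  supp_nu : ∀ t : PQ.T,
    (∀ (𝒪' : Type) [CommRing 𝒪'] [IsDomain 𝒪'] [IsDiscreteValuationRing 𝒪'] [CharZero 𝒪']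
        [Algebra 𝒪 𝒪'] (x : PQ.T →ₐ[𝒪] 𝒪') (hx : IsLocalHom (x : PQ.T →+* 𝒪')),
        (∀ q ∈ Piv,
          ¬ (PQ.H.ρ.baseChangeAlong (x : PQ.T →+* 𝒪') hx).IsUnipotentOnInertiaAt q) →
        x t = 0) →
    ∀ m : MQ, t • m = 0
  /-- (ST), verbatim from `IA.HasIAModule` -/
  st : ∀ q ∈ Piv, ∀ P : ValuationSubring (AlgebraicClosure ℚ), P.LiesOverPrime q →
    ∀ φ : AlgebraicClosure ℚ ≃ₐ[ℚ] AlgebraicClosure ℚ, P.IsFrobeniusAt φ q →
      ∀ m : MQ, ∃ m' : MQ,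
        (PQ.H.ρ.trace φ ^ 2 - ((1 + q : ℕ) : PQ.T) ^ 2) • m = algebraMap 𝒪 PQ.T lam • m'

attribute [instance] IAAutLevel.instAddCommGroup IAAutLevel.instModule

variable {Piv : Finset ℕ} {r : ℕ} {qv : Fin r → ℕ}
  [NeZero (wilesLevel p .flat Smin (Smin ∪ Piv ∪ Finset.univ.image qv))]
  {PQ : HeckePkg p 𝒪 ρbar .flat Smin (Smin ∪ Piv ∪ Finset.univ.image qv)}
  {lam : 𝒪} {d : ℕ}

/-- **The comparison of the Galois and the diamond structure on `M_Q`** at the Taylor–Wiles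
primes: literally `TW.AutLevel.Cmp`.  For a place `P` over `q_j`, a Frobenius `φ` at `P`, `σ` in
the inertia group of `P` acting on `μ_{q_j}` through a primitive root `a`, and every inertia
value `w ∈ T_Q` at `(φ, σ)`:  `(w - 1) M_Q = (dia_j a - 1) M_Q`. -/
def IAAutLevel.Cmp (A : IAAutLevel Piv qv PQ lam d) : Prop :=
  ∀ (j : Fin r) (P : ValuationSubring Qb), P.LiesOverPrime (qv j) →
    ∀ φ : GQ, P.IsFrobeniusAt φ (qv j) →
    ∀ σ ∈ P.inertiaSubgroupIn ℚ, ∀ a : (ZMod (qv j))ˣ, orderOf a = qv j - 1 →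
      CycloAt (qv j) σ (a : ZMod (qv j)).val →
      ∀ a₀ w : PQ.T, IsInertiaValue PQ.H.ρ φ σ a₀ w →
        ∀ y : A.MQ, (∃ y' : A.MQ, y = w • y' - y') ↔
          ∃ y' : A.MQ, y = A.dia (Pi.mulSingle j a) y' - y'

end Aut

/-! ## The leaves -/

/-- **PKG, flat case** (`TW.PkgStatement` for `t = .flat`; no input from S33). -/
def PkgFlatStatement : Prop :=
  ∀ (p : ℕ) [Fact p.Prime]
    (𝒪 : Type) [CommRing 𝒪] [IsDomain 𝒪] [IsDiscreteValuationRing 𝒪]
    [IsAdicComplete (maximalIdeal 𝒪) 𝒪] [Finite (ResidueField 𝒪)] [CharZero 𝒪]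
    (ρbar : ResidualGaloisRep (ResidueField 𝒪)) (Smin : Finset ℕ)
    (_h : ResidualHyp p 𝒪 ρbar Smin)
    (_hflat : (GaloisRepAdic.ofResidualGaloisRep ρbar).IsFlatAt p)
    (Sig : Finset ℕ) (_hSig : Smin ⊆ Sig) (_hSigP : ∀ q ∈ Sig, q.Prime)
    [NeZero (wilesLevel p .flat Smin Sig)]
    (θ : CuspForm.heckeAlgebra (wilesLevel p .flat Smin Sig) 2 (↑Sig : Set ℕ) →+*
      ResidueField 𝒪)
    (_hθ : Fermat.Agent.S59.G4.ResFrobCond ρbar θ),
    ∃ P : HeckePkg p 𝒪 ρbar .flat Smin Sig, P.θ = θ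

/-- `PkgFlatStatement` is a special case of the leaf PKG of the cell TW. -/
theorem pkgFlat_of_pkg (h : PkgStatement) : PkgFlatStatement :=
  fun p _ 𝒪 _ _ _ _ _ _ ρbar Smin hh hflat Sig hSig hSigP _ θ hθ =>
    h p 𝒪 ρbar Smin hh .flat (Or.inl ⟨rfl, hflat⟩) Sig hSig hSigP θ hθ

/-- **IA-AUT (the mountain of row HARD).**  Under the hypotheses of `IA.IAHeckeStatement`, with
the Frobenius character `θ₀` of level `L = ribetLevel` given by `hmod`: a rank `d > 0` and, for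
every Taylor–Wiles set `Q` (relative to `Smin ∪ Piv`) and every Hecke package `P_Q` of type
`Smin ∪ Piv ∪ Q` over the character `θ₀ ∘ oldRestrict`, an automorphic module of rank `d`
satisfying the comparison `Cmp`. -/
def IAAutStatement : Prop :=
  ∀ (p : ℕ) [Fact p.Prime]
    (𝒪 : Type) [CommRing 𝒪] [IsDomain 𝒪] [IsDiscreteValuationRing 𝒪]
    [IsAdicComplete (maximalIdeal 𝒪) 𝒪] [Finite (ResidueField 𝒪)] [CharZero 𝒪]
    (ρbar : ResidualGaloisRep (ResidueField 𝒪)) (Smin : Finset ℕ)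
    (_h : ResidualHyp p 𝒪 ρbar Smin)
    (_hflat : (GaloisRepAdic.ofResidualGaloisRep ρbar).IsFlatAt p)
    (ζ : 𝒪) (_hζ : IsPrimitiveRoot ζ p)
    (Piv : Finset ℕ) (_hPiv : IsPivotSet p ρbar Smin Piv)
    [NeZero (ribetLevel p Smin Piv)]
    (θ₀ : CuspForm.heckeAlgebra (ribetLevel p Smin Piv) 2 (↑(Smin ∪ Piv) : Set ℕ) →+*
      ResidueField 𝒪)
    (_hθ₀ : Fermat.Agent.S59.G4.ResFrobCond ρbar θ₀)
    (_hmin : ∀ q ∈ Piv, ∀ S : Finset ℕ,
      ¬ ResModular 𝒪 ρbar (ribetLevel p Smin (Piv.erase q)) S),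
    ∃ d : ℕ, 0 < d ∧ ∀ (n r : ℕ) (qv : Fin r → ℕ) (_hq : IsTWSet p ρbar (Smin ∪ Piv) n qv)
      [NeZero (wilesLevel p .flat Smin (Smin ∪ Piv ∪ Finset.univ.image qv))]
      (hp : LevelPair (ribetLevel p Smin Piv)
        (wilesLevel p .flat Smin (Smin ∪ Piv ∪ Finset.univ.image qv))
        (↑(Smin ∪ Piv) : Set ℕ) (↑(Smin ∪ Piv ∪ Finset.univ.image qv) : Set ℕ))
      (PQ : HeckePkg p 𝒪 ρbar .flat Smin (Smin ∪ Piv ∪ Finset.univ.image qv))
      (_hθ : PQ.θ = θ₀.comp (oldRestrict hp)),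
      ∃ A : IAAutLevel Piv qv PQ (ζ - 1) d, A.Cmp

end Fermat.Agent.S38.IA.Hecke

end
-- ===== PACK-END S38/IA/Hecke/Spec.lean

-- ===== PACK-BEGIN S38/IA/Hecke/Spec3.lean
section



/-!
# Row HARD, cell HECKE, LAYER 3: frozen split of `IAAutStatement`  (sub-architect helper3)

Layer 2 (`Hecke/Spec.lean`) reduced `IA.IAHeckeStatement` to ONE open leaf, `IAAutStatement`:
the automorphic module `M_Q` (`IAAutLevel`) with the comparison `Cmp`.  This file cuts it,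
in the Betti vocabulary of helper653 (`S59/TW/H653`) and of layer 3 of the cell TW of row S59
(`S59/TW/Aut/Spec.lean`, helper511: `IsLocPart`, `TsetOf`, `UsetOf`, `ActsBy`, `tOpTw`,
`IdemStatement`).  Only sorry-free definitions in this file.

## v2 (23:20Z): `IsHalf`
As in layer 3 of the cell TW (`S59/TW/Aut/Spec.lean` on main): IA-MOD provides `h` with
`IsHalf p pv h ∧ IsHalf p qv h` (`p^{m_s} ∣ 2h + 1` at every pivot and every Taylor–Wiles prime),
and IA-CMP, IA-NU, IA-ST assume it.  Nothing else changed with respect to v1 (@10e5dd6e2).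

## RESTRICTION `5 ≤ p`
The concrete leaves are stated for `5 ≤ p` (enough for the Frey curve, S43): for `p = 3` the
hypothesis (Ell) of `MFree.free` (the elements of finite order of `Γ₀(M)` lie in `K`) can fail and
an auxiliary level is needed.  `IAAut5Statement` / `IAHecke5Statement` are `IAAutStatement` /
`IA.IAHeckeStatement` with the extra hypothesis `5 ≤ p`.

## The objects (all CONCRETE)
* `pv : Fin k → ℕ` an enumeration of `Piv`, `qv : Fin r → ℕ` the Taylor–Wiles set; the COMBINED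
  family `Sum.elim pv qv : Fin k ⊕ Fin r → ℕ` (pivots, then Taylor–Wiles primes);
* `N₀ = wilesLevel p .flat Smin Smin = ∏_{Smin ∖ p} q`, Betti level
  `M = gLevel N₀ (Sum.elim pv qv) = N₀ · ∏ pv · ∏ qv`;
* `K = KIA p Smin pv qv = Γ₀(N₀) ∩ Γ_H(Piv ∪ Q) = GammaH M (ker (ℤ/M)ˣ → Δ_Piv × Δ_Q)`
  (`gLevel`, `gChi`, `KG`: the definitions `bLevel`, `chi`, `KQ` of helper511 for a family
  indexed by an arbitrary finite type; for `ι = Fin r` they are definitionally his);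
* `V ⊆ X_K(𝒪)`: THE localisation at `(𝔪_𝒪, T_ℓ - c_ℓ (ℓ ∉ Σ), U_{q_j} - α_j (j : Fin r))`
  (`IsIAPart`); the `U`-operators are localised at the TAYLOR–WILES primes only;
* `V₀ ⊆ X_{Γ₀(L)}(𝒪)`, `L = ribetLevel p Smin Piv`: the localisation at `(𝔪_𝒪, T_ℓ - c_ℓ)`,
  `c_ℓ ↦ θ₀(T_ℓ)` (`IsIAMinPart`); its rank is `d`;
* `T_Q = PQ.T` acts on `V` through `⟨ℓ⟩^h T_ℓ` (`IsIAAction`);
* diamond operators `diaIA a₁ a₂`, `a₁ ∈ ∏ (ℤ/pv i)ˣ`, `a₂ ∈ ∏ (ℤ/qv j)ˣ`;
* `χ : ∏ (ℤ/pv i)ˣ → 𝒪`, of order `p`, nontrivial at every pivot (`IsPivChar`);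
  `chiRelIA χ V` = the `𝒪`-span of the `⟨a₁⟩ y - χ(a₁) y`, `y ∈ V`;
  `M_Q := V / chiRelIA χ V`.

## Leaves (each is a `Prop`; prove `theorem foo : FooStatement` VERBATIM)

| leaf | Prop | content | inputs |
|---|---|---|---|
| IDEM | `S59.TW.Aut.IdemStatement` | the localisations exist | shared with row S59 |
| IA-NONTRIV | `IANontrivStatement` | `V₀` is free of rank `d > 0` over `𝒪` | ES + faithfulness (= S59 NONTRIV at level `L`) |
| IA-MOD | `IAModStatement` | `T_Q` acts on `V`, `T_ℓ ↦ ⟨ℓ⟩^h T_ℓ`, `h` half | = S59 MODQ for the combined family |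
| IA-FREE | `IAFreeStatement` | `V` has an `𝒪`-basis `⟨g^e⟩ b_i` (free over `𝒪[Δ_Piv × Δ_Q]`) | `MFree.free` |
| IA-CTRL | `IACtrlStatement` | `π : V ↠ V₀`, `ker π = I_Δ V` (`Δ = Δ_Piv × Δ_Q`) | `MFree` (ker cor, cor onto) + TW-CTRL over the base level `L` |
| IA-CMP | `IACmpStatement` | `(w - 1) V = (⟨u⟩_j - 1) V` at the Taylor–Wiles primes | = S59 CMP |
| IA-NU | `IANuStatement` | `t` vanishing at the points not unipotent at the pivots ⇒ `t V ⊆ chiRelIA χ V` | twist is `q²`-new + frozen S36 |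
| IA-ST | `IAStStatement` | `(tr ρ(Frob_q)² - (1+q)²) V ⊆ chiRelIA 1 V` (`= I_{Δ_Piv} V`) | (MIN) + CTRL-MIN (helper719) + S35 |

## Glue
* `IABettiLevel` / `IABettiStatement`: the ABSTRACT Betti module (a `T_Q`-module `V` with a
  `T_Q`-linear diamond action of `∏ (ℤ/pv i)ˣ × ∏ (ℤ/qv j)ˣ`, free of rank `d`, with (NU), (ST)
  into the `χ`-relations, and `Cmp`);
* glue A, pure algebra (`χ`-part of helper354): `IABettiStatement → IAAut5Statement`;
* glue B, bookkeeping: the leaves above `→ IABettiStatement`;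
* `IARankStatement` (Mathlib only): a basis `⟨g^e⟩ b_i`, `i < d'`, of `V` and `V / I_Δ V ≅ V₀`
  free of rank `d` give `d' = d`.
-/

set_option autoImplicit false

open Polynomial IsLocalRing CongruenceSubgroup
open scoped MatrixGroups

namespace Fermat.Agent.S38.IA.Hecke

open Fermat.Agent.S59.Arch Fermat.Agent.S59.TW.H959 Fermat.Agent.S59.TW Fermat.Agent.S59.H765
open Fermat.Agent.S59.TW.H653 Fermat.Agent.S59.TW.Aut
open CuspForm

/-! ## The level structure of a family of primes indexed by a finite type -/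

section Level

variable (p N₀ : ℕ) {ι : Type} [Fintype ι] (qq : ι → ℕ)

/-- The Betti level `N₀ · ∏ qq s`. -/
def gLevel : ℕ := N₀ * ∏ s, qq s

theorem dvd_gLevel (s : ι) : qq s ∣ gLevel N₀ qq :=
  Dvd.dvd.mul_left (Finset.dvd_prod_of_mem qq (Finset.mem_univ s)) N₀

theorem self_dvd_gLevel : N₀ ∣ gLevel N₀ qq := Dvd.intro _ rfl

/-- The subgroup of the `p^{m_s}`-th powers, `m_s = v_p(qq s - 1)`. -/
def gPowSub : Subgroup (∀ s : ι, (ZMod (qq s))ˣ) :=
  Subgroup.pi Set.univ fun s =>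
    (powMonoidHom (p ^ padicValNat p (qq s - 1)) : (ZMod (qq s))ˣ →* (ZMod (qq s))ˣ).range

/-- `Δ`: the product of the `p`-Sylow quotients of the `(ℤ/qq s)ˣ`. -/
abbrev GDelta : Type := (∀ s : ι, (ZMod (qq s))ˣ) ⧸ gPowSub p qq

/-- Reduction `(ℤ/M)ˣ → ∏ (ℤ/qq s)ˣ`. -/
def gRed : (ZMod (gLevel N₀ qq))ˣ →* ∀ s : ι, (ZMod (qq s))ˣ :=
  MonoidHom.pi fun s => ZMod.unitsMap (dvd_gLevel N₀ qq s)

/-- `(ℤ/M)ˣ → Δ`. -/
def gChi : (ZMod (gLevel N₀ qq))ˣ →* GDelta p qq :=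
  (QuotientGroup.mk' (gPowSub p qq)).comp (gRed N₀ qq)

/-- `κ : Γ₀(M) → Δ`. -/
def gKappa : Gamma0 (gLevel N₀ qq) →* GDelta p qq :=
  (gChi p N₀ qq).comp (dUnit (gLevel N₀ qq))

/-- `K = ker κ = Γ₀(N₀) ∩ Γ_H(qq)`. -/
def KG : Subgroup SL(2, ℤ) := GammaH (gLevel N₀ qq) (gChi p N₀ qq).ker

theorem isMid_KG : IsMid (gLevel N₀ qq) (KG p N₀ qq) := isMid_GammaH _ _

/-- `K` in the vocabulary of block M-FREE: `K = MFree.kerSub κ`. -/
theorem KG_eq_ker :
    KG p N₀ qq = (gKappa p N₀ qq).ker.map (Gamma0 (gLevel N₀ qq)).subtype := rfl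

/-- A lift of `a ∈ ∏ (ℤ/qq s)ˣ` to `(ℤ/M)ˣ` (any: the diamond operator of `K` depends only on the
class of `gRed u` in `Δ`). -/
noncomputable def gLift (a : ∀ s : ι, (ZMod (qq s))ˣ) : (ZMod (gLevel N₀ qq))ˣ :=
  open scoped Classical in if h : ∃ u, gRed N₀ qq u = a then h.choose else 1

theorem gRed_gLift {a : ∀ s : ι, (ZMod (qq s))ˣ} (h : ∃ u, gRed N₀ qq u = a) :
    gRed N₀ qq (gLift N₀ qq a) = a := by
  unfold gLift
  rw [dif_pos h]
  exact h.choose_spec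

/-- For `ι = Fin r` these are the definitions of layer 3 of the cell TW (helper511). -/
theorem gLevel_eq_bLevel {r : ℕ} (qv : Fin r → ℕ) : gLevel N₀ qv = bLevel N₀ qv := rfl

theorem KG_eq_KQ {r : ℕ} (qv : Fin r → ℕ) : KG p N₀ qv = KQ p N₀ qv := rfl

end Level

/-! ## The eigen-system of a character of the Hecke algebra -/

/-- The pairs `(ℓ, c)`: `ℓ` a good prime and `c ∈ 𝒪` a lift of `θ(T_ℓ)`
(`TsetOf P = TsetOfθ P.θ`). -/
def TsetOfθ {𝒪 : Type} [CommRing 𝒪] [IsLocalRing 𝒪] {N : ℕ} [NeZero N] {S : Set ℕ}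
    (θ : CuspForm.heckeAlgebra N 2 S →+* ResidueField 𝒪) : Set (ℕ × 𝒪) :=
  {x | ∃ (hℓ : x.1.Prime) (hℓN : ¬ x.1 ∣ N) (hℓS : x.1 ∉ S),
    residue 𝒪 x.2 = θ (CuspForm.heckeAlgebra.T hℓ hℓN hℓS)}

/-! ## The Betti objects of Ihara avoidance -/

section Obj

variable (p : ℕ) (Smin : Finset ℕ) {k r : ℕ} (pv : Fin k → ℕ) (qv : Fin r → ℕ)

/-- `K = Γ₀(N_min) ∩ Γ_H(Piv ∪ Q)`. -/
noncomputable abbrev KIA : Subgroup SL(2, ℤ) := KG p (wilesLevel p .flat Smin Smin) (Sum.elim pv qv)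

/-- The Betti level `M = N_min · ∏ pv · ∏ qv`. -/
noncomputable abbrev MIA : ℕ := gLevel (wilesLevel p .flat Smin Smin) (Sum.elim pv qv)

theorem isMid_KIA : IsMid (MIA p Smin pv qv) (KIA p Smin pv qv) := isMid_KG _ _ _

/-- The Betti module `X_K(𝒪) = Hom(K, 𝒪)`. -/
abbrev XIA (𝒪 : Type) [CommRing 𝒪] : Type := Additive (KIA p Smin pv qv) →+ 𝒪

variable {pv qv}

/-- The element `(a₁, a₂)` of `∏_{Fin k ⊕ Fin r} (ℤ/q)ˣ`. -/
def pairU (a₁ : ∀ i : Fin k, (ZMod (pv i))ˣ) (a₂ : ∀ j : Fin r, (ZMod (qv j))ˣ) :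
    ∀ s : Fin k ⊕ Fin r, (ZMod (Sum.elim pv qv s))ˣ
  | .inl i => a₁ i
  | .inr j => a₂ j

variable (pv qv)

/-- The plain diamond operator of `(a₁, a₂) ∈ ∏ (ℤ/pv i)ˣ × ∏ (ℤ/qv j)ˣ` on `X_K(𝒪)`. -/
noncomputable def diaIA (𝒪 : Type) [CommRing 𝒪] (a₁ : ∀ i : Fin k, (ZMod (pv i))ˣ)
    (a₂ : ∀ j : Fin r, (ZMod (qv j))ˣ) (x : XIA p Smin pv qv 𝒪) : XIA p Smin pv qv 𝒪 :=
  diamondU (isMid_KIA p Smin pv qv)
    (gLift (wilesLevel p .flat Smin Smin) (Sum.elim pv qv) (pairU a₁ a₂)) x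

/-- `χ : ∏ (ℤ/pv i)ˣ → 𝒪` is a character of order `p`, nontrivial at every pivot. -/
def IsPivChar {𝒪 : Type} [CommRing 𝒪] (χ : (∀ i : Fin k, (ZMod (pv i))ˣ) →* 𝒪) : Prop :=
  (∀ a, χ a ^ p = 1) ∧ ∀ i : Fin k, ∃ u : (ZMod (pv i))ˣ, χ (Pi.mulSingle i u) ≠ 1

/-- The `χ`-relations in `V`: the `𝒪`-span of the `⟨a₁⟩ y - χ(a₁) y`, `y ∈ V`, `a₁` at the
pivots.  (`chiRelIA 1 V = I_{Δ_Piv} V`.) -/
noncomputable def chiRelIA {𝒪 : Type} [CommRing 𝒪] (χ : (∀ i : Fin k, (ZMod (pv i))ˣ) →* 𝒪)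
    (V : Submodule 𝒪 (XIA p Smin pv qv 𝒪)) : Submodule 𝒪 (XIA p Smin pv qv 𝒪) :=
  Submodule.span 𝒪 {w | ∃ (a₁ : ∀ i : Fin k, (ZMod (pv i))ˣ) (y : XIA p Smin pv qv 𝒪),
    y ∈ V ∧ w = diaIA p Smin pv qv 𝒪 a₁ 1 y - χ a₁ • y}

end Obj

section Parts

variable {p : ℕ}
  {𝒪 : Type} [CommRing 𝒪] [IsDomain 𝒪] [IsDiscreteValuationRing 𝒪]
  [IsAdicComplete (maximalIdeal 𝒪) 𝒪]
  {ρbar : ResidualGaloisRep (ResidueField 𝒪)} {Smin : Finset ℕ}

/-- `V₀` is the localisation of `X_{Γ₀(L)}(𝒪)`, `L = ribetLevel p Smin Piv`, at the maximal ideal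
of `θ₀`. -/
def IsIAMinPart {Piv : Finset ℕ} [NeZero (ribetLevel p Smin Piv)]
    (θ₀ : CuspForm.heckeAlgebra (ribetLevel p Smin Piv) 2 (↑(Smin ∪ Piv) : Set ℕ) →+*
      ResidueField 𝒪)
    (V₀ : Submodule 𝒪 (Additive (Gamma0 (ribetLevel p Smin Piv)) →+ 𝒪)) : Prop :=
  IsLocPart (isMid_Gamma0 (ribetLevel p Smin Piv)) (TsetOfθ θ₀) ∅ V₀

variable {Piv : Finset ℕ} {k r : ℕ} {pv : Fin k → ℕ} {qv : Fin r → ℕ}

/-- **FREE at `V`, rank `d`**: for primitive roots `g₁ i` mod `pv i` and `g₂ j` mod `qv j`, an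
`𝒪`-basis of `V` of the form `⟨g₁^{e₁}, g₂^{e₂}⟩ b_i`, `i < d`. -/
def IAFreeAt (V : Submodule 𝒪 (XIA p Smin pv qv 𝒪)) (d : ℕ) : Prop :=
  ∀ (g₁ : ∀ i : Fin k, (ZMod (pv i))ˣ) (g₂ : ∀ j : Fin r, (ZMod (qv j))ˣ),
    (∀ i, orderOf (g₁ i) = pv i - 1) → (∀ j, orderOf (g₂ j) = qv j - 1) →
    ∃ b : Fin d → V, ∀ y : V,
      ∃! c : Fin d → (∀ i : Fin k, Fin (p ^ padicValNat p (pv i - 1))) ×
          (∀ j : Fin r, Fin (p ^ padicValNat p (qv j - 1))) → 𝒪,
        (y : XIA p Smin pv qv 𝒪) =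
          ∑ i, ∑ e, c i e • diaIA p Smin pv qv 𝒪 (fun i' => g₁ i' ^ (e.1 i' : ℕ))
            (fun j => g₂ j ^ (e.2 j : ℕ)) (b i)

/-- **CTRL at `(V₀, V)`**: a surjective `𝒪`-linear map `π : V → V₀` whose kernel is the
augmentation submodule of the diamond action of `Δ_Piv × Δ_Q`.
(No Hecke-equivariance is asked: only the rank is used.) -/
def IACtrlAt (V₀ : Submodule 𝒪 (Additive (Gamma0 (ribetLevel p Smin Piv)) →+ 𝒪))
    (V : Submodule 𝒪 (XIA p Smin pv qv 𝒪)) : Prop :=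
  ∃ π : V →ₗ[𝒪] V₀, Function.Surjective π ∧
    ∀ y : V, π y = 0 ↔
      y ∈ AddSubgroup.closure {z : V | ∃ (a₁ : ∀ i : Fin k, (ZMod (pv i))ˣ)
        (a₂ : ∀ j : Fin r, (ZMod (qv j))ˣ) (y' : V),
        (z : XIA p Smin pv qv 𝒪) = diaIA p Smin pv qv 𝒪 a₁ a₂ y' - y'}

variable [NeZero (wilesLevel p .flat Smin (Smin ∪ Piv ∪ Finset.univ.image qv))]

/-- `V` is the localisation of `X_K(𝒪)` at the maximal ideal of the package `P_Q` and of
`U_{q_j} - α_j`, `q_j` the TAYLOR–WILES primes. -/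
def IsIAPart (PQ : HeckePkg p 𝒪 ρbar .flat Smin (Smin ∪ Piv ∪ Finset.univ.image qv))
    (α : Fin r → 𝒪) (V : Submodule 𝒪 (XIA p Smin pv qv 𝒪)) : Prop :=
  IsLocPart (isMid_KIA p Smin pv qv) (TsetOf PQ) (UsetOf qv α) V

/-- The action of `T_Q` on `V`: `T_ℓ ↦ ⟨ℓ⟩^h T_ℓ`. -/
def IsIAAction (PQ : HeckePkg p 𝒪 ρbar .flat Smin (Smin ∪ Piv ∪ Finset.univ.image qv))
    (V : Submodule 𝒪 (XIA p Smin pv qv 𝒪)) (h : ℕ) (a : PQ.T →ₐ[𝒪] Module.End 𝒪 V) : Prop :=
  ActsBy PQ V a (tOpTw (isMid_KIA p Smin pv qv) 𝒪 h)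

/-- **CMP at `(V, a)`**: the comparison of `IAAutLevel.Cmp` at the Taylor–Wiles primes, for the
action `a` of `T_Q` on `V` and the plain diamond operators. -/
def IACmpAt (PQ : HeckePkg p 𝒪 ρbar .flat Smin (Smin ∪ Piv ∪ Finset.univ.image qv))
    (V : Submodule 𝒪 (XIA p Smin pv qv 𝒪)) (a : PQ.T →ₐ[𝒪] Module.End 𝒪 V) : Prop :=
  ∀ (j : Fin r) (P : ValuationSubring Qb), P.LiesOverPrime (qv j) →
    ∀ φ : GQ, P.IsFrobeniusAt φ (qv j) →
    ∀ σ ∈ P.inertiaSubgroupIn ℚ, ∀ u : (ZMod (qv j))ˣ, orderOf u = qv j - 1 →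
      CycloAt (qv j) σ (u : ZMod (qv j)).val →
      ∀ a₀ w : PQ.T, IsInertiaValue PQ.H.ρ φ σ a₀ w →
        ∀ y : V, (∃ y' : V, y = a w y' - y') ↔
          ∃ y' : V, (y : XIA p Smin pv qv 𝒪) =
            diaIA p Smin pv qv 𝒪 1 (Pi.mulSingle j u) y' - y'

/-- **NU at `(V, a)`**: an element `t ∈ T_Q` vanishing at every point of `T_Q` whose Galois
representation is not unipotent on inertia at any pivot maps `V` into the `χ`-relations, for
every character `χ` of order `p` nontrivial at every pivot. -/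
def IANuAt
    (PQ : HeckePkg p 𝒪 ρbar .flat Smin (Smin ∪ Piv ∪ Finset.univ.image qv))
    (V : Submodule 𝒪 (XIA p Smin pv qv 𝒪)) (a : PQ.T →ₐ[𝒪] Module.End 𝒪 V) : Prop :=
  ∀ χ : (∀ i : Fin k, (ZMod (pv i))ˣ) →* 𝒪, IsPivChar p pv χ →
    ∀ t : PQ.T,
      (∀ (𝒪' : Type) [CommRing 𝒪'] [IsDomain 𝒪'] [IsDiscreteValuationRing 𝒪'] [CharZero 𝒪']
          [Algebra 𝒪 𝒪'] (x : PQ.T →ₐ[𝒪] 𝒪') (hx : IsLocalHom (x : PQ.T →+* 𝒪')),
          (∀ q ∈ Piv,
            ¬ (PQ.H.ρ.baseChangeAlong (x : PQ.T →+* 𝒪') hx).IsUnipotentOnInertiaAt q) →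
          x t = 0) →
      ∀ v : V, ((a t v : V) : XIA p Smin pv qv 𝒪) ∈ chiRelIA p Smin pv qv χ V

/-- **ST at `(V, a)`**: the Steinberg elements at the pivots map `V` into the augmentation
submodule of `Δ_Piv`. -/
def IAStAt
    (PQ : HeckePkg p 𝒪 ρbar .flat Smin (Smin ∪ Piv ∪ Finset.univ.image qv))
    (V : Submodule 𝒪 (XIA p Smin pv qv 𝒪)) (a : PQ.T →ₐ[𝒪] Module.End 𝒪 V) : Prop :=
  ∀ q ∈ Piv, ∀ P : ValuationSubring (AlgebraicClosure ℚ), P.LiesOverPrime q →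
    ∀ φ : AlgebraicClosure ℚ ≃ₐ[ℚ] AlgebraicClosure ℚ, P.IsFrobeniusAt φ q →
      ∀ v : V, ((a (PQ.H.ρ.trace φ ^ 2 - ((1 + q : ℕ) : PQ.T) ^ 2) v : V) :
        XIA p Smin pv qv 𝒪) ∈ chiRelIA p Smin pv qv 1 V

end Parts

/-! ## The abstract Betti module -/

section Betti

variable {p : ℕ}
  {𝒪 : Type} [CommRing 𝒪] [IsDomain 𝒪] [IsDiscreteValuationRing 𝒪]
  [IsAdicComplete (maximalIdeal 𝒪) 𝒪]
  {ρbar : ResidualGaloisRep (ResidueField 𝒪)} {Smin : Finset ℕ}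

/-- **The Betti module of Ihara avoidance at the Taylor–Wiles set `Q = qv`, abstractly**
(BEFORE the `χ`-part): a `T_Q`-module with a `T_Q`-linear diamond action of
`∏ (ℤ/pv i)ˣ × ∏ (ℤ/qv j)ˣ` factoring through the `p`-Sylow quotients, free of rank `d` over
`𝒪[Δ_Piv × Δ_Q]`, such that (NU), (ST) hold modulo the `χ`-relations at the pivots. -/
structure IABettiLevel (Piv : Finset ℕ) {k : ℕ} (pv : Fin k → ℕ) {r : ℕ} (qv : Fin r → ℕ)
    [NeZero (wilesLevel p .flat Smin (Smin ∪ Piv ∪ Finset.univ.image qv))]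
    (PQ : HeckePkg p 𝒪 ρbar .flat Smin (Smin ∪ Piv ∪ Finset.univ.image qv))
    (d : ℕ) : Type 1 where
  /-- the module `V` -/
  V : Type
  [instAddCommGroup : AddCommGroup V]
  [instModule : Module PQ.T V]
  /-- the diamond operators at the pivots and at the Taylor–Wiles primes -/
  dia : (∀ i : Fin k, (ZMod (pv i))ˣ) × (∀ j : Fin r, (ZMod (qv j))ˣ) →* Module.End PQ.T V
  /-- the diamond action at the pivots factors through the `p`-Sylow quotient -/
  dia_pow₁ : ∀ a₁ : ∀ i : Fin k, (ZMod (pv i))ˣ,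
    dia (fun i => a₁ i ^ p ^ padicValNat p (pv i - 1), 1) = 1
  /-- the diamond action at the Taylor–Wiles primes factors through the `p`-Sylow quotient -/
  dia_pow₂ : ∀ a₂ : ∀ j : Fin r, (ZMod (qv j))ˣ,
    dia (1, fun j => a₂ j ^ p ^ padicValNat p (qv j - 1)) = 1
  /-- `V` is free of rank `d` over `𝒪[Δ_Piv × Δ_Q]` -/
  free : ∀ (g₁ : ∀ i : Fin k, (ZMod (pv i))ˣ) (g₂ : ∀ j : Fin r, (ZMod (qv j))ˣ),
    (∀ i, orderOf (g₁ i) = pv i - 1) → (∀ j, orderOf (g₂ j) = qv j - 1) →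
    ∃ b : Fin d → V, ∀ y : V,
      ∃! c : Fin d → (∀ i : Fin k, Fin (p ^ padicValNat p (pv i - 1))) ×
          (∀ j : Fin r, Fin (p ^ padicValNat p (qv j - 1))) → 𝒪,
        y = ∑ i, ∑ e, algebraMap 𝒪 PQ.T (c i e) •
          dia (fun i' => g₁ i' ^ (e.1 i' : ℕ), fun j => g₂ j ^ (e.2 j : ℕ)) (b i)
  /-- (NU) modulo the `χ`-relations -/
  nu : ∀ χ : (∀ i : Fin k, (ZMod (pv i))ˣ) →* 𝒪, IsPivChar p pv χ →
    ∀ t : PQ.T,
      (∀ (𝒪' : Type) [CommRing 𝒪'] [IsDomain 𝒪'] [IsDiscreteValuationRing 𝒪'] [CharZero 𝒪']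
          [Algebra 𝒪 𝒪'] (x : PQ.T →ₐ[𝒪] 𝒪') (hx : IsLocalHom (x : PQ.T →+* 𝒪')),
          (∀ q ∈ Piv,
            ¬ (PQ.H.ρ.baseChangeAlong (x : PQ.T →+* 𝒪') hx).IsUnipotentOnInertiaAt q) →
          x t = 0) →
      ∀ v : V, t • v ∈ Submodule.span PQ.T
        {w : V | ∃ (a₁ : ∀ i : Fin k, (ZMod (pv i))ˣ) (y : V),
          w = dia (a₁, 1) y - algebraMap 𝒪 PQ.T (χ a₁) • y}
  /-- (ST) modulo the augmentation submodule of the pivots -/
  st : ∀ q ∈ Piv, ∀ P : ValuationSubring (AlgebraicClosure ℚ), P.LiesOverPrime q →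
    ∀ φ : AlgebraicClosure ℚ ≃ₐ[ℚ] AlgebraicClosure ℚ, P.IsFrobeniusAt φ q →
      ∀ v : V, (PQ.H.ρ.trace φ ^ 2 - ((1 + q : ℕ) : PQ.T) ^ 2) • v ∈ Submodule.span PQ.T
        {w : V | ∃ (a₁ : ∀ i : Fin k, (ZMod (pv i))ˣ) (y : V), w = dia (a₁, 1) y - y}

attribute [instance] IABettiLevel.instAddCommGroup IABettiLevel.instModule

variable {Piv : Finset ℕ} {k : ℕ} {pv : Fin k → ℕ} {r : ℕ} {qv : Fin r → ℕ}
  [NeZero (wilesLevel p .flat Smin (Smin ∪ Piv ∪ Finset.univ.image qv))]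
  {PQ : HeckePkg p 𝒪 ρbar .flat Smin (Smin ∪ Piv ∪ Finset.univ.image qv)} {d : ℕ}

/-- The comparison of the Galois and the diamond structure on the Betti module, at the
Taylor–Wiles primes. -/
def IABettiLevel.Cmp (B : IABettiLevel Piv pv qv PQ d) : Prop :=
  ∀ (j : Fin r) (P : ValuationSubring Qb), P.LiesOverPrime (qv j) →
    ∀ φ : GQ, P.IsFrobeniusAt φ (qv j) →
    ∀ σ ∈ P.inertiaSubgroupIn ℚ, ∀ u : (ZMod (qv j))ˣ, orderOf u = qv j - 1 →
      CycloAt (qv j) σ (u : ZMod (qv j)).val →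
      ∀ a₀ w : PQ.T, IsInertiaValue PQ.H.ρ φ σ a₀ w →
        ∀ y : B.V, (∃ y' : B.V, y = w • y' - y') ↔
          ∃ y' : B.V, y = B.dia (1, Pi.mulSingle j u) y' - y'

end Betti

/-! ## The statements with `5 ≤ p` -/

/-- `IA.IAHeckeStatement` for `5 ≤ p` (enough for S43). -/
def IAHecke5Statement : Prop :=
  ∀ (p : ℕ) [Fact p.Prime] (_hp5 : 5 ≤ p)
    (𝒪 : Type) [CommRing 𝒪] [IsDomain 𝒪] [IsDiscreteValuationRing 𝒪]
    [IsAdicComplete (maximalIdeal 𝒪) 𝒪] [Finite (ResidueField 𝒪)] [CharZero 𝒪]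
    (ρbar : ResidualGaloisRep (ResidueField 𝒪)) (Smin : Finset ℕ)
    (_h : ResidualHyp p 𝒪 ρbar Smin)
    (_hflat : (GaloisRepAdic.ofResidualGaloisRep ρbar).IsFlatAt p)
    (ζ : 𝒪) (_hζ : IsPrimitiveRoot ζ p)
    (Piv : Finset ℕ) (_hPiv : IsPivotSet p ρbar Smin Piv)
    (_hmod : ResModular 𝒪 ρbar (ribetLevel p Smin Piv) (Smin ∪ Piv))
    (_hmin : ∀ q ∈ Piv, ∀ S : Finset ℕ,
      ¬ ResModular 𝒪 ρbar (ribetLevel p Smin (Piv.erase q)) S),
    ∃ d : ℕ, 0 < d ∧ ∀ (n r : ℕ) (qv : Fin r → ℕ), IsTWSet p ρbar (Smin ∪ Piv) n qv →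
      HasIAModule p 𝒪 ρbar Smin Piv (ζ - 1) d n qv

/-- `IAAutStatement` for `5 ≤ p`. -/
def IAAut5Statement : Prop :=
  ∀ (p : ℕ) [Fact p.Prime] (_hp5 : 5 ≤ p)
    (𝒪 : Type) [CommRing 𝒪] [IsDomain 𝒪] [IsDiscreteValuationRing 𝒪]
    [IsAdicComplete (maximalIdeal 𝒪) 𝒪] [Finite (ResidueField 𝒪)] [CharZero 𝒪]
    (ρbar : ResidualGaloisRep (ResidueField 𝒪)) (Smin : Finset ℕ)
    (_h : ResidualHyp p 𝒪 ρbar Smin)
    (_hflat : (GaloisRepAdic.ofResidualGaloisRep ρbar).IsFlatAt p)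
    (ζ : 𝒪) (_hζ : IsPrimitiveRoot ζ p)
    (Piv : Finset ℕ) (_hPiv : IsPivotSet p ρbar Smin Piv)
    [NeZero (ribetLevel p Smin Piv)]
    (θ₀ : CuspForm.heckeAlgebra (ribetLevel p Smin Piv) 2 (↑(Smin ∪ Piv) : Set ℕ) →+*
      ResidueField 𝒪)
    (_hθ₀ : Fermat.Agent.S59.G4.ResFrobCond ρbar θ₀)
    (_hmin : ∀ q ∈ Piv, ∀ S : Finset ℕ,
      ¬ ResModular 𝒪 ρbar (ribetLevel p Smin (Piv.erase q)) S),
    ∃ d : ℕ, 0 < d ∧ ∀ (n r : ℕ) (qv : Fin r → ℕ) (_hq : IsTWSet p ρbar (Smin ∪ Piv) n qv)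
      [NeZero (wilesLevel p .flat Smin (Smin ∪ Piv ∪ Finset.univ.image qv))]
      (hp : LevelPair (ribetLevel p Smin Piv)
        (wilesLevel p .flat Smin (Smin ∪ Piv ∪ Finset.univ.image qv))
        (↑(Smin ∪ Piv) : Set ℕ) (↑(Smin ∪ Piv ∪ Finset.univ.image qv) : Set ℕ))
      (PQ : HeckePkg p 𝒪 ρbar .flat Smin (Smin ∪ Piv ∪ Finset.univ.image qv))
      (_hθ : PQ.θ = θ₀.comp (oldRestrict hp)),
      ∃ A : IAAutLevel Piv qv PQ (ζ - 1) d, A.Cmp

/-- `IAAutStatement` implies its restriction to `5 ≤ p`. -/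
theorem iaAut5_of_iaAut (h : IAAutStatement) : IAAut5Statement :=
  fun p _ _ 𝒪 _ _ _ _ _ _ ρbar Smin hh hflat ζ hζ Piv hPiv _ θ₀ hθ₀ hmin =>
    h p 𝒪 ρbar Smin hh hflat ζ hζ Piv hPiv θ₀ hθ₀ hmin

/-- **IA-BETTI**: the abstract Betti module, for every enumeration `pv` of the pivots. -/
def IABettiStatement : Prop :=
  ∀ (p : ℕ) [Fact p.Prime] (_hp5 : 5 ≤ p)
    (𝒪 : Type) [CommRing 𝒪] [IsDomain 𝒪] [IsDiscreteValuationRing 𝒪]
    [IsAdicComplete (maximalIdeal 𝒪) 𝒪] [Finite (ResidueField 𝒪)] [CharZero 𝒪]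
    (ρbar : ResidualGaloisRep (ResidueField 𝒪)) (Smin : Finset ℕ)
    (_h : ResidualHyp p 𝒪 ρbar Smin)
    (_hflat : (GaloisRepAdic.ofResidualGaloisRep ρbar).IsFlatAt p)
    (Piv : Finset ℕ) (_hPiv : IsPivotSet p ρbar Smin Piv)
    [NeZero (ribetLevel p Smin Piv)]
    (θ₀ : CuspForm.heckeAlgebra (ribetLevel p Smin Piv) 2 (↑(Smin ∪ Piv) : Set ℕ) →+*
      ResidueField 𝒪)
    (_hθ₀ : Fermat.Agent.S59.G4.ResFrobCond ρbar θ₀)
    (_hmin : ∀ q ∈ Piv, ∀ S : Finset ℕ,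
      ¬ ResModular 𝒪 ρbar (ribetLevel p Smin (Piv.erase q)) S)
    (k : ℕ) (pv : Fin k → ℕ) (_hpv : Function.Injective pv)
    (_hpvPiv : Finset.univ.image pv = Piv),
    ∃ d : ℕ, 0 < d ∧ ∀ (n r : ℕ) (qv : Fin r → ℕ) (_hq : IsTWSet p ρbar (Smin ∪ Piv) n qv)
      [NeZero (wilesLevel p .flat Smin (Smin ∪ Piv ∪ Finset.univ.image qv))]
      (hp : LevelPair (ribetLevel p Smin Piv)
        (wilesLevel p .flat Smin (Smin ∪ Piv ∪ Finset.univ.image qv))
        (↑(Smin ∪ Piv) : Set ℕ) (↑(Smin ∪ Piv ∪ Finset.univ.image qv) : Set ℕ))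
      (PQ : HeckePkg p 𝒪 ρbar .flat Smin (Smin ∪ Piv ∪ Finset.univ.image qv))
      (_hθ : PQ.θ = θ₀.comp (oldRestrict hp)),
      ∃ B : IABettiLevel Piv pv qv PQ d, B.Cmp

/-! ## The leaves -/

/-- **IA-NONTRIV.**  `V₀`, the localisation of `X_{Γ₀(L)}(𝒪)` at `θ₀`, is free of positive rank
over `𝒪`.  (The Hecke algebra acts faithfully on `S₂(Γ₀(L))`, hence on `Hom(Γ₀(L), ℤ)_par` by
S21; `X_{Γ₀(L)}(𝒪)` is finite free over the discrete valuation ring `𝒪`.) -/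
def IANontrivStatement : Prop :=
  ∀ (p : ℕ) [Fact p.Prime] (_hp5 : 5 ≤ p)
    (𝒪 : Type) [CommRing 𝒪] [IsDomain 𝒪] [IsDiscreteValuationRing 𝒪]
    [IsAdicComplete (maximalIdeal 𝒪) 𝒪] [Finite (ResidueField 𝒪)] [CharZero 𝒪]
    (ρbar : ResidualGaloisRep (ResidueField 𝒪)) (Smin : Finset ℕ)
    (_h : ResidualHyp p 𝒪 ρbar Smin)
    (_hflat : (GaloisRepAdic.ofResidualGaloisRep ρbar).IsFlatAt p)
    (Piv : Finset ℕ) (_hPiv : IsPivotSet p ρbar Smin Piv)
    [NeZero (ribetLevel p Smin Piv)]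
    (θ₀ : CuspForm.heckeAlgebra (ribetLevel p Smin Piv) 2 (↑(Smin ∪ Piv) : Set ℕ) →+*
      ResidueField 𝒪)
    (_hθ₀ : Fermat.Agent.S59.G4.ResFrobCond ρbar θ₀)
    (V₀ : Submodule 𝒪 (Additive (Gamma0 (ribetLevel p Smin Piv)) →+ 𝒪)),
    IsIAMinPart θ₀ V₀ → ∃ d : ℕ, 0 < d ∧ Nonempty (Module.Basis (Fin d) 𝒪 V₀)

/-- **IA-MOD.**  The Hecke ring `T_Q = heckeLocal (N_min ∏_{Piv ∪ Q} q²)` acts on
`V ⊆ X_K(𝒪)` through the twisted operators `⟨ℓ⟩^h T_ℓ`, for a suitable `h` with `2 h ≡ -1`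
modulo the exponents of `Δ_Piv` and `Δ_Q`.
(As MODQ of the cell TW, for the combined family.) -/
def IAModStatement : Prop :=
  ∀ (p : ℕ) [Fact p.Prime] (_hp5 : 5 ≤ p)
    (𝒪 : Type) [CommRing 𝒪] [IsDomain 𝒪] [IsDiscreteValuationRing 𝒪]
    [IsAdicComplete (maximalIdeal 𝒪) 𝒪] [Finite (ResidueField 𝒪)] [CharZero 𝒪]
    (ρbar : ResidualGaloisRep (ResidueField 𝒪)) (Smin : Finset ℕ)
    (_h : ResidualHyp p 𝒪 ρbar Smin)
    (_hflat : (GaloisRepAdic.ofResidualGaloisRep ρbar).IsFlatAt p)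
    (Piv : Finset ℕ) (_hPiv : IsPivotSet p ρbar Smin Piv)
    (k : ℕ) (pv : Fin k → ℕ) (_hpv : Function.Injective pv)
    (_hpvPiv : Finset.univ.image pv = Piv)
    (n r : ℕ) (qv : Fin r → ℕ) (_hq : IsTWSet p ρbar (Smin ∪ Piv) n qv)
    [NeZero (wilesLevel p .flat Smin (Smin ∪ Piv ∪ Finset.univ.image qv))]
    (PQ : HeckePkg p 𝒪 ρbar .flat Smin (Smin ∪ Piv ∪ Finset.univ.image qv))
    (α : Fin r → 𝒪) (_hα : IsFrobLift ρbar qv α)
    (V : Submodule 𝒪 (XIA p Smin pv qv 𝒪)),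
    IsIAPart PQ α V →
      ∃ (h : ℕ) (a : PQ.T →ₐ[𝒪] Module.End 𝒪 V),
        IsHalf p pv h ∧ IsHalf p qv h ∧ IsIAAction PQ V h a

/-- **IA-FREE.**  `V` is free over `𝒪[Δ_Piv × Δ_Q]`.
(`MFree.free` at `κ = gKappa`; (Ell) holds because `5 ≤ p`.) -/
def IAFreeStatement : Prop :=
  ∀ (p : ℕ) [Fact p.Prime] (_hp5 : 5 ≤ p)
    (𝒪 : Type) [CommRing 𝒪] [IsDomain 𝒪] [IsDiscreteValuationRing 𝒪]
    [IsAdicComplete (maximalIdeal 𝒪) 𝒪] [Finite (ResidueField 𝒪)] [CharZero 𝒪]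
    (ρbar : ResidualGaloisRep (ResidueField 𝒪)) (Smin : Finset ℕ)
    (_h : ResidualHyp p 𝒪 ρbar Smin)
    (_hflat : (GaloisRepAdic.ofResidualGaloisRep ρbar).IsFlatAt p)
    (Piv : Finset ℕ) (_hPiv : IsPivotSet p ρbar Smin Piv)
    (k : ℕ) (pv : Fin k → ℕ) (_hpv : Function.Injective pv)
    (_hpvPiv : Finset.univ.image pv = Piv)
    (n r : ℕ) (qv : Fin r → ℕ) (_hq : IsTWSet p ρbar (Smin ∪ Piv) n qv)
    [NeZero (wilesLevel p .flat Smin (Smin ∪ Piv ∪ Finset.univ.image qv))]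
    (PQ : HeckePkg p 𝒪 ρbar .flat Smin (Smin ∪ Piv ∪ Finset.univ.image qv))
    (α : Fin r → 𝒪) (_hα : IsFrobLift ρbar qv α)
    (V : Submodule 𝒪 (XIA p Smin pv qv 𝒪)),
    IsIAPart PQ α V → ∃ d : ℕ, IAFreeAt V d

/-- **IA-CTRL.**  `V / I_Δ V ≅ V₀`, `Δ = Δ_Piv × Δ_Q`.
(`MFree.free`: `ker (cor | V) = I_Δ V` and `cor` is onto the localisation of
`X_{Γ₀(L ∏ qv)}(𝒪)`; TW-CTRL over the base level `L = ribetLevel`: the transfers `t₂` at the
Taylor–Wiles primes.) -/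
def IACtrlStatement : Prop :=
  ∀ (p : ℕ) [Fact p.Prime] (_hp5 : 5 ≤ p)
    (𝒪 : Type) [CommRing 𝒪] [IsDomain 𝒪] [IsDiscreteValuationRing 𝒪]
    [IsAdicComplete (maximalIdeal 𝒪) 𝒪] [Finite (ResidueField 𝒪)] [CharZero 𝒪]
    (ρbar : ResidualGaloisRep (ResidueField 𝒪)) (Smin : Finset ℕ)
    (_h : ResidualHyp p 𝒪 ρbar Smin)
    (_hflat : (GaloisRepAdic.ofResidualGaloisRep ρbar).IsFlatAt p)
    (Piv : Finset ℕ) (_hPiv : IsPivotSet p ρbar Smin Piv)
    [NeZero (ribetLevel p Smin Piv)]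
    (θ₀ : CuspForm.heckeAlgebra (ribetLevel p Smin Piv) 2 (↑(Smin ∪ Piv) : Set ℕ) →+*
      ResidueField 𝒪)
    (_hθ₀ : Fermat.Agent.S59.G4.ResFrobCond ρbar θ₀)
    (k : ℕ) (pv : Fin k → ℕ) (_hpv : Function.Injective pv)
    (_hpvPiv : Finset.univ.image pv = Piv)
    (n r : ℕ) (qv : Fin r → ℕ) (_hq : IsTWSet p ρbar (Smin ∪ Piv) n qv)
    [NeZero (wilesLevel p .flat Smin (Smin ∪ Piv ∪ Finset.univ.image qv))]
    (hp : LevelPair (ribetLevel p Smin Piv)
      (wilesLevel p .flat Smin (Smin ∪ Piv ∪ Finset.univ.image qv))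
      (↑(Smin ∪ Piv) : Set ℕ) (↑(Smin ∪ Piv ∪ Finset.univ.image qv) : Set ℕ))
    (PQ : HeckePkg p 𝒪 ρbar .flat Smin (Smin ∪ Piv ∪ Finset.univ.image qv))
    (_hθ : PQ.θ = θ₀.comp (oldRestrict hp))
    (α : Fin r → 𝒪) (_hα : IsFrobLift ρbar qv α)
    (V₀ : Submodule 𝒪 (Additive (Gamma0 (ribetLevel p Smin Piv)) →+ 𝒪))
    (V : Submodule 𝒪 (XIA p Smin pv qv 𝒪)),
    IsIAMinPart θ₀ V₀ → IsIAPart PQ α V → IACtrlAt V₀ V

/-- **IA-CMP.**  The comparison of the Galois and the diamond structure on `V` at the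
Taylor–Wiles primes.  (As CMP of the cell TW.) -/
def IACmpStatement : Prop :=
  ∀ (p : ℕ) [Fact p.Prime] (_hp5 : 5 ≤ p)
    (𝒪 : Type) [CommRing 𝒪] [IsDomain 𝒪] [IsDiscreteValuationRing 𝒪]
    [IsAdicComplete (maximalIdeal 𝒪) 𝒪] [Finite (ResidueField 𝒪)] [CharZero 𝒪]
    (ρbar : ResidualGaloisRep (ResidueField 𝒪)) (Smin : Finset ℕ)
    (_h : ResidualHyp p 𝒪 ρbar Smin)
    (_hflat : (GaloisRepAdic.ofResidualGaloisRep ρbar).IsFlatAt p)
    (Piv : Finset ℕ) (_hPiv : IsPivotSet p ρbar Smin Piv)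
    (k : ℕ) (pv : Fin k → ℕ) (_hpv : Function.Injective pv)
    (_hpvPiv : Finset.univ.image pv = Piv)
    (n r : ℕ) (qv : Fin r → ℕ) (_hq : IsTWSet p ρbar (Smin ∪ Piv) n qv)
    [NeZero (wilesLevel p .flat Smin (Smin ∪ Piv ∪ Finset.univ.image qv))]
    (PQ : HeckePkg p 𝒪 ρbar .flat Smin (Smin ∪ Piv ∪ Finset.univ.image qv))
    (α : Fin r → 𝒪) (_hα : IsFrobLift ρbar qv α)
    (V : Submodule 𝒪 (XIA p Smin pv qv 𝒪)) (h : ℕ) (a : PQ.T →ₐ[𝒪] Module.End 𝒪 V),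
    IsIAPart PQ α V → IsHalf p pv h → IsHalf p qv h → IsIAAction PQ V h a → IACmpAt PQ V a

/-- **IA-NU.**  The `χ`-part of `V` is supported on the points which are not unipotent on inertia
at the pivots.  (The eigen-systems of `V / chiRelIA χ V` are those of newforms with nebentypus
`χ^{±1} ψ`, `ψ` a character of `Δ_Q`; their twists to trivial character have level exactly
divisible by `q²`, `q ∈ Piv`, and `ρ|_{I_q} = χ_q^{1/2} ⊕ χ_q^{-1/2}` is not unipotent: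
frozen S36, or local-global compatibility for ramified principal series; the action of `T_Q` on
`V ⊗ K` is semisimple and `V / chiRelIA χ V` is `𝒪`-free.) -/
def IANuStatement : Prop :=
  ∀ (p : ℕ) [Fact p.Prime] (_hp5 : 5 ≤ p)
    (𝒪 : Type) [CommRing 𝒪] [IsDomain 𝒪] [IsDiscreteValuationRing 𝒪]
    [IsAdicComplete (maximalIdeal 𝒪) 𝒪] [Finite (ResidueField 𝒪)] [CharZero 𝒪]
    (ρbar : ResidualGaloisRep (ResidueField 𝒪)) (Smin : Finset ℕ)
    (_h : ResidualHyp p 𝒪 ρbar Smin)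
    (_hflat : (GaloisRepAdic.ofResidualGaloisRep ρbar).IsFlatAt p)
    (Piv : Finset ℕ) (_hPiv : IsPivotSet p ρbar Smin Piv)
    (k : ℕ) (pv : Fin k → ℕ) (_hpv : Function.Injective pv)
    (_hpvPiv : Finset.univ.image pv = Piv)
    (n r : ℕ) (qv : Fin r → ℕ) (_hq : IsTWSet p ρbar (Smin ∪ Piv) n qv)
    [NeZero (wilesLevel p .flat Smin (Smin ∪ Piv ∪ Finset.univ.image qv))]
    (PQ : HeckePkg p 𝒪 ρbar .flat Smin (Smin ∪ Piv ∪ Finset.univ.image qv))
    (α : Fin r → 𝒪) (_hα : IsFrobLift ρbar qv α)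
    (V : Submodule 𝒪 (XIA p Smin pv qv 𝒪)) (h : ℕ) (a : PQ.T →ₐ[𝒪] Module.End 𝒪 V),
    IsIAPart PQ α V → IsHalf p pv h → IsHalf p qv h → IsIAAction PQ V h a → IANuAt PQ V a

/-- **IA-ST.**  The Steinberg elements `tr ρ(Frob_q)² - (1+q)²`, `q ∈ Piv`, kill the
coinvariants `V / I_{Δ_Piv} V`.  (`V / I_{Δ_Piv} V` is the localisation at level
`Γ₀(L) ∩ Γ_H(Q)`; by (MIN), `MFree.free` and the control at the levels `L / q` [CTRL-MIN,
helper719] all its eigen-systems are new at every pivot `q`, hence Steinberg at `q`: S35 or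
ST-UQ [helper53]; the action of `T_Q` is semisimple.) -/
def IAStStatement : Prop :=
  ∀ (p : ℕ) [Fact p.Prime] (_hp5 : 5 ≤ p)
    (𝒪 : Type) [CommRing 𝒪] [IsDomain 𝒪] [IsDiscreteValuationRing 𝒪]
    [IsAdicComplete (maximalIdeal 𝒪) 𝒪] [Finite (ResidueField 𝒪)] [CharZero 𝒪]
    (ρbar : ResidualGaloisRep (ResidueField 𝒪)) (Smin : Finset ℕ)
    (_h : ResidualHyp p 𝒪 ρbar Smin)
    (_hflat : (GaloisRepAdic.ofResidualGaloisRep ρbar).IsFlatAt p)
    (Piv : Finset ℕ) (_hPiv : IsPivotSet p ρbar Smin Piv)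
    (_hmin : ∀ q ∈ Piv, ∀ S : Finset ℕ,
      ¬ ResModular 𝒪 ρbar (ribetLevel p Smin (Piv.erase q)) S)
    (k : ℕ) (pv : Fin k → ℕ) (_hpv : Function.Injective pv)
    (_hpvPiv : Finset.univ.image pv = Piv)
    (n r : ℕ) (qv : Fin r → ℕ) (_hq : IsTWSet p ρbar (Smin ∪ Piv) n qv)
    [NeZero (wilesLevel p .flat Smin (Smin ∪ Piv ∪ Finset.univ.image qv))]
    (PQ : HeckePkg p 𝒪 ρbar .flat Smin (Smin ∪ Piv ∪ Finset.univ.image qv))
    (α : Fin r → 𝒪) (_hα : IsFrobLift ρbar qv α)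
    (V : Submodule 𝒪 (XIA p Smin pv qv 𝒪)) (h : ℕ) (a : PQ.T →ₐ[𝒪] Module.End 𝒪 V),
    IsIAPart PQ α V → IsHalf p pv h → IsHalf p qv h → IsIAAction PQ V h a → IAStAt PQ V a

/-! ## Glue leaves (algebra, Mathlib only) -/

/-- **IA-RANK** (Mathlib only).  If `V` has an `𝒪`-basis `ρ(γ e) b_i` (`i < d'`, `e ∈ E`), where
`ρ` is an action of a group `D` by `𝒪`-linear maps and the `ρ(γ e)`, `e ∈ E`, are permuted by
every `ρ(a)`, `a ∈ D`, and contain the identity, and if `π : V → V₀` is onto with kernel the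
augmentation submodule, then the `π (b i)` form a basis of `V₀`; hence `d' = d` for every basis
of `V₀` indexed by `Fin d`. -/
def IARankStatement : Prop :=
  ∀ (𝒪 : Type) [CommRing 𝒪] [Nontrivial 𝒪]
    (V V₀ : Type) [AddCommGroup V] [Module 𝒪 V] [AddCommGroup V₀] [Module 𝒪 V₀]
    (D : Type) [Group D] (ρ : D →* Module.End 𝒪 V)
    (E : Type) [Fintype E] (γ : E → D)
    (_hperm : ∀ (a : D) (e : E), ∃ e' : E, ρ (a * γ e) = ρ (γ e'))
    (_hone : ∃ e₀ : E, ρ (γ e₀) = 1)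
    (d' : ℕ) (b : Fin d' → V)
    (_hb : ∀ y : V, ∃! c : Fin d' → E → 𝒪, y = ∑ i, ∑ e, c i e • ρ (γ e) (b i))
    (π : V →ₗ[𝒪] V₀) (_hsurj : Function.Surjective π)
    (_hker : ∀ y : V, π y = 0 ↔
      y ∈ AddSubgroup.closure {z : V | ∃ (a : D) (y' : V), z = ρ a y' - y'})
    (d : ℕ), Nonempty (Module.Basis (Fin d) 𝒪 V₀) → d' = d

/-- **IA-CHAR** (Mathlib only).  For primes `pv i ≡ 1` modulo `p` and a primitive
`p`-th root of unity `ζ` there is a character of `∏ (ℤ/pv i)ˣ` of order `p`, nontrivial at every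
`pv i`, congruent to `1` modulo `ζ - 1`. -/
def IACharStatement : Prop :=
  ∀ (p : ℕ) [Fact p.Prime] (𝒪 : Type) [CommRing 𝒪] [IsDomain 𝒪]
    (ζ : 𝒪) (_hζ : IsPrimitiveRoot ζ p)
    (k : ℕ) (pv : Fin k → ℕ) (_hprime : ∀ i, (pv i).Prime) (_hdvd : ∀ i, p ∣ pv i - 1),
    ∃ χ : (∀ i : Fin k, (ZMod (pv i))ˣ) →* 𝒪, IsPivChar p pv χ ∧
      ∀ a, ∃ c : 𝒪, χ a - 1 = (ζ - 1) * c

end Fermat.Agent.S38.IA.Hecke

end
-- ===== PACK-END S38/IA/Hecke/Spec3.lean

-- ===== PACK-BEGIN S38/IA/Gal/LocGenSpec.lean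
section






/-!
# Row 37 (pivot), Ihara avoidance, block IA-GAL, part LOC-GEN (helper1): FROZEN shapes

`p ≠ q` primes, `P` a valuation subring of `ℚ̄` over `q`, `D_P`, `I_P` its decomposition and
inertia groups (Prelude `decompositionSubgroup`, `inertiaSubgroupIn`).

A *tame pair* `(φ, σ)` at `P` is a Frobenius element `φ` at `P` together with an element `σ` of
`I_P` which moves the `p`-th roots of `q` (`IsTamePair`).  The structure is intrinsic: it does not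
mention any representation.  The consequences used by the deformation theory are stated as
`Prop`s below and proved in `Fermat/Agent/S38/IA/Gal/H1/LocGen.lean`:

* `LocGenExists`  : tame pairs exist at every `P | q`;
* `LocGenRel`     : `f (φ σ φ⁻¹) = f σ ^ q`;
* `LocGenInertia` : `f(I_P)` is generated by `f σ`;
* `LocGenDecomp`  : every element of `f(D_P)` is `f φ ^ n * f σ ^ j`;
* `LocGenAgree`   : two homomorphisms agreeing at `φ` and `σ` agree on `D_P`;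
* `LocGenCocycle` : an ad-cocycle of a residual representation unramified at `P`
  vanishing at `φ` and `σ` vanishes on `D_P`;

all for homomorphisms `f` of finite level (`S56.H794.FiniteLevel`) whose restriction to `I_P` has
`p`-power exponent (`PPowOnInertia`).  Nothing unproved in this file.
-/

set_option autoImplicit false

namespace Fermat.Agent.S38.IA.Gal

open Fermat.Agent.S56

/-- `(φ, σ)` is a tame pair at `P | q` for the prime `p`: `φ` is a Frobenius element at `P`,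
`σ` lies in the inertia group of `P` and moves every `p`-th root of `q`. -/
structure IsTamePair (p q : ℕ) (P : ValuationSubring Qb) (φ σ : GQ) : Prop where
  frob : P.IsFrobeniusAt φ q
  mem : σ ∈ P.inertiaSubgroupIn ℚ
  moves : ∀ c : Qb, c ^ p = (q : Qb) → σ c ≠ c

/-- Every element of `f(I_P)` has `p`-power order. -/
def PPowOnInertia (p : ℕ) (P : ValuationSubring Qb) {G : Type*} [Group G] (f : GQ →* G) : Prop :=
  ∀ τ ∈ P.inertiaSubgroupIn ℚ, ∃ m : ℕ, f τ ^ p ^ m = 1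

/-- Tame pairs exist. -/
def LocGenExists : Prop :=
  ∀ (p q : ℕ), p.Prime → q.Prime → p ≠ q → ∀ P : ValuationSubring Qb, P.LiesOverPrime q →
    ∃ φ σ : GQ, IsTamePair p q P φ σ

/-- The tame relation `f (φ σ φ⁻¹) = f σ ^ q`. -/
def LocGenRel.{u} : Prop :=
  ∀ (p q : ℕ), p.Prime → q.Prime → p ≠ q → ∀ P : ValuationSubring Qb, P.LiesOverPrime q →
    ∀ φ σ : GQ, IsTamePair p q P φ σ →
    ∀ (G : Type u) [Group G] (f : GQ →* G), H794.FiniteLevel f → PPowOnInertia p P f →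
      f (φ * σ * φ⁻¹) = f σ ^ q

/-- `f σ` generates `f(I_P)`. -/
def LocGenInertia.{u} : Prop :=
  ∀ (p q : ℕ), p.Prime → q.Prime → p ≠ q → ∀ P : ValuationSubring Qb, P.LiesOverPrime q →
    ∀ φ σ : GQ, IsTamePair p q P φ σ →
    ∀ (G : Type u) [Group G] (f : GQ →* G), H794.FiniteLevel f → PPowOnInertia p P f →
      ∀ τ ∈ P.inertiaSubgroupIn ℚ, ∃ j : ℕ, f τ = f σ ^ j

/-- `f φ` and `f σ` generate `f(D_P)`, in the precise form `f τ = f φ ^ n * f σ ^ j`. -/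
def LocGenDecomp.{u} : Prop :=
  ∀ (p q : ℕ), p.Prime → q.Prime → p ≠ q → ∀ P : ValuationSubring Qb, P.LiesOverPrime q →
    ∀ φ σ : GQ, IsTamePair p q P φ σ →
    ∀ (G : Type u) [Group G] (f : GQ →* G), H794.FiniteLevel f → PPowOnInertia p P f →
      ∀ τ ∈ P.decompositionSubgroup ℚ, ∃ n j : ℕ, f τ = f φ ^ n * f σ ^ j

/-- Two homomorphisms agreeing at `φ` and `σ` agree on `D_P`. -/
def LocGenAgree.{u} : Prop :=
  ∀ (p q : ℕ), p.Prime → q.Prime → p ≠ q → ∀ P : ValuationSubring Qb, P.LiesOverPrime q →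
    ∀ φ σ : GQ, IsTamePair p q P φ σ →
    ∀ (G : Type u) [Group G] (f g : GQ →* G), H794.FiniteLevel f → PPowOnInertia p P f →
      H794.FiniteLevel g → PPowOnInertia p P g → f φ = g φ → f σ = g σ →
      ∀ τ ∈ P.decompositionSubgroup ℚ, f τ = g τ

/-- **Cocycle form.**  `ρ̄` unramified at `P`, `p = 0` in `k`: an ad-cocycle vanishing at `φ` and
`σ` vanishes on `D_P`. -/
def LocGenCocycle : Prop :=
  ∀ (p q : ℕ), p.Prime → q.Prime → p ≠ q → ∀ P : ValuationSubring Qb, P.LiesOverPrime q →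
    ∀ φ σ : GQ, IsTamePair p q P φ σ →
    ∀ (k : Type) [Field k] (ρbar : ResidualGaloisRep k), (p : k) = 0 →
      (∀ τ ∈ P.inertiaSubgroupIn ℚ, ρbar.ρ τ = 1) →
      ∀ c : GQ → Module.End k ρbar.V, H716.IsAdCocycle ρbar c → c φ = 0 → c σ = 0 →
        ∀ τ ∈ P.decompositionSubgroup ℚ, c τ = 0

end Fermat.Agent.S38.IA.Gal

end
-- ===== PACK-END S38/IA/Gal/LocGenSpec.lean

-- ===== PACK-BEGIN S38/IA/Gal/IAGalSpec.lean
section




/-!
# Row HARD (row 37), cell GAL: the frozen output `IAGalStatement`  (integrator helper1)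

Board `coord/HARD.md` v3, §3.1.  Vocabulary of row S59 (`ResidualHyp`, `sigmaCond`, `IsTWSet`) and
of the trunk (`IsPivotSet`).  Only sorry-free definitions in this file.

`Piv` = the pivots (`IsPivotSet`: primes `q ∉ Smin`, `q ≡ 1 mod p`, Frobenius scalar on `ρ̄`),
`k = #Piv`.  The Galois side provides

* a number `r ≥ 3k`, places `Pl q | q`, tame pairs `(φ_q, σ_q)` at `Pl q` and lifts `a_q ∈ 𝒪` of
  the scalars `ρ̄(φ_q)` (`q ∈ Piv`) — all independent of `n`;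
* for every `n` a Taylor–Wiles set `qv : Fin r → ℕ` of level `n` relative to `Smin ∪ Piv`;
* for every universal deformation ring `DQ.R` of type `sigmaCond 𝒪 p t Smin (Smin ∪ Piv ∪ Q_n)`
  (NO condition at `Piv ∪ Q_n`) a matrix form `F.rR` of the universal deformation and a
  SURJECTION of `𝒪`-algebras

      `γ : 𝒪⟦v_{q,0..2}, w_{q,0..2} (q ∈ Piv), x₁, …, x_g⟧ ↠ DQ.R`,      `g = r − 3k`,

  sending `v_{q,•}`, `w_{q,•}` to the TRACELESS coordinates of `Σ_q = F.rR (σ_q)`,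
  `Φ_q = F.rR (φ_q)`  (`M = (tr M / 2)·1 + [[x₀, x₁], [x₂, −x₀]]`), together with the relations
  `det Σ_q = 1`, `det Φ_q = q`, `Φ_q Σ_q = Σ_q^q Φ_q`, `Σ_q ≡ 1`, `Φ_q ≡ a_q` modulo `𝔪`, and
* (UNIP) for every local homomorphism `y : DQ.R → A` (`A` Noetherian local): if `tr y(Σ_q) = 2`
  then the push-forward of the universal deformation along `y` is unipotent on inertia at `q`
  (so: NOT unipotent at `q` ⟹ `tr y(Σ_q) ≠ 2`, the hypothesis of TYPE, board §3.4).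

No frames are needed because `ρ̄` is scalar on the decomposition groups at the pivots.
-/

set_option autoImplicit false

open IsLocalRing

namespace Fermat.Agent.S38.IA.Gal

open Fermat.Agent.S56 Fermat.Agent.S38.H953
open Fermat.Agent.S59.Arch (ResidualHyp sigmaCond PType)
open Fermat.Agent.S59.TW.H959 (IsTWSet)

/-- The index set of the variables of the ambient ring: `(q, 0..2) ↦ v_{q,•}` (traceless
coordinates of `Σ_q`), `(q, 3..5) ↦ w_{q,•}` (traceless coordinates of `Φ_q`), `q ∈ Piv`, and `g`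
free variables. -/
abbrev IAVar (Piv : Finset ℕ) (g : ℕ) : Type := (↥Piv × Fin 6) ⊕ Fin g

/-- The ambient ring `P = 𝒪⟦v, w, x⟧` of board §3. -/
abbrev IARing (𝒪 : Type) [CommRing 𝒪] (Piv : Finset ℕ) (g : ℕ) : Type :=
  MvPowerSeries (IAVar Piv g) 𝒪

/-- `(x₀, x₁, x₂)` are the **traceless coordinates** of the `2 × 2` matrix `M`:
`M - (tr M / 2) • 1 = [[x₀, x₁], [x₂, -x₀]]`. -/
def IsTraceless {R : Type} [CommRing R] (M : Matrix (Fin 2) (Fin 2) R) (x₀ x₁ x₂ : R) : Prop :=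
  2 * x₀ = M 0 0 - M 1 1 ∧ x₁ = M 0 1 ∧ x₂ = M 1 0

section

variable {𝒪 : Type} [CommRing 𝒪] [IsDomain 𝒪] [IsDiscreteValuationRing 𝒪]
  [IsAdicComplete (maximalIdeal 𝒪) 𝒪]
  {ρbar : ResidualGaloisRep (ResidueField 𝒪)} {𝒟 : DefCond 𝒪}

/-- **What the Galois side provides at one pivot `q`** (`Sg = F.rR σ`, `Ph = F.rR φ` the universal
matrices at a tame pair `(φ, σ)` over `q`; `v`, `w` the images of the variables). -/
structure IsPivotPres (q : ℕ) (a : 𝒪) (DQ : GaloisRep.DeformationRingData 𝒪 ρbar 𝒟)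
    (F : UFrame DQ) (φ σ : _root_.Fermat.Agent.S56.GQ) (v₀ v₁ v₂ w₀ w₁ w₂ : DQ.R) : Prop where
  /-- `v` = traceless coordinates of `Σ` -/
  sig_traceless : IsTraceless (F.rR σ) v₀ v₁ v₂
  /-- `w` = traceless coordinates of `Φ` -/
  phi_traceless : IsTraceless (F.rR φ) w₀ w₁ w₂
  /-- `det Σ = 1` -/
  det_sig : (F.rR σ).det = 1
  /-- `det Φ = q` -/
  det_phi : (F.rR φ).det = (q : DQ.R)
  /-- the tame relation `Φ Σ = Σ^q Φ` -/
  rel : F.rR φ * F.rR σ = F.rR σ ^ q * F.rR φ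
  /-- `Σ ≡ 1` -/
  sig_res : ∀ i j, (F.rR σ - 1) i j ∈ maximalIdeal DQ.R
  /-- `Φ ≡ a` -/
  phi_res : ∀ i j, (F.rR φ - algebraMap 𝒪 DQ.R a • (1 : Matrix (Fin 2) (Fin 2) DQ.R)) i j ∈
    maximalIdeal DQ.R
  /-- (UNIP) `tr y(Σ) = 2 ⟹` the push-forward along `y` is unipotent on inertia at `q` -/
  unip : ∀ (A : Type) [CommRing A] [IsLocalRing A] [IsNoetherianRing A]
    (y : DQ.R →+* A) (hy : IsLocalHom y),
    ((F.rR σ).map y).trace = 2 → (DQ.ρ.baseChangeAlong y hy).IsUnipotentOnInertiaAt q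

end

/-- **LEAF GAL of row HARD** (board v3, §3.1): the relative, unframed presentation of the
universal deformation rings at Taylor–Wiles level over the pivot coordinates. -/
def IAGalStatement : Prop :=
  ∀ (p : ℕ) [Fact p.Prime]
    (𝒪 : Type) [CommRing 𝒪] [IsDomain 𝒪] [IsDiscreteValuationRing 𝒪]
    [IsAdicComplete (maximalIdeal 𝒪) 𝒪] [Finite (ResidueField 𝒪)]
    (ρbar : ResidualGaloisRep (ResidueField 𝒪)) (Smin : Finset ℕ)
    (_h : ResidualHyp p 𝒪 ρbar Smin) (t : PType) (_ht : t = .flat ∨ t = .sord)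
    (Piv : Finset ℕ) (_hPiv : IsPivotSet p ρbar Smin Piv),
    ∃ (r : ℕ) (Pl : ℕ → ValuationSubring _root_.Fermat.Agent.S56.Qb) (φ σ : ℕ → _root_.Fermat.Agent.S56.GQ) (a : ℕ → 𝒪),
      3 * Piv.card ≤ r ∧
      (∀ q ∈ Piv, (Pl q).LiesOverPrime q ∧ IsTamePair p q (Pl q) (φ q) (σ q) ∧
        ρbar.ρ (φ q) = residue 𝒪 (a q) • (1 : Module.End (ResidueField 𝒪) ρbar.V)) ∧
      ∀ n : ℕ, ∃ qv : Fin r → ℕ, IsTWSet p ρbar (Smin ∪ Piv) n qv ∧
        ∀ DQ : GaloisRep.DeformationRingData 𝒪 ρbar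
            (sigmaCond 𝒪 p t Smin (Smin ∪ Piv ∪ Finset.univ.image qv)),
          ∃ (F : UFrame DQ) (γ : IARing 𝒪 Piv (r - 3 * Piv.card) →ₐ[𝒪] DQ.R),
            Function.Surjective γ ∧
            ∀ q : ↥Piv, IsPivotPres (q : ℕ) (a q) DQ F (φ q) (σ q)
              (γ (MvPowerSeries.X (Sum.inl (q, 0)))) (γ (MvPowerSeries.X (Sum.inl (q, 1))))
              (γ (MvPowerSeries.X (Sum.inl (q, 2)))) (γ (MvPowerSeries.X (Sum.inl (q, 3))))
              (γ (MvPowerSeries.X (Sum.inl (q, 4)))) (γ (MvPowerSeries.X (Sum.inl (q, 5))))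

end Fermat.Agent.S38.IA.Gal

end
-- ===== PACK-END S38/IA/Gal/IAGalSpec.lean

-- ===== PACK-BEGIN S38/IA/Gal/H1/MatAlg.lean
section


/-!
# IA-GAL (helper1): `2 × 2` matrix algebra used by the integrator (Mathlib only)

* `m2_diag_sub_mem` : if `M₀₀ - M₁₁`, `M₀₁` and `det M - c²` lie in an ideal `I`, `2` is invertible
  and `tr M + 2c` is a unit, then `M₀₀ - c`, `M₁₁ - c ∈ I`  (the trace is a function of the
  traceless coordinates and of the determinant);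
* `m2_sq_zero_of_unip` : `tr S = 2`, `det S = 1 ⟹ (S - 1)² = 0` (Cayley–Hamilton);
* `m2_one_add_pow` : `N² = 0 ⟹ (1 + N)^j = 1 + j • N`;
* `m2_charpoly_eq_of_forall_congr` : over a Noetherian local ring, if `M` is congruent to a power of
  `S` modulo every power of the maximal ideal and `tr S = 2`, `det S = 1`, then
  `charpoly M = (X - 1)²`.
-/

set_option autoImplicit false

namespace Fermat.Agent.S38.IA.Gal

open Polynomial IsLocalRing

section Diag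

variable {R : Type*} [CommRing R]

theorem m2_diag_sub_mem (I : Ideal R) (M : Matrix (Fin 2) (Fin 2) R) (c h : R) (h2 : 2 * h = 1)
    (hd : M 0 0 - M 1 1 ∈ I) (ho : M 0 1 ∈ I) (hdet : M.det - c ^ 2 ∈ I)
    (hu : IsUnit (M 0 0 + M 1 1 + 2 * c)) : M 0 0 - c ∈ I ∧ M 1 1 - c ∈ I := by
  have hkey : (M 0 0 + M 1 1 - 2 * c) * (M 0 0 + M 1 1 + 2 * c) =
      (M 0 0 - M 1 1) * (M 0 0 - M 1 1) + 4 * M 1 0 * M 0 1 + 4 * (M.det - c ^ 2) := by
    rw [Matrix.det_fin_two]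
    ring
  have h1 : (M 0 0 + M 1 1 - 2 * c) * (M 0 0 + M 1 1 + 2 * c) ∈ I := by
    rw [hkey]
    exact I.add_mem (I.add_mem (I.mul_mem_left _ hd) (I.mul_mem_left _ ho))
      (I.mul_mem_left _ hdet)
  have h3 : M 0 0 + M 1 1 - 2 * c ∈ I := (Ideal.mul_unit_mem_iff_mem I hu).mp h1
  constructor
  · have e : M 0 0 - c = h * ((M 0 0 + M 1 1 - 2 * c) + (M 0 0 - M 1 1)) := by
      linear_combination (c - M 0 0) * h2
    rw [e]
    exact I.mul_mem_left _ (I.add_mem h3 hd)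
  · have e : M 1 1 - c = h * ((M 0 0 + M 1 1 - 2 * c) - (M 0 0 - M 1 1)) := by
      linear_combination (c - M 1 1) * h2
    rw [e]
    exact I.mul_mem_left _ (I.sub_mem h3 hd)

end Diag

section Unip

variable {A : Type*} [CommRing A]

theorem m2_sq_zero_of_unip (S : Matrix (Fin 2) (Fin 2) A) (htr : S.trace = 2)
    (hdet : S.det = 1) : (S - 1) * (S - 1) = 0 := by
  rw [Matrix.trace_fin_two] at htr
  rw [Matrix.det_fin_two] at hdet
  ext i j
  fin_cases i <;> fin_cases j <;>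
    simp only [Matrix.mul_apply, Fin.sum_univ_two, Matrix.sub_apply, Matrix.one_apply_eq,
      Matrix.zero_apply, Fin.zero_eta, Fin.mk_one, Fin.isValue, ne_eq, zero_ne_one, one_ne_zero,
      not_false_eq_true, Matrix.one_apply_ne, sub_zero]
  · linear_combination (S 0 0) * htr - hdet
  · linear_combination (S 0 1) * htr
  · linear_combination (S 1 0) * htr
  · linear_combination (S 1 1) * htr - hdet

theorem m2_one_add_pow (N : Matrix (Fin 2) (Fin 2) A) (hN : N * N = 0) (j : ℕ) :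
    (1 + N) ^ j = 1 + j • N := by
  induction j with
  | zero => simp
  | succ j ih =>
    rw [pow_succ, ih, add_mul, mul_add, mul_add, one_mul, mul_one, one_mul, smul_mul_assoc, hN,
      smul_zero, add_zero, succ_nsmul]
    abel

theorem m2_trace_pow_of_unip (S : Matrix (Fin 2) (Fin 2) A) (htr : S.trace = 2) (hdet : S.det = 1)
    (j : ℕ) : (S ^ j).trace = 2 := by
  have hN := m2_sq_zero_of_unip S htr hdet
  have hS : S = 1 + (S - 1) := by abel
  have htrN : (S - 1).trace = 0 := by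
    rw [Matrix.trace_sub, htr, Matrix.trace_one]
    simp
  rw [hS, m2_one_add_pow _ hN, Matrix.trace_add, Matrix.trace_smul, htrN, smul_zero,
    add_zero, Matrix.trace_one]
  simp

theorem m2_det_pow_of_unip (S : Matrix (Fin 2) (Fin 2) A) (hdet : S.det = 1) (j : ℕ) :
    (S ^ j).det = 1 := by
  rw [Matrix.det_pow, hdet, one_pow]

/-- Congruent matrices have congruent traces and determinants. -/
theorem m2_trace_sub_mem (I : Ideal A) (M M' : Matrix (Fin 2) (Fin 2) A)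
    (h : ∀ i k, (M - M') i k ∈ I) : M.trace - M'.trace ∈ I := by
  rw [Matrix.trace_fin_two, Matrix.trace_fin_two]
  have h0 := h 0 0
  have h1 := h 1 1
  rw [Matrix.sub_apply] at h0 h1
  have e : M 0 0 + M 1 1 - (M' 0 0 + M' 1 1) = (M 0 0 - M' 0 0) + (M 1 1 - M' 1 1) := by ring
  rw [e]
  exact I.add_mem h0 h1

theorem m2_det_sub_mem (I : Ideal A) (M M' : Matrix (Fin 2) (Fin 2) A)
    (h : ∀ i k, (M - M') i k ∈ I) : M.det - M'.det ∈ I := by
  rw [Matrix.det_fin_two, Matrix.det_fin_two]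
  have h00 := h 0 0
  have h01 := h 0 1
  have h10 := h 1 0
  have h11 := h 1 1
  rw [Matrix.sub_apply] at h00 h01 h10 h11
  have e : M 0 0 * M 1 1 - M 0 1 * M 1 0 - (M' 0 0 * M' 1 1 - M' 0 1 * M' 1 0) =
      M 1 1 * (M 0 0 - M' 0 0) + M' 0 0 * (M 1 1 - M' 1 1) - M 1 0 * (M 0 1 - M' 0 1) -
        M' 0 1 * (M 1 0 - M' 1 0) := by ring
  rw [e]
  exact I.sub_mem (I.sub_mem (I.add_mem (I.mul_mem_left _ h00) (I.mul_mem_left _ h11))
    (I.mul_mem_left _ h01)) (I.mul_mem_left _ h10)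

end Unip

section Krull

variable {A : Type} [CommRing A] [IsLocalRing A] [IsNoetherianRing A]

theorem krull_eq_of_forall_sub_mem {x y : A} (h : ∀ n : ℕ, x - y ∈ maximalIdeal A ^ n) : x = y := by
  have h1 : x - y ∈ ⨅ n : ℕ, maximalIdeal A ^ n := by
    rw [Ideal.mem_iInf]
    exact h
  rw [Ideal.iInf_pow_eq_bot_of_isLocalRing (maximalIdeal A) (Ideal.IsPrime.ne_top inferInstance),
    Ideal.mem_bot] at h1
  exact sub_eq_zero.mp h1

/-- If `M` is congruent to a power of `S` modulo every power of the maximal ideal and `S` is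
unipotent (`tr S = 2`, `det S = 1`), then `M` is unipotent. -/
theorem m2_charpoly_eq_of_forall_congr (M S : Matrix (Fin 2) (Fin 2) A) (htr : S.trace = 2)
    (hdet : S.det = 1)
    (h : ∀ n : ℕ, ∃ j : ℕ, ∀ i k, (M - S ^ j) i k ∈ maximalIdeal A ^ n) :
    M.charpoly = (X - 1) ^ 2 := by
  have h1 : M.trace = 2 := by
    apply krull_eq_of_forall_sub_mem
    intro n
    obtain ⟨j, hj⟩ := h n
    have := m2_trace_sub_mem _ M (S ^ j) hj
    rwa [m2_trace_pow_of_unip S htr hdet] at this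
  have h2 : M.det = 1 := by
    apply krull_eq_of_forall_sub_mem
    intro n
    obtain ⟨j, hj⟩ := h n
    have := m2_det_sub_mem _ M (S ^ j) hj
    rwa [m2_det_pow_of_unip S hdet] at this
  rw [Matrix.charpoly_fin_two, h1, h2]
  simp only [map_ofNat, map_one]
  ring

end Krull

end Fermat.Agent.S38.IA.Gal

end
-- ===== PACK-END S38/IA/Gal/H1/MatAlg.lean

-- ===== PACK-BEGIN S38/IA/Gal/H1/SixVar.lean
section




/-!
# IA-GAL (helper1): from the `8` matrix entries to the `6` traceless coordinates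

`R` a complete local `𝒪`-algebra with the residue field of `𝒪`, `2 ∈ 𝒪ˣ`.  For every `j ∈ J` let
`Sg j`, `Ph j ∈ M₂(R)` with `Sg j ≡ 1`, `Ph j ≡ a_j` modulo `𝔪_R`, `det (Sg j) = 1`,
`det (Ph j) ≡ a_j²` modulo `𝔪_𝒪 R`, `a_j ∈ 𝒪ˣ`.  If `𝔪_R` is generated by `𝔪_𝒪`, the entries of
`Sg j - 1`, `Ph j - a_j` and elements `y₁, …, y_g`, then it is generated by `𝔪_𝒪`, the TRACELESS
coordinates of `Sg j`, `Ph j` and the `y_i` (the traces are functions of the traceless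
coordinates and of the determinants); hence

    `𝒪⟦v_{j,0..2}, w_{j,0..2}, x₁..x_g⟧ ↠ R`.
-/

set_option autoImplicit false
set_option linter.unusedSectionVars false
set_option linter.style.haveILetI false

namespace Fermat.Agent.S38.IA.Gal

noncomputable section

open IsLocalRing Fermat.Agent.S53.H596

variable {𝒪 : Type} [CommRing 𝒪] [IsLocalRing 𝒪] [IsNoetherianRing 𝒪]
  [IsAdicComplete (maximalIdeal 𝒪) 𝒪]
  {R : Type} [CommRing R] [IsLocalRing R] [IsAdicComplete (maximalIdeal R) R] [Algebra 𝒪 R]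

/-- The traceless coordinates of the matrices `Sg j`, `Ph j` (`h = 1/2`). -/
def tlCoord {J : Type} (h : R) (Sg Ph : J → Matrix (Fin 2) (Fin 2) R) : J × Fin 6 → R :=
  fun z => ![h * (Sg z.1 0 0 - Sg z.1 1 1), Sg z.1 0 1, Sg z.1 1 0,
    h * (Ph z.1 0 0 - Ph z.1 1 1), Ph z.1 0 1, Ph z.1 1 0] z.2

/-- The entries of `Sg j - 1` (`b = true`) and of `Ph j - a_j` (`b = false`). -/
def entCoord {J : Type} (Sg Ph : J → Matrix (Fin 2) (Fin 2) R) (a : J → 𝒪) :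
    J × Bool × Fin 2 × Fin 2 → R :=
  fun z => if z.2.1 then (Sg z.1 - 1) z.2.2.1 z.2.2.2
    else (Ph z.1 - algebraMap 𝒪 R (a z.1) • (1 : Matrix (Fin 2) (Fin 2) R)) z.2.2.1 z.2.2.2

theorem isUnit_add_of_mem_maximalIdeal {u x : R} (hu : IsUnit u) (hx : x ∈ maximalIdeal R) :
    IsUnit (u + x) := by
  by_contra hcon
  have h1 : u + x ∈ maximalIdeal R := (mem_maximalIdeal _).2 hcon
  have h2 : u ∈ maximalIdeal R := by
    have := Ideal.sub_mem _ h1 hx
    rwa [add_sub_cancel_right] at this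
  exact (mem_maximalIdeal _).1 h2 hu

theorem tlCoord_mem {J : Type} (h : R) (Sg Ph : J → Matrix (Fin 2) (Fin 2) R) (a : J → 𝒪)
    (hSg : ∀ j i k, (Sg j - 1) i k ∈ maximalIdeal R)
    (hPh : ∀ j i k, (Ph j - algebraMap 𝒪 R (a j) • (1 : Matrix (Fin 2) (Fin 2) R)) i k ∈
      maximalIdeal R) (z : J × Fin 6) : tlCoord h Sg Ph z ∈ maximalIdeal R := by
  obtain ⟨j, i⟩ := z
  have s00 := hSg j 0 0
  have s11 := hSg j 1 1
  have s01 := hSg j 0 1
  have s10 := hSg j 1 0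
  have p00 := hPh j 0 0
  have p11 := hPh j 1 1
  have p01 := hPh j 0 1
  have p10 := hPh j 1 0
  simp only [Matrix.sub_apply, Matrix.smul_apply, Matrix.one_apply_eq, smul_eq_mul, mul_one,
    ne_eq, zero_ne_one, one_ne_zero, not_false_eq_true, Matrix.one_apply_ne, mul_zero,
    sub_zero] at s00 s11 s01 s10 p00 p11 p01 p10
  have eS : Sg j 0 0 - Sg j 1 1 = (Sg j 0 0 - 1) - (Sg j 1 1 - 1) := by ring
  have eP : Ph j 0 0 - Ph j 1 1 =
      (Ph j 0 0 - algebraMap 𝒪 R (a j)) - (Ph j 1 1 - algebraMap 𝒪 R (a j)) := by ring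
  fin_cases i
  · show h * (Sg j 0 0 - Sg j 1 1) ∈ _
    rw [eS]
    exact Ideal.mul_mem_left _ _ (Ideal.sub_mem _ s00 s11)
  · exact s01
  · exact s10
  · show h * (Ph j 0 0 - Ph j 1 1) ∈ _
    rw [eP]
    exact Ideal.mul_mem_left _ _ (Ideal.sub_mem _ p00 p11)
  · exact p01
  · exact p10

/-- **From the entries to the traceless coordinates.** -/
theorem exists_surjective_traceless [IsLocalHom (algebraMap 𝒪 R)] {J : Type} [Finite J] {g : ℕ}
    (hres : Function.Surjective (residue R ∘ algebraMap 𝒪 R))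
    (h : 𝒪) (h2 : 2 * h = 1)
    (Sg Ph : J → Matrix (Fin 2) (Fin 2) R) (a : J → 𝒪) (y : Fin g → R)
    (hSg : ∀ j i k, (Sg j - 1) i k ∈ maximalIdeal R)
    (hPh : ∀ j i k, (Ph j - algebraMap 𝒪 R (a j) • (1 : Matrix (Fin 2) (Fin 2) R)) i k ∈
      maximalIdeal R)
    (hy : ∀ i, y i ∈ maximalIdeal R)
    (hdetS : ∀ j, (Sg j).det = 1)
    (hdetP : ∀ j, (Ph j).det - algebraMap 𝒪 R (a j) ^ 2 ∈
      Ideal.map (algebraMap 𝒪 R) (maximalIdeal 𝒪))
    (ha : ∀ j, IsUnit (a j))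
    (hgen : maximalIdeal R ≤ Ideal.map (algebraMap 𝒪 R) (maximalIdeal 𝒪) ⊔
      Ideal.span (Set.range (Sum.elim (entCoord Sg Ph a) y))) :
    ∃ γ : MvPowerSeries ((J × Fin 6) ⊕ Fin g) 𝒪 →ₐ[𝒪] R, Function.Surjective γ ∧
      (∀ j, IsTraceless (Sg j) (γ (MvPowerSeries.X (Sum.inl (j, 0))))
        (γ (MvPowerSeries.X (Sum.inl (j, 1)))) (γ (MvPowerSeries.X (Sum.inl (j, 2))))) ∧
      (∀ j, IsTraceless (Ph j) (γ (MvPowerSeries.X (Sum.inl (j, 3))))
        (γ (MvPowerSeries.X (Sum.inl (j, 4)))) (γ (MvPowerSeries.X (Sum.inl (j, 5))))) ∧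
      ∀ i, γ (MvPowerSeries.X (Sum.inr i)) = y i := by
  classical
  set h' : R := algebraMap 𝒪 R h with hh'
  have h2' : (2 : R) * h' = 1 := by
    have := congrArg (algebraMap 𝒪 R) h2
    rwa [map_mul, map_ofNat, map_one] at this
  have hu2 : IsUnit (2 : R) := IsUnit.of_mul_eq_one _ h2'
  have hu4 : IsUnit (4 : R) := by
    have e : (4 : R) = 2 * 2 := by norm_num
    rw [e]
    exact hu2.mul hu2
  let x : (J × Fin 6) ⊕ Fin g → R := Sum.elim (tlCoord h' Sg Ph) y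
  have hx : ∀ i, x i ∈ maximalIdeal R := by
    rintro (z | i)
    · exact tlCoord_mem h' Sg Ph a hSg hPh z
    · exact hy i
  let γ : MvPowerSeries ((J × Fin 6) ⊕ Fin g) 𝒪 →ₐ[𝒪] R :=
    evalCNL (R := 𝒪) (maximalIdeal R) x hx
  have hγX : ∀ i, γ (MvPowerSeries.X i) = x i := fun i => evalCNL_X _ _ _ i
  -- the ideal generated by the new coordinates
  set I : Ideal R := Ideal.map (algebraMap 𝒪 R) (maximalIdeal 𝒪) ⊔ Ideal.span (Set.range x)
    with hI
  have hxI : ∀ i, x i ∈ I := fun i => Ideal.mem_sup_right (Ideal.subset_span ⟨i, rfl⟩)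
  have hIle : I ≤ maximalIdeal R := by
    refine sup_le ?_ ?_
    · rw [Ideal.map_le_iff_le_comap]
      intro c hc
      exact Ideal.mem_comap.mpr (map_nonunit (algebraMap 𝒪 R) c hc)
    · rw [Ideal.span_le]
      rintro _ ⟨i, rfl⟩
      exact hx i
  -- the traceless coordinates in terms of the entries
  have hv0 : ∀ j, (2 : R) * x (Sum.inl (j, 0)) = Sg j 0 0 - Sg j 1 1 := by
    intro j
    show (2 : R) * (h' * (Sg j 0 0 - Sg j 1 1)) = _
    rw [← mul_assoc, h2', one_mul]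
  have hw0 : ∀ j, (2 : R) * x (Sum.inl (j, 3)) = Ph j 0 0 - Ph j 1 1 := by
    intro j
    show (2 : R) * (h' * (Ph j 0 0 - Ph j 1 1)) = _
    rw [← mul_assoc, h2', one_mul]
  have hv1 : ∀ j, x (Sum.inl (j, 1)) = Sg j 0 1 := fun j => rfl
  have hv2 : ∀ j, x (Sum.inl (j, 2)) = Sg j 1 0 := fun j => rfl
  have hw1 : ∀ j, x (Sum.inl (j, 4)) = Ph j 0 1 := fun j => rfl
  have hw2 : ∀ j, x (Sum.inl (j, 5)) = Ph j 1 0 := fun j => rfl
  -- the diagonal entries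
  have hSd : ∀ j, Sg j 0 0 - 1 ∈ I ∧ Sg j 1 1 - 1 ∈ I := by
    intro j
    refine m2_diag_sub_mem I (Sg j) 1 h' h2' ?_ ?_ ?_ ?_
    · rw [← hv0 j]; exact I.mul_mem_left _ (hxI _)
    · rw [← hv1 j]; exact hxI _
    · rw [hdetS j]; simp
    · have s00 := hSg j 0 0
      have s11 := hSg j 1 1
      simp only [Matrix.sub_apply, Matrix.one_apply_eq] at s00 s11
      have e : Sg j 0 0 + Sg j 1 1 + 2 * 1 = 4 + ((Sg j 0 0 - 1) + (Sg j 1 1 - 1)) := by ring
      rw [e]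
      exact isUnit_add_of_mem_maximalIdeal hu4 (Ideal.add_mem _ s00 s11)
  have hPd : ∀ j, Ph j 0 0 - algebraMap 𝒪 R (a j) ∈ I ∧ Ph j 1 1 - algebraMap 𝒪 R (a j) ∈ I := by
    intro j
    refine m2_diag_sub_mem I (Ph j) (algebraMap 𝒪 R (a j)) h' h2' ?_ ?_ ?_ ?_
    · rw [← hw0 j]; exact I.mul_mem_left _ (hxI _)
    · rw [← hw1 j]; exact hxI _
    · exact Ideal.mem_sup_left (hdetP j)
    · have p00 := hPh j 0 0
      have p11 := hPh j 1 1
      simp only [Matrix.sub_apply, Matrix.smul_apply, Matrix.one_apply_eq, smul_eq_mul,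
        mul_one] at p00 p11
      have e : Ph j 0 0 + Ph j 1 1 + 2 * algebraMap 𝒪 R (a j) =
          4 * algebraMap 𝒪 R (a j) + ((Ph j 0 0 - algebraMap 𝒪 R (a j)) +
            (Ph j 1 1 - algebraMap 𝒪 R (a j))) := by ring
      rw [e]
      exact isUnit_add_of_mem_maximalIdeal (hu4.mul ((ha j).map (algebraMap 𝒪 R)))
        (Ideal.add_mem _ p00 p11)
  -- all the entries lie in `I`
  have hent : ∀ z, entCoord Sg Ph a z ∈ I := by
    rintro ⟨j, b, i, k⟩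
    cases b
    · show (Ph j - algebraMap 𝒪 R (a j) • (1 : Matrix (Fin 2) (Fin 2) R)) i k ∈ I
      fin_cases i <;> fin_cases k <;>
        simp only [Matrix.sub_apply, Matrix.smul_apply, Matrix.one_apply_eq, smul_eq_mul,
          mul_one, ne_eq, zero_ne_one, one_ne_zero, not_false_eq_true, Matrix.one_apply_ne,
          mul_zero, sub_zero, Fin.zero_eta, Fin.mk_one, Fin.isValue]
      · exact (hPd j).1
      · rw [← hw1 j]; exact hxI _
      · rw [← hw2 j]; exact hxI _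
      · exact (hPd j).2
    · show (Sg j - 1) i k ∈ I
      fin_cases i <;> fin_cases k <;>
        simp only [Matrix.sub_apply, Matrix.one_apply_eq, ne_eq, zero_ne_one, one_ne_zero,
          not_false_eq_true, Matrix.one_apply_ne, sub_zero, Fin.zero_eta, Fin.mk_one,
          Fin.isValue]
      · exact (hSd j).1
      · rw [← hv1 j]; exact hxI _
      · rw [← hv2 j]; exact hxI _
      · exact (hSd j).2
  have hmI : maximalIdeal R ≤ I := by
    refine hgen.trans (sup_le le_sup_left ?_)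
    rw [Ideal.span_le]
    rintro _ ⟨z | i, rfl⟩
    · exact hent z
    · exact hxI (Sum.inr i)
  have hgen' : Ideal.map (algebraMap 𝒪 R) (maximalIdeal 𝒪) ⊔
      Ideal.span (Set.range fun i => γ (MvPowerSeries.X i)) = maximalIdeal R := by
    have hfun : (fun i => γ (MvPowerSeries.X i)) = x := funext hγX
    rw [hfun]
    exact le_antisymm hIle hmI
  refine ⟨γ, surjective_of_map_maximalIdeal γ hres hgen', fun j => ?_, fun j => ?_, fun i => ?_⟩
  · exact ⟨by rw [hγX, hv0], by rw [hγX, hv1], by rw [hγX, hv2]⟩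
  · exact ⟨by rw [hγX, hw0], by rw [hγX, hw1], by rw [hγX, hw2]⟩
  · rw [hγX]; rfl

end

end Fermat.Agent.S38.IA.Gal

end
-- ===== PACK-END S38/IA/Gal/H1/SixVar.lean

-- ===== PACK-BEGIN Ribet/H723/TopPiv.lean
section




/-!
# Row HARD (row 37, hard case), cell TOP, leaf PIV: the Frey → `ρ̄` dictionary  (helper723)

`ρ̄ := S59.Arch.curveResidual p W hcard hker ι`, `W = P.freyCurveInt` (the semistable integral
model of the Frey curve, `Ribet/H104/FreyModelAtP.lean`), `p = P.p`, `ι : 𝔽_p → k`.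

* `frobScalar_rho` : if `σ` acts on `E[p]` (`Spec.FreyTorsion P`) through the integer `c`, then
  `ρ̄(σ) = ι(c) • 1`;
* `isPivotSet_frey` : `S38.IA.IsPivotSet` from the hypotheses of
  `H723.HardMinScalarStatement` (`p ∣ q - 1` and `FrobScalarAt P q` for the odd primes of `L`);
* `isUnramifiedAt_frey` : `P.GaloisRepUnramifiedAt q → ρ̄.IsUnramifiedAt q` (so that frozen S05
  gives `Ram(ρ̄) ⊆ {2, p}`), and conversely `galoisRepUnramifiedAt_of_frey` (so that leaf RAM2,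
  `¬ P.GaloisRepUnramifiedAt 2`, gives `2 ∈ Ram(ρ̄)`); `isUnramifiedAt_frey_iff`;
* `modRepIsIrreducible_frey` : irreducibility of `E[p]` in the language of row S59.

Definitions of the Prelude and logic only.
-/

set_option autoImplicit false
set_option linter.style.haveILetI false

open WeierstrassCurve WeierstrassCurve.Affine WeierstrassCurve.Affine.Point
open scoped WeierstrassCurve.Affine TensorProduct

namespace Fermat.Agent.Ribet.H723.Top

open Fermat.Agent.Ribet Fermat.Agent.Ribet.Spec Fermat.Agent.S59.Arch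

/-! ### Transport along `P.freyCurve = P.freyCurveInt.map _` -/

/-- A statement about the Galois action on `E[n]` can be transported along an equality of
curves. -/
theorem torsion_transport {E E' : WeierstrassCurve ℚ} (h : E = E') (n : ℕ)
    (C : ∀ E₀ : WeierstrassCurve ℚ,
      ((AlgebraicClosure ℚ ≃ₐ[ℚ] AlgebraicClosure ℚ) → Submodule.torsionBy ℤ (E₀⁄(AlgebraicClosure ℚ)).Point n →
        Submodule.torsionBy ℤ (E₀⁄(AlgebraicClosure ℚ)).Point n) → Prop)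
    (hC : C E fun σ x => σ • x) : C E' fun σ x => σ • x := by
  subst h
  exact hC

/-- Scalar action, transported. -/
theorem scalar_transport {E E' : WeierstrassCurve ℚ} (h : E = E') (n : ℕ) (σ : AlgebraicClosure ℚ ≃ₐ[ℚ] AlgebraicClosure ℚ) (c : ℤ)
    (hc : ∀ x : Submodule.torsionBy ℤ (E⁄(AlgebraicClosure ℚ)).Point n, σ • x = c • x) :
    ∀ x : Submodule.torsionBy ℤ (E'⁄(AlgebraicClosure ℚ)).Point n, σ • x = c • x := by
  subst h
  exact hc

/-- Trivial action, transported. -/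
theorem fixed_transport {E E' : WeierstrassCurve ℚ} (h : E = E') (n : ℕ) (σ : AlgebraicClosure ℚ ≃ₐ[ℚ] AlgebraicClosure ℚ)
    (hc : ∀ x : Submodule.torsionBy ℤ (E⁄(AlgebraicClosure ℚ)).Point n, σ • x = x) :
    ∀ x : Submodule.torsionBy ℤ (E'⁄(AlgebraicClosure ℚ)).Point n, σ • x = x := by
  subst h
  exact hc

/-- Irreducibility, transported. -/
theorem irreducible_transport {E E' : WeierstrassCurve ℚ} (h : E = E') (n : ℕ)
    (hirr : GaloisRepIsIrreducible (K := AlgebraicClosure ℚ) ℚ E n) :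
    GaloisRepIsIrreducible (K := AlgebraicClosure ℚ) ℚ E' n := by
  subst h
  exact hirr

/-- Irreducibility of `E[p]` in the language of row S59. -/
theorem modRepIsIrreducible_frey (P : FreyPackage)
    (hirr : GaloisRepIsIrreducible (K := AlgebraicClosure ℚ) ℚ P.freyCurve P.p) :
    P.freyCurveInt.ModRepIsIrreducible P.p :=
  irreducible_transport (H104.freyCurve_eq_map P) P.p hirr

/-- ... and back. -/
theorem galoisRepIsIrreducible_frey (P : FreyPackage)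
    (hirr : P.freyCurveInt.ModRepIsIrreducible P.p) :
    GaloisRepIsIrreducible (K := AlgebraicClosure ℚ) ℚ P.freyCurve P.p :=
  irreducible_transport (H104.freyCurve_eq_map P).symm P.p hirr

/-! ### The residual representation of a curve and scalars -/

/-- Scalars stay scalars under base change. -/
theorem baseChange_rho_of_scalar {k k' : Type} [Field k] [Field k'] [Algebra k k']
    (ρ : ResidualGaloisRep k) (σ : AlgebraicClosure ℚ ≃ₐ[ℚ] AlgebraicClosure ℚ) (c : k)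
    (h : ρ.ρ σ = c • (1 : Module.End k ρ.V)) :
    (ρ.baseChange k').ρ σ = (algebraMap k k' c) • (1 : Module.End k' (ρ.baseChange k').V) := by
  show (ρ.ρ σ).baseChange k' = _
  rw [h, LinearMap.baseChange_smul, LinearMap.baseChange_one, algebraMap_smul]

/-- Scalars stay scalars under base change along a ring homomorphism. -/
theorem baseChangeAlong_rho_of_scalar {k k' : Type} [Field k] [Field k'] (ι : k →+* k')
    (ρ : ResidualGaloisRep k) (σ : AlgebraicClosure ℚ ≃ₐ[ℚ] AlgebraicClosure ℚ) (c : k)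
    (h : ρ.ρ σ = c • (1 : Module.End k ρ.V)) :
    (ρ.baseChangeAlong ι).ρ σ = (ι c) • (1 : Module.End k' (ρ.baseChangeAlong ι).V) := by
  letI : Algebra k k' := ι.toAlgebra
  exact baseChange_rho_of_scalar ρ σ c h

/-- A residual representation is trivial at `σ` as soon as a base change of it is. -/
theorem rho_eq_one_of_baseChangeAlong {k k' : Type} [Field k] [Field k'] (ι : k →+* k')
    (ρ : ResidualGaloisRep k) (σ : AlgebraicClosure ℚ ≃ₐ[ℚ] AlgebraicClosure ℚ)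
    (h : (ρ.baseChangeAlong ι).ρ σ = 1) : ρ.ρ σ = 1 := by
  letI : Algebra k k' := ι.toAlgebra
  have h1 : (ρ.ρ σ).baseChange k' = 1 := h
  refine LinearMap.ext fun v => ?_
  have hinj : Function.Injective (fun v : ρ.V => (1 : k') ⊗ₜ[k] v) :=
    Module.FaithfullyFlat.tensorProduct_mk_injective (A := k) (B := k') ρ.V
  apply hinj
  have := congrArg (fun g : Module.End k' (k' ⊗[k] ρ.V) => g ((1 : k') ⊗ₜ[k] v)) h1
  simpa [LinearMap.baseChange_tmul] using this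

section Residual

variable (p : ℕ) [Fact p.Prime] (W : WeierstrassCurve ℤ)
  (hcard : Nat.card (Submodule.torsionBy ℤ
    ((W.map (Int.castRingHom ℚ))⁄(AlgebraicClosure ℚ)).Point p) = p ^ 2)
  (hker : GaloisFactorsThroughFiniteLevel
    (WeierstrassCurve.Affine.Point.galoisRepModuleEnd (K := AlgebraicClosure ℚ) ℚ
      (W.map (Int.castRingHom ℚ)) p))
  {k : Type} [Field k] (ι : ZMod p →+* k)

/-- If `σ` acts on `E[p]` through the integer `c`, then `ρ̄₀(σ) = c • 1` on `E[p]`. -/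
theorem rho_residualGaloisRepOf_of_scalar (σ : AlgebraicClosure ℚ ≃ₐ[ℚ] AlgebraicClosure ℚ) (c : ℤ)
    (hc : ∀ x : Submodule.torsionBy ℤ
      ((W.map (Int.castRingHom ℚ))⁄(AlgebraicClosure ℚ)).Point p, σ • x = c • x) :
    ((W.map (Int.castRingHom ℚ)).residualGaloisRepOf p hcard hker).ρ σ
      = ((c : ZMod p)) • (1 : Module.End (ZMod p)
          ((W.map (Int.castRingHom ℚ)).residualGaloisRepOf p hcard hker).V) := by
  apply LinearMap.ext
  intro x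
  let y : Submodule.torsionBy ℤ
    ((W.map (Int.castRingHom ℚ))⁄(AlgebraicClosure ℚ)).Point p := x
  show σ • y = (c : ZMod p) • y
  rw [hc y, Int.cast_smul_eq_zsmul]

/-- If `σ` acts on `E[p]` through the integer `c`, then `ρ̄(σ) = ι(c) • 1`. -/
theorem frobScalar_rho (σ : AlgebraicClosure ℚ ≃ₐ[ℚ] AlgebraicClosure ℚ) (c : ℤ)
    (hc : ∀ x : Submodule.torsionBy ℤ
      ((W.map (Int.castRingHom ℚ))⁄(AlgebraicClosure ℚ)).Point p, σ • x = c • x) :
    (curveResidual p W hcard hker ι).ρ σ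
      = (ι (c : ZMod p)) • (1 : Module.End k (curveResidual p W hcard hker ι).V) :=
  baseChangeAlong_rho_of_scalar ι _ σ _ (rho_residualGaloisRepOf_of_scalar p W hcard hker σ c hc)

/-- If `σ` acts trivially on `E[p]`, then `ρ̄(σ) = 1`. -/
theorem rho_eq_one_of_fixed (σ : AlgebraicClosure ℚ ≃ₐ[ℚ] AlgebraicClosure ℚ)
    (hc : ∀ x : Submodule.torsionBy ℤ
      ((W.map (Int.castRingHom ℚ))⁄(AlgebraicClosure ℚ)).Point p, σ • x = x) :
    (curveResidual p W hcard hker ι).ρ σ = 1 := by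
  have h := frobScalar_rho p W hcard hker ι σ 1 (fun x => by rw [hc x, one_smul])
  rw [h, Int.cast_one, map_one, one_smul]

/-- `E[p]` unramified at `q` implies `ρ̄` unramified at `q`. -/
theorem isUnramifiedAt_curveResidual (q : ℕ)
    (h : WeierstrassCurve.Affine.Point.GaloisRepUnramifiedAt (K := AlgebraicClosure ℚ) ℚ
      (W.map (Int.castRingHom ℚ)) p q) :
    (curveResidual p W hcard hker ι).IsUnramifiedAt q :=
  fun A hA σ hσ => rho_eq_one_of_fixed p W hcard hker ι σ (h A hA σ hσ)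

/-- `ρ̄` unramified at `q` implies `E[p]` unramified at `q`. -/
theorem galoisRepUnramifiedAt_of_curveResidual (q : ℕ)
    (h : (curveResidual p W hcard hker ι).IsUnramifiedAt q) :
    WeierstrassCurve.Affine.Point.GaloisRepUnramifiedAt (K := AlgebraicClosure ℚ) ℚ
      (W.map (Int.castRingHom ℚ)) p q := by
  intro A hA σ hσ x
  have h1 : ((W.map (Int.castRingHom ℚ)).residualGaloisRepOf p hcard hker).ρ σ = 1 :=
    rho_eq_one_of_baseChangeAlong ι _ σ (h A hA σ hσ)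
  have h2 := congrArg (fun g : Module.End (ZMod p)
    ((W.map (Int.castRingHom ℚ)).residualGaloisRepOf p hcard hker).V => g x) h1
  exact h2

end Residual

/-! ### The Frey curve -/

section Frey

variable (P : FreyPackage) [Fact P.p.Prime]
  (hcard : Nat.card (Submodule.torsionBy ℤ
    ((P.freyCurveInt.map (Int.castRingHom ℚ))⁄(AlgebraicClosure ℚ)).Point P.p) = P.p ^ 2)
  (hker : GaloisFactorsThroughFiniteLevel
    (WeierstrassCurve.Affine.Point.galoisRepModuleEnd (K := AlgebraicClosure ℚ) ℚ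
      (P.freyCurveInt.map (Int.castRingHom ℚ)) P.p))
  {k : Type} [Field k] (ι : ZMod P.p →+* k)

/-- Frozen-S05 language to row-S59 language: unramified primes. -/
theorem isUnramifiedAt_frey (q : ℕ) (h : P.GaloisRepUnramifiedAt q) :
    (curveResidual P.p P.freyCurveInt hcard hker ι).IsUnramifiedAt q := by
  apply isUnramifiedAt_curveResidual
  intro A hA σ hσ
  exact fixed_transport (H104.freyCurve_eq_map P) P.p σ (h A hA σ hσ)

/-- Row-S59 language to frozen-S05 language: unramified primes. -/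
theorem galoisRepUnramifiedAt_of_frey (q : ℕ)
    (h : (curveResidual P.p P.freyCurveInt hcard hker ι).IsUnramifiedAt q) :
    P.GaloisRepUnramifiedAt q := by
  intro A hA σ hσ
  exact fixed_transport (H104.freyCurve_eq_map P).symm P.p σ
    (galoisRepUnramifiedAt_of_curveResidual P.p P.freyCurveInt hcard hker ι q h A hA σ hσ)

/-- `ρ̄` is unramified at `q` iff `E[p]` is. -/
theorem isUnramifiedAt_frey_iff (q : ℕ) :
    (curveResidual P.p P.freyCurveInt hcard hker ι).IsUnramifiedAt q ↔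
      P.GaloisRepUnramifiedAt q :=
  ⟨galoisRepUnramifiedAt_of_frey P hcard hker ι q, isUnramifiedAt_frey P hcard hker ι q⟩

/-- Scalar Frobenius elements, in the language of row HARD. -/
theorem frobScalar_frey (q : ℕ) (h : FrobScalarAt P q)
    (A : ValuationSubring (AlgebraicClosure ℚ)) (hA : A.LiesOverPrime q)
    (φ : AlgebraicClosure ℚ ≃ₐ[ℚ] AlgebraicClosure ℚ) (hφ : A.IsFrobeniusAt φ q) :
    ∃ c : k, (curveResidual P.p P.freyCurveInt hcard hker ι).ρ φ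
      = c • (1 : Module.End k (curveResidual P.p P.freyCurveInt hcard hker ι).V) := by
  obtain ⟨c, hc⟩ := h A hA φ hφ
  exact ⟨ι (c : ZMod P.p), frobScalar_rho P.p P.freyCurveInt hcard hker ι φ c
    (scalar_transport (H104.freyCurve_eq_map P) P.p φ c hc)⟩

/-- **PIV.**  The pivot set of row HARD from the hypotheses of `HardMinScalarStatement`. -/
theorem isPivotSet_frey (Smin Piv : Finset ℕ)
    (hprime : ∀ q ∈ Piv, q.Prime) (hdisj : ∀ q ∈ Piv, q ∉ Smin)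
    (hscal : ∀ q ∈ Piv, P.p ∣ q - 1 ∧ FrobScalarAt P q) :
    Fermat.Agent.S38.IA.IsPivotSet P.p (curveResidual P.p P.freyCurveInt hcard hker ι)
      Smin Piv := by
  intro q hq
  exact ⟨hprime q hq, hdisj q hq, (hscal q hq).1,
    fun A hA φ hφ => frobScalar_frey P hcard hker ι q (hscal q hq).2 A hA φ hφ⟩

/-- The pivot set `Piv = {odd primes of L}` of a level `L` as in `HardMinScalarStatement`. -/
theorem isPivotSet_frey_level {L : ℕ} (Smin : Finset ℕ)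
    (hSmin : ∀ q ∈ Smin, q = 2 ∨ q = P.p) (hpL : ¬ P.p ∣ L)
    (hscal : ∀ r : ℕ, r.Prime → r ≠ 2 → r ∣ L → P.p ∣ r - 1 ∧ FrobScalarAt P r) :
    Fermat.Agent.S38.IA.IsPivotSet P.p (curveResidual P.p P.freyCurveInt hcard hker ι)
      Smin (L.primeFactors.erase 2) := by
  apply isPivotSet_frey
  · intro q hq
    exact Nat.prime_of_mem_primeFactors (Finset.mem_of_mem_erase hq)
  · intro q hq hqS
    have hq2 : q ≠ 2 := Finset.ne_of_mem_erase hq
    have hqL : q ∣ L := Nat.dvd_of_mem_primeFactors (Finset.mem_of_mem_erase hq)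
    rcases hSmin q hqS with h | h
    · exact hq2 h
    · exact hpL (h ▸ hqL)
  · intro q hq
    exact hscal q (Nat.prime_of_mem_primeFactors (Finset.mem_of_mem_erase hq))
      (Finset.ne_of_mem_erase hq) (Nat.dvd_of_mem_primeFactors (Finset.mem_of_mem_erase hq))

end Frey

end Fermat.Agent.Ribet.H723.Top

end
-- ===== PACK-END Ribet/H723/TopPiv.lean

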