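import Mathlib
import Fermat.Agent.Pack.S43GC.G0E12L3
import Fermat.Agent.Pack.S43MC.G0E14L2
import Fermat.Agent.Pack.S44C.G0E21L3
import Fermat.Agent.Pack.S43GC.G0E22L3
import Fermat.Agent.Pack.S43GC.G0E22L1
import Fermat.Agent.Pack.S43GC.G0E22L0
import Fermat.Agent.Pack.S43GC.G0E23L0
import Fermat.Agent.Pack.S44C.G0E30L1
import Fermat.Agent.Pack.S44C.G0E30L3
import Fermat.Agent.Pack.S44C.G0E31L0
import Fermat.Agent.Pack.Fast891

-- ===== PACK-BEGIN S38/IA/H474/TypePsi.lean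
section
/-
Row 37 HARD (Ihara avoidance, single-sided route) — GAL leaf "(NU) ⇒ type ψ", algebra.
helper474 (2nd independent owner).  Mathlib only.  All proofs complete.

`Σ, Φ` 2×2 matrices over a domain `V`, `det Σ = 1`, `Φ Σ = Σ^q Φ`, `det Φ ≠ 0`, `Σ ≡ 1` modulo a
proper ideal `m ∋ p`, `p` an odd prime, `q - 1 = p^K · n'` with `p ∤ n'`, `K ≥ 1`, and `ζ ∈ V` a
primitive `p^K`-th root of unity.  Then `tr Σ = ζ^j + ζ^(p^K - j)` for some `j ≤ p^K`
(`trace_eq_of_conj`), the characteristic polynomial of `Σ` is `(X - ζ^j)(X - ζ^(-j))`, and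
`ζ^j ≠ 1` unless `tr Σ = 2` (`Σ` unipotent).
-/


set_option autoImplicit false
set_option linter.style.haveILetI false
set_option linter.unusedSectionVars false

namespace Fermat.Agent.S38.IA.H474

open Matrix Polynomial

section Recurrence

variable {R : Type*} [CommRing R]

/-- Cayley–Hamilton for a 2×2 matrix of determinant one: `M² = (tr M) M - 1`. -/
theorem sq_eq_of_det_eq_one (M : Matrix (Fin 2) (Fin 2) R) (hdet : M.det = 1) :
    M ^ 2 = M.trace • M - 1 := by
  rw [Matrix.det_fin_two] at hdet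
  ext i j
  fin_cases i <;> fin_cases j <;>
    simp [pow_two, Matrix.mul_apply, Fin.sum_univ_two, Matrix.trace_fin_two] <;>
    first | linear_combination hdet | linear_combination -hdet | ring

/-- `tr (M^n) = s^n + s'^n` when `s + s' = tr M`, `s s' = 1 = det M`. -/
theorem trace_pow_eq (M : Matrix (Fin 2) (Fin 2) R) (hdet : M.det = 1) (s s' : R)
    (hsum : s + s' = M.trace) (hprod : s * s' = 1) (n : ℕ) :
    (M ^ n).trace = s ^ n + s' ^ n := by
  have hsq := sq_eq_of_det_eq_one M hdet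
  have key : ∀ n : ℕ, (M ^ n).trace = s ^ n + s' ^ n ∧
      (M ^ (n + 1)).trace = s ^ (n + 1) + s' ^ (n + 1) := by
    intro n
    induction n with
    | zero =>
      refine ⟨?_, ?_⟩
      · rw [pow_zero, pow_zero, pow_zero, Matrix.trace_one]
        simp
        norm_num
      · rw [zero_add, pow_one, pow_one, pow_one, hsum]
    | succ n ih =>
      refine ⟨ih.2, ?_⟩
      have h1 : M ^ (n + 1 + 1) = M.trace • M ^ (n + 1) - M ^ n := by
        rw [pow_succ' M (n + 1), pow_succ' M n, ← mul_assoc, ← pow_two, hsq, Matrix.sub_mul,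
          Matrix.smul_mul, one_mul, ← pow_succ' M n]
      rw [h1, Matrix.trace_sub, Matrix.trace_smul, ih.1, ih.2, smul_eq_mul, ← hsum]
      have e1 : s ^ (n + 1 + 1) = s * s ^ (n + 1) := pow_succ' s (n + 1)
      have e2 : s' ^ (n + 1 + 1) = s' * s' ^ (n + 1) := pow_succ' s' (n + 1)
      have e3 : s ^ (n + 1) = s * s ^ n := pow_succ' s n
      have e4 : s' ^ (n + 1) = s' * s' ^ n := pow_succ' s' n
      rw [e1, e2]
      have e5 : s * s' * s' ^ n = s' ^ n := by rw [hprod, one_mul]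
      have e6 : s' * s * s ^ n = s ^ n := by rw [mul_comm s' s, hprod, one_mul]
      calc (s + s') * (s ^ (n + 1) + s' ^ (n + 1)) - (s ^ n + s' ^ n)
          = s * s ^ (n + 1) + s' * s' ^ (n + 1) + (s * s' * s' ^ n - s' ^ n)
            + (s' * s * s ^ n - s ^ n) := by rw [e3, e4]; ring
        _ = s * s ^ (n + 1) + s' * s' ^ (n + 1) := by rw [e5, e6]; ring
  exact (key n).1

/-- Conjugate matrices (by a matrix of non-zero-divisor determinant) have the same trace. -/
theorem trace_eq_of_mul_eq_mul {M N Φ : Matrix (Fin 2) (Fin 2) R}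
    (hΦ : Φ.det ∈ nonZeroDivisors R) (h : Φ * M = N * Φ) : N.trace = M.trace := by
  have h1 : (Φ * M * Φ.adjugate).trace = Φ.det * M.trace := by
    rw [Matrix.trace_mul_comm, ← mul_assoc, Matrix.adjugate_mul, Matrix.smul_mul, one_mul,
      Matrix.trace_smul, smul_eq_mul]
  have h2 : (N * Φ * Φ.adjugate).trace = Φ.det * N.trace := by
    rw [mul_assoc, Matrix.mul_adjugate, Matrix.mul_smul, mul_one, Matrix.trace_smul, smul_eq_mul]
  rw [h, h2] at h1
  exact ((mul_cancel_left_mem_nonZeroDivisors hΦ).mp h1).symm ▸ rfl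

end Recurrence

section Factor

variable {R : Type*} [CommRing R]

theorem key_factor (s s' x y : R) (hprod : s * s' = 1) (h1 : s + s' = x + y)
    (e3 : y * x = 1) : (x * s' - 1) * (x * s - 1) = 0 := by
  linear_combination (x ^ 2) * hprod - x * h1 - e3

end Factor

section Order

variable {B : Type*} [CommRing B] [IsDomain B]

/-- In a domain, a root of unity `s` of order dividing `p^a n'` (`p ∤ n'`) which is `≡ 1` modulo
a prime ideal containing `p` satisfies `s^(p^a) = 1`. -/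
theorem pow_prime_pow_eq_one {p a n' : ℕ} (hp : p.Prime) (hn' : ¬ p ∣ n') (m' : Ideal B)
    [m'.IsPrime] (hpm : (p : B) ∈ m') {s : B} (hs1 : s - 1 ∈ m')
    (hs : s ^ (p ^ a * n') = 1) : s ^ (p ^ a) = 1 := by
  set u := s ^ (p ^ a) with hu_def
  have hu : u ^ n' = 1 := by rw [hu_def, ← pow_mul]; exact hs
  have hgeom : (∑ i ∈ Finset.range n', u ^ i) * (u - 1) = 0 := by
    rw [geom_sum_mul, hu, sub_self]
  rcases mul_eq_zero.mp hgeom with h | h
  · exfalso
    have hf1 : Ideal.Quotient.mk m' s = 1 := by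
      have := Ideal.Quotient.eq.mpr hs1
      simpa using this
    have hfu : Ideal.Quotient.mk m' u = 1 := by rw [hu_def, map_pow, hf1, one_pow]
    have hn0 : ((n' : ℕ) : B ⧸ m') = 0 := by
      have h2 := congrArg (Ideal.Quotient.mk m') h
      rw [map_sum, map_zero] at h2
      simp only [map_pow, hfu, one_pow, Finset.sum_const, Finset.card_range, nsmul_eq_mul,
        mul_one] at h2
      exact h2
    have hp0 : ((p : ℕ) : B ⧸ m') = 0 := by
      have := Ideal.Quotient.eq_zero_iff_mem.mpr hpm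
      simpa using this
    have hcop : Nat.Coprime n' p := (Nat.Coprime.symm ((Nat.Prime.coprime_iff_not_dvd hp).mpr hn'))
    obtain ⟨x, y, hxy⟩ := (Nat.isCoprime_iff_coprime.mpr hcop)
    have h3 := congrArg (fun z : ℤ => (z : B ⧸ m')) hxy
    simp only [Int.cast_add, Int.cast_mul, Int.cast_natCast, Int.cast_one, hn0, hp0, mul_zero,
      add_zero] at h3
    exact zero_ne_one h3
  · exact sub_eq_zero.mp h

end Order

section Main

variable {V : Type*} [CommRing V] [IsDomain V]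

/-- **(NU) ⇒ type ψ, trace form.**  `Σ, Φ` over a domain `V`, `det Σ = 1`, `Φ Σ = Σ^q Φ`,
`det Φ ≠ 0`, `Σ ≡ 1` modulo a proper ideal `m ∋ p`, `p` odd, `q = p^K n' + 1` with `p ∤ n'`,
`ζ` a primitive `p^K`-th root of unity in `V`.  Then `tr Σ = ζ^j + ζ^(p^K - j)` for some
`j < p^K`. -/
theorem trace_eq_of_conj {p q K n' : ℕ} (hp : p.Prime) (hp2 : p ≠ 2) (hK : 0 < K)
    (hq : q = p ^ K * n' + 1) (hn' : ¬ p ∣ n')
    (m : Ideal V) (hm : m ≠ ⊤) (hpm : (p : V) ∈ m)
    (Sg Φ : Matrix (Fin 2) (Fin 2) V) (hdet : Sg.det = 1) (hΦ : Φ.det ≠ 0)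
    (hconj : Φ * Sg = Sg ^ q * Φ) (hSg : ∀ i j, (Sg - 1) i j ∈ m)
    (ζ : V) (hζ : IsPrimitiveRoot ζ (p ^ K)) :
    ∃ j : ℕ, j < p ^ K ∧ Sg.trace = ζ ^ j + ζ ^ (p ^ K - j) := by
  classical
  set t := Sg.trace with ht
  -- `t ≡ 2 mod m`
  have ht2 : t - 2 ∈ m := by
    have h0 := hSg 0 0
    have h1 := hSg 1 1
    have e : t - 2 = (Sg - 1) 0 0 + (Sg - 1) 1 1 := by
      rw [ht, Matrix.trace_fin_two]
      simp [Matrix.sub_apply]
      ring
    rw [e]
    exact m.add_mem h0 h1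
  -- trace of the `q`-th power
  have htq : (Sg ^ q).trace = t :=
    trace_eq_of_mul_eq_mul (mem_nonZeroDivisors_of_ne_zero hΦ) hconj
  -- the algebraic closure
  let Ω := AlgebraicClosure (FractionRing V)
  let ι : V →+* Ω := algebraMap V Ω
  have hι : Function.Injective ι := by
    have h1 : Function.Injective (algebraMap V (FractionRing V)) := IsFractionRing.injective _ _
    have h2 : Function.Injective (algebraMap (FractionRing V) Ω) := RingHom.injective _
    have : (ι : V → Ω) = (algebraMap (FractionRing V) Ω) ∘ (algebraMap V (FractionRing V)) := by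
      funext x
      exact IsScalarTower.algebraMap_apply V (FractionRing V) Ω x
    rw [this]
    exact h2.comp h1
  -- a root `s` of `X² - tX + 1`
  obtain ⟨s, hs⟩ : ∃ s : Ω, s ^ 2 - ι t * s + 1 = 0 := by
    have hdeg : (C (1 : Ω) * X ^ 2 + C (- ι t) * X + C 1 : Polynomial Ω).degree ≠ 0 := by
      rw [Polynomial.degree_quadratic one_ne_zero]
      norm_num
    obtain ⟨s, hs⟩ := IsAlgClosed.exists_root _ hdeg
    refine ⟨s, ?_⟩
    rw [IsRoot.def] at hs
    simp only [eval_add, eval_mul, eval_C, eval_pow, eval_X] at hs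
    linear_combination hs
  obtain ⟨s', hs'⟩ : ∃ s' : Ω, s' = ι t - s := ⟨_, rfl⟩
  have hsum : s + s' = ι t := by rw [hs']; ring
  have hprod : s * s' = 1 := by rw [hs']; linear_combination -hs
  -- traces of powers over `Ω`
  have hdetΩ : (Sg.map ι).det = 1 := by
    rw [← RingHom.mapMatrix_apply, ← RingHom.map_det, hdet, map_one]
  have htrΩ : (Sg.map ι).trace = ι t := by
    rw [Matrix.trace_fin_two, ht, Matrix.trace_fin_two]
    simp
  have htrpow : ∀ n : ℕ, ι ((Sg ^ n).trace) = s ^ n + s' ^ n := by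
    intro n
    have h1 := trace_pow_eq (Sg.map ι) hdetΩ s s' (hsum.trans htrΩ.symm) hprod n
    rw [← h1]
    have h2 : (Sg.map ι) ^ n = (Sg ^ n).map ι := by
      rw [← RingHom.mapMatrix_apply, ← map_pow, RingHom.mapMatrix_apply]
    rw [h2, Matrix.trace_fin_two, Matrix.trace_fin_two]
    simp
  have hq1 : 1 ≤ q := by rw [hq]; exact Nat.le_add_left 1 _
  -- the key equation
  have hkey : (s ^ (q - 1) - 1) * (s ^ (q + 1) - 1) = 0 := by
    have h1 := htrpow q
    rw [htq, ← hsum] at h1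
    have e1 : s ^ (q + 1) = s ^ q * s := pow_succ s q
    have e2 : s ^ q = s ^ (q - 1) * s := by
      rw [← pow_succ, Nat.sub_add_cancel hq1]
    have e3 : s' ^ q * s ^ q = 1 := by rw [← mul_pow, mul_comm, hprod, one_pow]
    have e4 : s ^ (q - 1) = s ^ q * s' := by
      rw [e2, mul_assoc, hprod, mul_one]
    rw [e4, e1]
    exact key_factor s s' (s ^ q) (s' ^ q) hprod h1 e3
  -- the integral closure of `V` in `Ω`
  have hsint : IsIntegral V s := by
    refine ⟨X ^ 2 - C t * X + 1, ?_, ?_⟩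
    · have h1 : (X ^ 2 - C t * X + 1 : Polynomial V) = X ^ 2 + (C (-t) * X + C 1) := by
        rw [map_neg, map_one]; ring
      rw [h1]
      refine Polynomial.monic_X_pow_add ?_
      refine lt_of_le_of_lt (Polynomial.degree_linear_le) ?_
      norm_num
    · simp only [eval₂_add, eval₂_sub, eval₂_mul, eval₂_pow, eval₂_X, eval₂_C, eval₂_one]
      exact hs
  let B := integralClosure V Ω
  let sB : B := ⟨s, hsint⟩
  obtain ⟨M, hM, hmM⟩ := Ideal.exists_le_maximal m hm
  haveI := hM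
  have hinjB : Function.Injective (algebraMap V B) := by
    intro x y hxy
    apply hι
    have := congrArg (fun b : B => (b : Ω)) hxy
    exact this
  have hker : RingHom.ker (algebraMap V B) ≤ M := by
    rw [(RingHom.injective_iff_ker_eq_bot _).mp hinjB]
    exact bot_le
  obtain ⟨m', hm'max, hm'⟩ := Ideal.exists_ideal_over_maximal_of_isIntegral (S := B) M hker
  haveI hm'prime : m'.IsPrime := hm'max.isPrime
  have hmem : ∀ x ∈ m, algebraMap V B x ∈ m' := fun x hx => by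
    have : x ∈ m'.comap (algebraMap V B) := hm'.symm ▸ hmM hx
    exact this
  have hpB : ((p : ℕ) : B) ∈ m' := by
    have := hmem _ hpm
    simpa using this
  have hsB1 : sB - 1 ∈ m' := by
    have h1 : (sB - 1) ^ 2 = algebraMap V B (t - 2) * sB := by
      apply Subtype.ext
      change (s - 1) ^ 2 = ι (t - 2) * s
      rw [map_sub, map_ofNat]
      linear_combination hs
    have h2 : (sB - 1) ^ 2 ∈ m' := by
      rw [h1]
      exact m'.mul_mem_right _ (hmem _ ht2)
    exact hm'prime.mem_of_pow_mem 2 h2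
  have hcoe_pow : ∀ n : ℕ, ((sB ^ n : B) : Ω) = s ^ n := fun n => rfl
  have hsBpow : sB ^ (p ^ K) = 1 := by
    rcases mul_eq_zero.mp hkey with h | h
    · have h' : sB ^ (p ^ K * n') = 1 := by
        apply Subtype.ext
        rw [hcoe_pow]
        have e : p ^ K * n' = q - 1 := by rw [hq]; rfl
        rw [e]
        exact sub_eq_zero.mp h
      exact pow_prime_pow_eq_one hp hn' m' hpB hsB1 h'
    · have hndvd : ¬ p ∣ q + 1 := by
        intro hd
        have h1 : p ∣ p ^ K * n' := Dvd.dvd.mul_right (dvd_pow_self p hK.ne') n'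
        have h2 : p ∣ 2 := by
          have e : q + 1 = p ^ K * n' + 2 := by rw [hq]
          rw [e] at hd
          exact (Nat.dvd_add_right h1).mp hd
        have h3 : p = 2 := (Nat.prime_dvd_prime_iff_eq hp Nat.prime_two).mp h2
        exact hp2 h3
      have h' : sB ^ (p ^ 0 * (q + 1)) = 1 := by
        apply Subtype.ext
        rw [hcoe_pow, pow_zero, one_mul]
        exact sub_eq_zero.mp h
      have h4 := pow_prime_pow_eq_one hp hndvd m' hpB hsB1 h'
      rw [pow_zero, pow_one] at h4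
      rw [h4, one_pow]
  have hspow : s ^ (p ^ K) = 1 := by
    have := congrArg (fun b : B => (b : Ω)) hsBpow
    exact this
  -- primitive roots
  have hζΩ : IsPrimitiveRoot (ι ζ) (p ^ K) := hζ.map_of_injective hι
  haveI : NeZero (p ^ K) := ⟨(pow_pos hp.pos K).ne'⟩
  obtain ⟨j, hj, hjs⟩ := hζΩ.eq_pow_of_pow_eq_one hspow
  refine ⟨j, hj, hι ?_⟩
  have hs'eq : s' = (ι ζ) ^ (p ^ K - j) := by
    have h1 : s * (ι ζ) ^ (p ^ K - j) = 1 := by
      rw [← hjs, ← pow_add, Nat.add_sub_cancel' hj.le, hζΩ.pow_eq_one]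
    calc s' = s' * (s * (ι ζ) ^ (p ^ K - j)) := by rw [h1, mul_one]
      _ = (s * s') * (ι ζ) ^ (p ^ K - j) := by ring
      _ = (ι ζ) ^ (p ^ K - j) := by rw [hprod, one_mul]
  rw [map_add, map_pow, map_pow, ← hs'eq, hjs, hsum]

/-- **(NU) ⇒ type ψ.**  In the situation of `trace_eq_of_conj`, if `Σ` is not unipotent
(`tr Σ ≠ 2`), then `tr Σ = z + z'` where `z = ζ^j ≠ 1`, `z z' = 1`, `z ≠ z'`, `z^(p^K) = 1`, and
the characteristic polynomial of `Σ` is `(X - z)(X - z')`. -/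
theorem exists_type_of_conj {p q K n' : ℕ} (hp : p.Prime) (hp2 : p ≠ 2) (hK : 0 < K)
    (hq : q = p ^ K * n' + 1) (hn' : ¬ p ∣ n')
    (m : Ideal V) (hm : m ≠ ⊤) (hpm : (p : V) ∈ m)
    (Sg Φ : Matrix (Fin 2) (Fin 2) V) (hdet : Sg.det = 1) (hΦ : Φ.det ≠ 0)
    (hconj : Φ * Sg = Sg ^ q * Φ) (hSg : ∀ i j, (Sg - 1) i j ∈ m)
    (ζ : V) (hζ : IsPrimitiveRoot ζ (p ^ K)) (hNU : Sg.trace ≠ 2) :
    ∃ j : ℕ, 0 < j ∧ j < p ^ K ∧ ζ ^ j ≠ 1 ∧ ζ ^ j * ζ ^ (p ^ K - j) = 1 ∧
      ζ ^ j ≠ ζ ^ (p ^ K - j) ∧ Sg.trace = ζ ^ j + ζ ^ (p ^ K - j) ∧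
      Sg.charpoly = (X - C (ζ ^ j)) * (X - C (ζ ^ (p ^ K - j))) := by
  obtain ⟨j, hj, htr⟩ :=
    trace_eq_of_conj hp hp2 hK hq hn' m hm hpm Sg Φ hdet hΦ hconj hSg ζ hζ
  have hprod : ζ ^ j * ζ ^ (p ^ K - j) = 1 := by
    rw [← pow_add, Nat.add_sub_cancel' hj.le, hζ.pow_eq_one]
  have hj0 : 0 < j := by
    rcases Nat.eq_zero_or_pos j with h0 | h0
    · exfalso
      apply hNU
      rw [htr, h0, pow_zero, Nat.sub_zero, hζ.pow_eq_one]
      norm_num
    · exact h0
  have hne1 : ζ ^ j ≠ 1 := fun h => by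
    have := hζ.pow_ne_one_of_pos_of_lt hj0.ne' hj
    exact this h
  have hne : ζ ^ j ≠ ζ ^ (p ^ K - j) := by
    intro h
    -- then `ζ^(2j) = 1`, so `p^K ∣ 2j`, so `p^K ∣ j`
    have h2 : ζ ^ (2 * j) = 1 := by
      rw [two_mul, pow_add]
      nth_rewrite 2 [h]
      exact hprod
    have hdvd : p ^ K ∣ 2 * j := (hζ.pow_eq_one_iff_dvd _).mp h2
    have hcop : Nat.Coprime (p ^ K) 2 := by
      apply Nat.Coprime.pow_left
      rw [Nat.coprime_primes hp Nat.prime_two]
      exact hp2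
    have hdvd' : p ^ K ∣ j := hcop.dvd_of_dvd_mul_left hdvd
    exact absurd (Nat.le_of_dvd hj0 hdvd') (not_le.mpr hj)
  refine ⟨j, hj0, hj, hne1, hprod, hne, htr, ?_⟩
  rw [Matrix.charpoly_fin_two, hdet, htr]
  have e : (X - C (ζ ^ j)) * (X - C (ζ ^ (p ^ K - j))) =
      X ^ 2 - C (ζ ^ j + ζ ^ (p ^ K - j)) * X + C (ζ ^ j * ζ ^ (p ^ K - j)) := by
    rw [map_add, map_mul]
    ring
  rw [e, hprod]

end Main

end Fermat.Agent.S38.IA.H474

end
-- ===== PACK-END S38/IA/H474/TypePsi.lean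

-- ===== PACK-BEGIN S38/IA/H474/TypeLeaf.lean
section
/-
Row HARD (row 37 hard case, Ihara avoidance, single-sided route E2) — leaf TYPE (board §3.4),
matrix level.  helper474.  Mathlib only (on top of `TypePsi.lean`).  All proofs complete.

`Σ, Φ` 2×2 matrices over a domain `𝒪'`, `det Σ = 1`, `det Φ ≠ 0`, `Φ Σ = Σ^q Φ`, `Σ ≡ 1` modulo a
proper ideal `m' ∋ p`, `p` an odd prime dividing `q - 1`, `tr Σ ≠ 2` (`Σ` not unipotent), and the
coefficient ring `𝒪` (a domain in which `2` is a unit, mapping to `𝒪'`, `p ≠ 0` in `𝒪'`) contains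
the `p`-power roots of unity of order dividing `q - 1`.  THEN
* `Φ Σ = Σ Φ`                                             (`commute_of_conj`),
* there are `ζ ∈ 𝒪`, `ζ ≠ 1`, `ζ^(p^K) = 1`, `ζ^(q-1) = 1` and `δ ∈ 𝒪` with `2 δ ζ = ζ² - 1` such
  that the traceless coordinates `v` of `Σ` satisfy `Q(v) = v₀² + v₁ v₂ = δ²`, and all the minors
  `w_i v_j - w_j v_i` of the traceless coordinates `w` of `Φ` and `v` vanish (`type_leaf`).
-/


set_option autoImplicit false
set_option linter.style.haveILetI false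
set_option linter.unusedSectionVars false

namespace Fermat.Agent.S38.IA.H474

open Matrix Polynomial

section Unipotent

variable {R : Type*} [CommRing R] [Nontrivial R]

/-- For a 2×2 matrix of determinant one: the characteristic polynomial is `(X - 1)²` iff the
trace is `2`. -/
theorem charpoly_eq_sq_iff_trace (M : Matrix (Fin 2) (Fin 2) R) (hdet : M.det = 1) :
    M.charpoly = (X - 1) ^ 2 ↔ M.trace = 2 := by
  rw [Matrix.charpoly_fin_two, hdet]
  constructor
  · intro h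
    have h1 : ((X : R[X]) ^ 2 - C M.trace * X + C 1).coeff 1 = (((X : R[X]) - 1) ^ 2).coeff 1 := by
      rw [h]
    have e1 : ((X : R[X]) ^ 2 - C M.trace * X + C 1).coeff 1 = - M.trace := by
      simp [Polynomial.coeff_X_pow, Polynomial.coeff_one]
    have e2 : (((X : R[X]) - 1) ^ 2).coeff 1 = -2 := by
      have : ((X : R[X]) - 1) ^ 2 = X ^ 2 - C 2 * X + C 1 := by
        rw [map_ofNat, map_one]; ring
      rw [this]
      simp [Polynomial.coeff_X_pow, Polynomial.coeff_one]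
    rw [e1, e2] at h1
    exact neg_injective h1
  · intro h
    rw [h, map_ofNat, map_one]
    ring

/-- For a 2×2 matrix of determinant one: `(M - 1)² = (tr M - 2) • M`. -/
theorem sub_one_sq_eq (M : Matrix (Fin 2) (Fin 2) R) (hdet : M.det = 1) :
    (M - 1) ^ 2 = (M.trace - 2) • M := by
  rw [Matrix.det_fin_two] at hdet
  ext i j
  fin_cases i <;> fin_cases j <;>
    simp [pow_two, Matrix.mul_apply, Fin.sum_univ_two, Matrix.trace_fin_two] <;>
    first | linear_combination hdet | linear_combination -hdet | ring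

end Unipotent

section Comm

variable {V : Type*} [CommRing V] [IsDomain V]

/-- A 2×2 matrix with characteristic polynomial `(X - s)(X - s')`, `s ≠ s'`, `s^q = s`,
`s'^q = s'` over a domain satisfies `M^q = M`. -/
theorem pow_eq_self_of_charpoly (M : Matrix (Fin 2) (Fin 2) V) (s s' : V) (hne : s ≠ s')
    (hchar : M.charpoly = (X - C s) * (X - C s')) (q : ℕ) (hs : s ^ q = s) (hs' : s' ^ q = s') :
    M ^ q = M := by
  have h1 : (X - C s) ∣ (X ^ q - X : V[X]) := by
    rw [Polynomial.dvd_iff_isRoot]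
    simp [hs]
  obtain ⟨g, hg⟩ := h1
  have h2 : g.IsRoot s' := by
    have h3 := congrArg (Polynomial.eval s') hg
    simp only [eval_sub, eval_pow, eval_X, eval_mul, eval_C, hs', sub_self] at h3
    rcases mul_eq_zero.mp h3.symm with h4 | h4
    · exact absurd (sub_eq_zero.mp h4).symm hne
    · exact h4
  obtain ⟨h, hh⟩ := Polynomial.dvd_iff_isRoot.mpr h2
  have h5 : (X ^ q - X : V[X]) = M.charpoly * h := by
    rw [hg, hh, hchar]
    ring
  have h6 := congrArg (Polynomial.aeval M) h5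
  rw [map_mul, Matrix.aeval_self_charpoly, zero_mul, map_sub, map_pow, aeval_X] at h6
  exact sub_eq_zero.mp h6

/-- **Commutation.**  In the situation of `exists_type_of_conj` (`Σ` not unipotent), `Φ` and `Σ`
commute. -/
theorem commute_of_conj {p q K n' : ℕ} (hp : p.Prime) (hp2 : p ≠ 2) (hK : 0 < K)
    (hq : q = p ^ K * n' + 1) (hn' : ¬ p ∣ n')
    (m : Ideal V) (hm : m ≠ ⊤) (hpm : (p : V) ∈ m)
    (Sg Φ : Matrix (Fin 2) (Fin 2) V) (hdet : Sg.det = 1) (hΦ : Φ.det ≠ 0)
    (hconj : Φ * Sg = Sg ^ q * Φ) (hSg : ∀ i j, (Sg - 1) i j ∈ m)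
    (ζ : V) (hζ : IsPrimitiveRoot ζ (p ^ K)) (hNU : Sg.trace ≠ 2) :
    Φ * Sg = Sg * Φ := by
  obtain ⟨j, _, _, _, hprod, hne, _, hchar⟩ :=
    exists_type_of_conj hp hp2 hK hq hn' m hm hpm Sg Φ hdet hΦ hconj hSg ζ hζ hNU
  have hpow : ∀ i : ℕ, (ζ ^ i) ^ q = ζ ^ i := by
    intro i
    rw [hq, pow_succ, ← pow_mul, mul_comm i, mul_assoc, pow_mul, hζ.pow_eq_one, one_pow, one_mul]
  rw [hconj, pow_eq_self_of_charpoly Sg _ _ hne hchar q (hpow _) (hpow _)]

end Comm

section Roots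

/-- A ring homomorphism from a domain to a ring in which `p ≠ 0` maps primitive `p^K`-th roots
of unity to primitive `p^K`-th roots of unity (no injectivity needed). -/
theorem isPrimitiveRoot_map_of_prime_ne_zero {A B : Type*} [CommRing A] [IsDomain A]
    [CommRing B] (f : A →+* B) {p K : ℕ} (hp : p.Prime) (hp0 : (p : B) ≠ 0)
    {ζ : A} (hζ : IsPrimitiveRoot ζ (p ^ K)) : IsPrimitiveRoot (f ζ) (p ^ K) := by
  haveI : Fact p.Prime := ⟨hp⟩
  rcases Nat.eq_zero_or_pos K with hK | hK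
  · subst hK
    rw [pow_zero] at hζ ⊢
    rw [IsPrimitiveRoot.one_right_iff] at hζ ⊢
    rw [hζ, map_one]
  obtain ⟨K', rfl⟩ : ∃ K', K = K' + 1 := ⟨K - 1, by omega⟩
  have h1 : (f ζ) ^ (p ^ (K' + 1)) = 1 := by rw [← map_pow, hζ.pow_eq_one, map_one]
  rw [IsPrimitiveRoot.iff_orderOf]
  refine orderOf_eq_prime_pow ?_ h1
  intro h2
  have hη : IsPrimitiveRoot (ζ ^ (p ^ K')) p :=
    hζ.pow (pow_pos hp.pos _) (pow_succ p K')
  have h3 := hη.geom_sum_eq_zero hp.one_lt
  have h4 := congrArg f h3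
  rw [map_sum, map_zero] at h4
  simp only [map_pow, h2, one_pow, Finset.sum_const, Finset.card_range, nsmul_eq_mul,
    mul_one] at h4
  exact hp0 h4

end Roots

section Coords

variable {R : Type*} [CommRing R]

/-- `4 Q(v) = tr² - 4 det` for the traceless coordinates `v` (`2 v₀ = a - d`, `v₁ = b`,
`v₂ = c`) of a 2×2 matrix `[[a, b], [c, d]]`. -/
theorem four_mul_quad_eq (M : Matrix (Fin 2) (Fin 2) R) (v : Fin 3 → R)
    (hv : 2 * v 0 = M 0 0 - M 1 1 ∧ v 1 = M 0 1 ∧ v 2 = M 1 0) :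
    4 * (v 0 ^ 2 + v 1 * v 2) = M.trace ^ 2 - 4 * M.det := by
  obtain ⟨h0, h1, h2⟩ := hv
  rw [Matrix.trace_fin_two, Matrix.det_fin_two, h1, h2]
  linear_combination (2 * v 0 + M 0 0 - M 1 1) * h0

/-- If `N M = M N` then twice the minors `w_i v_j - w_j v_i` of the traceless coordinates `w` of
`N` and `v` of `M` vanish. -/
theorem two_mul_minor_eq_zero (M N : Matrix (Fin 2) (Fin 2) R) (v w : Fin 3 → R)
    (hv : 2 * v 0 = M 0 0 - M 1 1 ∧ v 1 = M 0 1 ∧ v 2 = M 1 0)
    (hw : 2 * w 0 = N 0 0 - N 1 1 ∧ w 1 = N 0 1 ∧ w 2 = N 1 0)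
    (hcomm : N * M = M * N) (i j : Fin 3) : 2 * (w i * v j - w j * v i) = 0 := by
  obtain ⟨hv0, hv1, hv2⟩ := hv
  obtain ⟨hw0, hw1, hw2⟩ := hw
  have e00 := congrFun (congrFun hcomm 0) 0
  have e01 := congrFun (congrFun hcomm 0) 1
  have e10 := congrFun (congrFun hcomm 1) 0
  simp only [Matrix.mul_apply, Fin.sum_univ_two] at e00 e01 e10
  fin_cases i <;> fin_cases j <;> simp only [Fin.zero_eta, Fin.mk_one, Fin.reduceFinMk]
  · ring
  · rw [hv1, hw1]
    linear_combination (M 0 1) * hw0 - (N 0 1) * hv0 + e01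
  · rw [hv2, hw2]
    linear_combination (M 1 0) * hw0 - (N 1 0) * hv0 - e10
  · rw [hv1, hw1]
    linear_combination -(M 0 1) * hw0 + (N 0 1) * hv0 - e01
  · ring
  · rw [hv1, hw1, hv2, hw2]
    linear_combination 2 * e00
  · rw [hv2, hw2]
    linear_combination -(M 1 0) * hw0 + (N 1 0) * hv0 + e10
  · rw [hv1, hw1, hv2, hw2]
    linear_combination -2 * e00
  · ring

end Coords

section Leaf

/-- **LEAF TYPE (board §3.4), matrix level.**  `𝒪 → 𝒪'` domains, `2` a unit of `𝒪`, `p` an odd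
prime with `p ≠ 0` in `𝒪'`, `p ∣ q - 1`, `𝒪` contains the `p`-power roots of unity of order
dividing `q - 1`; `Σ, Φ ∈ M₂(𝒪')` with `det Σ = 1`, `det Φ ≠ 0`, `Φ Σ = Σ^q Φ`, `Σ ≡ 1` modulo a
proper ideal `m' ∋ p`, `tr Σ ≠ 2`; `v`, `w` the traceless coordinates of `Σ`, `Φ`.  Then there are
`δ, ζ ∈ 𝒪` as in `IsTypeValue p q δ` (`S38/IA/Spec2.lean`) with `Q(v) = δ²`, and all the minors
`w_i v_j - w_j v_i` vanish. -/
theorem type_leaf {𝒪 𝒪' : Type*} [CommRing 𝒪] [IsDomain 𝒪] [CommRing 𝒪'] [IsDomain 𝒪']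
    (f : 𝒪 →+* 𝒪') {p q : ℕ} (hp : p.Prime) (hp2 : p ≠ 2) (hq1 : 1 < q) (hpq : p ∣ q - 1)
    (h2 : IsUnit (2 : 𝒪))
    (hroots : ∀ m : ℕ, p ^ m ∣ q - 1 → ∃ ζ : 𝒪, IsPrimitiveRoot ζ (p ^ m))
    (m' : Ideal 𝒪') (hm' : m' ≠ ⊤) (hpm : (p : 𝒪') ∈ m') (hp0 : (p : 𝒪') ≠ 0)
    (Sg Φ : Matrix (Fin 2) (Fin 2) 𝒪') (hdet : Sg.det = 1) (hΦ : Φ.det ≠ 0)
    (hconj : Φ * Sg = Sg ^ q * Φ) (hSg : ∀ i j, (Sg - 1) i j ∈ m') (hNU : Sg.trace ≠ 2)
    (v w : Fin 3 → 𝒪')
    (hv : 2 * v 0 = Sg 0 0 - Sg 1 1 ∧ v 1 = Sg 0 1 ∧ v 2 = Sg 1 0)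
    (hw : 2 * w 0 = Φ 0 0 - Φ 1 1 ∧ w 1 = Φ 0 1 ∧ w 2 = Φ 1 0) :
    ∃ δ ζ : 𝒪, ζ ≠ 1 ∧ (∃ m : ℕ, ζ ^ p ^ m = 1) ∧ ζ ^ (q - 1) = 1 ∧ 2 * δ * ζ = ζ ^ 2 - 1 ∧
      v 0 ^ 2 + v 1 * v 2 = f δ ^ 2 ∧ ∀ i j : Fin 3, w i * v j - w j * v i = 0 := by
  -- `q - 1 = p^K n'`, `p ∤ n'`, `K > 0`
  obtain ⟨K, n', hn', hqK⟩ :=
    Nat.exists_eq_pow_mul_and_not_dvd (n := q - 1) (by omega) p hp.ne_one
  have hK : 0 < K := by
    rcases Nat.eq_zero_or_pos K with h0 | h0
    · exfalso
      rw [h0, pow_zero, one_mul] at hqK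
      exact hn' (hqK ▸ hpq)
    · exact h0
  have hq : q = p ^ K * n' + 1 := by omega
  obtain ⟨ζ₀, hζ₀⟩ := hroots K (Dvd.intro _ hqK.symm)
  have hζ' : IsPrimitiveRoot (f ζ₀) (p ^ K) := isPrimitiveRoot_map_of_prime_ne_zero f hp hp0 hζ₀
  obtain ⟨j, hj0, hj, _, _, _, htr, _⟩ :=
    exists_type_of_conj hp hp2 hK hq hn' m' hm' hpm Sg Φ hdet hΦ hconj hSg (f ζ₀) hζ' hNU
  have hcomm : Φ * Sg = Sg * Φ :=
    commute_of_conj hp hp2 hK hq hn' m' hm' hpm Sg Φ hdet hΦ hconj hSg (f ζ₀) hζ' hNU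
  -- `2 ≠ 0` in `𝒪'`
  have h2' : (2 : 𝒪') ≠ 0 := by
    intro h
    apply hm'
    rw [Ideal.eq_top_iff_one]
    obtain ⟨k, hk⟩ := hp.eq_two_or_odd'.resolve_left hp2
    have e : (p : 𝒪') = 1 := by
      rw [hk]
      push_cast
      rw [h, zero_mul, zero_add]
    rw [← e]
    exact hpm
  have hprod : ζ₀ ^ j * ζ₀ ^ (p ^ K - j) = 1 := by
    rw [← pow_add, Nat.add_sub_cancel' hj.le, hζ₀.pow_eq_one]
  obtain ⟨u, hu⟩ := h2
  refine ⟨↑u⁻¹ * (ζ₀ ^ j - ζ₀ ^ (p ^ K - j)), ζ₀ ^ j, hζ₀.pow_ne_one_of_pos_of_lt hj0.ne' hj,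
    ⟨K, ?_⟩, ?_, ?_, ?_, ?_⟩
  · rw [← pow_mul, mul_comm, pow_mul, hζ₀.pow_eq_one, one_pow]
  · rw [hqK, ← pow_mul, mul_comm j, mul_assoc, pow_mul, hζ₀.pow_eq_one, one_pow]
  · have e1 : (2 : 𝒪) * ↑u⁻¹ = 1 := by rw [← hu, Units.mul_inv]
    linear_combination (ζ₀ ^ j * (ζ₀ ^ j - ζ₀ ^ (p ^ K - j))) * e1 - hprod
  · have e1 : (2 : 𝒪') * f ↑u⁻¹ = 1 := by
      have : (2 : 𝒪) * ↑u⁻¹ = 1 := by rw [← hu, Units.mul_inv]
      have := congrArg f this
      rwa [map_mul, map_ofNat, map_one] at this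
    have e2 : f (ζ₀ ^ j) * f (ζ₀ ^ (p ^ K - j)) = 1 := by rw [← map_mul, hprod, map_one]
    have e3 := four_mul_quad_eq Sg v hv
    rw [hdet, htr] at e3
    have e4 : (4 : 𝒪') * (v 0 ^ 2 + v 1 * v 2) =
        4 * f (↑u⁻¹ * (ζ₀ ^ j - ζ₀ ^ (p ^ K - j))) ^ 2 := by
      rw [e3, map_mul, map_sub, map_pow, map_pow]
      rw [map_pow, map_pow] at e2
      linear_combination (4 : 𝒪') * e2 -
        ((f ζ₀ ^ j - f ζ₀ ^ (p ^ K - j)) ^ 2 * (2 * f ↑u⁻¹ + 1)) * e1
    have h4 : (4 : 𝒪') ≠ 0 := by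
      have : (4 : 𝒪') = 2 * 2 := by norm_num
      rw [this]
      exact mul_ne_zero h2' h2'
    exact mul_left_cancel₀ h4 e4
  · intro i k
    have := two_mul_minor_eq_zero Sg Φ v w hv hw hcomm i k
    exact (mul_eq_zero.mp this).resolve_left h2'

end Leaf

end Fermat.Agent.S38.IA.H474

end
-- ===== PACK-END S38/IA/H474/TypeLeaf.lean

-- ===== PACK-BEGIN S38/H354/ChiPart.lean
section


/-!
# Row HARD (row 37, hard case), cell HECKE: the `χ`-part of a module — abstract core (helper354)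

Setting of the board `coord/HARD.md` (helper995), §0.1 (1): the Betti module `e H` at level
`Γ₀(N_min) ∩ Γ_H(Π ∪ Q)` is free over `O[Δ_Π × Δ_Q]` for the diamond action (`S59/MFree`,
`FreeConclusion`).  For a character `χ : Δ_Π → Oˣ` of `p`-power order (so `χ ≡ 1 mod λ`) the
`χ`-part is the quotient `M^χ := e H / (d x - χ(d) x : d ∈ Δ_Π)`.

This file is Mathlib-only and proves, for an ARBITRARY `O`-module `V` with commuting operators:

* `chiRel ρ χ`                 : the submodule of `χ`-relations;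
* `map_mem_chiRel`             : it is stable under every endomorphism commuting with `ρ`;
* `chiRel_sup_smul_eq`         : `chiRel ρ χ + λ V = chiRel ρ χ' + λ V` if `χ ≡ χ' mod λ`;
* `chiModEquiv`                : hence `(V/χ)/λ ≃ (V/χ')/λ`, the class of `x` going to the class
                                  of `x` (so it is equivariant for EVERY operator of `V` which
                                  commutes with `ρ`: Hecke operators, diamond operators at `Q`);
* `mapQ_mem_smul_of_forall_mem`: (ST)-transfer: an operator `h` commuting with `ρ` which kills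
                                  `V/χ'` maps `V/χ` into `λ (V/χ)`;
* `chi_basis`                  : if `(ρ (d₁,d₂) (b i))` is an `O`-basis of `V`
                                  (`V` free over `O[D₁ × D₂]`), then the classes of the
                                  `ρ (1,d₂) (b i)` form an `O`-basis of `V/χ`
                                  (`V/χ` is free over `O[D₂]`, same basis `b`).
-/

set_option autoImplicit false
set_option linter.unusedSectionVars false

namespace Fermat.Agent.S38.H354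

variable {O : Type*} [CommRing O] {V : Type*} [AddCommGroup V] [Module O V]

/-! ## The relations -/

section Rel

variable {D : Type*} [Monoid D]

/-- The `χ`-relations: the `O`-span of the elements `ρ d x - χ d • x`. -/
def chiRel (ρ : D →* Module.End O V) (χ : D →* O) : Submodule O V :=
  Submodule.span O {w | ∃ (d : D) (x : V), w = ρ d x - χ d • x}

theorem sub_mem_chiRel (ρ : D →* Module.End O V) (χ : D →* O) (d : D) (x : V) :
    ρ d x - χ d • x ∈ chiRel ρ χ :=
  Submodule.subset_span ⟨d, x, rfl⟩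

/-- An endomorphism commuting with the `ρ d` preserves the `χ`-relations. -/
theorem map_mem_chiRel (ρ : D →* Module.End O V) (χ : D →* O) (h : Module.End O V)
    (hh : ∀ d, Commute h (ρ d)) {x : V} (hx : x ∈ chiRel ρ χ) : h x ∈ chiRel ρ χ := by
  induction hx using Submodule.span_induction with
  | mem w hw =>
    obtain ⟨d, y, rfl⟩ := hw
    have h1 : h (ρ d y) = ρ d (h y) := by
      have := congrArg (fun f : Module.End O V => f y) (hh d).eq
      simpa only [Module.End.mul_apply] using this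
    rw [map_sub, map_smul, h1]
    exact sub_mem_chiRel ρ χ d (h y)
  | zero => rw [map_zero]; exact Submodule.zero_mem _
  | add a b _ _ ha hb => rw [map_add]; exact Submodule.add_mem _ ha hb
  | smul c a _ ha => rw [map_smul]; exact Submodule.smul_mem _ c ha

theorem chiRel_le_comap (ρ : D →* Module.End O V) (χ : D →* O) (h : Module.End O V)
    (hh : ∀ d, Commute h (ρ d)) : chiRel ρ χ ≤ (chiRel ρ χ).comap h :=
  fun _ hx => map_mem_chiRel ρ χ h hh hx

/-- `λ V`. -/
abbrev lamSub (lam : O) (V : Type*) [AddCommGroup V] [Module O V] : Submodule O V :=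
  Ideal.span {lam} • (⊤ : Submodule O V)

theorem smul_mem_lamSub (lam : O) (x : V) : lam • x ∈ lamSub lam V :=
  Submodule.smul_mem_smul (Ideal.mem_span_singleton_self lam) Submodule.mem_top

theorem mem_lamSub_iff {lam : O} {x : V} : x ∈ lamSub lam V ↔ ∃ y : V, x = lam • y := by
  constructor
  · intro hx
    refine Submodule.smul_induction_on hx ?_ ?_
    · intro r hr n _
      obtain ⟨c, rfl⟩ := Ideal.mem_span_singleton'.mp hr
      exact ⟨c • n, by rw [smul_smul, mul_comm]⟩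
    · rintro a b ⟨ya, rfl⟩ ⟨yb, rfl⟩
      exact ⟨ya + yb, by rw [smul_add]⟩
  · rintro ⟨y, rfl⟩
    exact smul_mem_lamSub lam y

/-- Congruent characters have the same relations modulo `λ`: one inclusion. -/
theorem chiRel_le_sup (ρ : D →* Module.End O V) (χ χ' : D →* O) (lam : O)
    (hχ : ∀ d, ∃ c : O, χ d - χ' d = lam * c) :
    chiRel ρ χ ≤ chiRel ρ χ' ⊔ lamSub lam V := by
  refine Submodule.span_le.mpr ?_
  rintro w ⟨d, x, rfl⟩
  obtain ⟨c, hc⟩ := hχ d
  have : ρ d x - χ d • x = (ρ d x - χ' d • x) + lam • (-(c • x)) := by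
    have h1 : χ d = χ' d + lam * c := by rw [← hc]; ring
    rw [h1, add_smul, mul_smul, smul_neg]
    abel
  rw [this]
  exact Submodule.add_mem_sup (sub_mem_chiRel ρ χ' d x) (smul_mem_lamSub lam _)

/-- Congruent characters have the same relations modulo `λ`. -/
theorem chiRel_sup_smul_eq (ρ : D →* Module.End O V) (χ χ' : D →* O) (lam : O)
    (hχ : ∀ d, ∃ c : O, χ d - χ' d = lam * c) :
    chiRel ρ χ ⊔ lamSub lam V = chiRel ρ χ' ⊔ lamSub lam V := by
  apply le_antisymm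
  · exact sup_le (chiRel_le_sup ρ χ χ' lam hχ) le_sup_right
  · refine sup_le (chiRel_le_sup ρ χ' χ lam ?_) le_sup_right
    intro d
    obtain ⟨c, hc⟩ := hχ d
    exact ⟨-c, by rw [mul_neg, ← hc]; ring⟩

/-- Elementwise form: modulo `λ V` every `χ`-relation is a `χ'`-relation. -/
theorem exists_add_of_mem_chiRel (ρ : D →* Module.End O V) (χ χ' : D →* O) (lam : O)
    (hχ : ∀ d, ∃ c : O, χ d - χ' d = lam * c) {x : V} (hx : x ∈ chiRel ρ χ) :
    ∃ y ∈ chiRel ρ χ', ∃ z : V, x = y + lam • z := by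
  obtain ⟨y, hy, w, hw, rfl⟩ := Submodule.mem_sup.mp (chiRel_le_sup ρ χ χ' lam hχ hx)
  obtain ⟨z, rfl⟩ := mem_lamSub_iff.mp hw
  exact ⟨y, hy, z, rfl⟩

end Rel

/-! ## The `χ`-part as a quotient; comparison modulo `λ` -/

section Quot

variable {D : Type*} [Monoid D] (ρ : D →* Module.End O V) (χ χ' : D →* O) (lam : O)

/-- The endomorphism of the `χ`-part `V ⧸ chiRel ρ χ` induced by an endomorphism of `V` commuting
with `ρ`. -/
def chiMap (h : Module.End O V) (hh : ∀ d, Commute h (ρ d)) : Module.End O (V ⧸ chiRel ρ χ) :=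
  (chiRel ρ χ).mapQ (chiRel ρ χ) h (chiRel_le_comap ρ χ h hh)

@[simp] theorem chiMap_mk (h : Module.End O V) (hh : ∀ d, Commute h (ρ d)) (x : V) :
    chiMap ρ χ h hh (Submodule.Quotient.mk x) = Submodule.Quotient.mk (h x) := rfl

/-- On the `χ`-part, `ρ d` is multiplication by `χ d`. -/
theorem mk_rho_eq (d : D) (x : V) :
    (Submodule.Quotient.mk (ρ d x) : V ⧸ chiRel ρ χ) = χ d • Submodule.Quotient.mk x := by
  rw [← Submodule.Quotient.mk_smul, ← sub_eq_zero, ← Submodule.Quotient.mk_sub,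
    Submodule.Quotient.mk_eq_zero]
  exact sub_mem_chiRel ρ χ d x

theorem lamSub_quot_eq (S : Submodule O V) :
    lamSub lam (V ⧸ S) = (lamSub lam V).map S.mkQ := by
  rw [Submodule.map_smul'', Submodule.map_top, Submodule.range_mkQ]

/-- **(ST)-transfer.**  `χ ≡ χ' mod λ`, `h` commutes with `ρ` and kills the `χ'`-part.  Then `h`
maps the `χ`-part into `λ ·` (`χ`-part). -/
theorem chiMap_mem_lamSub (hχ : ∀ d, ∃ c : O, χ d - χ' d = lam * c)
    (h : Module.End O V) (hh : ∀ d, Commute h (ρ d)) (hkill : ∀ x, h x ∈ chiRel ρ χ')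
    (y : V ⧸ chiRel ρ χ) : chiMap ρ χ h hh y ∈ lamSub lam (V ⧸ chiRel ρ χ) := by
  induction y using Submodule.Quotient.induction_on with
  | H x =>
    obtain ⟨r, hr, z, hz⟩ := exists_add_of_mem_chiRel ρ χ' χ lam (fun d => by
      obtain ⟨c, hc⟩ := hχ d
      exact ⟨-c, by rw [mul_neg, ← hc]; ring⟩) (hkill x)
    rw [chiMap_mk, hz, Submodule.Quotient.mk_add, (Submodule.Quotient.mk_eq_zero _).mpr hr,
      zero_add, Submodule.Quotient.mk_smul]
    exact smul_mem_lamSub lam _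

/-- `(V/χ)/λ ≃ V/(χ-relations + λ V)`. -/
noncomputable def chiModEquivSup :
    ((V ⧸ chiRel ρ χ) ⧸ lamSub lam (V ⧸ chiRel ρ χ)) ≃ₗ[O] V ⧸ (chiRel ρ χ ⊔ lamSub lam V) :=
  (Submodule.quotEquivOfEq _ _ (lamSub_quot_eq lam (chiRel ρ χ))) ≪≫ₗ
    Submodule.quotientQuotientEquivQuotientSup (chiRel ρ χ) (lamSub lam V)

theorem chiModEquivSup_mk_mk (x : V) :
    chiModEquivSup ρ χ lam (Submodule.Quotient.mk (Submodule.Quotient.mk x)) =
      Submodule.Quotient.mk x := rfl

/-- **Comparison modulo `λ`.**  If `χ ≡ χ' mod λ` then `(V/χ)/λ ≃ (V/χ')/λ`, the class of `x`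
going to the class of `x`. -/
noncomputable def chiModEquiv (hχ : ∀ d, ∃ c : O, χ d - χ' d = lam * c) :
    ((V ⧸ chiRel ρ χ) ⧸ lamSub lam (V ⧸ chiRel ρ χ)) ≃ₗ[O]
      ((V ⧸ chiRel ρ χ') ⧸ lamSub lam (V ⧸ chiRel ρ χ')) :=
  chiModEquivSup ρ χ lam ≪≫ₗ
    Submodule.quotEquivOfEq _ _ (chiRel_sup_smul_eq ρ χ χ' lam hχ) ≪≫ₗ
    (chiModEquivSup ρ χ' lam).symm

theorem chiModEquiv_mk_mk (hχ : ∀ d, ∃ c : O, χ d - χ' d = lam * c) (x : V) :
    chiModEquiv ρ χ χ' lam hχ (Submodule.Quotient.mk (Submodule.Quotient.mk x)) =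
      Submodule.Quotient.mk (Submodule.Quotient.mk x) := by
  unfold chiModEquiv
  rw [LinearEquiv.trans_apply, LinearEquiv.trans_apply, chiModEquivSup_mk_mk,
    Submodule.quotEquivOfEq_mk, LinearEquiv.symm_apply_eq, chiModEquivSup_mk_mk]

/-- The comparison modulo `λ` is equivariant for every endomorphism of `V` commuting with `ρ`
(Hecke operators, the other diamond operators). -/
theorem chiModEquiv_equivariant (hχ : ∀ d, ∃ c : O, χ d - χ' d = lam * c)
    (h : Module.End O V) (hh : ∀ d, Commute h (ρ d)) (x : V) :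
    chiModEquiv ρ χ χ' lam hχ
        (Submodule.Quotient.mk (chiMap ρ χ h hh (Submodule.Quotient.mk x))) =
      Submodule.Quotient.mk (chiMap ρ χ' h hh (Submodule.Quotient.mk x)) := by
  rw [chiMap_mk, chiMap_mk, chiModEquiv_mk_mk]

end Quot

/-! ## Freeness of the `χ`-part over the second factor -/

section Basis

variable {D₁ D₂ ι : Type*} [Monoid D₁] [Monoid D₂]
  (ρ : D₁ × D₂ →* Module.End O V) (χ : D₁ →* O) (b : ι → V)

/-- The action of the first factor. -/
def rhoL : D₁ →* Module.End O V := ρ.comp (MonoidHom.inl D₁ D₂)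

/-- The action of the second factor. -/
def rhoR : D₂ →* Module.End O V := ρ.comp (MonoidHom.inr D₁ D₂)

@[simp] theorem rhoL_apply (d : D₁) : rhoL ρ d = ρ (d, 1) := rfl

@[simp] theorem rhoR_apply (d : D₂) : rhoR ρ d = ρ (1, d) := rfl

theorem rho_eq_mul (d₁ : D₁) (d₂ : D₂) : ρ (d₁, d₂) = ρ (d₁, 1) * ρ (1, d₂) := by
  rw [← map_mul, Prod.mk_mul_mk, mul_one, one_mul]

theorem commute_rhoR_rhoL (d₂ : D₂) (d₁ : D₁) : Commute (rhoR ρ d₂) (rhoL ρ d₁) := by
  rw [rhoR_apply, rhoL_apply]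
  change ρ (1, d₂) * ρ (d₁, 1) = ρ (d₁, 1) * ρ (1, d₂)
  rw [← map_mul, ← map_mul, Prod.mk_mul_mk, Prod.mk_mul_mk, mul_one, one_mul, mul_one, one_mul]

/-- The action of the second factor on the `χ`-part (for the first factor). -/
def chiRho : D₂ →* Module.End O (V ⧸ chiRel (rhoL ρ) χ) where
  toFun d := chiMap (rhoL ρ) χ (rhoR ρ d) (commute_rhoR_rhoL ρ d)
  map_one' := by
    refine LinearMap.ext fun y => ?_
    induction y using Submodule.Quotient.induction_on with
    | H x => rw [chiMap_mk, map_one, Module.End.one_apply, Module.End.one_apply]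
  map_mul' d d' := by
    refine LinearMap.ext fun y => ?_
    induction y using Submodule.Quotient.induction_on with
    | H x =>
      rw [Module.End.mul_apply, chiMap_mk, chiMap_mk, chiMap_mk, map_mul, Module.End.mul_apply]

@[simp] theorem chiRho_mk (d : D₂) (x : V) :
    chiRho ρ χ d (Submodule.Quotient.mk x) = Submodule.Quotient.mk (ρ (1, d) x) := rfl

section WithBasis

variable (B : Module.Basis ((D₁ × D₂) × ι) O V) (hB : ∀ z, B z = ρ z.1 (b z.2))

/-- The coordinate map `V → ⨁_{D₂ × ι} O`, `ρ (d₁,d₂) (b i) ↦ χ d₁ · e_{(d₂,i)}`. -/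
noncomputable def chiCoord : V →ₗ[O] (D₂ × ι →₀ O) :=
  B.constr O (fun z : (D₁ × D₂) × ι => Finsupp.single (z.1.2, z.2) (χ z.1.1))

theorem chiCoord_basis (z : (D₁ × D₂) × ι) :
    chiCoord χ B (B z) = Finsupp.single (z.1.2, z.2) (χ z.1.1) := by
  rw [chiCoord, Module.Basis.constr_basis]

include hB in
theorem chiCoord_rho (d : D₁) (x : V) :
    chiCoord χ B (ρ (d, 1) x) = χ d • chiCoord χ B x := by
  have : (chiCoord χ B).comp (ρ (d, 1)) = χ d • chiCoord χ B := by
    refine B.ext fun z => ?_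
    obtain ⟨⟨d₁, d₂⟩, i⟩ := z
    have h1 : ρ (d, 1) (B ((d₁, d₂), i)) = B ((d * d₁, d₂), i) := by
      rw [hB, hB, ← Module.End.mul_apply, ← map_mul, Prod.mk_mul_mk, one_mul]
    rw [LinearMap.comp_apply, h1, LinearMap.smul_apply, chiCoord_basis, chiCoord_basis,
      Finsupp.smul_single, smul_eq_mul, map_mul]
  exact congrArg (fun f : V →ₗ[O] (D₂ × ι →₀ O) => f x) this

include hB in
theorem chiCoord_eq_zero_of_mem {x : V} (hx : x ∈ chiRel (rhoL ρ) χ) : chiCoord χ B x = 0 := by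
  induction hx using Submodule.span_induction with
  | mem w hw =>
    obtain ⟨d, y, rfl⟩ := hw
    rw [map_sub, map_smul, rhoL_apply, chiCoord_rho ρ χ b B hB, sub_self]
  | zero => rw [map_zero]
  | add a c _ _ ha hc => rw [map_add, ha, hc, add_zero]
  | smul c a _ ha => rw [map_smul, ha, smul_zero]

/-- The section `⨁_{D₂ × ι} O → V`, `e_{(d₂,i)} ↦ ρ (1,d₂) (b i)`. -/
noncomputable def chiSec : (D₂ × ι →₀ O) →ₗ[O] V :=
  Finsupp.linearCombination O (fun w : D₂ × ι => ρ (1, w.1) (b w.2))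

theorem chiSec_single (w : D₂ × ι) (c : O) :
    chiSec ρ b (Finsupp.single w c) = c • ρ (1, w.1) (b w.2) := by
  rw [chiSec, Finsupp.linearCombination_single]

include hB in
theorem chiCoord_chiSec (f : D₂ × ι →₀ O) : chiCoord χ B (chiSec ρ b f) = f := by
  have : (chiCoord χ B).comp (chiSec ρ b) = LinearMap.id := by
    refine Finsupp.lhom_ext fun w c => ?_
    have h1 : ρ (1, w.1) (b w.2) = B ((1, w.1), w.2) := (hB ((1, w.1), w.2)).symm
    rw [LinearMap.comp_apply, chiSec_single, map_smul, h1, chiCoord_basis, map_one,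
      Finsupp.smul_single, smul_eq_mul, mul_one, LinearMap.id_apply]
  exact congrArg (fun g : (D₂ × ι →₀ O) →ₗ[O] (D₂ × ι →₀ O) => g f) this

include hB in
theorem sub_chiSec_chiCoord_mem (x : V) :
    x - chiSec ρ b (chiCoord χ B x) ∈ chiRel (rhoL ρ) χ := by
  have hmem : x ∈ (chiRel (rhoL ρ) χ).comap
      (LinearMap.id - (chiSec ρ b).comp (chiCoord χ B)) := by
    have htop : Submodule.span O (Set.range B) ≤ (chiRel (rhoL ρ) χ).comap
        (LinearMap.id - (chiSec ρ b).comp (chiCoord χ B)) := by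
      refine Submodule.span_le.mpr ?_
      rintro _ ⟨⟨⟨d₁, d₂⟩, i⟩, rfl⟩
      rw [SetLike.mem_coe, Submodule.mem_comap, LinearMap.sub_apply, LinearMap.id_apply,
        LinearMap.comp_apply, chiCoord_basis, chiSec_single, hB]
      have h2 : ρ (d₁, d₂) (b i) = rhoL ρ d₁ (ρ (1, d₂) (b i)) := by
        rw [rhoL_apply, ← Module.End.mul_apply, ← rho_eq_mul]
      rw [h2]
      exact sub_mem_chiRel (rhoL ρ) χ d₁ _
    exact htop (by rw [B.span_eq]; exact Submodule.mem_top)
  simpa using hmem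

/-- **The `χ`-part is free over the second factor**: the linear equivalence
`V ⧸ chiRel ≃ ⨁_{D₂ × ι} O`. -/
noncomputable def chiEquiv : (V ⧸ chiRel (rhoL ρ) χ) ≃ₗ[O] (D₂ × ι →₀ O) where
  __ := (chiRel (rhoL ρ) χ).liftQ (chiCoord χ B)
    (fun _ hx => chiCoord_eq_zero_of_mem ρ χ b B hB hx)
  invFun f := Submodule.Quotient.mk (chiSec ρ b f)
  left_inv y := by
    induction y using Submodule.Quotient.induction_on with
    | H x =>
      change Submodule.Quotient.mk (chiSec ρ b (chiCoord χ B x)) = Submodule.Quotient.mk x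
      rw [eq_comm, ← sub_eq_zero, ← Submodule.Quotient.mk_sub, Submodule.Quotient.mk_eq_zero]
      exact sub_chiSec_chiCoord_mem ρ χ b B hB x
  right_inv f := by
    change chiCoord χ B (chiSec ρ b f) = f
    exact chiCoord_chiSec ρ χ b B hB f

/-- The induced basis of the `χ`-part: the classes of the `ρ (1,d₂) (b i)`. -/
noncomputable def chiBasis : Module.Basis (D₂ × ι) O (V ⧸ chiRel (rhoL ρ) χ) :=
  Module.Basis.ofRepr (chiEquiv ρ χ b B hB)

theorem chiBasis_apply (w : D₂ × ι) :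
    chiBasis ρ χ b B hB w = Submodule.Quotient.mk (ρ (1, w.1) (b w.2)) := by
  have h1 : chiBasis ρ χ b B hB w = (chiEquiv ρ χ b B hB).symm (Finsupp.single w 1) := rfl
  rw [h1]
  change Submodule.Quotient.mk (chiSec ρ b (Finsupp.single w 1)) = _
  rw [chiSec_single, one_smul]

theorem chiBasis_apply' (w : D₂ × ι) :
    chiBasis ρ χ b B hB w = chiRho ρ χ w.1 (Submodule.Quotient.mk (b w.2)) := by
  rw [chiBasis_apply, chiRho_mk]

end WithBasis

/-- **Freeness of the `χ`-part** in the shape of `S59.MFree.FreeConclusion` /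
`S59.H525.basis_transfer`: if the `ρ (d₁,d₂) (b i)` form an `O`-basis of `V`, then the
`d₂ • [b i]` form an `O`-basis of the `χ`-part `V ⧸ chiRel`. -/
theorem chi_basis [Nontrivial O]
    (hli : LinearIndependent O (fun z : (D₁ × D₂) × ι => ρ z.1 (b z.2)))
    (hsp : Submodule.span O (Set.range fun z : (D₁ × D₂) × ι => ρ z.1 (b z.2)) = ⊤) :
    LinearIndependent O (fun w : D₂ × ι =>
        chiRho ρ χ w.1 (Submodule.Quotient.mk (b w.2) : V ⧸ chiRel (rhoL ρ) χ)) ∧
      Submodule.span O (Set.range fun w : D₂ × ι =>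
        chiRho ρ χ w.1 (Submodule.Quotient.mk (b w.2) : V ⧸ chiRel (rhoL ρ) χ)) = ⊤ := by
  let B : Module.Basis ((D₁ × D₂) × ι) O V := Module.Basis.mk hli (by rw [hsp])
  have hB : ∀ z, B z = ρ z.1 (b z.2) := fun z => by
    simp only [B, Module.Basis.mk_apply]
  have hfun : (fun w : D₂ × ι =>
      chiRho ρ χ w.1 (Submodule.Quotient.mk (b w.2) : V ⧸ chiRel (rhoL ρ) χ)) =
      chiBasis ρ χ b B hB := by
    funext w
    rw [chiBasis_apply']
  rw [hfun]
  exact ⟨(chiBasis ρ χ b B hB).linearIndependent, (chiBasis ρ χ b B hB).span_eq⟩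

/-- The `χ`-part is nonzero as soon as `V` is (both are free of ranks `|D₂|·n` and
`|D₁|·|D₂|·n`). -/
theorem chi_nontrivial [Nontrivial O] [Nonempty ι]
    (hli : LinearIndependent O (fun z : (D₁ × D₂) × ι => ρ z.1 (b z.2)))
    (hsp : Submodule.span O (Set.range fun z : (D₁ × D₂) × ι => ρ z.1 (b z.2)) = ⊤) :
    Nontrivial (V ⧸ chiRel (rhoL ρ) χ) := by
  let B : Module.Basis ((D₁ × D₂) × ι) O V := Module.Basis.mk hli (by rw [hsp])
  have hB : ∀ z, B z = ρ z.1 (b z.2) := fun z => by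
    simp only [B, Module.Basis.mk_apply]
  obtain ⟨i⟩ := ‹Nonempty ι›
  exact ⟨⟨chiBasis ρ χ b B hB (1, i), 0, (chiBasis ρ χ b B hB).ne_zero (1, i)⟩⟩

end Basis

/-! ## The `χ`-norm: `V ⧸ chiRel` is also the image of `N_χ = ∑ χ(d)⁻¹ d` -/

section Norm

variable {D₁ D₂ ι : Type*} [Group D₁] [Fintype D₁] [Monoid D₂]
  (ρ : D₁ × D₂ →* Module.End O V) (χ : D₁ →* O) (b : ι → V)

theorem chi_mul_chi_inv (d : D₁) : χ d * χ d⁻¹ = 1 := by
  rw [← map_mul, mul_inv_cancel, map_one]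

theorem chi_mul_chi_mul_inv (d a : D₁) : χ d * χ (d * a)⁻¹ = χ a⁻¹ := by
  rw [mul_inv_rev, map_mul, mul_comm (χ a⁻¹), ← mul_assoc, chi_mul_chi_inv, one_mul]

theorem chi_mul_chi_mul_inv' (d a : D₁) : χ d * χ (a * d)⁻¹ = χ a⁻¹ := by
  rw [mul_inv_rev, map_mul, ← mul_assoc, chi_mul_chi_inv, one_mul]

/-- The `χ`-norm `N_χ = ∑_{d ∈ D₁} χ(d⁻¹) ρ(d,1)`; for `χ = 1` the norm of `D₁`. -/
noncomputable def chiNorm : Module.End O V := ∑ d : D₁, χ d⁻¹ • ρ (d, 1)

theorem chiNorm_apply (x : V) : chiNorm ρ χ x = ∑ d : D₁, χ d⁻¹ • ρ (d, 1) x := by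
  rw [chiNorm, LinearMap.sum_apply]
  rfl

theorem rho_one_mul (d a : D₁) (x : V) : ρ (d, 1) (ρ (a, 1) x) = ρ (d * a, 1) x := by
  rw [← Module.End.mul_apply, ← map_mul, Prod.mk_mul_mk, one_mul]

/-- `ρ (d,1) ∘ N_χ = χ(d) N_χ`: the image of `N_χ` lies in the `χ`-isotypic submodule. -/
theorem rho_chiNorm (d : D₁) (x : V) : ρ (d, 1) (chiNorm ρ χ x) = χ d • chiNorm ρ χ x := by
  rw [chiNorm_apply, map_sum, Finset.smul_sum]
  refine Fintype.sum_equiv (Equiv.mulLeft d) _ _ fun a => ?_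
  rw [Equiv.coe_mulLeft, map_smul, rho_one_mul, smul_smul, chi_mul_chi_mul_inv]

/-- `N_χ ∘ ρ (d,1) = χ(d) N_χ`. -/
theorem chiNorm_rho (d : D₁) (x : V) : chiNorm ρ χ (ρ (d, 1) x) = χ d • chiNorm ρ χ x := by
  rw [chiNorm_apply, chiNorm_apply, Finset.smul_sum]
  refine Fintype.sum_equiv (Equiv.mulRight d) _ _ fun a => ?_
  rw [Equiv.coe_mulRight, rho_one_mul, smul_smul, chi_mul_chi_mul_inv']

/-- `N_χ` kills the `χ`-relations. -/
theorem chiNorm_eq_zero_of_mem {x : V} (hx : x ∈ chiRel (rhoL ρ) χ) : chiNorm ρ χ x = 0 := by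
  induction hx using Submodule.span_induction with
  | mem w hw =>
    obtain ⟨d, y, rfl⟩ := hw
    rw [map_sub, map_smul, rhoL_apply, chiNorm_rho, sub_self]
  | zero => rw [map_zero]
  | add a c _ _ ha hc => rw [map_add, ha, hc, add_zero]
  | smul c a _ ha => rw [map_smul, ha, smul_zero]

/-- `N_χ` on a basis vector. -/
theorem chiNorm_rho_basis (d₁ : D₁) (d₂ : D₂) (i : ι) :
    chiNorm ρ χ (ρ (d₁, d₂) (b i)) = ∑ a : D₁, (χ d₁ * χ a⁻¹) • ρ (a, d₂) (b i) := by
  rw [chiNorm_apply]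
  refine Fintype.sum_equiv (Equiv.mulRight d₁) _ _ fun a => ?_
  rw [Equiv.coe_mulRight, ← Module.End.mul_apply, ← map_mul, Prod.mk_mul_mk, one_mul,
    chi_mul_chi_mul_inv']

/-- **Kernel of the `χ`-norm on a free module**: if the `ρ (d₁,d₂) (b i)` form an `O`-basis of
`V`, then `ker N_χ` is the module of `χ`-relations.  (For `χ = 1`: `ker N_{D₁} = I_{D₁} V`.) -/
theorem mem_chiRel_iff_chiNorm_eq_zero
    (B : Module.Basis ((D₁ × D₂) × ι) O V) (hB : ∀ z, B z = ρ z.1 (b z.2)) (x : V) :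
    x ∈ chiRel (rhoL ρ) χ ↔ chiNorm ρ χ x = 0 := by
  classical
  refine ⟨chiNorm_eq_zero_of_mem ρ χ, fun hx => ?_⟩
  -- the coordinate of `N_χ y` at `((1,d₂),i)` is `chiCoord y (d₂,i)`
  have key : ∀ (w : D₂ × ι) (y : V),
      B.repr (chiNorm ρ χ y) ((1, w.1), w.2) = chiCoord χ B y w := by
    intro w
    have hlin : (B.coord ((1, w.1), w.2)) ∘ₗ chiNorm ρ χ = Finsupp.lapply w ∘ₗ chiCoord χ B := by
      refine B.ext fun z => ?_
      obtain ⟨⟨d₁, d₂⟩, i⟩ := z
      rw [LinearMap.comp_apply, LinearMap.comp_apply, chiCoord_basis, Finsupp.lapply_apply, hB,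
        chiNorm_rho_basis, map_sum]
      have hterm : ∀ a : D₁, B.coord ((1, w.1), w.2) ((χ d₁ * χ a⁻¹) • ρ (a, d₂) (b i)) =
          if a = 1 ∧ (d₂, i) = w then χ d₁ else 0 := by
        intro a
        rw [map_smul, ← hB ((a, d₂), i), Module.Basis.coord_apply, B.repr_self,
          Finsupp.single_apply, smul_eq_mul]
        by_cases h : a = 1 ∧ (d₂, i) = w
        · obtain ⟨rfl, rfl⟩ := h
          simp
        · rw [if_neg h, if_neg, mul_zero]
          intro h'
          apply h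
          have h1 := congrArg (fun t : (D₁ × D₂) × ι => t.1.1) h'
          have h2 := congrArg (fun t : (D₁ × D₂) × ι => t.1.2) h'
          have h3 := congrArg (fun t : (D₁ × D₂) × ι => t.2) h'
          exact ⟨h1, Prod.ext h2 h3⟩
      rw [Finset.sum_congr rfl fun a _ => hterm a]
      by_cases hw : (d₂, i) = w
      · rw [Finset.sum_eq_single 1]
        · rw [if_pos ⟨rfl, hw⟩, ← hw, Finsupp.single_eq_same]
        · intro a _ ha
          rw [if_neg (fun h => ha h.1)]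
        · intro h
          exact absurd (Finset.mem_univ _) h
      · rw [Finset.sum_eq_zero (fun a _ => if_neg (fun h => hw h.2)),
          Finsupp.single_apply, if_neg hw]
    intro y
    have := congrArg (fun f : V →ₗ[O] O => f y) hlin
    simpa only [LinearMap.comp_apply, Finsupp.lapply_apply, Module.Basis.coord_apply] using this
  have hcoord : chiCoord χ B x = 0 := by
    refine Finsupp.ext fun w => ?_
    rw [← key w x, hx, map_zero, Finsupp.zero_apply, Finsupp.zero_apply]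
  have := sub_chiSec_chiCoord_mem ρ χ b B hB x
  rwa [hcoord, map_zero, sub_zero] at this

/-- `ker N_χ = ` `χ`-relations, in the `LinearIndependent`/`span` shape. -/
theorem mem_chiRel_iff_chiNorm_eq_zero' [Nontrivial O]
    (hli : LinearIndependent O (fun z : (D₁ × D₂) × ι => ρ z.1 (b z.2)))
    (hsp : Submodule.span O (Set.range fun z : (D₁ × D₂) × ι => ρ z.1 (b z.2)) = ⊤) (x : V) :
    x ∈ chiRel (rhoL ρ) χ ↔ chiNorm ρ χ x = 0 := by
  let B : Module.Basis ((D₁ × D₂) × ι) O V := Module.Basis.mk hli (by rw [hsp])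
  have hB : ∀ z, B z = ρ z.1 (b z.2) := fun z => by
    simp only [B, Module.Basis.mk_apply]
  exact mem_chiRel_iff_chiNorm_eq_zero ρ χ b B hB x

end Norm

end Fermat.Agent.S38.H354

end
-- ===== PACK-END S38/H354/ChiPart.lean

-- ===== PACK-BEGIN S38/H354/ChiGen.lean
section


/-!
# Row HARD, cell HECKE: the `χ`-part, `T`-linear and exponent-indexed form (helper354)

`ChiPart.lean` treats an `O`-module `V` with an `O`-basis indexed by the GROUP `D₁ × D₂`.  The
frozen interfaces (`S59/TW/Spec.lean`: `AutLevel.free`, `AlgStatement`; `S38/IA/Spec.lean`: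
`HasIAModule`) present the Betti module as a module over the Hecke ring `T` (an `O`-algebra),
with a `T`-linear diamond action which factors through a quotient of the group, and with an
`O`-basis indexed by EXPONENTS.  This file (Mathlib + `ChiPart` only) provides the `χ`-part in
that generality:

* `chiRel_add_induction` : the `T`-module of `χ`-relations is additively generated by the
  `ρ d x - χ d • x` (so additive maps killing the generators kill the relations);
* `chiQ_existsUnique`    : if the `ρ (γ₁ e₁, γ₂ e₂) (b i)` form an `O`-basis of `V`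
  (`γ₁ : E₁ → D₁`, `γ₂ : E₂ → D₂` any index maps such that `γ₁ E₁` is stable under translation
  modulo the kernels of `ρ` and `χ`), then every element of the `χ`-part `V ⧸ chiRel` is
  UNIQUELY `∑ i, ∑ e, c i e • ρ (1, γ₂ e) [b i]` — the shape of `AlgStatement`'s `_hb`;
* `chiQ_st`              : (ST) clause of `HasIAModule`: `χ ≡ 1 mod λ`, `t ∈ T` kills
  `V ⧸ I_{D₁} V` ⟹ `∀ m, ∃ m', t • m = algebraMap O T λ • m'` on the `χ`-part;
* `chiQ_range`, `chiRho_pow_eq_one` : the hypotheses `_hrange`, `_hX` of `AlgStatement` descend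
  from `V` to the `χ`-part;
* `exists_basis_of_existsUnique` : from the `∃!`-shape to a `Module.Basis`.
-/

set_option autoImplicit false
set_option linter.unusedSectionVars false

namespace Fermat.Agent.S38.H354

/-! ## `T`-linear relations are additively generated -/

section TInd

variable {T : Type*} [CommRing T] {V : Type*} [AddCommGroup V] [Module T V]
  {D : Type*} [Monoid D]

theorem smul_gen_chiRel (ρ : D →* Module.End T V) (χ : D →* T) (t : T) (d : D) (x : V) :
    t • (ρ d x - χ d • x) = ρ d (t • x) - χ d • (t • x) := by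
  rw [smul_sub, map_smul, smul_comm]

/-- The `T`-module of `χ`-relations is ADDITIVELY generated by the `ρ d x - χ d • x`. -/
theorem chiRel_add_induction (ρ : D →* Module.End T V) (χ : D →* T) {P : V → Prop}
    (hgen : ∀ d x, P (ρ d x - χ d • x)) (h0 : P 0) (hadd : ∀ a b, P a → P b → P (a + b))
    {x : V} (hx : x ∈ chiRel ρ χ) : P x := by
  have key : ∀ t : T, P (t • x) := by
    induction hx using Submodule.span_induction with
    | mem w hw =>
      obtain ⟨d, y, rfl⟩ := hw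
      intro t
      rw [smul_gen_chiRel]
      exact hgen d _
    | zero => intro t; rw [smul_zero]; exact h0
    | add a b _ _ ha hb => intro t; rw [smul_add]; exact hadd _ _ (ha t) (hb t)
    | smul c a _ ha => intro t; rw [smul_smul]; exact ha _
  simpa using key 1

/-- Multiplication by `t ∈ T` as an endomorphism commuting with every `T`-linear action. -/
theorem commute_smul_id (ρ : D →* Module.End T V) (t : T) (d : D) :
    Commute (t • (1 : Module.End T V)) (ρ d) := by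
  refine LinearMap.ext fun x => ?_
  simp only [Module.End.mul_apply, LinearMap.smul_apply, Module.End.one_apply, map_smul]

theorem chiMap_smul_id (ρ : D →* Module.End T V) (χ : D →* T) (t : T) (y : V ⧸ chiRel ρ χ) :
    chiMap ρ χ (t • (1 : Module.End T V)) (commute_smul_id ρ t) y = t • y := by
  induction y using Submodule.Quotient.induction_on with
  | H x =>
    rw [chiMap_mk, LinearMap.smul_apply, Module.End.one_apply, Submodule.Quotient.mk_smul]

end TInd

/-! ## The `T`-valued character, the (ST) clause -/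

section ST

variable {O : Type*} [CommRing O] {T : Type*} [CommRing T] [Algebra O T]
  {V : Type*} [AddCommGroup V] [Module T V] {D : Type*} [Monoid D]

/-- The character `χ : D → O` with values in the `O`-algebra `T`. -/
def chiT (T : Type*) [CommRing T] [Algebra O T] (χ : D →* O) : D →* T :=
  (algebraMap O T : O →* T).comp χ

@[simp] theorem chiT_apply (χ : D →* O) (d : D) : chiT T χ d = algebraMap O T (χ d) := rfl

theorem chiT_one : chiT T (1 : D →* O) = 1 := by
  refine MonoidHom.ext fun d => ?_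
  rw [chiT_apply, MonoidHom.one_apply, map_one, MonoidHom.one_apply]

/-- **(ST) clause of `S38.IA.HasIAModule`, abstractly.**  `χ ≡ 1 mod λ` and `t ∈ T` maps `V` into
the augmentation submodule `I_D V` (i.e. `t` kills the trivial-character part `V ⧸ I_D V`).
Then on the `χ`-part `t • m ∈ λ • (χ-part)`. -/
theorem chiQ_st (ρ : D →* Module.End T V) (χ : D →* O) (lam : O)
    (hχ : ∀ d, ∃ c : O, χ d - 1 = lam * c) (t : T)
    (hkill : ∀ x : V, t • x ∈ chiRel ρ (1 : D →* T)) (y : V ⧸ chiRel ρ (chiT T χ)) :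
    ∃ y' : V ⧸ chiRel ρ (chiT T χ), t • y = algebraMap O T lam • y' := by
  have h := chiMap_mem_lamSub ρ (chiT T χ) (1 : D →* T) (algebraMap O T lam)
    (fun d => by
      obtain ⟨c, hc⟩ := hχ d
      exact ⟨algebraMap O T c, by
        rw [chiT_apply, MonoidHom.one_apply, ← map_mul, ← hc, map_sub, map_one]⟩)
    (t • (1 : Module.End T V)) (commute_smul_id ρ t)
    (fun x => by
      rw [LinearMap.smul_apply, Module.End.one_apply]
      exact hkill x) y
  rw [chiMap_smul_id] at h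
  exact mem_lamSub_iff.mp h

/-- The same with the hypothesis on the trivial-character part `M¹ = V ⧸ I_D V` itself. -/
theorem chiQ_st' (ρ : D →* Module.End T V) (χ : D →* O) (lam : O)
    (hχ : ∀ d, ∃ c : O, χ d - 1 = lam * c) (t : T)
    (hkill : ∀ m : V ⧸ chiRel ρ (1 : D →* T), t • m = 0) (y : V ⧸ chiRel ρ (chiT T χ)) :
    ∃ y' : V ⧸ chiRel ρ (chiT T χ), t • y = algebraMap O T lam • y' := by
  refine chiQ_st ρ χ lam hχ t (fun x => ?_) y
  have := hkill (Submodule.Quotient.mk x)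
  rwa [← Submodule.Quotient.mk_smul, Submodule.Quotient.mk_eq_zero] at this

end ST

/-! ## The hypotheses `_hX`, `_hrange` of `AlgStatement` descend to the `χ`-part -/

section Descend

variable {T : Type*} [CommRing T] {V : Type*} [AddCommGroup V] [Module T V]
  {D₁ D₂ : Type*} [Monoid D₁] [Monoid D₂]
  (ρ : D₁ × D₂ →* Module.End T V) (χ : D₁ →* T)

theorem chiRho_eq_one (d₂ : D₂) (h : ρ (1, d₂) = 1) : chiRho ρ χ d₂ = 1 := by
  refine LinearMap.ext fun y => ?_
  induction y using Submodule.Quotient.induction_on with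
  | H x => rw [chiRho_mk, h, Module.End.one_apply, Module.End.one_apply]

theorem chiRho_pow_eq_one (d₂ : D₂) (N : ℕ) (h : ρ (1, d₂) ^ N = 1) :
    chiRho ρ χ d₂ ^ N = 1 := by
  rw [← map_pow]
  refine chiRho_eq_one ρ χ (d₂ ^ N) ?_
  have : ((1, d₂) : D₁ × D₂) ^ N = (1, d₂ ^ N) := by
    rw [Prod.pow_mk, one_pow]
  rw [← this, map_pow, h]

/-- The comparison `(w - 1) V = (ρ (1,d₂) - 1) V` descends to the `χ`-part. -/
theorem chiQ_range (w : T) (d₂ : D₂)
    (hr : ∀ y : V, (∃ y' : V, y = w • y' - y') ↔ ∃ y' : V, y = ρ (1, d₂) y' - y')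
    (y : V ⧸ chiRel (rhoL ρ) χ) :
    (∃ y' : V ⧸ chiRel (rhoL ρ) χ, y = w • y' - y') ↔
      ∃ y' : V ⧸ chiRel (rhoL ρ) χ, y = chiRho ρ χ d₂ y' - y' := by
  constructor
  · rintro ⟨y', rfl⟩
    induction y' using Submodule.Quotient.induction_on with
    | H x' =>
      obtain ⟨x'', hx''⟩ := (hr (w • x' - x')).mp ⟨x', rfl⟩
      refine ⟨Submodule.Quotient.mk x'', ?_⟩
      rw [chiRho_mk, ← Submodule.Quotient.mk_smul, ← Submodule.Quotient.mk_sub,
        ← Submodule.Quotient.mk_sub, hx'']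
  · rintro ⟨y', rfl⟩
    induction y' using Submodule.Quotient.induction_on with
    | H x' =>
      obtain ⟨x'', hx''⟩ := (hr (ρ (1, d₂) x' - x')).mpr ⟨x', rfl⟩
      refine ⟨Submodule.Quotient.mk x'', ?_⟩
      rw [chiRho_mk, ← Submodule.Quotient.mk_smul, ← Submodule.Quotient.mk_sub,
        ← Submodule.Quotient.mk_sub, hx'']

/-- Every identity between an element of `T` and a combination of diamond operators descends. -/
theorem chiQ_lgc (t : T) (d₂ d₂' : D₂)
    (h : ∀ y : V, t • y = ρ (1, d₂) y + ρ (1, d₂') y) (y : V ⧸ chiRel (rhoL ρ) χ) :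
    t • y = chiRho ρ χ d₂ y + chiRho ρ χ d₂' y := by
  induction y using Submodule.Quotient.induction_on with
  | H x =>
    rw [chiRho_mk, chiRho_mk, ← Submodule.Quotient.mk_smul, ← Submodule.Quotient.mk_add, h]

end Descend

/-! ## Freeness in the exponent-indexed `∃!`-shape -/

section Gen

variable {O : Type*} [CommRing O] {T : Type*} [CommRing T] [Algebra O T]
  {V : Type*} [AddCommGroup V] [Module T V] [Module O V] [IsScalarTower O T V]
  {D₁ D₂ : Type*} [Monoid D₁] [Monoid D₂] {E₁ E₂ ι : Type*}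
  (ρ : D₁ × D₂ →* Module.End T V) (χ : D₁ →* O)
  (γ₁ : E₁ → D₁) (γ₂ : E₂ → D₂) (b : ι → V)
  (B : Module.Basis ((E₁ × E₂) × ι) O V)
  (hB : ∀ z, B z = ρ (γ₁ z.1.1, γ₂ z.1.2) (b z.2))
  (hσ : ∀ (d : D₁) (e₁ : E₁), ∃ e₁' : E₁,
    ρ (d * γ₁ e₁, 1) = ρ (γ₁ e₁', 1) ∧ χ (d * γ₁ e₁) = χ (γ₁ e₁'))
  (e₀ : E₁) (h1 : ρ (γ₁ e₀, 1) = 1) (h1χ : χ (γ₁ e₀) = 1)

/-- The coordinate map `V → ⨁_{E₂ × ι} O`, `ρ (γ₁ e₁, γ₂ e₂) (b i) ↦ χ (γ₁ e₁) · e_{(e₂,i)}`. -/
noncomputable def genCoord : V →ₗ[O] (E₂ × ι →₀ O) :=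
  B.constr O (fun z : (E₁ × E₂) × ι => Finsupp.single (z.1.2, z.2) (χ (γ₁ z.1.1)))

theorem genCoord_basis (z : (E₁ × E₂) × ι) :
    genCoord χ γ₁ B (B z) = Finsupp.single (z.1.2, z.2) (χ (γ₁ z.1.1)) := by
  rw [genCoord, Module.Basis.constr_basis]

include hB hσ in
theorem genCoord_rho (d : D₁) (x : V) :
    genCoord χ γ₁ B (ρ (d, 1) x) = χ d • genCoord χ γ₁ B x := by
  have : (genCoord χ γ₁ B).comp ((ρ (d, 1)).restrictScalars O) = χ d • genCoord χ γ₁ B := by
    refine B.ext fun z => ?_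
    obtain ⟨⟨e₁, e₂⟩, i⟩ := z
    obtain ⟨e₁', hρ, hχ⟩ := hσ d e₁
    have h1 : ρ (d, 1) (B ((e₁, e₂), i)) = B ((e₁', e₂), i) := by
      rw [hB, hB, ← Module.End.mul_apply, ← map_mul, Prod.mk_mul_mk, one_mul]
      change ρ (d * γ₁ e₁, γ₂ e₂) (b i) = ρ (γ₁ e₁', γ₂ e₂) (b i)
      rw [rho_eq_mul ρ (d * γ₁ e₁), rho_eq_mul ρ (γ₁ e₁'), hρ]
    rw [LinearMap.comp_apply, LinearMap.restrictScalars_apply, h1, LinearMap.smul_apply,
      genCoord_basis, genCoord_basis, Finsupp.smul_single, smul_eq_mul, ← map_mul, hχ]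
  exact congrArg (fun f : V →ₗ[O] (E₂ × ι →₀ O) => f x) this

include hB hσ in
theorem genCoord_eq_zero_of_mem {x : V} (hx : x ∈ chiRel (rhoL ρ) (chiT T χ)) :
    genCoord χ γ₁ B x = 0 := by
  refine chiRel_add_induction (rhoL ρ) (chiT T χ) (P := fun x => genCoord χ γ₁ B x = 0)
    ?_ (map_zero _) (fun a c ha hc => by rw [map_add, ha, hc, add_zero]) hx
  intro d y
  rw [map_sub, rhoL_apply, genCoord_rho ρ χ γ₁ γ₂ b B hB hσ, chiT_apply, algebraMap_smul,
    map_smul, sub_self]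

/-- The section `⨁_{E₂ × ι} O → V`, `e_{(e₂,i)} ↦ ρ (1, γ₂ e₂) (b i)`. -/
noncomputable def genSec : (E₂ × ι →₀ O) →ₗ[O] V :=
  Finsupp.linearCombination O (fun w : E₂ × ι => ρ (1, γ₂ w.1) (b w.2))

theorem genSec_single (w : E₂ × ι) (c : O) :
    genSec ρ γ₂ b (Finsupp.single w c) = c • ρ (1, γ₂ w.1) (b w.2) := by
  rw [genSec, Finsupp.linearCombination_single]

include hB h1 h1χ in
theorem genCoord_genSec (f : E₂ × ι →₀ O) : genCoord χ γ₁ B (genSec ρ γ₂ b f) = f := by
  have : (genCoord χ γ₁ B).comp (genSec ρ γ₂ b) = LinearMap.id := by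
    refine Finsupp.lhom_ext fun w c => ?_
    have h2 : ρ (1, γ₂ w.1) (b w.2) = B ((e₀, w.1), w.2) := by
      rw [hB]
      change ρ (1, γ₂ w.1) (b w.2) = ρ (γ₁ e₀, γ₂ w.1) (b w.2)
      rw [rho_eq_mul ρ (γ₁ e₀), h1, one_mul]
    rw [LinearMap.comp_apply, genSec_single, map_smul, h2, genCoord_basis, h1χ,
      Finsupp.smul_single, smul_eq_mul, mul_one, LinearMap.id_apply]
  exact congrArg (fun g : (E₂ × ι →₀ O) →ₗ[O] (E₂ × ι →₀ O) => g f) this

include hB in
theorem sub_genSec_genCoord_mem (x : V) :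
    x - genSec ρ γ₂ b (genCoord χ γ₁ B x) ∈ chiRel (rhoL ρ) (chiT T χ) := by
  have hmem : x ∈ ((chiRel (rhoL ρ) (chiT T χ)).restrictScalars O).comap
      (LinearMap.id - (genSec ρ γ₂ b).comp (genCoord χ γ₁ B)) := by
    have htop : Submodule.span O (Set.range B) ≤
        ((chiRel (rhoL ρ) (chiT T χ)).restrictScalars O).comap
          (LinearMap.id - (genSec ρ γ₂ b).comp (genCoord χ γ₁ B)) := by
      refine Submodule.span_le.mpr ?_
      rintro _ ⟨⟨⟨e₁, e₂⟩, i⟩, rfl⟩
      rw [SetLike.mem_coe, Submodule.mem_comap, LinearMap.sub_apply, LinearMap.id_apply,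
        LinearMap.comp_apply, genCoord_basis, genSec_single, hB,
        Submodule.restrictScalars_mem]
      have h2 : ρ (γ₁ e₁, γ₂ e₂) (b i) = rhoL ρ (γ₁ e₁) (ρ (1, γ₂ e₂) (b i)) := by
        rw [rhoL_apply, ← Module.End.mul_apply, ← rho_eq_mul]
      have h3 : χ (γ₁ e₁) • ρ (1, γ₂ e₂) (b i) =
          chiT T χ (γ₁ e₁) • ρ (1, γ₂ e₂) (b i) := by
        rw [chiT_apply, algebraMap_smul]
      change ρ (γ₁ e₁, γ₂ e₂) (b i) - χ (γ₁ e₁) • ρ (1, γ₂ e₂) (b i) ∈ _
      rw [h2, h3]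
      exact sub_mem_chiRel (rhoL ρ) (chiT T χ) (γ₁ e₁) _
    exact htop (by rw [B.span_eq]; exact Submodule.mem_top)
  simpa using hmem

include hB hσ h1 h1χ in
/-- **Freeness of the `χ`-part, `∃!`-shape, `Finsupp` coefficients.** -/
theorem chiQ_existsUnique_finsupp (y : V ⧸ chiRel (rhoL ρ) (chiT T χ)) :
    ∃! f : E₂ × ι →₀ O, y = Submodule.Quotient.mk (genSec ρ γ₂ b f) := by
  induction y using Submodule.Quotient.induction_on with
  | H x =>
    refine ⟨genCoord χ γ₁ B x, ?_, ?_⟩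
    · change Submodule.Quotient.mk x = Submodule.Quotient.mk _
      rw [← sub_eq_zero, ← Submodule.Quotient.mk_sub, Submodule.Quotient.mk_eq_zero]
      exact sub_genSec_genCoord_mem ρ χ γ₁ γ₂ b B hB x
    · intro f hf
      have hf' : x - genSec ρ γ₂ b f ∈ chiRel (rhoL ρ) (chiT T χ) := by
        rw [← Submodule.Quotient.mk_eq_zero, Submodule.Quotient.mk_sub, sub_eq_zero]
        exact hf
      have h0 := genCoord_eq_zero_of_mem ρ χ γ₁ γ₂ b B hB hσ hf'
      rw [map_sub, genCoord_genSec ρ χ γ₁ γ₂ b B hB e₀ h1 h1χ, sub_eq_zero] at h0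
      exact h0.symm

theorem mk_genSec [Fintype E₂] [Fintype ι] (f : E₂ × ι →₀ O) :
    (Submodule.Quotient.mk (genSec ρ γ₂ b f) : V ⧸ chiRel (rhoL ρ) (chiT T χ)) =
      ∑ i, ∑ e, algebraMap O T (f (e, i)) •
        chiRho ρ (chiT T χ) (γ₂ e) (Submodule.Quotient.mk (b i)) := by
  have h1 : genSec ρ γ₂ b f = ∑ w : E₂ × ι, f w • ρ (1, γ₂ w.1) (b w.2) := by
    rw [genSec, Finsupp.linearCombination_apply]
    exact Finsupp.sum_fintype f _ (fun i => zero_smul O _)
  rw [h1, Fintype.sum_prod_type_right]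
  rw [← Submodule.mkQ_apply, map_sum]
  refine Finset.sum_congr rfl fun i _ => ?_
  rw [map_sum]
  refine Finset.sum_congr rfl fun e _ => ?_
  rw [Submodule.mkQ_apply, chiRho_mk, ← algebraMap_smul T (f (e, i)) (ρ (1, γ₂ e) (b i)),
    Submodule.Quotient.mk_smul]

include hB hσ h1 h1χ in
/-- **Freeness of the `χ`-part in the shape of `AlgStatement`/`AutLevel.free`.**
If the `ρ (γ₁ e₁, γ₂ e₂) (b i)` form an `O`-basis of `V`, every element of the `χ`-part is
uniquely `∑ i, ∑ e, c i e • ρ (1, γ₂ e) [b i]`. -/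
theorem chiQ_existsUnique [Fintype E₂] [Fintype ι] (y : V ⧸ chiRel (rhoL ρ) (chiT T χ)) :
    ∃! c : ι → E₂ → O, y = ∑ i, ∑ e, algebraMap O T (c i e) •
      chiRho ρ (chiT T χ) (γ₂ e) (Submodule.Quotient.mk (b i)) := by
  classical
  obtain ⟨f, hf, hfu⟩ := chiQ_existsUnique_finsupp ρ χ γ₁ γ₂ b B hB hσ e₀ h1 h1χ y
  refine ⟨fun i e => f (e, i), ?_, ?_⟩
  · change y = _
    rw [hf, mk_genSec]
  · intro c hc
    have hc' : y = Submodule.Quotient.mk
        (genSec ρ γ₂ b (Finsupp.equivFunOnFinite.symm (fun w : E₂ × ι => c w.2 w.1))) := by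
      rw [mk_genSec, hc]
      rfl
    have := hfu _ hc'
    funext i e
    rw [← this]
    rfl

end Gen

/-! ## From the `∃!`-shape to a basis -/

section OfExistsUnique

variable {O : Type*} [CommRing O] {T : Type*} [CommRing T] [Algebra O T]
  {V : Type*} [AddCommGroup V] [Module T V] [Module O V] [IsScalarTower O T V]
  {E ι : Type*} [Fintype E] [Fintype ι]

/-- A family which represents every element uniquely is a basis. -/
theorem exists_basis_of_existsUnique (F : E × ι → V)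
    (hV : ∀ y : V, ∃! c : ι → E → O, y = ∑ i, ∑ e, algebraMap O T (c i e) • F (e, i)) :
    ∃ B : Module.Basis (E × ι) O V, ∀ z, B z = F z := by
  classical
  have hsum : ∀ f : E × ι → O, Fintype.linearCombination O F f =
      ∑ i, ∑ e, algebraMap O T (f (e, i)) • F (e, i) := by
    intro f
    rw [Fintype.linearCombination_apply, Fintype.sum_prod_type_right]
    refine Finset.sum_congr rfl fun i _ => Finset.sum_congr rfl fun e _ => ?_
    rw [algebraMap_smul]
  have hbij : Function.Bijective (Fintype.linearCombination O F) := by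
    constructor
    · rw [← LinearMap.ker_eq_bot, LinearMap.ker_eq_bot']
      intro f hf
      obtain ⟨c, -, hcu⟩ := hV 0
      have h1 : (fun i e => f (e, i)) = c := hcu _ (by
        change 0 = ∑ i, ∑ e, algebraMap O T (f (e, i)) • F (e, i)
        rw [← hsum f, hf])
      have h2 : (fun (_ : ι) (_ : E) => (0 : O)) = c := hcu _ (by
        change 0 = ∑ i : ι, ∑ e : E, algebraMap O T (0 : O) • F (e, i)
        simp only [map_zero, zero_smul, Finset.sum_const_zero])
      funext z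
      obtain ⟨e, i⟩ := z
      have := congrFun (congrFun (h1.trans h2.symm) i) e
      simpa using this
    · intro y
      obtain ⟨c, hc, -⟩ := hV y
      refine ⟨fun z => c z.2 z.1, ?_⟩
      rw [hsum]
      exact hc.symm
  refine ⟨Module.Basis.ofEquivFun (LinearEquiv.ofBijective _ hbij).symm, fun z => ?_⟩
  rw [Module.Basis.coe_ofEquivFun, LinearEquiv.symm_symm]
  change (LinearEquiv.ofBijective (Fintype.linearCombination O F) hbij) (Pi.single z 1) = F z
  rw [LinearEquiv.ofBijective_apply, Fintype.linearCombination_apply]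
  rw [Finset.sum_eq_single z]
  · rw [Pi.single_eq_same, one_smul]
  · intro w _ hw
    rw [Pi.single_eq_of_ne hw, zero_smul]
  · intro h
    exact absurd (Finset.mem_univ _) h

end OfExistsUnique

/-! ## Reindexing an `∃!`-basis -/

theorem existsUnique_reindex {O : Type*} [CommRing O] {T : Type*} [CommRing T] [Algebra O T]
    {V : Type*} [AddCommGroup V] [Module T V] {ι E E' : Type*} [Fintype ι] [Fintype E]
    [Fintype E'] (ψ : E' ≃ E) (F : E → ι → V)
    (h : ∀ y : V, ∃! c : ι → E → O, y = ∑ i, ∑ e, algebraMap O T (c i e) • F e i) (y : V) :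
    ∃! c : ι → E' → O, y = ∑ i, ∑ e, algebraMap O T (c i e) • F (ψ e) i := by
  obtain ⟨c, hc, hcu⟩ := h y
  refine ⟨fun i e' => c i (ψ e'), ?_, ?_⟩
  · change y = ∑ i, ∑ e', algebraMap O T (c i (ψ e')) • F (ψ e') i
    rw [hc]
    refine Finset.sum_congr rfl fun i _ => ?_
    exact (Equiv.sum_comp ψ (fun e => algebraMap O T (c i e) • F e i)).symm
  · intro c' hc'
    have h1 : (fun i e => c' i (ψ.symm e)) = c := by
      refine hcu _ ?_
      change y = ∑ i, ∑ e, algebraMap O T (c' i (ψ.symm e)) • F e i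
      rw [hc']
      refine Finset.sum_congr rfl fun i _ => ?_
      rw [← Equiv.sum_comp ψ (fun e => algebraMap O T (c' i (ψ.symm e)) • F e i)]
      refine Finset.sum_congr rfl fun e' _ => ?_
      rw [Equiv.symm_apply_apply]
    funext i e'
    have := congrFun (congrFun h1 i) (ψ e')
    simpa using this

/-! ## Reduction of exponents in a product of cyclic groups -/

section Cyc

variable {k : ℕ} {G₁ : Fin k → Type*} [∀ q, CommGroup (G₁ q)] {A : Type*} [Monoid A]

theorem map_pow_fun_eq_one (F : (∀ q, G₁ q) →* A) (g₁ : ∀ q, G₁ q) (M : Fin k → ℕ)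
    (hF : ∀ q, F (Pi.mulSingle q (g₁ q)) ^ M q = 1) (t : Fin k → ℕ) :
    F (fun q => (g₁ q ^ M q) ^ t q) = 1 := by
  classical
  have hmem : (fun q => (g₁ q ^ M q) ^ t q) ∈ MonoidHom.mker F := by
    have h1 : (fun q => (g₁ q ^ M q) ^ t q) =
        ∏ q, Pi.mulSingle q ((g₁ q ^ M q) ^ t q) :=
      (Finset.univ_prod_mulSingle (fun q => (g₁ q ^ M q) ^ t q)).symm
    rw [h1]
    refine Submonoid.prod_mem _ fun q _ => ?_
    rw [MonoidHom.mem_mker, Pi.mulSingle_pow, Pi.mulSingle_pow, map_pow, map_pow, hF, one_pow]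
  exact hmem

/-- **Translation of exponents.**  `G₁ q` generated by `g₁ q`, `F` a monoid homomorphism on
`∏ G₁ q` with `F (g₁ q) ^ M q = 1`: every translate `d * g₁ ^ e` has the same value under `F` as
some `g₁ ^ e'` with `e' q < M q`. -/
theorem exists_exp_translate (F : (∀ q, G₁ q) →* A) (g₁ : ∀ q, G₁ q) (M : Fin k → ℕ)
    (hM : ∀ q, 0 < M q) (hgen : ∀ (q : Fin k) (a : G₁ q), ∃ s : ℕ, a = g₁ q ^ s)
    (hF : ∀ q, F (Pi.mulSingle q (g₁ q)) ^ M q = 1)
    (d : ∀ q, G₁ q) (e : ∀ q, Fin (M q)) :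
    ∃ e' : ∀ q, Fin (M q),
      F (d * fun q => g₁ q ^ (e q : ℕ)) = F (fun q => g₁ q ^ (e' q : ℕ)) := by
  choose s hs using fun q => hgen q (d q)
  refine ⟨fun q => ⟨(s q + e q) % M q, Nat.mod_lt _ (hM q)⟩, ?_⟩
  have h1 : (d * fun q => g₁ q ^ (e q : ℕ)) =
      (fun q => g₁ q ^ ((s q + e q) % M q)) * fun q => (g₁ q ^ M q) ^ ((s q + e q) / M q) := by
    funext q
    rw [Pi.mul_apply, Pi.mul_apply, hs q, ← pow_add, ← pow_mul, ← pow_add, Nat.mod_add_div]
  rw [h1, map_mul, map_pow_fun_eq_one F g₁ M hF, mul_one]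

end Cyc

end Fermat.Agent.S38.H354

end
-- ===== PACK-END S38/H354/ChiGen.lean

-- ===== PACK-BEGIN S38/H354/ChiChar.lean
section


/-!
# Row HARD, cell HECKE: the character `χ = ⊗ χ_q` at the pivots (helper354)

Mathlib-only.  `p` a prime, `ζ` a primitive `p`-th root of unity in a domain `𝒪`, `pv i` primes with
`p ∣ pv i - 1`.  Then there is a character `χ : ∏ (ℤ/pv i)ˣ → 𝒪` with
* `χ a ^ p = 1`, hence `χ a ≡ 1` modulo `ζ - 1`;
* `χ` is NONTRIVIAL on every primitive root modulo every `pv i`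
  (so `χ_q` has order `p` and conductor `q` for every pivot `q`).
-/

set_option autoImplicit false
set_option linter.unusedSectionVars false
set_option linter.style.haveILetI false

namespace Fermat.Agent.S38.H354

/-- In a domain with a primitive `p`-th root of unity `ζ`, every `p`-th root of unity is
congruent to `1` modulo `ζ - 1`. -/
theorem exists_sub_one_eq_of_pow_eq_one {𝒪 : Type*} [CommRing 𝒪] [IsDomain 𝒪] {p : ℕ}
    (hp : 0 < p) {ζ : 𝒪} (hζ : IsPrimitiveRoot ζ p) {x : 𝒪} (hx : x ^ p = 1) :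
    ∃ c : 𝒪, x - 1 = (ζ - 1) * c := by
  haveI : NeZero p := ⟨hp.ne'⟩
  obtain ⟨n, -, rfl⟩ := hζ.eq_pow_of_pow_eq_one hx
  have h := sub_dvd_pow_sub_pow ζ 1 n
  rw [one_pow] at h
  exact h

section OneFactor

variable {𝒪 : Type*} [CommRing 𝒪] [IsDomain 𝒪] {p : ℕ}

/-- The character of order `p` of `(ℤ/q)ˣ` attached to a generator and a primitive `p`-th root of
unity. -/
theorem exists_character_one (hp : p.Prime) {ζ : 𝒪} (hζ : IsPrimitiveRoot ζ p)
    {q : ℕ} (hq : q.Prime) (hdvd : p ∣ q - 1) :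
    ∃ χ : (ZMod q)ˣ →* 𝒪, (∀ a, χ a ^ p = 1) ∧
      ∀ g : (ZMod q)ˣ, orderOf g = q - 1 → χ g ≠ 1 := by
  haveI : Fact q.Prime := ⟨hq⟩
  haveI : NeZero p := ⟨hp.ne_zero⟩
  obtain ⟨g₀, hg₀⟩ := IsCyclic.exists_generator (α := (ZMod q)ˣ)
  have hord : orderOf g₀ = q - 1 := by
    rw [orderOf_eq_card_of_forall_mem_zpowers hg₀, Nat.card_eq_fintype_card, ZMod.card_units]
  -- the unit `ζ`
  have hζu : IsUnit ζ := hζ.isUnit hp.ne_zero
  obtain ⟨u, hu⟩ := hζu
  have hup : u ^ p = 1 := by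
    apply Units.ext
    rw [Units.val_pow_eq_pow_val, hu, hζ.pow_eq_one, Units.val_one]
  have hou : orderOf u ∣ orderOf g₀ := by
    rw [hord]
    exact (orderOf_dvd_of_pow_eq_one hup).trans hdvd
  let f : (ZMod q)ˣ →* 𝒪ˣ := monoidHomOfForallMemZpowers hg₀ hou
  have hf : f g₀ = u := monoidHomOfForallMemZpowers_apply_gen hg₀ hou
  have hfp : ∀ a, f a ^ p = 1 := by
    intro a
    obtain ⟨n, rfl⟩ := Subgroup.mem_zpowers_iff.mp (hg₀ a)
    rw [map_zpow, hf, ← zpow_natCast, ← zpow_mul, mul_comm, zpow_mul, zpow_natCast, hup,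
      one_zpow]
  refine ⟨(Units.coeHom 𝒪).comp f, fun a => ?_, fun g hg hχ => ?_⟩
  · rw [MonoidHom.comp_apply, Units.coeHom_apply, ← Units.val_pow_eq_pow_val, hfp,
      Units.val_one]
  · -- `g₀` is a power of the generator `g`
    have hgen : ∀ x : (ZMod q)ˣ, x ∈ Subgroup.zpowers g := by
      have hcard : Nat.card (Subgroup.zpowers g) = Nat.card (ZMod q)ˣ := by
        rw [Nat.card_zpowers, hg, Nat.card_eq_fintype_card, ZMod.card_units]
      have htop : Subgroup.zpowers g = ⊤ := Subgroup.eq_top_of_card_eq _ hcard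
      intro x
      rw [htop]
      exact Subgroup.mem_top x
    obtain ⟨n, hn⟩ := Subgroup.mem_zpowers_iff.mp (hgen g₀)
    have hfg : f g = 1 := by
      apply Units.ext
      rw [Units.val_one]
      exact hχ
    have h1 : u = 1 := by
      rw [← hf, ← hn, map_zpow, hfg, one_zpow]
    apply hζ.ne_one hp.one_lt
    rw [← hu, h1, Units.val_one]

end OneFactor

/-- **The character at the pivots.** -/
theorem exists_pivot_character {𝒪 : Type*} [CommRing 𝒪] [IsDomain 𝒪] {p : ℕ} (hp : p.Prime)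
    {ζ : 𝒪} (hζ : IsPrimitiveRoot ζ p) {k : ℕ} (pv : Fin k → ℕ) (hpv : ∀ i, (pv i).Prime)
    (hdvd : ∀ i, p ∣ pv i - 1) :
    ∃ χ : (∀ i : Fin k, (ZMod (pv i))ˣ) →* 𝒪,
      (∀ a, χ a ^ p = 1) ∧ (∀ a, ∃ c : 𝒪, χ a - 1 = (ζ - 1) * c) ∧
      ∀ (i : Fin k) (g : (ZMod (pv i))ˣ), orderOf g = pv i - 1 → χ (Pi.mulSingle i g) ≠ 1 := by
  classical
  choose χ₁ hχp hχg using fun i => exists_character_one hp hζ (hpv i) (hdvd i)
  let χ : (∀ i : Fin k, (ZMod (pv i))ˣ) →* 𝒪 :=
    ∏ i, (χ₁ i).comp (Pi.evalMonoidHom (fun i => (ZMod (pv i))ˣ) i)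
  have hχ : ∀ a, χ a = ∏ i, χ₁ i (a i) := by
    intro a
    simp only [χ, MonoidHom.finsetProd_apply, MonoidHom.comp_apply, Pi.evalMonoidHom_apply]
  have hpow : ∀ a, χ a ^ p = 1 := by
    intro a
    rw [hχ, ← Finset.prod_pow]
    exact Finset.prod_eq_one fun i _ => hχp i (a i)
  refine ⟨χ, hpow, fun a => exists_sub_one_eq_of_pow_eq_one hp.pos hζ (hpow a), ?_⟩
  intro i g hg
  have h1 : χ (Pi.mulSingle i g) = χ₁ i g := by
    rw [hχ, Finset.prod_eq_single i]
    · rw [Pi.mulSingle_eq_same]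
    · intro j _ hj
      rw [Pi.mulSingle_eq_of_ne hj, map_one]
    · intro h
      exact absurd (Finset.mem_univ i) h
  rw [h1]
  exact hχg i g hg

end Fermat.Agent.S38.H354

end
-- ===== PACK-END S38/H354/ChiChar.lean

-- ===== PACK-BEGIN S59/TW/H494/UnipInertia.lean
section



/-!
# Row S59 / HARD, cell TW, leaf CMP, part (T) — Galois core, step 1 (helper494)

**Unipotent inertia forces the inertia values to be `1`.**

`ρ : GaloisRepAdic A` over a domain, unipotent on inertia at `q`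
(`GaloisRepAdic.IsUnipotentOnInertiaAt`: every element of an inertia group at `q` has
characteristic polynomial `(X - 1)²`), `P` a place over `q`, `φ` in the decomposition group of `P`
(e.g. a Frobenius), `σ` in the inertia group of `P`.  Then

* `trace_mul_eq_of_isUnipotent` : `tr ρ(φ σ) = tr ρ(φ)`;
* `IsInertiaValue.eq_one_of_isUnipotent` : every inertia value `w` of `ρ` at `(φ, σ)`
  (`TW.H959.IsInertiaValue`) is `1`.

No hypothesis on the residual representation, no tame relation: with `N = ρ(σ) - 1` and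
`Φ = ρ(φ)` the `2 × 2` identity `tr(Φ N)² = - tr(N Φ N adj Φ)` (valid when `tr N = det N = 0`)
and the unipotency of `σ` and of `σ · φ σ φ⁻¹` (inertia is normal in the decomposition group)
give `tr(Φ N)² = 0`.

Mathlib + `TW/H959/Iface` (definition of `IsInertiaValue`) only.
-/

set_option autoImplicit false

open Matrix Polynomial IsLocalRing

namespace Fermat.Agent.S59.TW.H494

/-! ## The `2 × 2` identity -/

section Mat

variable {R : Type*} [CommRing R]

/-- For `2 × 2` matrices with `tr N = det N = 0`: `tr(Φ N)² = - tr(N Φ N adj Φ)`. -/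
theorem trace_mul_sq_eq494 (Φ N : Matrix (Fin 2) (Fin 2) R) (htr : N.trace = 0)
    (hdet : N.det = 0) :
    (Φ * N).trace ^ 2 = - (N * Φ * N * Φ.adjugate).trace := by
  have h11 : N 1 1 = - N 0 0 := by
    rw [Matrix.trace_fin_two] at htr
    exact eq_neg_of_add_eq_zero_right htr
  rw [Matrix.det_fin_two, h11] at hdet
  simp only [Matrix.trace_fin_two, Matrix.mul_apply, Fin.sum_univ_two, Matrix.adjugate_fin_two,
    Matrix.of_apply, Matrix.cons_val', Matrix.cons_val_zero, Matrix.cons_val_one,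
    Matrix.cons_val_fin_one, h11]
  linear_combination (-(Φ 0 0 ^ 2 + Φ 1 1 ^ 2 + 2 * Φ 0 1 * Φ 1 0)) * hdet

/-- `det (S - 1) = det S - tr S + 1` for `2 × 2` matrices. -/
theorem det_sub_one494 (S : Matrix (Fin 2) (Fin 2) R) :
    (S - 1).det = S.det - S.trace + 1 := by
  simp only [Matrix.det_fin_two, Matrix.trace_fin_two, Matrix.sub_apply, Matrix.one_apply_eq,
    Matrix.one_apply_ne, ne_eq, zero_ne_one, one_ne_zero, not_false_eq_true, sub_zero,
    Fin.isValue]
  ring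

/-- Trace and determinant of a `2 × 2` matrix with characteristic polynomial `(X - 1)²`. -/
theorem trace_det_of_charpoly494 [Nontrivial R] (S : Matrix (Fin 2) (Fin 2) R)
    (h : S.charpoly = (X - 1) ^ 2) : S.trace = 2 ∧ S.det = 1 := by
  rw [Matrix.charpoly_fin_two] at h
  have h1 := congrArg (fun P : R[X] => P.coeff 1) h
  have h0 := congrArg (fun P : R[X] => P.coeff 0) h
  have e : ((X : R[X]) - 1) ^ 2 = X ^ 2 - C (2 : R) * X + C (1 : R) := by
    simp only [map_ofNat, map_one]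
    ring
  simp only [e] at h1 h0
  simp only [coeff_add, coeff_sub, coeff_X_pow, coeff_C_mul, coeff_X_one, coeff_C,
    coeff_X_zero] at h1 h0
  norm_num at h1 h0
  exact ⟨h1, h0⟩

/-- **The matrix core.**  `Φ Ψ = 1`, `S` and `S · Φ S Ψ` have characteristic polynomial
`(X - 1)²`; then `tr(Φ S) = tr Φ` (over a domain). -/
theorem trace_mul_eq_of_unip_mat494 [IsDomain R] (Φ Ψ S : Matrix (Fin 2) (Fin 2) R)
    (hΦΨ : Φ * Ψ = 1) (hS : S.charpoly = (X - 1) ^ 2)
    (hSS : (S * (Φ * S * Ψ)).charpoly = (X - 1) ^ 2) :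
    (Φ * S).trace = Φ.trace := by
  obtain ⟨htrS, hdetS⟩ := trace_det_of_charpoly494 S hS
  obtain ⟨htrSS, -⟩ := trace_det_of_charpoly494 _ hSS
  have hΨΦ : Ψ * Φ = 1 := mul_eq_one_comm.mp hΦΨ
  set N : Matrix (Fin 2) (Fin 2) R := S - 1 with hN
  have hSN : S = 1 + N := by rw [hN]; abel
  have htrN : N.trace = 0 := by
    rw [hN, Matrix.trace_sub, htrS, Matrix.trace_one, Fintype.card_fin]
    norm_num
  have hdetN : N.det = 0 := by
    rw [hN, det_sub_one494, hdetS, htrS]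
    norm_num
  -- `tr (N Φ N Ψ) = 0`
  have h1 : (N * Φ * N * Ψ).trace = 0 := by
    have e : S * (Φ * S * Ψ) = 1 + Φ * N * Ψ + N + N * Φ * N * Ψ := by
      rw [hSN]
      simp only [Matrix.mul_add, Matrix.add_mul, Matrix.mul_one, Matrix.one_mul, hΦΨ,
        Matrix.mul_assoc]
      abel
    rw [e, Matrix.trace_add, Matrix.trace_add, Matrix.trace_add, Matrix.trace_one,
      Fintype.card_fin, htrN] at htrSS
    have e2 : (Φ * N * Ψ).trace = 0 := by
      rw [Matrix.trace_mul_cycle, hΨΦ, Matrix.one_mul, htrN]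
    rw [e2] at htrSS
    have : ((2 : ℕ) : R) + 0 + 0 + (N * Φ * N * Ψ).trace = 2 := htrSS
    have h2 : ((2 : ℕ) : R) = 2 := by norm_num
    rw [h2] at this
    linear_combination this
  -- `adj Φ = det Φ • Ψ`
  have hadj : Φ.adjugate = Φ.det • Ψ := by
    calc Φ.adjugate = Φ.adjugate * (Φ * Ψ) := by rw [hΦΨ, Matrix.mul_one]
      _ = (Φ.adjugate * Φ) * Ψ := by rw [Matrix.mul_assoc]
      _ = Φ.det • Ψ := by rw [Matrix.adjugate_mul, Matrix.smul_mul, Matrix.one_mul]
  have h2 : (Φ * N).trace ^ 2 = 0 := by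
    rw [trace_mul_sq_eq494 Φ N htrN hdetN, hadj, Matrix.mul_smul, Matrix.trace_smul, h1,
      smul_zero, neg_zero]
  have h3 : (Φ * N).trace = 0 := pow_eq_zero_iff (two_ne_zero) |>.mp h2
  rw [hSN, Matrix.mul_add, Matrix.mul_one, Matrix.trace_add, h3, add_zero]

end Mat

/-! ## Endomorphisms of a free module of rank two -/

section End

variable {A : Type*} [CommRing A] [IsDomain A] {V : Type*} [AddCommGroup V] [Module A V]
  [Module.Free A V] [Module.Finite A V]

/-- **The endomorphism core.** -/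
theorem trace_mul_eq_of_unip_end494 (hV : Module.finrank A V = 2) (Φ Ψ S : Module.End A V)
    (hΦΨ : Φ * Ψ = 1) (hS : LinearMap.charpoly S = (X - 1) ^ 2)
    (hSS : LinearMap.charpoly (S * (Φ * S * Ψ)) = (X - 1) ^ 2) :
    LinearMap.trace A V (Φ * S) = LinearMap.trace A V Φ := by
  classical
  set b := Module.finBasisOfFinrankEq A V hV with hb
  have hmul : ∀ f g : Module.End A V,
      LinearMap.toMatrix b b (f * g) = LinearMap.toMatrix b b f * LinearMap.toMatrix b b g :=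
    fun f g => LinearMap.toMatrix_mul b f g
  rw [LinearMap.trace_eq_matrix_trace A b, LinearMap.trace_eq_matrix_trace A b, hmul]
  refine trace_mul_eq_of_unip_mat494 _ (LinearMap.toMatrix b b Ψ) _ ?_ ?_ ?_
  · rw [← hmul, hΦΨ]
    exact LinearMap.toMatrix_one b
  · rw [LinearMap.charpoly_toMatrix, hS]
  · rw [← hmul, ← hmul, ← hmul, LinearMap.charpoly_toMatrix, hSS]

end End

/-! ## Galois representations -/

section Gal

variable {A : Type} [CommRing A] [IsLocalRing A]

/-- Inertia is normal in the decomposition group. -/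
theorem conj_mem_inertiaSubgroupIn494 (P : ValuationSubring (AlgebraicClosure ℚ))
    {φ σ : AlgebraicClosure ℚ ≃ₐ[ℚ] AlgebraicClosure ℚ}
    (hφ : φ ∈ P.decompositionSubgroup ℚ) (hσ : σ ∈ P.inertiaSubgroupIn ℚ) :
    φ * σ * φ⁻¹ ∈ P.inertiaSubgroupIn ℚ := by
  obtain ⟨s, hs, hsσ⟩ := hσ
  have hn : (P.inertiaSubgroup ℚ).Normal := MonoidHom.normal_ker _
  set d : P.decompositionSubgroup ℚ := ⟨φ, hφ⟩ with hd
  refine ⟨d * s * d⁻¹, hn.conj_mem s hs d, ?_⟩
  rw [map_mul, map_mul, map_inv, hsσ]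
  rfl

/-- `tr ρ(φ σ) = tr ρ(φ)` for `φ` in the decomposition group and `σ` in the inertia group of a
place over `q`, if `ρ` is unipotent on inertia at `q`. -/
theorem trace_mul_eq_of_isUnipotent494 [IsDomain A] {ρ : GaloisRepAdic A} {q : ℕ}
    (hu : ρ.IsUnipotentOnInertiaAt q)
    {P : ValuationSubring (AlgebraicClosure ℚ)} (hP : P.LiesOverPrime q)
    {φ σ : AlgebraicClosure ℚ ≃ₐ[ℚ] AlgebraicClosure ℚ}
    (hφ : φ ∈ P.decompositionSubgroup ℚ) (hσ : σ ∈ P.inertiaSubgroupIn ℚ) :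
    ρ.trace (φ * σ) = ρ.trace φ := by
  unfold GaloisRepAdic.trace
  rw [map_mul]
  refine trace_mul_eq_of_unip_end494 ρ.finrank_eq (ρ.ρ φ) (ρ.ρ φ⁻¹) (ρ.ρ σ) ?_
    (hu P hP σ hσ) ?_
  · rw [← map_mul, mul_inv_cancel, map_one]
  · have h1 : σ * (φ * σ * φ⁻¹) ∈ P.inertiaSubgroupIn ℚ :=
      (P.inertiaSubgroupIn ℚ).mul_mem hσ (conj_mem_inertiaSubgroupIn494 P hφ hσ)
    have h2 := hu P hP _ h1
    rwa [map_mul, map_mul, map_mul] at h2

/-- The trace of an endomorphism of a free module of rank two with characteristic polynomial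
`(X - a)(X - b)` is `a + b`. -/
theorem trace_of_charpoly_eq494 {V : Type*} [AddCommGroup V] [Module A V]
    [Module.Free A V] [Module.Finite A V] (hV : Module.finrank A V = 2) (f : Module.End A V)
    {a b : A} (h : LinearMap.charpoly f = (X - C a) * (X - C b)) :
    LinearMap.trace A V f = a + b := by
  classical
  set bs := Module.finBasisOfFinrankEq A V hV
  rw [LinearMap.trace_eq_matrix_trace A bs]
  rw [← LinearMap.charpoly_toMatrix f bs, Matrix.charpoly_fin_two] at h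
  have h1 := congrArg (fun P : A[X] => P.coeff 1) h
  have e : (X - C a) * (X - C b) = X ^ 2 - C (a + b) * X + C (a * b) := by
    simp only [map_add, map_mul]
    ring
  simp only [e] at h1
  simp only [coeff_add, coeff_sub, coeff_X_pow, coeff_C_mul, coeff_X_one, coeff_C] at h1
  norm_num at h1
  linear_combination -h1

/-- **Unipotent inertia ⟹ inertia value `1`.**  If `ρ` (over a local domain) is unipotent on
inertia at `q`, `P` is a place over `q`, `φ` is in the decomposition group of `P` and `σ` in its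
inertia group, then every inertia value of `ρ` at `(φ, σ)` is `1`. -/
theorem isInertiaValue_eq_one_of_isUnipotent494 [IsDomain A] {ρ : GaloisRepAdic A} {q : ℕ}
    (hu : ρ.IsUnipotentOnInertiaAt q)
    {P : ValuationSubring (AlgebraicClosure ℚ)} (hP : P.LiesOverPrime q)
    {φ σ : AlgebraicClosure ℚ ≃ₐ[ℚ] AlgebraicClosure ℚ}
    (hφ : φ ∈ P.decompositionSubgroup ℚ) (hσ : σ ∈ P.inertiaSubgroupIn ℚ)
    {a₀ w : A} (hw : Fermat.Agent.S59.TW.H959.IsInertiaValue ρ φ σ a₀ w) : w = 1 := by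
  obtain ⟨a, b, -, hunit, hcp, hrel⟩ := hw
  have h1 : ρ.trace (φ * σ) = a + b := by
    rw [trace_mul_eq_of_isUnipotent494 hu hP hφ hσ]
    exact trace_of_charpoly_eq494 ρ.finrank_eq _ hcp
  have h2 : ρ.trace σ = 2 := by
    have h := hu P hP σ hσ
    have e : ((X : A[X]) - 1) ^ 2 = (X - C 1) * (X - C 1) := by
      rw [map_one]; ring
    rw [e] at h
    have := trace_of_charpoly_eq494 ρ.finrank_eq _ h
    rw [show ρ.trace σ = LinearMap.trace A ρ.V (ρ.ρ σ) from rfl, this]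
    norm_num
  rw [h1, h2] at hrel
  have h3 : (a - b) * w = (a - b) * 1 := by linear_combination hrel
  exact hunit.mul_left_cancel h3

/-- The same for a Frobenius `φ` at `P`. -/
theorem isInertiaValue_eq_one_of_isUnipotent_frob494 [IsDomain A] {ρ : GaloisRepAdic A} {q : ℕ}
    (hu : ρ.IsUnipotentOnInertiaAt q)
    {P : ValuationSubring (AlgebraicClosure ℚ)} (hP : P.LiesOverPrime q)
    {φ σ : AlgebraicClosure ℚ ≃ₐ[ℚ] AlgebraicClosure ℚ}
    (hφ : P.IsFrobeniusAt φ q) (hσ : σ ∈ P.inertiaSubgroupIn ℚ)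
    {a₀ w : A} (hw : Fermat.Agent.S59.TW.H959.IsInertiaValue ρ φ σ a₀ w) : w = 1 :=
  isInertiaValue_eq_one_of_isUnipotent494 hu hP hφ.mem_decompositionSubgroup hσ hw

end Gal

end Fermat.Agent.S59.TW.H494

end
-- ===== PACK-END S59/TW/H494/UnipInertia.lean

-- ===== PACK-BEGIN S38/H227/SuppRelCore.lean
section


/-!
# Row HARD / S59-TW, (NU): SUPP-REL, abstract core (Mathlib only)   (helper227)

`V ⊆ X` an `𝒪`-submodule stable under a family `B : σ₁ ⊕ σ₂ → End_ℤ X` of `𝒪`-linear operators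
(think: `X = Hom(K, 𝒪)`, `B (inl ℓ) = ⟨u ℓ⟩ T_ℓ`, `B (inr j) = ⟨d_j⟩` a diamond operator), the
`B (inr j)` commuting with all the `B s` on `V`; `χ : σ₂ → 𝒪` scalars and
`W = span {B (inr j) y - χ j • y | y ∈ V}` the `χ`-relations.  A commutative `𝒪`-algebra `T` acts
on `V` by `a`, `a (τ i) = B (inl i)` on `V`, and `x : T → 𝒪'` is a point of `T` through the
annihilator of `V / (W ∩ V)`, i.e. `x t = 0` as soon as `a t V ⊆ W`.

`suppRel_core` : every noncommutative polynomial `P` in `σ₁ ⊕ σ₂` with `P(B) = 0` on `V` satisfies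
`P(x (τ i), χ j) = 0` in `𝒪'`.
-/

set_option autoImplicit false

namespace Fermat.Agent.S38.H227

section Core

variable {𝒪 : Type*} [CommRing 𝒪] {X : Type*} [AddCommGroup X] [Module 𝒪 X]
  {σ₁ σ₂ : Type*}

/-- The `χ`-relations: the `𝒪`-span of the `B (inr j) y - χ j • y`, `y ∈ V`. -/
def relSpan (V : Submodule 𝒪 X) (B : σ₁ ⊕ σ₂ → Module.End ℤ X) (χ : σ₂ → 𝒪) : Submodule 𝒪 X :=
  Submodule.span 𝒪 {w | ∃ j, ∃ y ∈ V, w = B (Sum.inr j) y - χ j • y}

variable (V : Submodule 𝒪 X) (B : σ₁ ⊕ σ₂ → Module.End ℤ X) (χ : σ₂ → 𝒪)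

/-- The `χ`-relations are stable under the operators. -/
theorem relSpan_stable_gen
    (hBlin : ∀ s (c : 𝒪) (x : X), B s (c • x) = c • B s x)
    (hBV : ∀ s, ∀ v ∈ V, B s v ∈ V)
    (hcomm : ∀ s j, ∀ v ∈ V, B s (B (Sum.inr j) v) = B (Sum.inr j) (B s v))
    (s : σ₁ ⊕ σ₂) (w : X) (hw : w ∈ relSpan V B χ) : B s w ∈ relSpan V B χ := by
  unfold relSpan at hw ⊢
  induction hw using Submodule.span_induction with
  | mem w hw =>
    obtain ⟨j, y, hy, rfl⟩ := hw
    refine Submodule.subset_span ⟨j, B s y, hBV s y hy, ?_⟩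
    rw [map_sub, hcomm s j y hy, hBlin]
  | zero => rw [map_zero]; exact Submodule.zero_mem _
  | add a b _ _ ha hb => rw [map_add]; exact Submodule.add_mem _ ha hb
  | smul c a _ ha => rw [hBlin]; exact Submodule.smul_mem _ c ha

/-- The `χ`-relations are stable under all noncommutative polynomials in the operators. -/
theorem relSpan_stable
    (hBlin : ∀ s (c : 𝒪) (x : X), B s (c • x) = c • B s x)
    (hBV : ∀ s, ∀ v ∈ V, B s v ∈ V)
    (hcomm : ∀ s j, ∀ v ∈ V, B s (B (Sum.inr j) v) = B (Sum.inr j) (B s v))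
    (Q : FreeAlgebra ℤ (σ₁ ⊕ σ₂)) (w : X) (hw : w ∈ relSpan V B χ) :
    FreeAlgebra.lift ℤ B Q w ∈ relSpan V B χ := by
  induction Q using FreeAlgebra.induction generalizing w with
  | grade0 r =>
    rw [AlgHom.commutes, Module.algebraMap_end_apply]
    exact zsmul_mem hw r
  | grade1 s =>
    rw [FreeAlgebra.lift_ι_apply]
    exact relSpan_stable_gen V B χ hBlin hBV hcomm s w hw
  | mul a b ha hb =>
    rw [map_mul, Module.End.mul_apply]
    exact ha _ (hb _ hw)
  | add a b ha hb =>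
    rw [map_add, LinearMap.add_apply]
    exact Submodule.add_mem _ (ha _ hw) (hb _ hw)

variable {T : Type*} [CommRing T] [Algebra 𝒪 T] (a : T →ₐ[𝒪] Module.End 𝒪 V) (τ : σ₁ → T)

/-- The generators of `T` attached to the two families: `τ i` and the scalars `χ j`. -/
def genT : σ₁ ⊕ σ₂ → T := Sum.elim τ (fun j => algebraMap 𝒪 T (χ j))

/-- Modulo the `χ`-relations, the action of `P(τ, χ) ∈ T` on `V` is `P(B)`. -/
theorem act_sub_lift_mem
    (hBlin : ∀ s (c : 𝒪) (x : X), B s (c • x) = c • B s x)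
    (hBV : ∀ s, ∀ v ∈ V, B s v ∈ V)
    (hcomm : ∀ s j, ∀ v ∈ V, B s (B (Sum.inr j) v) = B (Sum.inr j) (B s v))
    (ha : ∀ i (v : V), ((a (τ i) v : V) : X) = B (Sum.inl i) v)
    (Q : FreeAlgebra ℤ (σ₁ ⊕ σ₂)) (v : V) :
    ((a (FreeAlgebra.lift ℤ (genT χ τ) Q) v : V) : X) - FreeAlgebra.lift ℤ B Q v
      ∈ relSpan V B χ := by
  induction Q using FreeAlgebra.induction generalizing v with
  | grade0 r =>
    have h1 : a (algebraMap ℤ T r) = (r : Module.End 𝒪 V) := by
      rw [algebraMap_int_eq, eq_intCast, map_intCast]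
    have h2 : (((r : Module.End 𝒪 V) v : V) : X) = r • (v : X) := by
      rw [Module.End.intCast_apply]
      rfl
    rw [AlgHom.commutes, AlgHom.commutes, h1, h2, Module.algebraMap_end_apply, sub_self]
    exact Submodule.zero_mem _
  | grade1 s =>
    rw [FreeAlgebra.lift_ι_apply, FreeAlgebra.lift_ι_apply]
    rcases s with i | j
    · show ((a (τ i) v : V) : X) - B (Sum.inl i) v ∈ _
      rw [ha, sub_self]
      exact Submodule.zero_mem _
    · show ((a (algebraMap 𝒪 T (χ j)) v : V) : X) - B (Sum.inr j) v ∈ _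
      rw [AlgHom.commutes, Module.algebraMap_end_apply, Submodule.coe_smul]
      have h : χ j • (v : X) - B (Sum.inr j) v = -(B (Sum.inr j) v - χ j • (v : X)) := by abel
      rw [h]
      exact Submodule.neg_mem _ (Submodule.subset_span ⟨j, v, v.2, rfl⟩)
  | mul p q hp hq =>
    rw [map_mul, map_mul, map_mul, Module.End.mul_apply, Module.End.mul_apply]
    have h : ((a (FreeAlgebra.lift ℤ (genT χ τ) p) (a (FreeAlgebra.lift ℤ (genT χ τ) q) v) : V)
          : X) - FreeAlgebra.lift ℤ B p (FreeAlgebra.lift ℤ B q v)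
        = (((a (FreeAlgebra.lift ℤ (genT χ τ) p) (a (FreeAlgebra.lift ℤ (genT χ τ) q) v) : V)
          : X) - FreeAlgebra.lift ℤ B p ((a (FreeAlgebra.lift ℤ (genT χ τ) q) v : V) : X))
          + FreeAlgebra.lift ℤ B p
            (((a (FreeAlgebra.lift ℤ (genT χ τ) q) v : V) : X) - FreeAlgebra.lift ℤ B q v) := by
      rw [map_sub]; abel
    rw [h]
    exact Submodule.add_mem _ (hp _) (relSpan_stable V B χ hBlin hBV hcomm p _ (hq v))
  | add p q hp hq =>
    rw [map_add, map_add, map_add, LinearMap.add_apply, LinearMap.add_apply, Submodule.coe_add]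
    have h : ((a (FreeAlgebra.lift ℤ (genT χ τ) p) v : V) : X)
          + ((a (FreeAlgebra.lift ℤ (genT χ τ) q) v : V) : X)
          - (FreeAlgebra.lift ℤ B p v + FreeAlgebra.lift ℤ B q v)
        = (((a (FreeAlgebra.lift ℤ (genT χ τ) p) v : V) : X) - FreeAlgebra.lift ℤ B p v)
          + (((a (FreeAlgebra.lift ℤ (genT χ τ) q) v : V) : X) - FreeAlgebra.lift ℤ B q v) := by
      abel
    rw [h]
    exact Submodule.add_mem _ (hp v) (hq v)

/-- Evaluation at a point commutes with noncommutative polynomials. -/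
theorem point_lift {𝒪' : Type*} [CommRing 𝒪'] [Algebra 𝒪 𝒪'] (x : T →ₐ[𝒪] 𝒪')
    (Q : FreeAlgebra ℤ (σ₁ ⊕ σ₂)) :
    x (FreeAlgebra.lift ℤ (genT χ τ) Q)
      = FreeAlgebra.lift ℤ (Sum.elim (fun i => x (τ i)) (fun j => algebraMap 𝒪 𝒪' (χ j))) Q := by
  have h : ((x : T →+* 𝒪').toIntAlgHom).comp (FreeAlgebra.lift ℤ (genT χ τ))
      = FreeAlgebra.lift ℤ (Sum.elim (fun i => x (τ i)) (fun j => algebraMap 𝒪 𝒪' (χ j))) := by
    apply FreeAlgebra.hom_ext
    funext s
    rcases s with i | j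
    · simp [genT]
    · simp [genT]
  rw [← h]
  rfl

/-- **SUPP-REL, abstract core.**  A point `x` of `T` through the annihilator of `V` modulo the
`χ`-relations satisfies every relation of the operators on `V`, the diamond operators `B (inr j)`
being replaced by the scalars `χ j`. -/
theorem suppRel_core
    (hBlin : ∀ s (c : 𝒪) (x : X), B s (c • x) = c • B s x)
    (hBV : ∀ s, ∀ v ∈ V, B s v ∈ V)
    (hcomm : ∀ s j, ∀ v ∈ V, B s (B (Sum.inr j) v) = B (Sum.inr j) (B s v))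
    (ha : ∀ i (v : V), ((a (τ i) v : V) : X) = B (Sum.inl i) v)
    {𝒪' : Type*} [CommRing 𝒪'] [Algebra 𝒪 𝒪'] (x : T →ₐ[𝒪] 𝒪')
    (hx : ∀ t : T, (∀ v : V, ((a t v : V) : X) ∈ relSpan V B χ) → x t = 0)
    (P : FreeAlgebra ℤ (σ₁ ⊕ σ₂)) (hP : ∀ v ∈ V, FreeAlgebra.lift ℤ B P v = 0) :
    FreeAlgebra.lift ℤ (Sum.elim (fun i => x (τ i)) (fun j => algebraMap 𝒪 𝒪' (χ j))) P = 0 := by
  rw [← point_lift χ τ x P]
  refine hx _ fun v => ?_
  have h := act_sub_lift_mem V B χ a τ hBlin hBV hcomm ha P v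
  rwa [hP v v.2, sub_zero] at h

end Core

end Fermat.Agent.S38.H227

end
-- ===== PACK-END S38/H227/SuppRelCore.lean

-- ===== PACK-BEGIN S38/H227/EigRelCore.lean
section


/-!
# Row HARD / S59-TW, DICT-R / DICT-T: relations at a vector with prime annihilator
(Mathlib only; helper227)

* `eigRel_core` : `V ⊆ X`, a family `B : σ₁ ⊕ σ₂ → End_ℤ X`, the `B (inr j)` commuting with all
  `B s` on `V`; a commutative ring `T` acting on `V` by `a`, `a (τ i) = B (inl i)` on `V`; a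
  vector `y ∈ V` with `B (inr j) y = n j • y` (`n j ∈ ℤ`) and a ring homomorphism `x : T → 𝒪'`
  with `x t = 0` whenever `a t y = 0`.  Then `P(x (τ i), n j) = 0` for every noncommutative
  polynomial `P` with `P(B) y = 0`.
  (No eigenvector of `T` is needed: `Ann y ≤ ker x` is enough.)
* `polyFam F Φ` : the family `inl i ↦ F (inl i)`, `inr j ↦ Φ(F (inr j))`, `Φ ∈ ℤ[X]`;
  `lift_polyFam` : `P(polyFam F Φ) = (subPoly Φ P)(F)`; `polyFam_commute`.
-/

set_option autoImplicit false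

namespace Fermat.Agent.S38.H227

section Core

variable {𝒪 : Type*} [CommRing 𝒪] {X : Type*} [AddCommGroup X] [Module 𝒪 X]
  {σ₁ σ₂ : Type*} (V : Submodule 𝒪 X) (B : σ₁ ⊕ σ₂ → Module.End ℤ X) (n : σ₂ → ℤ)
  {T : Type*} [CommRing T] (a : T →+* Module.End 𝒪 V) (τ : σ₁ → T)

/-- The generators of `T` attached to the two families: `τ i` and the integers `n j`. -/
def genZ : σ₁ ⊕ σ₂ → T := Sum.elim τ (fun j => ((n j : ℤ) : T))

theorem act_eq_lift_of_eigen
    (hcomm : ∀ s j, ∀ v ∈ V, B s (B (Sum.inr j) v) = B (Sum.inr j) (B s v))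
    (ha : ∀ i (v : V), ((a (τ i) v : V) : X) = B (Sum.inl i) v)
    (Q : FreeAlgebra ℤ (σ₁ ⊕ σ₂)) (v : V) (hv : ∀ j, B (Sum.inr j) v = n j • (v : X)) :
    ((a (FreeAlgebra.lift ℤ (genZ n τ) Q) v : V) : X) = FreeAlgebra.lift ℤ B Q v ∧
      ∀ j, B (Sum.inr j) (FreeAlgebra.lift ℤ B Q v) = n j • FreeAlgebra.lift ℤ B Q v := by
  induction Q using FreeAlgebra.induction generalizing v with
  | grade0 r =>
    have h1 : a (algebraMap ℤ T r) = (r : Module.End 𝒪 V) := by
      rw [algebraMap_int_eq, eq_intCast, map_intCast]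
    have h2 : (((r : Module.End 𝒪 V) v : V) : X) = r • (v : X) := by
      rw [Module.End.intCast_apply]
      rfl
    rw [AlgHom.commutes, AlgHom.commutes, h1, h2, Module.algebraMap_end_apply]
    refine ⟨rfl, fun j => ?_⟩
    rw [map_zsmul, hv j, smul_comm]
  | grade1 s =>
    rw [FreeAlgebra.lift_ι_apply, FreeAlgebra.lift_ι_apply]
    rcases s with i | j'
    · refine ⟨ha i v, fun j => ?_⟩
      rw [← hcomm (Sum.inl i) j v v.2, hv j, map_zsmul]
    · have h1 : genZ n τ (Sum.inr j') = ((n j' : ℤ) : T) := rfl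
      have h2 : (((((n j' : ℤ) : Module.End 𝒪 V)) v : V) : X) = n j' • (v : X) := by
        rw [Module.End.intCast_apply]
        rfl
      rw [h1, map_intCast, h2]
      refine ⟨(hv j').symm, fun j => ?_⟩
      rw [← hcomm (Sum.inr j') j v v.2, hv j, map_zsmul]
  | mul p q hp hq =>
    obtain ⟨hq1, hq2⟩ := hq v hv
    have hv' : ∀ j, B (Sum.inr j) ((a (FreeAlgebra.lift ℤ (genZ n τ) q) v : V) : X)
        = n j • ((a (FreeAlgebra.lift ℤ (genZ n τ) q) v : V) : X) := by
      intro j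
      rw [hq1]
      exact hq2 j
    obtain ⟨hp1, hp2⟩ := hp (a (FreeAlgebra.lift ℤ (genZ n τ) q) v) hv'
    rw [map_mul, map_mul, map_mul, Module.End.mul_apply, Module.End.mul_apply, hp1, hq1]
    refine ⟨rfl, fun j => ?_⟩
    have := hp2 j
    rwa [hq1] at this
  | add p q hp hq =>
    obtain ⟨hp1, hp2⟩ := hp v hv
    obtain ⟨hq1, hq2⟩ := hq v hv
    rw [map_add, map_add, map_add, LinearMap.add_apply, LinearMap.add_apply, Submodule.coe_add,
      hp1, hq1]
    refine ⟨rfl, fun j => ?_⟩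
    rw [map_add, hp2 j, hq2 j, smul_add]

/-- Ring homomorphisms commute with noncommutative polynomials. -/
theorem ringHom_lift' {A A' : Type*} [Ring A] [Ring A'] (φ : A →+* A') {σ : Type*} (s : σ → A)
    (P : FreeAlgebra ℤ σ) :
    φ (FreeAlgebra.lift ℤ s P) = FreeAlgebra.lift ℤ (fun i => φ (s i)) P := by
  have h : (φ.toIntAlgHom).comp (FreeAlgebra.lift ℤ s)
      = FreeAlgebra.lift ℤ (fun i => φ (s i)) := by
    apply FreeAlgebra.hom_ext
    funext i
    simp
  rw [← h]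
  rfl

/-- **Relations at a vector with `Ann y ≤ ker x`.** -/
theorem eigRel_core
    (hcomm : ∀ s j, ∀ v ∈ V, B s (B (Sum.inr j) v) = B (Sum.inr j) (B s v))
    (ha : ∀ i (v : V), ((a (τ i) v : V) : X) = B (Sum.inl i) v)
    (y : V) (hy : ∀ j, B (Sum.inr j) y = n j • (y : X))
    {𝒪' : Type*} [CommRing 𝒪'] (x : T →+* 𝒪') (hx : ∀ t : T, a t y = 0 → x t = 0)
    (P : FreeAlgebra ℤ (σ₁ ⊕ σ₂)) (hP : FreeAlgebra.lift ℤ B P y = 0) :
    FreeAlgebra.lift ℤ (Sum.elim (fun i => x (τ i)) (fun j => ((n j : ℤ) : 𝒪'))) P = 0 := by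
  have h1 := (act_eq_lift_of_eigen V B n a τ hcomm ha P y hy).1
  rw [hP] at h1
  have h2 : a (FreeAlgebra.lift ℤ (genZ n τ) P) y = 0 := Subtype.ext h1
  have h3 := hx _ h2
  rw [ringHom_lift' x] at h3
  have h4 : (fun s => x (genZ n τ s))
      = Sum.elim (fun i => x (τ i)) (fun j => ((n j : ℤ) : 𝒪')) := by
    funext s
    rcases s with i | j
    · rfl
    · simp [genZ]
  rwa [h4] at h3

end Core

section Poly

variable {σ₁ σ₂ : Type*}

/-- The substitution `inr j ↦ Φ(inr j)` on the generators. -/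
noncomputable def subGen (Φ : Polynomial ℤ) : σ₁ ⊕ σ₂ → FreeAlgebra ℤ (σ₁ ⊕ σ₂)
  | Sum.inl i => FreeAlgebra.ι ℤ (Sum.inl i)
  | Sum.inr j => Polynomial.aeval (FreeAlgebra.ι ℤ (Sum.inr j : σ₁ ⊕ σ₂)) Φ

/-- The substitution `inr j ↦ Φ(inr j)` on noncommutative polynomials. -/
noncomputable def subPoly (Φ : Polynomial ℤ) :
    FreeAlgebra ℤ (σ₁ ⊕ σ₂) →ₐ[ℤ] FreeAlgebra ℤ (σ₁ ⊕ σ₂) :=
  FreeAlgebra.lift ℤ (subGen Φ)

/-- The family `inl i ↦ F (inl i)`, `inr j ↦ Φ(F (inr j))`. -/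
noncomputable def polyFam {E : Type*} [Semiring E] [Algebra ℤ E] (F : σ₁ ⊕ σ₂ → E)
    (Φ : Polynomial ℤ) : σ₁ ⊕ σ₂ → E
  | Sum.inl i => F (Sum.inl i)
  | Sum.inr j => Polynomial.aeval (F (Sum.inr j)) Φ

theorem lift_subGen {E : Type*} [Semiring E] [Algebra ℤ E] (F : σ₁ ⊕ σ₂ → E)
    (Φ : Polynomial ℤ) (s : σ₁ ⊕ σ₂) : FreeAlgebra.lift ℤ F (subGen Φ s) = polyFam F Φ s := by
  rcases s with i | j
  · exact FreeAlgebra.lift_ι_apply F _
  · show FreeAlgebra.lift ℤ F (Polynomial.aeval (FreeAlgebra.ι ℤ (Sum.inr j)) Φ)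
      = Polynomial.aeval (F (Sum.inr j)) Φ
    rw [← Polynomial.aeval_algHom_apply, FreeAlgebra.lift_ι_apply]

/-- `P(polyFam F Φ) = (subPoly Φ P)(F)`. -/
theorem lift_polyFam {E : Type*} [Semiring E] [Algebra ℤ E] (F : σ₁ ⊕ σ₂ → E)
    (Φ : Polynomial ℤ) (P : FreeAlgebra ℤ (σ₁ ⊕ σ₂)) :
    FreeAlgebra.lift ℤ (polyFam F Φ) P = FreeAlgebra.lift ℤ F (subPoly Φ P) := by
  have h : (FreeAlgebra.lift ℤ F).comp (subPoly Φ) = FreeAlgebra.lift ℤ (polyFam F Φ) := by
    apply FreeAlgebra.hom_ext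
    funext s
    simp only [Function.comp_apply, AlgHom.comp_apply, subPoly, FreeAlgebra.lift_ι_apply]
    exact lift_subGen F Φ s
  rw [← h]
  rfl

theorem polyFam_commute {E : Type*} [Semiring E] [Algebra ℤ E] (F : σ₁ ⊕ σ₂ → E)
    (Φ : Polynomial ℤ) {s s' : σ₁ ⊕ σ₂} (hF : Commute (F s) (F s')) :
    Commute (polyFam F Φ s) (polyFam F Φ s') := by
  have key : ∀ s, polyFam F Φ s ∈ Algebra.adjoin ℤ ({F s} : Set E) := by
    intro s
    rcases s with i | j
    · exact Algebra.subset_adjoin rfl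
    · exact Polynomial.aeval_mem_adjoin_singleton ℤ (F (Sum.inr j))
  have h1 : ∀ (b : E), Commute (F s) b → Commute (polyFam F Φ s) b := by
    intro b hb
    exact (Algebra.commute_of_mem_adjoin_singleton_of_commute (key s) hb.symm).symm
  apply h1
  exact (Algebra.commute_of_mem_adjoin_singleton_of_commute (key s') hF)

end Poly

end Fermat.Agent.S38.H227

end
-- ===== PACK-END S38/H227/EigRelCore.lean

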