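import Mathlib
import Fermat.Agent.Pack.S43GC.G0E5L1
import Fermat.Agent.Pack.S43GC.G0E0L0
import Fermat.Agent.Pack.S43MC.G0E3L1
import Fermat.Agent.Pack.S44C.G0E3L2
import Fermat.Agent.Pack.S43MC.G0E4L0
import Fermat.Agent.Pack.S43GC.G0E5L0
import Fermat.Agent.Pack.S43MC.G0E12L2
import Fermat.Agent.Pack.S43MC.G0E14L1
import Fermat.Agent.Pack.S43GC.G0E13L3
import Fermat.Agent.Pack.S43C.E0L3
import Fermat.Agent.Pack.Fast891

-- ===== PACK-BEGIN Ribet/H678/QuadLocal.lean
section



/-!
# `B[ω]/(ω² = g)` over a complete local ring `B`, `g ∈ 𝔪_B` (helper678)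

Local ring structure, completeness, the lifting of ring homomorphisms, for the quadratic
algebra `QuadraticAlgebra B g 0` with `g` in the maximal ideal.
-/

set_option autoImplicit false
set_option linter.unusedSectionVars false
set_option linter.style.haveILetI false
set_option linter.unusedSimpArgs false

namespace Fermat.Agent.Ribet.H678

open QuadraticAlgebra IsLocalRing

section QuadLocal

variable {B : Type*} [CommRing B] [IsLocalRing B] {g : B}

theorem quad_isUnit_iff (hg : g ∈ maximalIdeal B) (w : QuadraticAlgebra B g 0) :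
    IsUnit w ↔ IsUnit w.re := by
  rw [isUnit_iff_norm_isUnit, norm_def]
  have h1 : w.re * w.re + 0 * w.re * w.im - g * w.im * w.im =
      w.re * w.re + (-(g * w.im * w.im)) := by ring
  rw [h1]
  have hm : -(g * w.im * w.im) ∈ maximalIdeal B := by
    rw [neg_mem_iff, mul_assoc]
    exact Ideal.mul_mem_right _ _ hg
  constructor
  · intro h
    by_contra hre
    have hre' : w.re ∈ maximalIdeal B := hre
    have : w.re * w.re + -(g * w.im * w.im) ∈ maximalIdeal B :=
      Ideal.add_mem _ (Ideal.mul_mem_left _ _ hre') hm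
    exact this h
  · intro h
    have hu : IsUnit (w.re * w.re) := h.mul h
    by_contra hn
    have hn' : w.re * w.re + -(g * w.im * w.im) ∈ maximalIdeal B := hn
    have : w.re * w.re ∈ maximalIdeal B := by
      have := Ideal.sub_mem _ hn' hm
      simpa using this
    exact this hu

theorem quad_isLocalRing (hg : g ∈ maximalIdeal B) : IsLocalRing (QuadraticAlgebra B g 0) := by
  apply IsLocalRing.of_nonunits_add
  intro a b ha hb
  rw [mem_nonunits_iff, quad_isUnit_iff hg] at ha hb ⊢
  rw [re_add]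
  have ha' : a.re ∈ maximalIdeal B := ha
  have hb' : b.re ∈ maximalIdeal B := hb
  exact Ideal.add_mem _ ha' hb'

theorem quad_mem_maximalIdeal (hg : g ∈ maximalIdeal B) (w : QuadraticAlgebra B g 0) :
    letI := quad_isLocalRing hg
    w ∈ maximalIdeal (QuadraticAlgebra B g 0) ↔ w.re ∈ maximalIdeal B := by
  letI := quad_isLocalRing hg
  rw [mem_maximalIdeal, mem_maximalIdeal, mem_nonunits_iff, mem_nonunits_iff, quad_isUnit_iff hg]

theorem quad_isLocalHom (hg : g ∈ maximalIdeal B) :
    IsLocalHom (algebraMap B (QuadraticAlgebra B g 0)) := by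
  refine ⟨fun a ha => ?_⟩
  rw [quad_isUnit_iff hg] at ha
  simpa using ha

theorem quad_isAdicComplete [IsNoetherianRing B] [IsAdicComplete (maximalIdeal B) B]
    (hg : g ∈ maximalIdeal B) :
    letI := quad_isLocalRing hg
    IsAdicComplete (maximalIdeal (QuadraticAlgebra B g 0)) (QuadraticAlgebra B g 0) := by
  letI := quad_isLocalRing hg
  haveI := quad_isLocalHom hg
  exact IsLocalRing.isAdicComplete_of_module_finite (𝒪 := B) (T := QuadraticAlgebra B g 0)

end QuadLocal

section QuadLift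

variable {B : Type*} [CommRing B] {g : B} {A : Type*} [CommRing A]

/-- The ring homomorphism `B[ω]/(ω² = g) → A` given by `φ : B → A` and a square root of `φ g`. -/
def quadLift (φ : B →+* A) (v : A) (hv : v * v = φ g) : QuadraticAlgebra B g 0 →+* A where
  toFun w := φ w.re + φ w.im * v
  map_one' := by simp
  map_zero' := by simp
  map_add' a b := by simp only [re_add, im_add, map_add]; ring
  map_mul' a b := by
    simp only [re_mul, im_mul, map_add, map_mul, zero_mul, add_zero, map_zero]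
    linear_combination (-(φ a.im * φ b.im)) * hv

@[simp] theorem quadLift_apply (φ : B →+* A) (v : A) (hv : v * v = φ g)
    (w : QuadraticAlgebra B g 0) : quadLift φ v hv w = φ w.re + φ w.im * v := rfl

theorem quadLift_algebraMap (φ : B →+* A) (v : A) (hv : v * v = φ g) (b : B) :
    quadLift φ v hv (algebraMap B _ b) = φ b := by
  simp

theorem quadLift_omega (φ : B →+* A) (v : A) (hv : v * v = φ g) :
    quadLift φ v hv ω = v := by
  simp

theorem quadLift_ext {f₁ f₂ : QuadraticAlgebra B g 0 →+* A}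
    (h : ∀ b, f₁ (algebraMap B _ b) = f₂ (algebraMap B _ b)) (hω : f₁ ω = f₂ ω) : f₁ = f₂ := by
  ext w
  have hw : w = algebraMap B _ w.re + algebraMap B _ w.im * ω := by
    ext <;> simp
  rw [hw, map_add, map_add, map_mul, map_mul, h, h, hω]

end QuadLift

end Fermat.Agent.Ribet.H678

end
-- ===== PACK-END Ribet/H678/QuadLocal.lean

-- ===== PACK-BEGIN Ribet/H678/RChiModel.lean
section


/-!
# The local lifting ring `R_χ` at `q ≡ 1 mod p`: model and instances (helper678)

`O` complete noetherian local ring in which `2` is invertible, `T : O` with `T ≡ 2`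
(`T = ζ + ζ⁻¹`), `c = T² - 4 = (ζ - ζ⁻¹)²`.  The model is

  `RChi = E⟦b, c', u⟧ ⧸ ((b, c', u) ∥ (y, z, v))`,   `E = O⟦y, z⟧[v]/(v² = c - 4yz)`,

the ring of pairs of commuting matrices `Σ = T/2 + [[v/2, y], [z, -v/2]]`,
`Φ = s/2 + [[u/2, b], [c', -u/2]]` with `det Σ = 1`, `det Φ = ε²`.
-/

set_option autoImplicit false
set_option linter.unusedSectionVars false
set_option linter.style.haveILetI false
set_option linter.unusedSimpArgs false

namespace Fermat.Agent.Ribet.H678

open MvPowerSeries IsLocalRing Fermat.Agent.S53.H596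

/-- Parameters of the type-`χ` lifting problem. -/
structure ChiDatum (O : Type*) [CommRing O] [IsLocalRing O] where
  /-- `1/2` -/
  half : O
  two_half : 2 * half = 1
  /-- the scalar `ε` with `Φ ≡ ε` -/
  eps : O
  /-- `ε⁻¹` -/
  epsInv : O
  eps_inv : eps * epsInv = 1
  /-- the trace `T = ζ + ζ⁻¹` of `Σ` -/
  T : O
  hT : T - 2 ∈ maximalIdeal O

section Model

variable {O : Type*} [CommRing O] [IsLocalRing O] (P : ChiDatum O)

/-- `c = T² - 4 = (ζ - ζ⁻¹)²`. -/
def ChiDatum.c : O := P.T ^ 2 - 4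

theorem ChiDatum.c_mem : P.c ∈ maximalIdeal O := by
  have : P.c = (P.T - 2) * (P.T + 2) := by rw [ChiDatum.c]; ring
  rw [this]
  exact Ideal.mul_mem_right _ _ P.hT

/-- `E = O⟦y,z⟧[v]/(v² = c - 4yz)`. -/
abbrev ChiE : Type _ := QuadraticAlgebra (MvPowerSeries (Fin 2) O) (psG P.c) 0

theorem psG_mem_maximalIdeal :
    psG P.c ∈ maximalIdeal (MvPowerSeries (Fin 2) O) := by
  rw [maximalIdeal_mvPowerSeries_eq, mem_constIdeal_iff, constantCoeff_psG]
  exact P.c_mem

instance chiE_isLocalRing : IsLocalRing (ChiE P) := quad_isLocalRing (psG_mem_maximalIdeal P)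

instance chiE_isLocalHom :
    IsLocalHom (algebraMap (MvPowerSeries (Fin 2) O) (ChiE P)) :=
  quad_isLocalHom (psG_mem_maximalIdeal P)

instance chiE_isNoetherianRing [IsNoetherianRing O] : IsNoetherianRing (ChiE P) :=
  quad_isNoetherianRing _

instance chiB_isAdicComplete [IsNoetherianRing O] [IsAdicComplete (maximalIdeal O) O] :
    IsAdicComplete (maximalIdeal (MvPowerSeries (Fin 2) O)) (MvPowerSeries (Fin 2) O) :=
  isAdicComplete_mvPowerSeries

instance chiE_isAdicComplete [IsNoetherianRing O] [IsAdicComplete (maximalIdeal O) O] :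
    IsAdicComplete (maximalIdeal (ChiE P)) (ChiE P) :=
  quad_isAdicComplete (psG_mem_maximalIdeal P)

/-- The power series ring `E⟦b, c', u⟧`. -/
abbrev ChiQ : Type _ := MvPowerSeries (Fin 3) (ChiE P)

instance chiQ_isAdicComplete [IsNoetherianRing O] [IsAdicComplete (maximalIdeal O) O] :
    IsAdicComplete (maximalIdeal (ChiQ P)) (ChiQ P) :=
  isAdicComplete_mvPowerSeries

/-- The regular sequence `(y, z, v)` of `E`. -/
noncomputable def chiSeq : Fin 3 → ChiE P := quadSeq (psG P.c) (X 0) (X 1)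

/-- The Koszul ideal `((b, c', u) ∥ (y, z, v))`. -/
noncomputable def chiIdeal : Ideal (ChiQ P) := koszul (chiSeq P)

theorem chiIdeal_le_maximalIdeal : chiIdeal P ≤ maximalIdeal (ChiQ P) := by
  rw [chiIdeal, koszul, Ideal.span_le]
  rintro _ ⟨p, rfl⟩
  rw [SetLike.mem_coe]
  exact Ideal.sub_mem _ (Ideal.mul_mem_left _ _ (X_mem_maximalIdeal_mvPowerSeries _))
    (Ideal.mul_mem_left _ _ (X_mem_maximalIdeal_mvPowerSeries _))

theorem chiIdeal_ne_top : chiIdeal P ≠ ⊤ := by
  intro h
  have := chiIdeal_le_maximalIdeal P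
  rw [h, top_le_iff] at this
  exact (maximalIdeal.isMaximal (ChiQ P)).ne_top this

/-- **The model of `R_χ`.** -/
abbrev RChi : Type _ := ChiQ P ⧸ chiIdeal P

instance rChi_isLocalRing : IsLocalRing (RChi P) :=
  isLocalRing_quotient (chiIdeal P) (chiIdeal_ne_top P)

instance rChi_isNoetherianRing [IsNoetherianRing O] : IsNoetherianRing (RChi P) :=
  inferInstance

instance rChi_isAdicComplete [IsNoetherianRing O] [IsAdicComplete (maximalIdeal O) O] :
    IsAdicComplete (maximalIdeal (RChi P)) (RChi P) :=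
  isAdicComplete_quotient (chiIdeal P) (chiIdeal_ne_top P)

noncomputable instance rChi_algebra : Algebra O (RChi P) := inferInstance

end Model

end Fermat.Agent.Ribet.H678

end
-- ===== PACK-END Ribet/H678/RChiModel.lean

-- ===== PACK-BEGIN Ribet/H678/RChiLift.lean
section


/-!
# Coordinates of `R_χ` and the universal property in coordinates (helper678)
-/

set_option autoImplicit false
set_option linter.unusedSectionVars false
set_option linter.style.haveILetI false
set_option linter.unusedSimpArgs false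

namespace Fermat.Agent.Ribet.H678

open MvPowerSeries IsLocalRing Fermat.Agent.S53.H596

section Coord

variable {O : Type*} [CommRing O] [IsLocalRing O] (P : ChiDatum O)

/-- the coordinate `y = Σ₁₂` -/
noncomputable def RChi.y : RChi P :=
  Ideal.Quotient.mk _ (C (algebraMap (MvPowerSeries (Fin 2) O) (ChiE P) (X 0)))
/-- the coordinate `z = Σ₂₁` -/
noncomputable def RChi.z : RChi P :=
  Ideal.Quotient.mk _ (C (algebraMap (MvPowerSeries (Fin 2) O) (ChiE P) (X 1)))
/-- the coordinate `v = Σ₁₁ - Σ₂₂` -/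
noncomputable def RChi.v : RChi P :=
  Ideal.Quotient.mk _ (C (QuadraticAlgebra.omega : ChiE P))
/-- the coordinate `b = Φ₁₂` -/
noncomputable def RChi.b : RChi P := Ideal.Quotient.mk _ (X 0)
/-- the coordinate `c = Φ₂₁` -/
noncomputable def RChi.c : RChi P := Ideal.Quotient.mk _ (X 1)
/-- the coordinate `u = Φ₁₁ - Φ₂₂` -/
noncomputable def RChi.u : RChi P := Ideal.Quotient.mk _ (X 2)

theorem chiSeq_zero : chiSeq P 0 = algebraMap (MvPowerSeries (Fin 2) O) (ChiE P) (X 0) := rfl
theorem chiSeq_one : chiSeq P 1 = algebraMap (MvPowerSeries (Fin 2) O) (ChiE P) (X 1) := rfl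
theorem chiSeq_two : chiSeq P 2 = (QuadraticAlgebra.omega : ChiE P) := rfl

theorem RChi.rel_yc : RChi.y P * RChi.c P = RChi.z P * RChi.b P := by
  rw [← sub_eq_zero]
  change Ideal.Quotient.mk (chiIdeal P) (C (chiSeq P 0) * X 1 - C (chiSeq P 1) * X 0) = 0
  rw [Ideal.Quotient.eq_zero_iff_mem]
  exact Ideal.subset_span ⟨(0, 1), rfl⟩

theorem RChi.rel_yu : RChi.y P * RChi.u P = RChi.v P * RChi.b P := by
  rw [← sub_eq_zero]
  change Ideal.Quotient.mk (chiIdeal P) (C (chiSeq P 0) * X 2 - C (chiSeq P 2) * X 0) = 0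
  rw [Ideal.Quotient.eq_zero_iff_mem]
  exact Ideal.subset_span ⟨(0, 2), rfl⟩

theorem RChi.rel_zu : RChi.z P * RChi.u P = RChi.v P * RChi.c P := by
  rw [← sub_eq_zero]
  change Ideal.Quotient.mk (chiIdeal P) (C (chiSeq P 1) * X 2 - C (chiSeq P 2) * X 1) = 0
  rw [Ideal.Quotient.eq_zero_iff_mem]
  exact Ideal.subset_span ⟨(1, 2), rfl⟩

theorem omega_sq_chiE :
    (QuadraticAlgebra.omega : ChiE P) * QuadraticAlgebra.omega =
      algebraMap (MvPowerSeries (Fin 2) O) (ChiE P) (psG P.c) := by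
  ext <;> simp

theorem rChi_algebraMap (r : O) : algebraMap O (RChi P) r =
    Ideal.Quotient.mk (chiIdeal P)
      (C (algebraMap (MvPowerSeries (Fin 2) O) (ChiE P) (C r))) := by
  rw [← Ideal.Quotient.mk_algebraMap, MvPowerSeries.algebraMap_apply,
    IsScalarTower.algebraMap_apply O (MvPowerSeries (Fin 2) O) (ChiE P), ← c_eq_algebraMap]

theorem RChi.rel_v : RChi.v P * RChi.v P =
    algebraMap O (RChi P) P.c - 4 * RChi.y P * RChi.z P := by
  rw [rChi_algebraMap]
  change Ideal.Quotient.mk (chiIdeal P) (C (QuadraticAlgebra.omega : ChiE P) *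
      C (QuadraticAlgebra.omega : ChiE P)) = _
  have hg : algebraMap (MvPowerSeries (Fin 2) O) (ChiE P) (psG P.c) =
      algebraMap (MvPowerSeries (Fin 2) O) (ChiE P) (C P.c - 4 * X 0 * X 1) := rfl
  rw [← map_mul, omega_sq_chiE, hg]
  simp only [map_sub, map_mul, RChi.y, RChi.z, map_ofNat]

end Coord

section Lift

variable {O : Type*} [CommRing O] [IsLocalRing O] (P : ChiDatum O)
variable (A : Type*) [CommRing A] [IsLocalRing A] [Algebra O A]

/-- A point of the type-`χ` problem in coordinates: `(y, z, v)` with `v² = c - 4yz` and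
`(b, c, u)` parallel to `(y, z, v)`, all in the maximal ideal. -/
structure ChiPoint where
  y : A
  z : A
  v : A
  b : A
  c : A
  u : A
  hy : y ∈ maximalIdeal A
  hz : z ∈ maximalIdeal A
  hb : b ∈ maximalIdeal A
  hc : c ∈ maximalIdeal A
  hu : u ∈ maximalIdeal A
  rel_v : v * v = algebraMap O A P.c - 4 * y * z
  rel_yc : y * c = z * b
  rel_yu : y * u = v * b
  rel_zu : z * u = v * c

variable {P A}
variable [IsAdicComplete (maximalIdeal A) A]

namespace ChiPoint

variable (pt : ChiPoint P A)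

/-- the map `O⟦y,z⟧ → A` -/
noncomputable def liftB : MvPowerSeries (Fin 2) O →ₐ[O] A :=
  evalCNL (maximalIdeal A) ![pt.y, pt.z] (by
    intro i; fin_cases i
    · exact pt.hy
    · exact pt.hz)

theorem liftB_X0 : pt.liftB (X 0) = pt.y := by
  rw [liftB, evalCNL_X]; rfl

theorem liftB_X1 : pt.liftB (X 1) = pt.z := by
  rw [liftB, evalCNL_X]; rfl

theorem liftB_C (r : O) : pt.liftB (C r) = algebraMap O A r := by
  rw [c_eq_algebraMap]; exact pt.liftB.commutes r

theorem liftB_psG : pt.liftB (psG P.c) = algebraMap O A P.c - 4 * pt.y * pt.z := by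
  have : psG P.c = C P.c - 4 * X 0 * X 1 := rfl
  rw [this, map_sub, map_mul, map_mul, liftB_C, liftB_X0, liftB_X1, map_ofNat]

/-- the map `E → A` -/
noncomputable def liftE : ChiE P →+* A :=
  quadLift (pt.liftB : MvPowerSeries (Fin 2) O →+* A) pt.v (by
    rw [pt.rel_v]; exact (liftB_psG pt).symm)

theorem liftE_algebraMap (f : MvPowerSeries (Fin 2) O) :
    pt.liftE (algebraMap _ (ChiE P) f) = pt.liftB f :=
  quadLift_algebraMap _ _ _ f

theorem liftE_omega : pt.liftE (QuadraticAlgebra.omega : ChiE P) = pt.v :=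
  quadLift_omega _ _ _

theorem liftE_chiSeq0 : pt.liftE (chiSeq P 0) = pt.y := by
  rw [chiSeq_zero, liftE_algebraMap, liftB_X0]

theorem liftE_chiSeq1 : pt.liftE (chiSeq P 1) = pt.z := by
  rw [chiSeq_one, liftE_algebraMap, liftB_X1]

theorem liftE_chiSeq2 : pt.liftE (chiSeq P 2) = pt.v := by
  rw [chiSeq_two, liftE_omega]

/-- the map `E⟦b,c,u⟧ → A` -/
noncomputable def liftQ : ChiQ P →+* A :=
  letI : Algebra (ChiE P) A := (pt.liftE).toAlgebra
  (evalCNL (R := ChiE P) (maximalIdeal A) ![pt.b, pt.c, pt.u] (by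
    intro i; fin_cases i
    · exact pt.hb
    · exact pt.hc
    · exact pt.hu) : ChiQ P →ₐ[ChiE P] A).toRingHom

theorem liftQ_C (e : ChiE P) : pt.liftQ (C e) = pt.liftE e := by
  letI : Algebra (ChiE P) A := (pt.liftE).toAlgebra
  rw [c_eq_algebraMap]
  exact AlgHom.commutes _ e

theorem liftQ_X (i : Fin 3) : pt.liftQ (X i) = ![pt.b, pt.c, pt.u] i := by
  letI : Algebra (ChiE P) A := (pt.liftE).toAlgebra
  exact evalCNL_X (R := ChiE P) (maximalIdeal A) _ _ i

theorem liftQ_koszul (a : ChiQ P) (ha : a ∈ chiIdeal P) : pt.liftQ a = 0 := by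
  have hle : chiIdeal P ≤ RingHom.ker pt.liftQ := by
    rw [chiIdeal, koszul, Ideal.span_le]
    rintro _ ⟨⟨i, j⟩, rfl⟩
    rw [SetLike.mem_coe, RingHom.mem_ker, map_sub, map_mul, map_mul, liftQ_C, liftQ_C, liftQ_X,
      liftQ_X]
    have h1 := pt.rel_yc
    have h2 := pt.rel_yu
    have h3 := pt.rel_zu
    fin_cases i <;> fin_cases j <;>
      simp only [Fin.zero_eta, Fin.mk_one, Fin.reduceFinMk, liftE_chiSeq0, liftE_chiSeq1,
        liftE_chiSeq2, Matrix.cons_val_zero, Matrix.cons_val_one, Matrix.cons_val_two,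
        Matrix.head_cons, Matrix.tail_cons, Matrix.cons_val] <;>
      first
        | ring1
        | linear_combination h1
        | linear_combination -h1
        | linear_combination h2
        | linear_combination -h2
        | linear_combination h3
        | linear_combination -h3
  exact hle ha

/-- **The lift `R_χ → A` of a point.** -/
noncomputable def lift : RChi P →+* A :=
  Ideal.Quotient.lift (chiIdeal P) pt.liftQ (liftQ_koszul pt)

theorem lift_mk (a : ChiQ P) : pt.lift (Ideal.Quotient.mk _ a) = pt.liftQ a :=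
  Ideal.Quotient.lift_mk _ _ _

theorem lift_y : pt.lift (RChi.y P) = pt.y := by
  rw [RChi.y, lift_mk, liftQ_C, liftE_algebraMap, liftB_X0]

theorem lift_z : pt.lift (RChi.z P) = pt.z := by
  rw [RChi.z, lift_mk, liftQ_C, liftE_algebraMap, liftB_X1]

theorem lift_v : pt.lift (RChi.v P) = pt.v := by
  rw [RChi.v, lift_mk, liftQ_C, liftE_omega]

theorem lift_b : pt.lift (RChi.b P) = pt.b := by
  rw [RChi.b, lift_mk, liftQ_X]; rfl

theorem lift_c : pt.lift (RChi.c P) = pt.c := by
  rw [RChi.c, lift_mk, liftQ_X]; rfl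

theorem lift_u : pt.lift (RChi.u P) = pt.u := by
  rw [RChi.u, lift_mk, liftQ_X]; rfl

theorem lift_algebraMap (r : O) : pt.lift (algebraMap O (RChi P) r) = algebraMap O A r := by
  rw [rChi_algebraMap, lift_mk, liftQ_C, liftE_algebraMap, liftB_C]

/-- The lift as an `O`-algebra homomorphism. -/
noncomputable def liftAlgHom : RChi P →ₐ[O] A :=
  { pt.lift with commutes' := pt.lift_algebraMap }

end ChiPoint

end Lift

end Fermat.Agent.Ribet.H678

end
-- ===== PACK-END Ribet/H678/RChiLift.lean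

-- ===== PACK-BEGIN Ribet/H678/RChiGen.lean
section


/-!
# Generators of the maximal ideal of `R_χ`, presentation, uniqueness of lifts (helper678)
-/

set_option autoImplicit false
set_option linter.unusedSectionVars false
set_option linter.style.haveILetI false
set_option linter.unusedSimpArgs false

namespace Fermat.Agent.Ribet.H678

open MvPowerSeries IsLocalRing Fermat.Agent.S53.H596

section Gen

variable {O : Type*} [CommRing O] [IsLocalRing O] (P : ChiDatum O)

theorem rChi_mk_isLocalHom : IsLocalHom (Ideal.Quotient.mk (chiIdeal P)) :=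
  isLocalHom_quotient_mk _ (chiIdeal_ne_top P)

theorem rChi_mk_mem_maximalIdeal {q : ChiQ P} (hq : q ∈ maximalIdeal (ChiQ P)) :
    Ideal.Quotient.mk (chiIdeal P) q ∈ maximalIdeal (RChi P) := by
  haveI := rChi_mk_isLocalHom P
  intro hu
  exact hq (isUnit_of_map_unit (Ideal.Quotient.mk (chiIdeal P)) q hu)

theorem rChi_mem_maximalIdeal_of_mk {q : ChiQ P}
    (hq : Ideal.Quotient.mk (chiIdeal P) q ∈ maximalIdeal (RChi P)) :
    q ∈ maximalIdeal (ChiQ P) := by
  intro hu
  exact hq (hu.map _)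

theorem chiE_mem_maximalIdeal {e : ChiE P} :
    e ∈ maximalIdeal (ChiE P) ↔ e.re ∈ maximalIdeal (MvPowerSeries (Fin 2) O) :=
  quad_mem_maximalIdeal (psG_mem_maximalIdeal P) e

theorem chiE_algebraMap_mem {f : MvPowerSeries (Fin 2) O}
    (hf : f ∈ maximalIdeal (MvPowerSeries (Fin 2) O)) :
    algebraMap (MvPowerSeries (Fin 2) O) (ChiE P) f ∈ maximalIdeal (ChiE P) := by
  rw [chiE_mem_maximalIdeal]
  simpa using hf

theorem chiE_omega_mem : (QuadraticAlgebra.omega : ChiE P) ∈ maximalIdeal (ChiE P) := by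
  rw [chiE_mem_maximalIdeal]
  simp

theorem RChi.y_mem : RChi.y P ∈ maximalIdeal (RChi P) :=
  rChi_mk_mem_maximalIdeal P (C_mem_maximalIdeal_mvPowerSeries
    (chiE_algebraMap_mem P (X_mem_maximalIdeal_mvPowerSeries _)))

theorem RChi.z_mem : RChi.z P ∈ maximalIdeal (RChi P) :=
  rChi_mk_mem_maximalIdeal P (C_mem_maximalIdeal_mvPowerSeries
    (chiE_algebraMap_mem P (X_mem_maximalIdeal_mvPowerSeries _)))

theorem RChi.v_mem : RChi.v P ∈ maximalIdeal (RChi P) :=
  rChi_mk_mem_maximalIdeal P (C_mem_maximalIdeal_mvPowerSeries (chiE_omega_mem P))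

theorem RChi.b_mem : RChi.b P ∈ maximalIdeal (RChi P) :=
  rChi_mk_mem_maximalIdeal P (X_mem_maximalIdeal_mvPowerSeries _)

theorem RChi.c_mem : RChi.c P ∈ maximalIdeal (RChi P) :=
  rChi_mk_mem_maximalIdeal P (X_mem_maximalIdeal_mvPowerSeries _)

theorem RChi.u_mem : RChi.u P ∈ maximalIdeal (RChi P) :=
  rChi_mk_mem_maximalIdeal P (X_mem_maximalIdeal_mvPowerSeries _)

/-- the six coordinates `(y, z, v, b, c, u)` -/
noncomputable def RChi.coord : Fin 6 → RChi P :=
  ![RChi.y P, RChi.z P, RChi.v P, RChi.b P, RChi.c P, RChi.u P]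

theorem RChi.coord_mem (i : Fin 6) : RChi.coord P i ∈ maximalIdeal (RChi P) := by
  fin_cases i
  · exact RChi.y_mem P
  · exact RChi.z_mem P
  · exact RChi.v_mem P
  · exact RChi.b_mem P
  · exact RChi.c_mem P
  · exact RChi.u_mem P

instance rChi_isLocalHom : IsLocalHom (algebraMap O (RChi P)) := by
  refine ⟨fun r hr => ?_⟩
  rw [rChi_algebraMap] at hr
  haveI := rChi_mk_isLocalHom P
  have h1 := isUnit_of_map_unit (Ideal.Quotient.mk (chiIdeal P)) _ hr
  rw [MvPowerSeries.isUnit_iff_constantCoeff, constantCoeff_C,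
    quad_isUnit_iff (psG_mem_maximalIdeal P)] at h1
  have h2 : IsUnit (C r : MvPowerSeries (Fin 2) O) := by simpa using h1
  rw [MvPowerSeries.isUnit_iff_constantCoeff, constantCoeff_C] at h2
  exact h2

theorem rChi_algebraMap_mem {r : O} (hr : r ∈ maximalIdeal O) :
    algebraMap O (RChi P) r ∈ maximalIdeal (RChi P) := by
  intro hu
  exact hr (isUnit_of_map_unit (algebraMap O (RChi P)) r hu)

/-- the ideal generated by `𝔪_O` and the six coordinates -/
noncomputable def RChi.genIdeal : Ideal (RChi P) :=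
  Ideal.map (algebraMap O (RChi P)) (maximalIdeal O) ⊔ Ideal.span (Set.range (RChi.coord P))

theorem RChi.coord_mem_genIdeal (i : Fin 6) : RChi.coord P i ∈ RChi.genIdeal P :=
  Ideal.mem_sup_right (Ideal.subset_span ⟨i, rfl⟩)

theorem RChi.ofB_mem_genIdeal {f : MvPowerSeries (Fin 2) O}
    (hf : f ∈ maximalIdeal (MvPowerSeries (Fin 2) O)) :
    Ideal.Quotient.mk (chiIdeal P) (C (algebraMap (MvPowerSeries (Fin 2) O) (ChiE P) f)) ∈
      RChi.genIdeal P := by
  have hle : maximalIdeal (MvPowerSeries (Fin 2) O) ≤ (RChi.genIdeal P).comap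
      ((Ideal.Quotient.mk (chiIdeal P)).comp ((C : ChiE P →+* ChiQ P).comp
        (algebraMap (MvPowerSeries (Fin 2) O) (ChiE P)))) := by
    rw [maximalIdeal_mvPowerSeries_eq_sup]
    refine sup_le ?_ ?_
    · rw [Ideal.map_le_iff_le_comap]
      intro r hr
      rw [Ideal.mem_comap, Ideal.mem_comap, RingHom.comp_apply, RingHom.comp_apply,
        ← rChi_algebraMap]
      exact Ideal.mem_sup_left (Ideal.mem_map_of_mem _ hr)
    · rw [Ideal.span_le]
      rintro _ ⟨i, rfl⟩
      rw [SetLike.mem_coe, Ideal.mem_comap, RingHom.comp_apply, RingHom.comp_apply]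
      fin_cases i
      · exact RChi.coord_mem_genIdeal P 0
      · exact RChi.coord_mem_genIdeal P 1
  exact hle hf

theorem RChi.ofE_mem_genIdeal {e : ChiE P} (he : e ∈ maximalIdeal (ChiE P)) :
    Ideal.Quotient.mk (chiIdeal P) (C e) ∈ RChi.genIdeal P := by
  have hw : e = algebraMap (MvPowerSeries (Fin 2) O) (ChiE P) e.re +
      algebraMap (MvPowerSeries (Fin 2) O) (ChiE P) e.im * QuadraticAlgebra.omega := by
    ext <;> simp
  rw [hw, map_add, map_add, map_mul, map_mul]
  refine Ideal.add_mem _ (RChi.ofB_mem_genIdeal P ((chiE_mem_maximalIdeal P).1 he)) ?_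
  exact Ideal.mul_mem_left _ _ (RChi.coord_mem_genIdeal P 2)

/-- **The maximal ideal of `R_χ` is generated by `𝔪_O` and the six coordinates.** -/
theorem rChi_maximalIdeal_eq :
    Ideal.map (algebraMap O (RChi P)) (maximalIdeal O) ⊔ Ideal.span (Set.range (RChi.coord P)) =
      maximalIdeal (RChi P) := by
  apply le_antisymm
  · refine sup_le ?_ ?_
    · rw [Ideal.map_le_iff_le_comap]
      intro r hr
      exact rChi_algebraMap_mem P hr
    · rw [Ideal.span_le]
      rintro _ ⟨i, rfl⟩
      exact RChi.coord_mem P i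
  · intro r hr
    obtain ⟨q, rfl⟩ := Ideal.Quotient.mk_surjective r
    have hq := rChi_mem_maximalIdeal_of_mk P hr
    have hle : maximalIdeal (ChiQ P) ≤ (RChi.genIdeal P).comap (Ideal.Quotient.mk (chiIdeal P)) := by
      rw [maximalIdeal_mvPowerSeries_eq_sup]
      refine sup_le ?_ ?_
      · rw [Ideal.map_le_iff_le_comap]
        intro e he
        exact RChi.ofE_mem_genIdeal P he
      · rw [Ideal.span_le]
        rintro _ ⟨i, rfl⟩
        rw [SetLike.mem_coe, Ideal.mem_comap]
        fin_cases i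
        · exact RChi.coord_mem_genIdeal P 3
        · exact RChi.coord_mem_genIdeal P 4
        · exact RChi.coord_mem_genIdeal P 5
    exact hle hq

theorem rChi_residue_surjective :
    Function.Surjective (IsLocalRing.residue (RChi P) ∘ algebraMap O (RChi P)) := by
  intro x
  obtain ⟨r, rfl⟩ := IsLocalRing.residue_surjective x
  obtain ⟨q, rfl⟩ := Ideal.Quotient.mk_surjective r
  refine ⟨constantCoeff ((constantCoeff q).re), ?_⟩
  rw [Function.comp_apply, ← sub_eq_zero, ← map_sub, IsLocalRing.residue_eq_zero_iff,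
    rChi_algebraMap, ← map_sub]
  apply rChi_mk_mem_maximalIdeal
  rw [maximalIdeal_mvPowerSeries_eq, mem_constIdeal_iff, map_sub, constantCoeff_C,
    chiE_mem_maximalIdeal, QuadraticAlgebra.re_sub]
  rw [maximalIdeal_mvPowerSeries_eq, mem_constIdeal_iff]
  simp

end Gen

section Present

variable {O : Type*} [CommRing O] [IsLocalRing O] [IsNoetherianRing O]
  [IsAdicComplete (maximalIdeal O) O] (P : ChiDatum O)

/-- `R_χ` is a quotient of `O⟦X₁,…,X_d⟧` as soon as the images of the variables and `𝔪_O`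
generate the maximal ideal. -/
theorem rChi_exists_surjective {d : ℕ} (x : Fin d → RChi P)
    (hx : ∀ i, x i ∈ maximalIdeal (RChi P))
    (hgen : ∀ i, RChi.coord P i ∈
      Ideal.map (algebraMap O (RChi P)) (maximalIdeal O) ⊔ Ideal.span (Set.range x)) :
    ∃ φ : MvPowerSeries (Fin d) O →ₐ[O] RChi P,
      Function.Surjective φ ∧ ∀ i, φ (MvPowerSeries.X i) = x i := by
  apply exists_surjective_algHom_of_generators (rChi_residue_surjective P) x
  apply le_antisymm
  · refine sup_le ?_ ?_
    · rw [Ideal.map_le_iff_le_comap]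
      intro r hr
      exact rChi_algebraMap_mem P hr
    · rw [Ideal.span_le]
      rintro _ ⟨i, rfl⟩
      exact hx i
  · rw [← rChi_maximalIdeal_eq]
    refine sup_le le_sup_left ?_
    rw [Ideal.span_le]
    rintro _ ⟨i, rfl⟩
    exact hgen i

/-- the presentation `O⟦X₁,…,X₆⟧ ↠ R_χ` by the six coordinates -/
theorem rChi_exists_surjective_coord :
    ∃ φ : MvPowerSeries (Fin 6) O →ₐ[O] RChi P,
      Function.Surjective φ ∧ ∀ i, φ (MvPowerSeries.X i) = RChi.coord P i :=
  rChi_exists_surjective P (RChi.coord P) (RChi.coord_mem P)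
    (fun i => Ideal.mem_sup_right (Ideal.subset_span ⟨i, rfl⟩))

/-- **Uniqueness of lifts**: two `O`-algebra maps out of `R_χ` into a separated local ring which
agree on the six coordinates are equal. -/
theorem rChi_algHom_ext {A : Type*} [CommRing A] [Algebra O A] [IsLocalRing A]
    [IsHausdorff (maximalIdeal A) A] {f₁ f₂ : RChi P →ₐ[O] A}
    (hm : ∀ i, f₁ (RChi.coord P i) ∈ maximalIdeal A)
    (h : ∀ i, f₁ (RChi.coord P i) = f₂ (RChi.coord P i)) : f₁ = f₂ := by
  obtain ⟨φ, hφ, hφX⟩ := rChi_exists_surjective_coord P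
  have h1 : f₁.comp φ = f₂.comp φ := by
    apply algHom_ext_of_X (maximalIdeal A)
    · intro i
      rw [AlgHom.comp_apply, hφX]
      exact hm i
    · intro i
      rw [AlgHom.comp_apply, AlgHom.comp_apply, hφX]
      exact h i
  ext r
  obtain ⟨q, rfl⟩ := hφ r
  exact congrArg (fun g : MvPowerSeries (Fin 6) O →ₐ[O] A => g q) h1

end Present

end Fermat.Agent.Ribet.H678

end
-- ===== PACK-END Ribet/H678/RChiGen.lean

-- ===== PACK-BEGIN Ribet/H678/RChiDom.lean
section


/-!
# `R_χ` is a domain, in tower-ready form (helper678)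

A *good embedding* of `(O, λ)` is an injective ring homomorphism of `O` into a noetherian domain
in which the image of `λ` is a prime element.  If `(O, λ)` has a good embedding, `λ ∣ c`,
`c ≠ 0`, then `R_χ` over `O` is a domain and `(R_χ, λ)` has a good embedding again.  So the
construction can be iterated (several pivots) and mixed with power series variables.
-/

set_option autoImplicit false
set_option linter.unusedSectionVars false
set_option linter.style.haveILetI false
set_option linter.unusedSimpArgs false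

universe u

namespace Fermat.Agent.Ribet.H678

open MvPowerSeries IsLocalRing QuadraticAlgebra Fermat.Agent.S53.H596

section PrimeC

variable {σ : Type*} {R : Type*} [CommRing R]

theorem mv_C_dvd_iff (l : R) (f : MvPowerSeries σ R) :
    (C l : MvPowerSeries σ R) ∣ f ↔ ∀ e, l ∣ coeff e f := by
  classical
  constructor
  · rintro ⟨g, rfl⟩ e
    exact ⟨coeff e g, by rw [coeff_C_mul]⟩
  · intro h
    choose q hq using h
    refine ⟨(show MvPowerSeries σ R from q), ?_⟩
    ext e
    rw [coeff_C_mul, hq e]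
    rfl

theorem mv_map_mk_eq_zero_iff (l : R) (f : MvPowerSeries σ R) :
    MvPowerSeries.map (Ideal.Quotient.mk (Ideal.span {l})) f = 0 ↔
      (C l : MvPowerSeries σ R) ∣ f := by
  rw [mv_C_dvd_iff]
  constructor
  · intro h e
    have := congrArg (coeff e) h
    rwa [coeff_map, map_zero, Ideal.Quotient.eq_zero_iff_mem, Ideal.mem_span_singleton] at this
  · intro h
    ext e
    rw [coeff_map, map_zero, Ideal.Quotient.eq_zero_iff_mem, Ideal.mem_span_singleton]
    exact h e

/-- a prime element of a domain stays prime in the power series ring -/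
theorem prime_C_mv [IsDomain R] {l : R} (hl : Prime l) : Prime (C l : MvPowerSeries σ R) := by
  haveI := isDomain_quot hl
  refine ⟨?_, ?_, ?_⟩
  · intro h
    have := congrArg constantCoeff h
    rw [constantCoeff_C, map_zero] at this
    exact hl.ne_zero this
  · intro h
    rw [MvPowerSeries.isUnit_iff_constantCoeff, constantCoeff_C] at h
    exact hl.not_isUnit h
  · intro a b hab
    rw [← mv_map_mk_eq_zero_iff] at hab ⊢
    rw [← mv_map_mk_eq_zero_iff]
    rw [map_mul] at hab
    exact mul_eq_zero.1 hab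

theorem mv_map_injective {S : Type*} [CommRing S] (ι : R →+* S) (hι : Function.Injective ι) :
    Function.Injective (MvPowerSeries.map (σ := σ) ι) := by
  intro f g h
  ext e
  have := congrArg (coeff e) h
  rw [coeff_map, coeff_map] at this
  exact hι this

end PrimeC

section QuadPrime

variable {B : Type*} [CommRing B] {g : B}

theorem quad_dvd_iff (L : B) (w : QuadraticAlgebra B g 0) :
    algebraMap B (QuadraticAlgebra B g 0) L ∣ w ↔ L ∣ w.re ∧ L ∣ w.im := by
  constructor
  · rintro ⟨w', rfl⟩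
    refine ⟨⟨w'.re, ?_⟩, ⟨w'.im, ?_⟩⟩
    · simp
    · simp
  · rintro ⟨⟨a, ha⟩, ⟨b, hb⟩⟩
    refine ⟨⟨a, b⟩, ?_⟩
    ext
    · simp [ha]
    · simp [hb]

/-- a prime `L` of `B` stays prime in `B[ω]/(ω² = g)` if `g` is not a square modulo `L` in the
strong sense `L ∣ α² - g β² → L ∣ β`. -/
theorem quad_prime [IsDomain B] {L : B} (hL : Prime L)
    (hnorm : ∀ α β : B, L ∣ α * α - g * β * β → L ∣ β) :
    Prime (algebraMap B (QuadraticAlgebra B g 0) L) := by
  refine ⟨?_, ?_, ?_⟩
  · intro h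
    have := congrArg QuadraticAlgebra.re h
    simp at this
    exact hL.ne_zero this
  · intro h
    obtain ⟨w, hw⟩ := h.exists_right_inv
    have := congrArg QuadraticAlgebra.re hw
    simp at this
    exact hL.not_isUnit (IsUnit.of_mul_eq_one _ this)
  · intro w₁ w₂ h
    rw [quad_dvd_iff] at h
    obtain ⟨hr, hi⟩ := h
    rw [re_mul] at hr
    rw [im_mul] at hi
    simp only [zero_mul, add_zero] at hi
    have hN2 : L ∣ (w₁.re * w₁.re - g * w₁.im * w₁.im) * w₂.re := by
      have : (w₁.re * w₁.re - g * w₁.im * w₁.im) * w₂.re =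
          w₁.re * (w₁.re * w₂.re + g * w₁.im * w₂.im) -
            g * w₁.im * (w₁.re * w₂.im + w₁.im * w₂.re) := by ring
      rw [this]
      exact dvd_sub (Dvd.dvd.mul_left hr _) (Dvd.dvd.mul_left hi _)
    have hN3 : L ∣ (w₁.re * w₁.re - g * w₁.im * w₁.im) * w₂.im := by
      have : (w₁.re * w₁.re - g * w₁.im * w₁.im) * w₂.im =
          w₁.re * (w₁.re * w₂.im + w₁.im * w₂.re) -
            w₁.im * (w₁.re * w₂.re + g * w₁.im * w₂.im) := by ring
      rw [this]
      exact dvd_sub (Dvd.dvd.mul_left hi _) (Dvd.dvd.mul_left hr _)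
    by_cases hN : L ∣ w₁.re * w₁.re - g * w₁.im * w₁.im
    · left
      have hb := hnorm _ _ hN
      have ha : L ∣ w₁.re * w₁.re := by
        have := dvd_add hN (Dvd.dvd.mul_left hb (g * w₁.im))
        have e : w₁.re * w₁.re - g * w₁.im * w₁.im + g * w₁.im * w₁.im = w₁.re * w₁.re := by ring
        rwa [e] at this
      rw [quad_dvd_iff]
      exact ⟨(hL.dvd_or_dvd ha).elim id id, hb⟩
    · right
      rw [quad_dvd_iff]
      exact ⟨(hL.dvd_or_dvd hN2).resolve_left hN, (hL.dvd_or_dvd hN3).resolve_left hN⟩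

end QuadPrime

section NormMod

variable {O : Type*} [CommRing O] [IsDomain O]

/-- `c - 4yz` is not a square modulo a prime `l ∣ c`, `l ∤ 2`. -/
theorem psNorm_mod {l c : O} (hl : Prime l) (h2 : ¬ l ∣ 2) (hcl : l ∣ c)
    (α β : MvPowerSeries (Fin 2) O) (h : C l ∣ α * α - psG c * β * β) : C l ∣ β := by
  have hdom := isDomain_quot hl
  have h2' : (2 : O ⧸ Ideal.span {l}) ≠ 0 := by
    intro h
    have h' : (Ideal.Quotient.mk (Ideal.span {l})) 2 = 0 := by rw [map_ofNat]; exact h
    rw [Ideal.Quotient.eq_zero_iff_mem, Ideal.mem_span_singleton] at h'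
    exact h2 h'
  rw [← psRed_eq_zero_iff] at h ⊢
  rw [map_sub, map_mul, map_mul, map_mul, psRed_psG hcl, sub_eq_zero] at h
  exact parity_aux h2' _ _ h

/-- **`λ` is prime in `E = O⟦y,z⟧[v]/(v² = c - 4yz)`.** -/
theorem ringA0_prime {l c : O} (hl : Prime l) (h2 : ¬ l ∣ 2) (hcl : l ∣ c) :
    Prime (algebraMap (MvPowerSeries (Fin 2) O) (RingA0 c) (C l)) := by
  haveI : IsDomain (MvPowerSeries (Fin 2) O) := NoZeroDivisors.to_isDomain _
  exact quad_prime (prime_C_mv hl) (psNorm_mod hl h2 hcl)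

end NormMod

section QuadMap

variable {O O' : Type*} [CommRing O] [CommRing O'] (ι : O →+* O')

theorem map_psG (c : O) : MvPowerSeries.map ι (psG c) = psG (ι c) := by
  simp [psG, map_ofNat]

/-- coefficientwise map `E_O → E_{O'}` -/
noncomputable def quadMap (c : O) : RingA0 c →+* RingA0 (ι c) :=
  quadLift ((algebraMap (MvPowerSeries (Fin 2) O') (RingA0 (ι c))).comp (MvPowerSeries.map ι))
    ω (by
      rw [RingHom.comp_apply, map_psG]
      ext <;> simp)

theorem quadMap_re (c : O) (w : RingA0 c) : (quadMap ι c w).re = MvPowerSeries.map ι w.re := by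
  simp [quadMap]

theorem quadMap_im (c : O) (w : RingA0 c) : (quadMap ι c w).im = MvPowerSeries.map ι w.im := by
  simp [quadMap]

theorem quadMap_algebraMap (c : O) (f : MvPowerSeries (Fin 2) O) :
    quadMap ι c (algebraMap _ (RingA0 c) f) = algebraMap _ (RingA0 (ι c)) (MvPowerSeries.map ι f) :=
  quadLift_algebraMap _ _ _ f

theorem quadMap_injective (hι : Function.Injective ι) (c : O) :
    Function.Injective (quadMap ι c) := by
  intro w₁ w₂ h
  have hr := congrArg QuadraticAlgebra.re h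
  have hi := congrArg QuadraticAlgebra.im h
  rw [quadMap_re, quadMap_re] at hr
  rw [quadMap_im, quadMap_im] at hi
  exact QuadraticAlgebra.ext (mv_map_injective ι hι hr) (mv_map_injective ι hι hi)

end QuadMap

section Good

/-- `O` embeds into a noetherian domain in which the image of `lam` is a prime element. -/
def GoodEmb (O : Type u) [CommRing O] (lam : O) : Prop :=
  ∃ (O' : Type u) (_ : CommRing O') (_ : IsDomain O') (_ : IsNoetherianRing O') (ι : O →+* O'),
    Function.Injective ι ∧ Prime (ι lam)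

variable {O : Type u} [CommRing O]

theorem GoodEmb.of_prime [IsDomain O] [IsNoetherianRing O] {lam : O} (h : Prime lam) :
    GoodEmb O lam :=
  ⟨O, inferInstance, inferInstance, inferInstance, RingHom.id O, Function.injective_id, h⟩

theorem GoodEmb.isDomain {lam : O} (h : GoodEmb O lam) : IsDomain O := by
  obtain ⟨O', _, _, _, ι, hι, -⟩ := h
  exact Function.Injective.isDomain ι hι

/-- power series variables preserve good embeddings -/
theorem GoodEmb.mvPowerSeries {lam : O} (h : GoodEmb O lam) (σ : Type) [Finite σ] :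
    GoodEmb (MvPowerSeries σ O) (C lam) := by
  obtain ⟨O', _, _, _, ι, hι, hp⟩ := h
  refine ⟨MvPowerSeries σ O', inferInstance, NoZeroDivisors.to_isDomain _, inferInstance,
    MvPowerSeries.map ι, mv_map_injective ι hι, ?_⟩
  rw [map_C]
  exact prime_C_mv hp

end Good

section Step

variable {O : Type u} [CommRing O] [IsLocalRing O] [IsNoetherianRing O] (P : ChiDatum O)

theorem chiDatum_not_dvd_two {O' : Type*} [CommRing O'] (ι : O →+* O') {l : O'} (hl : Prime l)
    (Q : ChiDatum O) : ¬ l ∣ 2 := by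
  intro h
  have h1 : (2 : O') * ι Q.half = 1 := by
    have := congrArg ι Q.two_half
    rwa [map_mul, map_ofNat, map_one] at this
  exact hl.not_isUnit (isUnit_of_dvd_one (h1 ▸ Dvd.dvd.mul_right h _))

theorem chiE_isDomain_of_goodEmb {lam : O} (h : GoodEmb O lam) (hlc : lam ∣ P.c) :
    IsDomain (ChiE P) := by
  obtain ⟨O', _, _, _, ι, hι, hp⟩ := h
  haveI : IsDomain (RingA0 (ι P.c)) :=
    ringA0_isDomain hp (chiDatum_not_dvd_two ι hp P) (map_dvd ι hlc)
  exact Function.Injective.isDomain (quadMap ι P.c) (quadMap_injective ι hι P.c)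

theorem chiSeq_isRegSeq_of_goodEmb {lam : O} (h : GoodEmb O lam) (hc : P.c ≠ 0) :
    IsRegSeq (chiSeq P) := by
  haveI := h.isDomain
  exact seqA0_isRegSeq hc

/-- **`R_χ` is a domain** as soon as `(O, λ)` has a good embedding, `λ ∣ c`, `c ≠ 0`. -/
theorem rChi_isDomain_of_goodEmb {lam : O} (h : GoodEmb O lam) (hlc : lam ∣ P.c) (hc : P.c ≠ 0) :
    IsDomain (RChi P) := by
  haveI := chiE_isDomain_of_goodEmb P h hlc
  haveI : (chiIdeal P).IsPrime := koszul_isPrime _ (chiSeq_isRegSeq_of_goodEmb P h hc)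
  exact Ideal.Quotient.isDomain _

/-- the embedding `R_χ → E⟦t⟧` -/
noncomputable def RChi.toPS : RChi P →+* PowerSeries (ChiE P) :=
  Ideal.Quotient.lift (chiIdeal P) (ltPsi (chiSeq P)).toRingHom
    (fun _ ha => koszul_le_ker (chiSeq P) ha)

theorem RChi.toPS_mk (q : ChiQ P) :
    RChi.toPS P (Ideal.Quotient.mk _ q) = ltPsi (chiSeq P) q := rfl

theorem RChi.toPS_injective (hreg : IsRegSeq (chiSeq P)) : Function.Injective (RChi.toPS P) := by
  rw [injective_iff_map_eq_zero]
  intro r hr
  obtain ⟨q, rfl⟩ := Ideal.Quotient.mk_surjective r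
  rw [RChi.toPS_mk] at hr
  have : q ∈ RingHom.ker (ltPsi (chiSeq P)) := hr
  rw [ker_ltPsi _ hreg] at this
  exact Ideal.Quotient.eq_zero_iff_mem.2 this

/-- **Tower step**: `(R_χ, λ)` has a good embedding as soon as `(O, λ)` has one. -/
theorem GoodEmb.rChi {lam : O} (h : GoodEmb O lam) (hlc : lam ∣ P.c) (hc : P.c ≠ 0) :
    GoodEmb (RChi P) (algebraMap O (RChi P) lam) := by
  have hreg := chiSeq_isRegSeq_of_goodEmb P h hc
  obtain ⟨O', _, _, _, ι, hι, hp⟩ := h
  have h2 := chiDatum_not_dvd_two ι hp P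
  haveI : IsDomain (RingA0 (ι P.c)) := ringA0_isDomain hp h2 (map_dvd ι hlc)
  haveI : IsNoetherianRing (RingA0 (ι P.c)) := ringA0_isNoetherianRing _
  refine ⟨PowerSeries (RingA0 (ι P.c)), inferInstance, inferInstance, inferInstance,
    (PowerSeries.map (quadMap ι P.c)).comp (RChi.toPS P),
    (PowerSeries.map_injective _ (quadMap_injective ι hι P.c)).comp (RChi.toPS_injective P hreg),
    ?_⟩
  rw [RingHom.comp_apply, rChi_algebraMap, RChi.toPS_mk, ltPsi_C, PowerSeries.map_C,
    quadMap_algebraMap, map_C]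
  exact prime_C_mv (σ := Unit) (ringA0_prime hp h2 (map_dvd ι hlc))

end Step

end Fermat.Agent.Ribet.H678

end
-- ===== PACK-END Ribet/H678/RChiDom.lean

-- ===== PACK-BEGIN S38/H916/FreeAlg.lean
section


/-!
# Row HARD, cell HECKE, leaf IA-FREE: Mathlib-level pieces (helper916)

* `pow_twelve_eq_one_h916` : an element of finite order of `SL(2,ℤ)` satisfies `g ^ 12 = 1`
  (trace bound + Cayley–Hamilton, from `S41.H952.TorsCore`);
* `ell_of_card_h916` : (Ell) for `5 ≤ p`: a homomorphism from a subgroup of `SL(2,ℤ)` to a finite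
  group of `p`-power order kills the elements of finite order;
* `existsUnique_of_linearIndependent_h916` : a linearly independent spanning family indexed by
  `D × Fin n`, re-indexed along a bijection `ε : E → D`, gives unique coefficients
  `c : Fin n → E → 𝒪`.
-/

set_option autoImplicit false

open scoped MatrixGroups

namespace Fermat.Agent.S38.H916

open Matrix Fermat.Agent.S41.H952

/-- `g² = -1` if `tr g = 0`. -/
theorem sq_of_tr2_zero_h916 (g : SL(2, ℤ)) (ht : tr2 g = 0) : g ^ 2 = -1 := by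
  apply Subtype.ext
  have h := cayley g
  rw [ht, zero_smul, zero_sub] at h
  rw [pow_two, Matrix.SpecialLinearGroup.coe_mul, h]
  simp [Matrix.SpecialLinearGroup.coe_neg]

/-- `g³ = -1` if `tr g = 1`. -/
theorem cube_of_tr2_one_h916 (g : SL(2, ℤ)) (ht : tr2 g = 1) : g ^ 3 = -1 := by
  apply Subtype.ext
  have h := cayley g
  rw [ht, one_smul] at h
  have h3 : (g ^ 3).1 = g.1 * (g.1 * g.1) := by
    rw [pow_succ', pow_two, Matrix.SpecialLinearGroup.coe_mul, Matrix.SpecialLinearGroup.coe_mul]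
  rw [h3, h, Matrix.mul_sub, Matrix.mul_one, h]
  simp [Matrix.SpecialLinearGroup.coe_neg]

/-- `g³ = 1` if `tr g = -1`. -/
theorem cube_of_tr2_neg_one_h916 (g : SL(2, ℤ)) (ht : tr2 g = -1) : g ^ 3 = 1 := by
  apply Subtype.ext
  have h := cayley g
  rw [ht] at h
  have h3 : (g ^ 3).1 = g.1 * (g.1 * g.1) := by
    rw [pow_succ', pow_two, Matrix.SpecialLinearGroup.coe_mul, Matrix.SpecialLinearGroup.coe_mul]
  rw [h3, h, Matrix.mul_sub, Matrix.mul_one, Matrix.mul_smul, h]
  simp only [Matrix.SpecialLinearGroup.coe_one]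
  module

/-- **TORS.**  An element of finite order of `SL(2,ℤ)` satisfies `g ^ 12 = 1`. -/
theorem pow_twelve_eq_one_h916 (g : SL(2, ℤ)) (hg : IsOfFinOrder g) : g ^ 12 = 1 := by
  have hb := abs_tr2_le_two hg
  rw [abs_le] at hb
  have hcases : tr2 g = 2 ∨ tr2 g = -2 ∨ tr2 g = 0 ∨ tr2 g = 1 ∨ tr2 g = -1 := by omega
  have h3 : ((-1 : SL(2, ℤ))) ^ 2 = 1 := by
    rw [pow_two]
    simp
  rcases hcases with ht | ht | ht | ht | ht
  · rw [eq_one_of_tr2_eq_two hg ht, one_pow]
  · have h1 : -g = 1 := eq_one_of_tr2_eq_two (isOfFinOrder_neg hg) (by rw [tr2_neg, ht]; norm_num)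
    have h2 : g = -1 := by rw [← h1, neg_neg]
    rw [h2, show (12 : ℕ) = 2 * 6 from rfl, pow_mul, h3, one_pow]
  · have h2 := sq_of_tr2_zero_h916 g ht
    rw [show (12 : ℕ) = 2 * (2 * 3) from rfl, pow_mul, h2, pow_mul, h3, one_pow]
  · have h2 := cube_of_tr2_one_h916 g ht
    rw [show (12 : ℕ) = 3 * (2 * 2) from rfl, pow_mul, h2, pow_mul, h3, one_pow]
  · have h2 := cube_of_tr2_neg_one_h916 g ht
    rw [show (12 : ℕ) = 3 * 4 from rfl, pow_mul, h2, one_pow]

/-- **(Ell) for `5 ≤ p`.**  A homomorphism from a subgroup of `SL(2,ℤ)` to a finite group of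
`p`-power order is trivial on the elements of finite order. -/
theorem ell_of_card_h916 {Γ : Subgroup SL(2, ℤ)} {D : Type} [Group D] [Finite D] (κ : Γ →* D)
    {p : ℕ} (hp : p.Prime) (hp5 : 5 ≤ p) {a : ℕ} (hcard : Nat.card D = p ^ a)
    (g : Γ) (hg : IsOfFinOrder g) : κ g = 1 := by
  have hg' : IsOfFinOrder (g : SL(2, ℤ)) := by
    have := MonoidHom.isOfFinOrder Γ.subtype hg
    exact this
  have h12 : g ^ 12 = 1 := by
    apply Subtype.ext
    rw [Subgroup.coe_pow, Subgroup.coe_one]
    exact pow_twelve_eq_one_h916 _ hg'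
  have h1 : κ g ^ 12 = 1 := by rw [← map_pow, h12, map_one]
  have h2 : κ g ^ (p ^ a) = 1 := by
    rw [← hcard]
    exact pow_card_eq_one'
  have hcop : Nat.Coprime 12 (p ^ a) := by
    apply Nat.Coprime.pow_right
    have h2' : Nat.Coprime 2 p := by
      rw [Nat.coprime_primes Nat.prime_two hp]
      omega
    have h3' : Nat.Coprime 3 p := by
      rw [Nat.coprime_primes Nat.prime_three hp]
      omega
    have : (12 : ℕ) = 2 * 2 * 3 := rfl
    rw [this]
    exact Nat.Coprime.mul_left (Nat.Coprime.mul_left h2' h2') h3'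
  have h3 : orderOf (κ g) ∣ Nat.gcd 12 (p ^ a) :=
    Nat.dvd_gcd (orderOf_dvd_of_pow_eq_one h1) (orderOf_dvd_of_pow_eq_one h2)
  rw [hcop] at h3
  exact orderOf_eq_one_iff.mp (Nat.dvd_one.mp h3)

section LinAlg

variable {𝒪 : Type} [CommRing 𝒪] {X : Type} [AddCommGroup X] [Module 𝒪 X]
  {D E : Type} [Fintype E]

/-- Unique coefficients with respect to a linearly independent family indexed by `D × Fin n`,
re-indexed along a bijection `ε : E → D`. -/
theorem existsUnique_of_linearIndependent_h916 {n : ℕ} (F : D × Fin n → X)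
    (hli : LinearIndependent 𝒪 F) (ε : E → D) (hε : Function.Bijective ε) (y : X)
    (hy : y ∈ Submodule.span 𝒪 (Set.range F)) :
    ∃! c : Fin n → E → 𝒪, y = ∑ i, ∑ e, c i e • F (ε e, i) := by
  classical
  let φ : Fin n × E → D × Fin n := fun z => (ε z.2, z.1)
  have hφ : Function.Bijective φ := by
    constructor
    · rintro ⟨i, e⟩ ⟨i', e'⟩ h
      have h1 : ε e = ε e' := congrArg Prod.fst h
      have h2 : i = i' := congrArg Prod.snd h
      rw [hε.1 h1, h2]
    · rintro ⟨d, i⟩
      obtain ⟨e, rfl⟩ := hε.2 d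
      exact ⟨(i, e), rfl⟩
  let G : Fin n × E → X := F ∘ φ
  have hG : LinearIndependent 𝒪 G := hli.comp φ hφ.1
  have hrange : Set.range G = Set.range F := by
    show Set.range (F ∘ φ) = Set.range F
    rw [Set.range_comp, hφ.2.range_eq, Set.image_univ]
  have hsum : ∀ c : Fin n → E → 𝒪,
      ∑ i, ∑ e, c i e • F (ε e, i) = ∑ z : Fin n × E, c z.1 z.2 • G z := by
    intro c
    rw [Fintype.sum_prod_type]
    rfl
  rw [← hrange] at hy
  obtain ⟨c₀, hc₀⟩ := (Submodule.mem_span_range_iff_exists_fun 𝒪).mp hy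
  refine ⟨fun i e => c₀ (i, e), ?_, ?_⟩
  · show y = ∑ i, ∑ e, c₀ (i, e) • F (ε e, i)
    rw [hsum (fun i e => c₀ (i, e)), ← hc₀]
  · intro c hc
    rw [hsum c, ← hc₀] at hc
    have hzero : ∑ z : Fin n × E, (c z.1 z.2 - c₀ z) • G z = 0 := by
      simp only [sub_smul, Finset.sum_sub_distrib]
      rw [← hc, sub_self]
    have := Fintype.linearIndependent_iff.mp hG (fun z => c z.1 z.2 - c₀ z) hzero
    funext i e
    exact sub_eq_zero.mp (this (i, e))

end LinAlg

end Fermat.Agent.S38.H916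

end
-- ===== PACK-END S38/H916/FreeAlg.lean

-- ===== PACK-BEGIN S38/H473/ChiSat.lean
section


/-!
# Row HARD, cell HECKE, leaves IA-NU / IA-ST: saturation of the `χ`-relations  (helper473)

Mathlib only.  `ρ : D →* End_𝒪 V` an action of a monoid `D`, `χ : D →* 𝒪` a character,
`chiRelSpan ρ χ` the `𝒪`-span of the `ρ(a) y - χ(a) y`.

If `V` has an `𝒪`-basis of the form `ρ(γ e) b_j` (`e ∈ E`, `j ∈ J`) where the `ρ(γ e)` are
permuted by every `ρ(a)` compatibly with `χ`, then `V / chiRelSpan ρ χ` embeds into `𝒪^J`: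
* `exists_chiFunctional` : a linear map `Φ : V → 𝒪^J` with `Φ(ρ(a) y) = χ(a) Φ(y)` and
  `Φ(∑ c_{j,e} ρ(γ e) b_j) = (∑_e c_{j,e} χ(γ e))_j`;
* `mem_chiRelSpan_of_smul_mem` : over a domain, `l ≠ 0` and `l y ∈ chiRelSpan` give
  `y ∈ chiRelSpan` (the quotient has no `𝒪`-torsion).
-/

set_option autoImplicit false
set_option linter.unusedSectionVars false

namespace Fermat.Agent.S38.H473

section ChiSat

variable {𝒪 : Type*} [CommRing 𝒪] {V : Type*} [AddCommGroup V] [Module 𝒪 V]
  {D : Type*} [Monoid D] (ρ : D →* Module.End 𝒪 V) (χ : D →* 𝒪)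

/-- The `χ`-relations: the `𝒪`-span of the `ρ(a) y - χ(a) y`. -/
def chiRelSpan : Submodule 𝒪 V :=
  Submodule.span 𝒪 {w | ∃ (a : D) (y : V), w = ρ a y - χ a • y}

theorem sub_mem_chiRelSpan (a : D) (y : V) : ρ a y - χ a • y ∈ chiRelSpan ρ χ :=
  Submodule.subset_span ⟨a, y, rfl⟩

/-- An `𝒪`-linear map commuting with the action maps the `χ`-relations to themselves. -/
theorem map_mem_chiRelSpan (f : V →ₗ[𝒪] V) (hf : ∀ (a : D) (y : V), f (ρ a y) = ρ a (f y))
    {y : V} (hy : y ∈ chiRelSpan ρ χ) : f y ∈ chiRelSpan ρ χ := by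
  have h1 : chiRelSpan ρ χ ≤ (chiRelSpan ρ χ).comap f := by
    refine Submodule.span_le.mpr ?_
    rintro w ⟨a, y', rfl⟩
    show f (ρ a y' - χ a • y') ∈ chiRelSpan ρ χ
    rw [map_sub, map_smul, hf]
    exact sub_mem_chiRelSpan ρ χ a (f y')
  exact h1 hy

variable {E J : Type*} [Fintype E] [Fintype J] (γ : E → D) (b : J → V)

/-- The map `c ↦ ∑ j, ∑ e, c j e • ρ (γ e) (b j)`. -/
noncomputable def comboMap : (J → E → 𝒪) →ₗ[𝒪] V where
  toFun c := ∑ j, ∑ e, c j e • ρ (γ e) (b j)
  map_add' c c' := by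
    simp only [Pi.add_apply, add_smul, Finset.sum_add_distrib]
  map_smul' l c := by
    simp only [Pi.smul_apply, smul_eq_mul, mul_smul, Finset.smul_sum, RingHom.id_apply]

theorem comboMap_apply (c : J → E → 𝒪) :
    comboMap ρ γ b c = ∑ j, ∑ e, c j e • ρ (γ e) (b j) := rfl

/-- The map `c ↦ (∑ e, c j e * χ (γ e))_j`. -/
noncomputable def chiEvalMap : (J → E → 𝒪) →ₗ[𝒪] (J → 𝒪) where
  toFun c j := ∑ e, c j e * χ (γ e)
  map_add' c c' := by
    funext j
    simp only [Pi.add_apply, add_mul, Finset.sum_add_distrib]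
  map_smul' l c := by
    funext j
    simp only [Pi.smul_apply, smul_eq_mul, mul_assoc, Finset.mul_sum, RingHom.id_apply]

theorem chiEvalMap_apply (c : J → E → 𝒪) (j : J) :
    chiEvalMap χ γ c j = ∑ e, c j e * χ (γ e) := rfl

theorem comboMap_single [DecidableEq J] [DecidableEq E] (j : J) (e : E) :
    comboMap ρ γ b (Pi.single j (Pi.single e 1)) = ρ (γ e) (b j) := by
  rw [comboMap_apply, Finset.sum_eq_single j, Finset.sum_eq_single e]
  · rw [Pi.single_eq_same, Pi.single_eq_same, one_smul]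
  · intro e' _ he'
    rw [Pi.single_eq_same, Pi.single_eq_of_ne he', zero_smul]
  · intro h
    exact absurd (Finset.mem_univ e) h
  · intro j' _ hj'
    refine Finset.sum_eq_zero fun e' _ => ?_
    rw [Pi.single_eq_of_ne hj', Pi.zero_apply, zero_smul]
  · intro h
    exact absurd (Finset.mem_univ j) h

theorem chiEvalMap_single [DecidableEq J] [DecidableEq E] (j : J) (e : E) :
    chiEvalMap (J := J) χ γ (Pi.single j (Pi.single e 1)) = Pi.single j (χ (γ e)) := by
  funext j'
  rw [chiEvalMap_apply]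
  by_cases hj : j' = j
  · subst hj
    rw [Pi.single_eq_same, Pi.single_eq_same, Finset.sum_eq_single e]
    · rw [Pi.single_eq_same, one_mul]
    · intro e' _ he'
      rw [Pi.single_eq_of_ne he', zero_mul]
    · intro h
      exact absurd (Finset.mem_univ e) h
  · rw [Pi.single_eq_of_ne hj, Pi.single_eq_of_ne hj]
    refine Finset.sum_eq_zero fun e' _ => ?_
    rw [Pi.zero_apply, zero_mul]

variable {ρ χ γ b}

/-- **The `χ`-functional.**  If `c ↦ ∑ c_{j,e} ρ(γ e) b_j` is bijective and the `ρ(γ e)` are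
permuted by the action compatibly with `χ`, there is `Φ : V → 𝒪^J` with
`Φ(ρ(a) y) = χ(a) Φ(y)`. -/
theorem exists_chiFunctional (hbij : Function.Bijective (comboMap ρ γ b))
    (hperm : ∀ (a : D) (e : E), ∃ e' : E, ρ (a * γ e) = ρ (γ e') ∧ χ (a * γ e) = χ (γ e')) :
    ∃ Φ : V →ₗ[𝒪] (J → 𝒪), (∀ c, Φ (comboMap ρ γ b c) = chiEvalMap χ γ c) ∧
      ∀ (a : D) (y : V), Φ (ρ a y) = χ a • Φ y := by
  classical
  set L := LinearEquiv.ofBijective (comboMap ρ γ b) hbij with hL
  have hLc : ∀ c, L c = comboMap ρ γ b c := fun c => rfl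
  set Φ : V →ₗ[𝒪] (J → 𝒪) := (chiEvalMap χ γ).comp L.symm.toLinearMap with hΦ
  have h1 : ∀ c, Φ (comboMap ρ γ b c) = chiEvalMap χ γ c := by
    intro c
    rw [hΦ, LinearMap.comp_apply, ← hLc]
    show chiEvalMap χ γ (L.symm (L c)) = _
    rw [LinearEquiv.symm_apply_apply]
  refine ⟨Φ, h1, ?_⟩
  intro a y
  -- reduce to an equality of linear maps on `J → E → 𝒪`
  have key : (Φ.comp (ρ a)).comp (comboMap ρ γ b) = (χ a • Φ).comp (comboMap ρ γ b) := by
    refine LinearMap.pi_ext' fun j => LinearMap.pi_ext' fun e => LinearMap.ext_ring ?_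
    show Φ (ρ a (comboMap ρ γ b (Pi.single j (Pi.single e 1)))) =
      χ a • Φ (comboMap ρ γ b (Pi.single j (Pi.single e 1)))
    obtain ⟨e', he1, he2⟩ := hperm a e
    rw [h1, comboMap_single, ← Module.End.mul_apply, ← map_mul, he1, ← comboMap_single ρ γ b j e',
      h1, chiEvalMap_single, chiEvalMap_single, ← he2, map_mul]
    funext j'
    by_cases hj : j' = j
    · subst hj
      rw [Pi.smul_apply, Pi.single_eq_same, Pi.single_eq_same, smul_eq_mul]
    · rw [Pi.smul_apply, Pi.single_eq_of_ne hj, Pi.single_eq_of_ne hj, smul_zero]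
  obtain ⟨c, rfl⟩ := hbij.2 y
  exact congrArg (fun f : (J → E → 𝒪) →ₗ[𝒪] (J → 𝒪) => f c) key

/-- The `χ`-functional kills the `χ`-relations. -/
theorem chiFunctional_eq_zero {Φ : V →ₗ[𝒪] (J → 𝒪)}
    (hΦ : ∀ (a : D) (y : V), Φ (ρ a y) = χ a • Φ y) {y : V} (hy : y ∈ chiRelSpan ρ χ) :
    Φ y = 0 := by
  have h1 : chiRelSpan ρ χ ≤ LinearMap.ker Φ := by
    refine Submodule.span_le.mpr ?_
    rintro w ⟨a, y', rfl⟩
    show Φ (ρ a y' - χ a • y') = 0
    rw [map_sub, map_smul, hΦ, sub_self]
  exact h1 hy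

/-- An element whose `χ`-coordinates vanish is a `χ`-relation. -/
theorem comboMap_mem_chiRelSpan (c : J → E → 𝒪) (hc : chiEvalMap χ γ c = 0) :
    comboMap ρ γ b c ∈ chiRelSpan ρ χ := by
  have hdecomp : comboMap ρ γ b c =
      (∑ j, ∑ e, c j e • (ρ (γ e) (b j) - χ (γ e) • b j)) +
        ∑ j, (∑ e, c j e * χ (γ e)) • b j := by
    rw [comboMap_apply, ← Finset.sum_add_distrib]
    refine Finset.sum_congr rfl fun j _ => ?_
    rw [Finset.sum_smul, ← Finset.sum_add_distrib]
    refine Finset.sum_congr rfl fun e _ => ?_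
    rw [smul_sub, mul_smul, sub_add_cancel]
  have h0 : ∑ j, (∑ e, c j e * χ (γ e)) • b j = 0 := by
    refine Finset.sum_eq_zero fun j _ => ?_
    have := congrFun hc j
    rw [chiEvalMap_apply] at this
    rw [this, Pi.zero_apply, zero_smul]
  rw [hdecomp, h0, add_zero]
  refine Submodule.sum_mem _ fun j _ => Submodule.sum_mem _ fun e _ => ?_
  exact Submodule.smul_mem _ _ (sub_mem_chiRelSpan ρ χ (γ e) (b j))

/-- **Saturation.**  Over a domain, the quotient `V / chiRelSpan ρ χ` has no `𝒪`-torsion. -/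
theorem mem_chiRelSpan_of_smul_mem [IsDomain 𝒪]
    (hbij : Function.Bijective (comboMap ρ γ b))
    (hperm : ∀ (a : D) (e : E), ∃ e' : E, ρ (a * γ e) = ρ (γ e') ∧ χ (a * γ e) = χ (γ e'))
    {l : 𝒪} (hl : l ≠ 0) {y : V} (hy : l • y ∈ chiRelSpan ρ χ) : y ∈ chiRelSpan ρ χ := by
  obtain ⟨Φ, hΦ1, hΦ2⟩ := exists_chiFunctional hbij hperm
  have h1 : Φ (l • y) = 0 := chiFunctional_eq_zero hΦ2 hy
  rw [map_smul] at h1
  have h2 : Φ y = 0 := by
    funext j
    have h3 := congrFun h1 j
    rw [Pi.smul_apply, smul_eq_mul, Pi.zero_apply] at h3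
    rcases mul_eq_zero.mp h3 with h4 | h4
    · exact absurd h4 hl
    · exact h4
  obtain ⟨c, rfl⟩ := hbij.2 y
  rw [hΦ1] at h2
  exact comboMap_mem_chiRelSpan c h2

/-- The bijectivity of `comboMap` is the unique-coordinates statement. -/
theorem comboMap_bijective_of_existsUnique
    (hb : ∀ y : V, ∃! c : J → E → 𝒪, y = ∑ j, ∑ e, c j e • ρ (γ e) (b j)) :
    Function.Bijective (comboMap ρ γ b) := by
  constructor
  · intro c c' hcc
    obtain ⟨c₀, -, hu⟩ := hb (comboMap ρ γ b c)
    rw [hu c rfl, hu c' hcc]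
  · intro y
    obtain ⟨c, hc, -⟩ := hb y
    exact ⟨c, hc.symm⟩

end ChiSat

end Fermat.Agent.S38.H473

end
-- ===== PACK-END S38/H473/ChiSat.lean

-- ===== PACK-BEGIN S38/H227/EigenRel.lean
section



/-!
# Row HARD / S59-TW, (NU): eigenvector from relations (Mathlib + S49.LinAlg + H658.Transfer)
(helper227)
-/

set_option autoImplicit false
set_option linter.style.haveILetI false

namespace Fermat.Agent.S38.H227

open Fermat.Agent.S59.TW.H658

open scoped IsMulCommutative in
/-- **Eigenvector from relations.**  `T' : σ → End_K V` a commuting family on a finite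
dimensional vector space over an algebraically closed field, `s : σ → R` values in a domain
satisfying every noncommutative polynomial relation of the `T' i`.  Then there are a simultaneous
eigenvector `g ≠ 0`, with eigenvalues `c i` in a subring `R₀` of `K`, and a ring homomorphism
`L : R₀ → R` with `L (c i) = s i`. -/
theorem exists_eigen_of_rel {K V : Type*} [Field K] [IsAlgClosed K]
    [AddCommGroup V] [Module K V] [FiniteDimensional K V]
    {σ : Type*} (T' : σ → Module.End K V) (hcomm : ∀ i j, Commute (T' i) (T' j))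
    {R : Type*} [CommRing R] [IsDomain R] (s : σ → R)
    (hrel : ∀ P : FreeAlgebra ℤ σ, FreeAlgebra.lift ℤ T' P = 0 → FreeAlgebra.lift ℤ s P = 0) :
    ∃ (g : V) (R₀ : Subring K) (L : R₀ →+* R) (c : σ → R₀),
      g ≠ 0 ∧ ∀ i, T' i g = (c i : K) • g ∧ L (c i) = s i := by
  classical
  haveI hB : IsMulCommutative (Algebra.adjoin ℤ (Set.range T')) :=
    Algebra.isMulCommutative_adjoin ℤ (by
      rintro _ ⟨i, rfl⟩ _ ⟨j, rfl⟩
      exact (hcomm i j).eq)
  obtain ⟨κ, hκ, -⟩ := exists_ringHom_of_rel_gen T' s hrel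
  haveI : (RingHom.ker κ).IsPrime := RingHom.ker_isPrime κ
  obtain ⟨g, χ', hg0, hgeig, hker⟩ := Fermat.Agent.S49.exists_eigenvector_ker_le
    ((Algebra.adjoin ℤ (Set.range T')).val : Algebra.adjoin ℤ (Set.range T') →+* Module.End K V)
    Subtype.val_injective (RingHom.ker κ)
  -- the lift of `κ` through the range of `χ'`
  have hker' : RingHom.ker χ'.rangeRestrict ≤ RingHom.ker κ := by
    intro b hb
    apply hker
    rw [RingHom.mem_ker] at hb ⊢
    have := congrArg Subtype.val hb
    simpa using this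
  let L : χ'.range →+* R :=
    χ'.rangeRestrict.liftOfRightInverse (Function.surjInv χ'.rangeRestrict_surjective)
      (Function.rightInverse_surjInv χ'.rangeRestrict_surjective) ⟨κ, hker'⟩
  have hL : ∀ b, L (χ'.rangeRestrict b) = κ b := fun b =>
    χ'.rangeRestrict.liftOfRightInverse_comp_apply _
      (Function.rightInverse_surjInv χ'.rangeRestrict_surjective) ⟨κ, hker'⟩ b
  refine ⟨g, χ'.range, L,
    fun i => χ'.rangeRestrict ⟨T' i, Algebra.subset_adjoin ⟨i, rfl⟩⟩, hg0, fun i => ⟨?_, ?_⟩⟩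
  · exact hgeig ⟨T' i, Algebra.subset_adjoin ⟨i, rfl⟩⟩
  · rw [hL, hκ]

end Fermat.Agent.S38.H227

end
-- ===== PACK-END S38/H227/EigenRel.lean

-- ===== PACK-BEGIN S59/TW/H201/KDegDefs.lean
section






/-!
# S59 / HARD, cell TW: one-prime degeneracy maps at `Γ_H`-levels — definitions (helper201)

Level `N`, a group `K` with `Γ₁(N) ≤ K ≤ Γ₀(N)` (`H653.IsMid N K`), a prime `q ∤ N`.

* `Kq N q K = K ⊓ Γ₀(N q)` (`isMid_Kq : IsMid (N q) (Kq N q K)`);
* `conjDeltaK hK q : Kq N q K →* K`, `γ ↦ δ γ δ⁻¹`, `δ = diag(q, 1)` (restriction of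
  `S41.Spec.conjDelta`);
* `r₁K`, `r₂K : X_K → X_{Kq}` (pull-back along the inclusion and along `conjDeltaK`);
* `t₁K`, `t₂K : X_{Kq} → X_K` (transfer along the inclusion and along `conjDeltaK`);
* `index_range_inclKq`, `index_range_conjDeltaK` : both ranges have index `q + 1` in `K`;
* `t₁K_r₁K`, `t₂K_r₂K` : `t₁ r₁ = q + 1 = t₂ r₂`.

The operators `T_q = H653.TK N K q`, `U_q = H653.UK (Kq N q K) q` and the diamond operators are
those of `S59/TW/H653`.
-/

set_option autoImplicit false

namespace Fermat.Agent.S59.TW.H201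

open CongruenceSubgroup Matrix.SpecialLinearGroup
open Fermat.Agent.S41.Spec Fermat.Agent.S59.TW.H653
open scoped MatrixGroups

/-! ## Generalities -/

section General

/-- Reduction of a congruence modulo `N q` to a congruence modulo `N`. -/
theorem intCast_eq_of_mul201 {N q : ℕ} {a b : ℤ}
    (h : (a : ZMod (N * q)) = (b : ZMod (N * q))) : (a : ZMod N) = (b : ZMod N) := by
  rw [ZMod.intCast_eq_intCast_iff_dvd_sub] at h ⊢
  exact dvd_trans ⟨(q : ℤ), by push_cast; ring⟩ h

theorem Gamma1_mul_le201 (N q : ℕ) : Gamma1 (N * q) ≤ Gamma1 N := by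
  intro g hg
  rw [Gamma1_mem] at hg ⊢
  obtain ⟨h1, h2, h3⟩ := hg
  refine ⟨?_, ?_, ?_⟩
  · have := intCast_eq_of_mul201 (N := N) (q := q) (a := g 0 0) (b := 1) (by simpa using h1)
    simpa using this
  · have := intCast_eq_of_mul201 (N := N) (q := q) (a := g 1 1) (b := 1) (by simpa using h2)
    simpa using this
  · have := intCast_eq_of_mul201 (N := N) (q := q) (a := g 1 0) (b := 0) (by simpa using h3)
    simpa using this

/-- **Index transport.**  If `R = j⁻¹(R')` and `G' = j(G) R'`, then `[G : R] = [G' : R']`. -/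
theorem index_eq_of_comap201 {G G' : Type*} [Group G] [Group G'] (j : G →* G')
    (R : Subgroup G) (R' : Subgroup G') (h1 : ∀ g : G, g ∈ R ↔ j g ∈ R')
    (h2 : ∀ g' : G', ∃ g : G, (j g)⁻¹ * g' ∈ R') : R.index = R'.index := by
  rw [Subgroup.index_eq_card, Subgroup.index_eq_card]
  let Φ : G ⧸ R → G' ⧸ R' := Quotient.map' (fun g => j g) (by
    intro a b hab
    rw [QuotientGroup.leftRel_apply] at hab ⊢
    rw [← map_inv, ← map_mul]
    exact (h1 _).mp hab)
  refine Nat.card_eq_of_bijective Φ ⟨?_, ?_⟩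
  · intro x y
    induction x using QuotientGroup.induction_on with
    | H a =>
      induction y using QuotientGroup.induction_on with
      | H b =>
        intro hxy
        have h3 : ((j a : G') : G' ⧸ R') = ((j b : G') : G' ⧸ R') := hxy
        rw [QuotientGroup.eq] at h3 ⊢
        rw [← map_inv, ← map_mul] at h3
        exact (h1 _).mpr h3
  · intro y
    induction y using QuotientGroup.induction_on with
    | H b =>
      obtain ⟨g, hg⟩ := h2 b
      refine ⟨(g : G ⧸ R), ?_⟩
      show ((j g : G') : G' ⧸ R') = ((b : G') : G' ⧸ R')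
      rw [QuotientGroup.eq]
      exact hg

end General

/-! ## The groups -/

section Groups

variable {N : ℕ} {K : Subgroup SL(2, ℤ)}

/-- `K_{N q} = K ⊓ Γ₀(N q)`. -/
def Kq (N q : ℕ) (K : Subgroup SL(2, ℤ)) : Subgroup SL(2, ℤ) := K ⊓ Gamma0 (N * q)

theorem Kq_le (N q : ℕ) (K : Subgroup SL(2, ℤ)) : Kq N q K ≤ K := inf_le_left

theorem Kq_le_Gamma0 (N q : ℕ) (K : Subgroup SL(2, ℤ)) : Kq N q K ≤ Gamma0 (N * q) :=
  inf_le_right

theorem mem_Kq {q : ℕ} {g : SL(2, ℤ)} : g ∈ Kq N q K ↔ g ∈ K ∧ g ∈ Gamma0 (N * q) := Iff.rfl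

theorem isMid_Kq (hK : IsMid N K) (q : ℕ) : IsMid (N * q) (Kq N q K) where
  le := Kq_le_Gamma0 N q K
  ge := fun _ hg => ⟨hK.ge (Gamma1_mul_le201 N q hg), Gamma1_in_Gamma0 (N * q) hg⟩

/-- The inclusion `K_{N q} → K`. -/
def inclKq (N q : ℕ) (K : Subgroup SL(2, ℤ)) : Kq N q K →* K := Subgroup.inclusion (Kq_le N q K)

/-- The inclusion `K_{N q} → Γ₀(N q)`. -/
def toGamma0q (N q : ℕ) (K : Subgroup SL(2, ℤ)) : Kq N q K →* Gamma0 (N * q) :=
  Subgroup.inclusion (Kq_le_Gamma0 N q K)

@[simp] theorem coe_inclKq {q : ℕ} (γ : Kq N q K) :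
    ((inclKq N q K γ : K) : SL(2, ℤ)) = γ := rfl

@[simp] theorem coe_toGamma0q {q : ℕ} (γ : Kq N q K) :
    ((toGamma0q N q K γ : Gamma0 (N * q)) : SL(2, ℤ)) = γ := rfl

theorem inclKq_injective (N q : ℕ) (K : Subgroup SL(2, ℤ)) :
    Function.Injective (inclKq N q K) := Subgroup.inclusion_injective _

theorem toGamma0q_injective (N q : ℕ) (K : Subgroup SL(2, ℤ)) :
    Function.Injective (toGamma0q N q K) := Subgroup.inclusion_injective _

/-- `c_δ` does not change the lower right entry. -/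
theorem dUnit_conjDelta (N q : ℕ) (γ : Gamma0 (N * q)) :
    dUnit N (conjDelta N q γ) = dUnit N (incl N q γ) := by
  apply Units.ext
  rw [coe_dUnit, coe_dUnit]
  rfl

/-- `dUnit` at level `N q` lifts `dUnit` at level `N`. -/
theorem unitsMap_dUnit (N q : ℕ) (γ : Gamma0 (N * q)) :
    ZMod.unitsMap (Dvd.intro q rfl) (dUnit (N * q) γ) = dUnit N (incl N q γ) := by
  apply Units.ext
  rw [ZMod.unitsMap_def, Units.coe_map, coe_dUnit, coe_dUnit]
  simp only [MonoidHom.coe_coe, map_intCast]
  rfl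

theorem conjDelta_mem (hK : IsMid N K) (q : ℕ) (γ : Kq N q K) :
    ((conjDelta N q (toGamma0q N q K γ) : Gamma0 N) : SL(2, ℤ)) ∈ K :=
  hK.mem_of_dUnit_eq (k := incl N q (toGamma0q N q K γ)) γ.2.1 (dUnit_conjDelta N q _)

/-- `c_δ : K_{N q} →* K`, `γ ↦ δ γ δ⁻¹ = [[a, q b], [c / q, d]]`. -/
def conjDeltaK (hK : IsMid N K) (q : ℕ) : Kq N q K →* K :=
  (((Gamma0 N).subtype.comp (conjDelta N q)).comp (toGamma0q N q K)).codRestrict K
    (conjDelta_mem hK q)

@[simp] theorem inclK_conjDeltaK (hK : IsMid N K) (q : ℕ) (γ : Kq N q K) :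
    inclK hK (conjDeltaK hK q γ) = conjDelta N q (toGamma0q N q K γ) := rfl

@[simp] theorem inclK_inclKq (hK : IsMid N K) (q : ℕ) (γ : Kq N q K) :
    inclK hK (inclKq N q K γ) = incl N q (toGamma0q N q K γ) := rfl

theorem conjDeltaK_injective (hK : IsMid N K) {q : ℕ} (hq : q ≠ 0) :
    Function.Injective (conjDeltaK hK q) := by
  intro γ γ' h
  apply toGamma0q_injective N q K
  apply Fermat.Agent.S41.H105.conjDelta_injective N hq
  have := congrArg (inclK hK) h
  simpa using this

/-- An element of `Γ₀(N q)` whose image in `Γ₀(N)` lies in `K`, as an element of `K_{N q}`. -/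
def ofGamma0q (N q : ℕ) (K : Subgroup SL(2, ℤ)) (s : Gamma0 (N * q))
    (hs : (s : SL(2, ℤ)) ∈ K) : Kq N q K := ⟨s, hs, s.2⟩

@[simp] theorem toGamma0q_ofGamma0q {q : ℕ} (s : Gamma0 (N * q)) (hs : (s : SL(2, ℤ)) ∈ K) :
    toGamma0q N q K (ofGamma0q N q K s hs) = s := rfl

theorem mem_range_inclKq_iff {q : ℕ} (hK : IsMid N K) (k : K) :
    k ∈ (inclKq N q K).range ↔ inclK hK k ∈ (incl N q).range := by
  constructor
  · rintro ⟨γ, rfl⟩
    exact ⟨toGamma0q N q K γ, rfl⟩
  · rintro ⟨s, hs⟩
    have hsK : (s : SL(2, ℤ)) ∈ K := by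
      have : (s : SL(2, ℤ)) = (k : SL(2, ℤ)) := congrArg (fun x : Gamma0 N => (x : SL(2, ℤ))) hs
      rw [this]
      exact k.2
    refine ⟨ofGamma0q N q K s hsK, ?_⟩
    apply inclK_injective hK
    rw [inclK_inclKq, toGamma0q_ofGamma0q, hs]

theorem mem_range_conjDeltaK_iff {q : ℕ} (hK : IsMid N K) (k : K) :
    k ∈ (conjDeltaK hK q).range ↔ inclK hK k ∈ (conjDelta N q).range := by
  constructor
  · rintro ⟨γ, rfl⟩
    exact ⟨toGamma0q N q K γ, rfl⟩
  · rintro ⟨s, hs⟩
    have hsK : (s : SL(2, ℤ)) ∈ K := by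
      have h1 : dUnit N (incl N q s) = dUnit N (inclK hK k) := by
        rw [← dUnit_conjDelta, hs]
      exact hK.mem_of_dUnit_eq (g := incl N q s) (k := inclK hK k) k.2 h1
    refine ⟨ofGamma0q N q K s hsK, ?_⟩
    apply inclK_injective hK
    rw [inclK_conjDeltaK, toGamma0q_ofGamma0q, hs]

/-- Every class of `(ℤ/N)ˣ` is the lower right entry of an element of `Γ₀(N q)`. -/
theorem exists_Gamma0q_dUnit (N q : ℕ) [NeZero (N * q)] (u : (ZMod N)ˣ) :
    ∃ s : Gamma0 (N * q), dUnit N (incl N q s) = u := by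
  obtain ⟨u', hu'⟩ := ZMod.unitsMap_surjective (Dvd.intro q rfl : N ∣ N * q) u
  obtain ⟨s, hs⟩ := dUnit_surjective (M := N * q) u'
  exact ⟨s, by rw [← unitsMap_dUnit, hs, hu']⟩

theorem index_range_inclKq (hK : IsMid N K) {q : ℕ} (hN : N ≠ 0) (hq : q.Prime)
    (hqN : ¬ q ∣ N) : (inclKq N q K).range.index = q + 1 := by
  have : NeZero (N * q) := ⟨Nat.mul_ne_zero hN hq.ne_zero⟩
  rw [← Fermat.Agent.S41.H105.index_range_incl hN hq hqN]
  refine index_eq_of_comap201 (inclK hK) _ _ (mem_range_inclKq_iff hK) ?_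
  intro g'
  obtain ⟨s, hs⟩ := exists_Gamma0q_dUnit N q (dUnit N g')
  have hk : ((g' * (incl N q s)⁻¹ : Gamma0 N) : SL(2, ℤ)) ∈ K := by
    apply hK.mem_of_dUnit_eq_one
    rw [map_mul, map_inv, hs, mul_inv_cancel]
  refine ⟨⟨_, hk⟩, s, ?_⟩
  apply Subtype.ext
  simp [inclK, mul_assoc]

theorem index_range_conjDeltaK (hK : IsMid N K) {q : ℕ} (hN : N ≠ 0) (hq : q.Prime)
    (hqN : ¬ q ∣ N) : (conjDeltaK hK q).range.index = q + 1 := by
  have : NeZero (N * q) := ⟨Nat.mul_ne_zero hN hq.ne_zero⟩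
  rw [← Fermat.Agent.S41.H105.index_range_conjDelta hN hq hqN]
  refine index_eq_of_comap201 (inclK hK) _ _ (mem_range_conjDeltaK_iff hK) ?_
  intro g'
  obtain ⟨s, hs⟩ := exists_Gamma0q_dUnit N q (dUnit N g')
  have hk : ((g' * (conjDelta N q s)⁻¹ : Gamma0 N) : SL(2, ℤ)) ∈ K := by
    apply hK.mem_of_dUnit_eq_one
    rw [map_mul, map_inv, dUnit_conjDelta, hs, mul_inv_cancel]
  refine ⟨⟨_, hk⟩, s, ?_⟩
  apply Subtype.ext
  simp [inclK, mul_assoc]

theorem finiteIndex_range_inclKq (hK : IsMid N K) {q : ℕ} (hN : N ≠ 0) (hq : q.Prime)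
    (hqN : ¬ q ∣ N) : (inclKq N q K).range.FiniteIndex :=
  ⟨by rw [index_range_inclKq hK hN hq hqN]; exact Nat.succ_ne_zero q⟩

theorem finiteIndex_range_conjDeltaK (hK : IsMid N K) {q : ℕ} (hN : N ≠ 0) (hq : q.Prime)
    (hqN : ¬ q ∣ N) : (conjDeltaK hK q).range.FiniteIndex :=
  ⟨by rw [index_range_conjDeltaK hK hN hq hqN]; exact Nat.succ_ne_zero q⟩

end Groups

/-! ## The operators -/

section Operators

variable {N : ℕ} {K : Subgroup SL(2, ℤ)} {A : Type*} [AddCommGroup A]

/-- `r₁ : X_K → X_{K_{N q}}`, restriction. -/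
def r₁K (N q : ℕ) (K : Subgroup SL(2, ℤ)) (φ : Additive K →+ A) : Additive (Kq N q K) →+ A :=
  φ.comp (MonoidHom.toAdditive (inclKq N q K))

/-- `r₂ : X_K → X_{K_{N q}}`, `φ ↦ φ ∘ c_δ`. -/
def r₂K (hK : IsMid N K) (q : ℕ) (φ : Additive K →+ A) : Additive (Kq N q K) →+ A :=
  φ.comp (MonoidHom.toAdditive (conjDeltaK hK q))

/-- `t₁ : X_{K_{N q}} → X_K`, the transfer along `K_{N q} ≤ K`. -/
noncomputable def t₁K (N q : ℕ) (K : Subgroup SL(2, ℤ)) (ψ : Additive (Kq N q K) →+ A) :
    Additive K →+ A :=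
  transferAlong (inclKq N q K) ψ

/-- `t₂ : X_{K_{N q}} → X_K`, the transfer along `c_δ : K_{N q} → K`. -/
noncomputable def t₂K (hK : IsMid N K) (q : ℕ) (ψ : Additive (Kq N q K) →+ A) :
    Additive K →+ A :=
  transferAlong (conjDeltaK hK q) ψ

theorem r₁K_eq_resK (N q : ℕ) (K : Subgroup SL(2, ℤ)) (φ : Additive K →+ A) :
    r₁K N q K φ = resK (Kq_le N q K) φ := rfl

theorem t₁K_eq_coresK (N q : ℕ) (K : Subgroup SL(2, ℤ)) (ψ : Additive (Kq N q K) →+ A) :
    t₁K N q K ψ = coresK (Kq_le N q K) ψ := rfl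

@[simp] theorem r₁K_apply (N q : ℕ) (K : Subgroup SL(2, ℤ)) (φ : Additive K →+ A)
    (γ : Kq N q K) : r₁K N q K φ (Additive.ofMul γ) = φ (Additive.ofMul (inclKq N q K γ)) := rfl

@[simp] theorem r₂K_apply (hK : IsMid N K) (q : ℕ) (φ : Additive K →+ A) (γ : Kq N q K) :
    r₂K hK q φ (Additive.ofMul γ) = φ (Additive.ofMul (conjDeltaK hK q γ)) := rfl

/-- `t₁ r₁ = q + 1`. -/
theorem t₁K_r₁K (hK : IsMid N K) {q : ℕ} (hN : N ≠ 0) (hq : q.Prime) (hqN : ¬ q ∣ N)
    (φ : Additive K →+ A) : t₁K N q K (r₁K N q K φ) = (q + 1) • φ := by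
  show transferAlong (inclKq N q K) (φ.comp (MonoidHom.toAdditive (inclKq N q K))) = _
  rw [Fermat.Agent.S41.H105.transferAlong_comp (inclKq N q K) (inclKq_injective N q K)
    (finiteIndex_range_inclKq hK hN hq hqN) φ, index_range_inclKq hK hN hq hqN]

/-- `t₂ r₂ = q + 1`. -/
theorem t₂K_r₂K (hK : IsMid N K) {q : ℕ} (hN : N ≠ 0) (hq : q.Prime) (hqN : ¬ q ∣ N)
    (φ : Additive K →+ A) : t₂K hK q (r₂K hK q φ) = (q + 1) • φ := by
  show transferAlong (conjDeltaK hK q) (φ.comp (MonoidHom.toAdditive (conjDeltaK hK q))) = _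
  rw [Fermat.Agent.S41.H105.transferAlong_comp (conjDeltaK hK q)
    (conjDeltaK_injective hK hq.ne_zero) (finiteIndex_range_conjDeltaK hK hN hq hqN) φ,
    index_range_conjDeltaK hK hN hq hqN]

end Operators

end Fermat.Agent.S59.TW.H201

end
-- ===== PACK-END S59/TW/H201/KDegDefs.lean

-- ===== PACK-BEGIN S38/H841/DictMinAlg.lean
section


/-!
# HARD / HECKE, leaf DICT-MIN, part 1 (helper841): the abstract character lemma (Mathlib only)

`k` a field, `E` a `k`-vector space (NO finiteness), `T` a commutative ring acting on `E` by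
`Φ : T →+* End_k E`, `T` generated as a ring by elements `t i`, and `e₀ ≠ 0` in `E` such that every
`Φ (t i) - c i` is nilpotent at `e₀`.  Then there is a character `θ : T →+* k` with
`θ (t i) = c i` (`exists_character_of_locNil_h841`).

Proof: in the commutative `k`-algebra `𝔸 ⊆ End_k E` generated by `Φ T`, the annihilator of `e₀` is
a proper ideal, hence contained in a maximal ideal `𝔐`, which contains every element nilpotent at
`e₀`.  The residue field `𝔸 ⧸ 𝔐` is generated over `k` by the images of the `Φ (t i)`, which are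
the scalars `c i`; so `T → 𝔸 ⧸ 𝔐` takes its values in `k`.
-/

set_option autoImplicit false

namespace Fermat.Agent.S38.H841

section MaxIdeal

variable {k : Type*} [Field k] {B : Type*} [CommRing B]
  {E : Type*} [AddCommGroup E] [Module k E]

/-- The annihilator of a vector, for an action of a commutative ring by endomorphisms. -/
def annVec_h841 (Ψ : B →+* Module.End k E) (e₀ : E) : Ideal B where
  carrier := {b | Ψ b e₀ = 0}
  zero_mem' := by
    show Ψ 0 e₀ = 0
    rw [map_zero, LinearMap.zero_apply]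
  add_mem' := by
    intro a b ha hb
    show Ψ (a + b) e₀ = 0
    rw [map_add, LinearMap.add_apply, ha, hb, add_zero]
  smul_mem' := by
    intro r a ha
    show Ψ (r • a) e₀ = 0
    rw [smul_eq_mul, map_mul, Module.End.mul_apply, ha, map_zero]

theorem mem_annVec_h841 (Ψ : B →+* Module.End k E) (e₀ : E) (b : B) :
    b ∈ annVec_h841 Ψ e₀ ↔ Ψ b e₀ = 0 := Iff.rfl

/-- A maximal ideal containing every element which is nilpotent at `e₀ ≠ 0`. -/
theorem exists_maximal_of_locNil_h841 (Ψ : B →+* Module.End k E) (e₀ : E) (he₀ : e₀ ≠ 0) :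
    ∃ 𝔐 : Ideal B, 𝔐.IsMaximal ∧ ∀ b : B, (∃ m : ℕ, (Ψ b ^ m) e₀ = 0) → b ∈ 𝔐 := by
  have hne : annVec_h841 Ψ e₀ ≠ ⊤ := by
    intro h
    have h1 : (1 : B) ∈ annVec_h841 Ψ e₀ := by
      rw [h]
      exact Submodule.mem_top
    rw [mem_annVec_h841, map_one, Module.End.one_apply] at h1
    exact he₀ h1
  obtain ⟨𝔐, h𝔐, hle⟩ := Ideal.exists_le_maximal _ hne
  refine ⟨𝔐, h𝔐, fun b ⟨m, hm⟩ => ?_⟩
  have h2 : b ^ m ∈ 𝔐 := by
    apply hle
    rw [mem_annVec_h841, map_pow]
    exact hm
  exact h𝔐.isPrime.mem_of_pow_mem m h2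

end MaxIdeal

section Character

variable {k : Type*} [Field k] {E : Type*} [AddCommGroup E] [Module k E]
  {T : Type*} [CommRing T]

/-- **The abstract character lemma.**  If `T` is generated by the `t i` and `Φ (t i) - c i` is
nilpotent at `e₀ ≠ 0` for every `i`, then there is a character `θ : T →+* k` with
`θ (t i) = c i`. -/
theorem exists_character_of_locNil_h841 (Φ : T →+* Module.End k E)
    {ι : Type*} (t : ι → T) (c : ι → k)
    (hgen : ∀ x : T, x ∈ Subring.closure (Set.range t))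
    (e₀ : E) (he₀ : e₀ ≠ 0)
    (hnil : ∀ i, ∃ m : ℕ, ((Φ (t i) - c i • (1 : Module.End k E)) ^ m) e₀ = 0) :
    ∃ θ : T →+* k, ∀ i, θ (t i) = c i := by
  classical
  -- the commutative algebra generated by the image
  have hcomm : ∀ a ∈ Set.range Φ, ∀ b ∈ Set.range Φ, a * b = b * a := by
    rintro _ ⟨a, rfl⟩ _ ⟨b, rfl⟩
    rw [← map_mul, ← map_mul, mul_comm]
  have : IsMulCommutative (Algebra.adjoin k (Set.range Φ)) :=
    Algebra.isMulCommutative_adjoin k hcomm
  let _ : CommRing (Algebra.adjoin k (Set.range Φ)) :=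
    { (inferInstance : Ring (Algebra.adjoin k (Set.range Φ))) with
      mul_comm := fun a b => IsMulCommutative.is_comm.comm a b }
  let Ψ : Algebra.adjoin k (Set.range Φ) →+* Module.End k E :=
    (Algebra.adjoin k (Set.range Φ)).val.toRingHom
  have hΨ : ∀ b : Algebra.adjoin k (Set.range Φ), Ψ b = (b : Module.End k E) := fun _ => rfl
  let Φ' : T →+* Algebra.adjoin k (Set.range Φ) :=
    Φ.codRestrict (Algebra.adjoin k (Set.range Φ)) (fun x => Algebra.subset_adjoin ⟨x, rfl⟩)
  have hΦ' : ∀ x : T, ((Φ' x : Algebra.adjoin k (Set.range Φ)) : Module.End k E) = Φ x :=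
    fun _ => rfl
  obtain ⟨𝔐, h𝔐, hmem⟩ := exists_maximal_of_locNil_h841 Ψ e₀ he₀
  have := h𝔐
  let _ : Field (Algebra.adjoin k (Set.range Φ) ⧸ 𝔐) := Ideal.Quotient.field 𝔐
  let ι' : k →+* (Algebra.adjoin k (Set.range Φ) ⧸ 𝔐) :=
    (Ideal.Quotient.mk 𝔐).comp (algebraMap k (Algebra.adjoin k (Set.range Φ)))
  have hι' : Function.Injective ι' := ι'.injective
  let θ' : T →+* (Algebra.adjoin k (Set.range Φ) ⧸ 𝔐) := (Ideal.Quotient.mk 𝔐).comp Φ'
  have hθ' : ∀ i, θ' (t i) = ι' (c i) := by
    intro i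
    show Ideal.Quotient.mk 𝔐 (Φ' (t i)) =
      Ideal.Quotient.mk 𝔐 (algebraMap k (Algebra.adjoin k (Set.range Φ)) (c i))
    rw [Ideal.Quotient.eq]
    apply hmem
    obtain ⟨m, hm⟩ := hnil i
    refine ⟨m, ?_⟩
    have h1 : Ψ (Φ' (t i) - algebraMap k (Algebra.adjoin k (Set.range Φ)) (c i)) =
        Φ (t i) - c i • (1 : Module.End k E) := by
      rw [hΨ, Subalgebra.coe_sub, hΦ', Subalgebra.coe_algebraMap, Algebra.algebraMap_eq_smul_one]
    rw [h1]
    exact hm
  have hrange : ∀ x : T, θ' x ∈ ι'.range := by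
    intro x
    have hx := hgen x
    induction hx using Subring.closure_induction with
    | mem y hy =>
      obtain ⟨i, rfl⟩ := hy
      exact ⟨c i, (hθ' i).symm⟩
    | zero => rw [map_zero]; exact Subring.zero_mem _
    | one => rw [map_one]; exact Subring.one_mem _
    | add a b _ _ ha hb => rw [map_add]; exact Subring.add_mem _ ha hb
    | neg a _ ha => rw [map_neg]; exact Subring.neg_mem _ ha
    | mul a b _ _ ha hb => rw [map_mul]; exact Subring.mul_mem _ ha hb
  let eqv : k ≃+* ι'.range := RingEquiv.ofBijective ι'.rangeRestrict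
    ⟨fun a b hab => hι' (congrArg Subtype.val hab), ι'.rangeRestrict_surjective⟩
  refine ⟨(eqv.symm : ι'.range →+* k).comp (θ'.codRestrict ι'.range hrange), fun i => ?_⟩
  show eqv.symm (θ'.codRestrict ι'.range hrange (t i)) = c i
  rw [RingEquiv.symm_apply_eq]
  exact Subtype.ext (hθ' i)

end Character

section Primitive

variable {O : Type*} [CommRing O] [IsDomain O] {Λ : Type*} [AddCommGroup Λ]

/-- Division of a character by `π`. -/
theorem exists_div_h841 {π : O} (hπ : π ≠ 0) (u : Λ →+ O) (h : ∀ x, π ∣ u x) :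
    ∃ u' : Λ →+ O, u = π • u' := by
  classical
  choose v hv using h
  refine ⟨AddMonoidHom.mk' v (fun a b => ?_), ?_⟩
  · apply mul_left_cancel₀ hπ
    rw [← hv, map_add, hv a, hv b, mul_add]
  · refine AddMonoidHom.ext fun x => ?_
    show u x = π • v x
    rw [hv x, smul_eq_mul]

/-- A nonzero character with values in a `π`-adically separated domain is `π ^ n` times a
character which is not divisible by `π`. -/
theorem exists_primitive_h841 {π : O} (hπ : π ≠ 0)
    (hsep : ∀ a : O, (∀ n : ℕ, π ^ n ∣ a) → a = 0) (u : Λ →+ O) (hu : u ≠ 0) :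
    ∃ (n : ℕ) (u₀ : Λ →+ O), u = π ^ n • u₀ ∧ ∃ x, ¬ π ∣ u₀ x := by
  have key : ∀ v : ℕ, ∀ u : Λ →+ O, (∃ x₀, ¬ π ^ (v + 1) ∣ u x₀) →
      ∃ (n : ℕ) (u₀ : Λ →+ O), u = π ^ n • u₀ ∧ ∃ x, ¬ π ∣ u₀ x := by
    intro v
    induction v with
    | zero =>
      rintro u ⟨x₀, hx₀⟩
      exact ⟨0, u, by rw [pow_zero, one_smul], x₀, by simpa using hx₀⟩
    | succ v ih =>
      rintro u ⟨x₀, hx₀⟩
      by_cases h : ∀ x, π ∣ u x
      · obtain ⟨u', rfl⟩ := exists_div_h841 hπ u h
        have h1 : ¬ π ^ (v + 1) ∣ u' x₀ := by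
          intro hd
          apply hx₀
          rw [pow_succ', AddMonoidHom.smul_apply, smul_eq_mul]
          exact mul_dvd_mul_left π hd
        obtain ⟨n, u₀, hn, hx⟩ := ih u' ⟨x₀, h1⟩
        exact ⟨n + 1, u₀, by rw [hn, pow_succ', mul_smul], hx⟩
      · push Not at h
        obtain ⟨x, hx⟩ := h
        exact ⟨0, u, by rw [pow_zero, one_smul], x, hx⟩
  obtain ⟨x₀, hx₀⟩ : ∃ x₀, u x₀ ≠ 0 := by
    by_contra h
    push Not at h
    exact hu (AddMonoidHom.ext h)
  have hv : ∃ v : ℕ, ¬ π ^ (v + 1) ∣ u x₀ := by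
    by_contra h
    push Not at h
    apply hx₀
    apply hsep
    intro n
    rcases n with _ | n
    · rw [pow_zero]
      exact one_dvd _
    · exact h n
  obtain ⟨v, hv⟩ := hv
  exact key v u ⟨x₀, hv⟩

end Primitive

section Sep

/-- Krull: a Noetherian local ring is separated for the topology of any element of its maximal
ideal. -/
theorem eq_zero_of_forall_pow_dvd_h841 {O : Type*} [CommRing O] [IsNoetherianRing O]
    [IsLocalRing O] {π : O} (hπ : π ∈ IsLocalRing.maximalIdeal O) (a : O)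
    (h : ∀ n : ℕ, π ^ n ∣ a) : a = 0 := by
  have h1 : a ∈ ⨅ n : ℕ, (IsLocalRing.maximalIdeal O) ^ n := by
    rw [Ideal.mem_iInf]
    intro n
    obtain ⟨b, rfl⟩ := h n
    exact Ideal.mul_mem_right _ _ (Ideal.pow_mem_pow hπ n)
  rw [Ideal.iInf_pow_eq_bot_of_isLocalRing _ Ideal.IsPrime.ne_top'] at h1
  exact h1

end Sep

end Fermat.Agent.S38.H841

end
-- ===== PACK-END S38/H841/DictMinAlg.lean

-- ===== PACK-BEGIN S38/H59/MinZeroAlg.lean
section


/-!
# Row HARD, leaf IA-MINZERO, algebra (helper59) — Mathlib only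

* `le_of_le_sup_map_nilp59` : let `s i` be commuting endomorphisms of `X` preserving the submodules
  `W` and `B`, each of them with a power mapping `W` into `B`.  If `W ≤ ∑_{i ∈ F} s_i W + B` for a
  FINITE set `F`, then `W ≤ B`.  (Nakayama for the augmentation ideal of a finite abelian
  `p`-group, without group rings, local rings or finite generation.)
* `exists_sub_one_pow_eq59` : `(δ - 1)^(p^n) = p • r` if `δ^(p^n) = 1`, `p` odd.
-/

set_option autoImplicit false

namespace Fermat.Agent.S38.H59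

section Nak

variable {R X ι : Type*} [CommRing R] [AddCommGroup X] [Module R X]

theorem map_iSup_finset_le59 (s : ι → Module.End R X) (hcomm : ∀ i j, Commute (s i) (s j))
    (W : Submodule R X) (hW : ∀ i, W.map (s i) ≤ W) (F : Finset ι) (a : ι) :
    (⨆ i ∈ F, W.map (s i)).map (s a) ≤ ⨆ i ∈ F, W.map (s i) := by
  rw [Submodule.map_iSup]
  refine iSup_le fun i => ?_
  rw [Submodule.map_iSup]
  refine iSup_le fun hi => ?_
  refine le_trans ?_ (le_iSup₂ (f := fun i (_ : i ∈ F) => W.map (s i)) i hi)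
  rintro x ⟨y, ⟨w, hw, rfl⟩, rfl⟩
  refine ⟨s a w, hW a ⟨w, hw, rfl⟩, ?_⟩
  have := congrArg (fun f : Module.End R X => f w) (hcomm i a).eq
  simpa using this

/-- **Nakayama for a finite commuting family of "nilpotent modulo `B`" operators.** -/
theorem le_of_le_sup_map_nilp59 (s : ι → Module.End R X) (hcomm : ∀ i j, Commute (s i) (s j))
    (W B : Submodule R X) (hW : ∀ i, W.map (s i) ≤ W) (hB : ∀ i, B.map (s i) ≤ B)
    (hnil : ∀ i, ∃ n : ℕ, W.map ((s i) ^ n) ≤ B) (F : Finset ι)
    (h : W ≤ (⨆ i ∈ F, W.map (s i)) ⊔ B) : W ≤ B := by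
  classical
  induction F using Finset.induction_on with
  | empty =>
    simpa using h
  | insert a F ha ih =>
    apply ih
    set C : Submodule R X := (⨆ i ∈ F, W.map (s i)) ⊔ B with hC
    have hCmap : C.map (s a) ≤ C := by
      rw [hC, Submodule.map_sup]
      exact sup_le_sup (map_iSup_finset_le59 s hcomm W hW F a) (hB a)
    have h' : W ≤ W.map (s a) ⊔ C := by
      refine le_trans h ?_
      rw [Finset.iSup_insert, hC, sup_assoc]
    have key : ∀ n : ℕ, W ≤ W.map ((s a) ^ n) ⊔ C := by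
      intro n
      induction n with
      | zero =>
        intro x hx
        exact Submodule.mem_sup_left ⟨x, hx, by simp⟩
      | succ n ihn =>
        refine le_trans h' (sup_le ?_ le_sup_right)
        have h1 : W.map (s a) ≤ (W.map ((s a) ^ n) ⊔ C).map (s a) := Submodule.map_mono ihn
        refine le_trans h1 ?_
        rw [Submodule.map_sup]
        refine sup_le_sup ?_ hCmap
        rintro x ⟨y, ⟨w, hw, rfl⟩, rfl⟩
        exact ⟨w, hw, by rw [pow_succ', Module.End.mul_apply]⟩
    obtain ⟨n, hn⟩ := hnil a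
    exact le_trans (key n) (sup_le (le_trans hn le_sup_right) le_rfl)

end Nak

section Pow

variable {E : Type*} [Ring E]

/-- `(δ - 1)^(p^n) = p • r` if `δ^(p^n) = 1` and `p` is odd. -/
theorem exists_sub_one_pow_eq59 {p : ℕ} (hp : p.Prime) (hp2 : p ≠ 2) (δ : E) (n : ℕ)
    (hδ : δ ^ p ^ n = 1) : ∃ r : E, (δ - 1) ^ p ^ n = (p : E) * r ∧ Commute δ r := by
  have hc : Commute δ (-1 : E) := (Commute.one_right δ).neg_right
  have h := hc.add_pow_prime_pow_eq hp n
  have hodd : Odd (p ^ n) := (hp.odd_of_ne_two hp2).pow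
  rw [← sub_eq_add_neg, hδ, hodd.neg_one_pow, add_neg_cancel, zero_add] at h
  refine ⟨δ * (-1) * ∑ k ∈ Finset.Ioo 0 (p ^ n),
      δ ^ (k - 1) * (-1) ^ (p ^ n - k - 1) * ↑((p ^ n).choose k / p), ?_, ?_⟩
  · rw [h]
    simp only [mul_assoc]
  · refine (Commute.mul_right (Commute.refl δ) hc).mul_right ?_
    refine Commute.sum_right _ _ _ fun k _ => ?_
    refine Commute.mul_right (Commute.mul_right ((Commute.refl δ).pow_right _) (hc.pow_right _)) ?_
    exact (Nat.cast_commute _ _).symm

end Pow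

end Fermat.Agent.S38.H59

end
-- ===== PACK-END S38/H59/MinZeroAlg.lean

-- ===== PACK-BEGIN S38/H59/CtrlCore.lean
section


/-!
# Row HARD, leaf TW-MIN: the linear algebra (helper59) — Mathlib only

* `iInf_ker_eq_bot_of_iSup_range_eq_top_h59`, `iSup_range_eq_top_of_iInf_ker_eq_bot_h59`,
  `iSup_range_eq_top_iff_h59`: for a pairwise commuting family of endomorphisms of a
  finite-dimensional vector space, the ranges span everything iff the common kernel is zero
  (`⇒`: Nakayama over the commutative algebra generated by the family; `⇐`: transposes).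
* `exists_common_kernel_h59`: a commuting family of nilpotent endomorphisms can be killed on a
  nonzero vector without leaving the common kernel of a second family commuting with it.
* `ctrl_core_h59`: **control without idempotents**.  `cor : V ↠ Y` with kernel in the span of the
  ranges of nilpotent operators `s j` ("augmentation ideal of a `p`-group in characteristic `p`"),
  intertwining commuting families `t i` on `V` and `T i` on `Y`: if the `t i` have a common
  nonzero kernel vector, so have the `T i`.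
-/

set_option autoImplicit false
set_option linter.style.haveILetI false
set_option linter.deprecated false

namespace Fermat.Agent.S38.H59

/-- **ALG, `⇒`** (Nakayama over the commutative algebra generated by the family). -/
theorem iInf_ker_eq_bot_of_iSup_range_eq_top_h59 {k V ι : Type*} [Field k] [AddCommGroup V]
    [Module k V] [Module.Finite k V] (f : ι → Module.End k V)
    (hcomm : ∀ i j, Commute (f i) (f j))
    (h : (⨆ i, LinearMap.range (f i)) = ⊤) : (⨅ i, LinearMap.ker (f i)) = ⊥ := by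
  classical
  have hs : ∀ a ∈ Set.range f, ∀ b ∈ Set.range f, a * b = b * a := by
    rintro _ ⟨i, rfl⟩ _ ⟨j, rfl⟩
    exact (hcomm i j).eq
  letI : CommRing (Algebra.adjoin k (Set.range f)) := Algebra.adjoinCommRingOfComm k hs
  let A := Algebra.adjoin k (Set.range f)
  let g : ι → A := fun i => ⟨f i, Algebra.subset_adjoin ⟨i, rfl⟩⟩
  let J : Ideal A := Ideal.span (Set.range g)
  have hfg : (⊤ : Submodule A V).FG := by
    have : Module.Finite A V := Module.Finite.of_restrictScalars_finite k A V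
    exact Module.finite_def.mp this
  have hle : (⊤ : Submodule A V) ≤ J • ⊤ := by
    intro v _
    have hv : v ∈ ⨆ i, LinearMap.range (f i) := by rw [h]; trivial
    refine Submodule.iSup_induction (fun i => LinearMap.range (f i))
      (motive := fun v => v ∈ (J • ⊤ : Submodule A V)) hv ?_ ?_ ?_
    · rintro i _ ⟨w, rfl⟩
      have : f i w = g i • w := rfl
      rw [this]
      exact Submodule.smul_mem_smul (Ideal.subset_span ⟨i, rfl⟩) trivial
    · exact Submodule.zero_mem _
    · intro x y hx hy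
      exact Submodule.add_mem _ hx hy
  obtain ⟨r, hr, hr0⟩ :=
    Submodule.exists_sub_one_mem_and_smul_eq_zero_of_fg_of_le_smul J ⊤ hfg hle
  rw [eq_bot_iff]
  intro x hx
  rw [Submodule.mem_iInf] at hx
  have hJ : ∀ a ∈ J, a • x = 0 := by
    intro a ha
    refine Submodule.span_induction (p := fun a _ => a • x = 0) ?_ ?_ ?_ ?_ ha
    · rintro _ ⟨i, rfl⟩
      exact LinearMap.mem_ker.mp (hx i)
    · exact zero_smul _ _
    · intro a b _ _ ha hb
      rw [add_smul, ha, hb, add_zero]
    · intro c a _ ha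
      rw [smul_eq_mul, mul_smul, ha, smul_zero]
  have h1 := hJ _ hr
  have h2 := hr0 x trivial
  rw [sub_smul, h2, one_smul, zero_sub, neg_eq_zero] at h1
  exact (Submodule.mem_bot k).mpr h1

/-- **ALG, `⇐`** (the forward direction for the transposes). -/
theorem iSup_range_eq_top_of_iInf_ker_eq_bot_h59 {k V ι : Type*} [Field k] [AddCommGroup V]
    [Module k V] [Module.Finite k V] (f : ι → Module.End k V)
    (hcomm : ∀ i j, Commute (f i) (f j))
    (h : (⨅ i, LinearMap.ker (f i)) = ⊥) : (⨆ i, LinearMap.range (f i)) = ⊤ := by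
  classical
  let g : ι → Module.End k (Module.Dual k V) := fun i => (f i).dualMap
  have hgcomm : ∀ i j, Commute (g i) (g j) := by
    intro i j
    show (f i).dualMap * (f j).dualMap = (f j).dualMap * (f i).dualMap
    apply LinearMap.ext
    intro φ
    apply LinearMap.ext
    intro v
    show φ (f j (f i v)) = φ (f i (f j v))
    have := congrArg (fun T : Module.End k V => T v) (hcomm i j).eq
    simp only [Module.End.mul_apply] at this
    rw [this]
  have hU : (⨆ i, LinearMap.range (g i)) = ⊤ := by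
    have h1 : (⨆ i, LinearMap.range (g i)).dualCoannihilator = ⊥ := by
      rw [Submodule.dualCoannihilator_iSup_eq, eq_bot_iff, ← h]
      intro x hx
      rw [Submodule.mem_iInf] at hx ⊢
      intro i
      have hxi := hx i
      rw [Submodule.mem_dualCoannihilator] at hxi
      rw [LinearMap.mem_ker]
      apply (Module.forall_dual_apply_eq_zero_iff k (f i x)).mp
      intro ψ
      exact hxi _ ⟨ψ, rfl⟩
    have h2 := Subspace.dualCoannihilator_dualAnnihilator_eq
      (W := (⨆ i, LinearMap.range (g i)))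
    rw [h1, Submodule.dualAnnihilator_bot] at h2
    exact h2.symm
  have hker := iInf_ker_eq_bot_of_iSup_range_eq_top_h59 g hgcomm hU
  rw [← Subspace.dualAnnihilator_inj, Submodule.dualAnnihilator_top, eq_bot_iff]
  intro φ hφ
  rw [← hker, Submodule.mem_iInf]
  intro i
  rw [LinearMap.mem_ker]
  apply LinearMap.ext
  intro v
  rw [Submodule.mem_dualAnnihilator] at hφ
  exact hφ (f i v) (Submodule.mem_iSup_of_mem i ⟨v, rfl⟩)

/-- **ALG.**  For a pairwise commuting family of endomorphisms of a finite-dimensional vector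
space: the ranges span everything iff the common kernel is zero. -/
theorem iSup_range_eq_top_iff_h59 {k V ι : Type*} [Field k] [AddCommGroup V]
    [Module k V] [Module.Finite k V] (f : ι → Module.End k V)
    (hcomm : ∀ i j, Commute (f i) (f j)) :
    (⨆ i, LinearMap.range (f i)) = ⊤ ↔ (⨅ i, LinearMap.ker (f i)) = ⊥ :=
  ⟨iInf_ker_eq_bot_of_iSup_range_eq_top_h59 f hcomm,
    iSup_range_eq_top_of_iInf_ker_eq_bot_h59 f hcomm⟩

/-- Killing nilpotent operators one at a time. -/
theorem exists_common_kernel_list_h59 {k V I J : Type*} [Field k] [AddCommGroup V] [Module k V]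
    (t : I → Module.End k V) (s : J → Module.End k V)
    (hts : ∀ i j, Commute (t i) (s j)) (hss : ∀ j j', Commute (s j) (s j'))
    (hnil : ∀ j, IsNilpotent (s j)) (l : List J) (x : V) (hx : x ≠ 0) (hxt : ∀ i, t i x = 0) :
    ∃ x' : V, x' ≠ 0 ∧ (∀ i, t i x' = 0) ∧ ∀ j ∈ l, s j x' = 0 := by
  classical
  induction l with
  | nil => exact ⟨x, hx, hxt, fun j hj => absurd hj List.not_mem_nil⟩
  | cons j l ih =>
    obtain ⟨x₁, hx₁, hx₁t, hx₁s⟩ := ih
    obtain ⟨n, hn⟩ := hnil j
    have hex : ∃ m : ℕ, (s j ^ m) x₁ = 0 := ⟨n, by rw [hn]; rfl⟩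
    have hm0 : Nat.find hex ≠ 0 := by
      intro h0
      have := Nat.find_spec hex
      rw [h0, pow_zero] at this
      exact hx₁ this
    obtain ⟨m, hm⟩ := Nat.exists_eq_succ_of_ne_zero hm0
    refine ⟨(s j ^ m) x₁, ?_, ?_, ?_⟩
    · intro h
      have := Nat.find_min' hex h
      omega
    · intro i
      have hc : Commute (t i) (s j ^ m) := (hts i j).pow_right m
      have := congrArg (fun T : Module.End k V => T x₁) hc.eq
      simp only [Module.End.mul_apply] at this
      rw [this, hx₁t i, map_zero]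
    · intro j' hj'
      rcases List.mem_cons.mp hj' with rfl | hj'
      · have := Nat.find_spec hex
        rw [hm, pow_succ'] at this
        exact this
      · have hc : Commute (s j') (s j ^ m) := (hss j' j).pow_right m
        have := congrArg (fun T : Module.End k V => T x₁) hc.eq
        simp only [Module.End.mul_apply] at this
        rw [this, hx₁s j' hj', map_zero]

/-- A nonzero common kernel vector of the `t i` can be moved into the common kernel of finitely
many commuting nilpotent operators `s j` commuting with the `t i`. -/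
theorem exists_common_kernel_h59 {k V I J : Type*} [Field k] [AddCommGroup V] [Module k V]
    [Finite J] (t : I → Module.End k V) (s : J → Module.End k V)
    (hts : ∀ i j, Commute (t i) (s j)) (hss : ∀ j j', Commute (s j) (s j'))
    (hnil : ∀ j, IsNilpotent (s j)) (x : V) (hx : x ≠ 0) (hxt : ∀ i, t i x = 0) :
    ∃ x' : V, x' ≠ 0 ∧ (∀ i, t i x' = 0) ∧ ∀ j, s j x' = 0 := by
  classical
  haveI := Fintype.ofFinite J
  obtain ⟨x', h1, h2, h3⟩ :=
    exists_common_kernel_list_h59 t s hts hss hnil (Finset.univ : Finset J).toList x hx hxt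
  exact ⟨x', h1, h2, fun j => h3 j (Finset.mem_toList.mpr (Finset.mem_univ j))⟩

/-- **Control without idempotents.**  `cor : V ↠ Y` with `ker cor ≤ ∑ range (s j)`, `s j`
commuting nilpotent operators, intertwining the commuting families `t i` (on `V`, commuting
with the `s j`) and `T i` (on `Y`).  If the `t i` have a nonzero common kernel vector then so
have the `T i`. -/
theorem ctrl_core_h59 {k V Y I J : Type*} [Field k] [AddCommGroup V] [Module k V]
    [Module.Finite k V] [AddCommGroup Y] [Module k Y] [Module.Finite k Y] [Finite J]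
    (t : I → Module.End k V) (s : J → Module.End k V) (T : I → Module.End k Y)
    (cor : V →ₗ[k] Y)
    (htt : ∀ i i', Commute (t i) (t i')) (hts : ∀ i j, Commute (t i) (s j))
    (hss : ∀ j j', Commute (s j) (s j')) (hTT : ∀ i i', Commute (T i) (T i'))
    (hnil : ∀ j, IsNilpotent (s j))
    (hcor : ∀ i v, cor (t i v) = T i (cor v)) (hsurj : Function.Surjective cor)
    (hker : LinearMap.ker cor ≤ ⨆ j, LinearMap.range (s j))
    (x : V) (hx : x ≠ 0) (hxt : ∀ i, t i x = 0) :
    ∃ y : Y, y ≠ 0 ∧ ∀ i, T i y = 0 := by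
  classical
  obtain ⟨x', hx', hx't, hx's⟩ := exists_common_kernel_h59 t s hts hss hnil x hx hxt
  -- the family `t ∪ s` on `V`
  let F : I ⊕ J → Module.End k V := Sum.elim t s
  have hF : ∀ a b, Commute (F a) (F b) := by
    rintro (i | j) (i' | j')
    · exact htt i i'
    · exact hts i j'
    · exact (hts i' j).symm
    · exact hss j j'
  have hFker : (⨅ a, LinearMap.ker (F a)) ≠ ⊥ := by
    intro h
    have : x' ∈ ⨅ a, LinearMap.ker (F a) := by
      rw [Submodule.mem_iInf]
      rintro (i | j)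
      · exact LinearMap.mem_ker.mpr (hx't i)
      · exact LinearMap.mem_ker.mpr (hx's j)
    rw [h, Submodule.mem_bot] at this
    exact hx' this
  have hFrange : (⨆ a, LinearMap.range (F a)) ≠ ⊤ := fun h =>
    hFker (iInf_ker_eq_bot_of_iSup_range_eq_top_h59 F hF h)
  -- the family `T` on `Y`
  by_contra hY
  push Not at hY
  have hTker : (⨅ i, LinearMap.ker (T i)) = ⊥ := by
    rw [eq_bot_iff]
    intro y hy
    rw [Submodule.mem_iInf] at hy
    by_contra hy0
    obtain ⟨i, hi⟩ := hY y (fun h => hy0 ((Submodule.mem_bot k).mpr h))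
    exact hi (LinearMap.mem_ker.mp (hy i))
  have hTrange := iSup_range_eq_top_of_iInf_ker_eq_bot_h59 T hTT hTker
  have hmap : (⨆ i, LinearMap.range (T i)) ≤ Submodule.map cor (⨆ i, LinearMap.range (t i)) := by
    refine iSup_le fun i => ?_
    rintro _ ⟨y', rfl⟩
    obtain ⟨v', rfl⟩ := hsurj y'
    exact ⟨t i v', Submodule.mem_iSup_of_mem i ⟨v', rfl⟩, hcor i v'⟩
  apply hFrange
  rw [eq_top_iff]
  intro v _
  have hv : cor v ∈ Submodule.map cor (⨆ i, LinearMap.range (t i)) :=
    hmap (by rw [hTrange]; trivial)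
  obtain ⟨w, hw, hwv⟩ := hv
  have hd : v - w ∈ LinearMap.ker cor := by
    rw [LinearMap.mem_ker, map_sub, hwv, sub_self]
  have h1 : (⨆ i, LinearMap.range (t i)) ≤ ⨆ a, LinearMap.range (F a) :=
    iSup_le fun i => le_iSup (fun a => LinearMap.range (F a)) (Sum.inl i)
  have h2 : (⨆ j, LinearMap.range (s j)) ≤ ⨆ a, LinearMap.range (F a) :=
    iSup_le fun j => le_iSup (fun a => LinearMap.range (F a)) (Sum.inr j)
  have : v = w + (v - w) := by abel
  rw [this]
  exact Submodule.add_mem _ (h1 hw) (h2 (hker hd))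

end Fermat.Agent.S38.H59

end
-- ===== PACK-END S38/H59/CtrlCore.lean

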