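import Mathlib
import Fermat.Agent.Pack.S43C.E0L0
import Fermat.Agent.Pack.S43C.E0L1
import Fermat.Agent.Pack.S43GC.G0E0L0
import Fermat.Agent.Pack.S43GC.G0E16L1
import Fermat.Agent.Pack.S43GC.G0E2L0
import Fermat.Agent.Pack.S43GC.G1E0L0
import Fermat.Agent.Pack.S43GC.G0E11L1
import Fermat.Agent.Pack.S43C.E0L2
import Fermat.Agent.Pack.S43GC.G0E20L3
import Fermat.Agent.Pack.S43GC.G0E19L3
import Fermat.Agent.Pack.S43GC.G0E5L1
import Fermat.Agent.Pack.S43MC.G0E19L1
import Fermat.Agent.Pack.S43MC.G0E19L3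
import Fermat.Agent.Pack.S43MC.G0E14L0
import Fermat.Agent.Pack.S43MC.G0E19L2
import Fermat.Agent.Pack.Fast891

-- ===== PACK-BEGIN S38/IA/AsmAlg.lean
section






/-!
# Row HARD, assembly: commutative-algebra lemmas   (helper995)

* `mem_span_range_smul_top_iff`, `isGroupRingBasis_transport`: `H959.IsGroupRingBasis` only
  depends on the action of the `w_i` and of `𝒪` on the module;
* `isProfiniteAdic_locAmb_quotient`: quotients of the ambient ring are adically complete with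
  finite quotients;
* `exists_le_of_iInf_le`, `ringKrullDim_quotient_map_le`: components of a quotient.
-/

set_option autoImplicit false
set_option linter.unusedSectionVars false
set_option linter.style.haveILetI false

open IsLocalRing

namespace Fermat.Agent.S38.IA

open Fermat.Agent.S59.TW.H959 Fermat.Agent.S59.Patch.H967

section GroupRing

variable {T M : Type*} [CommRing T] [AddCommGroup M] [Module T M]

/-- `(g_1, …, g_r) M = ∑ g_i M`. -/
theorem mem_span_range_smul_top_iff {r : ℕ} (g : Fin r → T) (x : M) :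
    x ∈ Ideal.span (Set.range g) • (⊤ : Submodule T M) ↔ ∃ y : Fin r → M, x = ∑ i, g i • y i := by
  constructor
  · intro hx
    refine Submodule.smul_induction_on hx ?_ ?_
    · intro t ht n _
      obtain ⟨c, rfl⟩ := Ideal.mem_span_range_iff_exists_fun.mp ht
      refine ⟨fun i => c i • n, ?_⟩
      rw [Finset.sum_smul]
      refine Finset.sum_congr rfl fun i _ => ?_
      rw [mul_comm, mul_smul]
    · rintro x y ⟨a, rfl⟩ ⟨b, rfl⟩
      refine ⟨fun i => a i + b i, ?_⟩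
      rw [← Finset.sum_add_distrib]
      exact Finset.sum_congr rfl fun i _ => (smul_add _ _ _).symm
  · rintro ⟨y, rfl⟩
    exact Submodule.sum_mem _ fun i _ =>
      Submodule.smul_mem_smul (Ideal.subset_span ⟨i, rfl⟩) Submodule.mem_top

end GroupRing

section Transport

variable {𝒪 : Type} [CommRing 𝒪] {T₁ T₂ : Type} [CommRing T₁] [CommRing T₂] [Algebra 𝒪 T₁]
  [Algebra 𝒪 T₂] {M : Type} [AddCommGroup M] [Module T₁ M] [Module T₂ M]

/-- two scalars act in the same way -/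
def SameAct (t₂ : T₂) (t₁ : T₁) : Prop := ∀ x : M, t₂ • x = t₁ • x

theorem SameAct.mul {a₂ b₂ : T₂} {a₁ b₁ : T₁} (ha : SameAct (M := M) a₂ a₁)
    (hb : SameAct (M := M) b₂ b₁) : SameAct (M := M) (a₂ * b₂) (a₁ * b₁) := by
  intro x
  rw [mul_smul, mul_smul, hb, ha]

theorem SameAct.one : SameAct (M := M) (1 : T₂) (1 : T₁) := by
  intro x
  rw [one_smul, one_smul]

theorem SameAct.sub {a₂ b₂ : T₂} {a₁ b₁ : T₁} (ha : SameAct (M := M) a₂ a₁)
    (hb : SameAct (M := M) b₂ b₁) : SameAct (M := M) (a₂ - b₂) (a₁ - b₁) := by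
  intro x
  rw [sub_smul, sub_smul, hb, ha]

theorem SameAct.pow {a₂ : T₂} {a₁ : T₁} (ha : SameAct (M := M) a₂ a₁) (n : ℕ) :
    SameAct (M := M) (a₂ ^ n) (a₁ ^ n) := by
  induction n with
  | zero => rw [pow_zero, pow_zero]; exact SameAct.one
  | succ n ih => rw [pow_succ, pow_succ]; exact ih.mul ha

theorem SameAct.prod {ι : Type*} (s : Finset ι) {a₂ : ι → T₂} {a₁ : ι → T₁}
    (ha : ∀ i ∈ s, SameAct (M := M) (a₂ i) (a₁ i)) :
    SameAct (M := M) (∏ i ∈ s, a₂ i) (∏ i ∈ s, a₁ i) := by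
  classical
  induction s using Finset.induction_on with
  | empty => rw [Finset.prod_empty, Finset.prod_empty]; exact SameAct.one
  | insert i s hi ih =>
    rw [Finset.prod_insert hi, Finset.prod_insert hi]
    exact (ha i (Finset.mem_insert_self i s)).mul
      (ih fun j hj => ha j (Finset.mem_insert_of_mem hj))

/-- **Transport of `IsGroupRingBasis`** between two rings acting on the same module. -/
theorem isGroupRingBasis_transport {m r d : ℕ} (w₁ : Fin r → T₁) (w₂ : Fin r → T₂)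
    (b : Fin d → M)
    (h𝒪 : ∀ c : 𝒪, SameAct (M := M) (algebraMap 𝒪 T₂ c) (algebraMap 𝒪 T₁ c))
    (hw : ∀ i, SameAct (M := M) (w₂ i) (w₁ i))
    (h : IsGroupRingBasis 𝒪 m w₁ b) : IsGroupRingBasis 𝒪 m w₂ b := by
  have hsub : ∀ x : M,
      x ∈ Ideal.span (Set.range fun i => w₂ i ^ m - 1) • (⊤ : Submodule T₂ M) ↔
        x ∈ Ideal.span (Set.range fun i => w₁ i ^ m - 1) • (⊤ : Submodule T₁ M) := by
    intro x
    rw [mem_span_range_smul_top_iff, mem_span_range_smul_top_iff]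
    have hi : ∀ i, SameAct (M := M) (w₂ i ^ m - 1) (w₁ i ^ m - 1) :=
      fun i => ((hw i).pow m).sub SameAct.one
    constructor
    · rintro ⟨y, rfl⟩
      exact ⟨y, Finset.sum_congr rfl fun i _ => hi i (y i)⟩
    · rintro ⟨y, rfl⟩
      exact ⟨y, Finset.sum_congr rfl fun i _ => (hi i (y i)).symm⟩
  have helt : ∀ c : Fin d → (Fin r → Fin m) → 𝒪,
      (∑ j, ∑ a, (algebraMap 𝒪 T₂ (c j a) * ∏ i, w₂ i ^ (a i : ℕ)) • b j) =
        ∑ j, ∑ a, (algebraMap 𝒪 T₁ (c j a) * ∏ i, w₁ i ^ (a i : ℕ)) • b j := by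
    intro c
    refine Finset.sum_congr rfl fun j _ => Finset.sum_congr rfl fun a _ => ?_
    exact ((h𝒪 (c j a)).mul (SameAct.prod _ fun i _ => (hw i).pow _)) (b j)
  refine ⟨fun x => ?_, fun c hc => ?_⟩
  · obtain ⟨c, hc⟩ := h.1 x
    refine ⟨c, ?_⟩
    rw [hsub, helt]
    exact hc
  · rw [hsub, helt] at hc
    exact h.2 c hc

end Transport

section Quot

variable {𝒪 : Type} [CommRing 𝒪] [IsDomain 𝒪] [IsDiscreteValuationRing 𝒪]
  [IsAdicComplete (maximalIdeal 𝒪) 𝒪] [Finite (ResidueField 𝒪)]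

/-- Local quotients of a power series ring in finitely many variables over `𝒪` are adically
complete with finite quotients. -/
theorem isProfiniteAdic_mvPowerSeries_quotient {σ : Type} [Fintype σ]
    (J : Ideal (MvPowerSeries σ 𝒪)) [IsLocalRing (MvPowerSeries σ 𝒪 ⧸ J)] :
    IsProfiniteAdic (maximalIdeal (MvPowerSeries σ 𝒪 ⧸ J)) := by
  classical
  let e : Fin (Fintype.card σ) ≃ σ := (Fintype.equivFin σ).symm
  let ψ : MvPowerSeries (Fin (Fintype.card σ)) 𝒪 →ₐ[𝒪] (MvPowerSeries σ 𝒪 ⧸ J) :=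
    (Ideal.Quotient.mkₐ 𝒪 J).comp (MvPowerSeries.renameEquiv 𝒪 e).toAlgHom
  have hψ : Function.Surjective ψ := by
    intro y
    obtain ⟨x, rfl⟩ := Ideal.Quotient.mk_surjective y
    refine ⟨(MvPowerSeries.renameEquiv 𝒪 e).symm x, ?_⟩
    show Ideal.Quotient.mk J ((MvPowerSeries.renameEquiv 𝒪 e)
      ((MvPowerSeries.renameEquiv 𝒪 e).symm x)) = _
    rw [AlgEquiv.apply_symm_apply]
  exact isProfiniteAdic_of_surjective ψ hψ

end Quot

section Comp

variable {P : Type*} [CommRing P]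

/-- A prime containing a finite intersection contains one of the ideals. -/
theorem exists_le_of_iInf_le {ι : Type*} [Finite ι] (𝔓 : ι → Ideal P) {Q : Ideal P}
    (hQ : Q.IsPrime) (h : (⨅ i, 𝔓 i) ≤ Q) : ∃ i, 𝔓 i ≤ Q := by
  classical
  haveI := Fintype.ofFinite ι
  have h1 : (Finset.univ : Finset ι).inf 𝔓 ≤ Q := by
    rw [Finset.inf_univ_eq_iInf]
    exact h
  obtain ⟨i, -, hi⟩ := (Ideal.IsPrime.inf_le' hQ).mp h1
  exact ⟨i, hi⟩

/-- `dim (P/J)/(𝔓/J) ≤ dim P/I` for `I ≤ 𝔓`. -/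
theorem ringKrullDim_quotient_map_le (J I 𝔓 : Ideal P) (hI : I ≤ 𝔓) :
    ringKrullDim ((P ⧸ J) ⧸ 𝔓.map (Ideal.Quotient.mk J)) ≤ ringKrullDim (P ⧸ I) := by
  let f : P ⧸ I →+* (P ⧸ J) ⧸ 𝔓.map (Ideal.Quotient.mk J) :=
    Ideal.Quotient.lift I ((Ideal.Quotient.mk _).comp (Ideal.Quotient.mk J)) (fun a ha => by
      rw [RingHom.comp_apply, Ideal.Quotient.eq_zero_iff_mem]
      exact Ideal.mem_map_of_mem _ (hI ha))
  refine ringKrullDim_le_of_surjective f ?_
  intro y
  obtain ⟨y, rfl⟩ := Ideal.Quotient.mk_surjective y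
  obtain ⟨y, rfl⟩ := Ideal.Quotient.mk_surjective y
  exact ⟨Ideal.Quotient.mk I y, rfl⟩

/-- The image of a prime `𝔓 ⊇ J` in `P/J` is prime. -/
theorem isPrime_map_mk_of_le (J 𝔓 : Ideal P) (h𝔓 : 𝔓.IsPrime) (hJ : J ≤ 𝔓) :
    (𝔓.map (Ideal.Quotient.mk J)).IsPrime := by
  refine Ideal.map_isPrime_of_surjective Ideal.Quotient.mk_surjective ?_
  rw [Ideal.mk_ker]
  exact hJ

/-- comap of the image. -/
theorem comap_map_mk_of_le (J 𝔓 : Ideal P) (hJ : J ≤ 𝔓) :
    (𝔓.map (Ideal.Quotient.mk J)).comap (Ideal.Quotient.mk J) = 𝔓 := by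
  rw [Ideal.comap_map_of_surjective _ Ideal.Quotient.mk_surjective, ← RingHom.ker_eq_comap_bot,
    Ideal.mk_ker]
  exact sup_eq_left.mpr hJ

end Comp

end Fermat.Agent.S38.IA

end
-- ===== PACK-END S38/IA/AsmAlg.lean

-- ===== PACK-BEGIN S38/IA/AsmGal.lean
section




/-!
# Row HARD, assembly: Galois-side transports, the Steinberg identity, type values, the point
(helper995)

* `not_unip_of_comp`: non-unipotency at `q` passes from `ρ_T ⊗ 𝒪'` to `ρ_R ⊗ 𝒪'`;
* `trace_map_eq`: `tr ρ_T = φ (tr ρ_R)`;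
* `trace_sq_sub_eq_of_tracelessCoords`: `tr² - (1+q)² = 4 Q(w) - (q-1)²` if `det = q`;
* `finite_typeVectors`, `exists_typeVector`: there are finitely many (and at least one) type
  vectors;
* `exists_point_of_factor`: the characteristic-`p` point `v = 0`, `w_{q₀} = (T, 0, 0)` on every
  component with the FACTOR property.
-/

set_option autoImplicit false
set_option linter.unusedSectionVars false
set_option linter.style.haveILetI false
set_option linter.unusedVariables false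

open IsLocalRing

namespace Fermat.Agent.S38.IA

open Fermat.Agent.S53.H113 Fermat.Agent.S56.H966

local notation "GQ995" => (AlgebraicClosure ℚ ≃ₐ[ℚ] AlgebraicClosure ℚ)

section Transport

variable {A B C : Type} [CommRing A] [IsLocalRing A] [CommRing B] [IsLocalRing B]
  [CommRing C] [IsLocalRing C]

/-- Equivalent representations have the same traces. -/
theorem trace_eq_of_isEquiv_h995 {ρ₁ ρ₂ : GaloisRepAdic A} (h : ρ₁.IsEquiv ρ₂) (σ : GQ995) :
    ρ₁.trace σ = ρ₂.trace σ := by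
  obtain ⟨e⟩ := h
  show LinearMap.trace A ρ₁.V (ρ₁.ρ σ) = LinearMap.trace A ρ₂.V (ρ₂.ρ σ)
  rw [equiv_rho_eq_conj e σ, LinearMap.trace_conj']

/-- The trace of a base change. -/
theorem trace_baseChangeAlong_h995 (φ : A →+* B) (hφ : IsLocalHom φ) (ρ : GaloisRepAdic A)
    (σ : GQ995) : (ρ.baseChangeAlong φ hφ).trace σ = φ (ρ.trace σ) := by
  letI : Algebra A B := φ.toAlgebra
  exact LinearMap.trace_baseChange (ρ.ρ σ) B

/-- `tr ρ_B = φ (tr ρ_A)` if `ρ_A ⊗ B ≅ ρ_B`. -/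
theorem trace_map_eq (φ : A →+* B) (hφ : IsLocalHom φ) (ρA : GaloisRepAdic A)
    (ρB : GaloisRepAdic B) (h : (ρA.baseChangeAlong φ hφ).IsEquiv ρB) (σ : GQ995) :
    ρB.trace σ = φ (ρA.trace σ) := by
  rw [← trace_eq_of_isEquiv_h995 h σ, trace_baseChangeAlong_h995]

/-- Non-unipotency passes to the composite. -/
theorem not_unip_of_comp (φ : A →+* B) (hφ : IsLocalHom φ) (ρA : GaloisRepAdic A)
    (ρB : GaloisRepAdic B) (h : (ρA.baseChangeAlong φ hφ).IsEquiv ρB)
    (x : B →+* C) (hx : IsLocalHom x) (χ : A →+* C) (hχ : IsLocalHom χ) (hcomp : x.comp φ = χ)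
    {q : ℕ} (hnu : ¬ (ρB.baseChangeAlong x hx).IsUnipotentOnInertiaAt q) :
    ¬ (ρA.baseChangeAlong χ hχ).IsUnipotentOnInertiaAt q := by
  intro hu
  apply hnu
  have e1 := baseChangeAlong_comp_isEquiv' φ hφ x hx χ hχ hcomp ρA
  have e2 := isEquiv_baseChangeAlong x hx h
  exact isUnipotentOnInertiaAt_of_isEquiv (isEquiv_trans (isEquiv_symm e1) e2) hu

end Transport

section Steinberg

variable {R V : Type} [CommRing R] [AddCommGroup V] [Module R V]

/-- **The Steinberg identity**: `tr² - (1+q)² = 4 Q(w) - (q-1)²` if `det = q`. -/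
theorem trace_sq_sub_eq_of_tracelessCoords (bas : Module.Basis (Fin 2) R V)
    (f : Module.End R V) (u : Fin 3 → R) (hu : IsTracelessCoords bas f u) (c : R)
    (hdet : LinearMap.det f = c) :
    LinearMap.trace R V f ^ 2 - (1 + c) ^ 2 = 4 * (u 0 ^ 2 + u 1 * u 2) - (c - 1) ^ 2 := by
  obtain ⟨h0, h1, h2⟩ := hu
  have htr : LinearMap.trace R V f =
      LinearMap.toMatrix bas bas f 0 0 + LinearMap.toMatrix bas bas f 1 1 := by
    rw [LinearMap.trace_eq_matrix_trace R bas f, Matrix.trace_fin_two]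
  have hd : LinearMap.toMatrix bas bas f 0 0 * LinearMap.toMatrix bas bas f 1 1 -
      LinearMap.toMatrix bas bas f 0 1 * LinearMap.toMatrix bas bas f 1 0 = c := by
    rw [← hdet, ← LinearMap.det_toMatrix bas f, Matrix.det_fin_two]
  rw [htr, h1, h2]
  linear_combination (-(2 * u 0 + LinearMap.toMatrix bas bas f 0 0 -
    LinearMap.toMatrix bas bas f 1 1)) * h0 + 4 * hd

end Steinberg

section TypeValues

variable {𝒪 : Type} [CommRing 𝒪] [IsDomain 𝒪]

/-- The type values at `q` form a finite set. -/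
theorem finite_typeValues (p q : ℕ) (hq : 1 < q) (h2 : (2 : 𝒪) ≠ 0) :
    {δ : 𝒪 | IsTypeValue p q δ}.Finite := by
  classical
  have hfin : {ζ : 𝒪 | ζ ^ (q - 1) = 1}.Finite := by
    have hn : 0 < q - 1 := by omega
    refine Set.Finite.subset (Polynomial.nthRoots (q - 1) (1 : 𝒪)).toFinset.finite_toSet ?_
    intro ζ hζ
    rw [Finset.mem_coe, Multiset.mem_toFinset, Polynomial.mem_nthRoots hn]
    exact hζ
  let f : 𝒪 → 𝒪 := fun ζ => if h : ∃ δ : 𝒪, 2 * δ * ζ = ζ ^ 2 - 1 then h.choose else 0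
  refine Set.Finite.subset (hfin.image f) ?_
  rintro δ ⟨ζ, -, ⟨m, hm⟩, hζq, hrel⟩
  refine ⟨ζ, hζq, ?_⟩
  have hex : ∃ δ : 𝒪, 2 * δ * ζ = ζ ^ 2 - 1 := ⟨δ, hrel⟩
  have hf : f ζ = hex.choose := dif_pos hex
  have h1 := hex.choose_spec
  have hζ0 : ζ ≠ 0 := by
    intro h0
    rw [h0, zero_pow (by omega)] at hζq
    exact zero_ne_one hζq
  rw [hf]
  have h3 : (2 * ζ) * hex.choose = (2 * ζ) * δ := by
    linear_combination h1 - hrel
  exact mul_left_cancel₀ (mul_ne_zero h2 hζ0) h3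

/-- The type vectors form a finite set. -/
theorem finite_typeVectors (p : ℕ) (κ : Finset ℕ) (hκ : ∀ q ∈ κ, 1 < q) (h2 : (2 : 𝒪) ≠ 0) :
    Finite {δ : κ → 𝒪 // ∀ q : κ, IsTypeValue p (q : ℕ) (δ q)} := by
  have h : (Set.pi Set.univ fun q : κ => {δ : 𝒪 | IsTypeValue p (q : ℕ) δ}).Finite :=
    Set.Finite.pi fun q => finite_typeValues p (q : ℕ) (hκ q q.2) h2
  have heq : {δ : κ → 𝒪 | ∀ q : κ, IsTypeValue p (q : ℕ) (δ q)} =
      Set.pi Set.univ fun q : κ => {δ : 𝒪 | IsTypeValue p (q : ℕ) δ} := by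
    ext δ
    simp [Set.mem_pi]
  rw [← heq] at h
  exact h.to_subtype

/-- A type value from a primitive `p`-th root of unity. -/
theorem exists_typeValue (p : ℕ) (hp : p.Prime) (ζ : 𝒪) (hζ : IsPrimitiveRoot ζ p)
    (h2 : IsUnit (2 : 𝒪)) : ∃ δ : 𝒪, ∀ q : ℕ, p ∣ q - 1 → IsTypeValue p q δ := by
  have hζu : IsUnit ζ := hζ.isUnit hp.ne_zero
  obtain ⟨u, hu⟩ := h2.mul hζu
  refine ⟨(ζ ^ 2 - 1) * ((u⁻¹ : 𝒪ˣ) : 𝒪), fun q hq => ⟨ζ, ?_, ⟨1, ?_⟩, ?_, ?_⟩⟩
  · exact hζ.ne_one hp.one_lt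
  · rw [pow_one]
    exact hζ.pow_eq_one
  · obtain ⟨c, hc⟩ := hq
    rw [hc, pow_mul, hζ.pow_eq_one, one_pow]
  · have h1 : (u : 𝒪) * ((u⁻¹ : 𝒪ˣ) : 𝒪) = 1 := by
      rw [← Units.val_mul, mul_inv_cancel, Units.val_one]
    rw [hu] at h1
    linear_combination (ζ ^ 2 - 1) * h1

end TypeValues

end Fermat.Agent.S38.IA

end
-- ===== PACK-END S38/IA/AsmGal.lean

-- ===== PACK-BEGIN S38/IA/AsmPoint.lean
section


/-!
# Row HARD, assembly: the point on a component   (helper995)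

`exists_point_of_factor`: every ideal `𝔓` of the ambient ring with the FACTOR property for the
type vector `δ` (`IALocCompStatement`) carries the point
`x : P → 𝒪⟦T⟧ → k⟦T⟧`, `v_q ↦ (δ_q, 0, 0) ↦ 0`, `w_{q₀} ↦ (T, 0, 0)`, the other variables `↦ 0`,
and `x (lam) = 0`, `x (hElt q₀) = 4 T² ≠ 0` (helper901's characteristic-`p` point).
No hypothesis on the ramification of `𝒪`.
-/

set_option autoImplicit false
set_option linter.unusedSectionVars false
set_option linter.style.haveILetI false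
set_option linter.unusedVariables false

open IsLocalRing

namespace Fermat.Agent.S38.IA

open Fermat.Agent.S53.H113 Fermat.Agent.S53.H596

/-- In a local ring with odd residue characteristic, `2` is a unit. -/
theorem isUnit_two_h995 (p : ℕ) (hp : p.Prime) (hp2 : p ≠ 2) (R : Type) [CommRing R]
    [IsLocalRing R] (hpR : (p : R) ∈ maximalIdeal R) : IsUnit (2 : R) := by
  rw [← IsLocalRing.notMem_maximalIdeal]
  intro h2
  have hodd : Odd p := hp.odd_of_ne_two hp2
  obtain ⟨k, hk⟩ := hodd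
  have h1 : (1 : R) = (p : R) - 2 * (k : R) := by
    rw [hk]
    push_cast
    ring
  have : (1 : R) ∈ maximalIdeal R := by
    rw [h1]
    exact Ideal.sub_mem _ hpR (Ideal.mul_mem_right _ _ h2)
  exact (Ideal.ne_top_iff_one _).mp (maximalIdeal.isMaximal R).ne_top this

/-- **The point on a component.** -/
theorem exists_point_of_factor (p : ℕ) [hpF : Fact p.Prime] (hp2 : p ≠ 2)
    (𝒪 : Type) [CommRing 𝒪] [IsDomain 𝒪] [IsDiscreteValuationRing 𝒪]
    [IsAdicComplete (maximalIdeal 𝒪) 𝒪] (hp𝒪 : (p : 𝒪) ∈ maximalIdeal 𝒪)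
    (Piv : Finset ℕ) (hPiv : ∀ q ∈ Piv, q.Prime ∧ p ∣ q - 1) (g : ℕ)
    (δ : Piv → 𝒪) (hδm : ∀ q : Piv, δ q ∈ maximalIdeal 𝒪) (q₀ : Piv)
    (lam : 𝒪) (hlam : lam ∈ maximalIdeal 𝒪)
    (𝔓 : Ideal (LocAmb 𝒪 Piv g))
    (hfac : ∀ (D : Type) [CommRing D] [IsDomain D] [IsLocalRing D] [Algebra 𝒪 D]
        (_hsep : ∀ x : D, (∀ n : ℕ, x ∈ maximalIdeal D ^ n) → x = 0)
        (_hinj : Function.Injective (algebraMap 𝒪 D))
        (y : LocAmb 𝒪 Piv g →ₐ[𝒪] D) (_hy : IsLocalHom (y : LocAmb 𝒪 Piv g →+* D)),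
        typeIdeal 𝒪 g δ ≤ RingHom.ker (y : LocAmb 𝒪 Piv g →+* D) →
          𝔓 ≤ RingHom.ker (y : LocAmb 𝒪 Piv g →+* D)) :
    ∃ (V : Type) (_ : CommRing V) (_ : IsDomain V) (_ : ValuationRing V)
      (x : LocAmb 𝒪 Piv g →+* V), 𝔓 ≤ RingHom.ker x ∧
        ¬ x (MvPowerSeries.C lam) ∣ x (hElt 𝒪 g q₀ (q₀ : ℕ)) := by
  classical
  have hp : p.Prime := hpF.out
  have h2 : IsUnit (2 : 𝒪) := isUnit_two_h995 p hp hp2 𝒪 hp𝒪
  -- the ring `D = 𝒪⟦T⟧`
  haveI hDc : IsAdicComplete (maximalIdeal (PowerSeries 𝒪)) (PowerSeries 𝒪) :=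
    isAdicComplete_mvPowerSeries (σ := Unit) (R := 𝒪)
  have hsep : ∀ x : PowerSeries 𝒪, (∀ n : ℕ, x ∈ maximalIdeal (PowerSeries 𝒪) ^ n) → x = 0 := by
    intro x hx
    refine hDc.toIsHausdorff.haus' x fun n => ?_
    rw [SModEq.zero, smul_eq_mul, Ideal.mul_top]
    exact hx n
  have hinj : Function.Injective (algebraMap 𝒪 (PowerSeries 𝒪)) := by
    intro a b hab
    have := congrArg (PowerSeries.constantCoeff (R := 𝒪)) hab
    simpa using this
  -- the point
  let pt : (Piv × Fin 6) ⊕ Fin g → PowerSeries 𝒪 := fun i =>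
    Sum.elim (fun qk : Piv × Fin 6 =>
      if (qk.2 : ℕ) = 0 then PowerSeries.C (δ qk.1)
      else if (qk.2 : ℕ) = 3 ∧ qk.1 = q₀ then PowerSeries.X else 0)
      (fun _ => 0) i
  have hXm : (PowerSeries.X : PowerSeries 𝒪) ∈ maximalIdeal (PowerSeries 𝒪) :=
    X_mem_maximalIdeal_mvPowerSeries (σ := Unit) (R := 𝒪) ()
  have hCm : ∀ c : 𝒪, c ∈ maximalIdeal 𝒪 →
      (PowerSeries.C c : PowerSeries 𝒪) ∈ maximalIdeal (PowerSeries 𝒪) := fun c hc =>
    C_mem_maximalIdeal_mvPowerSeries (σ := Unit) (R := 𝒪) hc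
  have hpt : ∀ i, pt i ∈ maximalIdeal (PowerSeries 𝒪) := by
    rintro (⟨q, k⟩ | i)
    · simp only [pt, Sum.elim_inl]
      split_ifs
      · exact hCm _ (hδm q)
      · exact hXm
      · exact Ideal.zero_mem _
    · simp only [pt, Sum.elim_inr]
      exact Ideal.zero_mem _
  let xt : LocAmb 𝒪 Piv g →ₐ[𝒪] PowerSeries 𝒪 :=
    evalCNL (R := 𝒪) (maximalIdeal (PowerSeries 𝒪)) pt hpt
  have hxX : ∀ i, xt (MvPowerSeries.X i) = pt i := fun i =>
    evalCNL_X (R := 𝒪) (maximalIdeal (PowerSeries 𝒪)) pt hpt i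
  have hxC : ∀ c : 𝒪, xt (MvPowerSeries.C c) = PowerSeries.C c := by
    intro c
    have : (MvPowerSeries.C c : LocAmb 𝒪 Piv g) = algebraMap 𝒪 (LocAmb 𝒪 Piv g) c := rfl
    rw [this, AlgHom.commutes]
    rfl
  have hloc : IsLocalHom (xt : LocAmb 𝒪 Piv g →+* PowerSeries 𝒪) :=
    isLocalHom_algHom (isLocalHom_algebraMap_mvPowerSeries (σ := Unit) (R := 𝒪))
      (residue_surjective_mvPowerSeries (σ := Unit) (R := 𝒪)) xt
  -- values of the variables
  have hv0 : ∀ q : Piv, xt (vVar 𝒪 g q 0) = PowerSeries.C (δ q) := by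
    intro q
    rw [vVar, hxX]
    simp [pt]
  have hv1 : ∀ q : Piv, xt (vVar 𝒪 g q 1) = 0 := by
    intro q
    rw [vVar, hxX]
    simp [pt]
  have hv2 : ∀ q : Piv, xt (vVar 𝒪 g q 2) = 0 := by
    intro q
    rw [vVar, hxX]
    simp [pt]
  have hw1 : ∀ q : Piv, xt (wVar 𝒪 g q 1) = 0 := by
    intro q
    rw [wVar, hxX]
    simp [pt]
  have hw2 : ∀ q : Piv, xt (wVar 𝒪 g q 2) = 0 := by
    intro q
    rw [wVar, hxX]
    simp [pt]
  have hw0 : xt (wVar 𝒪 g q₀ 0) = PowerSeries.X := by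
    rw [wVar, hxX]
    simp [pt]
  have hv : ∀ (q : Piv) (j : Fin 3), j ≠ 0 → xt (vVar 𝒪 g q j) = 0 := by
    intro q j hj
    fin_cases j
    · exact absurd rfl hj
    · exact hv1 q
    · exact hv2 q
  have hw : ∀ (q : Piv) (j : Fin 3), j ≠ 0 → xt (wVar 𝒪 g q j) = 0 := by
    intro q j hj
    fin_cases j
    · exact absurd rfl hj
    · exact hw1 q
    · exact hw2 q
  have hker : typeIdeal 𝒪 g δ ≤ RingHom.ker (xt : LocAmb 𝒪 Piv g →+* PowerSeries 𝒪) := by
    rw [typeIdeal, Ideal.span_le]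
    rintro a (⟨q, rfl⟩ | ⟨q, i, j, rfl⟩)
    · rw [SetLike.mem_coe, RingHom.mem_ker]
      change xt _ = 0
      rw [qV, map_sub, map_add, map_pow, map_mul, map_pow, hxC, hv0, hv1, hv2]
      ring
    · rw [SetLike.mem_coe, RingHom.mem_ker]
      change xt _ = 0
      rw [minor, map_sub, map_mul, map_mul]
      by_cases hi : i = 0
      · by_cases hj : j = 0
        · subst hi; subst hj; ring
        · subst hi
          rw [hv q j hj, hw q j hj]
          ring
      · rw [hv q i hi, hw q i hi]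
        ring
  have h𝔓 := hfac (PowerSeries 𝒪) hsep hinj xt hloc hker
  -- reduction modulo the maximal ideal
  let red : PowerSeries 𝒪 →+* PowerSeries (ResidueField 𝒪) := PowerSeries.map (residue 𝒪)
  refine ⟨PowerSeries (ResidueField 𝒪), inferInstance, inferInstance, inferInstance,
    red.comp (xt : LocAmb 𝒪 Piv g →+* PowerSeries 𝒪), ?_, ?_⟩
  · intro a ha
    have h0 : xt a = 0 := h𝔓 ha
    rw [RingHom.mem_ker, RingHom.comp_apply]
    show red (xt a) = 0
    rw [h0, map_zero]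
  · have hxlam : (red.comp (xt : LocAmb 𝒪 Piv g →+* PowerSeries 𝒪)) (MvPowerSeries.C lam) = 0 := by
      rw [RingHom.comp_apply]
      show red (xt (MvPowerSeries.C lam)) = 0
      rw [hxC]
      show PowerSeries.map (residue 𝒪) (PowerSeries.C lam) = 0
      rw [PowerSeries.map_C, (residue_eq_zero_iff lam).mpr hlam, map_zero]
    rw [hxlam, zero_dvd_iff]
    obtain ⟨hq₀, hpq⟩ := hPiv q₀ q₀.2
    have hq1 : (((q₀ : ℕ) : 𝒪) - 1) = (((q₀ : ℕ) - 1 : ℕ) : 𝒪) := by
      rw [Nat.cast_sub hq₀.one_le, Nat.cast_one]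
    have hqm : (((q₀ : ℕ) : 𝒪) - 1) ∈ maximalIdeal 𝒪 := by
      rw [hq1]
      obtain ⟨c, hc⟩ := hpq
      rw [hc, Nat.cast_mul]
      exact Ideal.mul_mem_right _ _ hp𝒪
    have hval : (red.comp (xt : LocAmb 𝒪 Piv g →+* PowerSeries 𝒪)) (hElt 𝒪 g q₀ (q₀ : ℕ)) =
        4 * PowerSeries.X ^ 2 := by
      rw [RingHom.comp_apply]
      show red (xt (hElt 𝒪 g q₀ (q₀ : ℕ))) = _
      rw [hElt, map_sub, map_mul, hxC, qW, map_add, map_pow, map_mul, hw0, hw1, hw2]
      have h4 : xt (4 : LocAmb 𝒪 Piv g) = 4 := map_ofNat xt 4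
      rw [h4]
      have hX : red PowerSeries.X = PowerSeries.X := PowerSeries.map_X _
      have hC : red (PowerSeries.C ((((q₀ : ℕ) : 𝒪) - 1) ^ 2)) = 0 := by
        show PowerSeries.map (residue 𝒪) (PowerSeries.C ((((q₀ : ℕ) : 𝒪) - 1) ^ 2)) = 0
        rw [PowerSeries.map_C, map_pow, (residue_eq_zero_iff _).mpr hqm]
        simp
      have h4' : red 4 = 4 := map_ofNat red 4
      rw [map_sub, map_mul, map_add, map_pow, map_mul, hX, hC, h4', map_zero]
      ring
    rw [hval]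
    have h4u : IsUnit (4 : 𝒪) := by
      have : (4 : 𝒪) = 2 * 2 := by norm_num
      rw [this]
      exact h2.mul h2
    have h4k : (4 : ResidueField 𝒪) ≠ 0 := by
      have h := (h4u.map (residue 𝒪)).ne_zero
      rwa [map_ofNat] at h
    have h4 : (4 : PowerSeries (ResidueField 𝒪)) ≠ 0 := by
      intro h
      apply h4k
      have := congrArg (PowerSeries.constantCoeff (R := ResidueField 𝒪)) h
      rwa [map_ofNat, map_zero] at this
    exact mul_ne_zero h4 (pow_ne_zero _ PowerSeries.X_ne_zero)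

end Fermat.Agent.S38.IA

end
-- ===== PACK-END S38/IA/AsmPoint.lean

-- ===== PACK-BEGIN S38/IA/Asm.lean
section



/-!
# Row HARD: THE ASSEMBLY — `IACoreStatement` from the frozen leaves   (helper995)

`iaCore_of_leaves :
  S53 → COND → S54 → BRIDGE-1 → BRIDGE-2 → BRIDGE-3 → LOC-COMP → LOC-DIM → GAL → HECKE
    → IACoreStatement`.

Proof.  Suppose `ρ̄` is modular of none of the levels `L / q`, `q ∈ Piv` (MIN).
* HECKE gives the rank `d > 0` and the modules `M_Q`; GAL gives `r` and the Taylor–Wiles sets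
  `Q_n` with the presentations `γ_n : P ↠ R_{Q_n}`, `P = 𝒪⟦v, w, x⟧`.
* `ι` = the (finite, nonempty) set of type vectors; LOC-COMP gives the primes `𝔓_δ`;
  `J = ⋂ 𝔓_δ`, `A = P ⧸ J`.
* `J` kills `M_Q`: by (SUPP-NU) it suffices to see that `x ∘ φ_Q ∘ γ` kills `J` for the points
  `x` of `T_Q` which are not unipotent at the pivots; for such `x` the point `x ∘ φ_Q` of `R_Q`
  is not unipotent at the pivots, so `x ∘ φ_Q ∘ γ` kills some `typeIdeal δ` (TYPE), hence `𝔓_δ`
  (FACTOR).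
* So `M_Q` is an `A`-module, BRIDGE-2 gives the level, and the multi-component engine
  (`ia_multi_false_of_ialevels`) with the characteristic-`p` points gives `False`.
-/

set_option autoImplicit false
set_option linter.unusedSectionVars false
set_option linter.style.haveILetI false
set_option linter.unusedVariables false
set_option maxHeartbeats 1600000

open IsLocalRing

namespace Fermat.Agent.S38.IA

open Fermat.Agent.S59.Arch Fermat.Agent.S59.TW.H959 Fermat.Agent.S59.Patch.H967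
  Fermat.Agent.S38.H901 Fermat.Agent.S53.H113 Fermat.Agent.S53.H596

/-- A root of unity of `p`-power order is `≡ 1` modulo the maximal ideal. -/
theorem sub_one_mem_of_pow_eq_one_h995 (p : ℕ) (hp : p.Prime) (R : Type) [CommRing R]
    [IsLocalRing R] (hpR : (p : R) ∈ maximalIdeal R) (ζ : R) (m : ℕ) (hζ : ζ ^ p ^ m = 1) :
    ζ - 1 ∈ maximalIdeal R := by
  have hF : Fact p.Prime := ⟨hp⟩
  have h0 : ((p : ℕ) : ResidueField R) = 0 := by
    have h1 : residue R (p : R) = 0 := (residue_eq_zero_iff _).mpr hpR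
    rwa [map_natCast] at h1
  haveI : CharP (ResidueField R) p := by
    obtain ⟨q, hq⟩ := CharP.exists (ResidueField R)
    have hdvd : q ∣ p := (CharP.cast_eq_zero_iff (ResidueField R) q p).mp h0
    rcases (Nat.dvd_prime hp).mp hdvd with h | h
    · exfalso
      subst h
      exact CharP.false_of_nontrivial_of_char_one (R := ResidueField R)
    · subst h
      exact hq
  rw [← residue_eq_zero_iff]
  have h1 : (residue R (ζ - 1)) ^ p ^ m = 0 := by
    rw [map_sub, map_one, sub_pow_char_pow, one_pow, ← map_pow, hζ, map_one, sub_self]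
  exact pow_eq_zero_iff (pow_ne_zero _ hp.ne_zero) |>.mp h1

/-- A type value lies in the maximal ideal. -/
theorem typeValue_mem_h995 (p : ℕ) (hp : p.Prime) (hp2 : p ≠ 2) (R : Type) [CommRing R]
    [IsLocalRing R] (hpR : (p : R) ∈ maximalIdeal R) (q : ℕ) (δ : R)
    (hδ : IsTypeValue p q δ) : δ ∈ maximalIdeal R := by
  obtain ⟨ζ, -, ⟨m, hm⟩, -, hrel⟩ := hδ
  have h2 : IsUnit (2 : R) := isUnit_two_h995 p hp hp2 R hpR
  have hζu : IsUnit ζ := IsUnit.of_pow_eq_one hm (pow_ne_zero _ hp.ne_zero)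
  have hζ1 : ζ - 1 ∈ maximalIdeal R := sub_one_mem_of_pow_eq_one_h995 p hp R hpR ζ m hm
  have h3 : 2 * δ * ζ ∈ maximalIdeal R := by
    rw [hrel]
    have : ζ ^ 2 - 1 = (ζ - 1) * (ζ + 1) := by ring
    rw [this]
    exact Ideal.mul_mem_right _ _ hζ1
  have h4 : 2 * δ * ζ = (2 * ζ) * δ := by ring
  rw [h4] at h3
  rcases (maximalIdeal.isMaximal R).isPrime.mem_or_mem h3 with h | h
  · exact absurd h ((IsLocalRing.notMem_maximalIdeal).mpr (h2.mul hζu))
  · exact h

/-- A characteristic-zero domain over a discrete valuation ring of residue characteristic `p`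
contains it. -/
theorem algebraMap_injective_of_charZero (p : ℕ) (hp : p.Prime)
    (𝒪 : Type) [CommRing 𝒪] [IsDomain 𝒪] [IsDiscreteValuationRing 𝒪]
    (hp𝒪 : (p : 𝒪) ∈ maximalIdeal 𝒪)
    (D : Type) [CommRing D] [IsDomain D] [CharZero D] [Algebra 𝒪 D] :
    Function.Injective (algebraMap 𝒪 D) := by
  rw [injective_iff_map_eq_zero]
  intro a ha
  by_contra ha0
  obtain ⟨ϖ, hϖ⟩ := IsDiscreteValuationRing.exists_irreducible 𝒪
  obtain ⟨n, u, hu⟩ := IsDiscreteValuationRing.eq_unit_mul_pow_irreducible ha0 hϖ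
  have h1 : algebraMap 𝒪 D (ϖ ^ n) = 0 := by
    have h2 : algebraMap 𝒪 D ((u : 𝒪) * ϖ ^ n) = 0 := by rw [← hu]; exact ha
    rw [map_mul] at h2
    rcases mul_eq_zero.mp h2 with h3 | h3
    · exact absurd h3 ((u.isUnit.map (algebraMap 𝒪 D)).ne_zero)
    · exact h3
  have h2 : algebraMap 𝒪 D ϖ = 0 := by
    rw [map_pow] at h1
    exact pow_eq_zero_iff (fun hn0 => by
      rw [hn0, pow_zero] at h1
      exact one_ne_zero h1) |>.mp h1
  have h3 : (p : 𝒪) ∈ Ideal.span {ϖ} := by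
    rw [← (IsDiscreteValuationRing.irreducible_iff_uniformizer ϖ).mp hϖ]
    exact hp𝒪
  obtain ⟨c, hc⟩ := Ideal.mem_span_singleton'.mp h3
  have h4 : algebraMap 𝒪 D (p : 𝒪) = 0 := by
    rw [← hc, map_mul, h2, mul_zero]
  rw [map_natCast] at h4
  exact hp.ne_zero (Nat.cast_eq_zero.mp h4)

section Level

variable {p : ℕ} [hpF : Fact p.Prime]
  {𝒪 : Type} [CommRing 𝒪] [IsDomain 𝒪] [IsDiscreteValuationRing 𝒪]
  [IsAdicComplete (maximalIdeal 𝒪) 𝒪] [Finite (ResidueField 𝒪)] [CharZero 𝒪]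
  {ρbar : ResidualGaloisRep (ResidueField 𝒪)} {Smin Piv : Finset ℕ}

/-- **One level**: the Hecke module at one Taylor–Wiles set is a level of the engine over
`A = P ⧸ J`. -/
theorem exists_iaLevel (h54 : RToTStatement) (hB2 : IABridgeStatement)
    (h : ResidualHyp p 𝒪 ρbar Smin) (hPiv : IsPivotSet p ρbar Smin Piv)
    (lam : 𝒪) {d n r : ℕ} (g : ℕ) (qv : Fin r → ℕ)
    (hQ : IsTWSet p ρbar (Smin ∪ Piv) n qv)
    (hmod : HasIAModule p 𝒪 ρbar Smin Piv lam d n qv)
    (DQ : GaloisRep.DeformationRingData 𝒪 ρbar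
      (sigmaCond 𝒪 p .flat Smin (Smin ∪ Piv ∪ Finset.univ.image qv)))
    (bas : Module.Basis (Fin 2) DQ.R DQ.ρ.V)
    (Pv : Piv → ValuationSubring (AlgebraicClosure ℚ))
    (φv : Piv → (AlgebraicClosure ℚ ≃ₐ[ℚ] AlgebraicClosure ℚ))
    (γ : LocAmb 𝒪 Piv g →ₐ[𝒪] DQ.R) (hγ : Function.Surjective γ)
    (hPv : ∀ q : Piv, (Pv q).LiesOverPrime (q : ℕ) ∧ (Pv q).IsFrobeniusAt (φv q) (q : ℕ))
    (hw : ∀ q : Piv, IsTracelessCoords bas (DQ.ρ.ρ (φv q)) (fun j => γ (wVar 𝒪 g q j)))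
    (hdet : ∀ q : Piv, LinearMap.det (DQ.ρ.ρ (φv q)) = ((q : ℕ) : DQ.R))
    (htype : ∀ (𝒪' : Type) [CommRing 𝒪'] [IsDomain 𝒪'] [IsDiscreteValuationRing 𝒪']
        [CharZero 𝒪'] [Algebra 𝒪 𝒪'] (y : DQ.R →ₐ[𝒪] 𝒪')
        (hy : IsLocalHom (y : DQ.R →+* 𝒪')),
        (∀ q ∈ Piv,
          ¬ (DQ.ρ.baseChangeAlong (y : DQ.R →+* 𝒪') hy).IsUnipotentOnInertiaAt q) →
        ∃ δ : Piv → 𝒪, (∀ q : Piv, IsTypeValue p (q : ℕ) (δ q)) ∧
          ∀ a ∈ typeIdeal 𝒪 g δ, y (γ a) = 0)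
    (J : Ideal (LocAmb 𝒪 Piv g)) (hJtop : J ≠ ⊤)
    (hJ : ∀ δ : Piv → 𝒪, (∀ q : Piv, IsTypeValue p (q : ℕ) (δ q)) →
      ∀ (D : Type) [CommRing D] [IsDomain D] [IsLocalRing D] [Algebra 𝒪 D]
        (_hsep : ∀ x : D, (∀ n : ℕ, x ∈ maximalIdeal D ^ n) → x = 0)
        (_hinj : Function.Injective (algebraMap 𝒪 D))
        (y : LocAmb 𝒪 Piv g →ₐ[𝒪] D) (_hy : IsLocalHom (y : LocAmb 𝒪 Piv g →+* D)),
        typeIdeal 𝒪 g δ ≤ RingHom.ker (y : LocAmb 𝒪 Piv g →+* D) →
          J ≤ RingHom.ker (y : LocAmb 𝒪 Piv g →+* D))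
    (q₀ : Piv) [IsLocalRing (LocAmb 𝒪 Piv g ⧸ J)]
    (hA : IsProfiniteAdic (maximalIdeal (LocAmb 𝒪 Piv g ⧸ J))) :
    Nonempty (IALevel.{0, 0, 0} (MvPowerSeries (Fin r) 𝒪) (LocAmb 𝒪 Piv g ⧸ J)
      (twRelIdeal 𝒪 p n r) d (MvPowerSeries.C lam) (algebraMap 𝒪 (LocAmb 𝒪 Piv g ⧸ J) lam)
      (Ideal.Quotient.mk J (hElt 𝒪 g q₀ (q₀ : ℕ)))) := by
  classical
  have hp : p.Prime := hpF.out
  obtain ⟨hNQ, PQ, MQ, instG, instM, w, b, hbasis, hwm, hsupp, hst⟩ := hmod
  haveI := hNQ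
  -- the primes of `Σ_Q`
  have hSigP : ∀ q ∈ Smin ∪ Piv ∪ Finset.univ.image qv, q.Prime := by
    intro q hq
    rcases Finset.mem_union.mp hq with hq | hq
    · rcases Finset.mem_union.mp hq with hq | hq
      · exact h.hSmin q hq
      · exact (hPiv q hq).1
    · obtain ⟨i, -, rfl⟩ := Finset.mem_image.mp hq
      exact (hQ.2.1 i).1
  have hsub : Smin ⊆ Smin ∪ Piv ∪ Finset.univ.image qv :=
    Finset.subset_union_left.trans Finset.subset_union_left
  -- `R_Q ↠ T_Q`
  obtain ⟨φQ, hφQs, hφQloc, hφQ⟩ := h54 DQ PQ.H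
    (fun q hq hdvd => mem_of_prime_dvd_wilesLevel hp h.hSmin hSigP h.hpSmin hsub q hq hdvd)
    PQ.hcond PQ.hres
  let ψ : LocAmb 𝒪 Piv g →ₐ[𝒪] PQ.T := φQ.comp γ
  have hψs : Function.Surjective ψ := hφQs.comp hγ
  have hγloc : IsLocalHom (γ : LocAmb 𝒪 Piv g →+* DQ.R) := IsLocalHom.of_surjective _ hγ
  -- `J` kills `M_Q`
  have hkill : ∀ j ∈ J, ∀ m : MQ, ψ j • m = 0 := by
    intro j hj
    refine hsupp (ψ j) ?_
    intro 𝒪' _ _ _ _ _ x hx hnu
    let y : DQ.R →ₐ[𝒪] 𝒪' := x.comp φQ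
    have hy : IsLocalHom (y : DQ.R →+* 𝒪') := by
      haveI := hx
      haveI := hφQloc
      exact RingHom.isLocalHom_comp (x : PQ.T →+* 𝒪') (φQ : DQ.R →+* PQ.T)
    have hnu' : ∀ q ∈ Piv,
        ¬ (DQ.ρ.baseChangeAlong (y : DQ.R →+* 𝒪') hy).IsUnipotentOnInertiaAt q :=
      fun q hq => not_unip_of_comp (φQ : DQ.R →+* PQ.T) hφQloc DQ.ρ PQ.H.ρ hφQ
        (x : PQ.T →+* 𝒪') hx (y : DQ.R →+* 𝒪') hy rfl (hnu q hq)
    obtain ⟨δ, hδ, hδker⟩ := htype 𝒪' y hy hnu'
    have hsep : ∀ z : 𝒪', (∀ n : ℕ, z ∈ maximalIdeal 𝒪' ^ n) → z = 0 := by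
      intro z hz
      have h1 : z ∈ (⨅ n : ℕ, maximalIdeal 𝒪' ^ n : Ideal 𝒪') := by
        rw [Ideal.mem_iInf]
        exact hz
      rw [Ideal.iInf_pow_eq_bot_of_isLocalRing _ (maximalIdeal.isMaximal 𝒪').ne_top] at h1
      exact h1
    have hinj : Function.Injective (algebraMap 𝒪 𝒪') :=
      algebraMap_injective_of_charZero p hp 𝒪 h.hp𝒪 𝒪'
    have hyγ : IsLocalHom ((y.comp γ : LocAmb 𝒪 Piv g →ₐ[𝒪] 𝒪') : LocAmb 𝒪 Piv g →+* 𝒪') := by
      haveI := hy
      haveI := hγloc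
      exact RingHom.isLocalHom_comp (y : DQ.R →+* 𝒪') (γ : LocAmb 𝒪 Piv g →+* DQ.R)
    have h1 := hJ δ hδ 𝒪' hsep hinj (y.comp γ) hyγ (fun a ha => hδker a ha)
    exact h1 hj
  -- the module structures
  letI instP : Module (LocAmb 𝒪 Piv g) MQ :=
    Module.compHom MQ (ψ : LocAmb 𝒪 Piv g →+* PQ.T)
  have hPsmul : ∀ (a : LocAmb 𝒪 Piv g) (m : MQ), a • m = ψ a • m := fun a m => rfl
  have htors : Module.IsTorsionBySet (LocAmb 𝒪 Piv g) MQ (J : Set (LocAmb 𝒪 Piv g)) := by
    intro m a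
    rw [hPsmul]
    exact hkill a.1 a.2 m
  letI instA : Module (LocAmb 𝒪 Piv g ⧸ J) MQ := Module.IsTorsionBySet.module htors
  have hAsmul : ∀ (a : LocAmb 𝒪 Piv g) (m : MQ), (Ideal.Quotient.mk J a) • m = ψ a • m :=
    fun a m => rfl
  have h𝒪 : ∀ c : 𝒪, SameAct (M := MQ) (algebraMap 𝒪 (LocAmb 𝒪 Piv g ⧸ J) c)
      (algebraMap 𝒪 PQ.T c) := by
    intro c m
    have h1 : algebraMap 𝒪 (LocAmb 𝒪 Piv g ⧸ J) c =
        Ideal.Quotient.mk J (algebraMap 𝒪 (LocAmb 𝒪 Piv g) c) := rfl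
    rw [h1, hAsmul, AlgHom.commutes]
  -- lifts of the `w_i`
  have hmkloc : IsLocalHom (Ideal.Quotient.mk J) := isLocalHom_quotient_mk J hJtop
  have hψloc : IsLocalHom (ψ : LocAmb 𝒪 Piv g →+* PQ.T) := IsLocalHom.of_surjective _ hψs
  have hω : ∀ i, ∃ ω : LocAmb 𝒪 Piv g ⧸ J, SameAct (M := MQ) ω (w i) ∧
      ω - 1 ∈ maximalIdeal (LocAmb 𝒪 Piv g ⧸ J) := by
    intro i
    obtain ⟨a, ha⟩ := hψs (w i)
    refine ⟨Ideal.Quotient.mk J a, fun m => ?_, ?_⟩
    · rw [hAsmul, ha]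
    · have h1 : a - 1 ∈ maximalIdeal (LocAmb 𝒪 Piv g) := by
        rw [mem_maximalIdeal, mem_nonunits_iff]
        intro hu
        have h2 : IsUnit (ψ (a - 1)) := hu.map ψ
        rw [map_sub, map_one, ha] at h2
        exact (hwm i) h2
      have h3 : Ideal.Quotient.mk J a - 1 = Ideal.Quotient.mk J (a - 1) := by
        rw [map_sub, map_one]
      rw [h3, mem_maximalIdeal, mem_nonunits_iff]
      intro hu
      exact h1 (hmkloc.map_nonunit _ hu)
  choose ω hωact hωm using hω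
  have hbA : IsGroupRingBasis 𝒪 (p ^ n) ω b :=
    isGroupRingBasis_transport (T₁ := PQ.T) (T₂ := LocAmb 𝒪 Piv g ⧸ J) w ω b h𝒪 hωact hbasis
  -- the Steinberg element
  have hs : ∀ m : MQ, ∃ m' : MQ,
      (AlgHom.id 𝒪 (LocAmb 𝒪 Piv g ⧸ J)) (Ideal.Quotient.mk J (hElt 𝒪 g q₀ (q₀ : ℕ))) • m =
        algebraMap 𝒪 (LocAmb 𝒪 Piv g ⧸ J) lam • m' := by
    intro m
    obtain ⟨hP1, hP2⟩ := hPv q₀
    obtain ⟨m', hm'⟩ := hst (q₀ : ℕ) q₀.2 (Pv q₀) hP1 (φv q₀) hP2 m
    refine ⟨m', ?_⟩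
    rw [h𝒪 lam m', ← hm']
    show Ideal.Quotient.mk J (hElt 𝒪 g q₀ (q₀ : ℕ)) • m = _
    rw [hAsmul]
    congr 1
    -- `ψ (hElt) = tr² - (1+q)²`
    have h1 := trace_sq_sub_eq_of_tracelessCoords bas (DQ.ρ.ρ (φv q₀))
      (fun j => γ (wVar 𝒪 g q₀ j)) (hw q₀) ((q₀ : ℕ) : DQ.R) (hdet q₀)
    have h2 : γ (hElt 𝒪 g q₀ (q₀ : ℕ)) =
        DQ.ρ.trace (φv q₀) ^ 2 - (1 + ((q₀ : ℕ) : DQ.R)) ^ 2 := by
      show _ = LinearMap.trace DQ.R DQ.ρ.V (DQ.ρ.ρ (φv q₀)) ^ 2 - _
      rw [h1, hElt, qW, map_sub, map_mul, map_add, map_pow, map_mul]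
      have h3 : γ (4 : LocAmb 𝒪 Piv g) = 4 := map_ofNat γ 4
      have h4 : γ (MvPowerSeries.C ((((q₀ : ℕ) : 𝒪) - 1) ^ 2)) =
          (((q₀ : ℕ) : DQ.R) - 1) ^ 2 := by
        have : (MvPowerSeries.C ((((q₀ : ℕ) : 𝒪) - 1) ^ 2) : LocAmb 𝒪 Piv g) =
            algebraMap 𝒪 (LocAmb 𝒪 Piv g) ((((q₀ : ℕ) : 𝒪) - 1) ^ 2) := rfl
        rw [this, AlgHom.commutes, map_pow, map_sub, map_one, map_natCast]
      rw [h3, h4]
    show φQ (γ (hElt 𝒪 g q₀ (q₀ : ℕ))) = _
    rw [h2, map_sub, map_pow, map_pow, map_add, map_one, map_natCast,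
      trace_map_eq (φQ : DQ.R →+* PQ.T) hφQloc DQ.ρ PQ.H.ρ hφQ (φv q₀)]
    push_cast
    ring
  exact hB2 p 𝒪 h.hp𝒪 (LocAmb 𝒪 Piv g ⧸ J) hA (LocAmb 𝒪 Piv g ⧸ J)
    (AlgHom.id 𝒪 (LocAmb 𝒪 Piv g ⧸ J)) MQ n r d ω b hbA
    (fun i => ⟨ω i, rfl, hωm i⟩) lam (Ideal.Quotient.mk J (hElt 𝒪 g q₀ (q₀ : ℕ))) hs

end Level

/-- **THE ASSEMBLY of row HARD, at one `(p, 𝒪, ρ̄, Smin, Piv)`**: level lowering at a pivot
from the frozen leaves and the Hecke side AT THESE DATA. -/
theorem iaCore_at (h53 : DefRingExistsStatement) (hcond : SigmaCondStatement)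
    (h54 : RToTStatement) (hB1 : IABridgeIdealStatement) (hB2 : IABridgeStatement)
    (hB3 : IABridgeBaseStatement) (hComp : IALocCompStatement) (hDim : IALocDimStatement)
    (hGal : IAGalStatement)
    (p : ℕ) [hpF : Fact p.Prime]
    (𝒪 : Type) [CommRing 𝒪] [IsDomain 𝒪] [IsDiscreteValuationRing 𝒪]
    [IsAdicComplete (maximalIdeal 𝒪) 𝒪] [Finite (ResidueField 𝒪)] [CharZero 𝒪]
    (ρbar : ResidualGaloisRep (ResidueField 𝒪)) (Smin : Finset ℕ)
    (h : ResidualHyp p 𝒪 ρbar Smin)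
    (hflat : (GaloisRepAdic.ofResidualGaloisRep ρbar).IsFlatAt p)
    (Piv : Finset ℕ) (hPiv : IsPivotSet p ρbar Smin Piv) (hne : Piv.Nonempty)
    (hroots : ∀ q ∈ Piv, ∀ m : ℕ, p ^ m ∣ q - 1 → ∃ ζ : 𝒪, IsPrimitiveRoot ζ (p ^ m))
    (hHeckeAt : ∀ ζ : 𝒪, IsPrimitiveRoot ζ p →
      (∀ q ∈ Piv, ∀ S : Finset ℕ, ¬ ResModular 𝒪 ρbar (ribetLevel p Smin (Piv.erase q)) S) →
      ∃ d : ℕ, 0 < d ∧ ∀ (n r : ℕ) (qv : Fin r → ℕ), IsTWSet p ρbar (Smin ∪ Piv) n qv →
        HasIAModule p 𝒪 ρbar Smin Piv (ζ - 1) d n qv) :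
    ∃ q ∈ Piv, ∃ S : Finset ℕ, ResModular 𝒪 ρbar (ribetLevel p Smin (Piv.erase q)) S := by
  classical
  by_contra hcon
  have hmin : ∀ q ∈ Piv, ∀ S : Finset ℕ,
      ¬ ResModular 𝒪 ρbar (ribetLevel p Smin (Piv.erase q)) S :=
    fun q hq S hS => hcon ⟨q, hq, S, hS⟩
  have hp : p.Prime := hpF.out
  obtain ⟨q₀n, hq₀⟩ := hne
  let q₀ : Piv := ⟨q₀n, hq₀⟩
  have hPivLoc : ∀ q ∈ Piv, q.Prime ∧ p ∣ q - 1 :=
    fun q hq => ⟨(hPiv q hq).1, (hPiv q hq).2.2.1⟩
  -- the root of unity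
  obtain ⟨ζ, hζ⟩ := hroots q₀n hq₀ 1 (by rw [pow_one]; exact (hPivLoc q₀n hq₀).2)
  rw [pow_one] at hζ
  have hlam0 : ζ - 1 ≠ 0 := sub_ne_zero.mpr (hζ.ne_one hp.one_lt)
  have hlamm : ζ - 1 ∈ maximalIdeal 𝒪 :=
    sub_one_mem_of_pow_eq_one_h995 p hp 𝒪 h.hp𝒪 ζ 1 (by rw [pow_one]; exact hζ.pow_eq_one)
  have h2u : IsUnit (2 : 𝒪) := isUnit_two_h995 p hp h.hp2 𝒪 h.hp𝒪
  -- the two sides
  obtain ⟨d, hd, hH⟩ := hHeckeAt ζ hζ hmin
  obtain ⟨r, hr, hG⟩ := hGal p 𝒪 ρbar Smin h hflat Piv hPiv hroots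
  -- the type vectors
  haveI hιfin : Finite {δ : Piv → 𝒪 // ∀ q : Piv, IsTypeValue p (q : ℕ) (δ q)} :=
    finite_typeVectors p Piv (fun q hq => (hPivLoc q hq).1.one_lt) h2u.ne_zero
  obtain ⟨δ₀, hδ₀⟩ := exists_typeValue p hp ζ hζ h2u
  have hιne : Nonempty {δ : Piv → 𝒪 // ∀ q : Piv, IsTypeValue p (q : ℕ) (δ q)} :=
    ⟨⟨fun _ => δ₀, fun q => hδ₀ (q : ℕ) (hPivLoc q q.2).2⟩⟩
  -- the components
  have hC := fun i : {δ : Piv → 𝒪 // ∀ q : Piv, IsTypeValue p (q : ℕ) (δ q)} =>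
    hComp p h.hp2 𝒪 h.hp𝒪 Piv hPivLoc (r - 3 * Piv.card) i.1 i.2
  choose 𝔓 h𝔓prime h𝔓le h𝔓fac using hC
  let J : Ideal (LocAmb 𝒪 Piv (r - 3 * Piv.card)) := ⨅ i, 𝔓 i
  have hJle : ∀ i, J ≤ 𝔓 i := fun i => iInf_le _ i
  have hJtop : J ≠ ⊤ := by
    intro hJ
    obtain ⟨i⟩ := hιne
    exact (h𝔓prime i).ne_top (top_le_iff.mp (hJ ▸ hJle i))
  haveI : IsLocalRing (LocAmb 𝒪 Piv (r - 3 * Piv.card) ⧸ J) := isLocalRing_quotient J hJtop
  have hA : IsProfiniteAdic (maximalIdeal (LocAmb 𝒪 Piv (r - 3 * Piv.card) ⧸ J)) :=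
    isProfiniteAdic_mvPowerSeries_quotient J
  -- the base ring `S`
  obtain ⟨hS, hSdim⟩ := hB3 𝒪 r
  have hfin : ringKrullDim (MvPowerSeries (Fin r) 𝒪) < ⊤ := by
    rw [hSdim]
    have h1 : (((r + 1 : ℕ)) : WithBot ℕ∞) = (((r + 1 : ℕ) : ℕ∞) : WithBot ℕ∞) := rfl
    rw [h1]
    exact WithBot.coe_lt_coe.2 (ENat.natCast_lt_top (r + 1))
  haveI : IsDomain (MvPowerSeries (Fin r) 𝒪) := NoZeroDivisors.to_isDomain _
  have hClam : (MvPowerSeries.C (ζ - 1) : MvPowerSeries (Fin r) 𝒪) ≠ 0 := by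
    intro h0
    apply hlam0
    have := congrArg (MvPowerSeries.constantCoeff (σ := Fin r) (R := 𝒪)) h0
    simpa using this
  -- the levels
  have hL : ∀ n : ℕ, Nonempty (IALevel.{0, 0, 0} (MvPowerSeries (Fin r) 𝒪)
      (LocAmb 𝒪 Piv (r - 3 * Piv.card) ⧸ J) (twRelIdeal 𝒪 p n r) d (MvPowerSeries.C (ζ - 1))
      (algebraMap 𝒪 (LocAmb 𝒪 Piv (r - 3 * Piv.card) ⧸ J) (ζ - 1))
      (Ideal.Quotient.mk J (hElt 𝒪 (r - 3 * Piv.card) q₀ (q₀ : ℕ)))) := by
    intro n
    obtain ⟨qv, hQ, hDQ⟩ := hG n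
    have hc := hcond p h.hp2 𝒪 h.hp𝒪 .flat Smin (Smin ∪ Piv ∪ Finset.univ.image qv)
    have hsub : Smin ⊆ Smin ∪ Piv ∪ Finset.univ.image qv :=
      Finset.subset_union_left.trans Finset.subset_union_left
    have hbar : sigmaCond 𝒪 p .flat Smin (Smin ∪ Piv ∪ Finset.univ.image qv)
        (GaloisRepAdic.ofResidualGaloisRep ρbar) := by
      refine ⟨⟨h.hdet, hflat, ?_⟩, h.hunip⟩
      intro q hq hqS
      have hqp : q ≠ p := fun e => hqS (hsub (e ▸ h.hpSmin))
      have hqSmin : q ∉ Smin := fun hh => hqS (hsub hh)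
      have h1 : ρbar.IsUnramifiedAt q := by
        by_contra hn
        exact hqSmin ((h.hmin q hq hqp).mpr hn)
      exact h1
    obtain ⟨DQ⟩ := h53 𝒪 ρbar (sigmaCond 𝒪 p .flat Smin (Smin ∪ Piv ∪ Finset.univ.image qv))
      h.habs hc.1 hbar (hc.2 ρbar)
    obtain ⟨bas, Pv, φv, σv, γ, hγ, hPv, hv, hw, hdet, htype⟩ := hDQ DQ
    refine exists_iaLevel h54 hB2 h hPiv (ζ - 1) (r - 3 * Piv.card) qv hQ (hH n r qv hQ) DQ bas
      Pv φv γ hγ (fun q => ⟨(hPv q).1, (hPv q).2.1⟩) hw hdet htype J hJtop ?_ q₀ hA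
    intro δ hδ D _ _ _ _ hsep hinj y hy hker
    exact (hJle ⟨δ, hδ⟩).trans (h𝔓fac ⟨δ, hδ⟩ D hsep hinj y hy hker)
  -- the components of `A`
  let 𝔓A : {δ : Piv → 𝒪 // ∀ q : Piv, IsTypeValue p (q : ℕ) (δ q)} →
      Ideal (LocAmb 𝒪 Piv (r - 3 * Piv.card) ⧸ J) := fun i => (𝔓 i).map (Ideal.Quotient.mk J)
  have h𝔓A : ∀ i, (𝔓A i).IsPrime := fun i => isPrime_map_mk_of_le J (𝔓 i) (h𝔓prime i) (hJle i)
  have hcov : ∀ Q : Ideal (LocAmb 𝒪 Piv (r - 3 * Piv.card) ⧸ J), Q.IsPrime →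
      algebraMap 𝒪 (LocAmb 𝒪 Piv (r - 3 * Piv.card) ⧸ J) (ζ - 1) ∉ Q → ∃ i, 𝔓A i ≤ Q := by
    intro Q hQ _
    have h1 : (⨅ i, 𝔓 i) ≤ Q.comap (Ideal.Quotient.mk J) := by
      intro a ha
      rw [Ideal.mem_comap, Ideal.Quotient.eq_zero_iff_mem.mpr ha]
      exact Q.zero_mem
    obtain ⟨i, hi⟩ := exists_le_of_iInf_le 𝔓 (Ideal.comap_isPrime _ Q) h1
    exact ⟨i, Ideal.map_le_iff_le_comap.mpr hi⟩
  have hdim : ∀ i, ringKrullDim ((LocAmb 𝒪 Piv (r - 3 * Piv.card) ⧸ J) ⧸ 𝔓A i) ≤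
      ringKrullDim (MvPowerSeries (Fin r) 𝒪) := by
    intro i
    refine (ringKrullDim_quotient_map_le J (typeIdeal 𝒪 (r - 3 * Piv.card) i.1) (𝔓 i)
      (h𝔓le i)).trans ?_
    refine (hDim p h.hp2 𝒪 h.hp𝒪 Piv hPivLoc (r - 3 * Piv.card) i.1 i.2).trans ?_
    rw [hSdim]
    have : 1 + 3 * Piv.card + (r - 3 * Piv.card) = r + 1 := by omega
    rw [this]
  -- the points
  have hpt : ∀ i, ∃ (V : Type) (_ : CommRing V) (_ : IsDomain V) (_ : ValuationRing V)
      (x : (LocAmb 𝒪 Piv (r - 3 * Piv.card) ⧸ J) →+* V), 𝔓A i ≤ RingHom.ker x ∧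
        ¬ x (algebraMap 𝒪 (LocAmb 𝒪 Piv (r - 3 * Piv.card) ⧸ J) (ζ - 1)) ∣
          x (Ideal.Quotient.mk J (hElt 𝒪 (r - 3 * Piv.card) q₀ (q₀ : ℕ))) := by
    intro i
    obtain ⟨V, iV1, iV2, iV3, x, hx1, hx2⟩ := exists_point_of_factor p h.hp2 𝒪 h.hp𝒪 Piv hPivLoc
      (r - 3 * Piv.card) i.1
      (fun q => typeValue_mem_h995 p hp h.hp2 𝒪 h.hp𝒪 (q : ℕ) (i.1 q) (i.2 q)) q₀ (ζ - 1) hlamm
      (𝔓 i) (h𝔓fac i)
    have hJx : ∀ a ∈ J, x a = 0 := fun a ha => hx1 (hJle i ha)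
    refine ⟨V, iV1, iV2, iV3, Ideal.Quotient.lift J x hJx, ?_, ?_⟩
    · rw [Ideal.map_le_iff_le_comap]
      intro a ha
      rw [Ideal.mem_comap, RingHom.mem_ker, Ideal.Quotient.lift_mk]
      exact hx1 ha
    · have h1 : algebraMap 𝒪 (LocAmb 𝒪 Piv (r - 3 * Piv.card) ⧸ J) (ζ - 1) =
          Ideal.Quotient.mk J (MvPowerSeries.C (ζ - 1)) := rfl
      rw [h1, Ideal.Quotient.lift_mk, Ideal.Quotient.lift_mk]
      exact hx2
  exact ia_multi_false_of_ialevels hS hA hfin hd (MvPowerSeries.C (ζ - 1)) hClam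
    (algebraMap 𝒪 (LocAmb 𝒪 Piv (r - 3 * Piv.card) ⧸ J) (ζ - 1))
    (Ideal.Quotient.mk J (hElt 𝒪 (r - 3 * Piv.card) q₀ (q₀ : ℕ))) 𝔓A h𝔓A hcov hdim
    (fun n => twRelIdeal 𝒪 p n r) (fun n => hB1 p 𝒪 h.hp𝒪 n r)
    (fun n => Classical.choice (hL n)) hpt

/-- **THE ASSEMBLY of row HARD**: level lowering at a pivot from the frozen leaves. -/
theorem iaCore_of_leaves (h53 : DefRingExistsStatement) (hcond : SigmaCondStatement)
    (h54 : RToTStatement) (hB1 : IABridgeIdealStatement) (hB2 : IABridgeStatement)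
    (hB3 : IABridgeBaseStatement) (hComp : IALocCompStatement) (hDim : IALocDimStatement)
    (hGal : IAGalStatement) (hHecke : IAHeckeStatement) : IACoreStatement := by
  intro p hpF 𝒪 _ _ _ _ _ _ ρbar Smin h hflat Piv hPiv hne hroots hmod
  exact iaCore_at h53 hcond h54 hB1 hB2 hB3 hComp hDim hGal p 𝒪 ρbar Smin h hflat Piv hPiv hne
    hroots (fun ζ hζ hmin => hHecke p 𝒪 ρbar Smin h hflat ζ hζ Piv hPiv hmod hmin)

end Fermat.Agent.S38.IA

end
-- ===== PACK-END S38/IA/Asm.lean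

-- ===== PACK-BEGIN Ribet/H678/RChiTower.lean
section


/-!
# Towers of `R_χ` over several pivots (helper678)

`ChiTower O lam κ P`: a complete noetherian local `O`-algebra `T` (a domain with a good
embedding) carrying a point of the type-`χ` problem for every pivot `q : κ`, universal for this
property among complete local `O`-algebras.  Towers exist for every finite `κ`
(`exists_chiTower`): induction on `κ`, the step being `T ↦ R_χ` over the base `T`.
-/

set_option autoImplicit false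
set_option linter.unusedSectionVars false
set_option linter.style.haveILetI false
set_option linter.unusedSimpArgs false

universe u v

namespace Fermat.Agent.Ribet.H678

open MvPowerSeries IsLocalRing Fermat.Agent.S53.H596

section Datum

variable {O : Type*} [CommRing O] [IsLocalRing O] {O' : Type*} [CommRing O'] [IsLocalRing O']

/-- push a datum along a ring homomorphism mapping `𝔪` into `𝔪` -/
def ChiDatum.map (P : ChiDatum O) (f : O →+* O')
    (hf : ∀ x ∈ maximalIdeal O, f x ∈ maximalIdeal O') : ChiDatum O' where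
  half := f P.half
  two_half := by rw [← map_ofNat f 2, ← map_mul, P.two_half, map_one]
  eps := f P.eps
  epsInv := f P.epsInv
  eps_inv := by rw [← map_mul, P.eps_inv, map_one]
  T := f P.T
  hT := by
    have := hf _ P.hT
    rwa [map_sub, map_ofNat] at this

theorem ChiDatum.map_c (P : ChiDatum O) (f : O →+* O')
    (hf : ∀ x ∈ maximalIdeal O, f x ∈ maximalIdeal O') : (P.map f hf).c = f P.c := by
  simp [ChiDatum.c, ChiDatum.map, map_ofNat]

end Datum

section Point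

variable {O : Type*} [CommRing O] [IsLocalRing O] {P : ChiDatum O}
variable {A : Type*} [CommRing A] [IsLocalRing A] [Algebra O A]

/-- the six coordinates `(y, z, v, b, c, u)` of a point -/
def ChiPoint.coords (pt : ChiPoint P A) : Fin 6 → A := ![pt.y, pt.z, pt.v, pt.b, pt.c, pt.u]

theorem ChiPoint.v_mem (pt : ChiPoint P A)
    (hmap : ∀ x ∈ maximalIdeal O, algebraMap O A x ∈ maximalIdeal A) :
    pt.v ∈ maximalIdeal A := by
  have h : pt.v * pt.v ∈ maximalIdeal A := by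
    rw [pt.rel_v]
    exact Ideal.sub_mem _ (hmap _ P.c_mem) (Ideal.mul_mem_left _ _ pt.hz)
  exact ((maximalIdeal.isMaximal A).isPrime.mem_or_mem h).elim id id

theorem ChiPoint.coords_mem (pt : ChiPoint P A)
    (hmap : ∀ x ∈ maximalIdeal O, algebraMap O A x ∈ maximalIdeal A) (j : Fin 6) :
    pt.coords j ∈ maximalIdeal A := by
  fin_cases j
  · exact pt.hy
  · exact pt.hz
  · exact pt.v_mem hmap
  · exact pt.hb
  · exact pt.hc
  · exact pt.hu

/-- change of the base ring / of the datum: only `c` matters -/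
def ChiPoint.transfer {O₂ : Type*} [CommRing O₂] [IsLocalRing O₂] [Algebra O₂ A]
    (P₂ : ChiDatum O₂) (pt : ChiPoint P A) (h : algebraMap O A P.c = algebraMap O₂ A P₂.c) :
    ChiPoint P₂ A where
  y := pt.y
  z := pt.z
  v := pt.v
  b := pt.b
  c := pt.c
  u := pt.u
  hy := pt.hy
  hz := pt.hz
  hb := pt.hb
  hc := pt.hc
  hu := pt.hu
  rel_v := by rw [← h]; exact pt.rel_v
  rel_yc := pt.rel_yc
  rel_yu := pt.rel_yu
  rel_zu := pt.rel_zu

@[simp] theorem ChiPoint.transfer_coords {O₂ : Type*} [CommRing O₂] [IsLocalRing O₂]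
    [Algebra O₂ A] (P₂ : ChiDatum O₂) (pt : ChiPoint P A)
    (h : algebraMap O A P.c = algebraMap O₂ A P₂.c) :
    (pt.transfer P₂ h).coords = pt.coords := rfl

/-- image of a point under a ring homomorphism mapping `𝔪` into `𝔪` -/
def ChiPoint.mapHom {A' : Type*} [CommRing A'] [IsLocalRing A'] [Algebra O A']
    (pt : ChiPoint P A) (f : A →ₐ[O] A') (hf : ∀ x ∈ maximalIdeal A, f x ∈ maximalIdeal A') :
    ChiPoint P A' where
  y := f pt.y
  z := f pt.z
  v := f pt.v
  b := f pt.b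
  c := f pt.c
  u := f pt.u
  hy := hf _ pt.hy
  hz := hf _ pt.hz
  hb := hf _ pt.hb
  hc := hf _ pt.hc
  hu := hf _ pt.hu
  rel_v := by
    rw [← map_mul, pt.rel_v, map_sub, map_mul, map_mul, AlgHom.commutes, map_ofNat]
  rel_yc := by rw [← map_mul, pt.rel_yc, map_mul]
  rel_yu := by rw [← map_mul, pt.rel_yu, map_mul]
  rel_zu := by rw [← map_mul, pt.rel_zu, map_mul]

theorem ChiPoint.mapHom_coords {A' : Type*} [CommRing A'] [IsLocalRing A'] [Algebra O A']
    (pt : ChiPoint P A) (f : A →ₐ[O] A') (hf : ∀ x ∈ maximalIdeal A, f x ∈ maximalIdeal A')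
    (j : Fin 6) : (pt.mapHom f hf).coords j = f (pt.coords j) := by
  fin_cases j <;> rfl

theorem ChiPoint.lift_coords [IsAdicComplete (maximalIdeal A) A] (pt : ChiPoint P A) (j : Fin 6) :
    pt.liftAlgHom (RChi.coord P j) = pt.coords j := by
  fin_cases j
  · exact pt.lift_y
  · exact pt.lift_z
  · exact pt.lift_v
  · exact pt.lift_b
  · exact pt.lift_c
  · exact pt.lift_u

variable (P) in
/-- the universal point of `R_χ` -/
noncomputable def RChi.point : ChiPoint P (RChi P) where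
  y := RChi.y P
  z := RChi.z P
  v := RChi.v P
  b := RChi.b P
  c := RChi.c P
  u := RChi.u P
  hy := RChi.y_mem P
  hz := RChi.z_mem P
  hb := RChi.b_mem P
  hc := RChi.c_mem P
  hu := RChi.u_mem P
  rel_v := RChi.rel_v P
  rel_yc := RChi.rel_yc P
  rel_yu := RChi.rel_yu P
  rel_zu := RChi.rel_zu P

theorem RChi.point_coords : (RChi.point P).coords = RChi.coord P := rfl

variable (P) in
theorem rChi_algebraMap_injective [IsNoetherianRing O] :
    Function.Injective (algebraMap O (RChi P)) := by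
  intro a b h
  have h1 := congrArg (RChi.toPS P) h
  rw [rChi_algebraMap, rChi_algebraMap, RChi.toPS_mk, RChi.toPS_mk, ltPsi_C, ltPsi_C] at h1
  have h2 := congrArg (PowerSeries.constantCoeff) h1
  rw [PowerSeries.constantCoeff_C, PowerSeries.constantCoeff_C] at h2
  have h3 := congrArg QuadraticAlgebra.re h2
  have h4 := congrArg MvPowerSeries.constantCoeff h3
  simpa using h4

end Point

section Tower

/-- A tower of `R_χ`'s over the pivots `κ`: a complete noetherian local `O`-algebra `T` with a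
good embedding, a point for each pivot, universal among complete local `O`-algebras. -/
structure ChiTower (O : Type u) [CommRing O] [IsLocalRing O] (lam : O) (κ : Type v)
    (P : κ → ChiDatum O) where
  /-- the ring -/
  T : Type u
  [commRing : CommRing T]
  [isLocalRing : IsLocalRing T]
  [algebra : Algebra O T]
  [noeth : IsNoetherianRing T]
  [complete : IsAdicComplete (maximalIdeal T) T]
  map_mem : ∀ x ∈ maximalIdeal O, algebraMap O T x ∈ maximalIdeal T
  inj : Function.Injective (algebraMap O T)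
  good : GoodEmb T (algebraMap O T lam)
  /-- the universal points -/
  pt : ∀ q, ChiPoint (P q) T
  /-- the classifying map -/
  lift : ∀ (A : Type u) [CommRing A] [IsLocalRing A] [Algebra O A]
    [IsAdicComplete (maximalIdeal A) A], (∀ q, ChiPoint (P q) A) → (T →ₐ[O] A)
  lift_pt : ∀ (A : Type u) [CommRing A] [IsLocalRing A] [Algebra O A]
    [IsAdicComplete (maximalIdeal A) A] (pts : ∀ q, ChiPoint (P q) A) (q : κ) (j : Fin 6),
    lift A pts ((pt q).coords j) = (pts q).coords j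

attribute [instance] ChiTower.commRing ChiTower.isLocalRing ChiTower.algebra ChiTower.noeth
  ChiTower.complete

variable {O : Type u} [CommRing O] [IsLocalRing O] [IsNoetherianRing O]
  [IsAdicComplete (maximalIdeal O) O] {lam : O}

/-- the trivial tower -/
noncomputable def ChiTower.empty (hgood : GoodEmb O lam) (κ : Type v) [IsEmpty κ]
    (P : κ → ChiDatum O) : ChiTower O lam κ P where
  T := O
  map_mem := fun _ hx => hx
  inj := Function.injective_id
  good := hgood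
  pt := fun q => isEmptyElim q
  lift := fun A _ _ _ _ _ => Algebra.ofId O A
  lift_pt := fun _ _ _ _ _ _ q => isEmptyElim q

/-- transport along an equivalence of the index types -/
noncomputable def ChiTower.ofEquiv {κ κ' : Type v} (e : κ ≃ κ') (P : κ' → ChiDatum O)
    (W : ChiTower O lam κ (fun q => P (e q))) : ChiTower O lam κ' P where
  T := W.T
  map_mem := W.map_mem
  inj := W.inj
  good := W.good
  pt := fun q' => (W.pt (e.symm q')).transfer (P q') (by rw [e.apply_symm_apply])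
  lift := fun A _ _ _ _ pts => W.lift A (fun q => pts (e q))
  lift_pt := fun A _ _ _ _ pts q' j => by
    rw [ChiPoint.transfer_coords, W.lift_pt A (fun q => pts (e q)) (e.symm q') j]
    have : ∀ q₁ q₂ : κ', q₁ = q₂ → (pts q₁).coords j = (pts q₂).coords j := by
      rintro q₁ q₂ rfl
      rfl
    exact this _ _ (e.apply_symm_apply q')

section StepDef

variable {κ : Type v} {P : Option κ → ChiDatum O}
variable (W : ChiTower O lam κ (fun q => P (some q)))

/-- the new datum over the old tower -/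
noncomputable def ChiTower.stepDatum : ChiDatum W.T :=
  (P none).map (algebraMap O W.T) W.map_mem

/-- the ring of the next stage -/
abbrev ChiTower.StepRing : Type u := RChi W.stepDatum

/-- the `O`-algebra structure of the next stage -/
@[reducible] noncomputable def ChiTower.stepAlgebra : Algebra O W.StepRing :=
  ((algebraMap W.T W.StepRing).comp (algebraMap O W.T)).toAlgebra

theorem ChiTower.stepDatum_c : W.stepDatum.c = algebraMap O W.T (P none).c :=
  ChiDatum.map_c _ _ _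

/-- the structure map `T → T'` as an `O`-algebra map -/
noncomputable def ChiTower.stepMap :
    letI := W.stepAlgebra
    W.T →ₐ[O] W.StepRing :=
  letI := W.stepAlgebra
  { algebraMap W.T W.StepRing with commutes' := fun _ => rfl }

/-- the classifying map of the next stage -/
noncomputable def ChiTower.stepLift (A : Type u) [CommRing A] [IsLocalRing A] [Algebra O A]
    [IsAdicComplete (maximalIdeal A) A] (pts : ∀ q, ChiPoint (P q) A) :
    letI := W.stepAlgebra
    W.StepRing →ₐ[O] A :=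
  letI := W.stepAlgebra
  letI algTA : Algebra W.T A := (W.lift A (fun q => pts (some q))).toRingHom.toAlgebra
  let ptT : ChiPoint W.stepDatum A := (pts none).transfer W.stepDatum (by
    rw [W.stepDatum_c]
    exact ((W.lift A (fun q => pts (some q))).commutes _).symm)
  { (ptT.liftAlgHom : W.StepRing →ₐ[W.T] A).toRingHom with
    commutes' := fun r => by
      have h1 : algebraMap O W.StepRing r = algebraMap W.T W.StepRing (algebraMap O W.T r) := rfl
      show (ptT.liftAlgHom : W.StepRing →ₐ[W.T] A) (algebraMap O W.StepRing r) = _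
      rw [h1, AlgHom.commutes]
      exact (W.lift A (fun q => pts (some q))).commutes r }

theorem ChiTower.stepLift_coord (A : Type u) [CommRing A] [IsLocalRing A] [Algebra O A]
    [IsAdicComplete (maximalIdeal A) A] (pts : ∀ q, ChiPoint (P q) A) (j : Fin 6) :
    W.stepLift A pts (RChi.coord W.stepDatum j) = (pts none).coords j := by
  letI := W.stepAlgebra
  letI algTA : Algebra W.T A := (W.lift A (fun q => pts (some q))).toRingHom.toAlgebra
  exact ChiPoint.lift_coords ((pts none).transfer W.stepDatum (by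
    rw [W.stepDatum_c]
    exact ((W.lift A (fun q => pts (some q))).commutes _).symm)) j

theorem ChiTower.stepLift_algebraMap (A : Type u) [CommRing A] [IsLocalRing A] [Algebra O A]
    [IsAdicComplete (maximalIdeal A) A] (pts : ∀ q, ChiPoint (P q) A) (t : W.T) :
    W.stepLift A pts (algebraMap W.T W.StepRing t) = W.lift A (fun q => pts (some q)) t := by
  letI := W.stepAlgebra
  letI algTA : Algebra W.T A := (W.lift A (fun q => pts (some q))).toRingHom.toAlgebra
  exact AlgHom.commutes (((pts none).transfer W.stepDatum (by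
    rw [W.stepDatum_c]
    exact ((W.lift A (fun q => pts (some q))).commutes _).symm)).liftAlgHom :
      W.StepRing →ₐ[W.T] A) t

/-- the points of the next stage -/
noncomputable def ChiTower.stepPt :
    letI := W.stepAlgebra
    ∀ q : Option κ, ChiPoint (P q) W.StepRing :=
  letI := W.stepAlgebra
  fun q => match q with
    | none => (RChi.point W.stepDatum).transfer (P none)
        (congrArg (algebraMap W.T (RChi W.stepDatum)) W.stepDatum_c)
    | some q => (W.pt q).mapHom W.stepMap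
        (fun x hx => rChi_algebraMap_mem W.stepDatum hx)

theorem ChiTower.stepPt_none (j : Fin 6) :
    letI := W.stepAlgebra
    (W.stepPt none).coords j = RChi.coord W.stepDatum j := rfl

theorem ChiTower.stepPt_some (q : κ) (j : Fin 6) :
    letI := W.stepAlgebra
    (W.stepPt (some q)).coords j = algebraMap W.T W.StepRing ((W.pt q).coords j) := by
  letI := W.stepAlgebra
  exact ChiPoint.mapHom_coords (W.pt q) W.stepMap
    (fun x hx => rChi_algebraMap_mem W.stepDatum hx) j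

/-- **the step of the tower** -/
noncomputable def ChiTower.step (hlc : lam ∣ (P none).c) (hc : (P none).c ≠ 0) :
    ChiTower O lam (Option κ) P :=
  letI := W.stepAlgebra
  { T := W.StepRing
    map_mem := fun x hx => rChi_algebraMap_mem W.stepDatum (W.map_mem x hx)
    inj := (rChi_algebraMap_injective W.stepDatum).comp W.inj
    good := GoodEmb.rChi W.stepDatum W.good
      (by rw [W.stepDatum_c]; exact map_dvd _ hlc)
      (by
        rw [W.stepDatum_c]
        intro h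
        exact hc (W.inj (by rw [h, map_zero])))
    pt := W.stepPt
    lift := fun A _ _ _ _ pts => W.stepLift A pts
    lift_pt := fun A _ _ _ _ pts q j => by
      cases q with
      | none =>
        rw [W.stepPt_none]
        exact W.stepLift_coord A pts j
      | some q =>
        rw [W.stepPt_some, W.stepLift_algebraMap]
        exact W.lift_pt A (fun q => pts (some q)) q j }

end StepDef

/-- **Towers exist** for every finite set of pivots. -/
theorem exists_chiTower (hgood : GoodEmb O lam) (κ : Type v) [Finite κ] :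
    ∀ P : κ → ChiDatum O, (∀ q, lam ∣ (P q).c) → (∀ q, (P q).c ≠ 0) →
      Nonempty (ChiTower O lam κ P) := by
  refine Finite.induction_empty_option
    (P := fun κ : Type v => ∀ P : κ → ChiDatum O, (∀ q, lam ∣ (P q).c) → (∀ q, (P q).c ≠ 0) →
      Nonempty (ChiTower O lam κ P)) ?_ ?_ ?_ κ
  · intro α β e h P h1 h2
    obtain ⟨W⟩ := h (fun q => P (e q)) (fun q => h1 _) (fun q => h2 _)
    exact ⟨W.ofEquiv e P⟩
  · intro P _ _
    exact ⟨ChiTower.empty hgood PEmpty P⟩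
  · intro α _ h P h1 h2
    obtain ⟨W⟩ := h (fun q => P (some q)) (fun q => h1 _) (fun q => h2 _)
    exact ⟨W.step (h1 none) (h2 none)⟩

end Tower

end Fermat.Agent.Ribet.H678

end
-- ===== PACK-END Ribet/H678/RChiTower.lean

-- ===== PACK-BEGIN Ribet/H678/TypePrime.lean
section


/-!
# The type ideal of several pivots is prime (helper678)

`Amb O κ g = O⟦v_{q,0..2}, w_{q,0..2} (q ∈ κ), x_1..x_g⟧`; the type ideal is generated by
`v_{q,0}² + v_{q,1} v_{q,2} - δ_q²` and the minors `w_{q,i} v_{q,j} - w_{q,j} v_{q,i}`.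
It is the kernel of the classifying map `Amb → T` to the tower `T` of `R_χ`'s over
`O⟦x_1..x_g⟧`, which is a domain.
-/

set_option autoImplicit false
set_option linter.unusedSectionVars false
set_option linter.style.haveILetI false
set_option linter.unusedSimpArgs false

universe u

namespace Fermat.Agent.Ribet.H678

open MvPowerSeries IsLocalRing Fermat.Agent.S53.H596

section Amb

/-- the ambient power series ring -/
abbrev Amb (O : Type u) [CommRing O] (κ : Type) (g : ℕ) : Type u :=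
  MvPowerSeries ((κ × Fin 6) ⊕ Fin g) O

variable (O : Type u) [CommRing O] {κ : Type} (g : ℕ)

/-- the variable `v_{q,j}` -/
noncomputable def ambV (q : κ) (j : Fin 3) : Amb O κ g :=
  MvPowerSeries.X (Sum.inl (q, Fin.castLE (by norm_num) j))

/-- the variable `w_{q,j}` -/
noncomputable def ambW (q : κ) (j : Fin 3) : Amb O κ g :=
  MvPowerSeries.X (Sum.inl (q, Fin.natAdd 3 j))

/-- the type ideal -/
noncomputable def typeIdealA (δ : κ → O) : Ideal (Amb O κ g) :=
  Ideal.span ({a | ∃ q : κ, a = (ambV O g q 0 ^ 2 + ambV O g q 1 * ambV O g q 2) -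
      MvPowerSeries.C (δ q) ^ 2} ∪
    {a | ∃ (q : κ) (i j : Fin 3), a = ambW O g q i * ambV O g q j - ambW O g q j * ambV O g q i})

end Amb

section Classify

variable {O : Type u} [CommRing O] [IsLocalRing O] {κ : Type} {g : ℕ}
variable {T : Type u} [CommRing T] [IsLocalRing T] [Algebra O T]

/-- the images of the variables in a ring with points `(y, z, v, b, c, u)_q` and elements `x_i` -/
def ambCoord (half : T) (pt : κ → Fin 6 → T) (x : Fin g → T) : (κ × Fin 6) ⊕ Fin g → T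
  | Sum.inl (q, j) => ![half * pt q 2, pt q 0, pt q 1, half * pt q 5, pt q 3, pt q 4] j
  | Sum.inr i => x i

theorem ambCoord_mem (half : T) (pt : κ → Fin 6 → T) (x : Fin g → T)
    (hpt : ∀ q j, pt q j ∈ maximalIdeal T) (hx : ∀ i, x i ∈ maximalIdeal T)
    (i : (κ × Fin 6) ⊕ Fin g) : ambCoord half pt x i ∈ maximalIdeal T := by
  rcases i with ⟨q, j⟩ | i
  · fin_cases j
    · exact Ideal.mul_mem_left _ _ (hpt q 2)
    · exact hpt q 0
    · exact hpt q 1
    · exact Ideal.mul_mem_left _ _ (hpt q 5)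
    · exact hpt q 3
    · exact hpt q 4
  · exact hx i

variable [Finite κ] [IsAdicComplete (maximalIdeal T) T]

/-- the classifying map `Amb → T` -/
noncomputable def ambHom (half : T) (pt : κ → Fin 6 → T) (x : Fin g → T)
    (hpt : ∀ q j, pt q j ∈ maximalIdeal T) (hx : ∀ i, x i ∈ maximalIdeal T) :
    Amb O κ g →ₐ[O] T :=
  evalCNL (maximalIdeal T) (ambCoord half pt x) (ambCoord_mem half pt x hpt hx)

variable (half : T) (pt : κ → Fin 6 → T) (x : Fin g → T)
  (hpt : ∀ q j, pt q j ∈ maximalIdeal T) (hx : ∀ i, x i ∈ maximalIdeal T)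

theorem ambHom_X (i : (κ × Fin 6) ⊕ Fin g) :
    ambHom (O := O) half pt x hpt hx (MvPowerSeries.X i) = ambCoord half pt x i :=
  evalCNL_X _ _ _ i

theorem ambHom_V0 (q : κ) : ambHom (O := O) half pt x hpt hx (ambV O g q 0) = half * pt q 2 :=
  ambHom_X half pt x hpt hx _
theorem ambHom_V1 (q : κ) : ambHom (O := O) half pt x hpt hx (ambV O g q 1) = pt q 0 :=
  ambHom_X half pt x hpt hx _
theorem ambHom_V2 (q : κ) : ambHom (O := O) half pt x hpt hx (ambV O g q 2) = pt q 1 :=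
  ambHom_X half pt x hpt hx _
theorem ambHom_W0 (q : κ) : ambHom (O := O) half pt x hpt hx (ambW O g q 0) = half * pt q 5 :=
  ambHom_X half pt x hpt hx _
theorem ambHom_W1 (q : κ) : ambHom (O := O) half pt x hpt hx (ambW O g q 1) = pt q 3 :=
  ambHom_X half pt x hpt hx _
theorem ambHom_W2 (q : κ) : ambHom (O := O) half pt x hpt hx (ambW O g q 2) = pt q 4 :=
  ambHom_X half pt x hpt hx _

theorem ambHom_C (r : O) :
    ambHom (O := O) half pt x hpt hx (MvPowerSeries.C r) = algebraMap O T r := by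
  rw [c_eq_algebraMap]
  exact AlgHom.commutes _ r

/-- the type ideal dies in every ring with points satisfying the relations -/
theorem typeIdealA_le_ker (δ : κ → O) (hh : 2 * half = 1)
    (rel_v : ∀ q, pt q 2 * pt q 2 = 4 * algebraMap O T (δ q) ^ 2 - 4 * pt q 0 * pt q 1)
    (rel_yc : ∀ q, pt q 0 * pt q 4 = pt q 1 * pt q 3)
    (rel_yu : ∀ q, pt q 0 * pt q 5 = pt q 2 * pt q 3)
    (rel_zu : ∀ q, pt q 1 * pt q 5 = pt q 2 * pt q 4) :
    typeIdealA O g δ ≤ RingHom.ker (ambHom (O := O) half pt x hpt hx) := by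
  rw [typeIdealA, Ideal.span_le]
  rintro a (⟨q, rfl⟩ | ⟨q, i, j, rfl⟩)
  · rw [SetLike.mem_coe, RingHom.mem_ker, map_sub, map_add, map_pow, map_mul, map_pow, ambHom_V0,
      ambHom_V1, ambHom_V2, ambHom_C]
    linear_combination half ^ 2 * rel_v q +
      (algebraMap O T (δ q) ^ 2 - pt q 0 * pt q 1) * (2 * half + 1) * hh
  · rw [SetLike.mem_coe, RingHom.mem_ker, map_sub, map_mul, map_mul]
    fin_cases i <;> fin_cases j <;>
      simp only [Fin.zero_eta, Fin.mk_one, Fin.reduceFinMk, ambHom_V0, ambHom_V1, ambHom_V2,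
        ambHom_W0, ambHom_W1, ambHom_W2] <;>
      first
        | ring1
        | linear_combination half * rel_yu q
        | linear_combination (-half) * rel_yu q
        | linear_combination half * rel_zu q
        | linear_combination (-half) * rel_zu q
        | linear_combination rel_yc q
        | linear_combination -rel_yc q

end Classify

section Quot

variable {O : Type u} [CommRing O] [IsLocalRing O] {κ : Type} [Finite κ] {g : ℕ}

theorem typeIdealA_le_maximalIdeal (δ : κ → O) (hδ : ∀ q, δ q ∈ maximalIdeal O) :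
    typeIdealA O g δ ≤ maximalIdeal (Amb O κ g) := by
  rw [typeIdealA, Ideal.span_le]
  rintro a (⟨q, rfl⟩ | ⟨q, i, j, rfl⟩)
  · refine Ideal.sub_mem _ (Ideal.add_mem _ ?_ ?_) ?_
    · rw [pow_two]
      exact Ideal.mul_mem_left _ _ (X_mem_maximalIdeal_mvPowerSeries _)
    · exact Ideal.mul_mem_left _ _ (X_mem_maximalIdeal_mvPowerSeries _)
    · rw [pow_two]
      exact Ideal.mul_mem_left _ _ (C_mem_maximalIdeal_mvPowerSeries (hδ q))
  · exact Ideal.sub_mem _ (Ideal.mul_mem_left _ _ (X_mem_maximalIdeal_mvPowerSeries _))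
      (Ideal.mul_mem_left _ _ (X_mem_maximalIdeal_mvPowerSeries _))

theorem typeIdealA_ne_top (δ : κ → O) (hδ : ∀ q, δ q ∈ maximalIdeal O) :
    typeIdealA O g δ ≠ ⊤ := by
  intro h
  have := typeIdealA_le_maximalIdeal (g := g) δ hδ
  rw [h, top_le_iff] at this
  exact (maximalIdeal.isMaximal (Amb O κ g)).ne_top this

theorem typeIdealA_relQ (δ : κ → O) (q : κ) :
    Ideal.Quotient.mk (typeIdealA O g δ) (ambV O g q 0) ^ 2 +
      Ideal.Quotient.mk (typeIdealA O g δ) (ambV O g q 1) *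
        Ideal.Quotient.mk (typeIdealA O g δ) (ambV O g q 2) =
      Ideal.Quotient.mk (typeIdealA O g δ) (MvPowerSeries.C (δ q)) ^ 2 := by
  rw [← sub_eq_zero, ← map_pow, ← map_mul, ← map_add, ← map_pow, ← map_sub,
    Ideal.Quotient.eq_zero_iff_mem]
  exact Ideal.subset_span (Or.inl ⟨q, rfl⟩)

theorem typeIdealA_relM (δ : κ → O) (q : κ) (i j : Fin 3) :
    Ideal.Quotient.mk (typeIdealA O g δ) (ambW O g q i) *
        Ideal.Quotient.mk (typeIdealA O g δ) (ambV O g q j) =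
      Ideal.Quotient.mk (typeIdealA O g δ) (ambW O g q j) *
        Ideal.Quotient.mk (typeIdealA O g δ) (ambV O g q i) := by
  rw [← sub_eq_zero, ← map_mul, ← map_mul, ← map_sub, Ideal.Quotient.eq_zero_iff_mem]
  exact Ideal.subset_span (Or.inr ⟨q, i, j, rfl⟩)

end Quot

section Kernel

variable {O : Type u} [CommRing O] [IsLocalRing O] {σ : Type} [Finite σ]
variable {T : Type u} [CommRing T] [Algebra O T]

/-- kernel criterion: if `θ : O⟦X⟧ → T` kills `I` and has a retraction `T → O⟦X⟧ ⧸ I` on the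
variables, then `ker θ = I`. -/
theorem ker_eq_of_retraction (θ : MvPowerSeries σ O →ₐ[O] T) (I : Ideal (MvPowerSeries σ O))
    (hI : I ≤ RingHom.ker θ) (J : Ideal (MvPowerSeries σ O ⧸ I))
    (hH : IsHausdorff J (MvPowerSeries σ O ⧸ I))
    (hJ : ∀ i, Ideal.Quotient.mk I (MvPowerSeries.X i) ∈ J)
    (ρ : T →+* MvPowerSeries σ O ⧸ I)
    (hρ : ∀ r : O, ρ (algebraMap O T r) = algebraMap O (MvPowerSeries σ O ⧸ I) r)
    (hX : ∀ i, ρ (θ (MvPowerSeries.X i)) = Ideal.Quotient.mk I (MvPowerSeries.X i)) :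
    RingHom.ker θ = I := by
  refine le_antisymm ?_ hI
  let f₁ : MvPowerSeries σ O →ₐ[O] MvPowerSeries σ O ⧸ I :=
    { ρ.comp (θ : MvPowerSeries σ O →+* T) with
      commutes' := fun r => by
        show ρ (θ (algebraMap O _ r)) = _
        rw [AlgHom.commutes, hρ] }
  have h12 : f₁ = Ideal.Quotient.mkₐ O I := by
    haveI := hH
    apply algHom_ext_of_X J
    · intro i
      show ρ (θ (MvPowerSeries.X i)) ∈ _
      rw [hX]
      exact hJ i
    · intro i
      exact hX i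
  intro a ha
  rw [RingHom.mem_ker] at ha
  have h1 : f₁ a = 0 := by
    show ρ (θ a) = 0
    rw [ha, map_zero]
  rw [h12] at h1
  exact Ideal.Quotient.eq_zero_iff_mem.1 h1

end Kernel

section Main

variable {O : Type u} [CommRing O] [IsLocalRing O] [IsNoetherianRing O]
  [IsAdicComplete (maximalIdeal O) O] {κ : Type} [Finite κ] {g : ℕ}

/-- the point of the quotient `Amb ⧸ typeIdeal` at the pivot `q`, over any base ring `O'` whose
structure map is compatible with `c` -/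
noncomputable def quotPoint {O' : Type u} [CommRing O'] [IsLocalRing O'] (P' : ChiDatum O')
    (δ : κ → O) (hδ : ∀ q, δ q ∈ maximalIdeal O) (q : κ)
    (inst : Algebra O' (Amb O κ g ⧸ typeIdealA O g δ))
    (hc : algebraMap O' (Amb O κ g ⧸ typeIdealA O g δ) P'.c =
      4 * Ideal.Quotient.mk (typeIdealA O g δ) (MvPowerSeries.C (δ q)) ^ 2) :
    letI := isLocalRing_quotient (typeIdealA O g δ) (typeIdealA_ne_top δ hδ)
    ChiPoint P' (Amb O κ g ⧸ typeIdealA O g δ) :=
  letI := isLocalRing_quotient (typeIdealA O g δ) (typeIdealA_ne_top δ hδ)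
  haveI := isLocalHom_quotient_mk (typeIdealA O g δ) (typeIdealA_ne_top δ hδ)
  have hm : ∀ i, Ideal.Quotient.mk (typeIdealA O g δ) (MvPowerSeries.X i) ∈
      maximalIdeal (Amb O κ g ⧸ typeIdealA O g δ) := fun i hu =>
    X_mem_maximalIdeal_mvPowerSeries i (isUnit_of_map_unit (Ideal.Quotient.mk _) _ hu)
  { y := Ideal.Quotient.mk _ (ambV O g q 1)
    z := Ideal.Quotient.mk _ (ambV O g q 2)
    v := 2 * Ideal.Quotient.mk _ (ambV O g q 0)
    b := Ideal.Quotient.mk _ (ambW O g q 1)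
    c := Ideal.Quotient.mk _ (ambW O g q 2)
    u := 2 * Ideal.Quotient.mk _ (ambW O g q 0)
    hy := hm _
    hz := hm _
    hb := hm _
    hc := hm _
    hu := Ideal.mul_mem_left _ _ (hm _)
    rel_v := by
      rw [hc]
      linear_combination 4 * typeIdealA_relQ (g := g) δ q
    rel_yc := by
      linear_combination -typeIdealA_relM (g := g) δ q 1 2
    rel_yu := by
      linear_combination 2 * typeIdealA_relM (g := g) δ q 0 1
    rel_zu := by
      linear_combination 2 * typeIdealA_relM (g := g) δ q 0 2 }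

theorem mem_maximalIdeal_of_four_mul_sq (half : O) (hh : 2 * half = 1) (d : O)
    (h : 4 * d ^ 2 ∈ maximalIdeal O) : d ∈ maximalIdeal O := by
  have h4 : IsUnit (4 : O) := by
    refine IsUnit.of_mul_eq_one (half * half) ?_
    linear_combination (2 * half + 1) * hh
  have h2 : d ^ 2 ∈ maximalIdeal O := (Ideal.unit_mul_mem_iff_mem _ h4).1 h
  exact (maximalIdeal.isMaximal O).isPrime.mem_of_pow_mem 2 h2

/-- **The type ideal of several pivots is prime.** -/
theorem typeIdealA_isPrime {lam : O} (hgood : GoodEmb O lam) (half : O) (hh : 2 * half = 1)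
    (P : κ → ChiDatum O) (δ : κ → O) (hc : ∀ q, (P q).c = 4 * δ q ^ 2)
    (hlam : ∀ q, lam ∣ δ q) (hc0 : ∀ q, (P q).c ≠ 0) :
    (typeIdealA O g δ).IsPrime := by
  classical
  have hδm : ∀ q, δ q ∈ maximalIdeal O := fun q =>
    mem_maximalIdeal_of_four_mul_sq half hh _ (hc q ▸ (P q).c_mem)
  -- the base ring `O' = O⟦x⟧`
  haveI hcompl : IsAdicComplete (maximalIdeal (MvPowerSeries (Fin g) O))
      (MvPowerSeries (Fin g) O) := isAdicComplete_mvPowerSeries
  let P' : κ → ChiDatum (MvPowerSeries (Fin g) O) := fun q =>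
    (P q).map (C : O →+* MvPowerSeries (Fin g) O) (fun x hx => C_mem_maximalIdeal_mvPowerSeries hx)
  have hP'c : ∀ q, (P' q).c = C ((P q).c) := fun q => ChiDatum.map_c _ _ _
  obtain ⟨W⟩ := exists_chiTower (hgood.mvPowerSeries (Fin g)) κ P'
    (fun q => by
      rw [hP'c, hc]
      exact map_dvd C (Dvd.dvd.mul_left (Dvd.dvd.pow (hlam q) two_ne_zero) 4))
    (fun q => by
      rw [hP'c]
      intro h
      apply hc0 q
      have := congrArg (constantCoeff (σ := Fin g) (R := O)) h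
      simpa using this)
  haveI := W.good.isDomain
  -- the `O`-algebra structure of the tower
  letI algOT : Algebra O W.T :=
    ((algebraMap (MvPowerSeries (Fin g) O) W.T).comp
      (C : O →+* MvPowerSeries (Fin g) O)).toAlgebra
  have hhT : 2 * algebraMap O W.T half = 1 := by
    rw [← map_ofNat (algebraMap O W.T) 2, ← map_mul, hh, map_one]
  have hpt : ∀ q j, (W.pt q).coords j ∈ maximalIdeal W.T := fun q j =>
    (W.pt q).coords_mem W.map_mem j
  have hxs : ∀ i : Fin g, algebraMap (MvPowerSeries (Fin g) O) W.T (X i) ∈ maximalIdeal W.T :=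
    fun i => W.map_mem _ (X_mem_maximalIdeal_mvPowerSeries i)
  have hle : typeIdealA O g δ ≤ RingHom.ker (ambHom (O := O) (algebraMap O W.T half)
      (fun q => (W.pt q).coords) (fun i => algebraMap (MvPowerSeries (Fin g) O) W.T (X i))
      hpt hxs) := by
    refine typeIdealA_le_ker _ _ _ hpt hxs δ hhT ?_ (fun q => (W.pt q).rel_yc)
      (fun q => (W.pt q).rel_yu) (fun q => (W.pt q).rel_zu)
    intro q
    have h1 := (W.pt q).rel_v
    rw [hP'c, hc] at h1
    have h2 : algebraMap (MvPowerSeries (Fin g) O) W.T (C (4 * δ q ^ 2)) =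
        4 * algebraMap O W.T (δ q) ^ 2 := by
      have : algebraMap (MvPowerSeries (Fin g) O) W.T (C (4 * δ q ^ 2)) =
          algebraMap O W.T (4 * δ q ^ 2) := rfl
      rw [this, map_mul, map_pow, map_ofNat]
    rw [h2] at h1
    exact h1
  -- the quotient
  have hne := typeIdealA_ne_top (g := g) δ hδm
  letI locA := isLocalRing_quotient (typeIdealA O g δ) hne
  haveI : IsAdicComplete (maximalIdeal (Amb O κ g)) (Amb O κ g) := isAdicComplete_mvPowerSeries
  haveI complA := isAdicComplete_quotient (typeIdealA O g δ) hne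
  haveI := isLocalHom_quotient_mk (typeIdealA O g δ) hne
  have hmX : ∀ i, Ideal.Quotient.mk (typeIdealA O g δ) (MvPowerSeries.X i) ∈
      maximalIdeal (Amb O κ g ⧸ typeIdealA O g δ) := fun i hu =>
    X_mem_maximalIdeal_mvPowerSeries i (isUnit_of_map_unit (Ideal.Quotient.mk _) _ hu)
  let φ₀ : MvPowerSeries (Fin g) O →ₐ[O] (Amb O κ g ⧸ typeIdealA O g δ) :=
    evalCNL (maximalIdeal (Amb O κ g ⧸ typeIdealA O g δ))
      (fun i => Ideal.Quotient.mk (typeIdealA O g δ) (MvPowerSeries.X (Sum.inr i)))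
      (fun i => hmX _)
  letI algO'A : Algebra (MvPowerSeries (Fin g) O) (Amb O κ g ⧸ typeIdealA O g δ) :=
    φ₀.toRingHom.toAlgebra
  have hφC : ∀ r : O, algebraMap (MvPowerSeries (Fin g) O) (Amb O κ g ⧸ typeIdealA O g δ) (C r) =
      algebraMap O (Amb O κ g ⧸ typeIdealA O g δ) r := fun r => by
    show φ₀ (C r) = _
    rw [c_eq_algebraMap]
    exact φ₀.commutes r
  have hφX : ∀ i : Fin g,
      algebraMap (MvPowerSeries (Fin g) O) (Amb O κ g ⧸ typeIdealA O g δ) (X i) =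
        Ideal.Quotient.mk (typeIdealA O g δ) (MvPowerSeries.X (Sum.inr i)) := fun i =>
    evalCNL_X _ _ _ i
  have hmkC : ∀ r : O, algebraMap O (Amb O κ g ⧸ typeIdealA O g δ) r =
      Ideal.Quotient.mk (typeIdealA O g δ) (C r) := fun r => rfl
  let pts : ∀ q, ChiPoint (P' q) (Amb O κ g ⧸ typeIdealA O g δ) := fun q =>
    quotPoint (P' q) δ hδm q algO'A (by
      rw [hP'c, hφC, hc, hmkC]
      simp only [map_mul, map_pow, map_ofNat])
  have hpts : ∀ q j, (pts q).coords j =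
      ![Ideal.Quotient.mk (typeIdealA O g δ) (ambV O g q 1),
        Ideal.Quotient.mk (typeIdealA O g δ) (ambV O g q 2),
        2 * Ideal.Quotient.mk (typeIdealA O g δ) (ambV O g q 0),
        Ideal.Quotient.mk (typeIdealA O g δ) (ambW O g q 1),
        Ideal.Quotient.mk (typeIdealA O g δ) (ambW O g q 2),
        2 * Ideal.Quotient.mk (typeIdealA O g δ) (ambW O g q 0)] j := fun q j => rfl
  -- the retraction
  have hker := ker_eq_of_retraction (ambHom (O := O) (algebraMap O W.T half)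
      (fun q => (W.pt q).coords) (fun i => algebraMap (MvPowerSeries (Fin g) O) W.T (X i))
      hpt hxs) (typeIdealA O g δ) hle (maximalIdeal (Amb O κ g ⧸ typeIdealA O g δ))
    inferInstance hmX (W.lift _ pts).toRingHom
    (fun r => by
      have h1 : algebraMap O W.T r = algebraMap (MvPowerSeries (Fin g) O) W.T (C r) := rfl
      show (W.lift _ pts) (algebraMap O W.T r) = _
      rw [h1, AlgHom.commutes, hφC])
    (fun i => by
      show (W.lift _ pts) (ambHom (O := O) (algebraMap O W.T half)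
        (fun q => (W.pt q).coords) (fun i => algebraMap (MvPowerSeries (Fin g) O) W.T (X i))
        hpt hxs (MvPowerSeries.X i)) = _
      rw [ambHom_X]
      have hhA : 2 * algebraMap O (Amb O κ g ⧸ typeIdealA O g δ) half = 1 := by
        rw [← map_ofNat (algebraMap O (Amb O κ g ⧸ typeIdealA O g δ)) 2, ← map_mul, hh, map_one]
      have hhalf : (W.lift _ pts) (algebraMap O W.T half) =
          algebraMap O (Amb O κ g ⧸ typeIdealA O g δ) half := by
        have h1 : algebraMap O W.T half = algebraMap (MvPowerSeries (Fin g) O) W.T (C half) := rfl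
        rw [h1, AlgHom.commutes, hφC]
      rcases i with ⟨q, j⟩ | k
      · fin_cases j
        · show (W.lift _ pts) (algebraMap O W.T half * (W.pt q).coords 2) = _
          rw [map_mul, hhalf, W.lift_pt _ pts q 2, hpts]
          show algebraMap O _ half * (2 * Ideal.Quotient.mk _ (ambV O g q 0)) = _
          rw [← mul_assoc, mul_comm _ 2, hhA, one_mul]
          rfl
        · show (W.lift _ pts) ((W.pt q).coords 0) = _
          rw [W.lift_pt _ pts q 0, hpts]
          rfl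
        · show (W.lift _ pts) ((W.pt q).coords 1) = _
          rw [W.lift_pt _ pts q 1, hpts]
          rfl
        · show (W.lift _ pts) (algebraMap O W.T half * (W.pt q).coords 5) = _
          rw [map_mul, hhalf, W.lift_pt _ pts q 5, hpts]
          show algebraMap O _ half * (2 * Ideal.Quotient.mk _ (ambW O g q 0)) = _
          rw [← mul_assoc, mul_comm _ 2, hhA, one_mul]
          rfl
        · show (W.lift _ pts) ((W.pt q).coords 3) = _
          rw [W.lift_pt _ pts q 3, hpts]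
          rfl
        · show (W.lift _ pts) ((W.pt q).coords 4) = _
          rw [W.lift_pt _ pts q 4, hpts]
          rfl
      · show (W.lift _ pts) (algebraMap (MvPowerSeries (Fin g) O) W.T (X k)) = _
        rw [AlgHom.commutes, hφX])
  rw [← hker]
  exact RingHom.ker_isPrime _

end Main

end Fermat.Agent.Ribet.H678

end
-- ===== PACK-END Ribet/H678/TypePrime.lean

-- ===== PACK-BEGIN Ribet/H678/LocPrime.lean
section



/-!
# LOC-PRIME of row HARD, verbatim (helper678)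

`iaLocPrime : Fermat.Agent.S38.IA.IALocPrimeStatement`: the type ideal of a vector of type values
at several pivots is prime.  Proof: `typeIdealA_isPrime` (tower of `R_χ`'s over `𝒪⟦x⟧`).
-/

set_option autoImplicit false
set_option linter.unusedSectionVars false
set_option linter.style.haveILetI false
set_option linter.unusedSimpArgs false

namespace Fermat.Agent.Ribet.H678

open IsLocalRing Fermat.Agent.S38.IA

section TypeValue

variable {𝒪 : Type} [CommRing 𝒪] [IsLocalRing 𝒪]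

/-- `2` is a unit when the odd prime `p` is not. -/
theorem isUnit_two_of_odd_prime {p : ℕ} (hp : p.Prime) (hp2 : p ≠ 2)
    (hp𝒪 : (p : 𝒪) ∈ maximalIdeal 𝒪) : IsUnit (2 : 𝒪) := by
  by_contra h2
  have h2' : (2 : 𝒪) ∈ maximalIdeal 𝒪 := h2
  obtain ⟨k, hk⟩ := hp.odd_of_ne_two hp2
  have h1 : (1 : 𝒪) ∈ maximalIdeal 𝒪 := by
    have e : (1 : 𝒪) = (p : 𝒪) - 2 * (k : 𝒪) := by
      rw [hk]
      push_cast
      ring
    rw [e]
    exact Ideal.sub_mem _ hp𝒪 (Ideal.mul_mem_right _ _ h2')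
  exact (maximalIdeal.isMaximal 𝒪).ne_top ((Ideal.eq_top_iff_one _).2 h1)

/-- a root of unity of `p`-power order is `≡ 1` -/
theorem sub_one_mem_of_pow_prime_pow {p : ℕ} (hp : p.Prime) (hp𝒪 : (p : 𝒪) ∈ maximalIdeal 𝒪)
    {ζ : 𝒪} {m : ℕ} (hζ : ζ ^ p ^ m = 1) : ζ - 1 ∈ maximalIdeal 𝒪 := by
  obtain ⟨r, hr⟩ := exists_add_pow_prime_pow_eq hp (ζ - 1) 1 m
  rw [sub_add_cancel, hζ, one_pow] at hr
  have h1 : (ζ - 1) ^ p ^ m = -((p : 𝒪) * (ζ - 1) * 1 * r) := by linear_combination -hr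
  have h2 : (ζ - 1) ^ p ^ m ∈ maximalIdeal 𝒪 := by
    rw [h1, neg_mem_iff, mul_assoc, mul_assoc]
    exact Ideal.mul_mem_right _ _ hp𝒪
  exact (maximalIdeal.isMaximal 𝒪).isPrime.mem_of_pow_mem _ h2

/-- the datum of a type value -/
theorem exists_chiDatum_of_isTypeValue [IsDomain 𝒪] [CharZero 𝒪] {p : ℕ} (hp : p.Prime)
    (hp2 : p ≠ 2) (hp𝒪 : (p : 𝒪) ∈ maximalIdeal 𝒪) (half : 𝒪) (hh : 2 * half = 1) {q : ℕ}
    {δ : 𝒪} (hδ : IsTypeValue p q δ) :
    ∃ P : ChiDatum 𝒪, P.c = 4 * δ ^ 2 ∧ P.c ≠ 0 := by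
  obtain ⟨ζ, hζ1, ⟨m, hζm⟩, -, hζδ⟩ := hδ
  have hpm : 0 < p ^ m := pow_pos hp.pos m
  set ζ' : 𝒪 := ζ ^ (p ^ m - 1) with hζ'
  have hinv : ζ * ζ' = 1 := by
    rw [hζ', ← pow_succ', Nat.sub_add_cancel hpm, hζm]
  have h2δ : 2 * δ = ζ - ζ' := by
    linear_combination ζ' * hζδ + (-(2 * δ) + ζ) * hinv
  have hmem := sub_one_mem_of_pow_prime_pow hp hp𝒪 hζm
  refine ⟨{ half := half
            two_half := hh
            eps := 1
            epsInv := 1
            eps_inv := one_mul 1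
            T := ζ + ζ'
            hT := ?_ }, ?_, ?_⟩
  · have e : ζ + ζ' - 2 = ζ' * (ζ - 1) * (ζ - 1) := by
      linear_combination (2 - ζ) * hinv
    rw [e]
    exact Ideal.mul_mem_left _ _ hmem
  · show (ζ + ζ') ^ 2 - 4 = 4 * δ ^ 2
    linear_combination (4 : 𝒪) * hinv - (2 * δ + ζ - ζ') * h2δ
  · show (ζ + ζ') ^ 2 - 4 ≠ 0
    have e : (ζ + ζ') ^ 2 - 4 = (2 * δ) ^ 2 := by
      linear_combination (4 : 𝒪) * hinv - (2 * δ + ζ - ζ') * h2δ
    rw [e]
    apply pow_ne_zero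
    -- `2 δ ζ = ζ² - 1 ≠ 0`
    intro h0
    have hz2 : ζ ^ 2 = 1 := by linear_combination -hζδ + ζ * h0
    obtain ⟨k, hk⟩ := (hp.odd_of_ne_two hp2).pow (n := m)
    apply hζ1
    have : ζ ^ p ^ m = ζ := by
      rw [hk, pow_succ, pow_mul, hz2, one_pow, one_mul]
    rw [← this, hζm]

end TypeValue

/-- **LOC-PRIME, verbatim.** -/
theorem iaLocPrime : IALocPrimeStatement := by
  intro p hpF hp2 𝒪 _ _ _ _ _ hp𝒪 Piv _hPiv g δ hδ
  classical
  have hp : p.Prime := hpF.out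
  obtain ⟨half, hh⟩ := (isUnit_two_of_odd_prime hp hp2 hp𝒪).exists_right_inv
  obtain ⟨ϖ, hϖ⟩ := IsDiscreteValuationRing.exists_irreducible 𝒪
  have hϖp : Prime ϖ := hϖ.prime
  have hex : ∀ q : Piv, ∃ P : ChiDatum 𝒪, P.c = 4 * δ q ^ 2 ∧ P.c ≠ 0 := fun q =>
    exists_chiDatum_of_isTypeValue hp hp2 hp𝒪 half hh (hδ q)
  choose P hPc hP0 using hex
  have hlam : ∀ q : Piv, ϖ ∣ δ q := by
    intro q
    have h1 : δ q ∈ maximalIdeal 𝒪 :=
      mem_maximalIdeal_of_four_mul_sq half hh _ (hPc q ▸ (P q).c_mem)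
    rw [hϖ.maximalIdeal_eq, Ideal.mem_span_singleton] at h1
    exact h1
  exact typeIdealA_isPrime (O := 𝒪) (κ := Piv) (g := g) (GoodEmb.of_prime hϖp) half hh P δ hPc
    hlam hP0

end Fermat.Agent.Ribet.H678

end
-- ===== PACK-END Ribet/H678/LocPrime.lean

-- ===== PACK-BEGIN Ribet/H678/LocComp.lean
section



/-!
# LOC-COMP of row HARD, verbatim (helper678)

`iaLocComp : Fermat.Agent.S38.IA.IALocCompStatement`, with `𝔓 = typeIdeal δ` (which is prime:
`iaLocPrime`).
-/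

set_option autoImplicit false

namespace Fermat.Agent.Ribet.H678

/-- **LOC-COMP, verbatim.** -/
theorem iaLocComp : Fermat.Agent.S38.IA.IALocCompStatement :=
  Fermat.Agent.S38.IA.iaLocComp_of_prime iaLocPrime

end Fermat.Agent.Ribet.H678

end
-- ===== PACK-END Ribet/H678/LocComp.lean

-- ===== PACK-BEGIN S38/IA/AsmWired.lean
section










/-!
# Row HARD: the assembly with all closed leaves wired in   (helper995)

`iaCore_of_open_leaves : IALocCompStatement → IAGalStatement → IAHeckeStatement →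
  IACoreStatement`.

Closed leaves used: frozen S53 (`Fermat.Agent.S53.result`), frozen S54
(`Fermat.Agent.S54.result`), COND (`S59.H659.sigmaCondStatement`), BRIDGE-1/2/3
(`S38.IA.H607.iaBridge*`, helper607), LOC-DIM (`S38.H506.iaLocDim`, helper506).
`iaCore_of_gal_hecke : IAGalStatement → IAHeckeStatement → IACoreStatement` uses in addition
LOC-COMP (`Ribet.H678.iaLocComp`, helper678: the type ideal of several pivots is prime).
Open leaves: GAL (cell GAL), HECKE (the mountain).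
-/

set_option autoImplicit false

namespace Fermat.Agent.S38.IA

open Fermat.Agent.S59.Arch Fermat.Agent.S59.TW.H959

/-- The frozen S53 in `Prop` form. -/
theorem defRingExists_h995 : DefRingExistsStatement :=
  fun 𝒪 _ _ _ _ _ ρbar 𝒟 habs h𝒟 hbar hfin =>
    Fermat.Agent.S53.result 𝒪 ρbar 𝒟 habs h𝒟 hbar hfin

/-- The frozen S54 in `Prop` form. -/
theorem rToT_h995 : RToTStatement :=
  fun D _ _ _ _ _ _ _ _ _ _ _ _ _ H hS h𝒟 hres => Fermat.Agent.S54.result D H hS h𝒟 hres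

/-- **Row HARD with all closed leaves wired in**: three open leaves remain. -/
theorem iaCore_of_open_leaves (hComp : IALocCompStatement) (hGal : IAGalStatement)
    (hHecke : IAHeckeStatement) : IACoreStatement :=
  iaCore_of_leaves defRingExists_h995 Fermat.Agent.S59.H659.sigmaCondStatement rToT_h995
    H607.iaBridgeIdeal H607.iaBridge H607.iaBridgeBase hComp Fermat.Agent.S38.H506.iaLocDim
    hGal hHecke

/-- **Row HARD with the whole local cell wired in**: only GAL and HECKE remain. -/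
theorem iaCore_of_gal_hecke (hGal : IAGalStatement) (hHecke : IAHeckeStatement) :
    IACoreStatement :=
  iaCore_of_open_leaves Fermat.Agent.Ribet.H678.iaLocComp hGal hHecke

/-- **Row HARD for `5 ≤ p`** (the form consumed by the TOP glue of S43): only GAL and the
Hecke side for `5 ≤ p` (`Hecke.IAHecke5Statement`, helper3) remain. -/
theorem iaCore5_of_gal_hecke5 (hGal : IAGalStatement) (hHecke5 : Hecke.IAHecke5Statement) :
    IACore5Statement := by
  intro p _ hp5 𝒪 _ _ _ _ _ _ ρbar Smin h hflat Piv hPiv hne hroots hmod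
  exact iaCore_at defRingExists_h995 Fermat.Agent.S59.H659.sigmaCondStatement rToT_h995
    H607.iaBridgeIdeal H607.iaBridge H607.iaBridgeBase Fermat.Agent.Ribet.H678.iaLocComp
    Fermat.Agent.S38.H506.iaLocDim hGal p 𝒪 ρbar Smin h hflat Piv hPiv hne hroots
    (fun ζ hζ hmin => hHecke5 p hp5 𝒪 ρbar Smin h hflat ζ hζ Piv hPiv hmod hmin)

end Fermat.Agent.S38.IA

end
-- ===== PACK-END S38/IA/AsmWired.lean

-- ===== PACK-BEGIN S38/H483/IARank.lean
section


/-!
# Row HARD, cell HECKE, layer 3, algebra leaf IA-RANK (helper483)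

`iaRank483 : IARankStatement` VERBATIM.  If `V` has an `𝒪`-basis `ρ(γ e) b_i` (`i < d'`,
`e ∈ E`) permuted by the action `ρ` of `D`, and `π : V → V₀` is onto with kernel the augmentation
submodule, then the `π (b i)` form a basis of `V₀`, so `d' = d` for any basis of `V₀` indexed by
`Fin d`.
-/

set_option autoImplicit false

namespace Fermat.Agent.S38.H483

open Fermat.Agent.S38.IA.Hecke

theorem iaRank483 : IARankStatement := by
  intro 𝒪 _ _ V V₀ _ _ _ _ D _ ρ E _ γ hperm hone d' b hb π hsurj hker d hd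
  classical
  obtain ⟨e₀, he₀⟩ := hone
  -- the parametrisation `Φ`
  let Φ : (Fin d' → E → 𝒪) →ₗ[𝒪] V :=
    { toFun := fun c => ∑ i, ∑ e, c i e • ρ (γ e) (b i)
      map_add' := fun c c' => by
        simp only [Pi.add_apply, add_smul, Finset.sum_add_distrib]
      map_smul' := fun t c => by
        simp only [Pi.smul_apply, smul_eq_mul, mul_smul, Finset.smul_sum, RingHom.id_apply] }
  have hΦ : ∀ c, Φ c = ∑ i, ∑ e, c i e • ρ (γ e) (b i) := fun _ => rfl
  have hΦbij : Function.Bijective Φ := by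
    constructor
    · intro c c' hcc
      obtain ⟨c₀, -, huniq⟩ := hb (Φ c)
      rw [huniq c (hΦ c), huniq c' (by rw [hcc]; exact hΦ c')]
    · intro y
      obtain ⟨c, hc, -⟩ := hb y
      exact ⟨c, hc.symm⟩
  -- `π` kills the augmentation
  have hπaug : ∀ (a : D) (y : V), π (ρ a y) = π y := by
    intro a y
    have h1 : π (ρ a y - y) = 0 :=
      (hker _).mpr (AddSubgroup.subset_closure ⟨a, y, rfl⟩)
    rwa [map_sub, sub_eq_zero] at h1
  -- the augmentation functional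
  let ε : (Fin d' → E → 𝒪) →+ (Fin d' → 𝒪) :=
    { toFun := fun c i => ∑ e, c i e
      map_zero' := by ext i; simp
      map_add' := fun c c' => by ext i; simp [Finset.sum_add_distrib] }
  have hε : ∀ c i, ε c i = ∑ e, c i e := fun _ _ => rfl
  let Ψ := LinearEquiv.ofBijective Φ hΦbij
  have hΨ : ∀ c, Ψ c = Φ c := fun _ => rfl
  let εV : V →+ (Fin d' → 𝒪) := ε.comp (Ψ.symm : V →ₗ[𝒪] (Fin d' → E → 𝒪)).toAddMonoidHom
  have hεV : ∀ c, εV (Φ c) = ε c := by
    intro c
    change ε (Ψ.symm (Φ c)) = ε c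
    rw [← hΨ, LinearEquiv.symm_apply_apply]
  -- `ρ a` preserves the augmentation functional
  have hερ : ∀ (a : D) (y : V), εV (ρ a y) = εV y := by
    intro a y
    obtain ⟨c, rfl⟩ := hΦbij.2 y
    choose σ hσ using hperm a
    have h1 : ρ a (Φ c) = Φ (fun i e'' => ∑ e, if σ e = e'' then c i e else 0) := by
      rw [hΦ, hΦ, map_sum]
      refine Finset.sum_congr rfl fun i _ => ?_
      rw [map_sum]
      have h2 : ∀ e, ρ a (c i e • ρ (γ e) (b i)) = c i e • ρ (γ (σ e)) (b i) := by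
        intro e
        rw [map_smul, ← hσ e, map_mul]
        rfl
      simp only [h2, Finset.sum_smul, ite_smul, zero_smul]
      rw [Finset.sum_comm]
      refine Finset.sum_congr rfl fun e _ => ?_
      rw [Finset.sum_ite_eq]
      simp
    rw [h1, hεV, hεV]
    ext i
    rw [hε, hε, Finset.sum_comm]
    refine Finset.sum_congr rfl fun e _ => ?_
    rw [Finset.sum_ite_eq]
    simp
  have hεaug : ∀ y : V, π y = 0 → εV y = 0 := by
    intro y hy
    have h1 := (hker y).mp hy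
    have h2 : AddSubgroup.closure {z : V | ∃ (a : D) (y' : V), z = ρ a y' - y'} ≤ εV.ker := by
      rw [AddSubgroup.closure_le]
      rintro z ⟨a, y', rfl⟩
      change εV (ρ a y' - y') = 0
      rw [map_sub, hερ, sub_self]
    exact h2 h1
  -- the images `π (b i)` form a basis
  have hbΦ : ∀ g : Fin d' → 𝒪, ∑ i, g i • b i = Φ (fun i e => if e = e₀ then g i else 0) := by
    intro g
    rw [hΦ]
    refine Finset.sum_congr rfl fun i _ => ?_
    simp only [ite_smul, zero_smul]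
    rw [Finset.sum_ite_eq']
    simp [he₀]
  have hli : LinearIndependent 𝒪 (fun i => π (b i)) := by
    rw [Fintype.linearIndependent_iff]
    intro g hg i
    have h1 : π (∑ j, g j • b j) = 0 := by
      rw [map_sum]
      simpa only [map_smul] using hg
    have h2 := hεaug _ h1
    rw [hbΦ, hεV] at h2
    have h3 := congrFun h2 i
    rw [hε] at h3
    simpa using h3
  have hsp : ⊤ ≤ Submodule.span 𝒪 (Set.range fun i => π (b i)) := by
    intro v _
    obtain ⟨y, rfl⟩ := hsurj v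
    obtain ⟨c, rfl⟩ := hΦbij.2 y
    rw [hΦ, map_sum]
    refine Submodule.sum_mem _ fun i _ => ?_
    rw [map_sum]
    refine Submodule.sum_mem _ fun e _ => ?_
    rw [map_smul, hπaug]
    exact Submodule.smul_mem _ _ (Submodule.subset_span ⟨i, rfl⟩)
  obtain ⟨B₀⟩ := hd
  have B : Module.Basis (Fin d') 𝒪 V₀ := Module.Basis.mk hli hsp
  have h := Fintype.card_congr (B.indexEquiv B₀)
  simpa using h

end Fermat.Agent.S38.H483

end
-- ===== PACK-END S38/H483/IARank.lean

-- ===== PACK-BEGIN S38/H483/IANontriv.lean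
section




/-!
# Row HARD, cell HECKE, layer 3, leaf IA-NONTRIV (helper483)

`iaNontriv483 : IANontrivStatement` VERBATIM: the localisation `V₀` of `X_{Γ₀(L)}(𝒪)`,
`L = ribetLevel p Smin Piv`, at the maximal ideal of `θ₀` is free of positive rank over `𝒪`.

* free of finite rank: a submodule of `Hom(Γ₀(L), 𝒪)` (`MFree.H761.finite_free_submodule`);
* nonzero: the occurrence lemma of helper581 (`h581_exists_occ`, any level, any character) and
  the fullness clause of `IsLocPart`.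
-/

set_option autoImplicit false

open IsLocalRing CongruenceSubgroup
open scoped MatrixGroups

namespace Fermat.Agent.S38.H483

open Fermat.Agent.S59.Arch Fermat.Agent.S59.TW.H959 Fermat.Agent.S59.TW.H653
open Fermat.Agent.S59.TW.Aut Fermat.Agent.S38.IA Fermat.Agent.S38.IA.Hecke

/-- The primes dividing Ribet's level lie in `Smin ∪ Piv`. -/
theorem mem_of_dvd_ribetLevel483 {p : ℕ} {Smin Piv : Finset ℕ}
    (hS : ∀ q ∈ Smin, q.Prime) (hP : ∀ q ∈ Piv, q.Prime) {q : ℕ} (hq : q.Prime)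
    (hdvd : q ∣ ribetLevel p Smin Piv) : q ∈ (↑(Smin ∪ Piv) : Set ℕ) := by
  unfold ribetLevel at hdvd
  rw [Finset.mem_coe, Finset.mem_union]
  rcases (Nat.Prime.dvd_mul hq).mp hdvd with h | h
  · obtain ⟨a, ha, hqa⟩ := (Prime.dvd_finsetProd_iff hq.prime _).mp h
    have ha' : a ∈ Smin := Finset.mem_of_mem_erase ha
    have : q = a := (Nat.prime_dvd_prime_iff_eq hq (hS a ha')).mp hqa
    exact Or.inl (this ▸ ha')
  · obtain ⟨a, ha, hqa⟩ := (Prime.dvd_finsetProd_iff hq.prime _).mp h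
    have : q = a := (Nat.prime_dvd_prime_iff_eq hq (hP a ha)).mp hqa
    exact Or.inr (this ▸ ha)

/-- **Nontriviality of a localisation at a character of the Hecke algebra** (any level `N`, any
`S ⊇ primes(N)`): helper581's argument. -/
theorem nontrivial_of_isLocPart483 {N : ℕ} [NeZero N] {S : Set ℕ}
    (hNS : ∀ q : ℕ, q.Prime → q ∣ N → q ∈ S)
    {𝒪 : Type} [CommRing 𝒪] [IsDomain 𝒪] [IsDiscreteValuationRing 𝒪]
    (θ : CuspForm.heckeAlgebra N 2 S →+* ResidueField 𝒪)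
    (V₀ : Submodule 𝒪 (Additive (Gamma0 N) →+ 𝒪))
    (hV₀ : IsLocPart (isMid_Gamma0 N) (TsetOfθ θ) ∅ V₀) : Nontrivial V₀ := by
  classical
  obtain ⟨x, hx0, hxe⟩ := H581.h581_exists_occ hNS θ
  obtain ⟨e, -, he_mem, -, -, -, -, hfull⟩ := hV₀.exists_proj
  have hex : e x ≠ 0 := by
    intro h0
    apply hx0
    refine hfull x h0 ?_ ?_
    · intro ℓ _ c hc
      obtain ⟨hℓ, hℓN, hℓS, hres⟩ := hc
      rw [TK_Gamma0 hℓN]
      exact hxe ℓ hℓN hℓS c hres
    · intro q _ α hα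
      exact absurd hα (Set.notMem_empty _)
  exact nontrivial_of_ne (⟨e x, he_mem x⟩ : V₀) 0 fun h0 => hex (congrArg Subtype.val h0)

theorem iaNontriv483 : IANontrivStatement := by
  intro p _ _ 𝒪 _ _ _ _ _ _ ρbar Smin h _ Piv hPiv hL θ₀ _ V₀ hV₀
  classical
  have hNS : ∀ q : ℕ, q.Prime → q ∣ ribetLevel p Smin Piv → q ∈ (↑(Smin ∪ Piv) : Set ℕ) :=
    fun q hq hdvd => mem_of_dvd_ribetLevel483 h.hSmin (fun q hq => (hPiv q hq).1) hq hdvd
  have hnt : Nontrivial V₀ := nontrivial_of_isLocPart483 hNS θ₀ V₀ hV₀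
  have hfi : (Gamma0 (ribetLevel p Smin Piv)).FiniteIndex :=
    Subgroup.finiteIndex_of_le (isMid_Gamma0 (ribetLevel p Smin Piv)).ge
  obtain ⟨hfin, hfree⟩ :=
    Fermat.Agent.S59.MFree.H761.finite_free_submodule (O := 𝒪) (Gamma0 (ribetLevel p Smin Piv)) V₀
  let b := Module.Free.chooseBasis 𝒪 V₀
  let ι := Module.Free.ChooseBasisIndex 𝒪 V₀
  have hne : Nonempty ι := by
    by_contra hempty
    rw [not_nonempty_iff] at hempty
    have hsub : Subsingleton V₀ := by
      refine ⟨fun a c => ?_⟩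
      apply b.repr.injective
      ext i
      exact (hempty.false i).elim
    exact not_subsingleton V₀ hsub
  refine ⟨Fintype.card ι, Fintype.card_pos, ⟨b.reindex (Fintype.equivFin ι)⟩⟩

end Fermat.Agent.S38.H483

end
-- ===== PACK-END S38/H483/IANontriv.lean

-- ===== PACK-BEGIN S38/H719/CtrlMin.lean
section





/-!
# HARD / HECKE, leaf CTRL-MIN, part (ii-b): the multi-prime (MIN) chain (helper719)

`O` a commutative ring, `ϖ ∈ O`, `A` an `O`-module which is `ϖ`-adically separated, `H_M = Hom(Γ₀(M), A)`.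

* `TopNilAt ϖ f x` : `f` is topologically nilpotent at `x` (`∀ n, ∃ k, f^k x ∈ ϖ^n H`);
* `IsPart O A ϖ Ipr c Qs α M x` : `x ∈ H_M` lies in the generalized eigen-part
  "`T_l ≡ c_l` (`l ∈ Ipr`, `l ∤ M`), `U_q ≡ α_q` (`q ∈ Qs`, `q ∣ M`)"; no idempotent is needed;
* `isPart_t₁`, `isPart_t₂` : the transfers `t₁, t₂ : H_{N q} → H_N` (`q ∤ N`, `q ∉ Ipr`) map the part
  `(Ipr, Qs ∪ {q})` of level `N q` into the part `(Ipr, Qs)` of level `N`
  (`S41.H761.heckeTransferComm` and `Uq_t₁`, `Uq_t₂` of `UqCross.lean`);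
* `eq_zero_of_sq_fix` : `U² x = x`, `U - α` topologically nilpotent at `x`, `α² - 1` a unit `⟹ x = 0`;
* `eq_zero_of_isPart_step` : if the part of level `N` vanishes, so does the part of level `N q`
  with the extra condition `U_q ≡ α_q`, `α_q² - 1` a unit (NO Galois input: `U_q² = 1` on the new classes,
  `S59.H105.Uq_Uq_of_new`);
* `eq_zero_of_isPart_chain` : the same for a list of primes `q₁, …, q_r`: (MIN) at level `N'`
  implies the vanishing of the Taylor–Wiles part at level `N' q₁ ⋯ q_r`.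
-/

set_option autoImplicit false

namespace Fermat.Agent.S38.H719

open CongruenceSubgroup Matrix.SpecialLinearGroup
open Fermat.Agent.S29.H642 Fermat.Agent.S41 Fermat.Agent.S41.Spec Fermat.Agent.S41.H761
open Fermat.Agent.S59.H105
open scoped MatrixGroups

universe u v

/-! ## Abstract part (Mathlib only) -/

section Abstract

variable {Λ : Type*} [CommRing Λ] {M M' : Type*} [AddCommGroup M] [Module Λ M]
  [AddCommGroup M'] [Module Λ M']

/-- `f` is topologically nilpotent at `x`: for every `n` some iterate `f^k x` is divisible by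
`ϖ^n`. -/
def TopNilAt (ϖ : Λ) (f : M →ₗ[Λ] M) (x : M) : Prop :=
  ∀ n : ℕ, ∃ (k : ℕ) (z : M), f^[k] x = ϖ ^ n • z

theorem iterate_intertwine {f : M →ₗ[Λ] M} {f' : M' →ₗ[Λ] M'} (g : M →ₗ[Λ] M')
    (hg : ∀ x, g (f x) = f' (g x)) (k : ℕ) : ∀ x, g (f^[k] x) = f'^[k] (g x) := by
  induction k with
  | zero => exact fun x => rfl
  | succ k ih =>
    intro x
    rw [Function.iterate_succ_apply, Function.iterate_succ_apply, ih, hg]

/-- Topological nilpotence is transported by intertwining maps. -/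
theorem TopNilAt.map {ϖ : Λ} {f : M →ₗ[Λ] M} {f' : M' →ₗ[Λ] M'} (g : M →ₗ[Λ] M')
    (hg : ∀ x, g (f x) = f' (g x)) {x : M} (hx : TopNilAt ϖ f x) : TopNilAt ϖ f' (g x) := by
  intro n
  obtain ⟨k, z, hz⟩ := hx n
  exact ⟨k, g z, by rw [← iterate_intertwine g hg, hz, map_smul]⟩

theorem TopNilAt.zero (ϖ : Λ) (f : M →ₗ[Λ] M) : TopNilAt ϖ f 0 := by
  intro n
  refine ⟨0, 0, ?_⟩
  rw [Function.iterate_zero_apply, smul_zero]

theorem iterate_smul719 (f : M →ₗ[Λ] M) (k : ℕ) (a : Λ) : ∀ x, f^[k] (a • x) = a • f^[k] x := by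
  induction k with
  | zero => exact fun x => rfl
  | succ k ih =>
    intro x
    rw [Function.iterate_succ_apply, Function.iterate_succ_apply, map_smul, ih]

/-- **Key lemma.**  If `U² x = x`, `U - α` is topologically nilpotent at `x` and `α² - 1` is a
unit, then `x = 0` (in a `ϖ`-adically separated module). -/
theorem eq_zero_of_sq_fix {ϖ α : Λ} (hα : IsUnit (α ^ 2 - 1)) (U : M →ₗ[Λ] M)
    (hsep : ∀ x : M, (∀ n : ℕ, ∃ z : M, x = ϖ ^ n • z) → x = 0)
    {x : M} (hx : U (U x) = x) (hnil : TopNilAt ϖ (shiftBy U α) x) : x = 0 := by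
  obtain ⟨β, hβ⟩ := hα.exists_left_inv
  -- `v = -β (U + α)` is inverse to `a = U - α` on `E = {U² = 1}`
  let v : M →ₗ[Λ] M := (-β) • (U + α • LinearMap.id)
  have hva : ∀ y : M, U (U y) = y → v (shiftBy U α y) = y := by
    intro y hy
    have h1 : v (shiftBy U α y) = (-β) • (U (U y) - (α ^ 2) • y) := by
      show (-β) • (U (U y - α • y) + α • (U y - α • y)) = _
      rw [map_sub, map_smul, smul_sub, smul_smul, pow_two]
      congr 1
      abel
    rw [h1, hy]
    have h2 : y - α ^ 2 • y = (-(α ^ 2 - 1)) • y := by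
      rw [neg_sub, sub_smul, one_smul]
    rw [h2, smul_smul, neg_mul_neg, hβ, one_smul]
  have hEa : ∀ y : M, U (U y) = y → U (U (shiftBy U α y)) = shiftBy U α y := by
    intro y hy
    rw [shiftBy_apply, map_sub, map_sub, map_smul, map_smul, hy]
  have key : ∀ k : ℕ, ∀ y : M, U (U y) = y → y = v^[k] ((shiftBy U α)^[k] y) := by
    intro k
    induction k with
    | zero => exact fun y _ => rfl
    | succ k ih =>
      intro y hy
      have e1 : (shiftBy U α)^[k + 1] y = (shiftBy U α)^[k] (shiftBy U α y) :=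
        Function.iterate_succ_apply _ _ _
      have e2 : ∀ w : M, v^[k + 1] w = v (v^[k] w) := fun w =>
        Function.iterate_succ_apply' _ _ _
      rw [e1, e2, ← ih _ (hEa y hy), hva y hy]
  apply hsep
  intro n
  obtain ⟨k, z, hz⟩ := hnil n
  refine ⟨v^[k] z, ?_⟩
  rw [← iterate_smul719, ← hz]
  exact key k x hx

end Abstract

/-! ## The generalized eigen-parts of `Hom(Γ₀(M), A)` -/

section Part

variable (O : Type v) [CommRing O] (A : Type u) [AddCommGroup A] [Module O A]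

/-- `x ∈ Hom(Γ₀(M), A)` lies in the generalized eigen-part `T_l ≡ c_l` (`l ∈ Ipr`, `l ∤ M`),
`U_q ≡ α_q` (`q ∈ Qs`, `q ∣ M`). -/
def IsPart (ϖ : O) (Ipr : Set ℕ) (c : ℕ → O) (Qs : Set ℕ) (α : ℕ → O) (M : ℕ)
    (x : Additive (Gamma0 M) →+ A) : Prop :=
  (∀ (l : ℕ) [Fact l.Prime] (hl : ¬ l ∣ M), l ∈ Ipr →
    TopNilAt ϖ (shiftBy (TlL O A hl) (c l)) x) ∧
  (∀ (q' : ℕ) [Fact q'.Prime] (hq' : q' ∣ M), q' ∈ Qs →
    TopNilAt ϖ (shiftBy (UqL O A hq') (α q')) x)

variable {O A} {ϖ : O} {Ipr : Set ℕ} {c : ℕ → O} {Qs Qs' : Set ℕ} {α : ℕ → O}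

theorem IsPart.mono {M : ℕ} {x : Additive (Gamma0 M) →+ A} (h : IsPart O A ϖ Ipr c Qs α M x)
    (hQ : Qs' ⊆ Qs) : IsPart O A ϖ Ipr c Qs' α M x :=
  ⟨h.1, fun q' _ hq' hmem => h.2 q' hq' (hQ hmem)⟩

variable {N q : ℕ}

/-- `t₁` maps the part of level `N q` into the part of level `N`. -/
theorem isPart_t₁ (hN : N ≠ 0) (hq : q.Prime) (hqN : ¬ q ∣ N) (hqI : q ∉ Ipr)
    {x : Additive (Gamma0 (N * q)) →+ A} (hx : IsPart O A ϖ Ipr c (insert q Qs) α (N * q) x) :
    IsPart O A ϖ Ipr c Qs α N (t₁ N q x) := by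
  have hNq : N * q ≠ 0 := Nat.mul_ne_zero hN hq.ne_zero
  refine ⟨fun l _ hl hlI => ?_, fun q' _ hq' hq'Q => ?_⟩
  · have hlp : l.Prime := Fact.out
    have hl' : ¬ l ∣ N * q := by
      intro h
      rcases hlp.dvd_mul.mp h with h1 | h1
      · exact hl h1
      · exact hqI (((Nat.prime_dvd_prime_iff_eq hlp hq).mp h1) ▸ hlI)
    refine (hx.1 l hl' hlI).map (t₁L O A N q) fun y => ?_
    rw [shiftBy_apply, shiftBy_apply, map_sub, map_smul]
    congr 1
    exact ((heckeTransferComm.{u} N q l hl hl' hNq A y).1).symm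
  · have hq'' : q' ∣ N * q := Dvd.dvd.mul_right hq' q
    refine (hx.2 q' hq'' (Set.mem_insert_of_mem q hq'Q)).map (t₁L O A N q) fun y => ?_
    rw [shiftBy_apply, shiftBy_apply, map_sub, map_smul]
    congr 1
    exact (Uq_t₁ hq hqN hq' hq'' y).symm

/-- `t₂` maps the part of level `N q` into the part of level `N`. -/
theorem isPart_t₂ (hN : N ≠ 0) (hq : q.Prime) (hqI : q ∉ Ipr)
    {x : Additive (Gamma0 (N * q)) →+ A} (hx : IsPart O A ϖ Ipr c (insert q Qs) α (N * q) x) :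
    IsPart O A ϖ Ipr c Qs α N (t₂ N q x) := by
  have hNq : N * q ≠ 0 := Nat.mul_ne_zero hN hq.ne_zero
  refine ⟨fun l _ hl hlI => ?_, fun q' _ hq' hq'Q => ?_⟩
  · have hlp : l.Prime := Fact.out
    have hl' : ¬ l ∣ N * q := by
      intro h
      rcases hlp.dvd_mul.mp h with h1 | h1
      · exact hl h1
      · exact hqI (((Nat.prime_dvd_prime_iff_eq hlp hq).mp h1) ▸ hlI)
    refine (hx.1 l hl' hlI).map (t₂L O A N q) fun y => ?_
    rw [shiftBy_apply, shiftBy_apply, map_sub, map_smul]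
    congr 1
    exact ((heckeTransferComm.{u} N q l hl hl' hNq A y).2).symm
  · have hq'' : q' ∣ N * q := Dvd.dvd.mul_right hq' q
    refine (hx.2 q' hq'' (Set.mem_insert_of_mem q hq'Q)).map (t₂L O A N q) fun y => ?_
    rw [shiftBy_apply, shiftBy_apply, map_sub, map_smul]
    congr 1
    exact (Uq_t₂ hq.ne_zero hq' hq'' y).symm

/-- **One step of the (MIN) chain.**  If the part `(Ipr, Qs)` of level `N` vanishes, then so does
the part `(Ipr, Qs ∪ {q})` of level `N q`, for a prime `q ∤ N`, `q ∉ Ipr` with `α_q² - 1` a unit. -/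
theorem eq_zero_of_isPart_step
    (hsepA : ∀ a : A, (∀ n : ℕ, ∃ z : A, a = ϖ ^ n • z) → a = 0)
    (hN : N ≠ 0) (hq : q.Prime) (hqN : ¬ q ∣ N) (hqI : q ∉ Ipr) (hα : IsUnit (α q ^ 2 - 1))
    (hvan : ∀ y : Additive (Gamma0 N) →+ A, IsPart O A ϖ Ipr c Qs α N y → y = 0)
    (x : Additive (Gamma0 (N * q)) →+ A) (hx : IsPart O A ϖ Ipr c (insert q Qs) α (N * q) x) :
    x = 0 := by
  have : Fact q.Prime := ⟨hq⟩
  have h₁ : t₁ N q x = 0 := hvan _ (isPart_t₁ hN hq hqN hqI hx)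
  have h₂ : t₂ N q x = 0 := hvan _ (isPart_t₂ hN hq hqI hx)
  have hUU : UqL O A (dvd_mul_self_left N q) (UqL O A (dvd_mul_self_left N q) x) = x :=
    Uq_Uq_of_new hqN x h₁ h₂
  exact eq_zero_of_sq_fix hα (UqL O A (dvd_mul_self_left N q)) (sepOn_top O A ϖ hsepA) hUU
    (hx.2 q (dvd_mul_self_left N q) (Set.mem_insert q Qs))

/-- **The (MIN) chain.**  `L = [q₁, …, q_r]` distinct primes not dividing `N`, outside `Ipr`, with
`α_q² - 1` units.  If the part `(Ipr, Qs)` of level `N` vanishes, then so does the part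
`(Ipr, Qs ∪ L)` of level `N q₁ ⋯ q_r` (`= L.foldl (· * ·) N`). -/
theorem eq_zero_of_isPart_chain
    (hsepA : ∀ a : A, (∀ n : ℕ, ∃ z : A, a = ϖ ^ n • z) → a = 0) (L : List ℕ) :
    ∀ (N : ℕ) (Qs : Set ℕ), N ≠ 0 → L.Nodup →
      (∀ q ∈ L, q.Prime ∧ ¬ q ∣ N ∧ q ∉ Ipr ∧ IsUnit (α q ^ 2 - 1)) →
      (∀ y : Additive (Gamma0 N) →+ A, IsPart O A ϖ Ipr c Qs α N y → y = 0) →
      ∀ x : Additive (Gamma0 (L.foldl (· * ·) N)) →+ A,
        IsPart O A ϖ Ipr c (Qs ∪ {q | q ∈ L}) α (L.foldl (· * ·) N) x → x = 0 := by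
  induction L with
  | nil =>
    intro N Qs _ _ _ hvan x hx
    exact hvan x (hx.mono Set.subset_union_left)
  | cons q L ih =>
    intro N Qs hN hnd hL hvan x hx
    obtain ⟨hq, hqN, hqI, hα⟩ := hL q List.mem_cons_self
    have hnd' := List.nodup_cons.mp hnd
    refine ih (N * q) (insert q Qs) (Nat.mul_ne_zero hN hq.ne_zero) hnd'.2 ?_
      (eq_zero_of_isPart_step hsepA hN hq hqN hqI hα hvan) x (hx.mono ?_)
    · intro q' hq'
      obtain ⟨hq'p, hq'N, hq'I, hα'⟩ := hL q' (List.mem_cons_of_mem q hq')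
      refine ⟨hq'p, ?_, hq'I, hα'⟩
      intro h
      rcases hq'p.dvd_mul.mp h with h1 | h1
      · exact hq'N h1
      · have : q' = q := (Nat.prime_dvd_prime_iff_eq hq'p hq).mp h1
        exact hnd'.1 (this ▸ hq')
    · intro z hz
      rcases hz with hz | hz
      · rcases hz with rfl | hz
        · exact Or.inr List.mem_cons_self
        · exact Or.inl hz
      · exact Or.inr (List.mem_cons_of_mem q hz)

end Part

end Fermat.Agent.S38.H719

end
-- ===== PACK-END S38/H719/CtrlMin.lean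

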