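import Fermat.Agent.Pack.S43GC.G0E15L2
import Fermat.Agent.Pack.S43GC.G0E15L3
import Fermat.Agent.Pack.S43C.E0L0
import Fermat.Agent.Pack.S43C.E0L3
import Fermat.Agent.Pack.S43GC.G0E9L3
import Fermat.Agent.Pack.S43MC.G0E23L2
import Fermat.Agent.Pack.S43MC.G0E16L0
import Fermat.Agent.Pack.S43MC.G0E21L0
import Fermat.Agent.Pack.S43MC.G0E21L3
import Fermat.Agent.Pack.S43MC.G0E9L0
import Fermat.Agent.Pack.S44C.G0E21L3
import Fermat.Agent.Pack.S43MC.G0E5L2
import Fermat.Agent.Pack.S43C.E1L0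
import Fermat.Agent.Pack.Fast891

-- ===== PACK-BEGIN S38/H953/Unframed.lean
section


/-!
# Route T (Ihara avoidance), Galois side: the UNFRAMED relative presentation (helper953)

Board v2 of row HARD, item (3) GAL: no frames.  `DQ` a universal deformation ring of type `𝒟`,
`F : UFrame DQ` a matrix form `F.rR` of the universal deformation.

* `uCoc F φ` : the cocycle of a tangent vector `φ : DQ.R → k[ε]` (`σ ↦ ε-part of φ(F.rR σ) · ρ̄(σ)⁻¹`);
  `uCoc_type`, `uCoc_eq_zero`, `eq_of_isAdCoboundary_uCoc` (injective MODULO coboundaries);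
* `RelSelCob 𝒪 ρbar 𝒟 D g` : the tangent cocycles of type `𝒟` vanishing on `D` are represented,
  modulo coboundaries, by a space of dimension `≤ g`;
* `exists_surjective_of_relSelCob` : for a complete Noetherian local `𝒪`-algebra `B` and a
  `B`-algebra structure on `DQ.R` such that the entries of `F.rR σ`, `σ ∈ D`, come from `B`:
  `RelSelCob ⟹ B⟦x₁, …, x_g⟧ ↠ DQ.R`.

Nothing unproved in this file.
-/

set_option autoImplicit false
set_option linter.unusedSectionVars false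
set_option linter.unusedVariables false
set_option linter.style.haveILetI false

namespace Fermat.Agent.S38.H953

noncomputable section

open IsLocalRing TrivSqZeroExt
open Fermat.Agent.S56 Fermat.Agent.S56.H716 Fermat.Agent.S56.H596

/-! ### Coboundaries -/

section Cob

variable {k : Type} [Field k] (ρbar : ResidualGaloisRep k)

theorem isAdCoboundary_zero : IsAdCoboundary ρbar (0 : GQ → Module.End k ρbar.V) :=
  ⟨0, fun σ => by rw [mul_zero, zero_mul, sub_self]; rfl⟩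

variable {ρbar}

theorem IsAdCoboundary.sub' {c c' : GQ → Module.End k ρbar.V} (h : IsAdCoboundary ρbar c)
    (h' : IsAdCoboundary ρbar c') : IsAdCoboundary ρbar (c - c') := by
  obtain ⟨m, hm⟩ := h
  obtain ⟨m', hm'⟩ := h'
  refine ⟨m - m', fun σ => ?_⟩
  rw [Pi.sub_apply, hm σ, hm' σ, mul_sub, sub_mul]
  abel

end Cob

/-! ### The cocycle of a tangent vector of the universal ring -/

section Core

variable {𝒪 : Type} [CommRing 𝒪] [IsDomain 𝒪] [IsDiscreteValuationRing 𝒪]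
  [IsAdicComplete (maximalIdeal 𝒪) 𝒪]
  {ρbar : ResidualGaloisRep (ResidueField 𝒪)} {𝒟 : DefCond 𝒪}
  {DQ : GaloisRep.DeformationRingData 𝒪 ρbar 𝒟}

attribute [local instance] Fermat.Agent.S56.tanAlgebra

/-- Extension of a tangent vector of `DQ.R` to `DQ.R⟦Y⟧`, trivial on the variables. -/
def ofConst (φ : TanHom 𝒪 DQ.R) : TanHom 𝒪 (MvPowerSeries (Fin 3) DQ.R) :=
  { toRingHom := (φ : DQ.R →+* DualNumber (ResidueField 𝒪)).comp
      (MvPowerSeries.constantCoeff (σ := Fin 3) (R := DQ.R))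
    commutes' := fun a => by
      show φ (MvPowerSeries.constantCoeff (algebraMap 𝒪 (MvPowerSeries (Fin 3) DQ.R) a)) = _
      rw [MvPowerSeries.algebraMap_apply, MvPowerSeries.constantCoeff_C]
      exact φ.commutes a }

theorem ofConst_apply (φ : TanHom 𝒪 DQ.R) (f : MvPowerSeries (Fin 3) DQ.R) :
    ofConst φ f = φ (MvPowerSeries.constantCoeff f) := rfl

theorem tanC_ofConst (φ : TanHom 𝒪 DQ.R) : tanC (ofConst φ) = φ := by
  apply AlgHom.ext
  intro x
  rw [tanC_apply, ofConst_apply, MvPowerSeries.constantCoeff_C]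

theorem frameZ_ofConst (φ : TanHom 𝒪 DQ.R) : frameZ (ofConst φ) = 0 := by
  have h : ∀ i : Fin 3, ofConst φ (MvPowerSeries.X i) = 0 := by
    intro i
    rw [ofConst_apply, MvPowerSeries.constantCoeff_X, map_zero]
  ext i j
  fin_cases i <;> fin_cases j <;> simp [frameZ, h]

/-- **The cocycle of a tangent vector** of the universal deformation ring, computed in the
frame `F`. -/
def uCoc (F : UFrame DQ) (φ : TanHom 𝒪 DQ.R) : GQ → Module.End (ResidueField 𝒪) ρbar.V :=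
  frCoc F (ofConst φ)

theorem cocMat_ofConst (F : UFrame DQ) (φ : TanHom 𝒪 DQ.R) (σ : GQ) :
    cocMat F.rb (frRep F (ofConst φ)) σ = cocMat F.rb (cRep F (ofConst φ)) σ := by
  rw [cocMat_frRep, frameZ_ofConst, mul_zero, zero_mul, sub_self, add_zero]

theorem cRep_ofConst_apply (F : UFrame DQ) (φ : TanHom 𝒪 DQ.R) (σ : GQ) (i j : Fin 2) :
    cRep F (ofConst φ) σ i j = φ (F.rR σ i j) := by
  show tanC (ofConst φ) (F.rR σ i j) = _
  rw [tanC_ofConst]

/-- The cocycle of `φ` vanishes at `σ` as soon as `φ` has no `ε`-part on the entries of the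
universal matrix `F.rR σ`. -/
theorem uCoc_eq_zero (F : UFrame DQ) (φ : TanHom 𝒪 DQ.R) (σ : GQ)
    (h : ∀ i j, TrivSqZeroExt.snd (φ (F.rR σ i j)) = 0) : uCoc F φ σ = 0 := by
  have hm1 : m1 (cRep F (ofConst φ) σ) = 0 := by
    ext i j
    rw [m1_apply, cRep_ofConst_apply]
    exact h i j
  show matToEnd F.E (cocMat F.rb (frRep F (ofConst φ)) σ) = 0
  rw [cocMat_ofConst, cocMat_eq_zero_of_m1 σ hm1, map_zero]

/-- The type of the cocycle of a tangent vector. -/
theorem uCoc_type (p : ℕ) (hp : p.Prime)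
    (hdet : ∀ ρ' : GaloisRepAdic (DualNumber (ResidueField 𝒪)), 𝒟 ρ' → ρ'.DetIsCyclotomic p)
    (hbc : ∀ (φ : TanHom 𝒪 DQ.R)
      (hφ : IsLocalHom (φ : DQ.R →+* DualNumber (ResidueField 𝒪))), Function.Surjective φ →
      𝒟 (DQ.ρ.baseChangeAlong (φ : DQ.R →+* DualNumber (ResidueField 𝒪)) hφ))
    (F : UFrame DQ) (φ : TanHom 𝒪 DQ.R) :
    IsTanCocycle 𝒪 ρbar 𝒟 (uCoc F φ) ∨
      (IsAdCocycle ρbar (uCoc F φ) ∧ IsAdCoboundary ρbar (uCoc F φ)) :=
  frCoc_type p hp hdet hbc F (ofConst φ)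

/-- Equivalent matrix representations have equal restrictions to the constants. -/
theorem tanC_eq_of_isEquiv
    (hbc : ∀ (φ : TanHom 𝒪 DQ.R)
      (hφ : IsLocalHom (φ : DQ.R →+* DualNumber (ResidueField 𝒪))), Function.Surjective φ →
      𝒟 (DQ.ρ.baseChangeAlong (φ : DQ.R →+* DualNumber (ResidueField 𝒪)) hφ))
    (F : UFrame DQ) (ψ ψ' : TanHom 𝒪 (MvPowerSeries (Fin 3) DQ.R))
    (hmid : (Fermat.Agent.S53.toAdic (frRep F ψ) (matCont_frRep F ψ)).IsEquiv
      (Fermat.Agent.S53.toAdic (frRep F ψ') (matCont_frRep F ψ'))) : tanC ψ = tanC ψ' := by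
  haveI hlocD := isLocalHom_tanAlgebra 𝒪
  haveI := isAdicComplete_dualNumber (ResidueField 𝒪)
  obtain ⟨e1⟩ := equiv_frRep F ψ
  obtain ⟨e2⟩ := equiv_frRep F ψ'
  obtain ⟨e3⟩ := hmid
  have hφφ' : GaloisRepAdic.Equiv
      (DQ.ρ.baseChangeAlong (tanC ψ : DQ.R →+* DualNumber (ResidueField 𝒪))
        (isLocalHom_tanHom (tanC ψ)))
      (DQ.ρ.baseChangeAlong (tanC ψ' : DQ.R →+* DualNumber (ResidueField 𝒪))
        (isLocalHom_tanHom (tanC ψ'))) := (e1.trans e3).trans e2.symm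
  by_cases hs' : Function.Surjective (tanC ψ')
  · have huniv := DQ.universal (DualNumber (ResidueField 𝒪)) (residue_tanAlgebra_surjective 𝒪)
      _ (hbc (tanC ψ') (isLocalHom_tanHom (tanC ψ')) hs') (residual_isEquiv_tanC F ψ')
    exact huniv.unique ⟨isLocalHom_tanHom (tanC ψ), ⟨hφφ'⟩⟩
      ⟨isLocalHom_tanHom (tanC ψ'), ⟨GaloisRepAdic.Equiv.refl _⟩⟩
  · by_cases hs : Function.Surjective (tanC ψ)
    · have huniv := DQ.universal (DualNumber (ResidueField 𝒪))
        (residue_tanAlgebra_surjective 𝒪) _ (hbc (tanC ψ) (isLocalHom_tanHom (tanC ψ)) hs)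
        (residual_isEquiv_tanC F ψ)
      exact huniv.unique ⟨isLocalHom_tanHom (tanC ψ), ⟨GaloisRepAdic.Equiv.refl _⟩⟩
        ⟨isLocalHom_tanHom (tanC ψ'), ⟨hφφ'.symm⟩⟩
    · exact tanHom_eq_of_snd_eq_zero DQ.residue_surjective (tanC ψ) (tanC ψ')
        (snd_tanC_eq_zero ψ hs) (snd_tanC_eq_zero ψ' hs')

/-- **Injectivity modulo coboundaries**: tangent vectors with cohomologous cocycles are
equal. -/
theorem eq_of_isAdCoboundary_uCoc
    (hbc : ∀ (φ : TanHom 𝒪 DQ.R)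
      (hφ : IsLocalHom (φ : DQ.R →+* DualNumber (ResidueField 𝒪))), Function.Surjective φ →
      𝒟 (DQ.ρ.baseChangeAlong (φ : DQ.R →+* DualNumber (ResidueField 𝒪)) hφ))
    (F : UFrame DQ) (φ φ' : TanHom 𝒪 DQ.R)
    (hcob : IsAdCoboundary ρbar (uCoc F φ - uCoc F φ')) : φ = φ' := by
  obtain ⟨m, hm⟩ := hcob
  have hM : ∀ σ, cocMat F.rb (frRep F (ofConst φ)) σ - cocMat F.rb (frRep F (ofConst φ')) σ =
      F.rb σ * (matToEnd F.E).symm m * F.rb σ⁻¹ - (matToEnd F.E).symm m := by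
    intro σ
    apply (matToEnd F.E).injective
    rw [map_sub, map_sub, map_mul, map_mul, RingEquiv.apply_symm_apply,
      ← rho_eq_matToEnd F.hE, ← rho_eq_matToEnd F.hE]
    exact hm σ
  have hconj : (Fermat.Agent.S53.toAdic (frRep F (ofConst φ)) (matCont_frRep F _)).IsEquiv
      (Fermat.Agent.S53.toAdic (frRep F (ofConst φ')) (matCont_frRep F _)) := by
    rw [Fermat.Agent.S53.toAdic_isEquiv_iff]
    exact ⟨dunit ((matToEnd F.E).symm m), fun σ =>
      dmk_mul_eq_of_coboundary (m0_frRep F _) (m0_frRep F _) _ hM σ⟩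
  have h := tanC_eq_of_isEquiv hbc F (ofConst φ) (ofConst φ') hconj
  rwa [tanC_ofConst, tanC_ofConst] at h

end Core

/-! ### Change of base, general form -/

section BaseG

variable {𝒪 : Type} [CommRing 𝒪] [IsLocalRing 𝒪]
  {R : Type} [CommRing R] [IsLocalRing R] [Algebra 𝒪 R]
  (hlocR : IsLocalHom (algebraMap 𝒪 R))
  (hresR : Function.Surjective (residue R ∘ algebraMap 𝒪 R))
  (B : Type) [CommRing B] [IsLocalRing B] [Algebra 𝒪 B] [Algebra B R] [IsScalarTower 𝒪 B R]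

attribute [local instance] Fermat.Agent.S56.tanAlgebra

include hresR in
theorem isLocalHom_baseG : IsLocalHom (algebraMap B R) :=
  isLocalHom_of_residue_surjective hresR (IsScalarTower.toAlgHom 𝒪 B R)

include hresR in
theorem residue_surjective_baseG :
    Function.Surjective (residue R ∘ algebraMap B R) := by
  intro y
  obtain ⟨a, ha⟩ := hresR y
  refine ⟨algebraMap 𝒪 B a, ?_⟩
  rw [Function.comp_apply] at ha ⊢
  rw [← ha, ← IsScalarTower.algebraMap_apply]

include hlocR in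
theorem isLocalHom_to_baseG : IsLocalHom (algebraMap 𝒪 B) := by
  refine ⟨fun a ha => ?_⟩
  have h1 : IsUnit (algebraMap 𝒪 R a) := by
    rw [IsScalarTower.algebraMap_apply 𝒪 B R]
    exact ha.map _
  exact hlocR.map_nonunit a h1

include hresR in
theorem residue_surjective_to_baseG :
    Function.Surjective (residue B ∘ algebraMap 𝒪 B) := by
  intro y
  obtain ⟨b, rfl⟩ := residue_surjective y
  obtain ⟨a, ha⟩ := hresR (residue _ (algebraMap B R b))
  refine ⟨a, ?_⟩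
  rw [Function.comp_apply] at ha ⊢
  rw [IsScalarTower.algebraMap_apply 𝒪 B R, ← sub_eq_zero, ← map_sub, ← map_sub,
    residue_eq_zero_iff] at ha
  rw [← sub_eq_zero, ← map_sub, residue_eq_zero_iff]
  by_contra hcon
  have hu : IsUnit (algebraMap 𝒪 B a - b) := by
    by_contra hnu
    exact hcon ((mem_maximalIdeal _).2 hnu)
  exact (mem_maximalIdeal _).1 ha (hu.map _)

/-- The residue fields of `𝒪` and of the base `B` agree. -/
def resEquivG : ResidueField 𝒪 ≃+* ResidueField B :=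
  haveI := isLocalHom_to_baseG hlocR B
  RingEquiv.ofBijective (ResidueField.map (algebraMap 𝒪 B))
    ⟨(ResidueField.map (algebraMap 𝒪 B)).injective, fun y => by
      obtain ⟨a, ha⟩ := residue_surjective_to_baseG hresR B y
      exact ⟨residue 𝒪 a, by rw [ResidueField.map_residue]; exact ha⟩⟩

theorem resEquivG_symm_residue (a : 𝒪) :
    (resEquivG hlocR hresR B).symm (residue B (algebraMap 𝒪 B a)) = residue 𝒪 a := by
  haveI := isLocalHom_to_baseG hlocR B
  have h : resEquivG hlocR hresR B (residue 𝒪 a) = residue B (algebraMap 𝒪 B a) :=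
    ResidueField.map_residue (algebraMap 𝒪 B) a
  rw [← h, RingEquiv.symm_apply_apply]

/-- Transport of a tangent vector over `B` to a tangent vector over `𝒪`. -/
def tanOfBaseG (ψ : R →ₐ[B] DualNumber (ResidueField B)) : TanHom 𝒪 R :=
  { toRingHom := (dualMap ((resEquivG hlocR hresR B).symm : ResidueField B →+* ResidueField 𝒪)).comp
      (ψ : R →+* DualNumber (ResidueField B))
    commutes' := fun a => by
      show dualMap _ (ψ (algebraMap 𝒪 R a)) = _
      rw [IsScalarTower.algebraMap_apply 𝒪 B R, AlgHom.commutes,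
        tanAlgebra_algebraMap, dualMap_inl, tanAlgebra_algebraMap]
      congr 1
      exact resEquivG_symm_residue hlocR hresR B a }

theorem tanOfBaseG_apply (ψ : R →ₐ[B] DualNumber (ResidueField B)) (f : R) :
    tanOfBaseG hlocR hresR B ψ f =
      dualMap ((resEquivG hlocR hresR B).symm : ResidueField B →+* ResidueField 𝒪) (ψ f) := rfl

theorem tanOfBaseG_injective : Function.Injective (tanOfBaseG hlocR hresR B) := by
  intro ψ ψ' h
  apply AlgHom.ext
  intro f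
  apply dualMap_injective ((resEquivG hlocR hresR B).symm : ResidueField B →+* ResidueField 𝒪)
  rw [← tanOfBaseG_apply, ← tanOfBaseG_apply, h]

theorem snd_tanOfBaseG_algebraMap (ψ : R →ₐ[B] DualNumber (ResidueField B)) (b : B) :
    TrivSqZeroExt.snd (tanOfBaseG hlocR hresR B ψ (algebraMap B R b)) = 0 := by
  rw [tanOfBaseG_apply, AlgHom.commutes, tanAlgebra_algebraMap, dualMap_inl,
    TrivSqZeroExt.snd_inl]

end BaseG

/-! ### The relative Selmer bound modulo coboundaries (frozen shape) -/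

section RelSelCobDef

variable (𝒪 : Type) [CommRing 𝒪] [IsLocalRing 𝒪]
  (ρbar : ResidualGaloisRep (ResidueField 𝒪))

/-- **(REL-SEL-COB)** the tangent cocycles of type `𝒟` which VANISH on the set `D` are
represented, modulo (global) coboundaries, by a `k`-space of dimension `≤ g`. -/
def RelSelCob (𝒟 : DefCond 𝒪) (D : Set GQ) (g : ℕ) : Prop :=
  ∃ T : Submodule (ResidueField 𝒪) (GQ → Module.End (ResidueField 𝒪) ρbar.V),
    Module.Finite (ResidueField 𝒪) T ∧ Module.finrank (ResidueField 𝒪) T ≤ g ∧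
    ∀ c, IsTanCocycle 𝒪 ρbar 𝒟 c → (∀ σ ∈ D, c σ = 0) → ∃ t ∈ T, IsAdCoboundary ρbar (c - t)

end RelSelCobDef

/-! ### The unframed relative presentation -/

section MainU

variable {𝒪 : Type} [CommRing 𝒪] [IsDomain 𝒪] [IsDiscreteValuationRing 𝒪]
  [IsAdicComplete (maximalIdeal 𝒪) 𝒪]
  {ρbar : ResidualGaloisRep (ResidueField 𝒪)} {𝒟 : DefCond 𝒪}
  {DQ : GaloisRep.DeformationRingData 𝒪 ρbar 𝒟}

attribute [local instance] Fermat.Agent.S56.tanAlgebra

/-- **(REL-P1, no frames)**: if the tangent cocycles of type `𝒟` vanishing on `D` are represented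
modulo coboundaries by a space of dimension `≤ g`, and the universal matrices `F.rR σ`, `σ ∈ D`,
have their entries in (the image of) the complete Noetherian local `𝒪`-algebra `B`, then the
universal deformation ring `DQ.R` is a quotient of `B⟦x₁, …, x_g⟧`. -/
theorem exists_surjective_of_relSelCob [Finite (ResidueField 𝒪)]
    {B : Type} [CommRing B] [IsLocalRing B] [Algebra 𝒪 B]
    [Algebra B DQ.R] [IsScalarTower 𝒪 B DQ.R]
    [IsNoetherianRing B] [IsAdicComplete (maximalIdeal B) B]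
    (p : ℕ) (hp : p.Prime)
    (hdet : ∀ ρ' : GaloisRepAdic (DualNumber (ResidueField 𝒪)), 𝒟 ρ' → ρ'.DetIsCyclotomic p)
    (hbc : ∀ (φ : TanHom 𝒪 DQ.R)
      (hφ : IsLocalHom (φ : DQ.R →+* DualNumber (ResidueField 𝒪))), Function.Surjective φ →
      𝒟 (DQ.ρ.baseChangeAlong (φ : DQ.R →+* DualNumber (ResidueField 𝒪)) hφ))
    (F : UFrame DQ) (D : Set GQ)
    (hD : ∀ σ ∈ D, ∀ i j, F.rR σ i j ∈ Set.range (algebraMap B DQ.R))
    (g : ℕ) (hsel : RelSelCob 𝒪 ρbar 𝒟 D g) :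
    ∃ γ : MvPowerSeries (Fin g) B →ₐ[B] DQ.R, Function.Surjective γ := by
  classical
  obtain ⟨T, hTfin, hTr, hT⟩ := hsel
  haveI := hTfin
  have hlocR : IsLocalHom (algebraMap 𝒪 DQ.R) := DQ.instIsLocalHom
  have hresR := DQ.residue_surjective
  haveI : Finite (ResidueField B) := Finite.of_equiv _ (resEquivG hlocR hresR B).toEquiv
  haveI : Finite T := Module.finite_of_finite (ResidueField 𝒪)
  -- every cocycle of a `B`-tangent vector is represented in `T`
  have hrep : ∀ ψ : DQ.R →ₐ[B] DualNumber (ResidueField B),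
      ∃ t ∈ T, IsAdCoboundary ρbar (uCoc F (tanOfBaseG hlocR hresR B ψ) - t) := by
    intro ψ
    have hvan : ∀ σ ∈ D, uCoc F (tanOfBaseG hlocR hresR B ψ) σ = 0 := by
      intro σ hσ
      refine uCoc_eq_zero F _ σ (fun i j => ?_)
      obtain ⟨b, hb⟩ := hD σ hσ i j
      rw [← hb]
      exact snd_tanOfBaseG_algebraMap hlocR hresR B ψ b
    rcases uCoc_type p hp hdet hbc F (tanOfBaseG hlocR hresR B ψ) with h | h
    · exact hT _ h hvan
    · exact ⟨0, T.zero_mem, by rw [sub_zero]; exact h.2⟩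
  choose t ht hcob using hrep
  let G : (DQ.R →ₐ[B] DualNumber (ResidueField B)) → T := fun ψ => ⟨t ψ, ht ψ⟩
  have hG : Function.Injective G := by
    intro ψ ψ' h
    have h1 : t ψ = t ψ' := congrArg Subtype.val h
    have h2 : IsAdCoboundary ρbar (uCoc F (tanOfBaseG hlocR hresR B ψ) -
        uCoc F (tanOfBaseG hlocR hresR B ψ')) := by
      have h3 := IsAdCoboundary.sub' (hcob ψ) (hcob ψ')
      rw [h1] at h3
      have h4 : uCoc F (tanOfBaseG hlocR hresR B ψ) - t ψ' -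
          (uCoc F (tanOfBaseG hlocR hresR B ψ') - t ψ') =
          uCoc F (tanOfBaseG hlocR hresR B ψ) - uCoc F (tanOfBaseG hlocR hresR B ψ') := by
        abel
      rwa [h4] at h3
    exact tanOfBaseG_injective hlocR hresR B (eq_of_isAdCoboundary_uCoc hbc F _ _ h2)
  have hcard : Nat.card T ≤ Nat.card (ResidueField B) ^ g := by
    rw [Module.natCard_eq_pow_finrank (K := ResidueField 𝒪) (V := T),
      ← Nat.card_congr (resEquivG hlocR hresR B).toEquiv]
    exact Nat.pow_le_pow_right Nat.card_pos hTr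
  exact exists_surjective_of_card_le (isLocalHom_baseG hresR B)
    (residue_surjective_baseG hresR B) (tanAlgebra_algebraMap B) g G hG hcard

end MainU

end

end Fermat.Agent.S38.H953

end
-- ===== PACK-END S38/H953/Unframed.lean

-- ===== PACK-BEGIN S38/H953/UnframedP8.lean
section


/-!
# Route T (Ihara avoidance), Galois side: presentation over a power series base (helper953)

Board v2 of row HARD, item (3) GAL, in the form used by the patching: the base is the power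
series ring `P = 𝒪⟦X_i : i ∈ ι⟧` on the matrix entries (`ι` = the 8 entries of `Φ − Φ₀`, `Σ − 1`
for every pivot prime).

* `exists_surjective_powerSeries_of_relSelCob` : let `x : ι → 𝔪_R`, `R = DQ.R`, be elements such
  that the entries of the universal matrices `F.rR σ`, `σ ∈ D`, lie in the `𝒪`-subalgebra
  generated by the `x i`.  If the tangent cocycles of type `𝒟` vanishing on `D` are represented
  modulo coboundaries by a space of dimension `≤ g`, then there is a surjection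
  `γ : 𝒪⟦X_i (i ∈ ι), x₁, …, x_g⟧ ↠ DQ.R` with `γ (X_i) = x i`.

Nothing unproved in this file.
-/

set_option autoImplicit false
set_option linter.unusedSectionVars false
set_option linter.unusedVariables false
set_option linter.style.haveILetI false

namespace Fermat.Agent.S38.H953

noncomputable section

open IsLocalRing TrivSqZeroExt
open Fermat.Agent.S56 Fermat.Agent.S56.H716 Fermat.Agent.S56.H596 Fermat.Agent.S53.H596

section CommAlg

variable {𝒪 : Type} [CommRing 𝒪] [IsLocalRing 𝒪] [IsNoetherianRing 𝒪]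
  [IsAdicComplete (maximalIdeal 𝒪) 𝒪]
  {R : Type} [CommRing R] [IsLocalRing R] [IsAdicComplete (maximalIdeal R) R] [Algebra 𝒪 R]

/-- A surjection `𝒪⟦ι⟧⟦x₁..x_g⟧ ↠ R` (for the `𝒪⟦ι⟧`-algebra structure `X_i ↦ x i` on `R`) gives a
surjection `𝒪⟦ι ⊕ Fin g⟧ ↠ R` with `X_i ↦ x i`. -/
theorem exists_surjective_sum {ι : Type} [Finite ι] (x : ι → R)
    (hx : ∀ i, x i ∈ maximalIdeal R)
    (hres : Function.Surjective (residue R ∘ algebraMap 𝒪 R)) (g : ℕ)
    (h : letI : Algebra (MvPowerSeries ι 𝒪) R :=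
        (evalCNL (R := 𝒪) (maximalIdeal R) x hx : MvPowerSeries ι 𝒪 →+* R).toAlgebra
      ∃ γ : MvPowerSeries (Fin g) (MvPowerSeries ι 𝒪) →ₐ[MvPowerSeries ι 𝒪] R,
        Function.Surjective γ) :
    ∃ γ : MvPowerSeries (ι ⊕ Fin g) 𝒪 →ₐ[𝒪] R,
      Function.Surjective γ ∧ ∀ i, γ (MvPowerSeries.X (Sum.inl i)) = x i := by
  classical
  letI : Algebra (MvPowerSeries ι 𝒪) R :=
    (evalCNL (R := 𝒪) (maximalIdeal R) x hx : MvPowerSeries ι 𝒪 →+* R).toAlgebra
  obtain ⟨γB, hγB⟩ := h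
  have halg : ∀ f : MvPowerSeries ι 𝒪, algebraMap (MvPowerSeries ι 𝒪) R f =
      evalCNL (R := 𝒪) (maximalIdeal R) x hx f := fun f => rfl
  -- the images of the variables
  have hy : ∀ j, γB (MvPowerSeries.X j) ∈ maximalIdeal R := by
    intro j
    rw [mem_maximalIdeal, mem_nonunits_iff]
    intro hu
    -- `1 - u⁻¹ X_j` is a unit mapping to `0`
    obtain ⟨f, hf⟩ := hγB (↑hu.unit⁻¹ : R)
    have h1 : IsUnit (1 - f * MvPowerSeries.X j) := by
      rw [MvPowerSeries.isUnit_iff_constantCoeff]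
      simp
    have h2 := h1.map γB
    rw [map_sub, map_one, map_mul, hf] at h2
    have h3 : (↑hu.unit⁻¹ : R) * γB (MvPowerSeries.X j) = 1 := by
      have := hu.unit.inv_mul
      rwa [IsUnit.unit_spec] at this
    rw [h3, sub_self] at h2
    exact not_isUnit_zero h2
  let y : Fin g → R := fun j => γB (MvPowerSeries.X j)
  have hxy : ∀ i : ι ⊕ Fin g, Sum.elim x y i ∈ maximalIdeal R := by
    rintro (i | j)
    · exact hx i
    · exact hy j
  refine ⟨evalCNL (R := 𝒪) (maximalIdeal R) (Sum.elim x y) hxy, ?_,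
    fun i => by rw [evalCNL_X]; rfl⟩
  apply surjective_of_map_maximalIdeal _ hres
  have hfun : (fun i => evalCNL (R := 𝒪) (maximalIdeal R) (Sum.elim x y) hxy
      (MvPowerSeries.X i)) = Sum.elim x y := funext fun i => evalCNL_X _ _ _ i
  rw [hfun]
  apply le_antisymm
  · refine sup_le ?_ ?_
    · rw [Ideal.map_le_iff_le_comap]
      intro c hc
      rw [Ideal.mem_comap]
      obtain ⟨a, ha⟩ := hres 0
      by_contra hcon
      have hu : IsUnit (algebraMap 𝒪 R c) := by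
        by_contra hnu
        exact hcon ((mem_maximalIdeal _).2 hnu)
      -- `𝒪 → R` is local because the residue field of `R` is that of `𝒪`
      have hloc : IsLocalHom (algebraMap 𝒪 R) := by
        refine ⟨fun b hb => ?_⟩
        by_contra hnb
        have hbm : b ∈ maximalIdeal 𝒪 := (mem_maximalIdeal _).2 hnb
        -- `1 - b * t` is a unit for every `t`, in particular for a lift of `(algebraMap b)⁻¹`
        obtain ⟨t, ht⟩ := hres (residue R (↑hb.unit⁻¹ : R))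
        have h1 : IsUnit (1 - b * t) := by
          by_contra hnu
          have h2 : (1 : 𝒪) - b * t ∈ maximalIdeal 𝒪 := (mem_maximalIdeal _).2 hnu
          have h3 := Ideal.add_mem _ h2 (Ideal.mul_mem_right t _ hbm)
          rw [sub_add_cancel] at h3
          exact (mem_maximalIdeal (1 : 𝒪)).1 h3 isUnit_one
        have h4 := h1.map (algebraMap 𝒪 R)
        have h5 : residue R (algebraMap 𝒪 R (1 - b * t)) = 0 := by
          rw [map_sub, map_one, map_mul, map_sub, map_one, map_mul]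
          rw [Function.comp_apply] at ht
          rw [ht, ← map_mul]
          have := hb.unit.mul_inv
          rw [IsUnit.unit_spec] at this
          rw [this, map_one, sub_self]
        exact ((residue_eq_zero_iff _).1 h5) h4
      exact hc (hloc.map_nonunit c hu)
    · rw [Ideal.span_le]
      rintro _ ⟨i, rfl⟩
      exact hxy i
  · intro r hr
    obtain ⟨f, rfl⟩ := hγB r
    have hf : f ∈ maximalIdeal (MvPowerSeries (Fin g) (MvPowerSeries ι 𝒪)) := by
      rw [mem_maximalIdeal, mem_nonunits_iff]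
      intro hu
      exact (mem_maximalIdeal _).1 hr (hu.map γB)
    have h1 : γB f ∈ Ideal.map γB
        (maximalIdeal (MvPowerSeries (Fin g) (MvPowerSeries ι 𝒪))) :=
      Ideal.mem_map_of_mem _ hf
    rw [map_maximalIdeal_mvPowerSeries γB] at h1
    have h2 : Ideal.map (algebraMap (MvPowerSeries ι 𝒪) R) (maximalIdeal (MvPowerSeries ι 𝒪)) ≤
        Ideal.map (algebraMap 𝒪 R) (maximalIdeal 𝒪) ⊔ Ideal.span (Set.range (Sum.elim x y)) := by
      have h3 := map_maximalIdeal_mvPowerSeries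
        (evalCNL (R := 𝒪) (maximalIdeal R) x hx)
      have h4 : Ideal.map (algebraMap (MvPowerSeries ι 𝒪) R)
          (maximalIdeal (MvPowerSeries ι 𝒪)) =
          Ideal.map (evalCNL (R := 𝒪) (maximalIdeal R) x hx)
            (maximalIdeal (MvPowerSeries ι 𝒪)) := rfl
      rw [h4, h3]
      refine sup_le le_sup_left ?_
      rw [Ideal.span_le]
      rintro _ ⟨i, rfl⟩
      show evalCNL (R := 𝒪) (maximalIdeal R) x hx (MvPowerSeries.X i) ∈ _
      rw [evalCNL_X]
      exact Ideal.mem_sup_right (Ideal.subset_span ⟨Sum.inl i, rfl⟩)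
    have h5 : Ideal.span (Set.range fun j => γB (MvPowerSeries.X j)) ≤
        Ideal.map (algebraMap 𝒪 R) (maximalIdeal 𝒪) ⊔ Ideal.span (Set.range (Sum.elim x y)) := by
      rw [Ideal.span_le]
      rintro _ ⟨j, rfl⟩
      exact Ideal.mem_sup_right (Ideal.subset_span ⟨Sum.inr j, rfl⟩)
    exact (sup_le h2 h5) h1

end CommAlg

section MainP8

variable {𝒪 : Type} [CommRing 𝒪] [IsDomain 𝒪] [IsDiscreteValuationRing 𝒪]
  [IsAdicComplete (maximalIdeal 𝒪) 𝒪]
  {ρbar : ResidualGaloisRep (ResidueField 𝒪)} {𝒟 : DefCond 𝒪}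
  {DQ : GaloisRep.DeformationRingData 𝒪 ρbar 𝒟}

attribute [local instance] Fermat.Agent.S56.tanAlgebra

/-- **(REL-P1, no frames, power series base).**  Let `x : ι → 𝔪_R` (`R = DQ.R`) be such that the
entries of the universal matrices `F.rR σ`, `σ ∈ D`, lie in the `𝒪`-subalgebra generated by the
`x i`.  If the tangent cocycles of type `𝒟` vanishing on `D` are represented modulo coboundaries
by a space of dimension `≤ g`, then `DQ.R` is a quotient of `𝒪⟦X_i (i ∈ ι), x₁, …, x_g⟧`, with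
`X_i ↦ x i`. -/
theorem exists_surjective_powerSeries_of_relSelCob [Finite (ResidueField 𝒪)]
    (p : ℕ) (hp : p.Prime)
    (hdet : ∀ ρ' : GaloisRepAdic (DualNumber (ResidueField 𝒪)), 𝒟 ρ' → ρ'.DetIsCyclotomic p)
    (hbc : ∀ (φ : TanHom 𝒪 DQ.R)
      (hφ : IsLocalHom (φ : DQ.R →+* DualNumber (ResidueField 𝒪))), Function.Surjective φ →
      𝒟 (DQ.ρ.baseChangeAlong (φ : DQ.R →+* DualNumber (ResidueField 𝒪)) hφ))
    (F : UFrame DQ) (D : Set GQ)
    {ι : Type} [Finite ι] (x : ι → DQ.R) (hx : ∀ i, x i ∈ maximalIdeal DQ.R)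
    (hD : ∀ σ ∈ D, ∀ i j, F.rR σ i j ∈ Algebra.adjoin 𝒪 (Set.range x))
    (g : ℕ) (hsel : RelSelCob 𝒪 ρbar 𝒟 D g) :
    ∃ γ : MvPowerSeries (ι ⊕ Fin g) 𝒪 →ₐ[𝒪] DQ.R,
      Function.Surjective γ ∧ ∀ i, γ (MvPowerSeries.X (Sum.inl i)) = x i := by
  refine exists_surjective_sum x hx DQ.residue_surjective g ?_
  letI : Algebra (MvPowerSeries ι 𝒪) DQ.R :=
    (evalCNL (R := 𝒪) (maximalIdeal DQ.R) x hx : MvPowerSeries ι 𝒪 →+* DQ.R).toAlgebra
  haveI : IsScalarTower 𝒪 (MvPowerSeries ι 𝒪) DQ.R :=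
    IsScalarTower.of_algebraMap_eq fun a =>
      ((evalCNL (R := 𝒪) (maximalIdeal DQ.R) x hx).commutes a).symm
  haveI : IsAdicComplete (maximalIdeal (MvPowerSeries ι 𝒪)) (MvPowerSeries ι 𝒪) :=
    isAdicComplete_mvPowerSeries
  refine exists_surjective_of_relSelCob (B := MvPowerSeries ι 𝒪) p hp hdet hbc F D ?_ g hsel
  intro σ hσ i j
  have hle : Algebra.adjoin 𝒪 (Set.range x) ≤
      (evalCNL (R := 𝒪) (maximalIdeal DQ.R) x hx).range := by
    apply Algebra.adjoin_le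
    rintro _ ⟨i, rfl⟩
    exact ⟨MvPowerSeries.X i, evalCNL_X _ _ _ i⟩
  obtain ⟨f, hf⟩ := hle (hD σ hσ i j)
  exact ⟨f, hf⟩

end MainP8

end

end Fermat.Agent.S38.H953

end
-- ===== PACK-END S38/H953/UnframedP8.lean

-- ===== PACK-BEGIN S38/H953/CobGlue.lean
section



/-!
# Route T (Ihara avoidance), Galois side: from the bound on the nose to the bound modulo
coboundaries (helper953)

If `ρ̄` is absolutely irreducible and `ρ̄(σ)` is SCALAR for every `σ ∈ D` (pivot primes), then all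
coboundaries vanish on `D`, the space `B¹` of coboundaries has dimension `3`, and

  `RelSel 𝒪 ρbar 𝒟 D r  ⟹  RelSelCob 𝒪 ρbar 𝒟 D (r − 3)`

(`relSelCob_of_relSel`): the relative tangent space of the UNFRAMED ring has dimension `≤ r − 3`.

Nothing unproved in this file.
-/

set_option autoImplicit false
set_option linter.unusedSectionVars false
set_option linter.unusedVariables false
set_option linter.style.haveILetI false

namespace Fermat.Agent.S38.H953

noncomputable section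

open IsLocalRing
open Fermat.Agent.S56 Fermat.Agent.S56.H716 Fermat.Agent.S56.H596

section Cob

variable {k : Type} [Field k] (ρbar : ResidualGaloisRep k)

/-- The coboundary map `m ↦ (σ ↦ ρ̄(σ) m ρ̄(σ)⁻¹ − m)`, as a linear map. -/
def cobMap : Module.End k ρbar.V →ₗ[k] (GQ → Module.End k ρbar.V) where
  toFun m := Fermat.Agent.S56.H606.cob ρbar m
  map_add' a b := by
    funext σ
    rw [Pi.add_apply, H606.cob_apply, H606.cob_apply, H606.cob_apply, mul_add, add_mul]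
    abel
  map_smul' r a := by
    funext σ
    rw [Pi.smul_apply, H606.cob_apply, H606.cob_apply, RingHom.id_apply, mul_smul_comm,
      smul_mul_assoc, smul_sub]

theorem cobMap_apply (m : Module.End k ρbar.V) (σ : GQ) :
    cobMap ρbar m σ = ρbar.ρ σ * m * ρbar.ρ σ⁻¹ - m := rfl

theorem isAdCoboundary_iff_mem_range (c : GQ → Module.End k ρbar.V) :
    IsAdCoboundary ρbar c ↔ c ∈ LinearMap.range (cobMap ρbar) := by
  constructor
  · rintro ⟨m, hm⟩
    exact ⟨m, funext fun σ => (hm σ).symm⟩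
  · rintro ⟨m, rfl⟩
    exact ⟨m, fun σ => rfl⟩

/-- **Schur**: the kernel of the coboundary map consists of scalars. -/
theorem ker_cobMap_le (habs : ρbar.IsAbsolutelyIrreducible) :
    LinearMap.ker (cobMap ρbar) ≤ Submodule.span k {(1 : Module.End k ρbar.V)} := by
  intro m hm
  rw [LinearMap.mem_ker] at hm
  obtain ⟨rb, hrb, ⟨e⟩⟩ := Fermat.Agent.S53.exists_toRes ρbar
  let E : ρbar.V ≃ₗ[k] (Fin 2 → k) := e.toLinearEquiv
  have hE : ∀ σ v, E (ρbar.ρ σ v) = (rb σ).mulVec (E v) := fun σ v => e.map_apply σ v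
  have hcomm : ∀ σ, m * ρbar.ρ σ = ρbar.ρ σ * m := by
    intro σ
    have h1 := congrFun hm σ
    rw [cobMap_apply, Pi.zero_apply, sub_eq_zero] at h1
    have h2 : ρbar.ρ σ⁻¹ * ρbar.ρ σ = 1 := by rw [← map_mul, inv_mul_cancel, map_one]
    calc m * ρbar.ρ σ = ρbar.ρ σ * m * ρbar.ρ σ⁻¹ * ρbar.ρ σ := by rw [h1]
      _ = ρbar.ρ σ * m := by rw [mul_assoc, h2, mul_one]
  have hX : ∀ σ, (matToEnd E).symm m * rb σ = rb σ * (matToEnd E).symm m := by
    intro σ
    apply (matToEnd E).injective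
    rw [map_mul, map_mul, RingEquiv.apply_symm_apply, ← rho_eq_matToEnd hE]
    exact hcomm σ
  obtain ⟨c, hc⟩ := Fermat.Agent.S53.schur_matrix ρbar habs rb hrb ⟨e⟩ _ hX
  have hm' : m = c • (1 : Module.End k ρbar.V) := by
    have h1 := congrArg (matToEnd E) hc
    rw [RingEquiv.apply_symm_apply] at h1
    rw [h1]
    refine LinearMap.ext fun v => ?_
    rw [matToEnd_apply, Matrix.smul_mulVec, Matrix.one_mulVec, map_smul,
      LinearEquiv.symm_apply_apply]
    rfl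
  rw [hm']
  exact Submodule.smul_mem _ _ (Submodule.subset_span rfl)

/-- The space of coboundaries has dimension `≥ 3`. -/
theorem three_le_finrank_range_cobMap (habs : ρbar.IsAbsolutelyIrreducible) :
    3 ≤ Module.finrank k (LinearMap.range (cobMap ρbar)) := by
  haveI : Module.Finite k ρbar.V := Module.finite_of_finrank_eq_succ ρbar.finrank_eq
  have h1 := LinearMap.finrank_range_add_finrank_ker (cobMap ρbar)
  have h2 : Module.finrank k (Module.End k ρbar.V) = 4 := by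
    rw [Module.finrank_linearMap, ρbar.finrank_eq]
  have h3 : Module.finrank k (LinearMap.ker (cobMap ρbar)) ≤ 1 := by
    calc Module.finrank k (LinearMap.ker (cobMap ρbar))
        ≤ Module.finrank k (Submodule.span k {(1 : Module.End k ρbar.V)}) :=
          Submodule.finrank_mono (ker_cobMap_le ρbar habs)
      _ ≤ 1 := by
          have := finrank_span_le_card (R := k) ({(1 : Module.End k ρbar.V)} : Set _)
          simpa using this
  omega

end Cob

section Glue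

variable {𝒪 : Type} [CommRing 𝒪] [IsLocalRing 𝒪]
  {ρbar : ResidualGaloisRep (ResidueField 𝒪)}

/-- **From the bound on the nose to the bound modulo coboundaries** (pivot case: `ρ̄` scalar on
`D`). -/
theorem relSelCob_of_relSel (habs : ρbar.IsAbsolutelyIrreducible) {𝒟 : DefCond 𝒪} {D : Set GQ}
    (hscal : ∀ σ ∈ D, ∀ m : Module.End (ResidueField 𝒪) ρbar.V,
      ρbar.ρ σ * m * ρbar.ρ σ⁻¹ = m)
    {r : ℕ} (h : RelSel 𝒪 ρbar 𝒟 D r) : RelSelCob 𝒪 ρbar 𝒟 D (r - 3) := by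
  classical
  obtain ⟨T, hTfin, hTr, hT⟩ := h
  haveI := hTfin
  set B1 := LinearMap.range (cobMap ρbar) with hB1
  -- the coboundaries lie in `T`
  have hB1T : B1 ≤ T := by
    rintro _ ⟨m, rfl⟩
    refine hT _ (Or.inr ⟨H606.isAdCocycle_cob ρbar m, ⟨m, fun σ => rfl⟩⟩) (fun σ hσ => ?_)
    rw [cobMap_apply, hscal σ hσ m, sub_self]
  obtain ⟨C, hC⟩ := Submodule.exists_isCompl B1
  have hsplit : ∀ c ∈ T, ∃ t ∈ T ⊓ C, IsAdCoboundary ρbar (c - t) := by
    intro c hc
    have hc' : c ∈ B1 ⊔ C := by rw [hC.sup_eq_top]; trivial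
    obtain ⟨b, hb, t, ht, hbt⟩ := Submodule.mem_sup.mp hc'
    have htT : t ∈ T := by
      have : t = c - b := by rw [← hbt]; abel
      rw [this]
      exact T.sub_mem hc (hB1T hb)
    refine ⟨t, ⟨htT, ht⟩, ?_⟩
    have : c - t = b := by rw [← hbt]; abel
    rw [this]
    exact (isAdCoboundary_iff_mem_range ρbar b).2 hb
  have hsup : B1 ⊔ (T ⊓ C) = T := by
    apply le_antisymm
    · exact sup_le hB1T inf_le_left
    · intro c hc
      obtain ⟨t, ht, hcob⟩ := hsplit c hc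
      have h1 : c = (c - t) + t := by abel
      rw [h1]
      exact Submodule.add_mem _
        (Submodule.mem_sup_left ((isAdCoboundary_iff_mem_range ρbar _).1 hcob))
        (Submodule.mem_sup_right ht)
  have hinf : B1 ⊓ (T ⊓ C) = ⊥ := by
    rw [eq_bot_iff]
    intro c hc
    have : c ∈ B1 ⊓ C := ⟨hc.1, hc.2.2⟩
    rwa [hC.inf_eq_bot] at this
  haveI : Module.Finite (ResidueField 𝒪) B1 := Module.Finite.of_injective
    (Submodule.inclusion hB1T) (Submodule.inclusion_injective hB1T)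
  haveI : Module.Finite (ResidueField 𝒪) ↥(T ⊓ C) := Module.Finite.of_injective
    (Submodule.inclusion (inf_le_left : T ⊓ C ≤ T)) (Submodule.inclusion_injective _)
  have hdim := Submodule.finrank_sup_add_finrank_inf_eq B1 (T ⊓ C)
  rw [hsup, hinf, finrank_bot, add_zero] at hdim
  have h3 : 3 ≤ Module.finrank (ResidueField 𝒪) B1 := three_le_finrank_range_cobMap ρbar habs
  have h4 : Module.finrank (ResidueField 𝒪) ↥(T ⊓ C) ≤ r - 3 := by omega
  refine ⟨T ⊓ C, inferInstance, h4, fun c hc hD => ?_⟩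
  exact hsplit c (hT c (Or.inl hc) hD)

end Glue

end

end Fermat.Agent.S38.H953

end
-- ===== PACK-END S38/H953/CobGlue.lean

-- ===== PACK-BEGIN S38/H953/Pivot.lean
section



/-!
# Route T (Ihara avoidance), Galois side: the presentation at the pivot primes (helper953)

Board v2 of row HARD, item (3) GAL:  `P₈^{⊗Π}⟦x₁, …, x_g⟧ ↠ R_Q`.

`J` indexes the pivot primes; for `j ∈ J` let `(φ j, σ j)` be a tame pair at the chosen place over
the `j`-th pivot: `ρ̄(φ j)` is the scalar `ā_j` (`a j ∈ 𝒪` a lift) and `ρ̄(σ j) = 1`.  The `8 #J`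
elements

  `pivX F φ σ a (j, false, i, i') = F.rR (φ j) i i' − a_j δ_{i i'}`,
  `pivX F φ σ a (j, true,  i, i') = F.rR (σ j) i i' − δ_{i i'}`

of `DQ.R` lie in the maximal ideal, and:

* `exists_surjective_pivots` : if the tangent cocycles of type `𝒟` vanishing at all `φ j`, `σ j`
  are represented modulo coboundaries by a space of dimension `≤ g`, then there is a surjection
  `γ : 𝒪⟦X_{j,b,i,i'}, x₁, …, x_g⟧ ↠ DQ.R` with `γ (X_{j,b,i,i'}) = pivX F φ σ a (j, b, i, i')`;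
* `exists_surjective_pivot_of_relSel` : one pivot, from the bound on the nose `RelSel … r`
  (helper183's `RelTWPrimes`): `g = r − 3`.

Nothing unproved in this file.
-/

set_option autoImplicit false
set_option linter.unusedSectionVars false
set_option linter.unusedVariables false
set_option linter.style.haveILetI false

namespace Fermat.Agent.S38.H953

noncomputable section

open IsLocalRing TrivSqZeroExt
open Fermat.Agent.S56 Fermat.Agent.S56.H716 Fermat.Agent.S56.H596 Fermat.Agent.S53.H596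

section Piv

variable {𝒪 : Type} [CommRing 𝒪] [IsDomain 𝒪] [IsDiscreteValuationRing 𝒪]
  [IsAdicComplete (maximalIdeal 𝒪) 𝒪]
  {ρbar : ResidualGaloisRep (ResidueField 𝒪)} {𝒟 : DefCond 𝒪}
  {DQ : GaloisRep.DeformationRingData 𝒪 ρbar 𝒟}

attribute [local instance] Fermat.Agent.S56.tanAlgebra

/-- The coordinates of the universal matrices at the pivot primes. -/
def pivX (F : UFrame DQ) {J : Type} (φ σ : J → GQ) (a : J → 𝒪) :
    J × Bool × Fin 2 × Fin 2 → DQ.R :=
  fun z => if z.2.1 then F.rR (σ z.1) z.2.2.1 z.2.2.2 -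
      (1 : Matrix (Fin 2) (Fin 2) DQ.R) z.2.2.1 z.2.2.2
    else F.rR (φ z.1) z.2.2.1 z.2.2.2 -
      algebraMap 𝒪 DQ.R (a z.1) * (1 : Matrix (Fin 2) (Fin 2) DQ.R) z.2.2.1 z.2.2.2

theorem matToEnd_smul_one {k : Type} [Field k] {V : Type} [AddCommGroup V] [Module k V]
    (E : V ≃ₗ[k] (Fin 2 → k)) (c : k) :
    matToEnd E (c • (1 : Matrix (Fin 2) (Fin 2) k)) = c • (1 : Module.End k V) := by
  refine LinearMap.ext fun v => ?_
  rw [matToEnd_apply, Matrix.smul_mulVec, Matrix.one_mulVec, map_smul,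
    LinearEquiv.symm_apply_apply]
  rfl

theorem conj_eq_of_scalar {k : Type} [Field k] (ρb : ResidualGaloisRep k) (τ : GQ) (c : k)
    (h : ρb.ρ τ = c • (1 : Module.End k ρb.V)) (m : Module.End k ρb.V) :
    ρb.ρ τ * m * ρb.ρ τ⁻¹ = m := by
  have h2 : ρb.ρ τ * ρb.ρ τ⁻¹ = 1 := by rw [← map_mul, mul_inv_cancel, map_one]
  calc ρb.ρ τ * m * ρb.ρ τ⁻¹ = c • (m * ρb.ρ τ⁻¹) := by
        rw [h, smul_mul_assoc, one_mul, smul_mul_assoc]
    _ = m * ((c • (1 : Module.End k ρb.V)) * ρb.ρ τ⁻¹) := by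
        rw [smul_mul_assoc, one_mul, mul_smul_comm]
    _ = m := by rw [← h, h2, mul_one]

theorem rb_eq_of_rho_eq (F : UFrame DQ) (τ : GQ) (M : Matrix (Fin 2) (Fin 2) (ResidueField 𝒪))
    (h : ρbar.ρ τ = matToEnd F.E M) : F.rb τ = M := by
  apply (matToEnd F.E).injective
  rw [← rho_eq_matToEnd F.hE τ, h]

theorem residue_rR (F : UFrame DQ) (τ : GQ) (i i' : Fin 2) :
    residue DQ.R (F.rR τ i i') = ResidueField.map (algebraMap 𝒪 DQ.R) (F.rb τ i i') := by
  have h1 := congrFun (congrFun (F.hlift τ) i) i'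
  simpa only [Matrix.map_apply] using h1

theorem one_apply_mem_range (i i' : Fin 2) :
    (1 : Matrix (Fin 2) (Fin 2) DQ.R) i i' =
      algebraMap 𝒪 DQ.R ((1 : Matrix (Fin 2) (Fin 2) 𝒪) i i') := by
  by_cases h : i = i'
  · subst h; simp
  · simp [h]

theorem pivX_mem {J : Type} (F : UFrame DQ) (φ σ : J → GQ) (a : J → 𝒪)
    (hφ : ∀ j, ρbar.ρ (φ j) = residue 𝒪 (a j) • (1 : Module.End (ResidueField 𝒪) ρbar.V))
    (hσ : ∀ j, ρbar.ρ (σ j) = 1) (z : J × Bool × Fin 2 × Fin 2) :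
    pivX F φ σ a z ∈ maximalIdeal DQ.R := by
  obtain ⟨j, b, i, i'⟩ := z
  rw [← residue_eq_zero_iff]
  cases b
  · have h1 : F.rb (φ j) = residue 𝒪 (a j) • (1 : Matrix (Fin 2) (Fin 2) (ResidueField 𝒪)) := by
      apply rb_eq_of_rho_eq
      rw [hφ j, matToEnd_smul_one]
    show residue DQ.R (F.rR (φ j) i i' -
      algebraMap 𝒪 DQ.R (a j) * (1 : Matrix (Fin 2) (Fin 2) DQ.R) i i') = 0
    rw [map_sub, map_mul, residue_rR, h1, one_apply_mem_range (DQ := DQ),
      ← ResidueField.map_residue, ← ResidueField.map_residue, ← map_mul, sub_eq_zero]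
    congr 1
    by_cases h : i = i'
    · subst h; simp
    · simp [h]
  · have h1 : F.rb (σ j) = 1 := by
      apply rb_eq_of_rho_eq
      rw [hσ j, map_one]
    show residue DQ.R (F.rR (σ j) i i' - (1 : Matrix (Fin 2) (Fin 2) DQ.R) i i') = 0
    rw [map_sub, residue_rR, h1, one_apply_mem_range (DQ := DQ), ← ResidueField.map_residue,
      sub_eq_zero]
    congr 1
    by_cases h : i = i'
    · subst h; simp
    · simp [h]

/-- **(GAL), item (3) of board v2**: presentation of the universal deformation ring over the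
power series ring on the coordinates of the universal matrices at the pivot primes. -/
theorem exists_surjective_pivots [Finite (ResidueField 𝒪)]
    (p : ℕ) (hp : p.Prime)
    (hdet : ∀ ρ' : GaloisRepAdic (DualNumber (ResidueField 𝒪)), 𝒟 ρ' → ρ'.DetIsCyclotomic p)
    (hbc : ∀ (φ : TanHom 𝒪 DQ.R)
      (hφ : IsLocalHom (φ : DQ.R →+* DualNumber (ResidueField 𝒪))), Function.Surjective φ →
      𝒟 (DQ.ρ.baseChangeAlong (φ : DQ.R →+* DualNumber (ResidueField 𝒪)) hφ))
    (F : UFrame DQ) {J : Type} [Finite J] (φ σ : J → GQ) (a : J → 𝒪)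
    (hφ : ∀ j, ρbar.ρ (φ j) = residue 𝒪 (a j) • (1 : Module.End (ResidueField 𝒪) ρbar.V))
    (hσ : ∀ j, ρbar.ρ (σ j) = 1)
    (g : ℕ) (hsel : RelSelCob 𝒪 ρbar 𝒟 (Set.range φ ∪ Set.range σ) g) :
    ∃ γ : MvPowerSeries ((J × Bool × Fin 2 × Fin 2) ⊕ Fin g) 𝒪 →ₐ[𝒪] DQ.R,
      Function.Surjective γ ∧
        ∀ z, γ (MvPowerSeries.X (Sum.inl z)) = pivX F φ σ a z := by
  refine exists_surjective_powerSeries_of_relSelCob p hp hdet hbc F _ (pivX F φ σ a)
    (pivX_mem F φ σ a hφ hσ) ?_ g hsel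
  intro τ hτ i i'
  rcases hτ with ⟨j, rfl⟩ | ⟨j, rfl⟩
  · have h1 : F.rR (φ j) i i' = pivX F φ σ a (j, false, i, i') +
        algebraMap 𝒪 DQ.R (a j * (1 : Matrix (Fin 2) (Fin 2) 𝒪) i i') := by
      rw [map_mul, ← one_apply_mem_range (DQ := DQ)]
      show _ = F.rR (φ j) i i' -
        algebraMap 𝒪 DQ.R (a j) * (1 : Matrix (Fin 2) (Fin 2) DQ.R) i i' + _
      ring
    rw [h1]
    exact Subalgebra.add_mem _ (Algebra.subset_adjoin ⟨_, rfl⟩) (Subalgebra.algebraMap_mem _ _)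
  · have h1 : F.rR (σ j) i i' = pivX F φ σ a (j, true, i, i') +
        algebraMap 𝒪 DQ.R ((1 : Matrix (Fin 2) (Fin 2) 𝒪) i i') := by
      rw [← one_apply_mem_range (DQ := DQ)]
      show _ = F.rR (σ j) i i' - (1 : Matrix (Fin 2) (Fin 2) DQ.R) i i' + _
      ring
    rw [h1]
    exact Subalgebra.add_mem _ (Algebra.subset_adjoin ⟨_, rfl⟩) (Subalgebra.algebraMap_mem _ _)

/-- **One pivot, from the bound on the nose**: `𝒪⟦8 + (r − 3) variables⟧ ↠ DQ.R`. -/
theorem exists_surjective_pivot_of_relSel [Finite (ResidueField 𝒪)]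
    (p : ℕ) (hp : p.Prime)
    (hdet : ∀ ρ' : GaloisRepAdic (DualNumber (ResidueField 𝒪)), 𝒟 ρ' → ρ'.DetIsCyclotomic p)
    (hbc : ∀ (φ : TanHom 𝒪 DQ.R)
      (hφ : IsLocalHom (φ : DQ.R →+* DualNumber (ResidueField 𝒪))), Function.Surjective φ →
      𝒟 (DQ.ρ.baseChangeAlong (φ : DQ.R →+* DualNumber (ResidueField 𝒪)) hφ))
    (F : UFrame DQ) (φ σ : GQ) (a : 𝒪)
    (hφ : ρbar.ρ φ = residue 𝒪 a • (1 : Module.End (ResidueField 𝒪) ρbar.V))
    (hσ : ρbar.ρ σ = 1)
    (r : ℕ) (hsel : RelSel 𝒪 ρbar 𝒟 {φ, σ} r) :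
    ∃ γ : MvPowerSeries ((Unit × Bool × Fin 2 × Fin 2) ⊕ Fin (r - 3)) 𝒪 →ₐ[𝒪] DQ.R,
      Function.Surjective γ ∧
        ∀ z, γ (MvPowerSeries.X (Sum.inl z)) =
          pivX F (fun _ : Unit => φ) (fun _ : Unit => σ) (fun _ : Unit => a) z := by
  have hset : (Set.range (fun _ : Unit => φ) ∪ Set.range (fun _ : Unit => σ)) = {φ, σ} := by
    ext τ
    simp only [Set.range_const, Set.mem_union, Set.mem_singleton_iff, Set.mem_insert_iff]
  refine exists_surjective_pivots p hp hdet hbc F (fun _ : Unit => φ) (fun _ : Unit => σ)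
    (fun _ : Unit => a) (fun _ => hφ) (fun _ => hσ) (r - 3) ?_
  rw [hset]
  refine relSelCob_of_relSel DQ.absIrr (fun τ hτ m => ?_) hsel
  rcases hτ with rfl | hτ
  · exact conj_eq_of_scalar ρbar τ _ hφ m
  · rw [Set.mem_singleton_iff.mp hτ]
    exact conj_eq_of_scalar ρbar σ 1 (by rw [hσ, one_smul]) m

end Piv

end

end Fermat.Agent.S38.H953

end
-- ===== PACK-END S38/H953/Pivot.lean

-- ===== PACK-BEGIN S38/IA/H474/TypeClause.lean
section
/-
Row HARD (row 37 hard case, Ihara avoidance, single-sided route E2) — leaf TYPE (board §3.4),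
in the frozen vocabulary of `S38/IA/Spec2.lean` (`LocAmb`, `vVar`, `wVar`, `typeIdeal`,
`IsTypeValue`, `IsTracelessCoords`): the (TYPE) clause of `IAGalStatement`.   helper474.
All proofs complete; the mathematics is Mathlib-only (`TypePsi.lean`, `TypeLeaf.lean`).

* `type_clause`      : matrices `Σ_q, Φ_q ∈ M₂(𝒪')` whose traceless coordinates are the values of
                       a point `x : P →ₐ[𝒪] 𝒪'` at `v_{q,j}`, `w_{q,j}`;
* `type_clause_end`  : endomorphisms `Σ_q, Φ_q` of a free rank-2 module over `R` with a basis, a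
                       map `γ : P →ₐ[𝒪] R` with `IsTracelessCoords`, and a point `y : R →ₐ[𝒪] 𝒪'`
                       (the exact shape of the last clause of `IAGalStatement`).
Conclusion of both: `∃ δ : Piv → 𝒪, (∀ q, IsTypeValue p q (δ q)) ∧ ∀ a ∈ typeIdeal 𝒪 g δ, … a = 0`.
-/



set_option autoImplicit false
set_option linter.style.haveILetI false
set_option linter.unusedSectionVars false

namespace Fermat.Agent.S38.IA.H474

open Matrix Polynomial IsLocalRing Fermat.Agent.S38.IA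

/-- In a local ring whose maximal ideal contains the odd prime `p`, `2` is a unit. -/
theorem isUnit_two_of_odd_prime_mem {A : Type*} [CommRing A] [IsLocalRing A] {p : ℕ}
    (hp : p.Prime) (hp2 : p ≠ 2) (hpA : (p : A) ∈ maximalIdeal A) : IsUnit (2 : A) := by
  rw [← IsLocalRing.notMem_maximalIdeal]
  intro h
  obtain ⟨k, hk⟩ := hp.eq_two_or_odd'.resolve_left hp2
  have h1 : (1 : A) ∈ maximalIdeal A := by
    have e : (1 : A) = (p : A) - 2 * (k : A) := by
      rw [hk]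
      push_cast
      ring
    rw [e]
    exact Ideal.sub_mem _ hpA (Ideal.mul_mem_right _ _ h)
  exact (Ideal.ne_top_iff_one _).mp (IsLocalRing.maximalIdeal.isMaximal A).ne_top h1

/-- **LEAF TYPE, frozen vocabulary, matrix form.** -/
theorem type_clause (p : ℕ) [Fact p.Prime] (hp2 : p ≠ 2)
    (𝒪 : Type) [CommRing 𝒪] [IsDomain 𝒪] [IsLocalRing 𝒪] (hp𝒪 : (p : 𝒪) ∈ maximalIdeal 𝒪)
    (Piv : Finset ℕ) (hPiv : ∀ q ∈ Piv, q.Prime ∧ p ∣ q - 1)
    (hroots : ∀ q ∈ Piv, ∀ m : ℕ, p ^ m ∣ q - 1 → ∃ ζ : 𝒪, IsPrimitiveRoot ζ (p ^ m))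
    (g : ℕ)
    (𝒪' : Type) [CommRing 𝒪'] [IsDomain 𝒪'] [Algebra 𝒪 𝒪']
    (m' : Ideal 𝒪') (hm' : m' ≠ ⊤) (hpm : (p : 𝒪') ∈ m') (hp0 : (p : 𝒪') ≠ 0)
    (x : LocAmb 𝒪 Piv g →ₐ[𝒪] 𝒪')
    (Sg Φ : Piv → Matrix (Fin 2) (Fin 2) 𝒪')
    (hdet : ∀ q, (Sg q).det = 1) (hΦ : ∀ q, (Φ q).det ≠ 0)
    (hconj : ∀ q : Piv, Φ q * Sg q = Sg q ^ (q : ℕ) * Φ q)
    (hSg : ∀ q i j, (Sg q - 1) i j ∈ m') (hNU : ∀ q, (Sg q).trace ≠ 2)
    (hv : ∀ q, 2 * x (vVar 𝒪 g q 0) = Sg q 0 0 - Sg q 1 1 ∧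
      x (vVar 𝒪 g q 1) = Sg q 0 1 ∧ x (vVar 𝒪 g q 2) = Sg q 1 0)
    (hw : ∀ q, 2 * x (wVar 𝒪 g q 0) = Φ q 0 0 - Φ q 1 1 ∧
      x (wVar 𝒪 g q 1) = Φ q 0 1 ∧ x (wVar 𝒪 g q 2) = Φ q 1 0) :
    ∃ δ : Piv → 𝒪, (∀ q : Piv, IsTypeValue p (q : ℕ) (δ q)) ∧
      ∀ a ∈ typeIdeal 𝒪 g δ, x a = 0 := by
  have hp : p.Prime := Fact.out
  have h2 : IsUnit (2 : 𝒪) := isUnit_two_of_odd_prime_mem hp hp2 hp𝒪
  have key : ∀ q : Piv, ∃ δ ζ : 𝒪, ζ ≠ 1 ∧ (∃ m : ℕ, ζ ^ p ^ m = 1) ∧ ζ ^ ((q : ℕ) - 1) = 1 ∧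
      2 * δ * ζ = ζ ^ 2 - 1 ∧
      x (vVar 𝒪 g q 0) ^ 2 + x (vVar 𝒪 g q 1) * x (vVar 𝒪 g q 2) = algebraMap 𝒪 𝒪' δ ^ 2 ∧
      ∀ i j : Fin 3, x (wVar 𝒪 g q i) * x (vVar 𝒪 g q j) -
        x (wVar 𝒪 g q j) * x (vVar 𝒪 g q i) = 0 := by
    intro q
    exact type_leaf (algebraMap 𝒪 𝒪') hp hp2 (hPiv q q.2).1.one_lt (hPiv q q.2).2 h2
      (hroots q q.2) m' hm' hpm hp0 (Sg q) (Φ q) (hdet q) (hΦ q) (hconj q) (hSg q) (hNU q)
      (fun j => x (vVar 𝒪 g q j)) (fun j => x (wVar 𝒪 g q j)) (hv q) (hw q)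
  choose δ ζ hζ1 hζp hζq hδ hQ hmin using key
  refine ⟨δ, fun q => ⟨ζ q, hζ1 q, hζp q, hζq q, hδ q⟩, ?_⟩
  have hle : typeIdeal 𝒪 g δ ≤ RingHom.ker (x : LocAmb 𝒪 Piv g →+* 𝒪') := by
    unfold typeIdeal
    rw [Ideal.span_le]
    rintro a (⟨q, rfl⟩ | ⟨q, i, j, rfl⟩)
    · change (x : LocAmb 𝒪 Piv g →+* 𝒪') _ = 0
      have hC : x (MvPowerSeries.C (δ q)) = algebraMap 𝒪 𝒪' (δ q) := by
        have : (MvPowerSeries.C (δ q) : LocAmb 𝒪 Piv g) =
            algebraMap 𝒪 (LocAmb 𝒪 Piv g) (δ q) := by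
          rw [MvPowerSeries.algebraMap_apply, Algebra.algebraMap_self, RingHom.id_apply]
        rw [this, AlgHom.commutes]
      rw [AlgHom.coe_toRingHom, map_sub, map_pow, hC]
      unfold qV
      rw [map_add, map_pow, map_mul, hQ q, sub_self]
    · change (x : LocAmb 𝒪 Piv g →+* 𝒪') _ = 0
      unfold minor
      rw [AlgHom.coe_toRingHom, map_sub, map_mul, map_mul]
      exact hmin q i j
  intro a ha
  exact hle ha

/-- **LEAF TYPE, frozen vocabulary, endomorphism form** (the shape of the last clause of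
`IAGalStatement`): `γ : P →ₐ[𝒪] R` carries `v_{q,j}`, `w_{q,j}` to the traceless coordinates of
`Σ_q, Φ_q ∈ End_R(V)` in the basis `bas`; `y : R →ₐ[𝒪] 𝒪'` a point with values in a domain `𝒪'`
(`p ≠ 0` in `𝒪'`, `p ∈ m' ≠ ⊤`) at which `Σ_q ≡ 1 mod m'` and `Σ_q` is not unipotent. -/
theorem type_clause_end (p : ℕ) [Fact p.Prime] (hp2 : p ≠ 2)
    (𝒪 : Type) [CommRing 𝒪] [IsDomain 𝒪] [IsLocalRing 𝒪] (hp𝒪 : (p : 𝒪) ∈ maximalIdeal 𝒪)
    (Piv : Finset ℕ) (hPiv : ∀ q ∈ Piv, q.Prime ∧ p ∣ q - 1)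
    (hroots : ∀ q ∈ Piv, ∀ m : ℕ, p ^ m ∣ q - 1 → ∃ ζ : 𝒪, IsPrimitiveRoot ζ (p ^ m))
    (g : ℕ)
    {R : Type} [CommRing R] [Algebra 𝒪 R] (γ : LocAmb 𝒪 Piv g →ₐ[𝒪] R)
    {V : Type} [AddCommGroup V] [Module R V] [Module.Free R V] [Module.Finite R V]
    (bas : Module.Basis (Fin 2) R V) (Sg Φ : Piv → Module.End R V)
    (hv : ∀ q : Piv, IsTracelessCoords bas (Sg q) (fun j => γ (vVar 𝒪 g q j)))
    (hw : ∀ q : Piv, IsTracelessCoords bas (Φ q) (fun j => γ (wVar 𝒪 g q j)))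
    (hdet : ∀ q, LinearMap.det (Sg q) = 1)
    (hconj : ∀ q : Piv, Φ q * Sg q = Sg q ^ (q : ℕ) * Φ q)
    (𝒪' : Type) [CommRing 𝒪'] [IsDomain 𝒪'] [Algebra 𝒪 𝒪'] (y : R →ₐ[𝒪] 𝒪')
    (m' : Ideal 𝒪') (hm' : m' ≠ ⊤) (hpm : (p : 𝒪') ∈ m') (hp0 : (p : 𝒪') ≠ 0)
    (hΦ : ∀ q, y (LinearMap.det (Φ q)) ≠ 0)
    (hSg : ∀ q i j, y ((LinearMap.toMatrix bas bas (Sg q) - 1) i j) ∈ m')
    (hNU : ∀ q, (LinearMap.charpoly (Sg q)).map (y : R →+* 𝒪') ≠ ((X : 𝒪'[X]) - 1) ^ 2) :
    ∃ δ : Piv → 𝒪, (∀ q : Piv, IsTypeValue p (q : ℕ) (δ q)) ∧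
      ∀ a ∈ typeIdeal 𝒪 g δ, y (γ a) = 0 := by
  have hmapdet : ∀ f : Module.End R V,
      ((LinearMap.toMatrix bas bas f).map (y : R →+* 𝒪')).det = y (LinearMap.det f) := by
    intro f
    have e : ((LinearMap.toMatrix bas bas f).map (y : R →+* 𝒪')).det =
        (y : R →+* 𝒪') (LinearMap.toMatrix bas bas f).det := (RingHom.map_det _ _).symm
    rw [e, LinearMap.det_toMatrix]
    rfl
  have hdetS : ∀ q, ((LinearMap.toMatrix bas bas (Sg q)).map (y : R →+* 𝒪')).det = 1 := by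
    intro q
    rw [hmapdet, hdet q, map_one]
  have h := type_clause p hp2 𝒪 hp𝒪 Piv hPiv hroots g 𝒪' m' hm' hpm hp0 (y.comp γ)
    (fun q => (LinearMap.toMatrix bas bas (Sg q)).map (y : R →+* 𝒪'))
    (fun q => (LinearMap.toMatrix bas bas (Φ q)).map (y : R →+* 𝒪'))
    hdetS
    (fun q => by rw [hmapdet]; exact hΦ q)
    (fun q => by
      rw [← Matrix.map_mul, ← LinearMap.toMatrix_mul, hconj q, LinearMap.toMatrix_mul,
        Matrix.map_mul, ← LinearMap.toMatrix_pow]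
      congr 1
      exact map_pow (RingHom.mapMatrix (y : R →+* 𝒪')) _ _)
    (fun q i j => by
      have h1 := hSg q i j
      have e : ((LinearMap.toMatrix bas bas (Sg q)).map (y : R →+* 𝒪') - 1) i j =
          y ((LinearMap.toMatrix bas bas (Sg q) - 1) i j) := by
        rw [Matrix.sub_apply, Matrix.sub_apply, Matrix.map_apply, map_sub]
        by_cases hij : i = j
        · subst hij
          rw [Matrix.one_apply_eq, Matrix.one_apply_eq, map_one]
          rfl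
        · rw [Matrix.one_apply_ne hij, Matrix.one_apply_ne hij, map_zero]
          rfl
      rw [e]
      exact h1)
    (fun q => by
      intro htr
      apply hNU q
      rw [← LinearMap.charpoly_toMatrix (Sg q) bas, ← Matrix.charpoly_map]
      exact (charpoly_eq_sq_iff_trace _ (hdetS q)).mpr htr)
    (fun q => by
      obtain ⟨h0, h1, h2⟩ := hv q
      refine ⟨?_, ?_, ?_⟩
      · have := congrArg y h0
        rw [map_mul, map_sub, map_ofNat] at this
        simpa using this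
      · have := congrArg y h1
        simpa using this
      · have := congrArg y h2
        simpa using this)
    (fun q => by
      obtain ⟨h0, h1, h2⟩ := hw q
      refine ⟨?_, ?_, ?_⟩
      · have := congrArg y h0
        rw [map_mul, map_sub, map_ofNat] at this
        simpa using this
      · have := congrArg y h1
        simpa using this
      · have := congrArg y h2
        simpa using this)
  obtain ⟨δ, hδ, hker⟩ := h
  exact ⟨δ, hδ, fun a ha => hker a ha⟩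

end Fermat.Agent.S38.IA.H474

end
-- ===== PACK-END S38/IA/H474/TypeClause.lean

-- ===== PACK-BEGIN S38/H953/LocAmbPres.lean
section




/-!
# Row HARD, leaf GAL: the presentation `LocAmb ↠ R_Q` in traceless coordinates (helper953)

Glue item (C) "COORD" for `Fermat.Agent.S38.IA.IAGalStatement` (trunk `S38/IA/Spec2.lean`).

Let `DQ` be a universal deformation ring, `F` a matrix frame of its universal deformation and
`(φ j, σ j)`, `j ∈ κ`, elements of `G_ℚ` with `ρ̄(σ j) = 1`, `ρ̄(φ j)` scalar,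
`det ρ(σ j) = 1`, `det ρ(φ j) = qn j ≡ 1 mod 𝔪_𝒪` (`2 ∈ 𝒪ˣ`).  The TRACELESS COORDINATES of
`Σ = F.rR (σ j)` and `Φ = F.rR (φ j)` are the `6 #κ` elements `locX F φ σ h` of `𝔪_R`.

* `entries_mem_range_locX` : all entries of `Σ` and `Φ` lie in the image of
  `evalCNL … : 𝒪⟦κ × Fin 6⟧ → DQ.R` (`X ↦` traceless coordinates): the half-traces are the square
  roots of `1 + Q(v)`, `qn + Q(w)` with the right residue (Hensel's lemma in `𝒪⟦κ × Fin 6⟧`).
* `exists_locAmb_of_bform` : from the relative presentation in `B`-form (the body of helper1's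
  `IAGalAt`): a basis `bas` of the universal deformation with matrices `F.rR` and a SURJECTION
  `γ : LocAmb 𝒪 κ g ↠ DQ.R` with `γ (vVar j ·)`, `γ (wVar j ·)` the traceless coordinates.
* `exists_locAmb_of_relSelCob` : the same from the bound `RelSelCob … g`.
* `det_frob_eq_953`, `det_inertia_eq_one_953` : the determinant clauses, from `DetIsCyclotomic`.

Nothing unproved in this file.
-/

set_option autoImplicit false
set_option linter.unusedSectionVars false
set_option linter.unusedVariables false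
set_option linter.style.haveILetI false

namespace Fermat.Agent.S38.H953

noncomputable section

open IsLocalRing Polynomial
open Fermat.Agent.S56 Fermat.Agent.S56.H716 Fermat.Agent.S56.H596 Fermat.Agent.S53.H596

/-! ### Square roots -/

section Sqrt

/-- Hensel: a `1`-unit of a complete local ring with `2` invertible has a square root which is
a `1`-unit. -/
theorem exists_sqrt_of_sub_one_mem {B : Type*} [CommRing B] [IsLocalRing B]
    [IsAdicComplete (maximalIdeal B) B] (h2 : IsUnit (2 : B))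
    (u : B) (hu : u - 1 ∈ maximalIdeal B) : ∃ s : B, s ^ 2 = u ∧ s - 1 ∈ maximalIdeal B := by
  have hH : HenselianRing B (maximalIdeal B) := inferInstance
  obtain ⟨a, ha, ha1⟩ := hH.is_henselian (X ^ 2 - C u) (monic_X_pow_sub_C u (by norm_num)) 1
    (by
      have : eval 1 (X ^ 2 - C u) = -(u - 1) := by simp
      rw [this]
      exact neg_mem hu)
    (by
      have : eval 1 (derivative (X ^ 2 - C u)) = 2 := by
        simp
        exact one_add_one_eq_two
      rw [this]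
      exact h2.map _)
  refine ⟨a, ?_, ha1⟩
  have h3 : eval a (X ^ 2 - C u) = 0 := ha
  simpa [sub_eq_zero] using h3

/-- Two units of a local ring (`2` invertible) with the same square and the same residue are
equal. -/
theorem eq_of_sq_eq_sq_of_sub_mem {R : Type*} [CommRing R] [IsLocalRing R] (h2 : IsUnit (2 : R))
    {s t : R} (hs : IsUnit s) (hst : s - t ∈ maximalIdeal R) (h : s ^ 2 = t ^ 2) : s = t := by
  have h1 : (s + t) * (s - t) = 0 := by
    have : (s + t) * (s - t) = s ^ 2 - t ^ 2 := by ring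
    rw [this, h, sub_self]
  have hu : IsUnit (s + t) := by
    by_contra hnu
    have h3 : s + t ∈ maximalIdeal R := (mem_maximalIdeal _).2 hnu
    have h4 := Ideal.add_mem _ h3 hst
    have h5 : s + t + (s - t) = 2 * s := by ring
    rw [h5] at h4
    exact (mem_maximalIdeal _).1 h4 (h2.mul hs)
  exact sub_eq_zero.mp ((hu.mul_right_eq_zero).mp h1)

end Sqrt

/-! ### Traceless coordinates of a `2 × 2` matrix -/

section TC

variable {R : Type*} [CommRing R]

/-- The traceless coordinates of a `2 × 2` matrix (`h` is an inverse of `2`). -/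
def tcoord (h : R) (M : Matrix (Fin 2) (Fin 2) R) : Fin 3 → R :=
  ![h * (M 0 0 - M 1 1), M 0 1, M 1 0]

/-- Half of the trace (`h` is an inverse of `2`). -/
def halfTr (h : R) (M : Matrix (Fin 2) (Fin 2) R) : R := h * (M 0 0 + M 1 1)

/-- The quadratic form `Q(u) = u₀² + u₁ u₂`. -/
def qForm (u : Fin 3 → R) : R := u 0 ^ 2 + u 1 * u 2

@[simp] theorem tcoord_zero (h : R) (M : Matrix (Fin 2) (Fin 2) R) :
    tcoord h M 0 = h * (M 0 0 - M 1 1) := rfl

@[simp] theorem tcoord_one (h : R) (M : Matrix (Fin 2) (Fin 2) R) : tcoord h M 1 = M 0 1 := rfl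

@[simp] theorem tcoord_two (h : R) (M : Matrix (Fin 2) (Fin 2) R) : tcoord h M 2 = M 1 0 := rfl

theorem two_mul_tcoord_zero {h : R} (hh : 2 * h = 1) (M : Matrix (Fin 2) (Fin 2) R) :
    2 * tcoord h M 0 = M 0 0 - M 1 1 := by
  rw [tcoord_zero]
  linear_combination (M 0 0 - M 1 1) * hh

theorem halfTr_sq {h : R} (hh : 2 * h = 1) (M : Matrix (Fin 2) (Fin 2) R) :
    halfTr h M ^ 2 = M.det + qForm (tcoord h M) := by
  rw [halfTr, qForm, tcoord_zero, tcoord_one, tcoord_two, Matrix.det_fin_two]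
  linear_combination (M 0 0 * M 1 1) * (2 * h + 1) * hh

theorem apply_zero_zero_eq {h : R} (hh : 2 * h = 1) (M : Matrix (Fin 2) (Fin 2) R) :
    M 0 0 = halfTr h M + tcoord h M 0 := by
  rw [halfTr, tcoord_zero]
  linear_combination (-(M 0 0)) * hh

theorem apply_one_one_eq {h : R} (hh : 2 * h = 1) (M : Matrix (Fin 2) (Fin 2) R) :
    M 1 1 = halfTr h M - tcoord h M 0 := by
  rw [halfTr, tcoord_zero]
  linear_combination (-(M 1 1)) * hh

end TC

/-! ### Evaluation of power series and square roots -/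

section Range

variable {𝒪 : Type} [CommRing 𝒪] [IsLocalRing 𝒪] [IsNoetherianRing 𝒪]
  [IsAdicComplete (maximalIdeal 𝒪) 𝒪]
  {R : Type} [CommRing R] [IsLocalRing R] [IsAdicComplete (maximalIdeal R) R] [Algebra 𝒪 R]
  {ι : Type} [Finite ι]

theorem evalCNL_mem_maximalIdeal (hloc : IsLocalHom (algebraMap 𝒪 R)) (x : ι → R)
    (hx : ∀ i, x i ∈ maximalIdeal R) {f : MvPowerSeries ι 𝒪}
    (hf : f ∈ maximalIdeal (MvPowerSeries ι 𝒪)) :
    evalCNL (R := 𝒪) (maximalIdeal R) x hx f ∈ maximalIdeal R := by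
  have h1 : evalCNL (R := 𝒪) (maximalIdeal R) x hx f ∈
      Ideal.map (evalCNL (R := 𝒪) (maximalIdeal R) x hx)
        (maximalIdeal (MvPowerSeries ι 𝒪)) := Ideal.mem_map_of_mem _ hf
  rw [map_maximalIdeal_mvPowerSeries] at h1
  refine (sup_le ?_ ?_ : _ ≤ maximalIdeal R) h1
  · rw [Ideal.map_le_iff_le_comap]
    intro c hc
    rw [Ideal.mem_comap, mem_maximalIdeal, mem_nonunits_iff]
    intro hu
    exact (mem_maximalIdeal _).1 hc (hloc.map_nonunit c hu)
  · rw [Ideal.span_le]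
    rintro _ ⟨i, rfl⟩
    show evalCNL (R := 𝒪) (maximalIdeal R) x hx (MvPowerSeries.X i) ∈ maximalIdeal R
    rw [evalCNL_X]
    exact hx i

/-- An element `t` of `R` whose square is the value of a `1`-unit `u` of `𝒪⟦ι⟧` and whose residue
is that of a square root `ε ∈ 𝒪` of `1` is a value of the evaluation map. -/
theorem mem_range_evalCNL_of_sq (hloc : IsLocalHom (algebraMap 𝒪 R)) (x : ι → R)
    (hx : ∀ i, x i ∈ maximalIdeal R) (h2 : IsUnit (2 : 𝒪))
    (u : MvPowerSeries ι 𝒪) (hu : u - 1 ∈ maximalIdeal (MvPowerSeries ι 𝒪))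
    (ε : 𝒪) (hε : ε ^ 2 = 1) (t : R)
    (ht : t ^ 2 = evalCNL (R := 𝒪) (maximalIdeal R) x hx u)
    (htε : t - algebraMap 𝒪 R ε ∈ maximalIdeal R) :
    t ∈ Set.range (evalCNL (R := 𝒪) (maximalIdeal R) x hx) := by
  haveI : IsAdicComplete (maximalIdeal (MvPowerSeries ι 𝒪)) (MvPowerSeries ι 𝒪) :=
    isAdicComplete_mvPowerSeries
  have h2B : IsUnit (2 : MvPowerSeries ι 𝒪) := by
    have := h2.map (algebraMap 𝒪 (MvPowerSeries ι 𝒪))
    rwa [map_ofNat] at this
  have h2R : IsUnit (2 : R) := by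
    have := h2.map (algebraMap 𝒪 R)
    rwa [map_ofNat] at this
  obtain ⟨s, hs, hs1⟩ := exists_sqrt_of_sub_one_mem h2B u hu
  have hεu : IsUnit ε := IsUnit.of_pow_eq_one hε (by norm_num)
  have hεR : IsUnit (algebraMap 𝒪 R ε) := hεu.map _
  refine ⟨algebraMap 𝒪 (MvPowerSeries ι 𝒪) ε * s, ?_⟩
  rw [map_mul, AlgHom.commutes]
  symm
  -- `t` is a unit
  have htu : IsUnit t := by
    by_contra hnu
    have h3 : t ∈ maximalIdeal R := (mem_maximalIdeal _).2 hnu
    have h4 := Ideal.sub_mem _ h3 htε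
    rw [sub_sub_cancel] at h4
    exact (mem_maximalIdeal _).1 h4 hεR
  apply eq_of_sq_eq_sq_of_sub_mem h2R htu
  · have h5 := evalCNL_mem_maximalIdeal hloc x hx hs1
    rw [map_sub, map_one] at h5
    have h6 : t - algebraMap 𝒪 R ε * evalCNL (R := 𝒪) (maximalIdeal R) x hx s =
        (t - algebraMap 𝒪 R ε) -
          algebraMap 𝒪 R ε * (evalCNL (R := 𝒪) (maximalIdeal R) x hx s - 1) := by ring
    rw [h6]
    exact Ideal.sub_mem _ htε (Ideal.mul_mem_left _ _ h5)
  · rw [mul_pow, ← map_pow, ← map_pow, hε, hs, map_one, one_mul, ht]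

end Range

/-! ### The determinant clauses -/

section Det

variable {A : Type} [CommRing A] [IsLocalRing A] [IsNoetherianRing A]

/-- An element of a Noetherian local ring divisible by all powers of `p ∈ 𝔪` is zero. -/
theorem eq_zero_of_forall_mem_span_pow_953 {p : ℕ} (hp : (p : A) ∈ maximalIdeal A) {z : A}
    (h : ∀ n : ℕ, z ∈ Ideal.span {((p ^ n : ℕ) : A)}) : z = 0 := by
  have hbot := Ideal.iInf_pow_eq_bot_of_isLocalRing (maximalIdeal A) (Ideal.IsPrime.ne_top')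
  rw [← Ideal.mem_bot, ← hbot, Ideal.mem_iInf]
  intro n
  have hle : Ideal.span {((p ^ n : ℕ) : A)} ≤ maximalIdeal A ^ n := by
    rw [Ideal.span_le, Set.singleton_subset_iff, Nat.cast_pow]
    exact Ideal.pow_mem_pow hp n
  exact hle (h n)

/-- The determinant of a Frobenius element at `q ≠ p` is `q`. -/
theorem det_frob_eq_953 {p : ℕ} (hp : p.Prime) {ρ : GaloisRepAdic A} (hdet : ρ.DetIsCyclotomic p)
    {q : ℕ} (hq : q.Prime) (hqp : q ≠ p) {P : ValuationSubring Qb} (hP : P.LiesOverPrime q)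
    {φ : GQ} (hφ : P.IsFrobeniusAt φ q) :
    LinearMap.det (ρ.ρ φ) = (q : A) := by
  haveI : Fact p.Prime := ⟨hp⟩
  rw [← sub_eq_zero]
  apply eq_zero_of_forall_mem_span_pow_953 hdet.1
  intro n
  exact hdet.2 n φ q fun μ hμ =>
    Fermat.Agent.S30.H870.frob_root_pow_eq p hq hqp P hP φ hφ hμ

/-- The determinant of an element of inertia at `q ≠ p` is `1`. -/
theorem det_inertia_eq_one_953 {p : ℕ} (hp : p.Prime) {ρ : GaloisRepAdic A}
    (hdet : ρ.DetIsCyclotomic p)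
    {q : ℕ} (hq : q.Prime) (hqp : q ≠ p) {P : ValuationSubring Qb} (hP : P.LiesOverPrime q)
    {σ : GQ} (hσ : σ ∈ P.inertiaSubgroupIn ℚ) :
    LinearMap.det (ρ.ρ σ) = 1 := by
  haveI : Fact p.Prime := ⟨hp⟩
  rw [← sub_eq_zero]
  apply eq_zero_of_forall_mem_span_pow_953 hdet.1
  intro n
  have := hdet.2 n σ 1 fun μ hμ => by
    rw [pow_one]
    exact Fermat.Agent.S30.H870.inertia_root_eq p hq hqp P hP σ hσ hμ
  rwa [Nat.cast_one] at this

end Det

/-! ### The basis of the universal deformation given by a frame -/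

section Basis

variable {𝒪 : Type} [CommRing 𝒪] [IsDomain 𝒪] [IsDiscreteValuationRing 𝒪]
  [IsAdicComplete (maximalIdeal 𝒪) 𝒪]
  {ρbar : ResidualGaloisRep (ResidueField 𝒪)} {𝒟 : DefCond 𝒪}
  {DQ : GaloisRep.DeformationRingData 𝒪 ρbar 𝒟}

/-- The coordinate system of the universal deformation given by a frame. -/
def UFrame.ER (F : UFrame DQ) : DQ.ρ.V ≃ₗ[DQ.R] (Fin 2 → DQ.R) := F.eR.toLinearEquiv

theorem UFrame.hER (F : UFrame DQ) (τ : GQ) (v : DQ.ρ.V) :
    F.ER (DQ.ρ.ρ τ v) = (F.rR τ).mulVec (F.ER v) := F.eR.map_apply τ v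

/-- The basis of the universal deformation given by a frame. -/
def UFrame.basis (F : UFrame DQ) : Module.Basis (Fin 2) DQ.R DQ.ρ.V :=
  Module.Basis.ofEquivFun F.ER

theorem UFrame.toMatrix_basis (F : UFrame DQ) (τ : GQ) :
    LinearMap.toMatrix F.basis F.basis (DQ.ρ.ρ τ) = F.rR τ := by
  classical
  ext i j
  rw [LinearMap.toMatrix_apply]
  have h1 : F.ER (F.basis j) = Pi.single j 1 := by
    rw [UFrame.basis, Module.Basis.coe_ofEquivFun, LinearEquiv.apply_symm_apply]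
  have h2 : F.basis.repr (DQ.ρ.ρ τ (F.basis j)) i = F.ER (DQ.ρ.ρ τ (F.basis j)) i := by
    rw [UFrame.basis, Module.Basis.ofEquivFun_repr_apply]
  rw [h2, F.hER, h1, Matrix.mulVec_single_one]
  rfl

theorem UFrame.det_rR (F : UFrame DQ) (τ : GQ) :
    (F.rR τ).det = LinearMap.det (DQ.ρ.ρ τ) := by
  rw [← F.toMatrix_basis τ, LinearMap.det_toMatrix]

end Basis

/-! ### The traceless coordinates at the pivots -/

section Main

variable {𝒪 : Type} [CommRing 𝒪] [IsDomain 𝒪] [IsDiscreteValuationRing 𝒪]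
  [IsAdicComplete (maximalIdeal 𝒪) 𝒪]
  {ρbar : ResidualGaloisRep (ResidueField 𝒪)} {𝒟 : DefCond 𝒪}
  {DQ : GaloisRep.DeformationRingData 𝒪 ρbar 𝒟}

attribute [local instance] Fermat.Agent.S56.tanAlgebra

/-- The traceless coordinates of the universal matrices at the pivots: index `(j, i)` with
`i < 3` belongs to `σ j`, index `(j, 3 + i)` to `φ j`. -/
def locX (F : UFrame DQ) {κ : Type} (φ σ : κ → GQ) (h : DQ.R) : κ × Fin 6 → DQ.R :=
  fun z => (Fin.append (tcoord h (F.rR (σ z.1))) (tcoord h (F.rR (φ z.1))) :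
    Fin (3 + 3) → DQ.R) z.2

theorem locX_castLE (F : UFrame DQ) {κ : Type} (φ σ : κ → GQ) (h : DQ.R) (j : κ) (i : Fin 3)
    (h36 : 3 ≤ 6) :
    locX F φ σ h (j, Fin.castLE h36 i) = tcoord h (F.rR (σ j)) i :=
  Fin.append_left _ _ i

theorem locX_natAdd (F : UFrame DQ) {κ : Type} (φ σ : κ → GQ) (h : DQ.R) (j : κ) (i : Fin 3) :
    locX F φ σ h (j, Fin.natAdd 3 i) = tcoord h (F.rR (φ j)) i :=
  Fin.append_right _ _ i

theorem rb_eq_smul_one (F : UFrame DQ) (τ : GQ) (c : ResidueField 𝒪)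
    (hτ : ρbar.ρ τ = c • (1 : Module.End (ResidueField 𝒪) ρbar.V)) :
    F.rb τ = c • (1 : Matrix (Fin 2) (Fin 2) (ResidueField 𝒪)) := by
  apply rb_eq_of_rho_eq
  rw [hτ, matToEnd_smul_one]

theorem residue_rR_of_scalar (F : UFrame DQ) (τ : GQ) (c : ResidueField 𝒪)
    (hτ : ρbar.ρ τ = c • (1 : Module.End (ResidueField 𝒪) ρbar.V)) (i i' : Fin 2) :
    residue DQ.R (F.rR τ i i') =
      if i = i' then ResidueField.map (algebraMap 𝒪 DQ.R) c else 0 := by
  rw [residue_rR, rb_eq_smul_one F τ c hτ]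
  by_cases h : i = i'
  · subst h; simp
  · simp [h]

theorem tcoord_mem_of_scalar (F : UFrame DQ) (h : DQ.R) (τ : GQ) (c : ResidueField 𝒪)
    (hτ : ρbar.ρ τ = c • (1 : Module.End (ResidueField 𝒪) ρbar.V)) (i : Fin 3) :
    tcoord h (F.rR τ) i ∈ maximalIdeal DQ.R := by
  rw [← residue_eq_zero_iff]
  fin_cases i
  · show residue DQ.R (h * (F.rR τ 0 0 - F.rR τ 1 1)) = 0
    rw [map_mul, map_sub, residue_rR_of_scalar F τ c hτ, residue_rR_of_scalar F τ c hτ]
    simp
  · show residue DQ.R (F.rR τ 0 1) = 0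
    rw [residue_rR_of_scalar F τ c hτ]
    simp
  · show residue DQ.R (F.rR τ 1 0) = 0
    rw [residue_rR_of_scalar F τ c hτ]
    simp

theorem locX_mem (F : UFrame DQ) {κ : Type} (φ σ : κ → GQ) (h : DQ.R)
    (hφ : ∀ j, ∃ c : ResidueField 𝒪,
      ρbar.ρ (φ j) = c • (1 : Module.End (ResidueField 𝒪) ρbar.V))
    (hσ : ∀ j, ρbar.ρ (σ j) = 1) (z : κ × Fin 6) :
    locX F φ σ h z ∈ maximalIdeal DQ.R := by
  obtain ⟨j, i⟩ := z
  have hσ' : ρbar.ρ (σ j) = (1 : ResidueField 𝒪) • (1 : Module.End (ResidueField 𝒪) ρbar.V) := by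
    rw [hσ j, one_smul]
  obtain ⟨c, hc⟩ := hφ j
  refine Fin.addCases (m := 3) (n := 3)
    (motive := fun i => locX F φ σ h (j, i) ∈ maximalIdeal DQ.R) (fun i => ?_) (fun i => ?_) i
  · show (Fin.append (tcoord h (F.rR (σ j))) (tcoord h (F.rR (φ j))) :
      Fin (3 + 3) → DQ.R) (Fin.castAdd 3 i) ∈ _
    rw [Fin.append_left]
    exact tcoord_mem_of_scalar F h _ 1 hσ' i
  · show (Fin.append (tcoord h (F.rR (σ j))) (tcoord h (F.rR (φ j))) :
      Fin (3 + 3) → DQ.R) (Fin.natAdd 3 i) ∈ _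
    rw [Fin.append_right]
    exact tcoord_mem_of_scalar F h _ c hc i

theorem halfTr_sub_mem (F : UFrame DQ) (h : 𝒪) (hh : 2 * h = 1) (τ : GQ) (ε : 𝒪)
    (hτ : ρbar.ρ τ = residue 𝒪 ε • (1 : Module.End (ResidueField 𝒪) ρbar.V)) :
    halfTr (algebraMap 𝒪 DQ.R h) (F.rR τ) - algebraMap 𝒪 DQ.R ε ∈ maximalIdeal DQ.R := by
  have hhR : 2 * algebraMap 𝒪 DQ.R h = 1 := by
    rw [← map_ofNat (algebraMap 𝒪 DQ.R) 2, ← map_mul, hh, map_one]
  have hm : ∀ i : Fin 2, F.rR τ i i - algebraMap 𝒪 DQ.R ε ∈ maximalIdeal DQ.R := by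
    intro i
    rw [← residue_eq_zero_iff, map_sub, residue_rR_of_scalar F τ _ hτ, if_pos rfl,
      ResidueField.map_residue, sub_self]
  have h1 : halfTr (algebraMap 𝒪 DQ.R h) (F.rR τ) - algebraMap 𝒪 DQ.R ε =
      algebraMap 𝒪 DQ.R h * ((F.rR τ 0 0 - algebraMap 𝒪 DQ.R ε) +
        (F.rR τ 1 1 - algebraMap 𝒪 DQ.R ε)) := by
    rw [halfTr]
    linear_combination (algebraMap 𝒪 DQ.R ε) * hhR
  rw [h1]
  exact Ideal.mul_mem_left _ _ (Ideal.add_mem _ (hm 0) (hm 1))

/-- All entries of a universal matrix `F.rR τ` with scalar residue, determinant `d ≡ 1` and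
traceless coordinates in the image of the evaluation map lie in that image. -/
theorem entries_mem_range_of_scalar (F : UFrame DQ) {ι : Type} [Finite ι] (x : ι → DQ.R)
    (hx : ∀ i, x i ∈ maximalIdeal DQ.R) (h : 𝒪) (hh : 2 * h = 1) (τ : GQ) (ε : 𝒪)
    (hε : ε ^ 2 = 1)
    (hτ : ρbar.ρ τ = residue 𝒪 ε • (1 : Module.End (ResidueField 𝒪) ρbar.V))
    (d : 𝒪) (hd : d - 1 ∈ maximalIdeal 𝒪) (hdet : (F.rR τ).det = algebraMap 𝒪 DQ.R d)
    (v : Fin 3 → MvPowerSeries ι 𝒪) (hv : ∀ i, v i ∈ maximalIdeal (MvPowerSeries ι 𝒪))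
    (hev : ∀ i, evalCNL (R := 𝒪) (maximalIdeal DQ.R) x hx (v i) =
      tcoord (algebraMap 𝒪 DQ.R h) (F.rR τ) i) (i i' : Fin 2) :
    F.rR τ i i' ∈ Set.range (evalCNL (R := 𝒪) (maximalIdeal DQ.R) x hx) := by
  have hlocR : IsLocalHom (algebraMap 𝒪 DQ.R) := DQ.instIsLocalHom
  have hhR : 2 * algebraMap 𝒪 DQ.R h = 1 := by
    rw [← map_ofNat (algebraMap 𝒪 DQ.R) 2, ← map_mul, hh, map_one]
  have h2 : IsUnit (2 : 𝒪) := IsUnit.of_mul_eq_one h hh
  -- the half-trace
  have hhalf : halfTr (algebraMap 𝒪 DQ.R h) (F.rR τ) ∈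
      Set.range (evalCNL (R := 𝒪) (maximalIdeal DQ.R) x hx) := by
    refine mem_range_evalCNL_of_sq hlocR x hx h2
      (algebraMap 𝒪 (MvPowerSeries ι 𝒪) d + (v 0 ^ 2 + v 1 * v 2)) ?_ ε hε _ ?_
      (halfTr_sub_mem F h hh τ ε hτ)
    · have h3 : algebraMap 𝒪 (MvPowerSeries ι 𝒪) d + (v 0 ^ 2 + v 1 * v 2) - 1 =
          algebraMap 𝒪 (MvPowerSeries ι 𝒪) (d - 1) + (v 0 ^ 2 + v 1 * v 2) := by
        rw [map_sub, map_one]; ring
      rw [h3]
      refine Ideal.add_mem _ ?_ (Ideal.add_mem _ (Ideal.pow_mem_of_mem _ (hv 0) 2 (by norm_num))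
        (Ideal.mul_mem_right _ _ (hv 1)))
      rw [← MvPowerSeries.c_eq_algebraMap]
      exact C_mem_maximalIdeal_mvPowerSeries hd
    · rw [halfTr_sq hhR, hdet, map_add, map_add, map_pow, map_mul, AlgHom.commutes, hev, hev,
        hev, qForm]
  have hmem : ∀ i, tcoord (algebraMap 𝒪 DQ.R h) (F.rR τ) i ∈
      (evalCNL (R := 𝒪) (maximalIdeal DQ.R) x hx).range := fun i => ⟨v i, hev i⟩
  have hhalf' : halfTr (algebraMap 𝒪 DQ.R h) (F.rR τ) ∈
      (evalCNL (R := 𝒪) (maximalIdeal DQ.R) x hx).range := hhalf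
  show F.rR τ i i' ∈ ((evalCNL (R := 𝒪) (maximalIdeal DQ.R) x hx).range : Set DQ.R)
  fin_cases i <;> fin_cases i'
  · show F.rR τ 0 0 ∈ _
    rw [apply_zero_zero_eq hhR (F.rR τ)]
    exact Subalgebra.add_mem _ hhalf' (hmem 0)
  · exact hmem 1
  · exact hmem 2
  · show F.rR τ 1 1 ∈ _
    rw [apply_one_one_eq hhR (F.rR τ)]
    exact Subalgebra.sub_mem _ hhalf' (hmem 0)

/-- A scalar residue of a matrix with determinant `≡ 1` is a sign. -/
theorem exists_sign_of_scalar (F : UFrame DQ) (τ : GQ) (c : ResidueField 𝒪)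
    (hτ : ρbar.ρ τ = c • (1 : Module.End (ResidueField 𝒪) ρbar.V))
    (d : 𝒪) (hd : d - 1 ∈ maximalIdeal 𝒪) (hdet : (F.rR τ).det = algebraMap 𝒪 DQ.R d) :
    ∃ ε : 𝒪, ε ^ 2 = 1 ∧ c = residue 𝒪 ε := by
  have h1 : residue DQ.R ((F.rR τ).det) = 1 := by
    rw [hdet, ← ResidueField.map_residue]
    have : residue 𝒪 d = 1 := by
      rw [← sub_eq_zero, ← map_one (residue 𝒪), ← map_sub, residue_eq_zero_iff]
      exact hd
    rw [this, map_one]
  rw [Matrix.det_fin_two, map_sub, map_mul, map_mul, residue_rR_of_scalar F τ c hτ,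
    residue_rR_of_scalar F τ c hτ, residue_rR_of_scalar F τ c hτ,
    residue_rR_of_scalar F τ c hτ] at h1
  simp only [if_true, Fin.isValue, zero_ne_one, one_ne_zero, if_false, mul_zero, sub_zero] at h1
  have h2 : c * c = 1 := by
    apply (ResidueField.map (algebraMap 𝒪 DQ.R)).injective
    rw [map_mul, h1, map_one]
  have h3 : c = 1 ∨ c = -1 := by
    have h4 : (c - 1) * (c + 1) = 0 := by
      have : (c - 1) * (c + 1) = c * c - 1 := by ring
      rw [this, h2, sub_self]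
    rcases mul_eq_zero.mp h4 with h5 | h5
    · exact Or.inl (sub_eq_zero.mp h5)
    · exact Or.inr (eq_neg_of_add_eq_zero_left h5)
  rcases h3 with rfl | rfl
  · exact ⟨1, one_pow 2, (map_one _).symm⟩
  · exact ⟨-1, by ring, by rw [map_neg, map_one]⟩

/-- **All entries of the universal matrices at the pivots are power series in the traceless
coordinates.** -/
theorem entries_mem_range_locX (F : UFrame DQ) {κ : Type} [Finite κ] (φ σ : κ → GQ)
    (qn : κ → ℕ) (h : 𝒪) (hh : 2 * h = 1)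
    (hφ : ∀ j, ∃ c : ResidueField 𝒪,
      ρbar.ρ (φ j) = c • (1 : Module.End (ResidueField 𝒪) ρbar.V))
    (hσ : ∀ j, ρbar.ρ (σ j) = 1)
    (hq : ∀ j, ((qn j : ℕ) : 𝒪) - 1 ∈ maximalIdeal 𝒪)
    (hdetφ : ∀ j, (F.rR (φ j)).det = ((qn j : ℕ) : DQ.R))
    (hdetσ : ∀ j, (F.rR (σ j)).det = 1) (j : κ) (i i' : Fin 2) :
    F.rR (φ j) i i' ∈ Set.range (evalCNL (R := 𝒪) (maximalIdeal DQ.R)
        (locX F φ σ (algebraMap 𝒪 DQ.R h)) (locX_mem F φ σ _ hφ hσ)) ∧
      F.rR (σ j) i i' ∈ Set.range (evalCNL (R := 𝒪) (maximalIdeal DQ.R)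
        (locX F φ σ (algebraMap 𝒪 DQ.R h)) (locX_mem F φ σ _ hφ hσ)) := by
  constructor
  · obtain ⟨c, hc⟩ := hφ j
    have hdet' : (F.rR (φ j)).det = algebraMap 𝒪 DQ.R ((qn j : ℕ) : 𝒪) := by
      rw [hdetφ j, map_natCast]
    obtain ⟨ε, hε, rfl⟩ := exists_sign_of_scalar F (φ j) c hc _ (hq j) hdet'
    refine entries_mem_range_of_scalar F _ _ h hh (φ j) ε hε hc _ (hq j) hdet'
      (fun i => MvPowerSeries.X (j, Fin.natAdd 3 i))
      (fun i => X_mem_maximalIdeal_mvPowerSeries _) (fun i => ?_) i i'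
    rw [evalCNL_X, locX_natAdd]
  · have hσ' : ρbar.ρ (σ j) =
        residue 𝒪 1 • (1 : Module.End (ResidueField 𝒪) ρbar.V) := by
      rw [hσ j, map_one, one_smul]
    refine entries_mem_range_of_scalar F _ _ h hh (σ j) 1 (one_pow 2) hσ' 1
      (by rw [sub_self]; exact zero_mem _) (by rw [hdetσ j, map_one])
      (fun i => MvPowerSeries.X (j, Fin.castLE (by norm_num) i))
      (fun i => X_mem_maximalIdeal_mvPowerSeries _) (fun i => ?_) i i'
    rw [evalCNL_X, locX_castLE]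

/-- The traceless-coordinate clauses of `IAGalStatement` for a map `γ` whose values at the
variables are the traceless coordinates. -/
theorem isTracelessCoords_of_locX (F : UFrame DQ) {κ : Type} (φ σ : κ → GQ) (h : DQ.R)
    (hh : 2 * h = 1) (g : ℕ) (γ : IA.LocAmb 𝒪 κ g →ₐ[𝒪] DQ.R)
    (hγ : ∀ z, γ (MvPowerSeries.X (Sum.inl z)) = locX F φ σ h z) (j : κ) :
    IA.IsTracelessCoords F.basis (DQ.ρ.ρ (σ j)) (fun i => γ (IA.vVar 𝒪 g j i)) ∧
      IA.IsTracelessCoords F.basis (DQ.ρ.ρ (φ j)) (fun i => γ (IA.wVar 𝒪 g j i)) := by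
  have hv : ∀ i, γ (IA.vVar 𝒪 g j i) = tcoord h (F.rR (σ j)) i := by
    intro i
    rw [IA.vVar, hγ, locX_castLE]
  have hw : ∀ i, γ (IA.wVar 𝒪 g j i) = tcoord h (F.rR (φ j)) i := by
    intro i
    rw [IA.wVar, hγ, locX_natAdd]
  refine ⟨?_, ?_⟩
  · unfold IA.IsTracelessCoords
    simp only [hv, F.toMatrix_basis]
    exact ⟨two_mul_tcoord_zero hh _, rfl, rfl⟩
  · unfold IA.IsTracelessCoords
    simp only [hw, F.toMatrix_basis]
    exact ⟨two_mul_tcoord_zero hh _, rfl, rfl⟩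

/-- **(COORD), `B`-form.**  If the universal deformation ring is a quotient of `B⟦x₁..x_g⟧` for
every complete Noetherian local `𝒪`-algebra `B` over which the universal matrices at the pivots
are defined (the body of helper1's `IAGalAt`), then it is a quotient of
`LocAmb 𝒪 κ g = 𝒪⟦v_{j,·}, w_{j,·}, x₁..x_g⟧`, the variables `v_{j,·}`, `w_{j,·}` going to the
traceless coordinates of `ρ(σ j)`, `ρ(φ j)` in the basis `F.basis`. -/
theorem exists_locAmb_of_bform (F : UFrame DQ) {κ : Type} [Finite κ] (φ σ : κ → GQ)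
    (qn : κ → ℕ) (h2 : IsUnit (2 : 𝒪))
    (hφ : ∀ j, ∃ c : ResidueField 𝒪,
      ρbar.ρ (φ j) = c • (1 : Module.End (ResidueField 𝒪) ρbar.V))
    (hσ : ∀ j, ρbar.ρ (σ j) = 1)
    (hq : ∀ j, ((qn j : ℕ) : 𝒪) - 1 ∈ maximalIdeal 𝒪)
    (hdetφ : ∀ j, LinearMap.det (DQ.ρ.ρ (φ j)) = ((qn j : ℕ) : DQ.R))
    (hdetσ : ∀ j, LinearMap.det (DQ.ρ.ρ (σ j)) = 1) (g : ℕ)
    (hB : ∀ (B : Type) [CommRing B] [IsLocalRing B] [Algebra 𝒪 B] [Algebra B DQ.R]
      [IsScalarTower 𝒪 B DQ.R] [IsNoetherianRing B] [IsAdicComplete (maximalIdeal B) B],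
      (∀ j i i', F.rR (φ j) i i' ∈ Set.range (algebraMap B DQ.R) ∧
        F.rR (σ j) i i' ∈ Set.range (algebraMap B DQ.R)) →
      ∃ γ : MvPowerSeries (Fin g) B →ₐ[B] DQ.R, Function.Surjective γ) :
    ∃ γ : IA.LocAmb 𝒪 κ g →ₐ[𝒪] DQ.R, Function.Surjective γ ∧
      (∀ τ, LinearMap.toMatrix F.basis F.basis (DQ.ρ.ρ τ) = F.rR τ) ∧
      (∀ j, IA.IsTracelessCoords F.basis (DQ.ρ.ρ (σ j)) (fun i => γ (IA.vVar 𝒪 g j i))) ∧
      (∀ j, IA.IsTracelessCoords F.basis (DQ.ρ.ρ (φ j)) (fun i => γ (IA.wVar 𝒪 g j i))) := by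
  obtain ⟨h, hh⟩ := h2.exists_right_inv
  have hhR : 2 * algebraMap 𝒪 DQ.R h = 1 := by
    rw [← map_ofNat (algebraMap 𝒪 DQ.R) 2, ← map_mul, hh, map_one]
  have hx := locX_mem F φ σ (algebraMap 𝒪 DQ.R h) hφ hσ
  have hent := entries_mem_range_locX F φ σ qn h hh hφ hσ hq
    (fun j => by rw [F.det_rR, hdetφ j]) (fun j => by rw [F.det_rR, hdetσ j])
  obtain ⟨γ, hγs, hγ⟩ := exists_surjective_sum (𝒪 := 𝒪) (locX F φ σ (algebraMap 𝒪 DQ.R h)) hx
    DQ.residue_surjective g (by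
      letI : Algebra (MvPowerSeries (κ × Fin 6) 𝒪) DQ.R :=
        (evalCNL (R := 𝒪) (maximalIdeal DQ.R) (locX F φ σ (algebraMap 𝒪 DQ.R h)) hx :
          MvPowerSeries (κ × Fin 6) 𝒪 →+* DQ.R).toAlgebra
      haveI : IsScalarTower 𝒪 (MvPowerSeries (κ × Fin 6) 𝒪) DQ.R :=
        IsScalarTower.of_algebraMap_eq fun a =>
          ((evalCNL (R := 𝒪) (maximalIdeal DQ.R)
            (locX F φ σ (algebraMap 𝒪 DQ.R h)) hx).commutes a).symm
      haveI : IsAdicComplete (maximalIdeal (MvPowerSeries (κ × Fin 6) 𝒪))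
          (MvPowerSeries (κ × Fin 6) 𝒪) := isAdicComplete_mvPowerSeries
      exact hB (MvPowerSeries (κ × Fin 6) 𝒪) fun j i i' => hent j i i')
  exact ⟨γ, hγs, F.toMatrix_basis,
    fun j => (isTracelessCoords_of_locX F φ σ _ hhR g γ hγ j).1,
    fun j => (isTracelessCoords_of_locX F φ σ _ hhR g γ hγ j).2⟩

/-- **(COORD), from the relative Selmer bound.** -/
theorem exists_locAmb_of_relSelCob [Finite (ResidueField 𝒪)]
    (p : ℕ) (hp : p.Prime)
    (hdet : ∀ ρ' : GaloisRepAdic (DualNumber (ResidueField 𝒪)), 𝒟 ρ' → ρ'.DetIsCyclotomic p)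
    (hbc : ∀ (ψ : TanHom 𝒪 DQ.R)
      (hψ : IsLocalHom (ψ : DQ.R →+* DualNumber (ResidueField 𝒪))), Function.Surjective ψ →
      𝒟 (DQ.ρ.baseChangeAlong (ψ : DQ.R →+* DualNumber (ResidueField 𝒪)) hψ))
    (F : UFrame DQ) {κ : Type} [Finite κ] (φ σ : κ → GQ)
    (qn : κ → ℕ) (h2 : IsUnit (2 : 𝒪))
    (hφ : ∀ j, ∃ c : ResidueField 𝒪,
      ρbar.ρ (φ j) = c • (1 : Module.End (ResidueField 𝒪) ρbar.V))
    (hσ : ∀ j, ρbar.ρ (σ j) = 1)
    (hq : ∀ j, ((qn j : ℕ) : 𝒪) - 1 ∈ maximalIdeal 𝒪)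
    (hdetφ : ∀ j, LinearMap.det (DQ.ρ.ρ (φ j)) = ((qn j : ℕ) : DQ.R))
    (hdetσ : ∀ j, LinearMap.det (DQ.ρ.ρ (σ j)) = 1) (g : ℕ)
    (hsel : RelSelCob 𝒪 ρbar 𝒟 (Set.range φ ∪ Set.range σ) g) :
    ∃ γ : IA.LocAmb 𝒪 κ g →ₐ[𝒪] DQ.R, Function.Surjective γ ∧
      (∀ τ, LinearMap.toMatrix F.basis F.basis (DQ.ρ.ρ τ) = F.rR τ) ∧
      (∀ j, IA.IsTracelessCoords F.basis (DQ.ρ.ρ (σ j)) (fun i => γ (IA.vVar 𝒪 g j i))) ∧
      (∀ j, IA.IsTracelessCoords F.basis (DQ.ρ.ρ (φ j)) (fun i => γ (IA.wVar 𝒪 g j i))) := by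
  refine exists_locAmb_of_bform F φ σ qn h2 hφ hσ hq hdetφ hdetσ g ?_
  intro B _ _ _ _ _ _ _ hBr
  refine exists_surjective_of_relSelCob (B := B) p hp hdet hbc F _ ?_ g hsel
  rintro τ (⟨j, rfl⟩ | ⟨j, rfl⟩) i i'
  · exact (hBr j i i').1
  · exact (hBr j i i').2

end Main

end

end Fermat.Agent.S38.H953

end
-- ===== PACK-END S38/H953/LocAmbPres.lean

-- ===== PACK-BEGIN S38/H953/GalAdapter.lean
section




/-!
# Row HARD, leaf GAL: from the integrator's output to the frozen `IA.IAGalStatement` (helper953)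

`Fermat.Agent.S38.IA.Gal.IAGalStatement` (helper1, `S38/IA/Gal/IAGalSpec.lean`, board v3 §3.1:
matrix frame `F`, pivot relations `IsPivotPres`, clause UNIP) implies the frozen leaf
`Fermat.Agent.S38.IA.IAGalStatement` of the trunk (`S38/IA/Spec2.lean`: basis `bas`,
`IsTracelessCoords`, determinant clause, clause TYPE):

* the basis is `F.basis` (`UFrame.toMatrix_basis`: the matrices of the universal deformation in
  this basis are `F.rR`);
* clause TYPE is helper474's `type_clause_end` (`S38/IA/H474/TypeClause.lean`); its hypothesis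
  "`ρ_y(σ_q)` is not unipotent" is the contrapositive of clause UNIP.

Nothing unproved in this file.
-/

set_option autoImplicit false
set_option linter.unusedSectionVars false
set_option linter.unusedVariables false
set_option linter.style.haveILetI false

namespace Fermat.Agent.S38.H953

noncomputable section

open IsLocalRing Polynomial
open Fermat.Agent.S56

section Adapter

variable {𝒪 : Type} [CommRing 𝒪] [IsDomain 𝒪] [IsDiscreteValuationRing 𝒪]
  [IsAdicComplete (maximalIdeal 𝒪) 𝒪]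
  {ρbar : ResidualGaloisRep (ResidueField 𝒪)} {𝒟 : DefCond 𝒪}
  {DQ : GaloisRep.DeformationRingData 𝒪 ρbar 𝒟}

theorem isTracelessCoords_of_isTraceless (F : UFrame DQ) (τ : GQ) (u : Fin 3 → DQ.R)
    (h : IA.Gal.IsTraceless (F.rR τ) (u 0) (u 1) (u 2)) :
    IA.IsTracelessCoords F.basis (DQ.ρ.ρ τ) u := by
  unfold IA.IsTracelessCoords
  rw [F.toMatrix_basis]
  exact h

/-- The tame relation for the endomorphisms, from the relation for the matrices. -/
theorem rho_mul_eq_of_rR (F : UFrame DQ) (φ σ : GQ) (q : ℕ)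
    (h : F.rR φ * F.rR σ = F.rR σ ^ q * F.rR φ) :
    DQ.ρ.ρ φ * DQ.ρ.ρ σ = DQ.ρ.ρ σ ^ q * DQ.ρ.ρ φ := by
  apply (LinearMap.toMatrix F.basis F.basis).injective
  rw [LinearMap.toMatrix_mul, LinearMap.toMatrix_mul, ← LinearMap.toMatrix_pow, F.toMatrix_basis,
    F.toMatrix_basis, h]

end Adapter

/-- **The frozen leaf GAL of the trunk from the integrator's output.** -/
theorem iaGal_of_gal (h : IA.Gal.IAGalStatement) : IA.IAGalStatement := by
  intro p _ 𝒪 _ _ _ _ _ _ ρbar Smin hres hflat Piv hPiv hroots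
  have hp : p.Prime := Fact.out
  obtain ⟨r, Pl, φ, σ, a, h3, htame, hn⟩ := h p 𝒪 ρbar Smin hres .flat (Or.inl rfl) Piv hPiv
  refine ⟨r, h3, fun n => ?_⟩
  obtain ⟨qv, hTW, hDQ⟩ := hn n
  refine ⟨qv, hTW, fun DQ => ?_⟩
  obtain ⟨F, γ, hγ, hpiv⟩ := hDQ DQ
  have hv : ∀ q : Piv, IA.IsTracelessCoords F.basis (DQ.ρ.ρ (σ q))
      (fun j => γ (IA.vVar 𝒪 (r - 3 * Piv.card) q j)) := fun q =>
    isTracelessCoords_of_isTraceless F (σ q) _ (hpiv q).sig_traceless
  have hw : ∀ q : Piv, IA.IsTracelessCoords F.basis (DQ.ρ.ρ (φ q))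
      (fun j => γ (IA.wVar 𝒪 (r - 3 * Piv.card) q j)) := fun q =>
    isTracelessCoords_of_isTraceless F (φ q) _ (hpiv q).phi_traceless
  have hdetφ : ∀ q : Piv, LinearMap.det (DQ.ρ.ρ (φ q)) = ((q : ℕ) : DQ.R) := fun q => by
    rw [← F.det_rR, (hpiv q).det_phi]
  have hdetσ : ∀ q : Piv, LinearMap.det (DQ.ρ.ρ (σ q)) = 1 := fun q => by
    rw [← F.det_rR, (hpiv q).det_sig]
  refine ⟨F.basis, fun q => Pl q, fun q => φ q, fun q => σ q, γ, hγ,
    fun q => ⟨(htame q q.2).1, (htame q q.2).2.1.frob, (htame q q.2).2.1.mem⟩,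
    hv, hw, hdetφ, ?_⟩
  intro 𝒪' _ _ _ _ _ y hy hNU
  have hlocR : IsLocalHom (algebraMap 𝒪 DQ.R) := DQ.instIsLocalHom
  -- `p` lies in the maximal ideal of `𝒪'`
  have hmem : ∀ z : DQ.R, z ∈ maximalIdeal DQ.R → y z ∈ maximalIdeal 𝒪' := by
    intro z hz
    rw [mem_maximalIdeal, mem_nonunits_iff] at hz ⊢
    intro hu
    exact hz (hy.map_nonunit z hu)
  have hpR : (p : DQ.R) ∈ maximalIdeal DQ.R := by
    rw [mem_maximalIdeal, mem_nonunits_iff]
    intro hu
    have h1 : IsUnit (algebraMap 𝒪 DQ.R (p : 𝒪)) := by rwa [map_natCast]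
    exact (mem_maximalIdeal _).1 hres.hp𝒪 (hlocR.map_nonunit _ h1)
  have hpm : (p : 𝒪') ∈ maximalIdeal 𝒪' := by
    have := hmem _ hpR
    rwa [map_natCast] at this
  refine IA.H474.type_clause_end p hres.hp2 𝒪 hres.hp𝒪 Piv
    (fun q hq => ⟨(hPiv q hq).1, (hPiv q hq).2.2.1⟩) hroots (r - 3 * Piv.card) γ F.basis
    (fun q => DQ.ρ.ρ (σ q)) (fun q => DQ.ρ.ρ (φ q)) hv hw hdetσ
    (fun q => rho_mul_eq_of_rR F (φ q) (σ q) q (hpiv q).rel)
    𝒪' y (maximalIdeal 𝒪') (Ideal.IsPrime.ne_top') hpm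
    (Nat.cast_ne_zero.mpr hp.ne_zero) ?_ ?_ ?_
  · intro q
    rw [hdetφ q, map_natCast]
    exact Nat.cast_ne_zero.mpr (hPiv q q.2).1.ne_zero
  · intro q i j
    rw [F.toMatrix_basis]
    exact hmem _ ((hpiv q).sig_res i j)
  · intro q hcp
    apply hNU q q.2
    apply (hpiv q).unip 𝒪' (y : DQ.R →+* 𝒪') hy
    have hdet1 : ((F.rR (σ q)).map (y : DQ.R →+* 𝒪')).det = 1 := by
      have e : ((F.rR (σ q)).map (y : DQ.R →+* 𝒪')).det =
          (y : DQ.R →+* 𝒪') (F.rR (σ q)).det := (RingHom.map_det _ _).symm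
      rw [e, (hpiv q).det_sig, map_one]
    rw [← IA.H474.charpoly_eq_sq_iff_trace _ hdet1, Matrix.charpoly_map,
      ← F.toMatrix_basis (σ q), LinearMap.charpoly_toMatrix]
    exact hcp

end

end Fermat.Agent.S38.H953

end
-- ===== PACK-END S38/H953/GalAdapter.lean

-- ===== PACK-BEGIN S38/H227/EigenChar.lean
section


/-!
# Row HARD / S59-TW, (NU): the character of an anemic eigenvector   (helper227)

* `lift_eigen` : an eigenvector of a family of operators is an eigenvector of every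
  noncommutative polynomial in them;
* `exists_char_of_eigen` : `F ≠ 0` in `S₂(Γ₀(N'))` with `T_ℓ F = c ℓ • F` for the good primes
  (`ℓ ∤ N'`, `ℓ ∉ S`, `S ⊇ primes(N')`), `c ℓ` in a subring `R₀ ⊆ ℂ`, `L : R₀ → R` and a point
  `y : heckeAlgebra N' 2 S → R` with `y (T_ℓ) = L (c ℓ)`.  Then there are the character
  `chiF : heckeAlgebra N' 2 S → ℂ` of `F` (`chiF (T_ℓ) = c ℓ`) and `j : chiF.range → R` with
  `j ∘ chiF = y`: "`chiF` is `y` read in `ℂ`" (the shape consumed by the frozen S36 through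
  `S38.H47.not_isUnipotentOnInertiaAt_of_char`).
-/

set_option autoImplicit false
set_option linter.unusedSectionVars false
set_option linter.style.haveILetI false

noncomputable section

namespace Fermat.Agent.S38.H227

open CongruenceSubgroup Fermat.Agent.S59.TW.H658

/-- An eigenvector of a family of operators is an eigenvector of every noncommutative polynomial
in them. -/
theorem lift_eigen {k V : Type*} [Field k] [AddCommGroup V] [Module k V] {σ : Type*}
    (T' : σ → Module.End k V) (c : σ → k) (g : V) (h : ∀ i, T' i g = c i • g)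
    (P : FreeAlgebra ℤ σ) :
    FreeAlgebra.lift ℤ T' P g = FreeAlgebra.lift ℤ c P • g := by
  induction P using FreeAlgebra.induction with
  | grade0 r =>
    rw [AlgHom.commutes, AlgHom.commutes, Module.algebraMap_end_apply, algebraMap_int_eq,
      eq_intCast, Int.cast_smul_eq_zsmul]
  | grade1 x => rw [FreeAlgebra.lift_ι_apply, FreeAlgebra.lift_ι_apply, h]
  | mul a b ha hb =>
    rw [map_mul, map_mul, Module.End.mul_apply, hb, map_smul, ha, smul_smul, mul_comm]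
  | add a b ha hb =>
    rw [map_add, map_add, LinearMap.add_apply, ha, hb, add_smul]

/-- Ring homomorphisms commute with noncommutative polynomials. -/
theorem ringHom_lift {A B : Type*} [Ring A] [Ring B] (φ : A →+* B) {σ : Type*} (s : σ → A)
    (P : FreeAlgebra ℤ σ) :
    φ (FreeAlgebra.lift ℤ s P) = FreeAlgebra.lift ℤ (fun i => φ (s i)) P := by
  have h : (φ.toIntAlgHom).comp (FreeAlgebra.lift ℤ s)
      = FreeAlgebra.lift ℤ (fun i => φ (s i)) := by
    apply FreeAlgebra.hom_ext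
    funext i
    simp
  rw [← h]
  rfl

variable {N' : ℕ} [NeZero N'] {S : Set ℕ}

/-- **The character of an anemic eigenvector, read through a point.** -/
theorem exists_char_of_eigen (hS : ∀ q : ℕ, q.Prime → q ∣ N' → q ∈ S)
    (F : CuspForm (Gamma0 N') 2) (hF : F ≠ 0) (R₀ : Subring ℂ) (c : GoodPrime N' S → R₀)
    (heig : ∀ i : GoodPrime N' S, CuspForm.heckeTLin 2 i.2.1 i.2.2.1 F = (c i : ℂ) • F)
    {R : Type*} [CommRing R] (L : R₀ →+* R) (y : CuspForm.heckeAlgebra N' 2 S →+* R)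
    (hy : ∀ i : GoodPrime N' S, y (CuspForm.heckeAlgebra.T i.2.1 i.2.2.1 i.2.2.2) = L (c i)) :
    ∃ (chiF : CuspForm.heckeAlgebra N' 2 S →+* ℂ) (j : chiF.range →+* R),
      (∀ t, j (chiF.rangeRestrict t) = y t) ∧
      ∀ i : GoodPrime N' S, chiF (CuspForm.heckeAlgebra.T i.2.1 i.2.2.1 i.2.2.2) = (c i : ℂ) := by
  classical
  have heq := heckeAlgebra_eq_adjoin N' S hS
  -- relations of the Hecke operators hold for the eigenvalues
  have hrel : ∀ P : FreeAlgebra ℤ (GoodPrime N' S),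
      FreeAlgebra.lift ℤ (heckeFam N' S) P = 0 → FreeAlgebra.lift ℤ c P = 0 := by
    intro P hP
    have h1 := lift_eigen (heckeFam N' S) (fun i => (c i : ℂ)) F heig P
    rw [hP, LinearMap.zero_apply] at h1
    have h2 : FreeAlgebra.lift ℤ (fun i => (c i : ℂ)) P = 0 := by
      rcases smul_eq_zero.mp h1.symm with h | h
      · exact h
      · exact absurd h hF
    have h3 := ringHom_lift R₀.subtype c P
    apply Subtype.ext
    rw [Subring.coe_zero, ← h2]
    exact h3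
  obtain ⟨Φ, hΦ, hΦ'⟩ := exists_ringHom_of_rel_gen (heckeFam N' S) c hrel
  let E : CuspForm.heckeAlgebra N' 2 S →+* Algebra.adjoin ℤ (Set.range (heckeFam N' S)) :=
    (Subalgebra.equivOfEq _ _ heq).toRingEquiv.toRingHom
  have hE : ∀ i : GoodPrime N' S, E (CuspForm.heckeAlgebra.T i.2.1 i.2.2.1 i.2.2.2)
      = ⟨heckeFam N' S i, Algebra.subset_adjoin ⟨i, rfl⟩⟩ := fun i => rfl
  let χ₀ : CuspForm.heckeAlgebra N' 2 S →+* R₀ := Φ.comp E
  have hχ₀ : ∀ i : GoodPrime N' S, χ₀ (CuspForm.heckeAlgebra.T i.2.1 i.2.2.1 i.2.2.2) = c i :=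
    fun i => by rw [RingHom.comp_apply, hE, hΦ]
  -- `L ∘ χ₀ = y`
  have hLy : ∀ t, L (χ₀ t) = y t := by
    intro t
    obtain ⟨P, hP⟩ : ∃ P : FreeAlgebra ℤ (GoodPrime N' S),
        FreeAlgebra.lift ℤ (heckeFam N' S) P = (t : Module.End ℂ (CuspForm (Gamma0 N') 2)) := by
      have ht : (t : Module.End ℂ (CuspForm (Gamma0 N') 2)) ∈
          Algebra.adjoin ℤ (Set.range (heckeFam N' S)) := heq ▸ t.2
      rw [Algebra.adjoin_range_eq_range_freeAlgebra_lift] at ht
      exact ht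
    -- the evaluation of `P` at the generators, in the Hecke algebra
    let G : GoodPrime N' S → CuspForm.heckeAlgebra N' 2 S :=
      fun i => CuspForm.heckeAlgebra.T i.2.1 i.2.2.1 i.2.2.2
    have htP : t = FreeAlgebra.lift ℤ G P := by
      apply Subtype.ext
      rw [← hP]
      have := ringHom_lift
        (CuspForm.heckeAlgebra N' 2 S).val.toRingHom G P
      exact this.symm
    rw [htP, ringHom_lift χ₀ G P, ringHom_lift L _ P, ringHom_lift y G P]
    congr 2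
    funext i
    rw [hχ₀, hy]
  let chiF : CuspForm.heckeAlgebra N' 2 S →+* ℂ := R₀.subtype.comp χ₀
  have hle : chiF.range ≤ R₀ := by
    rintro _ ⟨t, rfl⟩
    exact (χ₀ t).2
  refine ⟨chiF, L.comp (Subring.inclusion hle), fun t => ?_, fun i => ?_⟩
  · rw [RingHom.comp_apply, ← hLy]
    congr 1
  · show ((χ₀ _ : R₀) : ℂ) = _
    rw [hχ₀]

end Fermat.Agent.S38.H227

end
end
-- ===== PACK-END S38/H227/EigenChar.lean

-- ===== PACK-BEGIN S38/IA/Hecke/Spec4.lean
section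


/-!
# Row HARD, cell HECKE, layer 4: sub-leaves of IA-ST  (sub-architect helper3)

* `IAMinZeroStatement` (asked by helper59, squad S55/S59: "TW control at level `L / q`"):
  under (MIN), for every pivot `q` the localisation of `X_{K'}(𝒪)`,
  `K' = Γ₀(L / q) ∩ Γ_H(Q)`, at the maximal ideal `(𝔪_𝒪, T_ℓ - c_ℓ, U_{q_j} - α_j)` of the
  package `P_Q` is ZERO.
  (`MFree.free` at `κ = gKappa p (L / q) qv`: the part is free over `𝒪[Δ_Q]` with coinvariants
  the part of `X_{Γ₀((L/q) ∏ qv)}(𝒪)`; TW-CTRL: this is the part of `X_{Γ₀(L/q)}(𝒪)`; (MIN) and the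
  Eichler–Shimura dictionary: that part is zero [CTRL-MIN helper719, DICT-MIN helper841].)
  CONSUMER: IA-ST (both traces `X_{Γ₀(L) ∩ Γ_H(Q)} → X_{K'}` vanish on the localised part, hence
  `U_q² = ⟨q⟩` there).
Only sorry-free definitions in this file.
-/

set_option autoImplicit false

open Polynomial IsLocalRing CongruenceSubgroup
open scoped MatrixGroups

namespace Fermat.Agent.S38.IA.Hecke

open Fermat.Agent.S59.Arch Fermat.Agent.S59.TW.H959 Fermat.Agent.S59.TW Fermat.Agent.S59.H765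
open Fermat.Agent.S59.TW.H653 Fermat.Agent.S59.TW.Aut
open CuspForm

/-- **IA-MINZERO.**  Under (MIN) the localisation at level `Γ₀(L / q) ∩ Γ_H(Q)` is zero, for
every pivot `q`. -/
def IAMinZeroStatement : Prop :=
  ∀ (p : ℕ) [Fact p.Prime] (_hp5 : 5 ≤ p)
    (𝒪 : Type) [CommRing 𝒪] [IsDomain 𝒪] [IsDiscreteValuationRing 𝒪]
    [IsAdicComplete (maximalIdeal 𝒪) 𝒪] [Finite (ResidueField 𝒪)] [CharZero 𝒪]
    (ρbar : ResidualGaloisRep (ResidueField 𝒪)) (Smin : Finset ℕ)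
    (_h : ResidualHyp p 𝒪 ρbar Smin)
    (_hflat : (GaloisRepAdic.ofResidualGaloisRep ρbar).IsFlatAt p)
    (Piv : Finset ℕ) (_hPiv : IsPivotSet p ρbar Smin Piv)
    (_hmin : ∀ q ∈ Piv, ∀ S : Finset ℕ,
      ¬ ResModular 𝒪 ρbar (ribetLevel p Smin (Piv.erase q)) S)
    (n r : ℕ) (qv : Fin r → ℕ) (_hq : IsTWSet p ρbar (Smin ∪ Piv) n qv)
    [NeZero (wilesLevel p .flat Smin (Smin ∪ Piv ∪ Finset.univ.image qv))]
    (PQ : HeckePkg p 𝒪 ρbar .flat Smin (Smin ∪ Piv ∪ Finset.univ.image qv))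
    (α : Fin r → 𝒪) (_hα : IsFrobLift ρbar qv α)
    (q : ℕ) (_hqP : q ∈ Piv)
    (V' : Submodule 𝒪 (Additive (KG p (ribetLevel p Smin (Piv.erase q)) qv) →+ 𝒪)),
    IsLocPart (isMid_KG p (ribetLevel p Smin (Piv.erase q)) qv) (TsetOf PQ) (UsetOf qv α) V' →
      V' = ⊥

end Fermat.Agent.S38.IA.Hecke

end
-- ===== PACK-END S38/IA/Hecke/Spec4.lean

-- ===== PACK-BEGIN S38/H53/NewAtOfSq.lean
section





/-!
# Row HARD, cell HECKE, leaf (ST): `a_q² = 1 ⟹ new at q`   (helper53)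

The NEWFORM library proves `IsNewformAt q ⟹ a_q² = 1` at `q ∥ N` (`badCoeffAt`).  Here is the
CONVERSE, which needs an Archimedean input (the strict trivial bound of helper263):

`isNewformAt_of_qCoeff_sq_eq_one` : a normalized eigenform `g` of level `N`, `q ∥ N`, with
`a_q(g)² = 1` is `IsNewformAt q` (its eigensystem away from `N` does not occur at level `N / q`).

This is the interface between the Betti side of Ihara avoidance (where `U_q² = 1` on the localized
module `M¹_Q` follows from the vanishing of the two traces to the level `L / q`) and the frozen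
statement S35 (which needs a Prelude-newform whose level is divisible by `q`).

Proof.  Let `g₂` be a normalized eigenform of level `M = N / q` with `a_ℓ(g₂) = a_ℓ(g)` for all
primes `ℓ ∤ N`; put `a = a_q(g)`, `b = a_q(g₂)`, `κ = 1 + q - a b`.  Then `a_n(g - g₂) = 0` for
`n` prime to `N`, so by the main lemma of Atkin–Lehner `a_{n q}(g - g₂) = a_n(d)` for all `n`
prime to `M`, with `d` of level `M`.  A computation with the `T_q`-coefficient formula at level `M`
gives `a_n((T_q - b) d) = κ a_n(g)` for `n` prime to `M`, then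
`a_n((T_q - a(q+1))(T_q - b) d) = -q a κ [q ∤ n] a_n(g)`, so
`F'' = (T_q - a(q+1))(T_q - b) d + q a κ g₂` (level `M`) has `a_n(F'') = 0` for `n` prime to `N`,
hence for `n` prime to `M` ("almost all ⟹ all", helper743).  The coefficients `n = q`, `q²` give
`κ b = 0 = κ (b² - q)`, so `κ = 0`, `b = a (q + 1)`, `b² = (q + 1)²`: excluded by the strict bound.
-/

set_option autoImplicit false

open CongruenceSubgroup ModularFormClass ModularForm UpperHalfPlane

namespace Fermat.Agent.S38.H53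

open Fermat.Agent.Lib.Newform

/-- The `T_q`-coefficient formula for cusp forms of weight `2` and level prime to `q`. -/
theorem qCoeff_heckeTLin_h53 {M q : ℕ} (hq : q.Prime) (hqM : ¬ q ∣ M)
    (f : CuspForm (Gamma0 M) 2) (n : ℕ) :
    qCoeff ⇑(CuspForm.heckeTLin 2 hq hqM f) n =
      qCoeff ⇑f (n * q) + if q ∣ n then (q : ℂ) * qCoeff ⇑f (n / q) else 0 := by
  rw [CuspForm.coe_heckeTLin_apply, H683.qCoeff_heckeT_cusp 2 f hq.ne_zero, coeffHeckeT_apply]
  norm_num

/-- `q`-coefficients of `T_q f - c f`. -/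
theorem qCoeff_heckeTLin_sub_smul_h53 {M q : ℕ} (hq : q.Prime) (hqM : ¬ q ∣ M)
    (f : CuspForm (Gamma0 M) 2) (c : ℂ) (n : ℕ) :
    qCoeff ⇑(CuspForm.heckeTLin 2 hq hqM f - c • f) n =
      qCoeff ⇑f (n * q) + (if q ∣ n then (q : ℂ) * qCoeff ⇑f (n / q) else 0)
        - c * qCoeff ⇑f n := by
  rw [H683.qCoeff_sub_cusp, H683.qCoeff_smul_cusp, qCoeff_heckeTLin_h53]

/-- If `q ∥ N` then `q ∤ N / q`. -/
theorem not_dvd_div_h53 {N q : ℕ} (hqN : q ∣ N) (hq2 : ¬ q ^ 2 ∣ N) :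
    ¬ q ∣ N / q := by
  intro h
  apply hq2
  obtain ⟨c, hc⟩ := h
  have : N = q * (N / q) := (Nat.mul_div_cancel' hqN).symm
  rw [this, hc, pow_two]
  exact ⟨c, by ring⟩

/-- **(ST-UQ), forms side.**  A normalized eigenform of level `N`, `q ∥ N`, with `a_q² = 1` is
new at `q`: its good eigensystem does not occur at the level `N / q`. -/
theorem not_occurs_of_qCoeff_sq_eq_one {N q : ℕ} [NeZero N] (hq : q.Prime) (hqN : q ∣ N)
    (hq2 : ¬ q ^ 2 ∣ N) {g : CuspForm (Gamma0 N) 2} (hg : g.IsNormalizedEigenform)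
    (ha : qCoeff ⇑g q ^ 2 = 1) : ¬ CuspForm.GoodEigensystemOccursAt g (N / q) := by
  rintro ⟨g₂, hg₂, hgood⟩
  -- notation
  have hN0 : N ≠ 0 := NeZero.ne N
  have hNq : q * (N / q) = N := Nat.mul_div_cancel' hqN
  have hM0 : N / q ≠ 0 := by
    intro h0
    rw [h0, mul_zero] at hNq
    exact hN0 hNq.symm
  have : NeZero (N / q) := ⟨hM0⟩
  have hMN : N / q ∣ N := Nat.div_dvd_of_dvd hqN
  have hqM : ¬ q ∣ N / q := not_dvd_div_h53 hqN hq2
  have hq0 : (q : ℂ) ≠ 0 := Nat.cast_ne_zero.mpr hq.ne_zero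
  set a : ℂ := qCoeff ⇑g q with ha_def
  set b : ℂ := qCoeff ⇑g₂ q with hb_def
  have haa : a * a = 1 := by rw [← pow_two]; exact ha
  -- coprimality bookkeeping
  have hcopq : ∀ n : ℕ, n.Coprime (N / q) → (n * q).Coprime (N / q) := fun n hn =>
    Nat.Coprime.mul_left hn ((Nat.Prime.coprime_iff_not_dvd hq).mpr hqM)
  have hcopdiv : ∀ n : ℕ, n.Coprime (N / q) → q ∣ n → (n / q).Coprime (N / q) := fun n hn hqn =>
    Nat.Coprime.coprime_dvd_left (Nat.div_dvd_of_dvd hqn) hn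
  have hcopN : ∀ n : ℕ, n.Coprime (N / q) → ¬ q ∣ n → n.Coprime N := by
    intro n hn hqn
    rw [← hNq]
    exact Nat.Coprime.mul_right ((Nat.Prime.coprime_iff_not_dvd hq).mpr hqn).symm hn
  have hcopM : ∀ n : ℕ, n.Coprime N → n.Coprime (N / q) := fun n hn =>
    Nat.Coprime.coprime_dvd_right hMN hn
  have hcopnq : ∀ n : ℕ, n.Coprime N → ¬ q ∣ n := by
    intro n hn hqn
    have h1 : q ∣ Nat.gcd n N := Nat.dvd_gcd hqn hqN
    rw [hn] at h1
    exact hq.one_lt.ne' (Nat.dvd_one.mp h1)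
  -- (3) the coefficients prime to `N` agree
  have h3 : ∀ n : ℕ, n.Coprime N → qCoeff ⇑g₂ n = qCoeff ⇑g n :=
    H443.qCoeff_eq_of_prime_eq (N := N) (N' := N / q) (D := N) dvd_rfl hMN hg hg₂ hgood
  -- Hecke relations
  have hU : ∀ n : ℕ, qCoeff ⇑g (n * q) = a * qCoeff ⇑g n :=
    fun n => H683.coeff_mul_prime_of_dvd hg hq hqN n
  have hUdiv : ∀ n : ℕ, q ∣ n → a * qCoeff ⇑g (n / q) = qCoeff ⇑g n := by
    intro n hqn
    rw [← hU, Nat.div_mul_cancel hqn]
  have hT : ∀ n : ℕ, qCoeff ⇑g₂ (n * q) +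
      (if q ∣ n then (q : ℂ) * qCoeff ⇑g₂ (n / q) else 0) = b * qCoeff ⇑g₂ n :=
    fun n => H683.coeff_mul_prime_of_not_dvd hg₂ hq hqM n
  have hTq : ∀ n : ℕ, qCoeff ⇑g₂ (n * q * q) =
      b * qCoeff ⇑g₂ (n * q) - (q : ℂ) * qCoeff ⇑g₂ n := by
    intro n
    have h := hT (n * q)
    rw [if_pos (Dvd.intro_left n rfl), Nat.mul_div_cancel n hq.pos] at h
    linear_combination h
  -- the difference `D = g - g₂` at level `N`
  obtain ⟨g₂', hg₂'⟩ := incl (N / q) N hMN g₂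
  have hD0 : ∀ n : ℕ, n.Coprime N → qCoeff ⇑(g - g₂') n = 0 := by
    intro n hn
    rw [H683.qCoeff_sub_cusp, hg₂', h3 n hn, sub_self]
  obtain ⟨G, hG⟩ := mainLemma N (g - g₂') hD0
  set d : CuspForm (Gamma0 (N / q)) 2 := G q with hd_def
  -- (K1) the coefficients of `d` prime to `N / q`
  have hK1 : ∀ n : ℕ, n.Coprime (N / q) →
      qCoeff ⇑d n = a * qCoeff ⇑g n - qCoeff ⇑g₂ (n * q) := by
    intro n hn
    have h1 := hG (n * q)
    rw [H683.qCoeff_sub_cusp, hg₂', hU] at h1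
    rw [h1]
    have hqmem : q ∈ N.primeFactors := Nat.mem_primeFactors.mpr ⟨hq, hqN, hN0⟩
    rw [Finset.sum_eq_single q]
    · rw [if_pos (Dvd.intro_left n rfl), Nat.mul_div_cancel n hq.pos]
    · intro p hp hpq
      rw [if_neg]
      intro hpn
      have hpp : p.Prime := (Nat.mem_primeFactors.mp hp).1
      have hpN : p ∣ N := (Nat.mem_primeFactors.mp hp).2.1
      have hpM : p ∣ N / q := by
        rw [← hNq] at hpN
        rcases (Nat.Prime.dvd_mul hpp).mp hpN with h | h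
        · exact absurd ((Nat.prime_dvd_prime_iff_eq hpp hq).mp h) hpq
        · exact h
      rcases (Nat.Prime.dvd_mul hpp).mp hpn with h | h
      · have h2 : p ∣ Nat.gcd n (N / q) := Nat.dvd_gcd h hpM
        rw [hn] at h2
        exact hpp.one_lt.ne' (Nat.dvd_one.mp h2)
      · exact hpq ((Nat.prime_dvd_prime_iff_eq hpp hq).mp h)
    · intro h
      exact absurd hqmem h
  -- (K2) `F = (T_q - b) d`
  set κ : ℂ := 1 + (q : ℂ) - a * b with hκ_def
  set F : CuspForm (Gamma0 (N / q)) 2 := CuspForm.heckeTLin 2 hq hqM d - b • d with hF_def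
  have hK2 : ∀ n : ℕ, n.Coprime (N / q) → qCoeff ⇑F n = κ * qCoeff ⇑g n := by
    intro n hn
    rw [hF_def, qCoeff_heckeTLin_sub_smul_h53, hK1 n hn, hK1 (n * q) (hcopq n hn), hTq n, hU n]
    by_cases hqn : q ∣ n
    · rw [if_pos hqn, hK1 (n / q) (hcopdiv n hn hqn), hUdiv n hqn, Nat.div_mul_cancel hqn]
      linear_combination (qCoeff ⇑g n) * haa
    · rw [if_neg hqn, h3 n (hcopN n hn hqn)]
      linear_combination (qCoeff ⇑g n) * haa
  -- (K3) `F' = (T_q - a (q + 1)) F`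
  set F' : CuspForm (Gamma0 (N / q)) 2 :=
    CuspForm.heckeTLin 2 hq hqM F - (a * ((q : ℂ) + 1)) • F with hF'_def
  have hK3 : ∀ n : ℕ, n.Coprime (N / q) →
      qCoeff ⇑F' n = if q ∣ n then 0 else -((q : ℂ) * a * κ) * qCoeff ⇑g n := by
    intro n hn
    rw [hF'_def, qCoeff_heckeTLin_sub_smul_h53, hK2 n hn, hK2 (n * q) (hcopq n hn), hU n]
    by_cases hqn : q ∣ n
    · rw [if_pos hqn, if_pos hqn, hK2 (n / q) (hcopdiv n hn hqn)]
      have h5 : qCoeff ⇑g (n / q) = a * qCoeff ⇑g n := by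
        have h6 := hUdiv n hqn
        linear_combination a * h6 - (qCoeff ⇑g (n / q)) * haa
      rw [h5]
      ring
    · rw [if_neg hqn, if_neg hqn]
      ring
  -- (K4) `F'' = F' + q a κ g₂` vanishes at all `n` prime to `N`, hence prime to `N / q`
  set F'' : CuspForm (Gamma0 (N / q)) 2 := F' - (-((q : ℂ) * a * κ)) • g₂ with hF''_def
  have hK4 : ∀ n : ℕ, n.Coprime N → qCoeff ⇑F'' n = 0 := by
    intro n hn
    rw [hF''_def, H683.qCoeff_sub_cusp, H683.qCoeff_smul_cusp, hK3 n (hcopM n hn),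
      if_neg (hcopnq n hn), h3 n hn, sub_self]
  have hK5 : ∀ n : ℕ, n.Coprime (N / q) → qCoeff ⇑F'' n = 0 :=
    H743.qCoeff_eq_zero_of_coprime_level 2 (N / q) N (Nat.pos_of_ne_zero hN0) F'' hK4
  -- evaluate at `q` and `q²`
  have hcq : q.Coprime (N / q) := (Nat.Prime.coprime_iff_not_dvd hq).mpr hqM
  have e1 : (q : ℂ) * a * κ * b = 0 := by
    have h := hK5 q hcq
    rw [hF''_def, H683.qCoeff_sub_cusp, H683.qCoeff_smul_cusp, hK3 q hcq,
      if_pos (dvd_refl q)] at h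
    linear_combination h
  have hb2 : qCoeff ⇑g₂ (q * q) = b * b - (q : ℂ) := by
    have h := hT q
    rw [if_pos (dvd_refl q), Nat.div_self hq.pos, hg₂.qCoeff_one] at h
    linear_combination h
  have e2 : (q : ℂ) * a * κ * (b * b - (q : ℂ)) = 0 := by
    have h := hK5 (q * q) (hcopq q hcq)
    rw [hF''_def, H683.qCoeff_sub_cusp, H683.qCoeff_smul_cusp, hK3 (q * q) (hcopq q hcq),
      if_pos (Dvd.intro q rfl), hb2] at h
    linear_combination h
  have ha0 : a ≠ 0 := by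
    intro h0
    rw [h0, mul_zero] at haa
    exact zero_ne_one haa
  -- `κ = 0`
  have hκ0 : κ = 0 := by
    by_contra hκ
    have hqaκ : (q : ℂ) * a * κ ≠ 0 := mul_ne_zero (mul_ne_zero hq0 ha0) hκ
    have hb0 : b = 0 := by
      rcases mul_eq_zero.mp e1 with h | h
      · exact absurd h hqaκ
      · exact h
    rcases mul_eq_zero.mp e2 with h | h
    · exact hqaκ h
    · rw [hb0, mul_zero, zero_sub, neg_eq_zero] at h
      exact hq0 h
  -- contradiction with the strict bound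
  refine H263.qCoeff_sq_ne hg₂ hq hqM ?_
  have hab : a * b = 1 + (q : ℂ) := by
    have := hκ0
    rw [hκ_def] at this
    linear_combination -this
  have hb : b = a * (1 + (q : ℂ)) := by
    linear_combination a * hab - b * haa
  show b ^ 2 = ((q : ℂ) + 1) ^ 2
  rw [hb]
  linear_combination ((1 + (q : ℂ)) ^ 2) * haa

/-- **(ST-UQ), forms side, Prelude form.** -/
theorem isNewformAt_of_qCoeff_sq_eq_one {N q : ℕ} [NeZero N] (hq : q.Prime) (hqN : q ∣ N)
    (hq2 : ¬ q ^ 2 ∣ N) {g : CuspForm (Gamma0 N) 2} (hg : g.IsNormalizedEigenform)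
    (ha : qCoeff ⇑g q ^ 2 = 1) : g.IsNewformAt q :=
  ⟨hg, hqN, not_occurs_of_qCoeff_sq_eq_one hq hqN hq2 hg ha⟩

/-- At `q ∥ N` a normalized eigenform is new at `q` if and only if `a_q² = 1`. -/
theorem isNewformAt_iff_qCoeff_sq_eq_one {N q : ℕ} [NeZero N] (hq : q.Prime) (hqN : q ∣ N)
    (hq2 : ¬ q ^ 2 ∣ N) {g : CuspForm (Gamma0 N) 2} (hg : g.IsNormalizedEigenform) :
    g.IsNewformAt q ↔ qCoeff ⇑g q ^ 2 = 1 :=
  ⟨fun h => (badCoeffAt N g q hq h).1 hq2,
    fun h => isNewformAt_of_qCoeff_sq_eq_one hq hqN hq2 hg h⟩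

/-- The newform attached to a normalized eigenform which is new at `q ∥ N` has level exactly
divisible by `q`. -/
theorem exists_newform_of_isNewformAt {N q : ℕ} [NeZero N] (hq : q.Prime)
    (hq2 : ¬ q ^ 2 ∣ N) {g : CuspForm (Gamma0 N) 2} (hg : g.IsNewformAt q) :
    ∃ (M : ℕ) (_ : NeZero M) (_ : M ∣ N) (G : CuspForm (Gamma0 M) 2), G.IsNewform ∧
      q ∣ M ∧ ¬ q ^ 2 ∣ M ∧
      ∀ ℓ : ℕ, ℓ.Prime → ¬ ℓ ∣ N → qCoeff ⇑G ℓ = qCoeff ⇑g ℓ := by
  obtain ⟨hgn, hqN, hnocc⟩ := hg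
  obtain ⟨M, hMN, G, hG, hGg⟩ := descent N g hgn
  have hN0 : N ≠ 0 := NeZero.ne N
  have hM0 : M ≠ 0 := fun h0 => hN0 (by rw [h0] at hMN; exact zero_dvd_iff.mp hMN)
  have : NeZero M := ⟨hM0⟩
  refine ⟨M, ⟨hM0⟩, hMN, G, hG, ?_, fun h => hq2 (h.trans hMN), hGg⟩
  by_contra hqM
  apply hnocc
  have hNq : q * (N / q) = N := Nat.mul_div_cancel' hqN
  have hMq : M ∣ N / q := by
    have h1 : M ∣ q * (N / q) := by rw [hNq]; exact hMN
    exact (Nat.Coprime.dvd_mul_left
      ((Nat.Prime.coprime_iff_not_dvd hq).mpr hqM).symm).mp h1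
  have hNq0 : N / q ≠ 0 := by
    intro h0
    rw [h0, mul_zero] at hNq
    exact hN0 hNq.symm
  have : NeZero (N / q) := ⟨hNq0⟩
  obtain ⟨g', hg', hg'G⟩ := stab M (N / q) hMq G hG.isNormalizedEigenform
  refine ⟨g', hg', fun ℓ hℓ hℓN => ?_⟩
  rw [hg'G ℓ hℓ (fun h => hℓN (h.trans (Nat.div_dvd_of_dvd hqN))), hGg ℓ hℓ hℓN]

end Fermat.Agent.S38.H53

end
-- ===== PACK-END S38/H53/NewAtOfSq.lean

-- ===== PACK-BEGIN S38/H53/EigenUq.lean
section



/-!
# Row HARD, leaf (ST): eigenvectors with a prescribed `U_q`-eigenvalue   (helper53)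

`exists_normalizedEigenform_of_eigenvector_Uq` : a nonzero cusp form `h` of level `M` which is an
eigenvector of the `T_ℓ` (`ℓ ∤ M`, `ℓ ∉ S`) with eigenvalues `lam ℓ` AND of `U_q` (`q ∣ M`) with
eigenvalue `a` gives a NORMALIZED eigenform `g` of level `M` (Prelude sense: eigen for all
`T_ℓ`, `U_r`) with `a_ℓ(g) = lam ℓ` for those `ℓ` and `a_q(g) = a`.

(The library lemma `Lib.Newform.H863.exists_normalizedEigenform_of_eigenvector` does not control
the `U_q`-eigenvalue.)  This is the adapter from the Betti side of Ihara avoidance, where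
`U_q² = 1` is known on the module, to `H53.stUq` (which wants a normalized eigenform with
`a_q² = 1`).
-/

set_option autoImplicit false

open CuspForm CongruenceSubgroup ModularFormClass

namespace Fermat.Agent.S38.H53

open Fermat.Agent.Lib.Newform

/-- The common eigenspace of the good Hecke operators and of `U_q`. -/
def uqEigenspace (M : ℕ) [NeZero M] (S : Set ℕ) (lam : ℕ → ℂ) {q : ℕ} (hqM : q ∣ M) (a : ℂ) :
    Submodule ℂ (CuspForm (Gamma0 M) 2) where
  carrier := {h | (∀ (ℓ : ℕ) (hℓ : ℓ.Prime) (hℓM : ¬ ℓ ∣ M), ℓ ∉ S →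
    CuspForm.heckeTLin 2 hℓ hℓM h = lam ℓ • h) ∧ CuspForm.heckeULin 2 hqM h = a • h}
  add_mem' := by
    rintro x y ⟨hx, hx'⟩ ⟨hy, hy'⟩
    refine ⟨fun ℓ hℓ hℓM hS => ?_, ?_⟩
    · rw [map_add, hx ℓ hℓ hℓM hS, hy ℓ hℓ hℓM hS, smul_add]
    · rw [map_add, hx', hy', smul_add]
  zero_mem' := by
    refine ⟨fun ℓ hℓ hℓM hS => ?_, ?_⟩
    · simp
    · simp
  smul_mem' := by
    rintro c x ⟨hx, hx'⟩
    refine ⟨fun ℓ hℓ hℓM hS => ?_, ?_⟩
    · rw [map_smul, hx ℓ hℓ hℓM hS, smul_comm]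
    · rw [map_smul, hx', smul_comm]

/-- Every element of the full Hecke algebra preserves `uqEigenspace`. -/
theorem heckeAlgebra_mapsTo_uqEigenspace {M : ℕ} [NeZero M] (S : Set ℕ) (lam : ℕ → ℂ) {q : ℕ}
    (hq : q.Prime) (hqM : q ∣ M) (a : ℂ)
    (t : heckeAlgebra M 2 (∅ : Set ℕ)) (w : CuspForm (Gamma0 M) 2)
    (hw : w ∈ uqEigenspace M S lam hqM a) :
    (t : Module.End ℂ (CuspForm (Gamma0 M) 2)) w ∈ uqEigenspace M S lam hqM a := by
  obtain ⟨hw1, hw2⟩ := hw
  refine ⟨fun ℓ hℓ hℓM hS => ?_, ?_⟩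
  · have hcomm : (heckeAlgebra.T hℓ hℓM (Set.notMem_empty _) : heckeAlgebra M 2 (∅ : Set ℕ)) * t
        = t * heckeAlgebra.T hℓ hℓM (Set.notMem_empty _) := mul_comm _ _
    have h1 := congrArg (fun x : heckeAlgebra M 2 (∅ : Set ℕ) =>
      (x : Module.End ℂ (CuspForm (Gamma0 M) 2)) w) hcomm
    simp only [MulMemClass.coe_mul, heckeAlgebra.coe_T, Module.End.mul_apply] at h1
    rw [h1, hw1 ℓ hℓ hℓM hS, map_smul]
  · have hcomm : (heckeAlgebra.U hq hqM (Set.notMem_empty _) : heckeAlgebra M 2 (∅ : Set ℕ)) * t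
        = t * heckeAlgebra.U hq hqM (Set.notMem_empty _) := mul_comm _ _
    have h1 := congrArg (fun x : heckeAlgebra M 2 (∅ : Set ℕ) =>
      (x : Module.End ℂ (CuspForm (Gamma0 M) 2)) w) hcomm
    simp only [MulMemClass.coe_mul, heckeAlgebra.coe_U, Module.End.mul_apply] at h1
    rw [h1, hw2, map_smul]

/-- The action of the full Hecke algebra on `uqEigenspace`. -/
noncomputable def heckeOnUq (M : ℕ) [NeZero M] (S : Set ℕ) (lam : ℕ → ℂ) {q : ℕ}
    (hq : q.Prime) (hqM : q ∣ M) (a : ℂ) :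
    heckeAlgebra M 2 (∅ : Set ℕ) →+* Module.End ℂ (uqEigenspace M S lam hqM a) where
  toFun t := (t : Module.End ℂ (CuspForm (Gamma0 M) 2)).restrict
    (fun w hw => heckeAlgebra_mapsTo_uqEigenspace S lam hq hqM a t w hw)
  map_one' := by
    ext w
    simp
  map_mul' x y := by
    ext w
    simp [Module.End.mul_apply]
  map_zero' := by
    ext w
    simp
  map_add' x y := by
    ext w
    simp

theorem heckeOnUq_apply_coe {M : ℕ} [NeZero M] (S : Set ℕ) (lam : ℕ → ℂ) {q : ℕ}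
    (hq : q.Prime) (hqM : q ∣ M) (a : ℂ)
    (t : heckeAlgebra M 2 (∅ : Set ℕ)) (w : uqEigenspace M S lam hqM a) :
    ((heckeOnUq M S lam hq hqM a t w : uqEigenspace M S lam hqM a) : CuspForm (Gamma0 M) 2)
      = (t : Module.End ℂ (CuspForm (Gamma0 M) 2)) (w : CuspForm (Gamma0 M) 2) := rfl

/-- **Eigenvector ⟹ normalized eigenform, with the `U_q`-eigenvalue.** -/
theorem exists_normalizedEigenform_of_eigenvector_Uq {M : ℕ} [NeZero M] (S : Set ℕ)
    (lam : ℕ → ℂ) {q : ℕ} (hq : q.Prime) (hqM : q ∣ M) (a : ℂ)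
    (h : CuspForm (Gamma0 M) 2) (hh : h ≠ 0)
    (heig : ∀ (ℓ : ℕ) (hℓ : ℓ.Prime) (hℓM : ¬ ℓ ∣ M), ℓ ∉ S →
      CuspForm.heckeTLin 2 hℓ hℓM h = lam ℓ • h)
    (hU : CuspForm.heckeULin 2 hqM h = a • h) :
    ∃ g : CuspForm (Gamma0 M) 2, g.IsNormalizedEigenform ∧
      (∀ ℓ : ℕ, ℓ.Prime → ¬ ℓ ∣ M → ℓ ∉ S → qCoeff g ℓ = lam ℓ) ∧ qCoeff g q = a := by
  classical
  have := H863.finiteDimensional_cuspForm M
  set W := uqEigenspace M S lam hqM a with hW
  have hhW : h ∈ W := ⟨heig, hU⟩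
  have : Nontrivial W := ⟨⟨⟨h, hhW⟩, 0, fun h0 => hh (congrArg Subtype.val h0)⟩⟩
  set ρ := heckeOnUq M S lam hq hqM a with hρ
  have hker : RingHom.ker ρ ≠ ⊤ := by
    intro htop
    have h1 : (1 : heckeAlgebra M 2 (∅ : Set ℕ)) ∈ RingHom.ker ρ := htop ▸ Submodule.mem_top
    rw [RingHom.mem_ker, map_one] at h1
    have h2 := congrArg (fun e : Module.End ℂ W => e ⟨h, hhW⟩) h1
    simp only [Module.End.one_apply, LinearMap.zero_apply] at h2
    exact hh (congrArg Subtype.val h2)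
  obtain ⟨𝔫, h𝔫max, h𝔫le⟩ := Ideal.exists_le_maximal _ hker
  have : 𝔫.IsPrime := h𝔫max.isPrime
  obtain ⟨g, χ, hg0, hgχ, -⟩ := Fermat.Agent.S49.exists_eigenvector_ker_le' ρ 𝔫 h𝔫le
  have hg0' : (g : CuspForm (Gamma0 M) 2) ≠ 0 := fun h0 => hg0 (Subtype.ext h0)
  have hgχ' : ∀ t : heckeAlgebra M 2 (∅ : Set ℕ),
      (t : Module.End ℂ (CuspForm (Gamma0 M) 2)) (g : CuspForm (Gamma0 M) 2)
        = χ t • (g : CuspForm (Gamma0 M) 2) := by
    intro t
    have := congrArg Subtype.val (hgχ t)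
    simpa [hρ, heckeOnUq_apply_coe] using this
  -- `g` is an eigenvector of all `T_p`, `U_p` (function level)
  have hT : ∀ p : ℕ, p.Prime → ¬ p ∣ M →
      ∃ c : ℂ, ModularForm.heckeT 2 p ⇑(g : CuspForm (Gamma0 M) 2)
        = c • ⇑(g : CuspForm (Gamma0 M) 2) := by
    intro p hp hpM
    refine ⟨χ (heckeAlgebra.T hp hpM (Set.notMem_empty _)), ?_⟩
    have h1 := hgχ' (heckeAlgebra.T hp hpM (Set.notMem_empty _))
    rw [heckeAlgebra.coe_T] at h1
    have h2 := congrArg (fun F : CuspForm (Gamma0 M) 2 => (⇑F : UpperHalfPlane → ℂ)) h1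
    simpa using h2
  have hUall : ∀ p : ℕ, p.Prime → p ∣ M →
      ∃ c : ℂ, ModularForm.heckeU 2 p ⇑(g : CuspForm (Gamma0 M) 2)
        = c • ⇑(g : CuspForm (Gamma0 M) 2) := by
    intro p hp hpM
    refine ⟨χ (heckeAlgebra.U hp hpM (Set.notMem_empty _)), ?_⟩
    have h1 := hgχ' (heckeAlgebra.U hp hpM (Set.notMem_empty _))
    rw [heckeAlgebra.coe_U] at h1
    have h2 := congrArg (fun F : CuspForm (Gamma0 M) 2 => (⇑F : UpperHalfPlane → ℂ)) h1
    simpa using h2
  -- normalise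
  have ha1 : qCoeff ⇑(g : CuspForm (Gamma0 M) 2) 1 ≠ 0 := fun h1 =>
    hg0' (H683.eq_zero_of_eigen_of_coeff_one_eq_zero _ hT hUall h1)
  set c : ℂ := (qCoeff ⇑(g : CuspForm (Gamma0 M) 2) 1)⁻¹ with hc
  set f : CuspForm (Gamma0 M) 2 := c • (g : CuspForm (Gamma0 M) 2) with hf
  have hfW : f ∈ W := W.smul_mem c g.2
  have hf1 : qCoeff ⇑f 1 = 1 := by
    rw [hf, H683.qCoeff_smul_cusp, hc]
    exact inv_mul_cancel₀ ha1
  have hfT : ∀ p : ℕ, p.Prime → ¬ p ∣ M →
      ∃ c' : ℂ, ModularForm.heckeT 2 p ⇑f = c' • ⇑f := by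
    intro p hp hpM
    obtain ⟨c', hc'⟩ := hT p hp hpM
    refine ⟨c', ?_⟩
    have h1 : (⇑f : UpperHalfPlane → ℂ) = c • ⇑(g : CuspForm (Gamma0 M) 2) := by
      rw [hf]; rfl
    rw [h1, ModularForm.heckeT_smul, hc', smul_comm]
  have hfU : ∀ p : ℕ, p.Prime → p ∣ M →
      ∃ c' : ℂ, ModularForm.heckeU 2 p ⇑f = c' • ⇑f := by
    intro p hp hpM
    obtain ⟨c', hc'⟩ := hUall p hp hpM
    refine ⟨c', ?_⟩
    have h1 : (⇑f : UpperHalfPlane → ℂ) = c • ⇑(g : CuspForm (Gamma0 M) 2) := by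
      rw [hf]; rfl
    rw [h1, ModularForm.heckeU_smul, hc', smul_comm]
  have hfn : f.IsNormalizedEigenform := H683.isNormalizedEigenform_of_eigen f hf1 hfT hfU
  refine ⟨f, hfn, fun ℓ hℓ hℓM hℓS => ?_, ?_⟩
  · have h1 := hfW.1 ℓ hℓ hℓM hℓS
    have h2 := congrArg (fun F : CuspForm (Gamma0 M) 2 => (⇑F : UpperHalfPlane → ℂ)) h1
    simp only [CuspForm.coe_heckeTLin_apply] at h2
    exact (H683.eigenvalue_T_eq_coeff f hf1 hℓ (lam ℓ) (by simpa using h2)).symm
  · have h1 := hfW.2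
    have h2 := congrArg (fun F : CuspForm (Gamma0 M) 2 => (⇑F : UpperHalfPlane → ℂ)) h1
    simp only [CuspForm.coe_heckeULin_apply] at h2
    exact (H683.eigenvalue_U_eq_coeff f hf1 hq a (by simpa using h2)).symm

end Fermat.Agent.S38.H53

end
-- ===== PACK-END S38/H53/EigenUq.lean

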