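import Mathlib
import Fermat.Agent.Pack.S43GC.G0E20L3
import Fermat.Agent.Pack.S43C.E0L0
import Fermat.Agent.Pack.S43MC.G0E19L1
import Fermat.Agent.Pack.S43MC.G0E23L3
import Fermat.Agent.Pack.S43MC.G0E19L2
import Fermat.Agent.Pack.S43MC.G0E20L1
import Fermat.Agent.Pack.S43MC.G0E12L3
import Fermat.Agent.Pack.S43MC.G0E20L0
import Fermat.Agent.Pack.S43MC.G0E20L2
import Fermat.Agent.Pack.S43C.E0L2
import Fermat.Agent.Pack.S43GC.G0E12L1
import Fermat.Agent.Pack.S43MC.G0E10L2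
import Fermat.Agent.Pack.S43MC.G0E22L2
import Fermat.Agent.Pack.Fast891

-- ===== PACK-BEGIN S38/IA/H183/SharpWall.lean
section


/-!
# Row 37 pivot (Ihara avoidance), Galois side — the SHARP WALL (helper183)

Plain-function language of `Fermat/Agent/S56/H716` (`c : G_ℚ → End_k V`, `M = ad⁰ρ̄`).

The wall `H716.GWWall` of row S56 is stated for local spaces `Λ v` (`v ∈ Smin`) with
`dim Λ v ≤ h⁰(D_v, M) + δ v`, `∑ δ v ≤ 1`, and concludes `dim ≤ #Q`.  Its proof gives more: the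
places `Pl` and the dual frame `D` do NOT depend on the local spaces, and the inequality is
*sharp* in the local spaces.

* `SharpWall 𝒪 p ρbar S S'` : there are places `Pl` over `S'` and a dual frame `D`, unramified
  outside `S'`, such that for ARBITRARY finite-dimensional local spaces `Λ v` (`v ∈ S'`) and every
  set `Q` of Taylor–Wiles primes (relative to `S`) killing `D` the Selmer cocycles of `(Λ, S', Q)`
  are represented, modulo coboundaries, by a space `T` with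

      `dim T + ∑_{v ∈ S'} h⁰(D_{Pl v}, M) + 1 ≤ #Q + ∑_{v ∈ S'} dim Λ v`.

* `sharpWall_of_base_recQ : H716.Base 𝒪 p ρbar S' → H716.RecQ 𝒪 p ρbar S S' → SharpWall 𝒪 p ρbar S S'`
  (the proof of `H716.gwWall_of_base_sub`, with the bookkeeping of the local spaces removed).

Taking `Λ v = ⊥` at a set `T ⊆ S'` of primes gains `∑_{v ∈ T} h⁰(D_{Pl v}, M)` (`= 3 #T` when
`ρ̄(D_v)` is scalar): this is the count of the framed deformation problem relative to the local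
lifting rings at `T` (see `RelWall.lean`).

Nothing unproved in this file.
-/

set_option autoImplicit false

open Polynomial IsLocalRing

noncomputable section

namespace Fermat.Agent.S38.IA.H183

open Fermat.Agent.S56 Fermat.Agent.S56.H716

section

variable (𝒪 : Type) [CommRing 𝒪] [IsDomain 𝒪] [IsDiscreteValuationRing 𝒪]
  (p : ℕ) (ρbar : ResidualGaloisRep (ResidueField 𝒪)) (S S' : Finset ℕ)

/-- (SHARP-WALL) for one residual representation and one set `S'` of primes: the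
Greenberg–Wiles inequality in its sharp form, for arbitrary local spaces on `S'`.  The places and
the dual frame are chosen before the local spaces. -/
def SharpWall : Prop :=
  ∃ Pl : ℕ → ValuationSubring Qb, (∀ v ∈ S', (Pl v).LiesOverPrime v) ∧
    ∃ D : Submodule (ResidueField 𝒪) (GQ → Module.End (ResidueField 𝒪) ρbar.V),
      IsDualFrame ρbar p D ∧
      (∀ y ∈ D, ∀ q : ℕ, q.Prime → q ∉ S' → UnramAt ρbar y q) ∧
      ∀ Λ : ℕ → Submodule (ResidueField 𝒪) (GQ → Module.End (ResidueField 𝒪) ρbar.V),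
        (∀ v ∈ S', Module.Finite (ResidueField 𝒪) (Λ v)) →
        ∀ Q : Finset ℕ, (∀ q ∈ Q, IsTWPrime ρbar p S q) → Kills ρbar p D Q →
          ∃ T : Submodule (ResidueField 𝒪) (GQ → Module.End (ResidueField 𝒪) ρbar.V),
            Module.Finite (ResidueField 𝒪) T ∧
            Module.finrank (ResidueField 𝒪) T +
                ∑ v ∈ S', Module.finrank (ResidueField 𝒪)
                  (adInv ρbar ((Pl v).decompositionSubgroup ℚ)) + 1
              ≤ Q.card + ∑ v ∈ S', Module.finrank (ResidueField 𝒪) (Λ v) ∧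
            ∀ c, IsSelCocycle ρbar Pl Λ S' Q c → ∃ t ∈ T, IsAdCoboundary ρbar (c - t)

/-- **Glue** `SHARP-WALL(S, S') ⇐ BASE(S') + REC-Q(S, S')`. -/
theorem sharpWall_of_base_recQ (hb : Base 𝒪 p ρbar S') (hr : RecQ 𝒪 p ρbar S S') :
    SharpWall 𝒪 p ρbar S S' := by
  classical
  obtain ⟨Pl, hPl, D, X, hD, hDur, hXfin, hX, hdim⟩ := hb
  refine ⟨Pl, hPl, D, hD, hDur, fun Λ hΛ Q hQ hK => ?_⟩
  obtain ⟨U, hUfin, hUdim, hU⟩ := hr Pl hPl D hD hDur Q hQ hK
  obtain ⟨W, hWfin, hWdim, hW⟩ := exists_local_lift ρbar Pl Λ S' Q hΛ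
  have := hXfin
  have := hUfin
  have := hWfin
  refine ⟨W ⊔ U ⊔ X, inferInstance, ?_, fun c hc => ?_⟩
  · have h1 : Module.finrank (ResidueField 𝒪) ↥(W ⊔ U ⊔ X) ≤
        Module.finrank (ResidueField 𝒪) W + Module.finrank (ResidueField 𝒪) U +
          Module.finrank (ResidueField 𝒪) X :=
      (Submodule.finrank_add_le_finrank_add_finrank (W ⊔ U) X).trans
        (Nat.add_le_add_right (Submodule.finrank_add_le_finrank_add_finrank W U) _)
    omega
  · obtain ⟨w, hw, hcw⟩ := hW c hc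
    obtain ⟨u, hu, c', hc', hcob⟩ := hU (c - w) hcw
    obtain ⟨x, hx, hcob'⟩ := hX c' hc'
    refine ⟨w + u + x, Submodule.add_mem _ (Submodule.add_mem _
      (Submodule.mem_sup_left (Submodule.mem_sup_left hw))
      (Submodule.mem_sup_left (Submodule.mem_sup_right hu)))
      (Submodule.mem_sup_right hx), ?_⟩
    have := hcob.add ρbar hcob'
    rwa [show c - w - u - c' + (c' - x) = c - (w + u + x) by abel] at this

end

end Fermat.Agent.S38.IA.H183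

end

end
-- ===== PACK-END S38/IA/H183/SharpWall.lean

-- ===== PACK-BEGIN S38/IA/Hecke/LevelLemmas.lean
section


/-!
# Row HARD, cell HECKE, layer 3: lemmas on the level structure  (helper3)

For a family `qq : ι → ℕ` of distinct primes (`ι` a finite type):
* `gRed_surjective` : `(ℤ/M)ˣ → ∏ (ℤ/qq s)ˣ` is onto (Chinese remainder theorem);
* `diamondU_eq_of_gChi` : the diamond operator of `K = KG p N₀ qq` depends only on the class in
  `Δ`;
* `diamondU_gLift_one`, `diamondU_gLift_mul`, `diamondU_gLift_pow` : the diamond action of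
  `∏ (ℤ/qq s)ˣ` through `gLift` is multiplicative and kills the `p^{m_s}`-th powers.
(Generic-index versions of `red_surjective`, `diamondU_eq_of_chi` of helper511,
`S59/TW/Aut/SkelLemmas.lean`.)
-/

set_option autoImplicit false

open Polynomial IsLocalRing CongruenceSubgroup
open scoped MatrixGroups

namespace Fermat.Agent.S38.IA.Hecke

open Fermat.Agent.S59.TW.H653

section CRT

variable (N₀ : ℕ) {ι : Type} [Fintype ι] (qq : ι → ℕ)

theorem gRed_apply (u : (ZMod (gLevel N₀ qq))ˣ) (s : ι) :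
    gRed N₀ qq u s = ZMod.unitsMap (dvd_gLevel N₀ qq s) u := rfl

theorem gLevel_ne_zero (hN₀ : N₀ ≠ 0) (hprime : ∀ s, (qq s).Prime) : gLevel N₀ qq ≠ 0 :=
  Nat.mul_ne_zero hN₀ (Finset.prod_ne_zero_iff.mpr fun s _ => (hprime s).ne_zero)

/-- `(ℤ/M)ˣ → ∏ (ℤ/qq s)ˣ` is onto. -/
theorem gRed_surjective (hN₀ : N₀ ≠ 0) (hinj : Function.Injective qq)
    (hprime : ∀ s, (qq s).Prime) : Function.Surjective (gRed N₀ qq) := by
  intro a
  have hcop : Pairwise (Function.onFun Nat.Coprime qq) := by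
    intro i j hij
    exact (Nat.coprime_primes (hprime i) (hprime j)).mpr fun h => hij (hinj h)
  have hM : NeZero (gLevel N₀ qq) := ⟨gLevel_ne_zero N₀ qq hN₀ hprime⟩
  have hPM : (∏ s, qq s) ∣ gLevel N₀ qq := Dvd.intro_left _ rfl
  set e := ZMod.prodEquivPi qq hcop with he
  set x : ZMod (∏ s, qq s) := e.symm (fun s => ((a s : (ZMod (qq s))ˣ) : ZMod (qq s))) with hx
  set y : ZMod (∏ s, qq s) := e.symm (fun s => ((a s)⁻¹ : (ZMod (qq s))ˣ)) with hy
  have hxy : x * y = 1 := by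
    rw [hx, hy, ← map_mul]
    have : ((fun s => ((a s : (ZMod (qq s))ˣ) : ZMod (qq s))) *
        fun s => (((a s)⁻¹ : (ZMod (qq s))ˣ) : ZMod (qq s))) = 1 := by
      funext s
      simp
    rw [this, map_one]
  obtain ⟨u, hu⟩ := ZMod.unitsMap_surjective hPM (Units.mkOfMulEqOne x y hxy)
  refine ⟨u, ?_⟩
  funext s
  apply Units.ext
  rw [gRed_apply]
  have h1 : ZMod.unitsMap (dvd_gLevel N₀ qq s) u =
      ZMod.unitsMap (Finset.dvd_prod_of_mem qq (Finset.mem_univ s)) (ZMod.unitsMap hPM u) := by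
    rw [← MonoidHom.comp_apply, ZMod.unitsMap_comp]
  rw [h1, hu]
  show ZMod.castHom (Finset.dvd_prod_of_mem qq (Finset.mem_univ s)) (ZMod (qq s)) x = _
  rw [← ZMod.prodEquivPi_apply qq hcop x s, ← he, hx, RingEquiv.apply_symm_apply]

end CRT

section Dia

variable (p N₀ : ℕ) {ι : Type} [Fintype ι] (qq : ι → ℕ) {A : Type} [AddCommGroup A]

theorem diamondU_of_gChi [NeZero (gLevel N₀ qq)] {u : (ZMod (gLevel N₀ qq))ˣ}
    (hu : gChi p N₀ qq u = 1) (x : Additive (KG p N₀ qq) →+ A) :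
    diamondU (isMid_KG p N₀ qq) u x = x := by
  have h := diamondHom_GammaH (A := A) (M := gLevel N₀ qq) (H := (gChi p N₀ qq).ker)
    (u := u) (MonoidHom.mem_ker.mpr hu)
  have h2 := congrArg (fun f : AddMonoid.End (Additive (GammaH (gLevel N₀ qq)
    (gChi p N₀ qq).ker) →+ A) => f x) h
  exact h2

/-- The diamond operator of `K` depends only on the class in `Δ`. -/
theorem diamondU_eq_of_gChi [NeZero (gLevel N₀ qq)] {u u' : (ZMod (gLevel N₀ qq))ˣ}
    (hu : gChi p N₀ qq u = gChi p N₀ qq u') (x : Additive (KG p N₀ qq) →+ A) :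
    diamondU (isMid_KG p N₀ qq) u x = diamondU (isMid_KG p N₀ qq) u' x := by
  have h1 : u = u' * (u'⁻¹ * u) := by group
  have h2 : gChi p N₀ qq (u'⁻¹ * u) = 1 := by
    rw [map_mul, map_inv, hu, inv_mul_cancel]
  rw [h1, diamondU_mul, diamondU_of_gChi p N₀ qq h2]

theorem gChi_eq_of_gRed {u u' : (ZMod (gLevel N₀ qq))ˣ} (h : gRed N₀ qq u = gRed N₀ qq u') :
    gChi p N₀ qq u = gChi p N₀ qq u' := by
  unfold gChi
  rw [MonoidHom.comp_apply, MonoidHom.comp_apply, h]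

theorem gChi_apply (u : (ZMod (gLevel N₀ qq))ˣ) :
    gChi p N₀ qq u = QuotientGroup.mk' (gPowSub p qq) (gRed N₀ qq u) := rfl

variable (hsurj : Function.Surjective (gRed N₀ qq))

include hsurj in
theorem gRed_gLift' (a : ∀ s : ι, (ZMod (qq s))ˣ) : gRed N₀ qq (gLift N₀ qq a) = a :=
  gRed_gLift N₀ qq (hsurj a)

include hsurj in
theorem diamondU_gLift_one [NeZero (gLevel N₀ qq)] (x : Additive (KG p N₀ qq) →+ A) :
    diamondU (isMid_KG p N₀ qq) (gLift N₀ qq 1) x = x := by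
  apply diamondU_of_gChi
  rw [gChi_apply, gRed_gLift' N₀ qq hsurj, map_one]

include hsurj in
theorem diamondU_gLift_mul [NeZero (gLevel N₀ qq)] (a b : ∀ s : ι, (ZMod (qq s))ˣ)
    (x : Additive (KG p N₀ qq) →+ A) :
    diamondU (isMid_KG p N₀ qq) (gLift N₀ qq (a * b)) x =
      diamondU (isMid_KG p N₀ qq) (gLift N₀ qq a)
        (diamondU (isMid_KG p N₀ qq) (gLift N₀ qq b) x) := by
  rw [← diamondU_mul]
  apply diamondU_eq_of_gChi
  apply gChi_eq_of_gRed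
  rw [map_mul, gRed_gLift' N₀ qq hsurj, gRed_gLift' N₀ qq hsurj, gRed_gLift' N₀ qq hsurj]

include hsurj in
/-- The diamond operators of the elements of `gPowSub` are trivial. -/
theorem diamondU_gLift_of_mem [NeZero (gLevel N₀ qq)] {a : ∀ s : ι, (ZMod (qq s))ˣ}
    (ha : a ∈ gPowSub p qq) (x : Additive (KG p N₀ qq) →+ A) :
    diamondU (isMid_KG p N₀ qq) (gLift N₀ qq a) x = x := by
  apply diamondU_of_gChi
  rw [gChi_apply, gRed_gLift' N₀ qq hsurj]
  exact (QuotientGroup.eq_one_iff a).mpr ha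

theorem pow_mem_gPowSub (a : ∀ s : ι, (ZMod (qq s))ˣ) :
    (fun s => a s ^ p ^ padicValNat p (qq s - 1)) ∈ gPowSub p qq := by
  unfold gPowSub
  rw [Subgroup.mem_pi]
  intro s _
  exact ⟨a s, rfl⟩

/-- The diamond operators commute. -/
theorem diamondU_comm' [NeZero (gLevel N₀ qq)] (u v : (ZMod (gLevel N₀ qq))ˣ)
    (x : Additive (KG p N₀ qq) →+ A) :
    diamondU (isMid_KG p N₀ qq) u (diamondU (isMid_KG p N₀ qq) v x) =
      diamondU (isMid_KG p N₀ qq) v (diamondU (isMid_KG p N₀ qq) u x) := by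
  rw [← diamondU_mul, ← diamondU_mul, mul_comm]

end Dia

end Fermat.Agent.S38.IA.Hecke

end
-- ===== PACK-END S38/IA/Hecke/LevelLemmas.lean

-- ===== PACK-BEGIN S38/IA/Hecke/GlueB1.lean
section



/-!
# Row HARD, cell HECKE, layer 3, glue B, part 1: the Betti module of a localisation  (helper3)

For `V ⊆ X_K(𝒪)` with `IsIAPart PQ α V` and an action `a` of `T_Q` with `IsIAAction PQ V h a`:
* `VMod V a` : `V` as a `T_Q`-module;
* `diaMod` : the `T_Q`-linear diamond action of `∏ (ℤ/pv i)ˣ × ∏ (ℤ/qv j)ˣ` on `VMod V a`;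
* the conversions of `IAFreeAt`, `IACmpAt`, `IANuAt`, `IAStAt` into the fields of
  `IABettiLevel` (`bettiOf`).
-/

set_option autoImplicit false

open Polynomial IsLocalRing CongruenceSubgroup
open scoped MatrixGroups

namespace Fermat.Agent.S38.IA.Hecke

open Fermat.Agent.S59.Arch Fermat.Agent.S59.TW.H959 Fermat.Agent.S59.TW Fermat.Agent.S59.H765
open Fermat.Agent.S59.TW.H653 Fermat.Agent.S59.TW.Aut
open CuspForm

/-! ## The pairs -/

section Pair

variable {k r : ℕ} {pv : Fin k → ℕ} {qv : Fin r → ℕ}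

theorem pairU_one : pairU (1 : ∀ i : Fin k, (ZMod (pv i))ˣ) (1 : ∀ j : Fin r, (ZMod (qv j))ˣ) = 1 := by
  funext s
  cases s <;> rfl

theorem pairU_mul (a₁ b₁ : ∀ i : Fin k, (ZMod (pv i))ˣ) (a₂ b₂ : ∀ j : Fin r, (ZMod (qv j))ˣ) :
    pairU (a₁ * b₁) (a₂ * b₂) = pairU a₁ a₂ * pairU b₁ b₂ := by
  funext s
  cases s <;> rfl

theorem pairU_mem_gPowSub (p : ℕ) (a₁ : ∀ i : Fin k, (ZMod (pv i))ˣ)
    (a₂ : ∀ j : Fin r, (ZMod (qv j))ˣ) :
    pairU (fun i => a₁ i ^ p ^ padicValNat p (pv i - 1))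
      (fun j => a₂ j ^ p ^ padicValNat p (qv j - 1)) ∈ gPowSub p (Sum.elim pv qv) := by
  unfold gPowSub
  rw [Subgroup.mem_pi]
  intro s _
  cases s with
  | inl i => exact ⟨a₁ i, rfl⟩
  | inr j => exact ⟨a₂ j, rfl⟩

end Pair

/-! ## The diamond operators `diaIA` -/

section Dia

variable (p : ℕ) (Smin : Finset ℕ) {k r : ℕ} (pv : Fin k → ℕ) (qv : Fin r → ℕ)
  (𝒪 : Type) [CommRing 𝒪]

theorem diaIA_add (a₁ : ∀ i : Fin k, (ZMod (pv i))ˣ) (a₂ : ∀ j : Fin r, (ZMod (qv j))ˣ)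
    (x y : XIA p Smin pv qv 𝒪) :
    diaIA p Smin pv qv 𝒪 a₁ a₂ (x + y) =
      diaIA p Smin pv qv 𝒪 a₁ a₂ x + diaIA p Smin pv qv 𝒪 a₁ a₂ y := rfl

theorem diaIA_smul (a₁ : ∀ i : Fin k, (ZMod (pv i))ˣ) (a₂ : ∀ j : Fin r, (ZMod (qv j))ˣ)
    (c : 𝒪) (x : XIA p Smin pv qv 𝒪) :
    diaIA p Smin pv qv 𝒪 a₁ a₂ (c • x) = c • diaIA p Smin pv qv 𝒪 a₁ a₂ x := rfl

theorem diaIA_sub (a₁ : ∀ i : Fin k, (ZMod (pv i))ˣ) (a₂ : ∀ j : Fin r, (ZMod (qv j))ˣ)
    (x y : XIA p Smin pv qv 𝒪) :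
    diaIA p Smin pv qv 𝒪 a₁ a₂ (x - y) =
      diaIA p Smin pv qv 𝒪 a₁ a₂ x - diaIA p Smin pv qv 𝒪 a₁ a₂ y := by
  unfold diaIA diamondU diamond
  exact AddMonoidHom.ext fun _ => rfl

variable [NeZero (MIA p Smin pv qv)]
  (hsurj : Function.Surjective (gRed (wilesLevel p .flat Smin Smin) (Sum.elim pv qv)))

include hsurj in
theorem diaIA_one (x : XIA p Smin pv qv 𝒪) : diaIA p Smin pv qv 𝒪 1 1 x = x := by
  unfold diaIA
  rw [pairU_one]
  exact diamondU_gLift_one p _ _ hsurj x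

include hsurj in
theorem diaIA_mul (a₁ b₁ : ∀ i : Fin k, (ZMod (pv i))ˣ) (a₂ b₂ : ∀ j : Fin r, (ZMod (qv j))ˣ)
    (x : XIA p Smin pv qv 𝒪) :
    diaIA p Smin pv qv 𝒪 (a₁ * b₁) (a₂ * b₂) x =
      diaIA p Smin pv qv 𝒪 a₁ a₂ (diaIA p Smin pv qv 𝒪 b₁ b₂ x) := by
  unfold diaIA
  rw [pairU_mul]
  exact diamondU_gLift_mul p _ _ hsurj _ _ x

include hsurj in
theorem diaIA_pow (a₁ : ∀ i : Fin k, (ZMod (pv i))ˣ) (a₂ : ∀ j : Fin r, (ZMod (qv j))ˣ)
    (x : XIA p Smin pv qv 𝒪) :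
    diaIA p Smin pv qv 𝒪 (fun i => a₁ i ^ p ^ padicValNat p (pv i - 1))
      (fun j => a₂ j ^ p ^ padicValNat p (qv j - 1)) x = x := by
  unfold diaIA
  exact diamondU_gLift_of_mem p _ _ hsurj (pairU_mem_gPowSub p a₁ a₂) x

end Dia

/-! ## `V` as a module over the Hecke ring -/

section Mod

variable {p : ℕ}
  {𝒪 : Type} [CommRing 𝒪] [IsDomain 𝒪] [IsDiscreteValuationRing 𝒪]
  [IsAdicComplete (maximalIdeal 𝒪) 𝒪]
  {ρbar : ResidualGaloisRep (ResidueField 𝒪)} {Smin Piv : Finset ℕ}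
  {k r : ℕ} {pv : Fin k → ℕ} {qv : Fin r → ℕ}
  [NeZero (wilesLevel p .flat Smin (Smin ∪ Piv ∪ Finset.univ.image qv))]
  {PQ : HeckePkg p 𝒪 ρbar .flat Smin (Smin ∪ Piv ∪ Finset.univ.image qv)}

/-- `V` with the action of `T_Q` through `a`. -/
def VMod (V : Submodule 𝒪 (XIA p Smin pv qv 𝒪)) (_a : PQ.T →ₐ[𝒪] Module.End 𝒪 V) : Type := V

variable {V : Submodule 𝒪 (XIA p Smin pv qv 𝒪)} {a : PQ.T →ₐ[𝒪] Module.End 𝒪 V}

noncomputable instance : AddCommGroup (VMod V a) := inferInstanceAs (AddCommGroup V)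

noncomputable instance : Module PQ.T (VMod V a) :=
  Module.compHom V (a : PQ.T →+* Module.End 𝒪 V)

/-- The identification `VMod V a = V`. -/
noncomputable def VMod.mk (v : V) : VMod V a := v

/-- The identification `VMod V a = V`. -/
noncomputable def VMod.val (v : VMod V a) : V := v

theorem VMod.smul_def (t : PQ.T) (v : VMod V a) : t • v = VMod.mk (a t (VMod.val v)) := rfl

theorem VMod.algebraMap_smul (c : 𝒪) (v : VMod V a) :
    algebraMap 𝒪 PQ.T c • v = VMod.mk (c • VMod.val v) := by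
  rw [VMod.smul_def, AlgHom.commutes]
  rfl

end Mod

end Fermat.Agent.S38.IA.Hecke

end
-- ===== PACK-END S38/IA/Hecke/GlueB1.lean

-- ===== PACK-BEGIN S38/IA/Hecke/GlueB2.lean
section


/-!
# Row HARD, cell HECKE, layer 3, glue B, part 2: `bettiOf`  (helper3)

The abstract Betti module `IABettiLevel` of a localisation `V ⊆ X_K(𝒪)` (`IsIAPart`) with an
action `a` of `T_Q` (`IsIAAction`), given `IAFreeAt V d`, `IANuAt`, `IAStAt`; and its `Cmp` from
`IACmpAt`.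
-/

set_option autoImplicit false

open Polynomial IsLocalRing CongruenceSubgroup
open scoped MatrixGroups

namespace Fermat.Agent.S38.IA.Hecke

open Fermat.Agent.S59.Arch Fermat.Agent.S59.TW.H959 Fermat.Agent.S59.TW Fermat.Agent.S59.H765
open Fermat.Agent.S59.TW.H653 Fermat.Agent.S59.TW.Aut
open CuspForm

section Build

variable {p : ℕ}
  {𝒪 : Type} [CommRing 𝒪] [IsDomain 𝒪] [IsDiscreteValuationRing 𝒪]
  [IsAdicComplete (maximalIdeal 𝒪) 𝒪]
  {ρbar : ResidualGaloisRep (ResidueField 𝒪)} {Smin Piv : Finset ℕ}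
  {k r : ℕ} {pv : Fin k → ℕ} {qv : Fin r → ℕ}
  [NeZero (wilesLevel p .flat Smin (Smin ∪ Piv ∪ Finset.univ.image qv))]
  {PQ : HeckePkg p 𝒪 ρbar .flat Smin (Smin ∪ Piv ∪ Finset.univ.image qv)}
  {α : Fin r → 𝒪} {V : Submodule 𝒪 (XIA p Smin pv qv 𝒪)} {h : ℕ}
  {a : PQ.T →ₐ[𝒪] Module.End 𝒪 V}

/-- `V` is stable under the diamond operators. -/
theorem diaIA_mem (hV : IsIAPart PQ α V) (a₁ : ∀ i : Fin k, (ZMod (pv i))ˣ)
    (a₂ : ∀ j : Fin r, (ZMod (qv j))ˣ) {x : XIA p Smin pv qv 𝒪} (hx : x ∈ V) :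
    diaIA p Smin pv qv 𝒪 a₁ a₂ x ∈ V := by
  obtain ⟨e, -, he2, he3, -, -, heD, -⟩ := IsLocPart.exists_proj hV
  have h1 := heD (gLift (wilesLevel p .flat Smin Smin) (Sum.elim pv qv) (pairU a₁ a₂)) x
  rw [he3 x hx] at h1
  unfold diaIA
  rw [← h1]
  exact he2 _

variable [NeZero (MIA p Smin pv qv)]

/-- The action of `T_Q` commutes with the diamond operators. -/
theorem a_diaIA (hV : IsIAPart PQ α V) (ha : IsIAAction PQ V h a)
    (hsig : ∀ q : ℕ, q.Prime →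
      q ∣ wilesLevel p .flat Smin (Smin ∪ Piv ∪ Finset.univ.image qv) →
      q ∈ (↑(Smin ∪ Piv ∪ Finset.univ.image qv) : Set ℕ))
    (hM : ∀ ℓ : ℕ, ℓ.Prime →
      ¬ ℓ ∣ wilesLevel p .flat Smin (Smin ∪ Piv ∪ Finset.univ.image qv) →
      ℓ ∉ (↑(Smin ∪ Piv ∪ Finset.univ.image qv) : Set ℕ) → ¬ ℓ ∣ MIA p Smin pv qv)
    (a₁ : ∀ i : Fin k, (ZMod (pv i))ˣ) (a₂ : ∀ j : Fin r, (ZMod (qv j))ˣ) (t : PQ.T) :
    ∀ v : V, ((a t ⟨diaIA p Smin pv qv 𝒪 a₁ a₂ v, diaIA_mem hV a₁ a₂ v.2⟩ : V) :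
        XIA p Smin pv qv 𝒪) = diaIA p Smin pv qv 𝒪 a₁ a₂ ((a t v : V) : XIA p Smin pv qv 𝒪) := by
  refine pkg_induction PQ hsig
    (fun t => ∀ v : V, ((a t ⟨diaIA p Smin pv qv 𝒪 a₁ a₂ v, diaIA_mem hV a₁ a₂ v.2⟩ : V) :
        XIA p Smin pv qv 𝒪) = diaIA p Smin pv qv 𝒪 a₁ a₂ ((a t v : V) : XIA p Smin pv qv 𝒪))
    ?_ ?_ ?_ ?_ t
  · intro c v
    rw [AlgHom.commutes, Module.algebraMap_end_apply, Module.algebraMap_end_apply,
      Submodule.coe_smul, Submodule.coe_smul, diaIA_smul]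
  · intro x y hx hy v
    rw [map_add, LinearMap.add_apply, LinearMap.add_apply, Submodule.coe_add,
      Submodule.coe_add, diaIA_add, hx v, hy v]
  · intro x y hx hy v
    rw [map_mul, Module.End.mul_apply, Module.End.mul_apply]
    have h1 : a y ⟨diaIA p Smin pv qv 𝒪 a₁ a₂ v, diaIA_mem hV a₁ a₂ v.2⟩ =
        ⟨diaIA p Smin pv qv 𝒪 a₁ a₂ ((a y v : V) : XIA p Smin pv qv 𝒪),
          diaIA_mem hV a₁ a₂ (a y v).2⟩ := Subtype.ext (hy v)
    rw [h1]
    exact hx (a y v)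
  · intro ℓ hℓ hℓN hℓS v
    haveI : Fact ℓ.Prime := ⟨hℓ⟩
    have hℓM : ¬ ℓ ∣ MIA p Smin pv qv := hM ℓ hℓ hℓN hℓS
    rw [ha ℓ hℓ hℓN hℓS, ha ℓ hℓ hℓN hℓS]
    unfold tOpTw tOp diaIA
    have h1 := diamondU_TK (A := 𝒪) (isMid_KIA p Smin pv qv) hℓM
      (gLift (wilesLevel p .flat Smin Smin) (Sum.elim pv qv) (pairU a₁ a₂))
      (v : XIA p Smin pv qv 𝒪)
    rw [show (⟨diamondU (isMid_KIA p Smin pv qv)
        (gLift (wilesLevel p .flat Smin Smin) (Sum.elim pv qv) (pairU a₁ a₂))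
        (v : XIA p Smin pv qv 𝒪), diaIA_mem hV a₁ a₂ v.2⟩ : V).1 =
        diamondU (isMid_KIA p Smin pv qv)
        (gLift (wilesLevel p .flat Smin Smin) (Sum.elim pv qv) (pairU a₁ a₂))
        (v : XIA p Smin pv qv 𝒪) from rfl]
    rw [h1]
    exact diamondU_comm' p _ _ _ _ _

/-- The inclusion `VMod V a → X_K(𝒪)`. -/
noncomputable def VMod.toX : VMod V a →+ XIA p Smin pv qv 𝒪 :=
  (V.subtype : V →+ XIA p Smin pv qv 𝒪)

theorem VMod.toX_injective : Function.Injective (VMod.toX (V := V) (a := a)) :=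
  fun _ _ h => Subtype.ext h

theorem VMod.toX_mem (v : VMod V a) : VMod.toX v ∈ V := (VMod.val v).2

theorem VMod.toX_algebraMap_smul (c : 𝒪) (v : VMod V a) :
    VMod.toX (algebraMap 𝒪 PQ.T c • v) = c • VMod.toX v := by
  rw [VMod.algebraMap_smul]
  rfl

theorem VMod.toX_smul (t : PQ.T) (v : VMod V a) :
    VMod.toX (t • v) = ((a t (VMod.val v) : V) : XIA p Smin pv qv 𝒪) := rfl

variable (hV : IsIAPart PQ α V) (ha : IsIAAction PQ V h a)
  (hsig : ∀ q : ℕ, q.Prime →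
    q ∣ wilesLevel p .flat Smin (Smin ∪ Piv ∪ Finset.univ.image qv) →
    q ∈ (↑(Smin ∪ Piv ∪ Finset.univ.image qv) : Set ℕ))
  (hM : ∀ ℓ : ℕ, ℓ.Prime →
    ¬ ℓ ∣ wilesLevel p .flat Smin (Smin ∪ Piv ∪ Finset.univ.image qv) →
    ℓ ∉ (↑(Smin ∪ Piv ∪ Finset.univ.image qv) : Set ℕ) → ¬ ℓ ∣ MIA p Smin pv qv)
  (hsurj : Function.Surjective (gRed (wilesLevel p .flat Smin Smin) (Sum.elim pv qv)))

/-- The diamond operator of `(a₁, a₂)` as a `T_Q`-linear endomorphism of `VMod V a`. -/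
noncomputable def diaEnd (a₁ : ∀ i : Fin k, (ZMod (pv i))ˣ) (a₂ : ∀ j : Fin r, (ZMod (qv j))ˣ) :
    Module.End PQ.T (VMod V a) where
  toFun v := VMod.mk ⟨diaIA p Smin pv qv 𝒪 a₁ a₂ (VMod.toX v), diaIA_mem hV a₁ a₂ (VMod.toX_mem v)⟩
  map_add' x y := by
    apply VMod.toX_injective
    exact diaIA_add p Smin pv qv 𝒪 a₁ a₂ _ _
  map_smul' t v := by
    apply VMod.toX_injective
    exact (a_diaIA hV ha hsig hM a₁ a₂ t (VMod.val v)).symm

theorem toX_diaEnd (a₁ : ∀ i : Fin k, (ZMod (pv i))ˣ) (a₂ : ∀ j : Fin r, (ZMod (qv j))ˣ)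
    (v : VMod V a) :
    VMod.toX (diaEnd hV ha hsig hM a₁ a₂ v) = diaIA p Smin pv qv 𝒪 a₁ a₂ (VMod.toX v) := rfl

/-- The diamond action of `∏ (ℤ/pv i)ˣ × ∏ (ℤ/qv j)ˣ` on `VMod V a`. -/
noncomputable def diaMod :
    (∀ i : Fin k, (ZMod (pv i))ˣ) × (∀ j : Fin r, (ZMod (qv j))ˣ) →*
      Module.End PQ.T (VMod V a) where
  toFun d := diaEnd hV ha hsig hM d.1 d.2
  map_one' := by
    refine LinearMap.ext fun v => ?_
    apply VMod.toX_injective
    rw [toX_diaEnd]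
    exact diaIA_one p Smin pv qv 𝒪 hsurj _
  map_mul' d d' := by
    refine LinearMap.ext fun v => ?_
    apply VMod.toX_injective
    rw [Module.End.mul_apply, toX_diaEnd, toX_diaEnd, toX_diaEnd]
    exact diaIA_mul p Smin pv qv 𝒪 hsurj _ _ _ _ _

theorem toX_diaMod (d : (∀ i : Fin k, (ZMod (pv i))ˣ) × (∀ j : Fin r, (ZMod (qv j))ˣ))
    (v : VMod V a) :
    VMod.toX (diaMod hV ha hsig hM hsurj d v) = diaIA p Smin pv qv 𝒪 d.1 d.2 (VMod.toX v) := rfl

/-! ### The fields of `IABettiLevel` -/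

theorem diaMod_pow₁ (a₁ : ∀ i : Fin k, (ZMod (pv i))ˣ) :
    diaMod hV ha hsig hM hsurj (fun i => a₁ i ^ p ^ padicValNat p (pv i - 1), 1) = 1 := by
  refine LinearMap.ext fun v => ?_
  apply VMod.toX_injective
  rw [toX_diaMod, Module.End.one_apply]
  have key := diaIA_pow p Smin pv qv 𝒪 hsurj a₁ 1 (VMod.toX v)
  have h1 : (fun j => (1 : ∀ j : Fin r, (ZMod (qv j))ˣ) j ^ p ^ padicValNat p (qv j - 1)) = 1 := by
    funext j
    exact one_pow _
  rw [h1] at key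
  exact key

theorem diaMod_pow₂ (a₂ : ∀ j : Fin r, (ZMod (qv j))ˣ) :
    diaMod hV ha hsig hM hsurj (1, fun j => a₂ j ^ p ^ padicValNat p (qv j - 1)) = 1 := by
  refine LinearMap.ext fun v => ?_
  apply VMod.toX_injective
  rw [toX_diaMod, Module.End.one_apply]
  have key := diaIA_pow p Smin pv qv 𝒪 hsurj 1 a₂ (VMod.toX v)
  have h1 : (fun i => (1 : ∀ i : Fin k, (ZMod (pv i))ˣ) i ^ p ^ padicValNat p (pv i - 1)) = 1 := by
    funext i
    exact one_pow _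
  rw [h1] at key
  exact key

theorem toX_sum_diaMod {d : ℕ} {E : Type} [Fintype E]
    (γ : E → (∀ i : Fin k, (ZMod (pv i))ˣ) × (∀ j : Fin r, (ZMod (qv j))ˣ))
    (b : Fin d → V) (c : Fin d → E → 𝒪) :
    VMod.toX (∑ i, ∑ e, algebraMap 𝒪 PQ.T (c i e) •
      diaMod hV ha hsig hM hsurj (γ e) (VMod.mk (b i) : VMod V a)) =
      ∑ i, ∑ e, c i e • diaIA p Smin pv qv 𝒪 (γ e).1 (γ e).2 (b i : XIA p Smin pv qv 𝒪) := by
  rw [map_sum]
  refine Finset.sum_congr rfl fun i _ => ?_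
  rw [map_sum]
  refine Finset.sum_congr rfl fun e _ => ?_
  rw [VMod.toX_algebraMap_smul, toX_diaMod]
  rfl

theorem free_of_freeAt {d : ℕ} (hfree : IAFreeAt V d)
    (g₁ : ∀ i : Fin k, (ZMod (pv i))ˣ) (g₂ : ∀ j : Fin r, (ZMod (qv j))ˣ)
    (hg₁ : ∀ i, orderOf (g₁ i) = pv i - 1) (hg₂ : ∀ j, orderOf (g₂ j) = qv j - 1) :
    ∃ b : Fin d → VMod V a, ∀ y : VMod V a,
      ∃! c : Fin d → (∀ i : Fin k, Fin (p ^ padicValNat p (pv i - 1))) ×
          (∀ j : Fin r, Fin (p ^ padicValNat p (qv j - 1))) → 𝒪,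
        y = ∑ i, ∑ e, algebraMap 𝒪 PQ.T (c i e) •
          diaMod hV ha hsig hM hsurj
            (fun i' => g₁ i' ^ (e.1 i' : ℕ), fun j => g₂ j ^ (e.2 j : ℕ)) (b i) := by
  obtain ⟨b, hb⟩ := hfree g₁ g₂ hg₁ hg₂
  refine ⟨fun i => VMod.mk (b i), fun y => ?_⟩
  obtain ⟨c, hc, hcu⟩ := hb (VMod.val y)
  refine ⟨c, ?_, ?_⟩
  · apply VMod.toX_injective
    rw [toX_sum_diaMod hV ha hsig hM hsurj
      (fun e : (∀ i : Fin k, Fin (p ^ padicValNat p (pv i - 1))) ×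
          (∀ j : Fin r, Fin (p ^ padicValNat p (qv j - 1))) =>
        ((fun i' => g₁ i' ^ (e.1 i' : ℕ)), (fun j => g₂ j ^ (e.2 j : ℕ)))) b c]
    exact hc
  · intro c' hc'
    apply hcu
    have h2 := congrArg VMod.toX hc'
    rw [toX_sum_diaMod hV ha hsig hM hsurj
      (fun e : (∀ i : Fin k, Fin (p ^ padicValNat p (pv i - 1))) ×
          (∀ j : Fin r, Fin (p ^ padicValNat p (qv j - 1))) =>
        ((fun i' => g₁ i' ^ (e.1 i' : ℕ)), (fun j => g₂ j ^ (e.2 j : ℕ)))) b c'] at h2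
    exact h2

include hV in
theorem chiRelIA_le (χ : (∀ i : Fin k, (ZMod (pv i))ˣ) →* 𝒪) :
    chiRelIA p Smin pv qv χ V ≤ V := by
  refine Submodule.span_le.mpr ?_
  rintro w ⟨a₁, y, hy, rfl⟩
  exact V.sub_mem (diaIA_mem hV a₁ 1 hy) (V.smul_mem _ hy)

theorem mem_span_of_mem_chiRelIA (χ : (∀ i : Fin k, (ZMod (pv i))ˣ) →* 𝒪)
    {x : XIA p Smin pv qv 𝒪} (hx : x ∈ chiRelIA p Smin pv qv χ V) :
    ∀ v : VMod V a, VMod.toX v = x → v ∈ Submodule.span PQ.T
      {w : VMod V a | ∃ (a₁ : ∀ i : Fin k, (ZMod (pv i))ˣ) (y : VMod V a),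
        w = diaMod hV ha hsig hM hsurj (a₁, 1) y - algebraMap 𝒪 PQ.T (χ a₁) • y} := by
  unfold chiRelIA at hx
  induction hx using Submodule.span_induction with
  | mem w hw =>
    obtain ⟨a₁, y, hy, rfl⟩ := hw
    intro v hv
    refine Submodule.subset_span ⟨a₁, VMod.mk ⟨y, hy⟩, ?_⟩
    apply VMod.toX_injective
    rw [hv, map_sub, VMod.toX_algebraMap_smul, toX_diaMod]
    rfl
  | zero =>
    intro v hv
    have : v = 0 := VMod.toX_injective (by rw [hv, map_zero])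
    rw [this]
    exact Submodule.zero_mem _
  | add x y hx hy ihx ihy =>
    intro v hv
    have hxV : x ∈ V := chiRelIA_le hV χ hx
    have hyV : y ∈ V := chiRelIA_le hV χ hy
    have : v = (VMod.mk ⟨x, hxV⟩ : VMod V a) + VMod.mk ⟨y, hyV⟩ :=
      VMod.toX_injective (by rw [hv, map_add]; rfl)
    rw [this]
    exact Submodule.add_mem _ (ihx _ rfl) (ihy _ rfl)
  | smul c x hx ihx =>
    intro v hv
    have hxV : x ∈ V := chiRelIA_le hV χ hx
    have : v = algebraMap 𝒪 PQ.T c • (VMod.mk ⟨x, hxV⟩ : VMod V a) :=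
      VMod.toX_injective (by rw [hv, VMod.toX_algebraMap_smul]; rfl)
    rw [this]
    exact Submodule.smul_mem _ _ (ihx _ rfl)

/-- **The abstract Betti module of the localisation `V`.** -/
noncomputable def bettiOf (d : ℕ) (hfree : IAFreeAt V d) (hnu : IANuAt PQ V a)
    (hst : IAStAt PQ V a) : IABettiLevel Piv pv qv PQ d where
  V := VMod V a
  dia := diaMod hV ha hsig hM hsurj
  dia_pow₁ := diaMod_pow₁ hV ha hsig hM hsurj
  dia_pow₂ := diaMod_pow₂ hV ha hsig hM hsurj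
  free := free_of_freeAt hV ha hsig hM hsurj hfree
  nu := fun χ hχ t ht v =>
    mem_span_of_mem_chiRelIA hV ha hsig hM hsurj χ (hnu χ hχ t ht (VMod.val v)) (t • v) rfl
  st := fun q hq P hP φ hφ v => by
    have h1 := mem_span_of_mem_chiRelIA hV ha hsig hM hsurj 1 (hst q hq P hP φ hφ (VMod.val v))
      ((PQ.H.ρ.trace φ ^ 2 - ((1 + q : ℕ) : PQ.T) ^ 2) • v) rfl
    have h2 : {w : VMod V a | ∃ (a₁ : ∀ i : Fin k, (ZMod (pv i))ˣ) (y : VMod V a),
        w = diaMod hV ha hsig hM hsurj (a₁, 1) y -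
          algebraMap 𝒪 PQ.T ((1 : (∀ i : Fin k, (ZMod (pv i))ˣ) →* 𝒪) a₁) • y} =
        {w : VMod V a | ∃ (a₁ : ∀ i : Fin k, (ZMod (pv i))ˣ) (y : VMod V a),
          w = diaMod hV ha hsig hM hsurj (a₁, 1) y - y} := by
      ext w
      constructor
      · rintro ⟨a₁, y, rfl⟩
        exact ⟨a₁, y, by rw [MonoidHom.one_apply, map_one, one_smul]⟩
      · rintro ⟨a₁, y, rfl⟩
        exact ⟨a₁, y, by rw [MonoidHom.one_apply, map_one, one_smul]⟩
    rw [h2] at h1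
    exact h1

theorem bettiOf_cmp (d : ℕ) (hfree : IAFreeAt V d) (hnu : IANuAt PQ V a)
    (hst : IAStAt PQ V a) (hcmp : IACmpAt PQ V a) :
    (bettiOf hV ha hsig hM hsurj d hfree hnu hst).Cmp := by
  intro j P hP φ hφ σ hσ u hu hcyc a₀ w hw y
  change VMod V a at y
  have h1 := hcmp j P hP φ hφ σ hσ u hu hcyc a₀ w hw (VMod.val y)
  constructor
  · rintro ⟨y', hy'⟩
    change VMod V a at y'
    obtain ⟨z, hz⟩ := h1.mp ⟨VMod.val y', hy'⟩
    refine ⟨(VMod.mk z : VMod V a), ?_⟩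
    apply VMod.toX_injective
    exact hz
  · rintro ⟨y', hy'⟩
    change VMod V a at y'
    obtain ⟨z, hz⟩ := h1.mpr ⟨VMod.val y', congrArg VMod.toX hy'⟩
    exact ⟨(VMod.mk z : VMod V a), hz⟩

end Build

end Fermat.Agent.S38.IA.Hecke

end
-- ===== PACK-END S38/IA/Hecke/GlueB2.lean

-- ===== PACK-BEGIN S38/H916/GIdx.lean
section



/-!
# Row HARD, cell HECKE, layer 3: the level structure of a family of primes indexed by a finite
type — bookkeeping lemmas (helper916)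

Generic-index versions (for `gLevel`, `gRed`, `gChi`, `gKappa`, `KG`, `gLift` of
`S38/IA/Hecke/Spec3.lean`) of the `Fin r`-indexed lemmas of layer 3 of the cell TW of row S59
(`S59/TW/Aut/SkelLemmas.lean`, `S59/TW/Aut/H762/{Cor,CorIdx}.lean`):

* `gRed_surjective_h916`            : `(ℤ/M)ˣ → ∏ (ℤ/qq s)ˣ` is onto (Chinese remainder theorem);
* `gKappa_trivial_h916`, `gKappa_surjective_h916`;
* `diamondU_eq_of_gChi_h916`        : the diamond operator of `KG` depends only on the class in `Δ`;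
* `diamondU_gLift_eq_conjAct_h916`  : `⟨a⟩` in the vocabulary of block M-FREE;
* `gEps_bijective_h916`             : `e ↦ class of (g_s ^ e_s)_s`, `∏ Fin (p^{m_s}) → Δ`, is bijective;
* `card_gDelta_h916`                : `#Δ = p ^ (∑ m_s)`.
-/

set_option autoImplicit false
set_option linter.unusedSectionVars false

open CongruenceSubgroup
open scoped MatrixGroups

namespace Fermat.Agent.S38.H916

open Fermat.Agent.S38.IA.Hecke Fermat.Agent.S59.TW.H653 Fermat.Agent.S59.MFree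

section CRT

variable (N₀ : ℕ) {ι : Type} [Fintype ι] (qq : ι → ℕ)

theorem gRed_apply_h916 (u : (ZMod (gLevel N₀ qq))ˣ) (s : ι) :
    gRed N₀ qq u s = ZMod.unitsMap (dvd_gLevel N₀ qq s) u := rfl

theorem neZero_gLevel_h916 (hN₀ : N₀ ≠ 0) (hprime : ∀ s, (qq s).Prime) :
    NeZero (gLevel N₀ qq) :=
  ⟨Nat.mul_ne_zero hN₀ (Finset.prod_ne_zero_iff.mpr fun s _ => (hprime s).ne_zero)⟩

/-- `(ℤ/M)ˣ → ∏ (ℤ/qq s)ˣ` is onto. -/
theorem gRed_surjective_h916 (hN₀ : N₀ ≠ 0) (hinj : Function.Injective qq)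
    (hprime : ∀ s, (qq s).Prime) : Function.Surjective (gRed N₀ qq) := by
  intro a
  have hcop : Pairwise (Function.onFun Nat.Coprime qq) := by
    intro i j hij
    exact (Nat.coprime_primes (hprime i) (hprime j)).mpr fun h => hij (hinj h)
  have hM : NeZero (gLevel N₀ qq) := neZero_gLevel_h916 N₀ qq hN₀ hprime
  have hPM : (∏ s, qq s) ∣ gLevel N₀ qq := Dvd.intro_left _ rfl
  set e := ZMod.prodEquivPi qq hcop with he
  set x : ZMod (∏ s, qq s) := e.symm (fun s => ((a s : (ZMod (qq s))ˣ) : ZMod (qq s))) with hx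
  set y : ZMod (∏ s, qq s) := e.symm (fun s => ((a s)⁻¹ : (ZMod (qq s))ˣ)) with hy
  have hxy : x * y = 1 := by
    rw [hx, hy, ← map_mul]
    have : ((fun s => ((a s : (ZMod (qq s))ˣ) : ZMod (qq s))) *
        fun s => (((a s)⁻¹ : (ZMod (qq s))ˣ) : ZMod (qq s))) = 1 := by
      funext s
      simp
    rw [this, map_one]
  obtain ⟨u, hu⟩ := ZMod.unitsMap_surjective hPM (Units.mkOfMulEqOne x y hxy)
  refine ⟨u, ?_⟩
  funext s
  apply Units.ext
  rw [gRed_apply_h916]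
  have h1 : ZMod.unitsMap (dvd_gLevel N₀ qq s) u =
      ZMod.unitsMap (Finset.dvd_prod_of_mem qq (Finset.mem_univ s)) (ZMod.unitsMap hPM u) := by
    rw [← MonoidHom.comp_apply, ZMod.unitsMap_comp]
  rw [h1, hu]
  show ZMod.castHom (Finset.dvd_prod_of_mem qq (Finset.mem_univ s)) (ZMod (qq s)) x = _
  rw [← ZMod.prodEquivPi_apply qq hcop x s, ← he, hx, RingEquiv.apply_symm_apply]

end CRT

section Kappa

variable (p N₀ : ℕ) {ι : Type} [Fintype ι] (qq : ι → ℕ)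

theorem gKappa_trivial_h916 (γ : Gamma0 (gLevel N₀ qq))
    (h : ((((γ : SL(2, ℤ)) 1 1 : ℤ)) : ZMod (gLevel N₀ qq)) = 1) : gKappa p N₀ qq γ = 1 := by
  have h1 : dUnit (gLevel N₀ qq) γ = 1 := by
    apply Units.ext
    rw [coe_dUnit, h, Units.val_one]
  unfold gKappa
  rw [MonoidHom.comp_apply, h1, map_one]

theorem gKappa_apply_h916 (γ : Gamma0 (gLevel N₀ qq)) :
    gKappa p N₀ qq γ = gChi p N₀ qq (dUnit (gLevel N₀ qq) γ) := rfl

theorem gChi_apply_h916 (u : (ZMod (gLevel N₀ qq))ˣ) :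
    gChi p N₀ qq u = QuotientGroup.mk (gRed N₀ qq u) := rfl

theorem gKappa_surjective_h916 [NeZero (gLevel N₀ qq)]
    (hsurj : Function.Surjective (gRed N₀ qq)) : Function.Surjective (gKappa p N₀ qq) := by
  intro d
  obtain ⟨a, rfl⟩ := QuotientGroup.mk_surjective d
  obtain ⟨u, rfl⟩ := hsurj a
  obtain ⟨γ, rfl⟩ := dUnit_surjective u
  exact ⟨γ, rfl⟩

variable {A : Type} [AddCommGroup A]

theorem diamondU_of_gChi_h916 [NeZero (gLevel N₀ qq)] {u : (ZMod (gLevel N₀ qq))ˣ}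
    (hu : gChi p N₀ qq u = 1) (x : Additive (KG p N₀ qq) →+ A) :
    diamondU (isMid_KG p N₀ qq) u x = x := by
  have h := diamondHom_GammaH (A := A) (M := gLevel N₀ qq) (H := (gChi p N₀ qq).ker)
    (u := u) (MonoidHom.mem_ker.mpr hu)
  have h2 := congrArg (fun f : AddMonoid.End (Additive (GammaH (gLevel N₀ qq)
    (gChi p N₀ qq).ker) →+ A) => f x) h
  exact h2

/-- The diamond operator of `KG` depends only on the class in `Δ`. -/
theorem diamondU_eq_of_gChi_h916 [NeZero (gLevel N₀ qq)] {u u' : (ZMod (gLevel N₀ qq))ˣ}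
    (hu : gChi p N₀ qq u = gChi p N₀ qq u') (x : Additive (KG p N₀ qq) →+ A) :
    diamondU (isMid_KG p N₀ qq) u x = diamondU (isMid_KG p N₀ qq) u' x := by
  have h1 : u = u' * (u'⁻¹ * u) := by group
  have h2 : gChi p N₀ qq (u'⁻¹ * u) = 1 := by
    rw [map_mul, map_inv, hu, inv_mul_cancel]
  rw [h1, diamondU_mul, diamondU_of_gChi_h916 p N₀ qq h2]

/-- The diamond operator `⟨a⟩` of `KG` in the vocabulary of block M-FREE. -/
theorem diamondU_gLift_eq_conjAct_h916 [NeZero (gLevel N₀ qq)]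
    (hsurj : Function.Surjective (gRed N₀ qq))
    (a : ∀ s : ι, (ZMod (qq s))ˣ) (γ : Gamma0 (gLevel N₀ qq))
    (hγ : gKappa p N₀ qq γ = (QuotientGroup.mk a)⁻¹)
    (x : Additive (kerSub (gKappa p N₀ qq)) →+ A) :
    diamondU (isMid_KG p N₀ qq) (gLift N₀ qq a) x = conjAct (gKappa p N₀ qq) γ x := by
  rw [conjAct_eq_diamond (gKappa p N₀ qq) (gKappa_trivial_h916 p N₀ qq) γ x]
  rw [diamond_eq_diamondU]
  apply diamondU_eq_of_gChi_h916
  have h1 : gChi p N₀ qq (gLift N₀ qq a) = QuotientGroup.mk a := by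
    rw [gChi_apply_h916, gRed_gLift N₀ qq (hsurj a)]
  have h2 : gChi p N₀ qq (dUnit (gLevel N₀ qq) γ⁻¹) = QuotientGroup.mk a := by
    rw [← gKappa_apply_h916, map_inv, hγ]
    exact inv_inv (QuotientGroup.mk a : GDelta p qq)
  exact h1.trans h2.symm

end Kappa

section Idx

variable (p : ℕ) {ι : Type} [Fintype ι] (qq : ι → ℕ)

/-- The index map `e ↦ class of (g_s ^ e_s)_s`. -/
def gEps_h916 (g : ∀ s : ι, (ZMod (qq s))ˣ)
    (e : ∀ s : ι, Fin (p ^ padicValNat p (qq s - 1))) : GDelta p qq :=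
  QuotientGroup.mk (fun s => g s ^ (e s : ℕ))

theorem mem_gPowSub_iff_h916 (a : ∀ s : ι, (ZMod (qq s))ˣ) :
    a ∈ gPowSub p qq ↔ ∀ s, ∃ u : (ZMod (qq s))ˣ, u ^ (p ^ padicValNat p (qq s - 1)) = a s := by
  unfold gPowSub
  rw [Subgroup.mem_pi]
  constructor
  · intro h s
    obtain ⟨u, hu⟩ := h s (Set.mem_univ s)
    exact ⟨u, hu⟩
  · intro h s _
    obtain ⟨u, hu⟩ := h s
    exact ⟨u, hu⟩

/-- A primitive root generates. -/
theorem exists_pow_eq_of_orderOf_h916 {q : ℕ} (hq : q.Prime) {g : (ZMod q)ˣ}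
    (hg : orderOf g = q - 1) (u : (ZMod q)ˣ) : ∃ k : ℕ, g ^ k = u := by
  have : Fact q.Prime := ⟨hq⟩
  have hcard : Nat.card (ZMod q)ˣ = q - 1 := by
    rw [Nat.card_eq_fintype_card, ZMod.card_units]
  have h1 : Subgroup.zpowers g = ⊤ := by
    apply (Subgroup.card_eq_iff_eq_top _).mp
    rw [Nat.card_zpowers, hg, hcard]
  have h2 : u ∈ Subgroup.zpowers g := by
    rw [h1]
    exact Subgroup.mem_top u
  rw [← mem_powers_iff_mem_zpowers] at h2
  exact (Submonoid.mem_powers_iff u g).mp h2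

theorem gEps_injective_h916 [Fact p.Prime] (hprime : ∀ s, (qq s).Prime)
    (g : ∀ s : ι, (ZMod (qq s))ˣ) (hg : ∀ s, orderOf (g s) = qq s - 1) :
    Function.Injective (gEps_h916 p qq g) := by
  intro e e' h
  unfold gEps_h916 at h
  rw [QuotientGroup.eq, mem_gPowSub_iff_h916] at h
  funext j
  obtain ⟨u, hu⟩ := h j
  obtain ⟨k, rfl⟩ := exists_pow_eq_of_orderOf_h916 (hprime j) (hg j) u
  have h1 : g j ^ (k * p ^ padicValNat p (qq j - 1) + (e j : ℕ)) = g j ^ (e' j : ℕ) := by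
    rw [pow_add, pow_mul, hu]
    simp
  rw [pow_eq_pow_iff_modEq, hg j] at h1
  have hdvd : p ^ padicValNat p (qq j - 1) ∣ qq j - 1 := pow_padicValNat_dvd
  have h2 : (k * p ^ padicValNat p (qq j - 1) + (e j : ℕ)) ≡ (e' j : ℕ)
      [MOD p ^ padicValNat p (qq j - 1)] := h1.of_dvd hdvd
  have h3 : ((e j : ℕ)) ≡ (e' j : ℕ) [MOD p ^ padicValNat p (qq j - 1)] := by
    have h4 : (k * p ^ padicValNat p (qq j - 1) + (e j : ℕ)) ≡ (e j : ℕ)
        [MOD p ^ padicValNat p (qq j - 1)] := by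
      unfold Nat.ModEq
      rw [Nat.mul_add_mod_of_lt (e j).2]
      exact (Nat.mod_eq_of_lt (e j).2).symm
    exact h4.symm.trans h2
  apply Fin.ext
  unfold Nat.ModEq at h3
  rw [Nat.mod_eq_of_lt (e j).2, Nat.mod_eq_of_lt (e' j).2] at h3
  exact h3

theorem gEps_surjective_h916 [hp : Fact p.Prime] (hprime : ∀ s, (qq s).Prime)
    (g : ∀ s : ι, (ZMod (qq s))ˣ) (hg : ∀ s, orderOf (g s) = qq s - 1) :
    Function.Surjective (gEps_h916 p qq g) := by
  intro d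
  obtain ⟨a, rfl⟩ := QuotientGroup.mk_surjective d
  have hk : ∀ j, ∃ k : ℕ, g j ^ k = a j := fun j =>
    exists_pow_eq_of_orderOf_h916 (hprime j) (hg j) (a j)
  choose k hk using hk
  have hpos : ∀ j, 0 < p ^ padicValNat p (qq j - 1) := fun j => pow_pos hp.out.pos _
  refine ⟨fun j => ⟨k j % p ^ padicValNat p (qq j - 1), Nat.mod_lt _ (hpos j)⟩, ?_⟩
  unfold gEps_h916
  rw [QuotientGroup.eq, mem_gPowSub_iff_h916]
  intro j
  refine ⟨g j ^ (k j / p ^ padicValNat p (qq j - 1)), ?_⟩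
  show _ = ((fun j => g j ^ (k j % p ^ padicValNat p (qq j - 1)))⁻¹ * a) j
  rw [Pi.mul_apply, Pi.inv_apply, ← hk j, ← pow_mul, eq_inv_mul_iff_mul_eq, ← pow_add]
  congr 1
  rw [mul_comm]
  exact Nat.mod_add_div _ _

theorem gEps_bijective_h916 [Fact p.Prime] (hprime : ∀ s, (qq s).Prime)
    (g : ∀ s : ι, (ZMod (qq s))ˣ) (hg : ∀ s, orderOf (g s) = qq s - 1) :
    Function.Bijective (gEps_h916 p qq g) :=
  ⟨gEps_injective_h916 p qq hprime g hg, gEps_surjective_h916 p qq hprime g hg⟩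

/-- Primitive roots exist. -/
theorem exists_primitive_roots_h916 (hprime : ∀ s, (qq s).Prime) :
    ∃ g : ∀ s : ι, (ZMod (qq s))ˣ, ∀ s, orderOf (g s) = qq s - 1 := by
  have h : ∀ j, ∃ g : (ZMod (qq j))ˣ, orderOf g = qq j - 1 := by
    intro j
    have : Fact (qq j).Prime := ⟨hprime j⟩
    obtain ⟨g, hg⟩ := IsCyclic.exists_generator (α := (ZMod (qq j))ˣ)
    refine ⟨g, ?_⟩
    rw [orderOf_eq_card_of_forall_mem_zpowers hg, Nat.card_eq_fintype_card, ZMod.card_units]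
  choose g hg using h
  exact ⟨g, hg⟩

/-- `Δ` is a finite `p`-group: `#Δ = p ^ (∑ m_s)`. -/
theorem card_gDelta_h916 [Fact p.Prime] (hprime : ∀ s, (qq s).Prime) :
    Nat.card (GDelta p qq) = p ^ ∑ s, padicValNat p (qq s - 1) := by
  classical
  obtain ⟨g, hg⟩ := exists_primitive_roots_h916 qq hprime
  have hb := gEps_bijective_h916 p qq hprime g hg
  rw [← Nat.card_congr (Equiv.ofBijective _ hb), Nat.card_eq_fintype_card, Fintype.card_pi]
  simp only [Fintype.card_fin]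
  exact Finset.prod_pow_eq_pow_sum _ _ _

end Idx

end Fermat.Agent.S38.H916

end
-- ===== PACK-END S38/H916/GIdx.lean

-- ===== PACK-BEGIN S38/IA/Hecke/H183/CmpSpecIA.lean
section



/-!
# Row HARD, cell HECKE, LAYER 4: the leaf IA-CMP of `Hecke/Spec3.lean` — interface  (helper183)

`Hecke.IACmpStatement`: `(w - 1) V = (⟨u⟩_j - 1) V` for every inertia value `w` at `(φ, σ)`,
`σ ↦ u`, at the TAYLOR–WILES primes `q_j` of the combined family (pivots, then Taylor–Wiles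
primes).  This file is the twin, for the combined family, of layer 4 of the cell TW of row S59
(`S59/TW/H314/CmpSpec.lean`, helper314); the text of the Props is the same, with

* `XQ p t Smin qv 𝒪` replaced by `XIA p Smin pv qv 𝒪` (`K = Γ₀(N_min) ∩ Γ_H(Piv ∪ Q)`),
* `diaQ … (Pi.mulSingle j u)` replaced by `diaIA … 1 (Pi.mulSingle j u)`,
* `Σ = Smin ∪ Q` replaced by `Σ = Smin ∪ Piv ∪ Q` (and `t = .flat`).

Route TW-ALG (`S59/H314/TwPt.lean`, Mathlib only): it is enough to know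

* **(T)** `IATptAt`: a `T_Q`-eigenvector `y ∈ V` (= nonzero vector with PRIME annihilator) with
  `⟨u⟩_j y = y` satisfies `w y = y`;
* **(R)** `IARptAt`: a `T_Q`-eigenvector `y ∈ V` with `(1 + ⟨u⟩_j + … + ⟨u⟩_j^(p-1)) y = 0`
  satisfies `w y ≠ y`;

together with the freeness `IAFreeAt V d` (`IACmpGlueStatement`, proved in `CmpGlueIA.lean`).
(T) and (R) are cut into an AUTOMORPHIC half (DICT) and a GALOIS half (GAL) along the notion of a
newform point of `T_Q`.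

| leaf | Prop | content |
|---|---|---|
| IA-CMP-GLUE | `IACmpGlueStatement` | `IAFreeAt` + `IATptAt` + `IARptAt` ⇒ `IACmpAt` |
| IA-DICT-T | `IADictTStatement` | eigenvector with `⟨u⟩_j y = y` ⇒ newform point with `q_j² ∤ M` |
| IA-DICT-R | `IADictRStatement` | eigenvector with `Φ_p(⟨u⟩_j) y = 0` ⇒ newform point with `q_j² ∥ M` |
| IA-GAL-T | `IAGalTStatement` | newform point with `q_j² ∤ M` ⇒ `emb w = 1` |
| IA-GAL-R | `IAGalRStatement` | newform point with `q_j² ∥ M` ⇒ `emb w ≠ 1` |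

Glue (`CmpGlueIA.lean`): `iaCmp_of_leaves : IAFreeStatement → IADictTStatement →
IADictRStatement → IAGalTStatement → IAGalRStatement → Hecke.IACmpStatement`.

Only sorry-free definitions here.
-/

set_option autoImplicit false

open Polynomial IsLocalRing CongruenceSubgroup
open scoped MatrixGroups

namespace Fermat.Agent.S38.IA.Hecke.H183

open Fermat.Agent.S59.Arch Fermat.Agent.S59.TW.H959 Fermat.Agent.S59.TW Fermat.Agent.S59.H765
open Fermat.Agent.S59.TW.H653 Fermat.Agent.S59.TW.Aut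
open Fermat.Agent.S38.IA Fermat.Agent.S38.IA.Hecke
open CuspForm

section At

variable {p : ℕ}
  {𝒪 : Type} [CommRing 𝒪] [IsDomain 𝒪] [IsDiscreteValuationRing 𝒪]
  [IsAdicComplete (maximalIdeal 𝒪) 𝒪]
  {ρbar : ResidualGaloisRep (ResidueField 𝒪)} {Smin Piv : Finset ℕ}
  {k r : ℕ} {pv : Fin k → ℕ} {qv : Fin r → ℕ}
  [NeZero (wilesLevel p .flat Smin (Smin ∪ Piv ∪ Finset.univ.image qv))]

/-- `y` is an **eigenvector** of `T_Q` in `V`: a nonzero vector whose annihilator is a prime ideal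
(`T_Q / Ann y` is a domain; every associated prime of `V` is of this form). -/
def IAIsEigVec (PQ : HeckePkg p 𝒪 ρbar .flat Smin (Smin ∪ Piv ∪ Finset.univ.image qv))
    (V : Submodule 𝒪 (XIA p Smin pv qv 𝒪)) (a : PQ.T →ₐ[𝒪] Module.End 𝒪 V) (y : V) : Prop :=
  y ≠ 0 ∧ ∀ s s' : PQ.T, a (s * s') y = 0 → a s y = 0 ∨ a s' y = 0

/-- **(T) at `V`, pointwise**: an eigenvector of `T_Q` fixed by the diamond operator `⟨u⟩_j` at
the Taylor–Wiles prime `q_j` is fixed by the inertia value `w`. -/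
def IATptAt (PQ : HeckePkg p 𝒪 ρbar .flat Smin (Smin ∪ Piv ∪ Finset.univ.image qv))
    (V : Submodule 𝒪 (XIA p Smin pv qv 𝒪)) (a : PQ.T →ₐ[𝒪] Module.End 𝒪 V) : Prop :=
  ∀ (j : Fin r) (P : ValuationSubring Qb), P.LiesOverPrime (qv j) →
    ∀ φ : GQ, P.IsFrobeniusAt φ (qv j) →
    ∀ σ ∈ P.inertiaSubgroupIn ℚ, ∀ u : (ZMod (qv j))ˣ, orderOf u = qv j - 1 →
      CycloAt (qv j) σ (u : ZMod (qv j)).val →
      ∀ a₀ w : PQ.T, IsInertiaValue PQ.H.ρ φ σ a₀ w →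
        ∀ y : V, IAIsEigVec PQ V a y →
          diaIA p Smin pv qv 𝒪 1 (Pi.mulSingle j u) (y : XIA p Smin pv qv 𝒪) = y →
          a w y = y

/-- **(R) at `V`, pointwise**: an eigenvector of `T_Q` on which the diamond operator `⟨u⟩_j` has
order exactly `p` (`Φ_p(⟨u⟩_j) y = 0`) is NOT fixed by the inertia value `w`. -/
def IARptAt (PQ : HeckePkg p 𝒪 ρbar .flat Smin (Smin ∪ Piv ∪ Finset.univ.image qv))
    (V : Submodule 𝒪 (XIA p Smin pv qv 𝒪)) (a : PQ.T →ₐ[𝒪] Module.End 𝒪 V) : Prop :=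
  ∀ (j : Fin r) (P : ValuationSubring Qb), P.LiesOverPrime (qv j) →
    ∀ φ : GQ, P.IsFrobeniusAt φ (qv j) →
    ∀ σ ∈ P.inertiaSubgroupIn ℚ, ∀ u : (ZMod (qv j))ˣ, orderOf u = qv j - 1 →
      CycloAt (qv j) σ (u : ZMod (qv j)).val →
      ∀ a₀ w : PQ.T, IsInertiaValue PQ.H.ρ φ σ a₀ w →
        ∀ y : V, IAIsEigVec PQ V a y →
          (∑ i ∈ Finset.range p,
            (diaIA p Smin pv qv 𝒪 1 (Pi.mulSingle j u))^[i] (y : XIA p Smin pv qv 𝒪)) = 0 →
          a w y ≠ y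

end At

section Pt

variable {p : ℕ}
  {𝒪 : Type} [CommRing 𝒪] [IsDomain 𝒪] [IsDiscreteValuationRing 𝒪]
  [IsAdicComplete (maximalIdeal 𝒪) 𝒪]
  {ρbar : ResidualGaloisRep (ResidueField 𝒪)} {t : PType} {Smin Sig : Finset ℕ}
  [NeZero (wilesLevel p t Smin Sig)]

/-- **A newform point of the Hecke ring `T_Σ` of a package of type `Σ`** (any `Σ`).
`emb : T_Σ → O'` takes at the `T_ℓ` (`ℓ ∉ Σ`) the Hecke eigenvalues of a newform `g` of level `M`
(all of whose prime factors lie in `Σ`) satisfying `c M`, in the shape of the frozen statements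
S35 / S36: `chig` is the eigen-character of `g` on the Hecke algebra of level `M` and `iota`
embeds its values into `O'`.
(For `Σ = Smin ∪ Q` this is `S59.TW.H314.IsNewPt`, word for word.) -/
def IsNewPtSig (PQ : HeckePkg p 𝒪 ρbar t Smin Sig)
    {O' : Type} [CommRing O'] (emb : PQ.T →+* O') (c : ℕ → Prop) : Prop :=
  ∃ (M : ℕ) (_ : NeZero M) (g : CuspForm (Gamma0 M) 2), g.IsNewform ∧ c M ∧
    (∀ q : ℕ, q.Prime → q ∣ M → q ∈ Sig) ∧
    ∃ (chig : CuspForm.heckeAlgebra M 2 (↑Sig : Set ℕ) →+* ℂ)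
      (iota : chig.range →+* O'),
      (∀ (ℓ : ℕ) (hℓ : ℓ.Prime) (hℓM : ¬ ℓ ∣ M) (hℓS : ℓ ∉ (↑Sig : Set ℕ)),
        chig (CuspForm.heckeAlgebra.T hℓ hℓM hℓS) = ModularFormClass.qCoeff g ℓ) ∧
      ∀ (ℓ : ℕ) (hℓ : ℓ.Prime)
        (hℓN : ¬ ℓ ∣ wilesLevel p t Smin Sig) (hℓM : ¬ ℓ ∣ M)
        (hℓS : ℓ ∉ (↑Sig : Set ℕ)),
        iota (chig.rangeRestrict (CuspForm.heckeAlgebra.T hℓ hℓM hℓS)) =
          emb (PQ.H.π (CuspForm.heckeAlgebra.T hℓ hℓN hℓS))

end Pt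

section HasPt

variable {p : ℕ}
  {𝒪 : Type} [CommRing 𝒪] [IsDomain 𝒪] [IsDiscreteValuationRing 𝒪]
  [IsAdicComplete (maximalIdeal 𝒪) 𝒪]
  {ρbar : ResidualGaloisRep (ResidueField 𝒪)} {Smin Piv : Finset ℕ}
  {k r : ℕ} {pv : Fin k → ℕ} {qv : Fin r → ℕ}
  [NeZero (wilesLevel p .flat Smin (Smin ∪ Piv ∪ Finset.univ.image qv))]

/-- **The eigenvector `y` is a newform point**: there is a newform point `emb : T_Q → O'`, `O'` a
complete DVR of characteristic `0` with finite residue field, `emb` local, whose kernel is the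
annihilator of `y`. -/
def IAHasNewPt (PQ : HeckePkg p 𝒪 ρbar .flat Smin (Smin ∪ Piv ∪ Finset.univ.image qv))
    (V : Submodule 𝒪 (XIA p Smin pv qv 𝒪)) (a : PQ.T →ₐ[𝒪] Module.End 𝒪 V) (y : V)
    (c : ℕ → Prop) : Prop :=
  ∃ (O' : Type) (_ : CommRing O') (_ : IsDomain O') (_ : IsDiscreteValuationRing O')
    (_ : IsAdicComplete (maximalIdeal O') O') (_ : Finite (ResidueField O')) (_ : CharZero O')
    (emb : PQ.T →+* O'), IsLocalHom emb ∧ (∀ s : PQ.T, a s y = 0 ↔ emb s = 0) ∧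
      IsNewPtSig PQ emb c

end HasPt

/-! ## The leaves, as closed statements -/

/-- **IA-CMP-GLUE** (pure algebra, route TW-ALG).  Freeness + (T) + (R) ⇒ `IACmpAt`. -/
def IACmpGlueStatement : Prop :=
  ∀ (p : ℕ) [Fact p.Prime]
    (𝒪 : Type) [CommRing 𝒪] [IsDomain 𝒪] [IsDiscreteValuationRing 𝒪]
    [IsAdicComplete (maximalIdeal 𝒪) 𝒪] [Finite (ResidueField 𝒪)] [CharZero 𝒪]
    (ρbar : ResidualGaloisRep (ResidueField 𝒪)) (Smin : Finset ℕ)
    (_h : ResidualHyp p 𝒪 ρbar Smin)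
    (Piv : Finset ℕ) (_hPiv : IsPivotSet p ρbar Smin Piv)
    (k : ℕ) (pv : Fin k → ℕ) (_hpv : Function.Injective pv)
    (_hpvPiv : Finset.univ.image pv = Piv)
    (n r : ℕ) (qv : Fin r → ℕ) (_hq : IsTWSet p ρbar (Smin ∪ Piv) n qv)
    [NeZero (wilesLevel p .flat Smin (Smin ∪ Piv ∪ Finset.univ.image qv))]
    (PQ : HeckePkg p 𝒪 ρbar .flat Smin (Smin ∪ Piv ∪ Finset.univ.image qv))
    (α : Fin r → 𝒪)
    (V : Submodule 𝒪 (XIA p Smin pv qv 𝒪)) (h : ℕ) (a : PQ.T →ₐ[𝒪] Module.End 𝒪 V) (d : ℕ),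
    IsIAPart PQ α V → IsIAAction PQ V h a → IAFreeAt V d → IATptAt PQ V a → IARptAt PQ V a →
      IACmpAt PQ V a

/-- **IA-DICT-T** (automorphic).  An eigenvector of `T_Q` in `V` fixed by `⟨u⟩_j` (`q_j` a
Taylor–Wiles prime) is a newform point of a level `M` with `q_j² ∤ M`.
(As DICT-T of the cell TW, for the combined family: the eigen-system comes from a cusp form on
`K = Γ₀(N_min) ∩ Γ_H(Piv ∪ Q)` whose nebentypus is trivial at `q_j`; its twist to trivial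
character has level prime to `q_j` or exactly divisible by `q_j`.) -/
def IADictTStatement : Prop :=
  ∀ (p : ℕ) [Fact p.Prime] (_hp5 : 5 ≤ p)
    (𝒪 : Type) [CommRing 𝒪] [IsDomain 𝒪] [IsDiscreteValuationRing 𝒪]
    [IsAdicComplete (maximalIdeal 𝒪) 𝒪] [Finite (ResidueField 𝒪)] [CharZero 𝒪]
    (ρbar : ResidualGaloisRep (ResidueField 𝒪)) (Smin : Finset ℕ)
    (_h : ResidualHyp p 𝒪 ρbar Smin)
    (_hflat : (GaloisRepAdic.ofResidualGaloisRep ρbar).IsFlatAt p)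
    (Piv : Finset ℕ) (_hPiv : IsPivotSet p ρbar Smin Piv)
    (k : ℕ) (pv : Fin k → ℕ) (_hpv : Function.Injective pv)
    (_hpvPiv : Finset.univ.image pv = Piv)
    (n r : ℕ) (qv : Fin r → ℕ) (_hq : IsTWSet p ρbar (Smin ∪ Piv) n qv)
    [NeZero (wilesLevel p .flat Smin (Smin ∪ Piv ∪ Finset.univ.image qv))]
    (PQ : HeckePkg p 𝒪 ρbar .flat Smin (Smin ∪ Piv ∪ Finset.univ.image qv))
    (α : Fin r → 𝒪) (_hα : IsFrobLift ρbar qv α)
    (V : Submodule 𝒪 (XIA p Smin pv qv 𝒪)) (h : ℕ) (a : PQ.T →ₐ[𝒪] Module.End 𝒪 V),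
    IsIAPart PQ α V → IsHalf p pv h → IsHalf p qv h → IsIAAction PQ V h a →
    ∀ (j : Fin r) (u : (ZMod (qv j))ˣ), orderOf u = qv j - 1 →
      ∀ y : V, IAIsEigVec PQ V a y →
        diaIA p Smin pv qv 𝒪 1 (Pi.mulSingle j u) (y : XIA p Smin pv qv 𝒪) = y →
        IAHasNewPt PQ V a y (fun M => ¬ qv j ^ 2 ∣ M)

/-- **IA-DICT-R** (automorphic).  An eigenvector of `T_Q` in `V` on which `⟨u⟩_j` has order
exactly `p` is a newform point of a level `M` with `q_j² ∥ M`.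
(As DICT-R of the cell TW, for the combined family.) -/
def IADictRStatement : Prop :=
  ∀ (p : ℕ) [Fact p.Prime] (_hp5 : 5 ≤ p)
    (𝒪 : Type) [CommRing 𝒪] [IsDomain 𝒪] [IsDiscreteValuationRing 𝒪]
    [IsAdicComplete (maximalIdeal 𝒪) 𝒪] [Finite (ResidueField 𝒪)] [CharZero 𝒪]
    (ρbar : ResidualGaloisRep (ResidueField 𝒪)) (Smin : Finset ℕ)
    (_h : ResidualHyp p 𝒪 ρbar Smin)
    (_hflat : (GaloisRepAdic.ofResidualGaloisRep ρbar).IsFlatAt p)
    (Piv : Finset ℕ) (_hPiv : IsPivotSet p ρbar Smin Piv)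
    (k : ℕ) (pv : Fin k → ℕ) (_hpv : Function.Injective pv)
    (_hpvPiv : Finset.univ.image pv = Piv)
    (n r : ℕ) (qv : Fin r → ℕ) (_hq : IsTWSet p ρbar (Smin ∪ Piv) n qv)
    [NeZero (wilesLevel p .flat Smin (Smin ∪ Piv ∪ Finset.univ.image qv))]
    (PQ : HeckePkg p 𝒪 ρbar .flat Smin (Smin ∪ Piv ∪ Finset.univ.image qv))
    (α : Fin r → 𝒪) (_hα : IsFrobLift ρbar qv α)
    (V : Submodule 𝒪 (XIA p Smin pv qv 𝒪)) (h : ℕ) (a : PQ.T →ₐ[𝒪] Module.End 𝒪 V),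
    IsIAPart PQ α V → IsHalf p pv h → IsHalf p qv h → IsIAAction PQ V h a →
    ∀ (j : Fin r) (u : (ZMod (qv j))ˣ), orderOf u = qv j - 1 →
      ∀ y : V, IAIsEigVec PQ V a y →
        (∑ i ∈ Finset.range p,
          (diaIA p Smin pv qv 𝒪 1 (Pi.mulSingle j u))^[i] (y : XIA p Smin pv qv 𝒪)) = 0 →
        IAHasNewPt PQ V a y (fun M => M.factorization (qv j) = 2)

/-- **GAL-T for a package of any type `Σ`** (Galois).  `q ∈ Σ ∖ Smin` a prime, `q ≡ 1` modulo `p`,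
at which every Frobenius has two distinct eigenvalues on `ρ̄`.  At a newform point of level `M`
with `q² ∤ M` the inertia value at `q` is `1`.
(`q ∤ M`: the representation of the frozen S30 at level `M` is unramified at `q` and has the
same Frobenius characteristic polynomials as `ρ_Σ ⊗ O''`, so the same traces [Chebotarev];
the inertia value is a formula in traces.  `q ∥ M`: impossible, by the frozen S35 the Frobenius
at `q` would have eigenvalues `±1, ±q`, equal modulo `p`.)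
For `Σ = Smin ∪ Q`, `q = q_j` this is `S59.TW.H314.GalTStatement`. -/
def GalTSigStatement : Prop :=
  ∀ (p : ℕ) [Fact p.Prime]
    (𝒪 : Type) [CommRing 𝒪] [IsDomain 𝒪] [IsDiscreteValuationRing 𝒪]
    [IsAdicComplete (maximalIdeal 𝒪) 𝒪] [Finite (ResidueField 𝒪)] [CharZero 𝒪]
    (ρbar : ResidualGaloisRep (ResidueField 𝒪)) (Smin : Finset ℕ)
    (_h : ResidualHyp p 𝒪 ρbar Smin) (t : PType) (Sig : Finset ℕ)
    (_hSig : ∀ q ∈ Sig, q.Prime) (_hSminSig : Smin ⊆ Sig)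
    [NeZero (wilesLevel p t Smin Sig)]
    (PQ : HeckePkg p 𝒪 ρbar t Smin Sig)
    (q : ℕ) (_hq : q.Prime) (_hqSig : q ∈ Sig) (_hqS : q ∉ Smin) (_hpq : p ∣ q - 1)
    (_hdist : ∀ P : ValuationSubring (AlgebraicClosure ℚ), P.LiesOverPrime q →
      ∀ φ : AlgebraicClosure ℚ ≃ₐ[ℚ] AlgebraicClosure ℚ, P.IsFrobeniusAt φ q →
        ∃ α β : ResidueField 𝒪, α ≠ β ∧ LinearMap.charpoly (ρbar.ρ φ) = (X - C α) * (X - C β))
    (P : ValuationSubring Qb), P.LiesOverPrime q →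
    ∀ φ : GQ, P.IsFrobeniusAt φ q →
    ∀ σ ∈ P.inertiaSubgroupIn ℚ,
      ∀ a₀ w : PQ.T, IsInertiaValue PQ.H.ρ φ σ a₀ w →
      ∀ (O' : Type) [CommRing O'] [IsDomain O'] [IsDiscreteValuationRing O']
        [IsAdicComplete (maximalIdeal O') O'] [Finite (ResidueField O')] [CharZero O']
        (emb : PQ.T →+* O'), IsLocalHom emb →
        IsNewPtSig PQ emb (fun M => ¬ q ^ 2 ∣ M) → emb w = 1

/-- **GAL-R for a package of any type `Σ`** (Galois).  At a newform point of level `M` with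
`q² ∥ M` the inertia value at `(φ, σ)`, `σ ↦` a primitive root modulo `q`, is not `1`.
(Frozen S36 + Chebotarev + `H59.twGal1` + `H59.twGalCyc`, as for `S59.TW.H314.GalRStatement`,
which is the case `Σ = Smin ∪ Q`, `q = q_j`.) -/
def GalRSigStatement : Prop :=
  ∀ (p : ℕ) [Fact p.Prime]
    (𝒪 : Type) [CommRing 𝒪] [IsDomain 𝒪] [IsDiscreteValuationRing 𝒪]
    [IsAdicComplete (maximalIdeal 𝒪) 𝒪] [Finite (ResidueField 𝒪)] [CharZero 𝒪]
    (ρbar : ResidualGaloisRep (ResidueField 𝒪)) (Smin : Finset ℕ)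
    (_h : ResidualHyp p 𝒪 ρbar Smin) (t : PType) (Sig : Finset ℕ)
    (_hSig : ∀ q ∈ Sig, q.Prime) (_hSminSig : Smin ⊆ Sig)
    [NeZero (wilesLevel p t Smin Sig)]
    (PQ : HeckePkg p 𝒪 ρbar t Smin Sig)
    (q : ℕ) (_hq : q.Prime) (_hqSig : q ∈ Sig) (_hqS : q ∉ Smin) (_hpq : p ∣ q - 1)
    (_hdist : ∀ P : ValuationSubring (AlgebraicClosure ℚ), P.LiesOverPrime q →
      ∀ φ : AlgebraicClosure ℚ ≃ₐ[ℚ] AlgebraicClosure ℚ, P.IsFrobeniusAt φ q →
        ∃ α β : ResidueField 𝒪, α ≠ β ∧ LinearMap.charpoly (ρbar.ρ φ) = (X - C α) * (X - C β))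
    (P : ValuationSubring Qb), P.LiesOverPrime q →
    ∀ φ : GQ, P.IsFrobeniusAt φ q →
    ∀ σ ∈ P.inertiaSubgroupIn ℚ, ∀ u : (ZMod q)ˣ, orderOf u = q - 1 →
      CycloAt q σ (u : ZMod q).val →
      ∀ a₀ w : PQ.T, IsInertiaValue PQ.H.ρ φ σ a₀ w →
      ∀ (O' : Type) [CommRing O'] [IsDomain O'] [IsDiscreteValuationRing O']
        [IsAdicComplete (maximalIdeal O') O'] [Finite (ResidueField O')] [CharZero O']
        (emb : PQ.T →+* O'), IsLocalHom emb →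
        IsNewPtSig PQ emb (fun M => M.factorization q = 2) → emb w ≠ 1

/-- **IA-GAL-T**: `GalTSigStatement` at `Σ = Smin ∪ Piv ∪ Q`, `q = q_j`. -/
def IAGalTStatement : Prop :=
  ∀ (p : ℕ) [Fact p.Prime]
    (𝒪 : Type) [CommRing 𝒪] [IsDomain 𝒪] [IsDiscreteValuationRing 𝒪]
    [IsAdicComplete (maximalIdeal 𝒪) 𝒪] [Finite (ResidueField 𝒪)] [CharZero 𝒪]
    (ρbar : ResidualGaloisRep (ResidueField 𝒪)) (Smin : Finset ℕ)
    (_h : ResidualHyp p 𝒪 ρbar Smin)
    (Piv : Finset ℕ) (_hPiv : IsPivotSet p ρbar Smin Piv)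
    (n r : ℕ) (qv : Fin r → ℕ) (_hq : IsTWSet p ρbar (Smin ∪ Piv) n qv)
    [NeZero (wilesLevel p .flat Smin (Smin ∪ Piv ∪ Finset.univ.image qv))]
    (PQ : HeckePkg p 𝒪 ρbar .flat Smin (Smin ∪ Piv ∪ Finset.univ.image qv))
    (j : Fin r) (P : ValuationSubring Qb), P.LiesOverPrime (qv j) →
    ∀ φ : GQ, P.IsFrobeniusAt φ (qv j) →
    ∀ σ ∈ P.inertiaSubgroupIn ℚ,
      ∀ a₀ w : PQ.T, IsInertiaValue PQ.H.ρ φ σ a₀ w →
      ∀ (O' : Type) [CommRing O'] [IsDomain O'] [IsDiscreteValuationRing O']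
        [IsAdicComplete (maximalIdeal O') O'] [Finite (ResidueField O')] [CharZero O']
        (emb : PQ.T →+* O'), IsLocalHom emb →
        IsNewPtSig PQ emb (fun M => ¬ qv j ^ 2 ∣ M) → emb w = 1

/-- **IA-GAL-R**: `GalRSigStatement` at `Σ = Smin ∪ Piv ∪ Q`, `q = q_j`. -/
def IAGalRStatement : Prop :=
  ∀ (p : ℕ) [Fact p.Prime]
    (𝒪 : Type) [CommRing 𝒪] [IsDomain 𝒪] [IsDiscreteValuationRing 𝒪]
    [IsAdicComplete (maximalIdeal 𝒪) 𝒪] [Finite (ResidueField 𝒪)] [CharZero 𝒪]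
    (ρbar : ResidualGaloisRep (ResidueField 𝒪)) (Smin : Finset ℕ)
    (_h : ResidualHyp p 𝒪 ρbar Smin)
    (Piv : Finset ℕ) (_hPiv : IsPivotSet p ρbar Smin Piv)
    (n r : ℕ) (qv : Fin r → ℕ) (_hq : IsTWSet p ρbar (Smin ∪ Piv) n qv)
    [NeZero (wilesLevel p .flat Smin (Smin ∪ Piv ∪ Finset.univ.image qv))]
    (PQ : HeckePkg p 𝒪 ρbar .flat Smin (Smin ∪ Piv ∪ Finset.univ.image qv))
    (j : Fin r) (P : ValuationSubring Qb), P.LiesOverPrime (qv j) →
    ∀ φ : GQ, P.IsFrobeniusAt φ (qv j) →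
    ∀ σ ∈ P.inertiaSubgroupIn ℚ, ∀ u : (ZMod (qv j))ˣ, orderOf u = qv j - 1 →
      CycloAt (qv j) σ (u : ZMod (qv j)).val →
      ∀ a₀ w : PQ.T, IsInertiaValue PQ.H.ρ φ σ a₀ w →
      ∀ (O' : Type) [CommRing O'] [IsDomain O'] [IsDiscreteValuationRing O']
        [IsAdicComplete (maximalIdeal O') O'] [Finite (ResidueField O')] [CharZero O']
        (emb : PQ.T →+* O'), IsLocalHom emb →
        IsNewPtSig PQ emb (fun M => M.factorization (qv j) = 2) → emb w ≠ 1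

end Fermat.Agent.S38.IA.Hecke.H183

end
-- ===== PACK-END S38/IA/Hecke/H183/CmpSpecIA.lean

-- ===== PACK-BEGIN S38/IA/Hecke/H183/CmpGlueIA.lean
section






/-!
# Row HARD, cell HECKE, layer 4: leaf IA-CMP-GLUE and the glue of the leaf IA-CMP  (helper183)

* `standing` — the arithmetic side conditions of helper3's `GlueB2` (`hsig`, `hM`, `hsurj`) from
  `ResidualHyp`, `IsPivotSet`, `IsTWSet` and the enumeration `pv` of the pivots.
* `iaCmpGlue : IACmpGlueStatement` — `IAFreeAt V d` + `IATptAt` + `IARptAt` ⇒ `IACmpAt`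
  (route TW-ALG: `S59.H314.twCmp_of_pt`, Mathlib only, applied to helper3's `VMod V a` with the
  diamond action of the Taylor–Wiles factor of `diaMod`; the `𝒪[Δ_Q]`-basis is
  `⟨g₁^{e₁}⟩ b_i`; the order of the inertia value is INO, `TW.H123.inertiaOrder`).
* `iaTptAt_of`, `iaRptAt_of` — (T), (R) from the dictionary and the Galois leaves.
* `iaCmp_of_leaves : IAFreeStatement → IADictTStatement → IADictRStatement → IAGalTStatement →
  IAGalRStatement → Hecke.IACmpStatement`.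
-/

set_option autoImplicit false
set_option linter.style.haveILetI false
set_option linter.unusedSectionVars false
set_option linter.unusedVariables false

open Polynomial IsLocalRing CongruenceSubgroup
open scoped MatrixGroups

namespace Fermat.Agent.S38.IA.Hecke.H183

open Fermat.Agent.S59.Arch Fermat.Agent.S59.TW.H959 Fermat.Agent.S59.TW Fermat.Agent.S59.H765
open Fermat.Agent.S59.TW.H653 Fermat.Agent.S59.TW.Aut
open Fermat.Agent.S38.IA Fermat.Agent.S38.IA.Hecke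
open CuspForm

/-! ## The standing arithmetic facts -/

section Arith

variable {p : ℕ} {k r : ℕ} {pv : Fin k → ℕ} {qv : Fin r → ℕ} {Smin Piv : Finset ℕ}

theorem sumElim_prime (hprimep : ∀ i, (pv i).Prime) (hprimeq : ∀ j, (qv j).Prime) :
    ∀ s, (Sum.elim pv qv s).Prime := by
  rintro (i | j)
  · exact hprimep i
  · exact hprimeq j

theorem sumElim_injective (hpv : Function.Injective pv) (hqv : Function.Injective qv)
    (hdisj : ∀ i j, pv i ≠ qv j) : Function.Injective (Sum.elim pv qv) := by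
  rintro (i | j) (i' | j') h
  · exact congrArg Sum.inl (hpv h)
  · exact absurd h (hdisj i j')
  · exact absurd h.symm (hdisj i' j)
  · exact congrArg Sum.inr (hqv h)

theorem sumElim_mem (hpvPiv : Finset.univ.image pv = Piv) (s : Fin k ⊕ Fin r) :
    Sum.elim pv qv s ∈ Smin ∪ Piv ∪ Finset.univ.image qv := by
  rcases s with i | j
  · refine Finset.mem_union_left _ (Finset.mem_union_right _ ?_)
    rw [← hpvPiv]
    exact Finset.mem_image_of_mem pv (Finset.mem_univ i)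
  · exact Finset.mem_union_right _ (Finset.mem_image_of_mem qv (Finset.mem_univ j))

theorem not_dvd_MIA (hpvPiv : Finset.univ.image pv = Piv) (hprime : ∀ s, (Sum.elim pv qv s).Prime)
    {ℓ : ℕ} (hℓ : ℓ.Prime)
    (hℓN : ¬ ℓ ∣ wilesLevel p .flat Smin (Smin ∪ Piv ∪ Finset.univ.image qv))
    (hℓS : ℓ ∉ (↑(Smin ∪ Piv ∪ Finset.univ.image qv) : Set ℕ)) :
    ¬ ℓ ∣ MIA p Smin pv qv := by
  intro h
  rcases (Nat.Prime.dvd_mul hℓ).mp h with h1 | h1
  · exact hℓN (h1.trans (wilesLevel_min_dvd p .flat Smin _))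
  · obtain ⟨s, -, hs⟩ := (Prime.dvd_finsetProd_iff (Nat.Prime.prime hℓ) _).mp h1
    have : ℓ = Sum.elim pv qv s := (Nat.prime_dvd_prime_iff_eq hℓ (hprime s)).mp hs
    apply hℓS
    rw [this]
    exact Finset.mem_coe.mpr (sumElim_mem hpvPiv s)

end Arith


/-! ## Re-indexing a basis over `𝒪[Δ₁ × Δ₂]` as a basis over `𝒪[Δ₂]` -/

section Reindex

variable {𝒪 : Type} [CommRing 𝒪] {T : Type} [CommRing T] [Algebra 𝒪 T]
  {W : Type} [AddCommGroup W] [Module T W]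
  {D₁ D₂ : Type} [Monoid D₁] [Monoid D₂]
  {E₁ E₂ : Type} [Fintype E₁] [Fintype E₂]

/-- A basis `dia (γ₁ e₁, γ₂ e₂) (b i)` (`i < d`, `e₁ ∈ E₁`, `e₂ ∈ E₂`) is a basis
`dia (1, γ₂ e₂) (b' i')`, `i' < d' = d · #E₁`, with `b' = dia (γ₁ e₁, 1) (b i)`. -/
theorem exists_basis_snd (dia : D₁ × D₂ →* Module.End T W) (γ₁ : E₁ → D₁) (γ₂ : E₂ → D₂)
    {d : ℕ} (b : Fin d → W)
    (hb : ∀ y : W, ∃! c : Fin d → E₁ × E₂ → 𝒪,
      y = ∑ i, ∑ e, algebraMap 𝒪 T (c i e) • dia (γ₁ e.1, γ₂ e.2) (b i)) :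
    ∃ (d' : ℕ) (b' : Fin d' → W), ∀ y : W, ∃! c : Fin d' → E₂ → 𝒪,
      y = ∑ i, ∑ e, algebraMap 𝒪 T (c i e) • dia (1, γ₂ e) (b' i) := by
  classical
  let eqv : Fin d × E₁ ≃ Fin (Fintype.card (Fin d × E₁)) := Fintype.equivFin _
  refine ⟨Fintype.card (Fin d × E₁), fun i' => dia (γ₁ (eqv.symm i').2, 1) (b (eqv.symm i').1), ?_⟩
  -- the dictionary between the two families of coefficients
  have hsum : ∀ c' : Fin (Fintype.card (Fin d × E₁)) → E₂ → 𝒪,
      (∑ i', ∑ e, algebraMap 𝒪 T (c' i' e) •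
        dia (1, γ₂ e) (dia (γ₁ (eqv.symm i').2, 1) (b (eqv.symm i').1))) =
      ∑ i, ∑ e : E₁ × E₂, algebraMap 𝒪 T (c' (eqv (i, e.1)) e.2) •
        dia (γ₁ e.1, γ₂ e.2) (b i) := by
    intro c'
    rw [← Equiv.sum_comp eqv, Fintype.sum_prod_type]
    refine Finset.sum_congr rfl fun i _ => ?_
    rw [Fintype.sum_prod_type]
    refine Finset.sum_congr rfl fun e₁ _ => ?_
    refine Finset.sum_congr rfl fun e₂ _ => ?_
    rw [Equiv.symm_apply_apply, ← Module.End.mul_apply, ← map_mul, Prod.mk_mul_mk, one_mul,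
      mul_one]
  intro y
  obtain ⟨c, hc, hcu⟩ := hb y
  refine ⟨fun i' e₂ => c (eqv.symm i').1 ((eqv.symm i').2, e₂), ?_, ?_⟩
  · show y = _
    rw [hsum]
    simp only [Equiv.symm_apply_apply]
    exact hc
  · intro c' hc'
    have hc'' : y = ∑ i, ∑ e : E₁ × E₂, algebraMap 𝒪 T (c' (eqv (i, e.1)) e.2) •
        dia (γ₁ e.1, γ₂ e.2) (b i) := by
      rw [← hsum]
      exact hc'
    have h1 := hcu (fun i e => c' (eqv (i, e.1)) e.2) hc''
    funext i' e₂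
    have h2 := congrFun (congrFun h1 (eqv.symm i').1) ((eqv.symm i').2, e₂)
    simp only [Prod.mk.eta, Equiv.apply_symm_apply] at h2
    exact h2

end Reindex


/-! ## IA-CMP-GLUE -/

/-- **IA-CMP-GLUE.** -/
theorem iaCmpGlue : IACmpGlueStatement := by
  classical
  intro p hpF 𝒪 _ _ _ _ _ _ ρbar Smin h Piv hPiv k pv hpv hpvPiv n r qv hq _ PQ α V hh a d
    hV ha hfree hT hR
  -- the standing arithmetic facts
  have hprimeq : ∀ j, (qv j).Prime := fun j => (hq.2.1 j).1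
  have hpivmem : ∀ i, pv i ∈ Piv := fun i => by
    rw [← hpvPiv]
    exact Finset.mem_image_of_mem pv (Finset.mem_univ i)
  have hprimep : ∀ i, (pv i).Prime := fun i => (hPiv (pv i) (hpivmem i)).1
  have hprime := sumElim_prime hprimep hprimeq
  have hdisj : ∀ i j, pv i ≠ qv j := fun i j e =>
    (hq.2.1 j).2.1 (Finset.mem_union_right _ (e ▸ hpivmem i))
  have hinj := sumElim_injective hpv hq.1 hdisj
  have hSigP : ∀ q ∈ Smin ∪ Piv ∪ Finset.univ.image qv, q.Prime := by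
    intro q hq'
    rcases Finset.mem_union.mp hq' with h' | h'
    · rcases Finset.mem_union.mp h' with h'' | h''
      · exact h.hSmin q h''
      · exact (hPiv q h'').1
    · obtain ⟨j, -, rfl⟩ := Finset.mem_image.mp h'
      exact hprimeq j
  have hsub : Smin ⊆ Smin ∪ Piv ∪ Finset.univ.image qv :=
    Finset.subset_union_left.trans Finset.subset_union_left
  have hN₀ : wilesLevel p .flat Smin Smin ≠ 0 := wilesLevel_ne_zero hpF.out h.hSmin h.hSmin
  haveI hMIA : NeZero (MIA p Smin pv qv) := ⟨gLevel_ne_zero _ _ hN₀ hprime⟩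
  have hsurj := gRed_surjective (wilesLevel p .flat Smin Smin) (Sum.elim pv qv) hN₀ hinj hprime
  have hsig : ∀ q : ℕ, q.Prime →
      q ∣ wilesLevel p .flat Smin (Smin ∪ Piv ∪ Finset.univ.image qv) →
      q ∈ (↑(Smin ∪ Piv ∪ Finset.univ.image qv) : Set ℕ) := fun q hq' hd =>
    Finset.mem_coe.mpr
      (mem_of_prime_dvd_wilesLevel hpF.out h.hSmin hSigP h.hpSmin hsub q hq' hd)
  have hM : ∀ ℓ : ℕ, ℓ.Prime →
      ¬ ℓ ∣ wilesLevel p .flat Smin (Smin ∪ Piv ∪ Finset.univ.image qv) →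
      ℓ ∉ (↑(Smin ∪ Piv ∪ Finset.univ.image qv) : Set ℕ) → ¬ ℓ ∣ MIA p Smin pv qv :=
    fun ℓ hℓ hℓN hℓS => not_dvd_MIA hpvPiv hprime hℓ hℓN hℓS
  -- the diamond action
  let D := diaMod hV ha hsig hM hsurj
  let D₂ : (∀ j : Fin r, (ZMod (qv j))ˣ) →* Module.End PQ.T (VMod V a) :=
    D.comp (MonoidHom.inr _ _)
  have hD₂ : ∀ (u : ∀ j : Fin r, (ZMod (qv j))ˣ) (y : VMod V a),
      VMod.toX (D₂ u y) = diaIA p Smin pv qv 𝒪 1 u (VMod.toX y) := fun u y => rfl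
  have hD₂pow : ∀ (u : ∀ j : Fin r, (ZMod (qv j))ˣ) (i : ℕ) (y : VMod V a),
      VMod.toX ((D₂ u ^ i) y) = (diaIA p Smin pv qv 𝒪 1 u)^[i] (VMod.toX y) := by
    intro u i
    induction i with
    | zero => intro y; rfl
    | succ i ih =>
      intro y
      rw [pow_succ, Module.End.mul_apply, ih, hD₂, Function.iterate_succ_apply]
  intro j P hP φ hφ σ hσ u hu hcyc a₀ w hw
  -- the order of `w`
  obtain ⟨-, hqv, -⟩ := hq
  obtain ⟨hqprime, hqS, hqdvd⟩ := hqv j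
  have hdet : PQ.H.ρ.DetIsCyclotomic p := PQ.hcond.1.1
  have hqSmin : qv j ∉ Smin := fun e => hqS (Finset.mem_union_left _ e)
  have hqp : qv j ≠ p := fun e => hqSmin (e ▸ h.hpSmin)
  have hpq : p ∣ qv j - 1 := dvd_trans (dvd_pow_self p (Nat.succ_ne_zero n)) hqdvd
  have hunr : PQ.H.ρ.residual.IsUnramifiedAt (qv j) := by
    have h1 : ρbar.IsUnramifiedAt (qv j) := by
      by_contra hcon
      exact hqSmin ((h.hmin (qv j) hqprime hqp).mpr hcon)
    obtain ⟨e⟩ := PQ.hres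
    intro B hB τ hτ
    have h2 : (ρbar.baseChangeAlong (ResidueField.map (algebraMap 𝒪 PQ.T))).ρ τ = 1 := by
      letI : Algebra (ResidueField 𝒪) (ResidueField PQ.T) :=
        (ResidueField.map (algebraMap 𝒪 PQ.T)).toAlgebra
      show (ρbar.ρ τ).baseChange (ResidueField PQ.T) = 1
      rw [h1 B hB τ hτ]
      exact LinearMap.baseChange_one _ _
    refine LinearMap.ext fun x => ?_
    apply e.toLinearEquiv.injective
    rw [e.map_apply, h2]
    rfl
  haveI : Finite (ResidueField PQ.T) := IsLocalRing.ResidueField.finite_of_finite (R := 𝒪) ‹_›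
  obtain ⟨w', -, hwp, -⟩ :=
    Fermat.Agent.S59.TW.H123.inertiaOrder p PQ.T hdet.1 PQ.H.ρ hdet (qv j) hqprime hqp hpq hunr
      P hP φ hφ σ hσ a₀ w hw
  -- primitive roots
  have hprimq : ∀ i, ∃ g : (ZMod (qv i))ˣ, orderOf g = qv i - 1 := by
    intro i
    have : Fact (qv i).Prime := ⟨hprimeq i⟩
    have := ZMod.isCyclic_units_prime (hprimeq i)
    obtain ⟨g, hg⟩ := IsCyclic.exists_ofOrder_eq_natCard (α := (ZMod (qv i))ˣ)
    refine ⟨g, ?_⟩
    rw [hg, Nat.card_eq_fintype_card, ZMod.card_units]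
  have hprimp : ∀ i, ∃ g : (ZMod (pv i))ˣ, orderOf g = pv i - 1 := by
    intro i
    have : Fact (pv i).Prime := ⟨hprimep i⟩
    have := ZMod.isCyclic_units_prime (hprimep i)
    obtain ⟨g, hg⟩ := IsCyclic.exists_ofOrder_eq_natCard (α := (ZMod (pv i))ˣ)
    refine ⟨g, ?_⟩
    rw [hg, Nat.card_eq_fintype_card, ZMod.card_units]
  choose g₁ hg₁ using hprimp
  choose g₀ hg₀ using hprimq
  obtain ⟨g₂, hgj, hg₂⟩ : ∃ g : ∀ i : Fin r, (ZMod (qv i))ˣ, g j = u ∧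
      ∀ i, orderOf (g i) = qv i - 1 := by
    refine ⟨Function.update g₀ j u, Function.update_self .., ?_⟩
    intro i
    by_cases h : i = j
    · subst h
      rw [Function.update_self]
      exact hu
    · rw [Function.update_of_ne h]
      exact hg₀ i
  -- the basis over `𝒪[Δ_Piv × Δ_Q]`, then over `𝒪[Δ_Q]`
  obtain ⟨b, hb⟩ := free_of_freeAt (a := a) hV ha hsig hM hsurj hfree g₁ g₂ hg₁ hg₂
  obtain ⟨d', b', hb'⟩ := exists_basis_snd (𝒪 := 𝒪) D
    (fun e₁ : ∀ i : Fin k, Fin (p ^ padicValNat p (pv i - 1)) => fun i' => g₁ i' ^ (e₁ i' : ℕ))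
    (fun e₂ : ∀ j : Fin r, Fin (p ^ padicValNat p (qv j - 1)) => fun j' => g₂ j' ^ (e₂ j' : ℕ))
    b hb
  have hX : ∀ i, D₂ (Pi.mulSingle i (g₂ i)) ^ (p ^ padicValNat p (qv i - 1)) = 1 := by
    intro i
    rw [← map_pow]
    have h1 : (Pi.mulSingle i (g₂ i) ^ p ^ padicValNat p (qv i - 1) :
        ∀ j : Fin r, (ZMod (qv j))ˣ) =
        fun j => (Pi.mulSingle i (g₂ i) : ∀ j : Fin r, (ZMod (qv j))ˣ) j ^
          p ^ padicValNat p (qv j - 1) := by
      funext i'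
      by_cases h : i' = i
      · subst h
        simp
      · simp [Pi.mulSingle_eq_of_ne h]
    rw [h1]
    exact diaMod_pow₂ hV ha hsig hM hsurj _
  have hpJ : (p : 𝒪) ∈ Ideal.jacobson (⊥ : Ideal 𝒪) := maximalIdeal_le_jacobson ⊥ h.hp𝒪
  have hpnzd : ∀ c : 𝒪, (p : 𝒪) * c = 0 → c = 0 := by
    intro c hc
    rcases mul_eq_zero.mp hc with h' | h'
    · exact absurd h' (by exact_mod_cast hpF.out.ne_zero)
    · exact h'
  haveI : IsNoetherianRing PQ.T := PQ.isNoetherianRing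
  -- eigenvectors
  have heig : ∀ y : VMod V a, y ≠ 0 →
      (∀ s s' : PQ.T, (s * s') • y = 0 → s • y = 0 ∨ s' • y = 0) →
      IAIsEigVec PQ V a (VMod.val y) := by
    intro y hy hpr
    exact ⟨hy, fun s s' hss' => hpr s s' hss'⟩
  have key := Fermat.Agent.S59.H314.twCmp_of_pt p hpF.out h.hp2 𝒪 hpJ hpnzd PQ.T (VMod V a) r
    (fun i => (ZMod (qv i))ˣ) (fun i => padicValNat p (qv i - 1)) D₂ g₂ hX d' b' hb' j w _ hwp
    (by
      intro y hy hpr hfix
      rw [hgj] at hfix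
      exact hT j P hP φ hφ σ hσ u hu hcyc a₀ w hw (VMod.val y) (heig y hy hpr)
        (congrArg VMod.toX hfix))
    (by
      intro y hy hpr hΦ
      rw [hgj] at hΦ
      refine hR j P hP φ hφ σ hσ u hu hcyc a₀ w hw (VMod.val y) (heig y hy hpr) ?_
      have h2 : VMod.toX ((∑ i ∈ Finset.range p, D₂ (Pi.mulSingle j u) ^ i) y) = 0 := by
        rw [hΦ]
        rfl
      rw [LinearMap.sum_apply, map_sum] at h2
      rw [← h2]
      refine Finset.sum_congr rfl fun i _ => ?_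
      exact (hD₂pow _ i y).symm)
  rw [hgj] at key
  intro y
  have key' := key (VMod.mk y)
  constructor
  · rintro ⟨y', hy'⟩
    obtain ⟨z, hz⟩ := key'.mp ⟨VMod.mk y', hy'⟩
    exact ⟨VMod.val z, congrArg VMod.toX hz⟩
  · rintro ⟨y', hy'⟩
    obtain ⟨z, hz⟩ := key'.mpr ⟨VMod.mk y', Subtype.ext hy'⟩
    exact ⟨VMod.val z, hz⟩


/-! ## The leaf IA-CMP from its layer-4 leaves -/

/-- **The leaf IA-CMP from its layer-4 leaves.** -/
theorem iaCmp_of_leaves (hFree : IAFreeStatement) (hDT : IADictTStatement)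
    (hDR : IADictRStatement) (hGT : IAGalTStatement) (hGR : IAGalRStatement) :
    IACmpStatement := by
  intro p hpF hp5 𝒪 _ _ _ _ _ _ ρbar Smin h hflat Piv hPiv k pv hpv hpvPiv n r qv hq _ PQ α hα
    V hh a hV hhalf₁ hhalf₂ ha
  obtain ⟨d, hfree⟩ :=
    hFree p hp5 𝒪 ρbar Smin h hflat Piv hPiv k pv hpv hpvPiv n r qv hq PQ α hα V hV
  have hsubw : ∀ (w : PQ.T) (y : V), a (w - 1) y = a w y - y := by
    intro w y
    have h1 : a w = a (w - 1) + 1 := by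
      rw [← map_one a, ← map_add, sub_add_cancel]
    rw [h1, LinearMap.add_apply, Module.End.one_apply]
    exact (add_sub_cancel_right (a (w - 1) y) y).symm
  have hT : IATptAt PQ V a := by
    intro j P hP φ hφ σ hσ u hu _hcyc a₀ w hw y hy hfix
    obtain ⟨O', _, _, _, _, _, _, emb, hloc, hker, hnew⟩ :=
      hDT p hp5 𝒪 ρbar Smin h hflat Piv hPiv k pv hpv hpvPiv n r qv hq PQ α hα V hh a hV
        hhalf₁ hhalf₂ ha j u hu y hy hfix
    have h1 : emb w = 1 :=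
      hGT p 𝒪 ρbar Smin h Piv hPiv n r qv hq PQ j P hP φ hφ σ hσ a₀ w hw O' emb hloc hnew
    have h2 : a (w - 1) y = 0 := by
      rw [hker, map_sub, h1, map_one, sub_self]
    have h3 := hsubw w y
    rw [h2] at h3
    exact sub_eq_zero.mp h3.symm
  have hR : IARptAt PQ V a := by
    intro j P hP φ hφ σ hσ u hu hcyc a₀ w hw y hy hΦ hwy
    obtain ⟨O', _, _, _, _, _, _, emb, hloc, hker, hnew⟩ :=
      hDR p hp5 𝒪 ρbar Smin h hflat Piv hPiv k pv hpv hpvPiv n r qv hq PQ α hα V hh a hV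
        hhalf₁ hhalf₂ ha j u hu y hy hΦ
    have h1 : emb w ≠ 1 :=
      hGR p 𝒪 ρbar Smin h Piv hPiv n r qv hq PQ j P hP φ hφ σ hσ u hu hcyc a₀ w hw O' emb
        hloc hnew
    apply h1
    have h2 : a (w - 1) y = 0 := by
      rw [hsubw, hwy]
      exact sub_self y
    have h3 := (hker (w - 1)).mp h2
    rw [map_sub, map_one, sub_eq_zero] at h3
    exact h3
  exact iaCmpGlue p 𝒪 ρbar Smin h Piv hPiv k pv hpv hpvPiv n r qv hq PQ α V hh a d hV ha hfree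
    hT hR

end Fermat.Agent.S38.IA.Hecke.H183

end
-- ===== PACK-END S38/IA/Hecke/H183/CmpGlueIA.lean

-- ===== PACK-BEGIN S38/IA/Hecke/H183/CmpSigIA.lean
section


/-!
# Row HARD, cell HECKE, layer 4: the Galois leaves of IA-CMP from their form for a general `Σ`
(helper183)

* `iaGalT_of_sig : GalTSigStatement → IAGalTStatement`, `iaGalR_of_sig`;
* `galT314_of_sig : GalTSigStatement → S59.TW.H314.GalTStatement`, `galR314_of_sig`
  (the leaves of the cell TW of row S59 are the case `Σ = Smin ∪ Q`).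
-/

set_option autoImplicit false
set_option linter.style.haveILetI false
set_option linter.unusedSectionVars false
set_option linter.unusedVariables false

open Polynomial IsLocalRing CongruenceSubgroup
open scoped MatrixGroups

namespace Fermat.Agent.S38.IA.Hecke.H183

open Fermat.Agent.S59.Arch Fermat.Agent.S59.TW.H959 Fermat.Agent.S59.TW Fermat.Agent.S59.H765
open Fermat.Agent.S59.TW.H653 Fermat.Agent.S59.TW.Aut
open Fermat.Agent.S38.IA Fermat.Agent.S38.IA.Hecke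
open CuspForm

/-! ## The Galois leaves from their form for a general `Σ` -/

section Sig

variable {p : ℕ} {k : Type} [Field k] {ρbar : ResidualGaloisRep k} {Smin Piv : Finset ℕ}
  {n r : ℕ} {qv : Fin r → ℕ}

theorem sig_prime_of (hSmin : ∀ q ∈ Smin, q.Prime) (hPiv : IsPivotSet p ρbar Smin Piv)
    (hq : IsTWSet p ρbar (Smin ∪ Piv) n qv) :
    ∀ q ∈ Smin ∪ Piv ∪ Finset.univ.image qv, q.Prime := by
  intro q hq'
  rcases Finset.mem_union.mp hq' with h' | h'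
  · rcases Finset.mem_union.mp h' with h'' | h''
    · exact hSmin q h''
    · exact (hPiv q h'').1
  · obtain ⟨j, -, rfl⟩ := Finset.mem_image.mp h'
    exact (hq.2.1 j).1

end Sig

/-- `IAGalTStatement` is the case `Σ = Smin ∪ Piv ∪ Q`, `q = q_j` of `GalTSigStatement`. -/
theorem iaGalT_of_sig (hG : GalTSigStatement) : IAGalTStatement := by
  intro p hpF 𝒪 _ _ _ _ _ _ ρbar Smin h Piv hPiv n r qv hq _ PQ j P hP φ hφ σ hσ a₀ w hw
    O' _ _ _ _ _ _ emb hloc hnew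
  obtain ⟨hqprime, hqS, hqdvd⟩ := hq.2.1 j
  exact hG p 𝒪 ρbar Smin h .flat (Smin ∪ Piv ∪ Finset.univ.image qv)
    (sig_prime_of h.hSmin hPiv hq) (Finset.subset_union_left.trans Finset.subset_union_left)
    PQ (qv j) hqprime
    (Finset.mem_union_right _ (Finset.mem_image_of_mem qv (Finset.mem_univ j)))
    (fun e => hqS (Finset.mem_union_left _ e))
    (dvd_trans (dvd_pow_self p (Nat.succ_ne_zero n)) hqdvd)
    (fun P' hP' φ' hφ' => hq.2.2 j P' hP' φ' hφ')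
    P hP φ hφ σ hσ a₀ w hw O' emb hloc hnew

/-- `IAGalRStatement` is the case `Σ = Smin ∪ Piv ∪ Q`, `q = q_j` of `GalRSigStatement`. -/
theorem iaGalR_of_sig (hG : GalRSigStatement) : IAGalRStatement := by
  intro p hpF 𝒪 _ _ _ _ _ _ ρbar Smin h Piv hPiv n r qv hq _ PQ j P hP φ hφ σ hσ u hu hcyc
    a₀ w hw O' _ _ _ _ _ _ emb hloc hnew
  obtain ⟨hqprime, hqS, hqdvd⟩ := hq.2.1 j
  exact hG p 𝒪 ρbar Smin h .flat (Smin ∪ Piv ∪ Finset.univ.image qv)
    (sig_prime_of h.hSmin hPiv hq) (Finset.subset_union_left.trans Finset.subset_union_left)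
    PQ (qv j) hqprime
    (Finset.mem_union_right _ (Finset.mem_image_of_mem qv (Finset.mem_univ j)))
    (fun e => hqS (Finset.mem_union_left _ e))
    (dvd_trans (dvd_pow_self p (Nat.succ_ne_zero n)) hqdvd)
    (fun P' hP' φ' hφ' => hq.2.2 j P' hP' φ' hφ')
    P hP φ hφ σ hσ u hu hcyc a₀ w hw O' emb hloc hnew

/-- `S59.TW.H314.GalTStatement` is the case `Σ = Smin ∪ Q`, `q = q_j` of `GalTSigStatement`. -/
theorem galT314_of_sig (hG : GalTSigStatement) : Fermat.Agent.S59.TW.H314.GalTStatement := by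
  intro p hpF 𝒪 _ _ _ _ _ _ ρbar Smin h t _ n r qv hq _ PQ j P hP φ hφ σ hσ a₀ w hw
    O' _ _ _ _ _ _ emb hloc hnew
  obtain ⟨hqprime, hqS, hqdvd⟩ := hq.2.1 j
  have hSigP : ∀ q ∈ Smin ∪ Finset.univ.image qv, q.Prime := by
    intro q hq'
    rcases Finset.mem_union.mp hq' with h' | h'
    · exact h.hSmin q h'
    · obtain ⟨j, -, rfl⟩ := Finset.mem_image.mp h'
      exact (hq.2.1 j).1
  exact hG p 𝒪 ρbar Smin h t (Smin ∪ Finset.univ.image qv) hSigP Finset.subset_union_left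
    PQ (qv j) hqprime
    (Finset.mem_union_right _ (Finset.mem_image_of_mem qv (Finset.mem_univ j)))
    hqS (dvd_trans (dvd_pow_self p (Nat.succ_ne_zero n)) hqdvd)
    (fun P' hP' φ' hφ' => hq.2.2 j P' hP' φ' hφ')
    P hP φ hφ σ hσ a₀ w hw O' emb hloc hnew

/-- `S59.TW.H314.GalRStatement` is the case `Σ = Smin ∪ Q`, `q = q_j` of `GalRSigStatement`. -/
theorem galR314_of_sig (hG : GalRSigStatement) : Fermat.Agent.S59.TW.H314.GalRStatement := by
  intro p hpF 𝒪 _ _ _ _ _ _ ρbar Smin h t _ n r qv hq _ PQ j P hP φ hφ σ hσ u hu hcyc a₀ w hw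
    O' _ _ _ _ _ _ emb hloc hnew
  obtain ⟨hqprime, hqS, hqdvd⟩ := hq.2.1 j
  have hSigP : ∀ q ∈ Smin ∪ Finset.univ.image qv, q.Prime := by
    intro q hq'
    rcases Finset.mem_union.mp hq' with h' | h'
    · exact h.hSmin q h'
    · obtain ⟨j, -, rfl⟩ := Finset.mem_image.mp h'
      exact (hq.2.1 j).1
  exact hG p 𝒪 ρbar Smin h t (Smin ∪ Finset.univ.image qv) hSigP Finset.subset_union_left
    PQ (qv j) hqprime
    (Finset.mem_union_right _ (Finset.mem_image_of_mem qv (Finset.mem_univ j)))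
    hqS (dvd_trans (dvd_pow_self p (Nat.succ_ne_zero n)) hqdvd)
    (fun P' hP' φ' hφ' => hq.2.2 j P' hP' φ' hφ')
    P hP φ hφ σ hσ u hu hcyc a₀ w hw O' emb hloc hnew

end Fermat.Agent.S38.IA.Hecke.H183

end
-- ===== PACK-END S38/IA/Hecke/H183/CmpSigIA.lean

-- ===== PACK-BEGIN S38/H47/NiceLift.lean
section



/-!
# Row HARD, cell HECKE, leaf IA-NU (helper47): lifts of the diamond indices which are `≡ 1`
modulo `N₀`

The diamond operators `diaIA a₁ a₂` of `Spec3` are defined through `gLift`, an ARBITRARY lift of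
`(a₁, a₂) ∈ ∏ (ℤ/qq s)ˣ` to `(ℤ/M)ˣ`, `M = N₀ ∏ qq s`; the dictionaries
(`H227.nuNew`, `H561.carriesAt_of_support`) need a lift which is `≡ 1` modulo the other primes of
`M`, in particular modulo `N₀`.

* `exists_niceLift` : every `a ∈ ∏ (ℤ/qq s)ˣ` has a lift `d ∈ (ℤ/M)ˣ` with `d ≡ 1 mod N₀`;
* `diamondU_niceLift` : its diamond operator on `X_K`, `K = KG p N₀ qq`, is the one of `gLift a`;
* `cast_niceLift_of_prime` : `d ≡ 1` modulo every prime `q ∣ M` such that `q ≠ qq s` for all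
  `s` with `a s ≠ 1`.
-/

set_option autoImplicit false
set_option linter.unusedSectionVars false
set_option linter.unusedVariables false

open CongruenceSubgroup
open scoped MatrixGroups

namespace Fermat.Agent.S38.H47

open Fermat.Agent.S59.TW.H653 Fermat.Agent.S38.IA.Hecke

section

variable (p N₀ : ℕ) {ι : Type} [Fintype ι] (qq : ι → ℕ)

/-- Every `a ∈ ∏ (ℤ/qq s)ˣ` has a lift to `(ℤ/M)ˣ` which is `≡ 1` modulo `N₀`. -/
theorem exists_niceLift (hN₀ : N₀ ≠ 0) (hinj : Function.Injective qq)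
    (hprime : ∀ s, (qq s).Prime) (hcop : ∀ s, Nat.Coprime N₀ (qq s))
    (a : ∀ s : ι, (ZMod (qq s))ˣ) :
    ∃ d : (ZMod (gLevel N₀ qq))ˣ, gRed N₀ qq d = a ∧
      (((d : (ZMod (gLevel N₀ qq))ˣ) : ZMod (gLevel N₀ qq)).cast : ZMod N₀) = 1 := by
  have : NeZero (gLevel N₀ qq) := ⟨gLevel_ne_zero N₀ qq hN₀ hprime⟩
  obtain ⟨d₀, hd₀⟩ := gRed_surjective N₀ qq hN₀ hinj hprime a
  have hcopP : Nat.Coprime N₀ (∏ s, qq s) := Nat.Coprime.prod_right fun s _ => hcop s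
  set v : ℕ := ((d₀ : (ZMod (gLevel N₀ qq))ˣ) : ZMod (gLevel N₀ qq)).val with hv
  obtain ⟨z, hz1, hz2⟩ := Fermat.Agent.S59.TW.H564.exists_int_crt hcopP 1 (v : ℤ)
  have hvM : Nat.Coprime v (gLevel N₀ qq) := ZMod.val_coe_unit_coprime d₀
  have hvP : IsCoprime (v : ℤ) ((∏ s, qq s : ℕ) : ℤ) :=
    Nat.isCoprime_iff_coprime.mpr (Nat.Coprime.coprime_dvd_right (Dvd.intro_left _ rfl) hvM)
  have hzP : IsCoprime z ((∏ s, qq s : ℕ) : ℤ) := by
    obtain ⟨c, hc⟩ := hz2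
    have h1 : z = (v : ℤ) + ((∏ s, qq s : ℕ) : ℤ) * c := by linear_combination hc
    rw [h1]
    exact hvP.add_mul_left_left c
  have hzN : IsCoprime z (N₀ : ℤ) := by
    obtain ⟨c, hc⟩ := hz1
    exact ⟨1, -c, by linear_combination hc⟩
  have hzu : IsUnit ((z : ℤ) : ZMod (gLevel N₀ qq)) := by
    rw [ZMod.coe_int_isUnit_iff_isCoprime]
    unfold gLevel
    rw [Nat.cast_mul]
    exact IsCoprime.mul_left hzN.symm hzP.symm
  refine ⟨hzu.unit, ?_, ?_⟩
  · funext s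
    apply Units.ext
    rw [gRed_apply, ← hd₀, gRed_apply]
    show ZMod.castHom (dvd_gLevel N₀ qq s) (ZMod (qq s)) ((hzu.unit : (ZMod (gLevel N₀ qq))ˣ) :
        ZMod (gLevel N₀ qq)) =
      ZMod.castHom (dvd_gLevel N₀ qq s) (ZMod (qq s))
        ((d₀ : (ZMod (gLevel N₀ qq))ˣ) : ZMod (gLevel N₀ qq))
    rw [IsUnit.unit_spec, map_intCast]
    have h2 : ((d₀ : (ZMod (gLevel N₀ qq))ˣ) : ZMod (gLevel N₀ qq)) =
        ((v : ℕ) : ZMod (gLevel N₀ qq)) := by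
      rw [hv, ZMod.natCast_zmod_val]
    rw [h2, map_natCast]
    have h3 : ((qq s : ℕ) : ℤ) ∣ z - (v : ℤ) :=
      (Int.natCast_dvd_natCast.mpr (Finset.dvd_prod_of_mem qq (Finset.mem_univ s))).trans hz2
    have h4 := (ZMod.intCast_zmod_eq_zero_iff_dvd _ _).mpr h3
    push_cast at h4
    exact sub_eq_zero.mp h4
  · rw [IsUnit.unit_spec]
    have h5 : (((z : ℤ) : ZMod (gLevel N₀ qq)).cast : ZMod N₀) = ((z : ℤ) : ZMod N₀) := by
      have := map_intCast (ZMod.castHom (self_dvd_gLevel N₀ qq) (ZMod N₀)) z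
      exact this
    rw [h5]
    have h4 := (ZMod.intCast_zmod_eq_zero_iff_dvd _ _).mpr hz1
    push_cast at h4
    exact sub_eq_zero.mp h4

/-- The diamond operator of a lift of `a` is the diamond operator of `gLift a`. -/
theorem diamondU_eq_gLift [NeZero (gLevel N₀ qq)]
    (hsurj : Function.Surjective (gRed N₀ qq)) {A : Type} [AddCommGroup A]
    {a : ∀ s : ι, (ZMod (qq s))ˣ} {d : (ZMod (gLevel N₀ qq))ˣ} (hd : gRed N₀ qq d = a)
    (x : Additive (KG p N₀ qq) →+ A) :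
    diamondU (isMid_KG p N₀ qq) d x = diamondU (isMid_KG p N₀ qq) (gLift N₀ qq a) x := by
  apply diamondU_eq_of_gChi
  apply gChi_eq_of_gRed
  rw [hd, gRed_gLift' N₀ qq hsurj]

/-- A lift `d ≡ 1 mod N₀` of `a` is `≡ 1` modulo every prime `q ∣ M` which is not one of the
`qq s` with `a s ≠ 1`. -/
theorem cast_niceLift_of_prime [NeZero (gLevel N₀ qq)] (hprime : ∀ s, (qq s).Prime)
    {a : ∀ s : ι, (ZMod (qq s))ˣ} {d : (ZMod (gLevel N₀ qq))ˣ} (hd : gRed N₀ qq d = a)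
    (hd1 : (((d : (ZMod (gLevel N₀ qq))ˣ) : ZMod (gLevel N₀ qq)).cast : ZMod N₀) = 1)
    {q : ℕ} (hq : q.Prime) (hqM : q ∣ gLevel N₀ qq) (hqa : ∀ s, a s ≠ 1 → q ≠ qq s) :
    (((((d : (ZMod (gLevel N₀ qq))ˣ) : ZMod (gLevel N₀ qq)).val : ℕ) : ℤ) : ZMod q) = 1 := by
  rw [Int.cast_natCast]
  rcases (Nat.Prime.dvd_mul hq).mp hqM with h | h
  · -- `q ∣ N₀`
    have h1 : ((((d : (ZMod (gLevel N₀ qq))ˣ) : ZMod (gLevel N₀ qq)).val : ℕ) : ZMod N₀) = 1 := by
      rw [ZMod.natCast_val]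
      exact hd1
    have h2 := congrArg (ZMod.castHom h (ZMod q)) h1
    rwa [map_natCast, map_one] at h2
  · obtain ⟨s, -, hs⟩ := (Prime.dvd_finsetProd_iff hq.prime _).mp h
    have hqs : q = qq s := (Nat.prime_dvd_prime_iff_eq hq (hprime s)).mp hs
    have has : a s = 1 := by
      by_contra hne
      exact hqa s hne hqs
    subst hqs
    have h1 : gRed N₀ qq d s = 1 := by rw [hd, has]
    have h2 : ZMod.castHom (dvd_gLevel N₀ qq s) (ZMod (qq s))
        ((d : (ZMod (gLevel N₀ qq))ˣ) : ZMod (gLevel N₀ qq)) = 1 := by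
      have := congrArg (fun u : (ZMod (qq s))ˣ => (u : ZMod (qq s))) h1
      exact this
    have h3 : ((d : (ZMod (gLevel N₀ qq))ˣ) : ZMod (gLevel N₀ qq)) =
        ((((d : (ZMod (gLevel N₀ qq))ˣ) : ZMod (gLevel N₀ qq)).val : ℕ) :
          ZMod (gLevel N₀ qq)) := (ZMod.natCast_zmod_val _).symm
    rw [h3, map_natCast] at h2
    exact h2

end

end Fermat.Agent.S38.H47

end
-- ===== PACK-END S38/H47/NiceLift.lean

-- ===== PACK-BEGIN S59/TW/H201/KDegDiamond.lean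
section



/-!
# S59 / HARD, cell TW: the degeneracy maps at `Γ_H`-levels commute with the diamond operators
  (helper201)

`g' ∈ Γ₀(N q)`; `⟨g'⟩` on `X_{K_{N q}}` is `H653.diamond (isMid_Kq hK q) g'`, and on `X_K` it is
`H653.diamond hK (incl N q g')` (`= H653.diamond hK (conjDelta N q g')`, `diamond_conjDelta`).

* `r₁K_diamond`, `r₂K_diamond` : `r_i (⟨g'⟩ φ) = ⟨g'⟩ (r_i φ)`;
* `t₁K_diamond`, `t₂K_diamond` : `t_i (⟨g'⟩ ψ) = ⟨g'⟩ (t_i ψ)`;
* the same for `diamondU` (`r₁K_diamondU`, ...): `u' ∈ (ℤ/N q)ˣ` on `X_{K_{N q}}` and its image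
  `u ∈ (ℤ/N)ˣ` on `X_K`.
-/

set_option autoImplicit false

namespace Fermat.Agent.S59.TW.H201

open CongruenceSubgroup Matrix.SpecialLinearGroup
open Fermat.Agent.S41.Spec Fermat.Agent.S59.TW.H653
open scoped MatrixGroups

variable {N : ℕ} {K : Subgroup SL(2, ℤ)} {A : Type*} [AddCommGroup A]

/-- On `X_K` the diamond operators of `incl g'` and of `c_δ(g')` agree. -/
theorem diamond_conjDelta (hK : IsMid N K) (q : ℕ) (g' : Gamma0 (N * q)) (φ : Additive K →+ A) :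
    diamond hK (conjDelta N q g') φ = diamond hK (incl N q g') φ :=
  diamond_congr hK (dUnit_conjDelta N q g') φ

theorem inclKq_conjK (hK : IsMid N K) (q : ℕ) (g' : Gamma0 (N * q)) (γ : Kq N q K) :
    inclKq N q K (conjK (isMid_Kq hK q) g' γ) = conjK hK (incl N q g') (inclKq N q K γ) := by
  apply Subtype.ext
  rfl

theorem conjDeltaK_conjK (hK : IsMid N K) (q : ℕ) (g' : Gamma0 (N * q)) (γ : Kq N q K) :
    conjDeltaK hK q (conjK (isMid_Kq hK q) g' γ) =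
      conjK hK (conjDelta N q g') (conjDeltaK hK q γ) := by
  apply inclK_injective hK
  have h1 : toGamma0q N q K (conjK (isMid_Kq hK q) g' γ) = g' * toGamma0q N q K γ * g'⁻¹ := by
    apply Subtype.ext
    simp
  have h2 : inclK hK (conjK hK (conjDelta N q g') (conjDeltaK hK q γ)) =
      conjDelta N q g' * inclK hK (conjDeltaK hK q γ) * (conjDelta N q g')⁻¹ := by
    apply Subtype.ext
    rfl
  rw [h2, inclK_conjDeltaK, inclK_conjDeltaK, h1, map_mul, map_mul, map_inv]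

/-- `r₁ ⟨g'⟩ = ⟨g'⟩ r₁`. -/
theorem r₁K_diamond (hK : IsMid N K) (q : ℕ) (g' : Gamma0 (N * q)) (φ : Additive K →+ A) :
    r₁K N q K (diamond hK (incl N q g') φ) = diamond (isMid_Kq hK q) g' (r₁K N q K φ) := by
  refine AddMonoidHom.ext fun γ' => ?_
  obtain ⟨γ, rfl⟩ : ∃ γ : Kq N q K, Additive.ofMul γ = γ' := ⟨Additive.toMul γ', rfl⟩
  rw [r₁K_apply, diamond_apply, diamond_apply, r₁K_apply, inclKq_conjK]

/-- `r₂ ⟨g'⟩ = ⟨g'⟩ r₂`. -/
theorem r₂K_diamond (hK : IsMid N K) (q : ℕ) (g' : Gamma0 (N * q)) (φ : Additive K →+ A) :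
    r₂K hK q (diamond hK (incl N q g') φ) = diamond (isMid_Kq hK q) g' (r₂K hK q φ) := by
  rw [← diamond_conjDelta]
  refine AddMonoidHom.ext fun γ' => ?_
  obtain ⟨γ, rfl⟩ : ∃ γ : Kq N q K, Additive.ofMul γ = γ' := ⟨Additive.toMul γ', rfl⟩
  rw [r₂K_apply, diamond_apply, diamond_apply, r₂K_apply, conjDeltaK_conjK]

/-- `t₁ ⟨g'⟩ = ⟨g'⟩ t₁`. -/
theorem t₁K_diamond (hK : IsMid N K) (q : ℕ) (g' : Gamma0 (N * q))
    (ψ : Additive (Kq N q K) →+ A) :
    t₁K N q K (diamond (isMid_Kq hK q) g' ψ) = diamond hK (incl N q g') (t₁K N q K ψ) :=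
  Fermat.Agent.S41.H924.transferAlong_comp_aut (inclKq N q K) (conjK (isMid_Kq hK q) g')
    (conjK hK (incl N q g')) (fun γ => (inclKq_conjK hK q g' γ).symm) ψ

/-- `t₂ ⟨g'⟩ = ⟨g'⟩ t₂`. -/
theorem t₂K_diamond (hK : IsMid N K) (q : ℕ) (g' : Gamma0 (N * q))
    (ψ : Additive (Kq N q K) →+ A) :
    t₂K hK q (diamond (isMid_Kq hK q) g' ψ) = diamond hK (incl N q g') (t₂K hK q ψ) := by
  rw [← diamond_conjDelta]
  exact Fermat.Agent.S41.H924.transferAlong_comp_aut (conjDeltaK hK q)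
    (conjK (isMid_Kq hK q) g') (conjK hK (conjDelta N q g'))
    (fun γ => (conjDeltaK_conjK hK q g' γ).symm) ψ

/-! ## The same for `diamondU` -/

section Units

variable [NeZero N] {q : ℕ} [NeZero (N * q)]

/-- The reduction `(ℤ/N q)ˣ → (ℤ/N)ˣ`. -/
def redU (N q : ℕ) : (ZMod (N * q))ˣ →* (ZMod N)ˣ := ZMod.unitsMap (Dvd.intro q rfl)

theorem redU_surjective (N q : ℕ) [NeZero (N * q)] : Function.Surjective (redU N q) :=
  ZMod.unitsMap_surjective _

omit [NeZero (N * q)] in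
theorem diamondU_redU (hK : IsMid N K) {g' : Gamma0 (N * q)} {u' : (ZMod (N * q))ˣ}
    (hg' : dUnit (N * q) g' = u') (φ : Additive K →+ A) :
    diamondU hK (redU N q u') φ = diamond hK (incl N q g') φ := by
  apply diamondU_eq
  rw [← hg']
  exact (unitsMap_dUnit N q g').symm

theorem r₁K_diamondU (hK : IsMid N K) (u' : (ZMod (N * q))ˣ) (φ : Additive K →+ A) :
    r₁K N q K (diamondU hK (redU N q u') φ) =
      diamondU (isMid_Kq hK q) u' (r₁K N q K φ) := by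
  obtain ⟨g', hg'⟩ := dUnit_surjective (M := N * q) u'
  rw [diamondU_redU hK hg', diamondU_eq (isMid_Kq hK q) hg', r₁K_diamond]

theorem r₂K_diamondU (hK : IsMid N K) (u' : (ZMod (N * q))ˣ) (φ : Additive K →+ A) :
    r₂K hK q (diamondU hK (redU N q u') φ) =
      diamondU (isMid_Kq hK q) u' (r₂K hK q φ) := by
  obtain ⟨g', hg'⟩ := dUnit_surjective (M := N * q) u'
  rw [diamondU_redU hK hg', diamondU_eq (isMid_Kq hK q) hg', r₂K_diamond]

theorem t₁K_diamondU (hK : IsMid N K) (u' : (ZMod (N * q))ˣ) (ψ : Additive (Kq N q K) →+ A) :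
    t₁K N q K (diamondU (isMid_Kq hK q) u' ψ) =
      diamondU hK (redU N q u') (t₁K N q K ψ) := by
  obtain ⟨g', hg'⟩ := dUnit_surjective (M := N * q) u'
  rw [diamondU_redU hK hg', diamondU_eq (isMid_Kq hK q) hg', t₁K_diamond]

theorem t₂K_diamondU (hK : IsMid N K) (u' : (ZMod (N * q))ˣ) (ψ : Additive (Kq N q K) →+ A) :
    t₂K hK q (diamondU (isMid_Kq hK q) u' ψ) =
      diamondU hK (redU N q u') (t₂K hK q ψ) := by
  obtain ⟨g', hg'⟩ := dUnit_surjective (M := N * q) u'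
  rw [diamondU_redU hK hg', diamondU_eq (isMid_Kq hK q) hg', t₂K_diamond]

omit [NeZero N] in
/-- On `X_{K_{N q}}` the diamond operator of `u'` depends only on the image of `u'` in
`(ℤ/N)ˣ`. -/
theorem diamondU_Kq_congr (hK : IsMid N K) {u' v' : (ZMod (N * q))ˣ}
    (h : redU N q u' = redU N q v') (ψ : Additive (Kq N q K) →+ A) :
    diamondU (isMid_Kq hK q) u' ψ = diamondU (isMid_Kq hK q) v' ψ := by
  obtain ⟨g, hg⟩ := dUnit_surjective (M := N * q) (u' * v'⁻¹)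
  have h1 : u' = (u' * v'⁻¹) * v' := by rw [inv_mul_cancel_right]
  have h2 : dUnit N (incl N q g) = 1 := by
    rw [← unitsMap_dUnit, hg]
    show redU N q (u' * v'⁻¹) = 1
    rw [map_mul, map_inv, h, mul_inv_cancel]
  have h3 : (g : SL(2, ℤ)) ∈ Kq N q K :=
    ⟨hK.mem_of_dUnit_eq_one (g := incl N q g) h2, g.2⟩
  rw [h1, diamondU_mul, ← hg, diamondU_of_mem (isMid_Kq hK q) h3]

end Units

end Fermat.Agent.S59.TW.H201

end
-- ===== PACK-END S59/TW/H201/KDegDiamond.lean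

-- ===== PACK-BEGIN S59/TW/H201/KDegSpec.lean
section




/-!
# S59 / HARD, cell TW: one-prime degeneracy at `Γ_H`-levels — the geometric identities, as `Prop`s
  (helper201; consumers: helper571 `S59/H571/DegRelTw.lean`, helper719, helper53)

Level `N ≠ 0`, `Γ₁(N) ≤ K ≤ Γ₀(N)`, `q ∤ N` prime, `K_{N q} = K ⊓ Γ₀(N q)`.
`T = H653.TK N K q`, `U = H653.UK (Kq N q K) q`, `r₁, r₂, t₁, t₂` of `KDegDefs.lean`.
`⟨q⟩` is the diamond operator of ANY `g' ∈ Γ₀(N q)` whose lower right entry is `≡ q` modulo `N`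
(`IsQElt`): `DN = H653.diamond hK (incl N q g')` on `X_K` and
`DQ = H653.diamond (isMid_Kq hK q) g'` on `X_{K_{N q}}`.

The identities (= the five geometric fields of helper571's `DegRelTw`; the other eight fields
are proved in `KDegDefs.lean`, `KDegDiamond.lean` and `S59/TW/H653`):

* `KT2R1Statement` : `t₂ r₁ = T`;
* `KT1R2Statement` : `⟨q⟩ t₁ r₂ = T`;
* `KUr1Statement`  : `U r₁ = r₁ T - ⟨q⟩ r₂`;
* `KUr2Statement`  : `U r₂ = q r₁`;
* `KUUStatement`   : `U² = ⟨q⟩ + U r₁ t₂ - ⟨q⟩ r₁ t₁`.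
-/

set_option autoImplicit false

namespace Fermat.Agent.S59.TW.H201

open CongruenceSubgroup Matrix.SpecialLinearGroup
open Fermat.Agent.S41.Spec Fermat.Agent.S59.TW.H653
open scoped MatrixGroups

universe u

/-- `g' ∈ Γ₀(N q)` has lower right entry `≡ q` modulo `N`. -/
def IsQElt (N q : ℕ) (g' : Gamma0 (N * q)) : Prop :=
  ((((g' : SL(2, ℤ)) 1 1 : ℤ) : ZMod N)) = (q : ZMod N)

/-- `t₂ r₁ = T_q`. -/
def KT2R1Statement : Prop :=
  ∀ (N q : ℕ) [Fact q.Prime] (_hqN : ¬ q ∣ N) (_hN : N ≠ 0) (K : Subgroup SL(2, ℤ))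
    (hK : IsMid N K) (A : Type u) [AddCommGroup A] (φ : Additive K →+ A),
    t₂K hK q (r₁K N q K φ) = TK N K q φ

/-- `⟨q⟩ t₁ r₂ = T_q`. -/
def KT1R2Statement : Prop :=
  ∀ (N q : ℕ) [Fact q.Prime] (_hqN : ¬ q ∣ N) (_hN : N ≠ 0) (K : Subgroup SL(2, ℤ))
    (hK : IsMid N K) (g' : Gamma0 (N * q)) (_hg' : IsQElt N q g')
    (A : Type u) [AddCommGroup A] (φ : Additive K →+ A),
    diamond hK (incl N q g') (t₁K N q K (r₂K hK q φ)) = TK N K q φ

/-- `U_q r₁ = r₁ T_q - ⟨q⟩ r₂`. -/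
def KUr1Statement : Prop :=
  ∀ (N q : ℕ) [Fact q.Prime] (_hqN : ¬ q ∣ N) (_hN : N ≠ 0) (K : Subgroup SL(2, ℤ))
    (hK : IsMid N K) (g' : Gamma0 (N * q)) (_hg' : IsQElt N q g')
    (A : Type u) [AddCommGroup A] (φ : Additive K →+ A),
    UK (Kq N q K) q (r₁K N q K φ) =
      r₁K N q K (TK N K q φ) - diamond (isMid_Kq hK q) g' (r₂K hK q φ)

/-- `U_q r₂ = q r₁`. -/
def KUr2Statement : Prop :=
  ∀ (N q : ℕ) [Fact q.Prime] (_hqN : ¬ q ∣ N) (_hN : N ≠ 0) (K : Subgroup SL(2, ℤ))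
    (hK : IsMid N K) (A : Type u) [AddCommGroup A] (φ : Additive K →+ A),
    UK (Kq N q K) q (r₂K hK q φ) = q • r₁K N q K φ

/-- `U_q² = ⟨q⟩ + U_q r₁ t₂ - ⟨q⟩ r₁ t₁`. -/
def KUUStatement : Prop :=
  ∀ (N q : ℕ) [Fact q.Prime] (_hqN : ¬ q ∣ N) (_hN : N ≠ 0) (K : Subgroup SL(2, ℤ))
    (hK : IsMid N K) (g' : Gamma0 (N * q)) (_hg' : IsQElt N q g')
    (A : Type u) [AddCommGroup A] (ψ : Additive (Kq N q K) →+ A),
    UK (Kq N q K) q (UK (Kq N q K) q ψ) =
      diamond (isMid_Kq hK q) g' ψ + UK (Kq N q K) q (r₁K N q K (t₂K hK q ψ)) -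
        diamond (isMid_Kq hK q) g' (r₁K N q K (t₁K N q K ψ))

/-- An element of `Γ₀(N q)` with lower right entry `≡ q` modulo `N` exists. -/
theorem exists_isQElt {N q : ℕ} (hN : N ≠ 0) (hq : q.Prime) (hqN : ¬ q ∣ N) :
    ∃ g' : Gamma0 (N * q), IsQElt N q g' := by
  have : NeZero (N * q) := ⟨Nat.mul_ne_zero hN hq.ne_zero⟩
  have hcop : Nat.Coprime q N := (Nat.Prime.coprime_iff_not_dvd hq).mpr hqN
  obtain ⟨s, hs⟩ := exists_Gamma0q_dUnit N q (ZMod.unitOfCoprime q hcop)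
  refine ⟨s, ?_⟩
  have h1 := congrArg (fun u : (ZMod N)ˣ => (u : ZMod N)) hs
  simp only [coe_dUnit, ZMod.coe_unitOfCoprime] at h1
  exact h1

end Fermat.Agent.S59.TW.H201

end
-- ===== PACK-END S59/TW/H201/KDegSpec.lean

-- ===== PACK-BEGIN S59/TW/H201/KDegLinear.lean
section




/-!
# S59 / HARD, cell TW: the operators at `Γ_H`-levels as linear maps (helper201)

`A` a module over a commutative ring `O`; `X_K(A) = Hom(K, A)` is an `O`-module.

* `r₁KL`, `r₂KL`, `t₁KL`, `t₂KL`, `TKL`, `UKL`, `diamondL` : the operators of `KDegDefs.lean` and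
  of `S59/TW/H653` as `O`-linear maps;
* `diamondL_pow_eq_one` : `⟨g⟩ ^ m = 1` if `g ^ m ∈ K`.
-/

set_option autoImplicit false

namespace Fermat.Agent.S59.TW.H201

open CongruenceSubgroup Matrix.SpecialLinearGroup
open Fermat.Agent.S41.Spec Fermat.Agent.S59.TW.H653
open scoped MatrixGroups

universe u v

section Ops

variable (O : Type v) [CommRing O] (A : Type u) [AddCommGroup A] [Module O A]

/-- Multiplication by `c` on the coefficients. -/
def coeffSmul201 (c : O) : A →+ A := DistribSMul.toAddMonoidHom A c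

variable {O A}

theorem smul_eq_coeffSmul201 {G : Type*} [AddMonoid G] (c : O) (φ : G →+ A) :
    c • φ = (coeffSmul201 O A c).comp φ := rfl

variable (O A) {N : ℕ} {K : Subgroup SL(2, ℤ)}

/-- `r₁` as a linear map. -/
def r₁KL (N q : ℕ) (K : Subgroup SL(2, ℤ)) :
    (Additive K →+ A) →ₗ[O] (Additive (Kq N q K) →+ A) where
  toFun := r₁K N q K
  map_add' _ _ := rfl
  map_smul' _ _ := rfl

/-- `r₂` as a linear map. -/
def r₂KL (hK : IsMid N K) (q : ℕ) : (Additive K →+ A) →ₗ[O] (Additive (Kq N q K) →+ A) where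
  toFun := r₂K hK q
  map_add' _ _ := rfl
  map_smul' _ _ := rfl

/-- `t₁` as a linear map. -/
noncomputable def t₁KL (N q : ℕ) (K : Subgroup SL(2, ℤ)) :
    (Additive (Kq N q K) →+ A) →ₗ[O] (Additive K →+ A) where
  toFun := t₁K N q K
  map_add' φ ψ := Fermat.Agent.S41.H581.transferAlong_add (inclKq N q K) φ ψ
  map_smul' c φ := by
    rw [smul_eq_coeffSmul201]
    exact Fermat.Agent.S41.H581.transferAlong_comp (inclKq N q K) (coeffSmul201 O A c) φ

/-- `t₂` as a linear map. -/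
noncomputable def t₂KL (hK : IsMid N K) (q : ℕ) :
    (Additive (Kq N q K) →+ A) →ₗ[O] (Additive K →+ A) where
  toFun := t₂K hK q
  map_add' φ ψ := Fermat.Agent.S41.H581.transferAlong_add (conjDeltaK hK q) φ ψ
  map_smul' c φ := by
    rw [smul_eq_coeffSmul201]
    exact Fermat.Agent.S41.H581.transferAlong_comp (conjDeltaK hK q) (coeffSmul201 O A c) φ

/-- `T_ℓ` (`ℓ ∤ N`) on `X_K(A)` as a linear map. -/
noncomputable def TKL (hK : IsMid N K) {ℓ : ℕ} [Fact ℓ.Prime] (hℓ : ¬ ℓ ∣ N) :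
    (Additive K →+ A) →ₗ[O] (Additive K →+ A) where
  toFun := TK N K ℓ
  map_add' φ ψ := TK_add hK hℓ φ ψ
  map_smul' c φ := by
    rw [smul_eq_coeffSmul201]
    exact TK_comp hK hℓ (coeffSmul201 O A c) φ

/-- `U_q` (`q ∣ N`) on `X_K(A)` as a linear map. -/
noncomputable def UKL (hK : IsMid N K) {q : ℕ} [Fact q.Prime] (hq : q ∣ N) :
    (Additive K →+ A) →ₗ[O] (Additive K →+ A) where
  toFun := UK K q
  map_add' φ ψ := UK_add hK hq φ ψ
  map_smul' c φ := by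
    rw [smul_eq_coeffSmul201]
    exact UK_comp hK hq (coeffSmul201 O A c) φ

/-- The diamond operator of `g ∈ Γ₀(N)` on `X_K(A)` as a linear map. -/
def diamondL (hK : IsMid N K) (g : Gamma0 N) : (Additive K →+ A) →ₗ[O] (Additive K →+ A) where
  toFun := diamond hK g
  map_add' _ _ := rfl
  map_smul' _ _ := rfl

@[simp] theorem r₁KL_apply (N q : ℕ) (K : Subgroup SL(2, ℤ)) (φ : Additive K →+ A) :
    r₁KL O A N q K φ = r₁K N q K φ := rfl

@[simp] theorem r₂KL_apply (hK : IsMid N K) (q : ℕ) (φ : Additive K →+ A) :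
    r₂KL O A hK q φ = r₂K hK q φ := rfl

@[simp] theorem t₁KL_apply (N q : ℕ) (K : Subgroup SL(2, ℤ)) (ψ : Additive (Kq N q K) →+ A) :
    t₁KL O A N q K ψ = t₁K N q K ψ := rfl

@[simp] theorem t₂KL_apply (hK : IsMid N K) (q : ℕ) (ψ : Additive (Kq N q K) →+ A) :
    t₂KL O A hK q ψ = t₂K hK q ψ := rfl

@[simp] theorem TKL_apply (hK : IsMid N K) {ℓ : ℕ} [Fact ℓ.Prime] (hℓ : ¬ ℓ ∣ N)
    (φ : Additive K →+ A) : TKL O A hK hℓ φ = TK N K ℓ φ := rfl

@[simp] theorem UKL_apply (hK : IsMid N K) {q : ℕ} [Fact q.Prime] (hq : q ∣ N)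
    (φ : Additive K →+ A) : UKL O A hK hq φ = UK K q φ := rfl

@[simp] theorem diamondL_apply (hK : IsMid N K) (g : Gamma0 N) (φ : Additive K →+ A) :
    diamondL O A hK g φ = diamond hK g φ := rfl

theorem diamondL_pow_apply (hK : IsMid N K) (g : Gamma0 N) (m : ℕ) (φ : Additive K →+ A) :
    ((diamondL O A hK g) ^ m) φ = diamond hK (g ^ m) φ := by
  induction m generalizing φ with
  | zero => rw [pow_zero, pow_zero, diamond_one]; rfl
  | succ m ih =>
    rw [pow_succ, Module.End.mul_apply, ih, diamondL_apply, pow_succ, diamond_mul, diamond_comm]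

/-- `⟨g⟩ ^ m = 1` if `g ^ m ∈ K`. -/
theorem diamondL_pow_eq_one (hK : IsMid N K) (g : Gamma0 N) (m : ℕ)
    (hg : ((g ^ m : Gamma0 N) : SL(2, ℤ)) ∈ K) : (diamondL O A hK g) ^ m = 1 := by
  refine LinearMap.ext fun φ => ?_
  rw [diamondL_pow_apply, diamond_of_mem hK hg]
  rfl

end Ops

end Fermat.Agent.S59.TW.H201

end
-- ===== PACK-END S59/TW/H201/KDegLinear.lean

-- ===== PACK-BEGIN S38/H264/TwistU.lean
section


/-!
# Row HARD, leaf (ST), bridge MODQ-U (helper264), part 2: the twist embedding intertwines `U_q`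

helper564's twist embedding (`H564.exists_twistEmbedding`, `exists_twistEmbeddingK`) is
re-derived with one more clause: for every `q ≠ 0` dividing the target level `M₂` which is
congruent modulo the primes of `Qs` to an integer `d` prime to `M`,

  `U_q (J f) = J g`   whenever   `g = ε(d)^m • U_q f`  as functions.

(`ψ_L(q) = ψ_L(d) = ε(d)^m`: the twisting characters only see `q` modulo the primes of `Qs`.)
-/

set_option autoImplicit false
set_option linter.deprecated false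
set_option linter.unusedSectionVars false

noncomputable section

namespace Fermat.Agent.S38.H264

open Matrix Matrix.SpecialLinearGroup CongruenceSubgroup UpperHalfPlane ModularForm
open Fermat.Agent.Lib.Newform.H803 Fermat.Agent.S59.TW.H564
open scoped MatrixGroups ModularForm

variable {k : ℤ} {M : ℕ} [NeZero M]

/-- `psiL` only depends on the classes modulo the primes of the list. -/
theorem psiL_congr {ψ : (q : ℕ) → DirichletCharacter ℂ q} (L : List ℕ) {a : ℕ} {d : ℤ}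
    (h : ∀ q ∈ L, ((a : ℕ) : ZMod q) = ((d : ℤ) : ZMod q)) :
    psiL ψ L a = (L.map fun q => ψ q ((d : ℤ) : ZMod q)).prod := by
  unfold psiL
  congr 1
  exact List.map_congr_left fun q hq => by rw [h q hq]

/-- **E4 TWIST with `U_q`** (on `S_k(Γ₁(M))[ε]`). -/
theorem exists_twistEmbeddingU (k : ℤ) {M : ℕ} [NeZero M] (Qs : List ℕ) (hnd : Qs.Nodup)
    (hQs : ∀ q ∈ Qs, q.Prime ∧ ∃ M' : ℕ, M = M' * q ∧ Nat.Coprime M' q)
    (ε : DirichletCharacter ℂ M)
    (hper : ∀ a b : ℤ, IsUnit ((a : ℤ) : ZMod M) → IsUnit ((b : ℤ) : ZMod M) →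
      (∀ q ∈ Qs, (q : ℤ) ∣ a - b) → ε ((a : ℤ) : ZMod M) = ε ((b : ℤ) : ZMod M))
    (m : ℕ) (hm : ε ^ (2 * m + 1) = 1) (M₂ : ℕ) [NeZero M₂] (hM₂ : M * Qs.prod ∣ M₂) :
    ∃ j : nebSub k M ε →ₗ[ℂ] CuspForm (Gamma0 M₂) k,
      Function.Injective j ∧
      (∀ (ℓ : ℕ) [Fact ℓ.Prime] (hℓ : ¬ ℓ ∣ M) (hℓ₂ : ¬ ℓ ∣ M₂) (f : nebSub k M ε),
        CuspForm.heckeTLin k (Fact.out : ℓ.Prime) hℓ₂ (j f) =
          j (ε ((ℓ : ℕ) : ZMod M) ^ m • TpNeb ε ℓ hℓ f)) ∧
      ∀ (q : ℕ) (_ : q ≠ 0) (hq₂ : q ∣ M₂) (d : ℤ), IsUnit ((d : ℤ) : ZMod M) →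
        (∀ q' ∈ Qs, (q' : ℤ) ∣ d - (q : ℤ)) → ∀ f g : nebSub k M ε,
        (⇑g.1 : ℍ → ℂ) = ε ((d : ℤ) : ZMod M) ^ m • heckeU k q ⇑f.1 →
        CuspForm.heckeULin k hq₂ (j f) = j g := by
  obtain ⟨L, ψ, hLnd, hLQ, hLprod, hψ, hram, hc, hd⟩ := exists_psi ε Qs hnd hQs hper m hm
  have hχ : IsCharMod M (fun d : ℤ => ε ((d : ℤ) : ZMod M)) := isCharMod_dirichlet ε
  have hLM : ∀ q ∈ L, q ∣ M := fun q hq => by
    obtain ⟨-, M', hM, -⟩ := hQs q (hLQ q hq)
    exact ⟨M', by rw [hM, mul_comm]⟩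
  have hL : ∀ q ∈ L, q ≠ 0 ∧ q ∣ M := fun q hq => ⟨(hQs q (hLQ q hq)).1.ne_zero, hLM q hq⟩
  have hMM₂ : M ∣ M₂ := (Dvd.intro _ rfl).trans hM₂
  have hΓ : Gamma0 M₂ ≤ Gamma0 (M * L.prod) := by
    intro γ hγ
    rw [mem_Gamma0_iff_dvd] at hγ ⊢
    exact (Int.natCast_dvd_natCast.mpr ((Nat.mul_dvd_mul_left M hLprod).trans hM₂)).trans hγ
  have h1 : ∀ γ ∈ Gamma0 M₂, chiL ψ (fun d : ℤ => ε ((d : ℤ) : ZMod M)) L (γ 1 1) = 1 := by
    intro γ hγ
    rw [chiL_apply]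
    exact hc _ (isUnit_cast_of_mem_Gamma0 hMM₂ hγ)
  let j : nebSub k M ε →ₗ[ℂ] CuspForm (Gamma0 M₂) k :=
    { toFun := fun f => twistLCuspForm (ψ := ψ) L hL hχ (⇑f.1) (isNeb_of_hasNeb f.2)
        (isCuspidal_of_cuspForm f.1) (Gamma0 M₂) hΓ h1
      map_add' := fun f g => by
        apply DFunLike.coe_injective
        rw [CuspForm.coe_add, coe_twistLCuspForm, coe_twistLCuspForm, coe_twistLCuspForm]
        rw [Submodule.coe_add, CuspForm.coe_add, twistL_add]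
      map_smul' := fun c f => by
        apply DFunLike.coe_injective
        rw [RingHom.id_apply, CuspForm.IsGLPos.coe_smul, coe_twistLCuspForm,
          coe_twistLCuspForm, Submodule.coe_smul, CuspForm.IsGLPos.coe_smul, twistL_smul] }
  have hj : ∀ f : nebSub k M ε, (⇑(j f) : ℍ → ℂ) = twistL k ψ L ⇑f.1 := fun f => rfl
  refine ⟨j, ?_, ?_, ?_⟩
  · rw [injective_iff_map_eq_zero]
    intro f hf
    have h0 : twistL k ψ L ⇑f.1 = 0 := by
      rw [← hj f, hf, CuspForm.coe_zero]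
    have := twistL_injective (ψ := ψ) L hLnd (fun q hq => hQs q (hLQ q hq)) hψ hχ hram
      (isNeb_of_hasNeb f.2) h0
    apply Subtype.ext
    apply DFunLike.coe_injective
    rw [this]
    rfl
  · intro ℓ _ hℓ hℓ₂ f
    have hℓp : ℓ.Prime := Fact.out
    apply DFunLike.coe_injective
    rw [CuspForm.coe_heckeTLin_apply, hj, hj]
    have hunit : IsUnit (((ℓ : ℕ) : ℤ) : ZMod M) := by
      rw [Int.cast_natCast, ZMod.isUnit_iff_coprime]
      exact (Nat.Prime.coprime_iff_not_dvd hℓp).mpr hℓ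
    have hLℓ : ∀ q ∈ L, q ≠ 0 ∧ IsUnit ((ℓ : ℕ) : ZMod q) := fun q hq => by
      refine ⟨(hL q hq).1, ?_⟩
      have := isUnit_intCast_of_dvd (hLM q hq) hunit
      rwa [Int.cast_natCast] at this
    have hpsi : psiL ψ L ℓ = ε ((ℓ : ℕ) : ZMod M) ^ m := by
      have := hd (ℓ : ℤ) hunit
      simp only [Int.cast_natCast] at this
      exact this
    have hcc : ε ((ℓ : ℕ) : ZMod M) * psiL ψ L ℓ ^ 2 = 1 := by
      have h2 := hc (ℓ : ℤ) hunit
      simp only [Int.cast_natCast] at h2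
      rw [list_prod_map_pow] at h2
      exact h2
    rw [heckeT_twistL' (ψ := ψ) L hℓp.ne_zero hLℓ ((isNeb_of_hasNeb f.2).isPer hχ) hcc, hpsi]
    rw [Submodule.coe_smul, CuspForm.IsGLPos.coe_smul, twistL_smul, coe_TpNeb,
      S48.H548.coe_TpL_of_hasNeb hℓ f.1 f.2]
  · intro q hq0 hq₂ d hdu hdq f g hfg
    apply DFunLike.coe_injective
    rw [CuspForm.coe_heckeULin_apply, hj, hj, hfg]
    have hcast : ∀ q' ∈ L, ((q : ℕ) : ZMod q') = ((d : ℤ) : ZMod q') := fun q' hq' => by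
      have h2 := hdq q' (hLQ q' hq')
      have h3 : (((d - (q : ℤ) : ℤ)) : ZMod q') = 0 :=
        (ZMod.intCast_zmod_eq_zero_iff_dvd _ _).mpr h2
      rw [Int.cast_sub, Int.cast_natCast, sub_eq_zero] at h3
      exact h3.symm
    have hLq : ∀ q' ∈ L, q' ≠ 0 ∧ IsUnit ((q : ℕ) : ZMod q') := fun q' hq' => by
      refine ⟨(hL q' hq').1, ?_⟩
      rw [hcast q' hq']
      exact isUnit_intCast_of_dvd (hLM q' hq') hdu
    have hpsi : psiL ψ L q = ε ((d : ℤ) : ZMod M) ^ m := by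
      rw [psiL_congr L hcast]
      exact hd d hdu
    rw [heckeU_twistL (ψ := ψ) L hq0 hLq ((isNeb_of_hasNeb f.2).isPer hχ), hpsi, twistL_smul]

/-- `exists_twistEmbeddingU` with the hypothesis "`ε` is trivial on the units `≡ 1 mod ∏ Qs`",
on the nebentypus-`ε` part of `S_k(K)`, `Γ₁(M) ≤ K`. -/
theorem exists_twistEmbeddingKU (k : ℤ) {M : ℕ} [NeZero M] {K : Subgroup SL(2, ℤ)}
    (hge : Gamma1 M ≤ K) (Qs : List ℕ) (hnd : Qs.Nodup)
    (hQs : ∀ q ∈ Qs, q.Prime ∧ ∃ M' : ℕ, M = M' * q ∧ Nat.Coprime M' q)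
    (ε : DirichletCharacter ℂ M)
    (hε : ∀ d : ℤ, ((Qs.prod : ℕ) : ℤ) ∣ d - 1 → IsUnit ((d : ℤ) : ZMod M) →
      ε ((d : ℤ) : ZMod M) = 1)
    (m : ℕ) (hm : ε ^ (2 * m + 1) = 1) (M₂ : ℕ) [NeZero M₂] (hM₂ : M * Qs.prod ∣ M₂) :
    ∃ J : nebK k K ε →ₗ[ℂ] CuspForm (Gamma0 M₂) k,
      Function.Injective J ∧
      (∀ (ℓ : ℕ) [Fact ℓ.Prime] (_ : ¬ ℓ ∣ M) (hℓ₂ : ¬ ℓ ∣ M₂) (f g : nebK k K ε),
        (⇑g.1 : ℍ → ℂ) = ε ((ℓ : ℕ) : ZMod M) ^ m •
          (heckeU k ℓ ⇑f.1 +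
            ε ((ℓ : ℕ) : ZMod M) • ((⇑f.1 : ℍ → ℂ) ∣[k] heckeDiagMatrix ℓ)) →
        CuspForm.heckeTLin k (Fact.out : ℓ.Prime) hℓ₂ (J f) = J g) ∧
      ∀ (q : ℕ) (_ : q ≠ 0) (hq₂ : q ∣ M₂) (d : ℤ), IsUnit ((d : ℤ) : ZMod M) →
        (∀ q' ∈ Qs, (q' : ℤ) ∣ d - (q : ℤ)) → ∀ f g : nebK k K ε,
        (⇑g.1 : ℍ → ℂ) = ε ((d : ℤ) : ZMod M) ^ m • heckeU k q ⇑f.1 →
        CuspForm.heckeULin k hq₂ (J f) = J g := by
  obtain ⟨j, hj, hT, hU⟩ := exists_twistEmbeddingU k Qs hnd hQs ε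
    (periodic_of_trivial Qs hnd (fun q hq => (hQs q hq).1) ε hε) m hm M₂ hM₂
  refine ⟨j ∘ₗ resNeb hge ε, hj.comp (resNeb_injective hge ε), ?_, ?_⟩
  · intro ℓ _ hℓ hℓ₂ f g hfg
    rw [LinearMap.comp_apply, LinearMap.comp_apply, hT ℓ hℓ hℓ₂ (resNeb hge ε f)]
    congr 1
    apply Subtype.ext
    apply DFunLike.coe_injective
    rw [coe_resNeb, hfg, Submodule.coe_smul, CuspForm.IsGLPos.coe_smul, coe_TpNeb,
      S48.H548.coe_TpL_of_hasNeb hℓ _ (resNeb hge ε f).2, coe_resNeb]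
  · intro q hq0 hq₂ d hdu hdq f g hfg
    rw [LinearMap.comp_apply, LinearMap.comp_apply]
    exact hU q hq0 hq₂ d hdu hdq (resNeb hge ε f) (resNeb hge ε g)
      (by rw [coe_resNeb, coe_resNeb, hfg])

end Fermat.Agent.S38.H264

end
end
-- ===== PACK-END S38/H264/TwistU.lean

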