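import Fermat.Prelude.Def_GaloisRep_Adic
import Mathlib
import Fermat.Agent.Pack.S43C.E0L0
import Fermat.Agent.Pack.S43GC.G0E11L3
import Fermat.Agent.Pack.S44C.G0E21L3
import Fermat.Agent.Pack.S44C.G0E12L2
import Fermat.Agent.Pack.S43GC.G0E13L1
import Fermat.Agent.Pack.S43C.E0L1
import Fermat.Agent.Pack.S43GC.G0E0L2
import Fermat.Agent.Pack.S44C.G0E14L2
import Fermat.Agent.Pack.S43GC.G0E7L0
import Fermat.Agent.Pack.S43GC.G0E9L2
import Fermat.Agent.Pack.S43GC.G1E0L0
import Fermat.Agent.Pack.S43GC.G0E4L1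
import Fermat.Agent.Pack.S43MC.G0E17L1
import Fermat.Agent.Pack.S43GC.G0E13L3
import Fermat.Agent.Pack.S43C.E0L2
import Fermat.Agent.Pack.S43MC.G0E14L1
import Fermat.Agent.Pack.S43MC.G0E21L1
import Fermat.Agent.Pack.S43MC.G0E23L3
import Fermat.Agent.Pack.S43MC.G0E3L1
import Fermat.Agent.Pack.S43MC.G0E21L2
import Fermat.Agent.Pack.S43C.E1L2
import Fermat.Agent.Pack.Fast891

-- ===== PACK-BEGIN S38/IA/Gal/H1/TameGen.lean
section





/-!
# IA-GAL / LOC-GEN (helper1), part 1: existence of tame pairs and the tame character of `σ`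

* `valuation_sub_one_eq_one` : a nontrivial `p`-th root of unity `u` has `v (u - 1) = 1` at a
  valuation ring in which `p` is a unit.
* `exists_inertia_moves` : some element of `I_P` moves a given `p`-th root of `q`
  (the inertia field is unramified, landed `A2.IF.H429.exists_zpow_of_mem_inertiaField`).
* `locGenExists` : `LocGenExists`.
* `IsTamePair.tameHom_ne_one`, `IsTamePair.isPrimitiveRoot_tameHom` : the tame character of
  `σ` at a `p ^ m`-th root of `q` is a primitive `p ^ m`-th root of unity.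
-/

set_option autoImplicit false
set_option linter.style.haveILetI false

namespace Fermat.Agent.S38.IA.Gal

open Fermat.Agent.S56 Fermat.Agent.S56.H794 Fermat.Agent.A2.H708

attribute [local instance] isAlgebraic_Qbar_h794 isGalois_Qbar_h794

section general

variable {L : Type*} [Field L] (A : ValuationSubring L)

/-- A root of unity has valuation one. -/
theorem valuation_eq_one_of_pow_eq_one {u : L} {n : ℕ} (hn : n ≠ 0) (hu : u ^ n = 1) :
    A.valuation u = 1 := by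
  have h : A.valuation u ^ n = 1 := by rw [← map_pow, hu, map_one]
  rcases lt_trichotomy (A.valuation u) 1 with h1 | h1 | h1
  · exact absurd h (pow_lt_one₀ zero_le h1 hn).ne
  · exact h1
  · exact absurd h (one_lt_pow₀ h1 hn).ne'

/-- A nontrivial `n`-th root of unity is not congruent to `1` modulo the maximal ideal of a
valuation ring in which `n` is a unit. -/
theorem valuation_sub_one_eq_one {n : ℕ} (hnv : A.valuation (n : L) = 1) {u : L}
    (hu : u ^ n = 1) (hu1 : u ≠ 1) : A.valuation (u - 1) = 1 := by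
  have hn0 : n ≠ 0 := by
    rintro rfl
    simp at hnv
  have hvu : A.valuation u = 1 := valuation_eq_one_of_pow_eq_one A hn0 hu
  have hgs : ∀ i : ℕ, A.valuation (∑ j ∈ Finset.range i, u ^ j) ≤ 1 := fun i =>
    Valuation.map_sum_le _ (fun j _ => by rw [map_pow, hvu, one_pow])
  have hle : A.valuation (u - 1) ≤ 1 := by
    have := A.valuation.map_sub u 1
    rw [hvu, map_one, max_self] at this
    exact this
  have hsum0 : ∑ i ∈ Finset.range n, u ^ i = 0 := by
    have h := mul_geom_sum u n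
    rw [hu, sub_self] at h
    rcases mul_eq_zero.mp h with h | h
    · exact absurd (sub_eq_zero.mp h) hu1
    · exact h
  have hsum : ∑ i ∈ Finset.range n, (u ^ i - 1) = -(n : L) := by
    rw [Finset.sum_sub_distrib, hsum0, Finset.sum_const, Finset.card_range, nsmul_eq_mul,
      mul_one, zero_sub]
  have hterm : ∀ i ∈ Finset.range n, A.valuation (u ^ i - 1) ≤ A.valuation (u - 1) := by
    intro i _
    rw [← mul_geom_sum u i, map_mul]
    exact mul_le_of_le_one_right zero_le (hgs i)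
  have h1 : A.valuation (-(n : L)) ≤ A.valuation (u - 1) := by
    rw [← hsum]
    exact Valuation.map_sum_le _ hterm
  rw [Valuation.map_neg, hnv] at h1
  exact le_antisymm hle h1

end general

section tame

variable {K L : Type*} [Field K] [Field L] [Algebra K L] [Algebra.IsAlgebraic K L]
  (A : ValuationSubring L)

/-- If `τ ∈ I_A` fixes `c ^ n`, with `n` a unit of `A`, but moves `c`, then the tame character
of `τ` is nontrivial at `c`. -/
theorem tameHom_ne_one_of_pow_fixed {τ : L ≃ₐ[K] L} (hτ : τ ∈ A.inertiaSubgroupIn K) {n : ℕ}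
    (hnv : A.valuation (n : L) = 1) (c : Lˣ) (hc : τ ((c : L) ^ n) = (c : L) ^ n)
    (hne : τ (c : L) ≠ c) : tameHom A hτ c ≠ 1 := by
  intro h1
  rw [tameHom_eq_one_iff] at h1
  have hc0 : (c : L) ≠ 0 := c.ne_zero
  have hu : (τ (c : L) / c) ^ n = 1 := by
    rw [div_pow, ← map_pow, hc, div_self (pow_ne_zero n hc0)]
  have hu1 : τ (c : L) / c ≠ 1 := by
    intro h
    exact hne ((div_eq_one_iff_eq hc0).mp h)
  have hv := valuation_sub_one_eq_one A hnv hu hu1
  have h2 : τ (c : L) - c = (τ (c : L) / c - 1) * c := by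
    field_simp
  rw [h2, map_mul, hv, one_mul] at h1
  exact lt_irrefl _ h1

omit [Algebra.IsAlgebraic K L] in
/-- Elements of the inertia group fix the `n`-th roots of unity, `n` a unit of `A`. -/
theorem apply_eq_of_pow_eq_one {τ : L ≃ₐ[K] L} (hτ : τ ∈ A.inertiaSubgroupIn K) {n : ℕ}
    (hnv : A.valuation (n : L) = 1) {u : L} (hu : u ^ n = 1) : τ u = u := by
  by_contra hne
  have hn0 : n ≠ 0 := by
    rintro rfl
    simp at hnv
  have hu0 : u ≠ 0 := by
    rintro rfl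
    rw [zero_pow hn0] at hu
    exact zero_ne_one hu
  have hvu : A.valuation u = 1 := valuation_eq_one_of_pow_eq_one A hn0 hu
  have hw : (τ u / u) ^ n = 1 := by
    rw [div_pow, ← map_pow, hu, map_one, div_one]
  have hw1 : τ u / u ≠ 1 := fun h => hne ((div_eq_one_iff_eq hu0).mp h)
  have hv := valuation_sub_one_eq_one A hnv hw hw1
  have h2 : τ u - u = (τ u / u - 1) * u := by
    field_simp
  have h3 := valuation_sub_lt_one_of_mem_inertiaIn A hτ hvu.le
  rw [h2, map_mul, hv, hvu, one_mul] at h3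
  exact lt_irrefl _ h3

end tame

section rat

variable {p q : ℕ} {P : ValuationSubring Qb}

/-- The valuation of `q` at `P | q` is `< 1` and nonzero. -/
theorem valuation_prime_lt_one (hP : P.LiesOverPrime q) : P.valuation (q : Qb) < 1 :=
  P.mem_nonunits_iff.mp hP

theorem valuation_prime_ne_zero (hq : q.Prime) : P.valuation (q : Qb) ≠ 0 :=
  (Valuation.ne_zero_iff _).mpr (Nat.cast_ne_zero.mpr hq.ne_zero)

/-- A root of `q` is not a unit at `P | q`. -/
theorem valuation_root_ne_one (hP : P.LiesOverPrime q) {n : ℕ} {c : Qb}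
    (hc : c ^ n = (q : Qb)) : P.valuation c ≠ 1 := by
  intro h
  have h1 : P.valuation (q : Qb) = 1 := by rw [← hc, map_pow, h, one_pow]
  exact (valuation_prime_lt_one hP).ne h1

/-- Some element of the inertia group at `P | q` moves a given `p`-th root of `q`. -/
theorem exists_inertia_moves (hp : p.Prime) (hq : q.Prime) (hP : P.LiesOverPrime q)
    {c : Qb} (hc : c ^ p = (q : Qb)) : ∃ σ ∈ P.inertiaSubgroupIn ℚ, σ c ≠ c := by
  by_contra hcon
  have hfix : ∀ σ ∈ P.inertiaSubgroupIn ℚ, σ c = c := by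
    intro σ hσ
    by_contra h
    exact hcon ⟨σ, hσ, h⟩
  have hq0 : (q : Qb) ≠ 0 := Nat.cast_ne_zero.mpr hq.ne_zero
  have hc0 : c ≠ 0 := by
    rintro rfl
    rw [zero_pow hp.ne_zero] at hc
    exact hq0 hc.symm
  have hmem : c ∈ Fermat.Agent.A2.IF.H429.inertiaField P :=
    (Fermat.Agent.A2.IF.H429.mem_inertiaField_iff P).mpr hfix
  obtain ⟨k, hk⟩ := Fermat.Agent.A2.IF.H429.exists_zpow_of_mem_inertiaField P q hq hP c hmem hc0
  have hvq0 : P.valuation (q : Qb) ≠ 0 := valuation_prime_ne_zero hq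
  have hvq1 : P.valuation (q : Qb) < 1 := valuation_prime_lt_one hP
  have hvc : P.valuation c = P.valuation (q : Qb) ^ k := by
    rw [map_div₀, map_zpow₀] at hk
    exact (div_eq_one_iff_eq (zpow_ne_zero k hvq0)).mp hk
  have h1 : P.valuation (q : Qb) ^ (k * (p : ℤ) - 1) = 1 := by
    rw [zpow_sub₀ hvq0, zpow_one, zpow_mul, ← hvc, zpow_natCast, ← map_pow, hc,
      div_self hvq0]
  have h2 := (zpow_eq_one_iff_right₀ (zero_le) hvq1.ne).mp h1
  have h3 : (p : ℤ) ∣ 1 := ⟨k, by linarith⟩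
  have h4 : p ∣ 1 := by exact_mod_cast h3
  exact hp.one_lt.ne' (Nat.dvd_one.mp h4)

/-- **LOC-GEN, existence of tame pairs.** -/
theorem locGenExists : LocGenExists := by
  intro p q hp hq hpq P hP
  obtain ⟨φ, hφ⟩ := Fermat.Agent.S37.H99.exists_isFrobeniusAt q hq P hP
  obtain ⟨c₀, hc₀⟩ := IsAlgClosed.exists_pow_nat_eq (q : Qb) hp.pos
  obtain ⟨σ, hσ, hσc⟩ := exists_inertia_moves hp hq hP hc₀
  refine ⟨φ, σ, hφ, hσ, fun c hc hfix => hσc ?_⟩
  have hpv : P.valuation ((p : ℕ) : Qb) = 1 := valuation_prime_eq_one hq hP hp hpq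
  have hq0 : (q : Qb) ≠ 0 := Nat.cast_ne_zero.mpr hq.ne_zero
  have hc0 : c ≠ 0 := by
    rintro rfl
    rw [zero_pow hp.ne_zero] at hc
    exact hq0 hc.symm
  have hu : (c₀ / c) ^ p = 1 := by
    rw [div_pow, hc, hc₀, div_self hq0]
  have hσu := apply_eq_of_pow_eq_one P hσ hpv hu
  have h1 : c₀ = c₀ / c * c := by field_simp
  rw [h1, map_mul, hσu, hfix]

/-- The tame character of `σ` is nontrivial at every `p`-th root of `q`. -/
theorem IsTamePair.tameHom_ne_one {φ σ : GQ} (h : IsTamePair p q P φ σ) (hp : p.Prime)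
    (hq : q.Prime) (hpq : p ≠ q) (hP : P.LiesOverPrime q) (c : Qbˣ)
    (hc : (c : Qb) ^ p = (q : Qb)) : tameHom P h.mem c ≠ 1 := by
  have hpv : P.valuation ((p : ℕ) : Qb) = 1 := valuation_prime_eq_one hq hP hp hpq
  refine tameHom_ne_one_of_pow_fixed P h.mem hpv c ?_ (h.moves c hc)
  rw [hc]
  exact map_natCast σ q

/-- The tame character of any element of `I_P` at a `p ^ m`-th root of `q` is a
`p ^ m`-th root of unity. -/
theorem tameHom_root_pow_eq_one {τ : GQ} (hτ : τ ∈ P.inertiaSubgroupIn ℚ) (m : ℕ) (c : Qbˣ)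
    (hc : (c : Qb) ^ p ^ m = (q : Qb)) : tameHom P hτ c ^ p ^ m = 1 := by
  refine tameHom_pow_eq_one P hτ c (p ^ m) (q : ℚ) 1 (map_one _) ?_
  rw [hc, mul_one]
  exact (map_natCast (algebraMap ℚ Qb) q).symm

/-- The tame character of `σ` at a `p ^ (m + 1)`-th root of `q` is a primitive
`p ^ (m + 1)`-th root of unity. -/
theorem IsTamePair.isPrimitiveRoot_tameHom {φ σ : GQ} (h : IsTamePair p q P φ σ) (hp : p.Prime)
    (hq : q.Prime) (hpq : p ≠ q) (hP : P.LiesOverPrime q) (m : ℕ) (c : Qbˣ)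
    (hc : (c : Qb) ^ p ^ (m + 1) = (q : Qb)) :
    IsPrimitiveRoot (tameHom P h.mem c) (p ^ (m + 1)) := by
  haveI : Fact p.Prime := ⟨hp⟩
  have h1 : tameHom P h.mem c ^ p ^ (m + 1) = 1 := tameHom_root_pow_eq_one h.mem (m + 1) c hc
  have h2 : ¬ tameHom P h.mem c ^ p ^ m = 1 := by
    rw [← map_pow]
    refine h.tameHom_ne_one hp hq hpq hP (c ^ p ^ m) ?_
    rw [Units.val_pow_eq_pow_val, ← pow_mul, ← pow_succ]
    exact hc
  have hord := orderOf_eq_prime_pow h2 h1
  rw [← hord]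
  exact IsPrimitiveRoot.orderOf _

end rat

end Fermat.Agent.S38.IA.Gal

end
-- ===== PACK-END S38/IA/Gal/H1/TameGen.lean

-- ===== PACK-BEGIN S38/IA/Gal/H1/LocGen.lean
section




/-!
# IA-GAL / LOC-GEN (helper1), part 2: a tame pair generates the decomposition group in every
finite-level quotient with `p`-power inertia

Proofs of the `Prop`s of `Fermat/Agent/S38/IA/Gal/LocGenSpec.lean`:
`locGenRel`, `locGenInertia`, `locGenDecomp`, `locGenAgree`, `locGenCocycle`
(and `locGenExists` in `TameGen.lean`).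
-/

set_option autoImplicit false
set_option linter.style.haveILetI false

namespace Fermat.Agent.S38.IA.Gal

open Fermat.Agent.S56 Fermat.Agent.S56.H794 Fermat.Agent.A2.H708

attribute [local instance] isAlgebraic_Qbar_h794 isGalois_Qbar_h794

universe u

variable {p q : ℕ} {P : ValuationSubring Qb} {G : Type u} [Group G] {f : GQ →* G}

/-- `p`-power exponent on inertia implies prime-to-residue-characteristic exponent. -/
theorem PPowOnInertia.primeToResChar (hp : p.Prime) (hq : q.Prime) (hpq : p ≠ q)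
    (hP : P.LiesOverPrime q) (hf : PPowOnInertia p P f) : PrimeToResChar P f := by
  intro τ hτ
  obtain ⟨m, hm⟩ := hf τ hτ
  refine ⟨p ^ m, ?_, hm⟩
  apply valuation_natCast_eq_one_of_not_dvd P hq hP
  intro hdvd
  have := (Nat.prime_dvd_prime_iff_eq hq hp).mp (hq.dvd_of_dvd_pow hdvd)
  exact hpq this.symm

/-- If `x ^ p ^ m = 1` then `x ^ p ^ n = 1` for `n ≥ m`. -/
theorem pow_prime_pow_eq_one_of_le {M : Type*} [Monoid M] {x : M} {m n : ℕ} (hmn : m ≤ n)
    (hx : x ^ p ^ m = 1) : x ^ p ^ n = 1 := by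
  obtain ⟨d, rfl⟩ := Nat.exists_eq_add_of_le hmn
  rw [pow_add, pow_mul, hx, one_pow]

/-- **LOC-GEN, the tame relation.** -/
theorem locGenRel : LocGenRel.{u} := by
  intro p q hp hq hpq P hP φ σ h G _ f hf hpow
  exact map_conj_frobenius hf (hpow.primeToResChar hp hq hpq hP) h.frob h.mem

/-- **LOC-GEN, generation of inertia.** -/
theorem locGenInertia : LocGenInertia.{u} := by
  intro p q hp hq hpq P hP φ σ h G _ f hf hpow τ hτ
  have hprime : PrimeToResChar P f := hpow.primeToResChar hp hq hpq hP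
  obtain ⟨m₁, hm₁⟩ := hpow τ hτ
  obtain ⟨m₂, hm₂⟩ := hpow σ h.mem
  -- a common exponent `p ^ (m + 1)`
  set m : ℕ := max m₁ m₂ with hm
  have hτm : f τ ^ p ^ (m + 1) = 1 :=
    pow_prime_pow_eq_one_of_le ((le_max_left m₁ m₂).trans (Nat.le_succ m)) hm₁
  have hσm : f σ ^ p ^ (m + 1) = 1 :=
    pow_prime_pow_eq_one_of_le ((le_max_right m₁ m₂).trans (Nat.le_succ m)) hm₂
  -- a `p ^ (m + 1)`-th root of `q`
  obtain ⟨c₁', hc₁'⟩ := IsAlgClosed.exists_pow_nat_eq (q : Qb) (pow_pos hp.pos (m + 1))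
  have hq0 : (q : Qb) ≠ 0 := Nat.cast_ne_zero.mpr hq.ne_zero
  have hc₁0 : c₁' ≠ 0 := by
    rintro rfl
    rw [zero_pow (pow_pos hp.pos (m + 1)).ne'] at hc₁'
    exact hq0 hc₁'.symm
  set c₁ : Qbˣ := Units.mk0 c₁' hc₁0 with hc₁def
  have hc₁ : (c₁ : Qb) ^ p ^ (m + 1) = (q : Qb) := hc₁'
  have hζ : IsPrimitiveRoot (tameHom P h.mem c₁) (p ^ (m + 1)) :=
    h.isPrimitiveRoot_tameHom hp hq hpq hP m c₁ hc₁
  have hξ : tameHom P hτ c₁ ^ p ^ (m + 1) = 1 := tameHom_root_pow_eq_one hτ (m + 1) c₁ hc₁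
  have hζ' : IsPrimitiveRoot
      ((tameHom P h.mem c₁ : (IsLocalRing.ResidueField P)ˣ) : IsLocalRing.ResidueField P)
      (p ^ (m + 1)) := IsPrimitiveRoot.coe_units_iff.mpr hζ
  haveI : NeZero (p ^ (m + 1)) := ⟨(pow_pos hp.pos (m + 1)).ne'⟩
  obtain ⟨j, -, hj⟩ := hζ'.eq_pow_of_pow_eq_one
    (ξ := ((tameHom P hτ c₁ : (IsLocalRing.ResidueField P)ˣ) : IsLocalRing.ResidueField P))
    (by rw [← Units.val_pow_eq_pow_val, hξ, Units.val_one])
  have hj' : tameHom P h.mem c₁ ^ j = tameHom P hτ c₁ :=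
    Units.ext (by rw [Units.val_pow_eq_pow_val]; exact hj)
  refine ⟨j, ?_⟩
  have hc₁U : c₁ ∉ P.unitGroup := by
    intro hU
    exact valuation_root_ne_one hP hc₁ ((ValuationSubring.mem_unitGroup_iff P c₁).mp hU)
  have hγ : τ * (σ ^ j)⁻¹ ∈ P.inertiaSubgroupIn ℚ := mul_mem hτ (inv_mem (pow_mem h.mem j))
  have h1 : f (τ * (σ ^ j)⁻¹) = 1 := by
    apply map_eq_one_of_tameHom_eq_one hf hprime hγ
    intro c hcE
    rw [tameHom_mul P hτ (inv_mem (pow_mem h.mem j)), tameHom_inv P (pow_mem h.mem j),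
      tameHom_pow P h.mem]
    obtain ⟨a, b, hab, hmem⟩ := exists_coprime_zpow_div_mem_unitGroup (K := ℚ) P
      (rankOneOver_rat P hq hP) c c₁ hc₁U
    have hv : P.valuation (((c ^ a / c₁ ^ b : Qbˣ)) : Qb) = 1 :=
      (ValuationSubring.mem_unitGroup_iff P _).mp hmem
    have hxa : tameHom P hτ c ^ a = tameHom P hτ c₁ ^ b := by
      have := tameHom_eq_one_of_valuation_eq_one P hτ _ hv
      rwa [map_div, map_zpow, map_zpow, div_eq_one] at this
    have hya : tameHom P h.mem c ^ a = tameHom P h.mem c₁ ^ b := by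
      have := tameHom_eq_one_of_valuation_eq_one P h.mem _ hv
      rwa [map_div, map_zpow, map_zpow, div_eq_one] at this
    have hxN : tameHom P hτ c ^ p ^ (m + 1) = 1 :=
      tameHom_pow_eq_one_of_map_pow_eq_one hτ hτm c hcE
    have hyN : tameHom P h.mem c ^ p ^ (m + 1) = 1 :=
      tameHom_pow_eq_one_of_map_pow_eq_one h.mem hσm c hcE
    set x := tameHom P hτ c with hx
    set y := tameHom P h.mem c with hy
    set ζ := tameHom P h.mem c₁ with hζdef
    set ξ := tameHom P hτ c₁ with hξdef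
    have hua : (x * (y ^ j)⁻¹) ^ a = 1 := by
      rw [mul_zpow, inv_zpow, ← zpow_natCast y j, ← zpow_mul, mul_comm (j : ℤ) a, zpow_mul,
        hxa, hya, ← hj', ← zpow_natCast ζ j, ← zpow_mul, ← zpow_mul, mul_comm (j : ℤ) b,
        mul_inv_cancel]
    have huN : (x * (y ^ j)⁻¹) ^ ((p ^ (m + 1) : ℕ) : ℤ) = 1 := by
      rw [zpow_natCast, mul_pow, inv_pow, ← pow_mul, mul_comm j (p ^ (m + 1)), pow_mul, hxN,
        hyN, one_pow, inv_one, mul_one]
    by_cases hdvd : (p : ℤ) ∣ a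
    · exfalso
      -- then `ζ ^ (b * p ^ m) = 1`, so `p ∣ b`
      obtain ⟨a', ha'⟩ := hdvd
      have h3 : ζ ^ (b * ((p ^ m : ℕ) : ℤ)) = 1 := by
        rw [zpow_mul, ← hya, ha', ← zpow_mul, mul_comm (p : ℤ) a', mul_assoc, mul_comm a',
          zpow_mul]
        have : (p : ℤ) * ((p ^ m : ℕ) : ℤ) = ((p ^ (m + 1) : ℕ) : ℤ) := by
          push_cast
          ring
        rw [this, zpow_natCast, hyN, one_zpow]
      have h4 := (hζ.zpow_eq_one_iff_dvd _).mp h3
      have h5 : (p : ℤ) ∣ b := by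
        have hpm : ((p ^ m : ℕ) : ℤ) ≠ 0 := by exact_mod_cast (pow_pos hp.pos m).ne'
        have h6 : ((p ^ (m + 1) : ℕ) : ℤ) = (p : ℤ) * ((p ^ m : ℕ) : ℤ) := by
          push_cast
          ring
        rw [h6] at h4
        exact (mul_dvd_mul_iff_right hpm).mp h4
      have hpu : IsUnit (p : ℤ) := hab.isUnit_of_dvd' ⟨a', ha'⟩ h5
      have hp1 : p = 1 := by
        have := Int.natAbs_of_isUnit hpu
        simpa using this
      exact hp.one_lt.ne' hp1
    · have hcop : IsCoprime a ((p ^ (m + 1) : ℕ) : ℤ) := by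
        have hprime : Prime (p : ℤ) := Nat.prime_iff_prime_int.mp hp
        have h7 : IsCoprime a (p : ℤ) := (hprime.coprime_iff_not_dvd.mpr hdvd).symm
        rw [Nat.cast_pow]
        exact h7.pow_right
      exact eq_one_of_zpow_eq_one_of_isCoprime _ hcop hua huN
  rw [map_mul, map_inv, map_pow, mul_inv_eq_one] at h1
  exact h1

/-- **LOC-GEN, generation of the decomposition group.** -/
theorem locGenDecomp : LocGenDecomp.{u} := by
  intro p q hp hq hpq P hP φ σ h G _ f hf hpow τ hτ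
  obtain ⟨E, hE, hEf⟩ := hf
  haveI := hE
  obtain ⟨n, ι, hι, hτι⟩ := Fermat.Agent.S56.H606.map_mem_decomposition_eq f hq hP E hEf
    h.frob hτ
  obtain ⟨j, hj⟩ := locGenInertia p q hp hq hpq P hP φ σ h G f ⟨E, hE, hEf⟩ hpow ι hι
  exact ⟨n, j, by rw [hτι, hj]⟩

/-- **LOC-GEN, agreement.**  Two homomorphisms agreeing at `φ` and `σ` agree on `D_P`. -/
theorem locGenAgree : LocGenAgree.{u} := by
  intro p q hp hq hpq P hP φ σ h G _ f g hf hfp hg hgp hφ hσ τ hτ
  have hF : FiniteLevel (f.prod g) := by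
    obtain ⟨E₁, hE₁, h₁⟩ := hf
    obtain ⟨E₂, hE₂, h₂⟩ := hg
    haveI := hE₁
    haveI := hE₂
    refine ⟨E₁ ⊔ E₂, IntermediateField.finiteDimensional_sup E₁ E₂, fun τ hτ => ?_⟩
    rw [MonoidHom.prod_apply, Prod.mk_eq_one]
    exact ⟨h₁ τ (fun x hx => hτ x ((le_sup_left : E₁ ≤ E₁ ⊔ E₂) hx)),
      h₂ τ (fun x hx => hτ x ((le_sup_right : E₂ ≤ E₁ ⊔ E₂) hx))⟩
  have hFp : PPowOnInertia p P (f.prod g) := by
    intro ι hι
    obtain ⟨m₁, hm₁⟩ := hfp ι hι
    obtain ⟨m₂, hm₂⟩ := hgp ι hι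
    refine ⟨max m₁ m₂, ?_⟩
    rw [MonoidHom.prod_apply, Prod.pow_mk, Prod.mk_eq_one]
    exact ⟨pow_prime_pow_eq_one_of_le (le_max_left m₁ m₂) hm₁,
      pow_prime_pow_eq_one_of_le (le_max_right m₁ m₂) hm₂⟩
  obtain ⟨n, j, hnj⟩ := locGenDecomp p q hp hq hpq P hP φ σ h (G × G) (f.prod g) hF hFp τ hτ
  rw [MonoidHom.prod_apply, MonoidHom.prod_apply, MonoidHom.prod_apply, Prod.pow_mk,
    Prod.pow_mk, Prod.mk_mul_mk, Prod.mk.injEq] at hnj
  rw [hnj.1, hnj.2, hφ, hσ]

section cocycle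

open scoped TensorProduct

variable {k : Type} [Field k] {V : Type} [AddCommGroup V] [Module k V]

/-- Powers of `dualEnd A 0`. -/
theorem dualEnd_zero_pow (A : Module.End k V) (n : ℕ) :
    dualEnd A (0 : Module.End k V) ^ n = dualEnd (A ^ n) 0 := by
  induction n with
  | zero => rw [pow_zero, pow_zero, dualEnd_one_zero]
  | succ n ih =>
    rw [pow_succ, ih, dualEnd_mul, mul_zero, zero_mul, add_zero, ← pow_succ]

/-- **LOC-GEN, cocycle form.** -/
theorem locGenCocycle : LocGenCocycle := by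
  intro p q hp hq hpq P hP φ σ h k _ ρbar hpk hunr c hc hcφ hcσ τ hτ
  have hfl : FiniteLevel (liftUnits hc) := finiteLevel_liftUnits hc
  have hpow : PPowOnInertia p P (liftUnits hc) := by
    intro ι hι
    refine ⟨1, ?_⟩
    apply Units.ext
    rw [pow_one, Units.val_pow_eq_pow_val, coe_liftUnits, Units.val_one, liftEnd_eq_dualEnd,
      hunr ι hι, mul_one]
    have hN : dualEnd (0 : Module.End k ρbar.V) (c ι) * dualEnd (0 : Module.End k ρbar.V) (c ι)
        = 0 := by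
      simp only [dualEnd_mul, zero_mul, mul_zero, add_zero, dualEnd_zero_zero]
    have h1 : dualEnd (1 : Module.End k ρbar.V) (c ι) =
        1 + dualEnd (0 : Module.End k ρbar.V) (c ι) := by
      rw [← dualEnd_one_zero, dualEnd_add, add_zero, zero_add]
    have key := one_add_pow_of_sq_zero
      (R := Module.End (DualNumber k) (DualNumber k ⊗[k] ρbar.V)) _ hN p
    rw [h1, key]
    have h2 : (p : DualNumber k) = 0 := by
      rw [← map_natCast (algebraMap k (DualNumber k)) p, hpk, map_zero]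
    have hpX : p • dualEnd (0 : Module.End k ρbar.V) (c ι) = 0 := by
      apply LinearMap.ext
      intro w
      rw [LinearMap.smul_apply, LinearMap.zero_apply]
      have : (p : DualNumber k) • (dualEnd (0 : Module.End k ρbar.V) (c ι) w) =
          p • (dualEnd (0 : Module.End k ρbar.V) (c ι) w) :=
        Nat.cast_smul_eq_nsmul (DualNumber k) p _
      rw [← this, h2, zero_smul]
    rw [hpX, add_zero]
  obtain ⟨n, j, hnj⟩ := locGenDecomp.{0} p q hp hq hpq P hP φ σ h _ (liftUnits hc) hfl hpow τ hτ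
  have hnj' := congrArg Units.val hnj
  rw [Units.val_mul, Units.val_pow_eq_pow_val, Units.val_pow_eq_pow_val, coe_liftUnits,
    coe_liftUnits, coe_liftUnits, liftEnd_eq_dualEnd, liftEnd_eq_dualEnd, liftEnd_eq_dualEnd,
    hcφ, hcσ, zero_mul, zero_mul, dualEnd_zero_pow, dualEnd_zero_pow, dualEnd_mul, mul_zero,
    zero_mul, add_zero] at hnj'
  have h0 : c τ * ρbar.ρ τ = 0 := (dualEnd_injective hnj').2
  calc c τ = c τ * ρbar.ρ τ * ρbar.ρ τ⁻¹ := by rw [mul_assoc, rho_mul_rho_inv, mul_one]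
    _ = 0 := by rw [h0, zero_mul]

end cocycle

end Fermat.Agent.S38.IA.Gal

end
-- ===== PACK-END S38/IA/Gal/H1/LocGen.lean

-- ===== PACK-BEGIN S38/IA/Gal/H1/LocGenAdic.lean
section




/-!
# IA-GAL / LOC-GEN (helper1), part 3b: tame pairs and adically continuous representations

`A` a local ring with `p ∈ 𝔪_A`, `ρ : G_ℚ →* End_A(V)` adically continuous (Prelude
`GaloisActionIsAdicContinuous`), residually unramified at `P | q` (`ResUnramAt`), `(φ, σ)` a
tame pair at `P` for `p ≠ q`.  Then, modulo every power of the maximal ideal: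

* `adic_rel_mod`     : `ρ (φ σ φ⁻¹) ≡ ρ σ ^ q`;
* `adic_inertia_mod` : `ρ ι ≡ ρ σ ^ j` for `ι ∈ I_P`;
* `adic_decomp_mod`  : `ρ τ ≡ ρ φ ^ a * ρ σ ^ b` for `τ ∈ D_P`;
* `adic_agree_mod`   : two such representations agreeing at `φ` and `σ` agree on `D_P`;

and exactly when `V` is `𝔪`-adically separated (`adic_rel`, `adic_agree`, `adic_unramified`;
`separated_of_noetherian`).
-/

set_option autoImplicit false
set_option linter.style.haveILetI false

namespace Fermat.Agent.S38.IA.Gal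

open Fermat.Agent.S56 Fermat.Agent.S56.H794 IsLocalRing

variable {A : Type} [CommRing A] [IsLocalRing A] {V : Type} [AddCommGroup V] [Module A V]

/-- `ρ` is trivial on `I_P` modulo the maximal ideal. -/
def ResUnramAt (P : ValuationSubring Qb) (ρ : GQ →* Module.End A V) : Prop :=
  ∀ ι ∈ P.inertiaSubgroupIn ℚ, ∀ v : V, ρ ι v - v ∈ maximalIdeal A • (⊤ : Submodule A V)

/-- `V` is `𝔪`-adically separated. -/
def AdicSeparated (A : Type) [CommRing A] [IsLocalRing A] (V : Type) [AddCommGroup V]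
    [Module A V] : Prop :=
  ∀ v : V, (∀ n : ℕ, v ∈ (maximalIdeal A ^ n) • (⊤ : Submodule A V)) → v = 0

theorem separated_of_noetherian [IsNoetherianRing A] [Module.Finite A V] : AdicSeparated A V := by
  intro v hv
  have h := Ideal.iInf_pow_smul_eq_bot_of_isLocalRing (M := V) (maximalIdeal A)
    (Ideal.IsPrime.ne_top inferInstance)
  have hmem : v ∈ ⨅ i, (maximalIdeal A ^ i) • (⊤ : Submodule A V) := by
    rw [Submodule.mem_iInf]
    exact hv
  rw [h] at hmem
  exact (Submodule.mem_bot A).mp hmem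

omit [IsLocalRing A] in
/-- Two automorphisms have the same class modulo the congruence subgroup iff they are
congruent. -/
theorem mk_congr_eq_iff (I : Ideal A) (g h : (Module.End A V)ˣ) :
    (g : (Module.End A V)ˣ ⧸ congrSubgroup V I) = h ↔
      ∀ v, (g : Module.End A V) v - (h : Module.End A V) v ∈ I • (⊤ : Submodule A V) := by
  rw [QuotientGroup.eq]
  constructor
  · intro hK v
    have h1 := hK v
    have h2 : (g : Module.End A V) v - (h : Module.End A V) v =
        -(g : Module.End A V) (((g⁻¹ * h : (Module.End A V)ˣ) : Module.End A V) v - v) := by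
      rw [map_sub, ← Module.End.mul_apply, ← Units.val_mul, mul_inv_cancel_left]
      abel
    rw [h2]
    exact neg_mem (apply_mem_smul_top _ h1)
  · intro hK v
    have h1 := hK v
    have h2 : ((g⁻¹ * h : (Module.End A V)ˣ) : Module.End A V) v - v =
        -((g⁻¹ : (Module.End A V)ˣ) : Module.End A V)
          ((g : Module.End A V) v - (h : Module.End A V) v) := by
      rw [map_sub, ← Module.End.mul_apply, ← Module.End.mul_apply, ← Units.val_mul,
        ← Units.val_mul, inv_mul_cancel, Units.val_one, Module.End.one_apply]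
      abel
    rw [h2]
    exact neg_mem (apply_mem_smul_top _ h1)

variable (ρ : GQ →* Module.End A V)

/-- The reduction of `ρ` modulo the congruence subgroup of level `𝔪 ^ n`. -/
noncomputable def redHom (n : ℕ) :
    GQ →* (Module.End A V)ˣ ⧸ congrSubgroup V (maximalIdeal A ^ n) :=
  (QuotientGroup.mk' (congrSubgroup V (maximalIdeal A ^ n))).comp ρ.toHomUnits

theorem redHom_apply (n : ℕ) (τ : GQ) :
    redHom ρ n τ = ((ρ.toHomUnits τ : (Module.End A V)ˣ) :
      (Module.End A V)ˣ ⧸ congrSubgroup V (maximalIdeal A ^ n)) := rfl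

omit [IsLocalRing A] in
theorem coe_toHomUnits (τ : GQ) : ((ρ.toHomUnits τ : (Module.End A V)ˣ) : Module.End A V) = ρ τ :=
  rfl

variable {ρ}

theorem finiteLevel_redHom (hρ : GaloisActionIsAdicContinuous A ρ) (n : ℕ) :
    FiniteLevel (redHom ρ n) := by
  obtain ⟨L, hL, h⟩ := hρ n
  refine ⟨L, hL, fun τ hτ => ?_⟩
  rw [redHom_apply, QuotientGroup.eq_one_iff]
  exact h τ hτ

theorem pPowOnInertia_redHom {p : ℕ} (hp : (p : A) ∈ maximalIdeal A)
    {P : ValuationSubring Qb} (hres : ResUnramAt P ρ) (n : ℕ) :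
    PPowOnInertia p P (redHom ρ n) := by
  intro ι hι
  refine ⟨n, ?_⟩
  rw [← map_pow, redHom_apply, QuotientGroup.eq_one_iff, map_pow]
  have h1 : ρ.toHomUnits ι ∈ congrSubgroup V (maximalIdeal A) := hres ι hι
  exact congrSubgroup_mono (Ideal.pow_le_pow_right (Nat.le_succ n))
    (pow_prime_pow_mem_congrSubgroup hp h1 n)

section tame

variable {p q : ℕ} {P : ValuationSubring Qb} {φ σ : GQ}

/-- The tame relation modulo `𝔪 ^ n`. -/
theorem adic_rel_mod (h : IsTamePair p q P φ σ) (hp : p.Prime) (hq : q.Prime) (hpq : p ≠ q)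
    (hP : P.LiesOverPrime q) (hpA : (p : A) ∈ maximalIdeal A)
    (hρ : GaloisActionIsAdicContinuous A ρ) (hres : ResUnramAt P ρ) (n : ℕ) (v : V) :
    ρ (φ * σ * φ⁻¹) v - (ρ σ ^ q) v ∈ (maximalIdeal A ^ n) • (⊤ : Submodule A V) := by
  have h1 := locGenRel p q hp hq hpq P hP φ σ h _ (redHom ρ n) (finiteLevel_redHom hρ n)
    (pPowOnInertia_redHom hpA hres n)
  rw [← map_pow, redHom_apply, redHom_apply, mk_congr_eq_iff] at h1
  have h2 := h1 v
  rwa [coe_toHomUnits, coe_toHomUnits, map_pow] at h2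

/-- Generation of inertia modulo `𝔪 ^ n`. -/
theorem adic_inertia_mod (h : IsTamePair p q P φ σ) (hp : p.Prime) (hq : q.Prime) (hpq : p ≠ q)
    (hP : P.LiesOverPrime q) (hpA : (p : A) ∈ maximalIdeal A)
    (hρ : GaloisActionIsAdicContinuous A ρ) (hres : ResUnramAt P ρ) (n : ℕ) {ι : GQ}
    (hι : ι ∈ P.inertiaSubgroupIn ℚ) :
    ∃ j : ℕ, ∀ v : V, ρ ι v - (ρ σ ^ j) v ∈ (maximalIdeal A ^ n) • (⊤ : Submodule A V) := by
  obtain ⟨j, hj⟩ := locGenInertia p q hp hq hpq P hP φ σ h _ (redHom ρ n)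
    (finiteLevel_redHom hρ n) (pPowOnInertia_redHom hpA hres n) ι hι
  refine ⟨j, fun v => ?_⟩
  rw [← map_pow, redHom_apply, redHom_apply, mk_congr_eq_iff] at hj
  have h2 := hj v
  rwa [coe_toHomUnits, coe_toHomUnits, map_pow] at h2

/-- Generation of the decomposition group modulo `𝔪 ^ n`. -/
theorem adic_decomp_mod (h : IsTamePair p q P φ σ) (hp : p.Prime) (hq : q.Prime) (hpq : p ≠ q)
    (hP : P.LiesOverPrime q) (hpA : (p : A) ∈ maximalIdeal A)
    (hρ : GaloisActionIsAdicContinuous A ρ) (hres : ResUnramAt P ρ) (n : ℕ) {τ : GQ}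
    (hτ : τ ∈ P.decompositionSubgroup ℚ) :
    ∃ a b : ℕ, ∀ v : V,
      ρ τ v - (ρ φ ^ a * ρ σ ^ b) v ∈ (maximalIdeal A ^ n) • (⊤ : Submodule A V) := by
  obtain ⟨a, b, hab⟩ := locGenDecomp p q hp hq hpq P hP φ σ h _ (redHom ρ n)
    (finiteLevel_redHom hρ n) (pPowOnInertia_redHom hpA hres n) τ hτ
  refine ⟨a, b, fun v => ?_⟩
  rw [← map_pow, ← map_pow, ← map_mul, redHom_apply, redHom_apply, mk_congr_eq_iff] at hab
  have h2 := hab v
  rwa [coe_toHomUnits, coe_toHomUnits, map_mul, map_pow, map_pow] at h2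

/-- Agreement on the decomposition group modulo `𝔪 ^ n`. -/
theorem adic_agree_mod (h : IsTamePair p q P φ σ) (hp : p.Prime) (hq : q.Prime) (hpq : p ≠ q)
    (hP : P.LiesOverPrime q) (hpA : (p : A) ∈ maximalIdeal A) {ρ' : GQ →* Module.End A V}
    (hρ : GaloisActionIsAdicContinuous A ρ) (hres : ResUnramAt P ρ)
    (hρ' : GaloisActionIsAdicContinuous A ρ') (hres' : ResUnramAt P ρ')
    (hφ : ρ φ = ρ' φ) (hσ : ρ σ = ρ' σ) (n : ℕ) {τ : GQ}
    (hτ : τ ∈ P.decompositionSubgroup ℚ) (v : V) :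
    ρ τ v - ρ' τ v ∈ (maximalIdeal A ^ n) • (⊤ : Submodule A V) := by
  have hu : ∀ g : GQ, ρ g = ρ' g → ρ.toHomUnits g = ρ'.toHomUnits g := fun g hg =>
    Units.ext hg
  have h1 := locGenAgree p q hp hq hpq P hP φ σ h _ (redHom ρ n) (redHom ρ' n)
    (finiteLevel_redHom hρ n) (pPowOnInertia_redHom hpA hres n)
    (finiteLevel_redHom hρ' n) (pPowOnInertia_redHom hpA hres' n)
    (by rw [redHom_apply, redHom_apply, hu φ hφ]) (by rw [redHom_apply, redHom_apply, hu σ hσ])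
    τ hτ
  rw [redHom_apply, redHom_apply, mk_congr_eq_iff] at h1
  exact h1 v

/-- **The tame relation** `ρ (φ σ φ⁻¹) = ρ σ ^ q`. -/
theorem adic_rel (h : IsTamePair p q P φ σ) (hp : p.Prime) (hq : q.Prime) (hpq : p ≠ q)
    (hP : P.LiesOverPrime q) (hpA : (p : A) ∈ maximalIdeal A)
    (hρ : GaloisActionIsAdicContinuous A ρ) (hres : ResUnramAt P ρ)
    (hsep : AdicSeparated A V) : ρ (φ * σ * φ⁻¹) = ρ σ ^ q := by
  apply LinearMap.ext
  intro v
  exact sub_eq_zero.mp (hsep _ (fun n => adic_rel_mod h hp hq hpq hP hpA hρ hres n v))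

/-- **Agreement**: two representations agreeing at `φ` and `σ` agree on `D_P`. -/
theorem adic_agree (h : IsTamePair p q P φ σ) (hp : p.Prime) (hq : q.Prime) (hpq : p ≠ q)
    (hP : P.LiesOverPrime q) (hpA : (p : A) ∈ maximalIdeal A) {ρ' : GQ →* Module.End A V}
    (hρ : GaloisActionIsAdicContinuous A ρ) (hres : ResUnramAt P ρ)
    (hρ' : GaloisActionIsAdicContinuous A ρ') (hres' : ResUnramAt P ρ')
    (hφ : ρ φ = ρ' φ) (hσ : ρ σ = ρ' σ) (hsep : AdicSeparated A V) {τ : GQ}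
    (hτ : τ ∈ P.decompositionSubgroup ℚ) : ρ τ = ρ' τ := by
  apply LinearMap.ext
  intro v
  exact sub_eq_zero.mp (hsep _ (fun n =>
    adic_agree_mod h hp hq hpq hP hpA hρ hres hρ' hres' hφ hσ n hτ v))

/-- **Unramifiedness**: if `ρ σ = 1` then `ρ` is trivial on `I_P`. -/
theorem adic_unramified (h : IsTamePair p q P φ σ) (hp : p.Prime) (hq : q.Prime) (hpq : p ≠ q)
    (hP : P.LiesOverPrime q) (hpA : (p : A) ∈ maximalIdeal A)
    (hρ : GaloisActionIsAdicContinuous A ρ) (hres : ResUnramAt P ρ)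
    (hsep : AdicSeparated A V) (hσ : ρ σ = 1) {ι : GQ} (hι : ι ∈ P.inertiaSubgroupIn ℚ) :
    ρ ι = 1 := by
  apply LinearMap.ext
  intro v
  refine sub_eq_zero.mp (hsep _ (fun n => ?_))
  obtain ⟨j, hj⟩ := adic_inertia_mod h hp hq hpq hP hpA hρ hres n hι
  have := hj v
  rwa [hσ, one_pow] at this

end tame

end Fermat.Agent.S38.IA.Gal

end
-- ===== PACK-END S38/IA/Gal/H1/LocGenAdic.lean

-- ===== PACK-BEGIN S38/IA/Gal/H1/LocGenMat.lean
section



/-!
# IA-GAL / LOC-GEN (helper1), part 3c: tame pairs and matrix-valued representations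

`A` a local ring with `p ∈ 𝔪_A`, `r : G_ℚ →* M₂(A)` continuous (`S53.MatCont`), residually
trivial on `I_P` (`MatResUnramAt`), `(φ, σ)` a tame pair at `P | q`, `q ≠ p`.

* `mat_decomp_mod`  : `r τ ≡ r φ ^ a * r σ ^ b` modulo `𝔪 ^ n`, entrywise, for `τ ∈ D_P`;
* `mat_rel`         : `r (φ σ φ⁻¹) = r σ ^ q`                      (`A` separated);
* `mat_agree`       : `r`, `r'` agreeing at `φ`, `σ` agree on `D_P`  (`A` separated);
* `mat_unramified`  : `r σ = 1 ⟹ r = 1` on `I_P`                    (`A` separated);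
* `mat_mem_of_closed` : if the entries of `r φ`, `r σ` lie in an adically closed subring `B`,
  so do the entries of `r τ`, `τ ∈ D_P`.
-/

set_option autoImplicit false
set_option linter.style.haveILetI false

namespace Fermat.Agent.S38.IA.Gal

open Fermat.Agent.S56 Fermat.Agent.S56.H794 IsLocalRing
open Fermat.Agent.S53 (M2 matEnd MatCont toAdic mem_smul_top_pi_iff)

variable {A : Type} [CommRing A] [IsLocalRing A]

/-- `r` is trivial on `I_P` modulo the maximal ideal. -/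
def MatResUnramAt (P : ValuationSubring Qb) (r : _root_.Fermat.Agent.S56.GQ →* M2 A) : Prop :=
  ∀ ι ∈ P.inertiaSubgroupIn ℚ, ∀ i j, (r ι - 1) i j ∈ maximalIdeal A

/-- A matrix has entries in `I` iff it maps every vector into `I · A²`. -/
theorem forall_mulVec_mem_iff (I : Ideal A) (M : M2 A) :
    (∀ v : Fin 2 → A, M.mulVec v ∈ I • (⊤ : Submodule A (Fin 2 → A))) ↔ ∀ i j, M i j ∈ I := by
  constructor
  · intro h i j
    have h1 := (mem_smul_top_pi_iff I _).mp (h (Pi.single j 1)) i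
    rwa [Matrix.mulVec_single_one] at h1
  · intro h v
    rw [mem_smul_top_pi_iff]
    intro i
    simp only [Matrix.mulVec, dotProduct]
    exact Ideal.sum_mem _ fun j _ => Ideal.mul_mem_right _ _ (h i j)

omit [IsLocalRing A] in
theorem matEnd_sub_apply (M N : M2 A) (v : Fin 2 → A) :
    matEnd A M v - matEnd A N v = (M - N).mulVec v := by
  simp [Matrix.sub_mulVec]

omit [IsLocalRing A] in
theorem matEnd_apply_sub (M : M2 A) (v : Fin 2 → A) :
    matEnd A M v - v = (M - 1).mulVec v := by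
  simp [Matrix.sub_mulVec]

theorem resUnramAt_matEnd {P : ValuationSubring Qb} {r : _root_.Fermat.Agent.S56.GQ →* M2 A}
    (h : MatResUnramAt P r) : ResUnramAt P ((matEnd A).comp r) := by
  intro ι hι v
  rw [MonoidHom.comp_apply, matEnd_apply_sub]
  exact (forall_mulVec_mem_iff _ _).mpr (h ι hι) v

theorem adicContinuous_matEnd {r : _root_.Fermat.Agent.S56.GQ →* M2 A} (hr : MatCont r) :
    GaloisActionIsAdicContinuous A ((matEnd A).comp r) :=
  (toAdic r hr).isAdicContinuous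

section tame

variable {p q : ℕ} {P : ValuationSubring Qb} {φ σ : _root_.Fermat.Agent.S56.GQ} {r : _root_.Fermat.Agent.S56.GQ →* M2 A}

/-- Generation of the decomposition group modulo `𝔪 ^ n`, matrix form. -/
theorem mat_decomp_mod (h : IsTamePair p q P φ σ) (hp : p.Prime) (hq : q.Prime) (hpq : p ≠ q)
    (hP : P.LiesOverPrime q) (hpA : (p : A) ∈ maximalIdeal A)
    (hr : MatCont r) (hres : MatResUnramAt P r) (n : ℕ) {τ : _root_.Fermat.Agent.S56.GQ}
    (hτ : τ ∈ P.decompositionSubgroup ℚ) :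
    ∃ a b : ℕ, ∀ i j, (r τ - r φ ^ a * r σ ^ b) i j ∈ maximalIdeal A ^ n := by
  obtain ⟨a, b, hab⟩ := adic_decomp_mod h hp hq hpq hP hpA (adicContinuous_matEnd hr)
    (resUnramAt_matEnd hres) n hτ
  refine ⟨a, b, (forall_mulVec_mem_iff _ _).mp (fun v => ?_)⟩
  have h1 := hab v
  have e : (matEnd A) (r φ) ^ a * (matEnd A) (r σ) ^ b = matEnd A (r φ ^ a * r σ ^ b) := by
    rw [map_mul, map_pow, map_pow]
  rw [MonoidHom.comp_apply, MonoidHom.comp_apply, MonoidHom.comp_apply, e,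
    matEnd_sub_apply] at h1
  exact h1

/-- **The tame relation**, matrix form. -/
theorem mat_rel (h : IsTamePair p q P φ σ) (hp : p.Prime) (hq : q.Prime) (hpq : p ≠ q)
    (hP : P.LiesOverPrime q) (hpA : (p : A) ∈ maximalIdeal A)
    (hr : MatCont r) (hres : MatResUnramAt P r) (hsep : AdicSeparated A (Fin 2 → A)) :
    r (φ * σ * φ⁻¹) = r σ ^ q := by
  have h1 := adic_rel h hp hq hpq hP hpA (adicContinuous_matEnd hr) (resUnramAt_matEnd hres) hsep
  rw [MonoidHom.comp_apply, MonoidHom.comp_apply, ← map_pow] at h1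
  exact Fermat.Agent.S53.matEnd_injective A h1

/-- **Agreement**, matrix form. -/
theorem mat_agree (h : IsTamePair p q P φ σ) (hp : p.Prime) (hq : q.Prime) (hpq : p ≠ q)
    (hP : P.LiesOverPrime q) (hpA : (p : A) ∈ maximalIdeal A) {r' : _root_.Fermat.Agent.S56.GQ →* M2 A}
    (hr : MatCont r) (hres : MatResUnramAt P r) (hr' : MatCont r') (hres' : MatResUnramAt P r')
    (hφ : r φ = r' φ) (hσ : r σ = r' σ) (hsep : AdicSeparated A (Fin 2 → A)) {τ : _root_.Fermat.Agent.S56.GQ}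
    (hτ : τ ∈ P.decompositionSubgroup ℚ) : r τ = r' τ := by
  have h1 := adic_agree h hp hq hpq hP hpA (adicContinuous_matEnd hr) (resUnramAt_matEnd hres)
    (adicContinuous_matEnd hr') (resUnramAt_matEnd hres')
    (by rw [MonoidHom.comp_apply, MonoidHom.comp_apply, hφ])
    (by rw [MonoidHom.comp_apply, MonoidHom.comp_apply, hσ]) hsep hτ
  rw [MonoidHom.comp_apply, MonoidHom.comp_apply] at h1
  exact Fermat.Agent.S53.matEnd_injective A h1

/-- **Unramifiedness**, matrix form. -/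
theorem mat_unramified (h : IsTamePair p q P φ σ) (hp : p.Prime) (hq : q.Prime) (hpq : p ≠ q)
    (hP : P.LiesOverPrime q) (hpA : (p : A) ∈ maximalIdeal A)
    (hr : MatCont r) (hres : MatResUnramAt P r) (hsep : AdicSeparated A (Fin 2 → A))
    (hσ : r σ = 1) {ι : _root_.Fermat.Agent.S56.GQ} (hι : ι ∈ P.inertiaSubgroupIn ℚ) : r ι = 1 := by
  have h1 := adic_unramified h hp hq hpq hP hpA (adicContinuous_matEnd hr)
    (resUnramAt_matEnd hres) hsep (by rw [MonoidHom.comp_apply, hσ, map_one]) hι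
  rw [MonoidHom.comp_apply, ← map_one (matEnd A)] at h1
  exact Fermat.Agent.S53.matEnd_injective A h1

omit [IsLocalRing A] in
/-- Entries of products and powers of matrices with entries in a subring. -/
theorem entries_mul_mem (B : Subring A) {M N : M2 A} (hM : ∀ i j, M i j ∈ B)
    (hN : ∀ i j, N i j ∈ B) : ∀ i j, (M * N) i j ∈ B := by
  intro i j
  rw [Matrix.mul_apply]
  exact Subring.sum_mem _ fun k _ => B.mul_mem (hM i k) (hN k j)

omit [IsLocalRing A] in
theorem entries_pow_mem (B : Subring A) {M : M2 A} (hM : ∀ i j, M i j ∈ B) (n : ℕ) :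
    ∀ i j, (M ^ n) i j ∈ B := by
  induction n with
  | zero =>
    intro i j
    rw [pow_zero, Matrix.one_apply]
    split_ifs
    · exact B.one_mem
    · exact B.zero_mem
  | succ n ih =>
    rw [pow_succ]
    exact entries_mul_mem B ih hM

/-- **Closed subrings.**  If the entries of `r φ` and `r σ` lie in a subring `B` of `A` which is
closed for the `𝔪`-adic topology, so do the entries of `r τ` for every `τ ∈ D_P`. -/
theorem mat_mem_of_closed (h : IsTamePair p q P φ σ) (hp : p.Prime) (hq : q.Prime) (hpq : p ≠ q)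
    (hP : P.LiesOverPrime q) (hpA : (p : A) ∈ maximalIdeal A)
    (hr : MatCont r) (hres : MatResUnramAt P r) (B : Subring A)
    (hB : ∀ x : A, (∀ n : ℕ, ∃ b ∈ B, x - b ∈ maximalIdeal A ^ n) → x ∈ B)
    (hφ : ∀ i j, r φ i j ∈ B) (hσ : ∀ i j, r σ i j ∈ B) {τ : _root_.Fermat.Agent.S56.GQ}
    (hτ : τ ∈ P.decompositionSubgroup ℚ) (i j : Fin 2) : r τ i j ∈ B := by
  refine hB _ (fun n => ?_)
  obtain ⟨a, b, hab⟩ := mat_decomp_mod h hp hq hpq hP hpA hr hres n hτ
  exact ⟨(r φ ^ a * r σ ^ b) i j,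
    entries_mul_mem B (entries_pow_mem B hφ a) (entries_pow_mem B hσ b) i j, hab i j⟩

end tame

end Fermat.Agent.S38.IA.Gal

end
-- ===== PACK-END S38/IA/Gal/H1/LocGenMat.lean

-- ===== PACK-BEGIN S38/IA/Gal/H1/Unip.lean
section







/-!
# IA-GAL (helper1): unipotent at the tame generator ⟹ unipotent on inertia

`A` Noetherian local, `p ∈ 𝔪_A`, `r : G_ℚ →* M₂(A)` continuous, residually trivial on `I_P`,
`(φ, σ)` a tame pair at `P | q`, `q ≠ p`.

* `mat_inertia_mod` : `r ι ≡ r σ ^ j` modulo `𝔪 ^ n` for `ι ∈ I_P`;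
* `isUnipotentOnInertiaAt_of_trace_eq_two` : `tr r(σ) = 2`, `det r(σ) = 1` ⟹
  `(toAdic r).IsUnipotentOnInertiaAt q` (at ALL places over `q`);
* `isUnipotentOnInertiaAt_baseChangeAlong_of_trace` : the same for the push-forward along a local
  homomorphism `y` of a representation `ρ` with matrix model `r`.
-/

set_option autoImplicit false
set_option linter.style.haveILetI false

namespace Fermat.Agent.S38.IA.Gal

open Fermat.Agent.S56 Fermat.Agent.S56.H794 IsLocalRing Polynomial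
open Fermat.Agent.S53 (M2 matEnd MatCont toAdic mapRep)

variable {A : Type} [CommRing A] [IsLocalRing A]

section tame

variable {p q : ℕ} {P : ValuationSubring Qb} {φ σ : _root_.Fermat.Agent.S56.GQ} {r : _root_.Fermat.Agent.S56.GQ →* M2 A}

/-- Generation of inertia modulo `𝔪 ^ n`, matrix form. -/
theorem mat_inertia_mod (h : IsTamePair p q P φ σ) (hp : p.Prime) (hq : q.Prime) (hpq : p ≠ q)
    (hP : P.LiesOverPrime q) (hpA : (p : A) ∈ maximalIdeal A)
    (hr : MatCont r) (hres : MatResUnramAt P r) (n : ℕ) {ι : _root_.Fermat.Agent.S56.GQ}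
    (hι : ι ∈ P.inertiaSubgroupIn ℚ) :
    ∃ j : ℕ, ∀ i k, (r ι - r σ ^ j) i k ∈ maximalIdeal A ^ n := by
  obtain ⟨j, hj⟩ := adic_inertia_mod h hp hq hpq hP hpA (adicContinuous_matEnd hr)
    (resUnramAt_matEnd hres) n hι
  refine ⟨j, (forall_mulVec_mem_iff _ _).mp (fun v => ?_)⟩
  have h1 := hj v
  have e : (matEnd A) (r σ) ^ j = matEnd A (r σ ^ j) := by rw [map_pow]
  rw [MonoidHom.comp_apply, MonoidHom.comp_apply, e, matEnd_sub_apply] at h1
  exact h1

/-- **Unipotent at `σ` ⟹ unipotent on inertia at `q`.** -/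
theorem isUnipotentOnInertiaAt_of_trace_eq_two [IsNoetherianRing A]
    (h : IsTamePair p q P φ σ) (hp : p.Prime) (hq : q.Prime) (hpq : p ≠ q)
    (hP : P.LiesOverPrime q) (hpA : (p : A) ∈ maximalIdeal A)
    (hr : MatCont r) (hres : MatResUnramAt P r)
    (htr : (r σ).trace = 2) (hdet : (r σ).det = 1) :
    (toAdic r hr).IsUnipotentOnInertiaAt q := by
  intro P' hP' ι' hι'
  obtain ⟨g, ι, hι, rfl⟩ := Fermat.Agent.Lib.Cheb.H476.exists_conj_of_mem_inertia hq hP hP' hι'
  rw [Fermat.Agent.S59.H659.charpoly_toAdic]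
  have hconj : r (g * ι * g⁻¹) = ((r.toHomUnits g : (M2 A)ˣ) : M2 A) * r ι *
      (((r.toHomUnits g)⁻¹ : (M2 A)ˣ) : M2 A) := by
    rw [map_mul, map_mul, ← map_inv]
    rfl
  rw [hconj, Matrix.coe_units_inv, Matrix.charpoly_units_conj]
  exact m2_charpoly_eq_of_forall_congr (r ι) (r σ) htr hdet
    (fun n => mat_inertia_mod h hp hq hpq hP hpA hr hres n hι)

end tame

section Push

variable {R : Type} [CommRing R] [IsLocalRing R]

theorem matResUnramAt_mapRep {P : ValuationSubring Qb} {r : _root_.Fermat.Agent.S56.GQ →* M2 R}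
    (hres : MatResUnramAt P r) (y : R →+* A) (hy : IsLocalHom y) :
    MatResUnramAt P (mapRep y r) := by
  intro ι hι i j
  have h1 : (mapRep y r ι - 1) i j = y ((r ι - 1) i j) := by
    simp only [Fermat.Agent.S53.mapRep_apply, Matrix.sub_apply, Matrix.map_apply, map_sub]
    congr 1
    by_cases hij : i = j
    · subst hij; simp
    · simp [hij]
  rw [h1]
  exact Fermat.Agent.S56.H966.map_mem_maximalIdeal y hy (hres ι hι i j)

/-- **(UNIP)** for the push-forward of a representation with a matrix model. -/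
theorem isUnipotentOnInertiaAt_baseChangeAlong_of_trace [IsNoetherianRing A]
    {p q : ℕ} {P : ValuationSubring Qb} {φ σ : _root_.Fermat.Agent.S56.GQ}
    (h : IsTamePair p q P φ σ) (hp : p.Prime) (hq : q.Prime) (hpq : p ≠ q)
    (hP : P.LiesOverPrime q) (hpR : (p : R) ∈ maximalIdeal R)
    (ρ : GaloisRepAdic R) (r : _root_.Fermat.Agent.S56.GQ →* M2 R) (hr : MatCont r) (he : ρ.IsEquiv (toAdic r hr))
    (hres : MatResUnramAt P r) (hdet : (r σ).det = 1)
    (y : R →+* A) (hy : IsLocalHom y) (htr : ((r σ).map y).trace = 2) :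
    (ρ.baseChangeAlong y hy).IsUnipotentOnInertiaAt q := by
  have he' := Fermat.Agent.S59.H659.baseChangeAlong_isEquiv_toAdic y hy ρ r hr he
  refine Fermat.Agent.S56.H966.isUnipotentOnInertiaAt_of_isEquiv
    (Fermat.Agent.S59.H659.isEquiv_symm he') ?_
  have hpA : (p : A) ∈ maximalIdeal A := by
    have := Fermat.Agent.S56.H966.map_mem_maximalIdeal y hy hpR
    rwa [map_natCast] at this
  have hdet' : (mapRep y r σ).det = 1 := by
    rw [Fermat.Agent.S53.mapRep_apply]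
    have := RingHom.map_det y (r σ)
    rw [hdet, map_one] at this
    exact this.symm
  exact isUnipotentOnInertiaAt_of_trace_eq_two h hp hq hpq hP hpA (hr.map y hy)
    (matResUnramAt_mapRep hres y hy) htr hdet'

end Push

end Fermat.Agent.S38.IA.Gal

end
-- ===== PACK-END S38/IA/Gal/H1/Unip.lean

-- ===== PACK-BEGIN S38/H473/PtSpec.lean
section



/-!
# Row HARD, cell HECKE, leaves IA-NU / IA-ST: the POINT-LEVEL statements  (helper473)

`IANuStatement` and `IAStStatement` of layer 3 (`Hecke/Spec3.lean`, helper3) are statements on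
the module `V / chiRelIA χ V`.  Here are their pointwise forms, in the same vocabulary:
a `p`-adic point `P : S31.PadicPoint p PQ.T` (complete DVR of characteristic `0`, finite residue
field of characteristic `p`), local, is **through the annihilator of `V / chiRelIA χ V`** if
`P.χ t = 0` for every `t ∈ T_Q` with `a(t) V ⊆ chiRelIA χ V`.

* `IANuPtAt PQ V a` : for every pivot character `χ`, every local `p`-adic point through the
  annihilator of `V / chiRelIA χ V` is NOT unipotent on inertia at any pivot;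
* `IAStPtAt PQ V a` : at every local `p`-adic point `P` through the annihilator of
  `V / chiRelIA 1 V`, `P.χ (tr ρ(Frob_q)² - (1+q)²) = 0` for every pivot `q`;
* `IANuPtStatement`, `IAStPtStatement` : the same binders as `IANuStatement`, `IAStStatement`.

The glue (`PtGlue.lean`): `iaNu_of_pt : IAFreeStatement → IANuPtStatement → IANuStatement`,
`iaSt_of_pt : IAFreeStatement → IAStPtStatement → IAStStatement`.
-/

set_option autoImplicit false

open Polynomial IsLocalRing CongruenceSubgroup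
open scoped MatrixGroups

namespace Fermat.Agent.S38.H473

open Fermat.Agent.S59.Arch Fermat.Agent.S59.TW.H959 Fermat.Agent.S59.TW Fermat.Agent.S59.H765
open Fermat.Agent.S59.TW.H653 Fermat.Agent.S59.TW.Aut
open Fermat.Agent.S38.IA Fermat.Agent.S38.IA.Hecke
open CuspForm

section Parts

variable {p : ℕ}
  {𝒪 : Type} [CommRing 𝒪] [IsDomain 𝒪] [IsDiscreteValuationRing 𝒪]
  [IsAdicComplete (maximalIdeal 𝒪) 𝒪]
  {ρbar : ResidualGaloisRep (ResidueField 𝒪)} {Smin : Finset ℕ}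
  {Piv : Finset ℕ} {k r : ℕ} {pv : Fin k → ℕ} {qv : Fin r → ℕ}
  [NeZero (wilesLevel p .flat Smin (Smin ∪ Piv ∪ Finset.univ.image qv))]

/-- The point `x` of `T_Q` is through the annihilator of `V / chiRelIA χ V`. -/
def ThroughAnn (PQ : HeckePkg p 𝒪 ρbar .flat Smin (Smin ∪ Piv ∪ Finset.univ.image qv))
    (V : Submodule 𝒪 (XIA p Smin pv qv 𝒪)) (a : PQ.T →ₐ[𝒪] Module.End 𝒪 V)
    (χ : (∀ i : Fin k, (ZMod (pv i))ˣ) →* 𝒪) {R : Type} [CommRing R] (x : PQ.T →+* R) : Prop :=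
  ∀ t : PQ.T, (∀ v : V, ((a t v : V) : XIA p Smin pv qv 𝒪) ∈ chiRelIA p Smin pv qv χ V) →
    x t = 0

/-- **NU at `(V, a)`, pointwise**: every local `p`-adic point of `T_Q` through the annihilator
of `V / chiRelIA χ V` (`χ` a pivot character) is not unipotent on inertia at any pivot. -/
def IANuPtAt
    (PQ : HeckePkg p 𝒪 ρbar .flat Smin (Smin ∪ Piv ∪ Finset.univ.image qv))
    (V : Submodule 𝒪 (XIA p Smin pv qv 𝒪)) (a : PQ.T →ₐ[𝒪] Module.End 𝒪 V) : Prop :=
  ∀ χ : (∀ i : Fin k, (ZMod (pv i))ˣ) →* 𝒪, IsPivChar p pv χ →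
    ∀ (P : Fermat.Agent.S31.PadicPoint p PQ.T) (hP : IsLocalHom P.χ),
      ThroughAnn PQ V a χ P.χ →
      ∀ q ∈ Piv, ¬ (PQ.H.ρ.baseChangeAlong P.χ hP).IsUnipotentOnInertiaAt q

/-- **ST at `(V, a)`, pointwise**: the Steinberg elements at the pivots vanish at every local
`p`-adic point of `T_Q` through the annihilator of `V / I_{Δ_Piv} V`. -/
def IAStPtAt
    (PQ : HeckePkg p 𝒪 ρbar .flat Smin (Smin ∪ Piv ∪ Finset.univ.image qv))
    (V : Submodule 𝒪 (XIA p Smin pv qv 𝒪)) (a : PQ.T →ₐ[𝒪] Module.End 𝒪 V) : Prop :=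
  ∀ (P : Fermat.Agent.S31.PadicPoint p PQ.T), IsLocalHom P.χ →
    ThroughAnn PQ V a 1 P.χ →
    ∀ q ∈ Piv, ∀ Pl : ValuationSubring (AlgebraicClosure ℚ), Pl.LiesOverPrime q →
      ∀ φ : AlgebraicClosure ℚ ≃ₐ[ℚ] AlgebraicClosure ℚ, Pl.IsFrobeniusAt φ q →
        P.χ (PQ.H.ρ.trace φ ^ 2 - ((1 + q : ℕ) : PQ.T) ^ 2) = 0

end Parts

/-- **IA-NU, pointwise.**  Same binders as `IANuStatement`. -/
def IANuPtStatement : Prop :=
  ∀ (p : ℕ) [Fact p.Prime] (_hp5 : 5 ≤ p)
    (𝒪 : Type) [CommRing 𝒪] [IsDomain 𝒪] [IsDiscreteValuationRing 𝒪]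
    [IsAdicComplete (maximalIdeal 𝒪) 𝒪] [Finite (ResidueField 𝒪)] [CharZero 𝒪]
    (ρbar : ResidualGaloisRep (ResidueField 𝒪)) (Smin : Finset ℕ)
    (_h : ResidualHyp p 𝒪 ρbar Smin)
    (_hflat : (GaloisRepAdic.ofResidualGaloisRep ρbar).IsFlatAt p)
    (Piv : Finset ℕ) (_hPiv : IsPivotSet p ρbar Smin Piv)
    (k : ℕ) (pv : Fin k → ℕ) (_hpv : Function.Injective pv)
    (_hpvPiv : Finset.univ.image pv = Piv)
    (n r : ℕ) (qv : Fin r → ℕ) (_hq : IsTWSet p ρbar (Smin ∪ Piv) n qv)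
    [NeZero (wilesLevel p .flat Smin (Smin ∪ Piv ∪ Finset.univ.image qv))]
    (PQ : HeckePkg p 𝒪 ρbar .flat Smin (Smin ∪ Piv ∪ Finset.univ.image qv))
    (α : Fin r → 𝒪) (_hα : IsFrobLift ρbar qv α)
    (V : Submodule 𝒪 (XIA p Smin pv qv 𝒪)) (h : ℕ) (a : PQ.T →ₐ[𝒪] Module.End 𝒪 V),
    IsIAPart PQ α V → IsHalf p pv h → IsHalf p qv h → IsIAAction PQ V h a → IANuPtAt PQ V a

/-- **IA-ST, pointwise.**  Same binders as `IAStStatement`. -/
def IAStPtStatement : Prop :=
  ∀ (p : ℕ) [Fact p.Prime] (_hp5 : 5 ≤ p)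
    (𝒪 : Type) [CommRing 𝒪] [IsDomain 𝒪] [IsDiscreteValuationRing 𝒪]
    [IsAdicComplete (maximalIdeal 𝒪) 𝒪] [Finite (ResidueField 𝒪)] [CharZero 𝒪]
    (ρbar : ResidualGaloisRep (ResidueField 𝒪)) (Smin : Finset ℕ)
    (_h : ResidualHyp p 𝒪 ρbar Smin)
    (_hflat : (GaloisRepAdic.ofResidualGaloisRep ρbar).IsFlatAt p)
    (Piv : Finset ℕ) (_hPiv : IsPivotSet p ρbar Smin Piv)
    (_hmin : ∀ q ∈ Piv, ∀ S : Finset ℕ,
      ¬ ResModular 𝒪 ρbar (ribetLevel p Smin (Piv.erase q)) S)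
    (k : ℕ) (pv : Fin k → ℕ) (_hpv : Function.Injective pv)
    (_hpvPiv : Finset.univ.image pv = Piv)
    (n r : ℕ) (qv : Fin r → ℕ) (_hq : IsTWSet p ρbar (Smin ∪ Piv) n qv)
    [NeZero (wilesLevel p .flat Smin (Smin ∪ Piv ∪ Finset.univ.image qv))]
    (PQ : HeckePkg p 𝒪 ρbar .flat Smin (Smin ∪ Piv ∪ Finset.univ.image qv))
    (α : Fin r → 𝒪) (_hα : IsFrobLift ρbar qv α)
    (V : Submodule 𝒪 (XIA p Smin pv qv 𝒪)) (h : ℕ) (a : PQ.T →ₐ[𝒪] Module.End 𝒪 V),
    IsIAPart PQ α V → IsHalf p pv h → IsHalf p qv h → IsIAAction PQ V h a → IAStPtAt PQ V a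

end Fermat.Agent.S38.H473

end
-- ===== PACK-END S38/H473/PtSpec.lean

-- ===== PACK-BEGIN S38/H953/NuPtSpec.lean
section



/-!
# Row HARD, cell HECKE, layer 3, leaves IA-NU / IA-ST: the POINT-LEVEL statements  (helper953)

`IANuStatement` and `IAStStatement` (`S38/IA/Hecke/Spec3.lean`, v2) are statements on the module
`V / chiRelIA χ V`.  The Galois and the dictionary inputs are pointwise.  This file states the
point-level Props; `S38/H953/NuKill.lean` proves

    iaNu_of_pt_953 : IAFreeStatement → IANuPtStatement953 → IANuStatement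
    iaSt_of_pt_953 : IAFreeStatement → IAStPtStatement953 → IAStStatement.

A **support point** of `V / W` (`W = chiRelIA χ V`) is a local `𝒪`-algebra homomorphism
`x : T_Q → 𝒪'` into a COMPLETE discrete valuation ring of characteristic `0` with FINITE residue
field of characteristic `p`, which vanishes on every `s ∈ T_Q` with `a s V ⊆ W` (`IsSuppPt953`).

* `IANuPtAt953` : at every support point of `V / chiRelIA χ V` (`χ` a pivot character) the
  representation is not unipotent on inertia at any pivot;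
* `IAStPtAt953` : at every support point of `V / chiRelIA 1 V` the Steinberg elements vanish.

Only sorry-free definitions here.
-/

set_option autoImplicit false

open Polynomial IsLocalRing CongruenceSubgroup
open scoped MatrixGroups

namespace Fermat.Agent.S38.H953

open Fermat.Agent.S59.Arch Fermat.Agent.S59.TW.H959 Fermat.Agent.S59.TW Fermat.Agent.S59.H765
open Fermat.Agent.S59.TW.H653 Fermat.Agent.S59.TW.Aut
open Fermat.Agent.S38.IA Fermat.Agent.S38.IA.Hecke
open CuspForm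

section At

variable {p : ℕ}
  {𝒪 : Type} [CommRing 𝒪] [IsDomain 𝒪] [IsDiscreteValuationRing 𝒪]
  [IsAdicComplete (maximalIdeal 𝒪) 𝒪]
  {ρbar : ResidualGaloisRep (ResidueField 𝒪)} {Smin : Finset ℕ}
  {Piv : Finset ℕ} {k r : ℕ} {pv : Fin k → ℕ} {qv : Fin r → ℕ}
  [NeZero (wilesLevel p .flat Smin (Smin ∪ Piv ∪ Finset.univ.image qv))]

/-- `x : T_Q → 𝒪'` is a **support point** of `V / W`: it vanishes on every `s ∈ T_Q` which maps
`V` into `W`. -/
def IsSuppPt953 (PQ : HeckePkg p 𝒪 ρbar .flat Smin (Smin ∪ Piv ∪ Finset.univ.image qv))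
    (V : Submodule 𝒪 (XIA p Smin pv qv 𝒪)) (a : PQ.T →ₐ[𝒪] Module.End 𝒪 V)
    (W : Submodule 𝒪 (XIA p Smin pv qv 𝒪)) {𝒪' : Type} [CommRing 𝒪'] (x : PQ.T →+* 𝒪') : Prop :=
  ∀ s : PQ.T, (∀ v : V, ((a s v : V) : XIA p Smin pv qv 𝒪) ∈ W) → x s = 0

/-- **NU at the support points of `V / chiRelIA χ V`.** -/
def IANuPtAt953 (PQ : HeckePkg p 𝒪 ρbar .flat Smin (Smin ∪ Piv ∪ Finset.univ.image qv))
    (V : Submodule 𝒪 (XIA p Smin pv qv 𝒪)) (a : PQ.T →ₐ[𝒪] Module.End 𝒪 V) : Prop :=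
  ∀ χ : (∀ i : Fin k, (ZMod (pv i))ˣ) →* 𝒪, IsPivChar p pv χ →
    ∀ (𝒪' : Type) [CommRing 𝒪'] [IsDomain 𝒪'] [IsDiscreteValuationRing 𝒪']
      [IsAdicComplete (maximalIdeal 𝒪') 𝒪'] [Finite (ResidueField 𝒪')] [CharZero 𝒪']
      [Algebra 𝒪 𝒪'] (x : PQ.T →ₐ[𝒪] 𝒪') (hx : IsLocalHom (x : PQ.T →+* 𝒪')),
      (p : 𝒪') ∈ maximalIdeal 𝒪' →
      IsSuppPt953 PQ V a (chiRelIA p Smin pv qv χ V) (x : PQ.T →+* 𝒪') →
      ∀ q ∈ Piv, ¬ (PQ.H.ρ.baseChangeAlong (x : PQ.T →+* 𝒪') hx).IsUnipotentOnInertiaAt q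

/-- **ST at the support points of `V / chiRelIA 1 V`.** -/
def IAStPtAt953 (PQ : HeckePkg p 𝒪 ρbar .flat Smin (Smin ∪ Piv ∪ Finset.univ.image qv))
    (V : Submodule 𝒪 (XIA p Smin pv qv 𝒪)) (a : PQ.T →ₐ[𝒪] Module.End 𝒪 V) : Prop :=
  ∀ (𝒪' : Type) [CommRing 𝒪'] [IsDomain 𝒪'] [IsDiscreteValuationRing 𝒪']
    [IsAdicComplete (maximalIdeal 𝒪') 𝒪'] [Finite (ResidueField 𝒪')] [CharZero 𝒪']
    [Algebra 𝒪 𝒪'] (x : PQ.T →ₐ[𝒪] 𝒪') (_hx : IsLocalHom (x : PQ.T →+* 𝒪')),
    (p : 𝒪') ∈ maximalIdeal 𝒪' →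
    IsSuppPt953 PQ V a (chiRelIA p Smin pv qv 1 V) (x : PQ.T →+* 𝒪') →
    ∀ q ∈ Piv, ∀ P : ValuationSubring (AlgebraicClosure ℚ), P.LiesOverPrime q →
      ∀ φ : AlgebraicClosure ℚ ≃ₐ[ℚ] AlgebraicClosure ℚ, P.IsFrobeniusAt φ q →
        x (PQ.H.ρ.trace φ ^ 2 - ((1 + q : ℕ) : PQ.T) ^ 2) = 0

end At

/-- **IA-NU, point level.**  Binders of `IANuStatement` VERBATIM; conclusion `IANuPtAt953`. -/
def IANuPtStatement953 : Prop :=
  ∀ (p : ℕ) [Fact p.Prime] (_hp5 : 5 ≤ p)
    (𝒪 : Type) [CommRing 𝒪] [IsDomain 𝒪] [IsDiscreteValuationRing 𝒪]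
    [IsAdicComplete (maximalIdeal 𝒪) 𝒪] [Finite (ResidueField 𝒪)] [CharZero 𝒪]
    (ρbar : ResidualGaloisRep (ResidueField 𝒪)) (Smin : Finset ℕ)
    (_h : ResidualHyp p 𝒪 ρbar Smin)
    (_hflat : (GaloisRepAdic.ofResidualGaloisRep ρbar).IsFlatAt p)
    (Piv : Finset ℕ) (_hPiv : IsPivotSet p ρbar Smin Piv)
    (k : ℕ) (pv : Fin k → ℕ) (_hpv : Function.Injective pv)
    (_hpvPiv : Finset.univ.image pv = Piv)
    (n r : ℕ) (qv : Fin r → ℕ) (_hq : IsTWSet p ρbar (Smin ∪ Piv) n qv)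
    [NeZero (wilesLevel p .flat Smin (Smin ∪ Piv ∪ Finset.univ.image qv))]
    (PQ : HeckePkg p 𝒪 ρbar .flat Smin (Smin ∪ Piv ∪ Finset.univ.image qv))
    (α : Fin r → 𝒪) (_hα : IsFrobLift ρbar qv α)
    (V : Submodule 𝒪 (XIA p Smin pv qv 𝒪)) (h : ℕ) (a : PQ.T →ₐ[𝒪] Module.End 𝒪 V),
    IsIAPart PQ α V → IsHalf p pv h → IsHalf p qv h → IsIAAction PQ V h a → IANuPtAt953 PQ V a

/-- **IA-ST, point level.**  Binders of `IAStStatement` VERBATIM (with `_hmin`); conclusion
`IAStPtAt953`. -/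
def IAStPtStatement953 : Prop :=
  ∀ (p : ℕ) [Fact p.Prime] (_hp5 : 5 ≤ p)
    (𝒪 : Type) [CommRing 𝒪] [IsDomain 𝒪] [IsDiscreteValuationRing 𝒪]
    [IsAdicComplete (maximalIdeal 𝒪) 𝒪] [Finite (ResidueField 𝒪)] [CharZero 𝒪]
    (ρbar : ResidualGaloisRep (ResidueField 𝒪)) (Smin : Finset ℕ)
    (_h : ResidualHyp p 𝒪 ρbar Smin)
    (_hflat : (GaloisRepAdic.ofResidualGaloisRep ρbar).IsFlatAt p)
    (Piv : Finset ℕ) (_hPiv : IsPivotSet p ρbar Smin Piv)
    (_hmin : ∀ q ∈ Piv, ∀ S : Finset ℕ,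
      ¬ ResModular 𝒪 ρbar (ribetLevel p Smin (Piv.erase q)) S)
    (k : ℕ) (pv : Fin k → ℕ) (_hpv : Function.Injective pv)
    (_hpvPiv : Finset.univ.image pv = Piv)
    (n r : ℕ) (qv : Fin r → ℕ) (_hq : IsTWSet p ρbar (Smin ∪ Piv) n qv)
    [NeZero (wilesLevel p .flat Smin (Smin ∪ Piv ∪ Finset.univ.image qv))]
    (PQ : HeckePkg p 𝒪 ρbar .flat Smin (Smin ∪ Piv ∪ Finset.univ.image qv))
    (α : Fin r → 𝒪) (_hα : IsFrobLift ρbar qv α)
    (V : Submodule 𝒪 (XIA p Smin pv qv 𝒪)) (h : ℕ) (a : PQ.T →ₐ[𝒪] Module.End 𝒪 V),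
    IsIAPart PQ α V → IsHalf p pv h → IsHalf p qv h → IsIAAction PQ V h a → IAStPtAt953 PQ V a

end Fermat.Agent.S38.H953

end
-- ===== PACK-END S38/H953/NuPtSpec.lean

-- ===== PACK-BEGIN S38/IA/Hecke/PtAdapter.lean
section



/-!
# Row HARD, cell HECKE, leaves IA-NU / IA-ST: the two point-level shapes  (helper3)

Two point-level forms of IA-NU and IA-ST are in use:

* `H473.IANuPtStatement`, `H473.IAStPtStatement` (helper473, OFFICIAL: consumed by the glue
  `H473.iaNu_of_pt`, `H473.iaSt_of_pt`): the points are the local `S31.PadicPoint p PQ.T`;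
* `H953.IANuPtStatement953`, `H953.IAStPtStatement953` (helper953): the points are the local
  `𝒪`-algebra homomorphisms `PQ.T →ₐ[𝒪] 𝒪'`, `𝒪'` a complete discrete valuation ring of
  characteristic `0` with finite residue field of residue characteristic `p`.

The second form implies the first one (a `p`-adic point makes its coefficient ring an
`𝒪`-algebra).  So the owners of the dictionary may prove EITHER form.
-/

set_option autoImplicit false

open IsLocalRing

namespace Fermat.Agent.S38.IA.Hecke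

open Fermat.Agent.S59.Arch Fermat.Agent.S59.TW.H959 Fermat.Agent.S59.TW
open Fermat.Agent.S59.TW.Aut

/-- IA-NU, point level: the form of helper953 implies the form of helper473. -/
theorem iaNuPt_of_953 (h953 : Fermat.Agent.S38.H953.IANuPtStatement953) :
    Fermat.Agent.S38.H473.IANuPtStatement := by
  intro p hpF hp5 𝒪 _ _ _ _ _ _ ρbar Smin h hflat Piv hPiv k pv hpv hpvPiv n r qv hq hNQ PQ α hα
    V hh a hV hhalf₁ hhalf₂ ha χ hχ P hP hthru q hqP
  letI : Algebra 𝒪 P.O := (P.χ.comp (algebraMap 𝒪 PQ.T)).toAlgebra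
  let x : PQ.T →ₐ[𝒪] P.O := { P.χ with commutes' := fun _ => rfl }
  have hxc : (x : PQ.T →+* P.O) = P.χ := rfl
  have hx : IsLocalHom (x : PQ.T →+* P.O) := hxc ▸ hP
  exact h953 p hp5 𝒪 ρbar Smin h hflat Piv hPiv k pv hpv hpvPiv n r qv hq PQ α hα V hh a hV
    hhalf₁ hhalf₂ ha χ hχ P.O x hx P.hp hthru q hqP

/-- IA-ST, point level: the form of helper953 implies the form of helper473. -/
theorem iaStPt_of_953 (h953 : Fermat.Agent.S38.H953.IAStPtStatement953) :
    Fermat.Agent.S38.H473.IAStPtStatement := by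
  intro p hpF hp5 𝒪 _ _ _ _ _ _ ρbar Smin h hflat Piv hPiv hmin k pv hpv hpvPiv n r qv hq hNQ
    PQ α hα V hh a hV hhalf₁ hhalf₂ ha P hP hthru q hqP Pl hPl φ hφ
  letI : Algebra 𝒪 P.O := (P.χ.comp (algebraMap 𝒪 PQ.T)).toAlgebra
  let x : PQ.T →ₐ[𝒪] P.O := { P.χ with commutes' := fun _ => rfl }
  have hxc : (x : PQ.T →+* P.O) = P.χ := rfl
  have hx : IsLocalHom (x : PQ.T →+* P.O) := hxc ▸ hP
  exact h953 p hp5 𝒪 ρbar Smin h hflat Piv hPiv hmin k pv hpv hpvPiv n r qv hq PQ α hα V hh a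
    hV hhalf₁ hhalf₂ ha P.O x hx P.hp hthru q hqP Pl hPl φ hφ

end Fermat.Agent.S38.IA.Hecke

end
-- ===== PACK-END S38/IA/Hecke/PtAdapter.lean

-- ===== PACK-BEGIN S38/H719/UUK.lean
section






/-!
# HARD / HECKE, one-prime control at `Γ_H`-levels: `U_q²` at `K`-level (helper719)

Level `N`, `Γ₁(N) ≤ K ≤ Γ₀(N)` (`H653.IsMid N K`), `q ∤ N` prime, `K_q = K ⊓ Γ₀(N q)`
(`H201.Kq N q K`), `σ ∈ Γ₀(N q)` with lower right entry `≡ q mod N`.

* `alSystemK` : the Atkin–Lehner coset system of `S59/H105/UqAL.lean` restricts to a coset system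
  from `K_q` to `K` (its representatives are normalised modulo `N`);
* `t₂K_eq_transfer` : `t₂K` (transfer along `c_δ : K_q → K`) is the transfer of `alSystemK`;
* `r₁K_t₂K_apply` : `(r₁ t₂ ψ)(γ) = ψ(c_w γ) + (U_q ψ)(γ)`;
* `r₁K_t₁K_diamond_apply` : `(r₁ t₁ ⟨σ⟩ψ)(γ) = (⟨σ⟩ψ)(γ) + ∑_j ψ(c_w (γ_j))`;
* `UK_UK_K` : `U_q² ψ = ⟨σ⟩ ψ + U_q r₁ t₂ ψ - r₁ t₁ ⟨σ⟩ ψ`.
-/

set_option autoImplicit false

namespace Fermat.Agent.S38.H719

open CongruenceSubgroup Matrix.SpecialLinearGroup ModularForm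
open Fermat.Agent.S29.H642 Fermat.Agent.S41 Fermat.Agent.S41.Spec Fermat.Agent.S41.H761
open Fermat.Agent.S59.H105 Fermat.Agent.S59.TW.H653 Fermat.Agent.S59.TW.H201
open P2MW.S_ModularForm_heckeT_slash_eq_self_of_mem_Gamma0.ModularForm.HeckeSlashInvariance
open scoped MatrixGroups

variable {N q : ℕ} [Fact q.Prime] {K : Subgroup SL(2, ℤ)}

/-! ## Embeddings -/

omit [Fact (Nat.Prime q)] in
theorem ιK_Kq_eq (γ : Kq N q K) : ιK (Kq N q K) γ = ιN (N * q) (toGamma0q N q K γ) := rfl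

omit [Fact (Nat.Prime q)] in
theorem ιK_eq_ιN (hK : IsMid N K) (k : K) : ιK K k = ιN N (inclK hK k) := rfl

/-! ## The Atkin–Lehner representatives are normalised modulo `N` -/

theorem isNormRep_alRep (x b : ℤ) (hxb : x * q - b * N = 1) (y : OnePoint (ZMod q)) :
    IsNormRep N (alRep (alElt N q x b hxb) y) := by
  have hq0 : q ≠ 0 := (Fact.out : q.Prime).ne_zero
  obtain ⟨g00, g01, g10, g11⟩ := alElt_entries (N := N) (q := q) x b hxb
  induction y using OnePoint.rec with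
  | infty =>
    refine ⟨x * q, b, N * q, q, Dvd.intro _ rfl, ⟨b, by linear_combination hxb⟩, ?_⟩
    rw [alRep_infty]
    ext i j
    fin_cases i <;> fin_cases j <;>
      simp only [coe_mul_apply, coe_ιN_apply, coe_heckeRep_infty, Matrix.of_apply,
        Matrix.cons_val', Matrix.cons_val_zero, Matrix.cons_val_one, Matrix.cons_val_fin_one,
        Fin.zero_eta, Fin.mk_one, g00, g01, g10, g11] <;>
      push_cast <;> ring
  | coe j =>
    rw [alRep_coe]
    exact isNormRep_heckeMatrix hq0 j.val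

/-! ## The Atkin–Lehner system at `K`-level -/

/-- The cocycle of the Atkin–Lehner system on `K` takes values in `K_q`. -/
theorem alSystem_coc_mem (hK : IsMid N K) (hqN : ¬ q ∣ N) (x b : ℤ) (hxb : x * q - b * N = 1)
    (y : OnePoint (ZMod q)) (k : K) :
    (((alSystem hqN x b hxb).coc y (inclK hK k) : Gamma0 (N * q)) : SL(2, ℤ)) ∈ Kq N q K := by
  refine ⟨?_, ((alSystem hqN x b hxb).coc y (inclK hK k)).2⟩
  obtain ⟨h1, h2⟩ := normRep_coc (isNormRep_alRep x b hxb y)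
    (isNormRep_alRep x b hxb ((alSystem hqN x b hxb).act y (inclK hK k))) (g := inclK hK k)
    (g' := (((alSystem hqN x b hxb).coc y (inclK hK k) : Gamma0 (N * q)) : SL(2, ℤ)))
    ((alSystem hqN x b hxb).spec y (inclK hK k))
  exact hK.mem_of_dUnit_eq (k := inclK hK k) k.2 h2

/-- **The Atkin–Lehner coset system from `K_q` to `K`.** -/
theorem alSystemK (hK : IsMid N K) (hqN : ¬ q ∣ N) (x b : ℤ) (hxb : x * q - b * N = 1) :
    IsCosetSystem (ιK (Kq N q K)) (ιK K) (alRep (q := q) (alElt N q x b hxb)) where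
  inj := ιK_injective _
  exists_mul := fun y k =>
    ⟨(alSystem hqN x b hxb).act y (inclK hK k), ⟨_, alSystem_coc_mem hK hqN x b hxb y k⟩,
      (alSystem hqN x b hxb).spec y (inclK hK k)⟩
  eq_of_mul := fun y y' g e => (alSystem hqN x b hxb).eq_of_mul y y' (toGamma0q N q K g) e

theorem alSystemK_act (hK : IsMid N K) (hqN : ¬ q ∣ N) (x b : ℤ) (hxb : x * q - b * N = 1)
    (y : OnePoint (ZMod q)) (k : K) :
    (alSystemK hK hqN x b hxb).act y k = (alSystem hqN x b hxb).act y (inclK hK k) :=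
  (alSystemK hK hqN x b hxb).act_eq (g := ⟨_, alSystem_coc_mem hK hqN x b hxb y k⟩)
    ((alSystem hqN x b hxb).spec y (inclK hK k))

theorem alSystemK_coc (hK : IsMid N K) (hqN : ¬ q ∣ N) (x b : ℤ) (hxb : x * q - b * N = 1)
    (y : OnePoint (ZMod q)) (k : K) :
    toGamma0q N q K ((alSystemK hK hqN x b hxb).coc y k) =
      (alSystem hqN x b hxb).coc y (inclK hK k) := by
  rw [(alSystemK hK hqN x b hxb).coc_eq (g := ⟨_, alSystem_coc_mem hK hqN x b hxb y k⟩)
    ((alSystem hqN x b hxb).spec y (inclK hK k))]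
  rfl

/-! ## The `U_q` system at `K_q`-level -/

/-- The `U_q` coset system on `K_q`. -/
theorem uqSystemK (hK : IsMid N K) : IsCosetSystem (ιK (Kq N q K)) (ιK (Kq N q K)) (repsU q) :=
  repsU_system (isMid_Kq hK q) (dvd_mul_self_left N q)

theorem uqSystemK_coc (hK : IsMid N K) (j : ZMod q) (γ : Kq N q K) :
    toGamma0q N q K ((uqSystemK hK).coc j γ) =
      (uqSystem (dvd_mul_self_left N q)).coc j (toGamma0q N q K γ) :=
  system_of_gamma0_coc (isMid_Kq hK q) (repsU_system0 (dvd_mul_self_left N q))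
    (isNormRep_repsU q) j γ

theorem uqSystemK_act (hK : IsMid N K) (j : ZMod q) (γ : Kq N q K) :
    (uqSystemK hK).act j γ = (uqSystem (dvd_mul_self_left N q)).act j (toGamma0q N q K γ) :=
  system_of_gamma0_act (isMid_Kq hK q) (repsU_system0 (dvd_mul_self_left N q))
    (isNormRep_repsU q) j γ

section Ops

variable {A : Type*} [AddCommGroup A]

theorem UK_Kq_apply (hK : IsMid N K) (ψ : Additive (Kq N q K) →+ A) (γ : Kq N q K) :
    UK (Kq N q K) q ψ (Additive.ofMul γ) =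
      ∑ j : ZMod q, ψ (Additive.ofMul ((uqSystemK hK).coc j γ)) := by
  rw [UK_eq (isMid_Kq hK q) (dvd_mul_self_left N q)]
  rfl

theorem UK_Kq_zero (hK : IsMid N K) :
    UK (Kq N q K) q (0 : Additive (Kq N q K) →+ A) = 0 := by
  have h := UK_add (isMid_Kq hK q) (dvd_mul_self_left N q) (0 : Additive (Kq N q K) →+ A) 0
  rw [add_zero] at h
  exact left_eq_add.mp h

/-! ## The Atkin–Lehner conjugation on `K_q` -/

/-- The Atkin–Lehner conjugation `γ ↦ w γ w⁻¹` on `K_q`. -/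
noncomputable def alConjK (hK : IsMid N K) (hqN : ¬ q ∣ N) (x b : ℤ) (hxb : x * q - b * N = 1)
    (γ : Kq N q K) : Kq N q K :=
  (alSystemK hK hqN x b hxb).coc OnePoint.infty (inclKq N q K γ)

theorem toGamma0q_alConjK (hK : IsMid N K) (hqN : ¬ q ∣ N) (x b : ℤ) (hxb : x * q - b * N = 1)
    (γ : Kq N q K) :
    toGamma0q N q K (alConjK hK hqN x b hxb γ) = alConj hqN x b hxb (toGamma0q N q K γ) :=
  alSystemK_coc hK hqN x b hxb OnePoint.infty (inclKq N q K γ)

/-- At the finite points the Atkin–Lehner system restricts to the `U_q` system. -/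
theorem alSystemK_coe (hK : IsMid N K) (hqN : ¬ q ∣ N) (x b : ℤ) (hxb : x * q - b * N = 1)
    (γ : Kq N q K) (j : ZMod q) :
    (alSystemK hK hqN x b hxb).coc (j : OnePoint (ZMod q)) (inclKq N q K γ) =
      (uqSystemK hK).coc j γ := by
  apply toGamma0q_injective N q K
  rw [alSystemK_coc hK hqN x b hxb, uqSystemK_coc hK]
  exact (alSystem_coe hqN x b hxb (toGamma0q N q K γ) j).2

/-- `(r₁ t₂ ψ)(γ) = ψ(c_w γ) + (U_q ψ)(γ)`, with `t₂` the transfer of the Atkin–Lehner system. -/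
theorem r₁K_alTransfer_apply (hK : IsMid N K) (hqN : ¬ q ∣ N) (x b : ℤ)
    (hxb : x * q - b * N = 1) (ψ : Additive (Kq N q K) →+ A) (γ : Kq N q K) :
    r₁K N q K ((alSystemK hK hqN x b hxb).transfer ψ) (Additive.ofMul γ) =
      ψ (Additive.ofMul (alConjK hK hqN x b hxb γ)) +
        UK (Kq N q K) q ψ (Additive.ofMul γ) := by
  rw [r₁K_apply, IsCosetSystem.transfer_apply, sum_onePoint, UK_Kq_apply hK]
  congr 1
  exact Finset.sum_congr rfl fun j _ => by rw [alSystemK_coe hK hqN x b hxb]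

/-! ## `t₂K` is the transfer of the Atkin–Lehner system -/

theorem t₂K_eq_transfer (hK : IsMid N K) (hN : N ≠ 0) (hqN : ¬ q ∣ N) (x b : ℤ)
    (hxb : x * q - b * N = 1) (ψ : Additive (Kq N q K) →+ A) :
    t₂K hK q ψ = (alSystemK hK hqN x b hxb).transfer ψ := by
  have hqp : q.Prime := Fact.out
  have hfin := finiteIndex_range_conjDeltaK hK hN hqp hqN
  let _ : Fintype (K ⧸ (conjDeltaK hK q).range) :=
    (conjDeltaK hK q).range.fintypeQuotientOfFiniteIndex
  have hinj := conjDeltaK_injective hK hqp.ne_zero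
  have hrel : ∀ g' : Kq N q K, heckeRep q ((0 : ZMod q) : OnePoint (ZMod q)) *
      ((ιK K).comp (conjDeltaK hK q)) g' =
      ιK (Kq N q K) ((MonoidHom.id (Kq N q K)) g') *
        heckeRep q ((0 : ZMod q) : OnePoint (ZMod q)) :=
    fun g' => r1_rel (toGamma0q N q K g')
  have hs1 := IsCosetSystem.single (ι := ιK (Kq N q K)) (ι' := (ιK K).comp (conjDeltaK hK q))
    (ιK_injective (Kq N q K)) (MonoidHom.id (Kq N q K))
    (heckeRep q ((0 : ZMod q) : OnePoint (ZMod q))) hrel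
  have hs2 := IsCosetSystem.ofTransfer (conjDeltaK hK q) hinj (ιK K) (ιK_injective K)
  have hprod := hs1.prod hs2 (by
    intro _ _ z z' g e
    refine ⟨rfl, ?_⟩
    have e1 := hrel g
    rw [MonoidHom.id_apply] at e1
    rw [← mul_assoc, ← e1, mul_assoc] at e
    have e2 := mul_left_cancel e
    rw [MonoidHom.comp_apply, ← map_mul] at e2
    have e3 := ιK_injective K e2
    have hmem : (z.out)⁻¹ * z'.out ∈ (conjDeltaK hK q).range :=
      ⟨g, by rw [e3, inv_mul_cancel_right]⟩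
    have h3 := QuotientGroup.eq.mpr hmem
    rwa [QuotientGroup.out_eq', QuotientGroup.out_eq'] at h3)
  show transferAlong (conjDeltaK hK q) ψ = _
  rw [transferAlong_eq (conjDeltaK hK q) hinj (ιK K) (ιK_injective K)]
  have hr1 : ψ = hs1.transfer ψ := by
    rw [IsCosetSystem.single_transfer (ι := ιK (Kq N q K))
      (ι' := (ιK K).comp (conjDeltaK hK q)) (ιK_injective (Kq N q K))
      (MonoidHom.id (Kq N q K)) (heckeRep q ((0 : ZMod q) : OnePoint (ZMod q))) hrel ψ]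
    rfl
  conv_lhs => rw [hr1]
  rw [IsCosetSystem.transfer_comp hs1 hs2 hprod]
  refine IsCosetSystem.transfer_eq_of_le_of_card hprod (alSystemK hK hqN x b hxb) ?_
    (fun z => ?_) ψ
  · rw [Fintype.card_prod, Fintype.card_unit, one_mul, ← Nat.card_eq_fintype_card,
      ← Nat.card_eq_fintype_card, card_onePoint_zmod, ← index_range_conjDeltaK hK hN hqp hqN,
      Subgroup.index_eq_card]
  · have := (alSystemK hK hqN x b hxb).spec ((0 : ZMod q) : OnePoint (ZMod q)) (z.2.out)⁻¹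
    rw [alRep_coe] at this
    exact ⟨_, _, this⟩

/-- `(r₁ t₂ ψ)(γ) = ψ(c_w γ) + (U_q ψ)(γ)`. -/
theorem r₁K_t₂K_apply (hK : IsMid N K) (hN : N ≠ 0) (hqN : ¬ q ∣ N) (x b : ℤ)
    (hxb : x * q - b * N = 1) (ψ : Additive (Kq N q K) →+ A) (γ : Kq N q K) :
    r₁K N q K (t₂K hK q ψ) (Additive.ofMul γ) =
      ψ (Additive.ofMul (alConjK hK hqN x b hxb γ)) +
        UK (Kq N q K) q ψ (Additive.ofMul γ) := by
  rw [t₂K_eq_transfer hK hN hqN x b hxb, r₁K_alTransfer_apply]

end Ops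

/-! ## The twisted transversal of `K_q` in `K` -/

omit [Fact (Nat.Prime q)] in
theorem dUnit_upperUnip (k : ℤ) : dUnit N (upperUnip N k) = 1 := by
  apply Units.ext
  rw [coe_dUnit, (upperUnip_entries N k).2.2.2]
  simp

omit [Fact (Nat.Prime q)] in
theorem dUnit_alElt (x b : ℤ) (hxb : x * q - b * N = 1) :
    ((dUnit N (alElt N q x b hxb) : (ZMod N)ˣ) : ZMod N) = (q : ZMod N) := by
  rw [coe_dUnit, (alElt_entries x b hxb).2.2.2]
  simp

/-- The twisting elements: `1` at `∞`, `σ⁻¹` at the finite points. -/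
def alTau (σ : Gamma0 (N * q)) (y : OnePoint (ZMod q)) : Gamma0 N :=
  Option.elim y 1 (fun _ => (incl N q σ)⁻¹)

omit [Fact (Nat.Prime q)] in
theorem alTau_infty (σ : Gamma0 (N * q)) : alTau σ (OnePoint.infty : OnePoint (ZMod q)) = 1 := rfl

omit [Fact (Nat.Prime q)] in
theorem alTau_coe (σ : Gamma0 (N * q)) (j : ZMod q) :
    alTau σ (j : OnePoint (ZMod q)) = (incl N q σ)⁻¹ := rfl

omit [Fact (Nat.Prime q)] in
theorem alTau_mem_range (σ : Gamma0 (N * q)) (y : OnePoint (ZMod q)) :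
    alTau σ y ∈ (incl N q).range := by
  induction y using OnePoint.rec with
  | infty => exact one_mem _
  | coe j => exact inv_mem ⟨σ, rfl⟩

omit [Fact (Nat.Prime q)] in
/-- The twisted transversal has lower right entry `≡ 1 mod N`. -/
theorem dUnit_alTau_mul_alTrans (x b : ℤ) (hxb : x * q - b * N = 1) (σ : Gamma0 (N * q))
    (hσ : ((dUnit N (incl N q σ) : (ZMod N)ˣ) : ZMod N) = (q : ZMod N))
    (y : OnePoint (ZMod q)) :
    dUnit N (alTau σ y * alTrans (alElt N q x b hxb) y) = 1 := by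
  have hσ' : dUnit N (incl N q σ) = dUnit N (alElt N q x b hxb) :=
    Units.ext (hσ.trans (dUnit_alElt x b hxb).symm)
  induction y using OnePoint.rec with
  | infty => rw [alTau_infty, alTrans_infty, mul_one, map_one]
  | coe j =>
    rw [alTau_coe, alTrans_coe, map_mul, map_mul, map_inv, dUnit_upperUnip, mul_one, hσ',
      inv_mul_cancel]

/-- The transversal `1`, `σ⁻¹ g₀ [[1, j], [0, 1]]` of `K_q` in `K`. -/
def alTransK (hK : IsMid N K) (x b : ℤ) (hxb : x * q - b * N = 1) (σ : Gamma0 (N * q))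
    (hσ : ((dUnit N (incl N q σ) : (ZMod N)ˣ) : ZMod N) = (q : ZMod N))
    (y : OnePoint (ZMod q)) : K :=
  ⟨((alTau σ y * alTrans (alElt N q x b hxb) y : Gamma0 N) : SL(2, ℤ)),
    hK.mem_of_dUnit_eq_one (dUnit_alTau_mul_alTrans x b hxb σ hσ y)⟩

omit [Fact (Nat.Prime q)] in
theorem inclK_alTransK (hK : IsMid N K) (x b : ℤ) (hxb : x * q - b * N = 1)
    (σ : Gamma0 (N * q)) (hσ : ((dUnit N (incl N q σ) : (ZMod N)ˣ) : ZMod N) = (q : ZMod N))
    (y : OnePoint (ZMod q)) :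
    inclK hK (alTransK hK x b hxb σ hσ y) = alTau σ y * alTrans (alElt N q x b hxb) y := rfl

omit [Fact (Nat.Prime q)] in
theorem alTransK_infty (hK : IsMid N K) (x b : ℤ) (hxb : x * q - b * N = 1)
    (σ : Gamma0 (N * q)) (hσ : ((dUnit N (incl N q σ) : (ZMod N)ˣ) : ZMod N) = (q : ZMod N)) :
    alTransK hK x b hxb σ hσ (OnePoint.infty : OnePoint (ZMod q)) = 1 := by
  apply inclK_injective hK
  rw [inclK_alTransK, alTau_infty, alTrans_infty, mul_one, map_one]

theorem alTransK_distinct (hK : IsMid N K) (hqN : ¬ q ∣ N) (x b : ℤ) (hxb : x * q - b * N = 1)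
    (σ : Gamma0 (N * q)) (hσ : ((dUnit N (incl N q σ) : (ZMod N)ˣ) : ZMod N) = (q : ZMod N))
    (y y' : OnePoint (ZMod q))
    (h : alTransK hK x b hxb σ hσ y * (alTransK hK x b hxb σ hσ y')⁻¹ ∈ (inclKq N q K).range) :
    y = y' := by
  rw [mem_range_inclKq_iff hK, map_mul, map_inv, inclK_alTransK, inclK_alTransK] at h
  apply alTrans_distinct hqN x b hxb y y'
  have h1 := (incl N q).range.mul_mem
    ((incl N q).range.mul_mem ((incl N q).range.inv_mem (alTau_mem_range σ y)) h)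
    (alTau_mem_range σ y')
  have e : (alTau σ y)⁻¹ * (alTau σ y * alTrans (alElt N q x b hxb) y *
      (alTau σ y' * alTrans (alElt N q x b hxb) y')⁻¹) * alTau σ y' =
      alTrans (alElt N q x b hxb) y * (alTrans (alElt N q x b hxb) y')⁻¹ := by
    group
  rwa [e] at h1

/-- The coset system of the twisted transversal. -/
theorem alTransSystemK (hK : IsMid N K) (hN : N ≠ 0) (hqN : ¬ q ∣ N) (x b : ℤ)
    (hxb : x * q - b * N = 1) (σ : Gamma0 (N * q))
    (hσ : ((dUnit N (incl N q σ) : (ZMod N)ˣ) : ZMod N) = (q : ZMod N)) :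
    IsCosetSystem ((ιK K).comp (inclKq N q K)) (ιK K)
      (fun y : OnePoint (ZMod q) => ιK K (alTransK hK x b hxb σ hσ y)) := by
  have hqp : q.Prime := Fact.out
  exact isCosetSystem_of_transversal (inclKq N q K) (inclKq_injective N q K) (ιK K)
    (ιK_injective K) (alTransK hK x b hxb σ hσ) (alTransK_distinct hK hqN x b hxb σ hσ)
    (by rw [card_onePoint_zmod, index_range_inclKq hK hN hqp hqN])
    (by rw [index_range_inclKq hK hN hqp hqN]; omega)

/-- The key relation in `Γ₀(N)`: `g₀ u_j γ = c_w(γ_j) g₀ u_{j'}`. -/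
theorem alTrans_mul_incl (hqN : ¬ q ∣ N) (x b : ℤ) (hxb : x * q - b * N = 1)
    (γ : Gamma0 (N * q)) (j : ZMod q) :
    alTrans (alElt N q x b hxb) (j : OnePoint (ZMod q)) * incl N q γ =
      incl N q (alConj hqN x b hxb ((uqSystem (dvd_mul_self_left N q)).coc j γ)) *
        alTrans (alElt N q x b hxb)
          (((uqSystem (dvd_mul_self_left N q)).act j γ : ZMod q) : OnePoint (ZMod q)) := by
  rw [alTrans_coe, alTrans_coe, ← mul_assoc, (alSystem_infty hqN x b hxb _).2, mul_assoc,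
    mul_assoc, conjDelta_coc_mul γ j]

section Ops2

variable {A : Type*} [AddCommGroup A]

/-- `t₁K` is the transfer of the coset system of the twisted transversal. -/
theorem t₁K_eq_transfer (hK : IsMid N K) (hN : N ≠ 0) (hqN : ¬ q ∣ N) (x b : ℤ)
    (hxb : x * q - b * N = 1) (σ : Gamma0 (N * q))
    (hσ : ((dUnit N (incl N q σ) : (ZMod N)ˣ) : ZMod N) = (q : ZMod N))
    (ψ : Additive (Kq N q K) →+ A) :
    t₁K N q K ψ = (alTransSystemK hK hN hqN x b hxb σ hσ).transfer ψ := by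
  have hqp : q.Prime := Fact.out
  exact transferAlong_eq_of_transversal (inclKq N q K) (inclKq_injective N q K) (ιK K)
    (ιK_injective K) (alTransK hK x b hxb σ hσ) (alTransK_distinct hK hqN x b hxb σ hσ)
    (by rw [card_onePoint_zmod, index_range_inclKq hK hN hqp hqN])
    (by rw [index_range_inclKq hK hN hqp hqN]; omega) ψ

/-- The trivial coset is fixed by `K_q`, with cocycle the identity. -/
theorem alTransSystemK_infty (hK : IsMid N K) (hN : N ≠ 0) (hqN : ¬ q ∣ N) (x b : ℤ)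
    (hxb : x * q - b * N = 1) (σ : Gamma0 (N * q))
    (hσ : ((dUnit N (incl N q σ) : (ZMod N)ˣ) : ZMod N) = (q : ZMod N)) (γ : Kq N q K) :
    (alTransSystemK hK hN hqN x b hxb σ hσ).coc OnePoint.infty (inclKq N q K γ) = γ := by
  apply (alTransSystemK hK hN hqN x b hxb σ hσ).coc_eq (j := OnePoint.infty)
  simp only [alTransK_infty, map_one, one_mul, mul_one]
  rfl

/-- On the other cosets the cocycle is `σ⁻¹ c_w(γ_j) σ`. -/
theorem alTransSystemK_coe (hK : IsMid N K) (hN : N ≠ 0) (hqN : ¬ q ∣ N) (x b : ℤ)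
    (hxb : x * q - b * N = 1) (σ : Gamma0 (N * q))
    (hσ : ((dUnit N (incl N q σ) : (ZMod N)ˣ) : ZMod N) = (q : ZMod N)) (γ : Kq N q K)
    (j : ZMod q) :
    (alTransSystemK hK hN hqN x b hxb σ hσ).coc (j : OnePoint (ZMod q)) (inclKq N q K γ) =
      (conjK (isMid_Kq hK q) σ).symm (alConjK hK hqN x b hxb ((uqSystemK hK).coc j γ)) := by
  apply (alTransSystemK hK hN hqN x b hxb σ hσ).coc_eq
    (j := (((uqSystemK hK).act j γ : ZMod q) : OnePoint (ZMod q)))
  rw [MonoidHom.comp_apply, ← map_mul, ← map_mul]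
  congr 1
  apply inclK_injective hK
  rw [map_mul, map_mul, inclK_alTransK, inclK_alTransK, inclK_inclKq, inclK_inclKq, alTau_coe,
    alTau_coe, uqSystemK_act hK]
  have e1 : toGamma0q N q K ((conjK (isMid_Kq hK q) σ).symm
      (alConjK hK hqN x b hxb ((uqSystemK hK).coc j γ))) =
      σ⁻¹ * alConj hqN x b hxb ((uqSystem (dvd_mul_self_left N q)).coc j (toGamma0q N q K γ)) *
        σ := by
    rw [← uqSystemK_coc hK, ← toGamma0q_alConjK hK hqN x b hxb]
    rfl
  rw [e1, map_mul, map_mul, map_inv, mul_assoc ((incl N q σ)⁻¹), alTrans_mul_incl hqN x b hxb]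
  simp only [mul_assoc, mul_inv_cancel_left]

/-- `(r₁ t₁ ⟨σ⟩ψ)(γ) = (⟨σ⟩ψ)(γ) + ∑_j ψ(c_w (γ_j))`. -/
theorem r₁K_t₁K_diamond_apply (hK : IsMid N K) (hN : N ≠ 0) (hqN : ¬ q ∣ N) (x b : ℤ)
    (hxb : x * q - b * N = 1) (σ : Gamma0 (N * q))
    (hσ : ((dUnit N (incl N q σ) : (ZMod N)ˣ) : ZMod N) = (q : ZMod N))
    (ψ : Additive (Kq N q K) →+ A) (γ : Kq N q K) :
    r₁K N q K (t₁K N q K (diamond (isMid_Kq hK q) σ ψ)) (Additive.ofMul γ) =
      diamond (isMid_Kq hK q) σ ψ (Additive.ofMul γ) +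
        ∑ j : ZMod q, ψ (Additive.ofMul
          (alConjK hK hqN x b hxb ((uqSystemK hK).coc j γ))) := by
  rw [t₁K_eq_transfer hK hN hqN x b hxb σ hσ, r₁K_apply, IsCosetSystem.transfer_apply,
    sum_onePoint, alTransSystemK_infty hK hN hqN x b hxb σ hσ]
  congr 1
  refine Finset.sum_congr rfl fun j _ => ?_
  rw [alTransSystemK_coe hK hN hqN x b hxb σ hσ, diamond_apply, MulEquiv.apply_symm_apply]

/-- **`U_q² = ⟨σ⟩ + U_q r₁ t₂ - r₁ t₁ ⟨σ⟩`** on `Hom(K_q, A)`, `K_q = K ⊓ Γ₀(N q)`, `q ∤ N`,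
`σ ∈ Γ₀(N q)` with lower right entry `≡ q mod N`. -/
theorem UK_UK_K (hK : IsMid N K) (hN : N ≠ 0) (hqN : ¬ q ∣ N) (σ : Gamma0 (N * q))
    (hσ : ((dUnit N (incl N q σ) : (ZMod N)ˣ) : ZMod N) = (q : ZMod N))
    (ψ : Additive (Kq N q K) →+ A) :
    UK (Kq N q K) q (UK (Kq N q K) q ψ) =
      diamond (isMid_Kq hK q) σ ψ + UK (Kq N q K) q (r₁K N q K (t₂K hK q ψ)) -
        r₁K N q K (t₁K N q K (diamond (isMid_Kq hK q) σ ψ)) := by
  obtain ⟨x, b, hxb⟩ := exists_bezout_al (N := N) (q := q) hqN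
  refine AddMonoidHom.ext fun g' => ?_
  obtain ⟨γ, rfl⟩ : ∃ g : Kq N q K, Additive.ofMul g = g' := ⟨Additive.toMul g', rfl⟩
  have hW : ∀ γ' : Kq N q K, ψ (Additive.ofMul (alConjK hK hqN x b hxb γ')) =
      r₁K N q K (t₂K hK q ψ) (Additive.ofMul γ') -
        UK (Kq N q K) q ψ (Additive.ofMul γ') := by
    intro γ'
    rw [r₁K_t₂K_apply hK hN hqN x b hxb, add_sub_cancel_right]
  rw [AddMonoidHom.sub_apply, AddMonoidHom.add_apply,
    r₁K_t₁K_diamond_apply hK hN hqN x b hxb σ hσ, UK_Kq_apply hK, UK_Kq_apply hK]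
  simp only [hW, Finset.sum_sub_distrib]
  abel

/-! ## Consumer forms -/

omit [Fact (Nat.Prime q)] in
/-- On `Hom(K_q, A)` the diamond operator of `σ ∈ Γ₀(N q)` only depends on `d(σ) mod N`. -/
theorem diamond_Kq_congr (hK : IsMid N K) {σ σ' : Gamma0 (N * q)}
    (h : dUnit N (incl N q σ) = dUnit N (incl N q σ')) (ψ : Additive (Kq N q K) →+ A) :
    diamond (isMid_Kq hK q) σ ψ = diamond (isMid_Kq hK q) σ' ψ := by
  apply diamond_congr_of_mem
  refine ⟨?_, (σ⁻¹ * σ').2⟩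
  have h1 : dUnit N (incl N q (σ⁻¹ * σ')) = 1 := by
    rw [map_mul, map_mul, map_inv, map_inv, h, inv_mul_cancel]
  exact hK.mem_of_dUnit_eq_one h1

omit [Fact (Nat.Prime q)] in
/-- `t₁ ⟨σ⟩ = ⟨σ⟩ t₁`. -/
theorem t₁K_diamond (hK : IsMid N K) (σ : Gamma0 (N * q)) (ψ : Additive (Kq N q K) →+ A) :
    t₁K N q K (diamond (isMid_Kq hK q) σ ψ) = diamond hK (incl N q σ) (t₁K N q K ψ) :=
  Fermat.Agent.S41.H924.transferAlong_comp_aut (inclKq N q K) (conjK (isMid_Kq hK q) σ)
    (conjK hK (incl N q σ)) (fun _ => rfl) ψ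

omit [Fact (Nat.Prime q)] in
/-- `r₁ ⟨σ⟩ = ⟨σ⟩ r₁`. -/
theorem r₁K_diamond (hK : IsMid N K) (σ : Gamma0 (N * q)) (φ : Additive K →+ A) :
    r₁K N q K (diamond hK (incl N q σ) φ) = diamond (isMid_Kq hK q) σ (r₁K N q K φ) := rfl

/-- **`U_q² = ⟨σ⟩ + U_q r₁ t₂ - ⟨σ⟩ r₁ t₁`** on `Hom(K_q, A)` (the field `UU` of the twisted
degeneracy relations, `D_Q = ⟨σ⟩`). -/
theorem UK_UK_K' (hK : IsMid N K) (hN : N ≠ 0) (hqN : ¬ q ∣ N) (σ : Gamma0 (N * q))
    (hσ : ((dUnit N (incl N q σ) : (ZMod N)ˣ) : ZMod N) = (q : ZMod N))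
    (ψ : Additive (Kq N q K) →+ A) :
    UK (Kq N q K) q (UK (Kq N q K) q ψ) =
      diamond (isMid_Kq hK q) σ ψ + UK (Kq N q K) q (r₁K N q K (t₂K hK q ψ)) -
        diamond (isMid_Kq hK q) σ (r₁K N q K (t₁K N q K ψ)) := by
  rw [UK_UK_K hK hN hqN σ hσ, _root_.Fermat.Agent.S38.H719.t₁K_diamond hK, _root_.Fermat.Agent.S38.H719.r₁K_diamond hK]

/-- **`U_q² = ⟨σ⟩` on the `q`-new classes of `Hom(K_q, A)`.** -/
theorem UK_UK_K_of_new (hK : IsMid N K) (hN : N ≠ 0) (hqN : ¬ q ∣ N) (σ : Gamma0 (N * q))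
    (hσ : ((dUnit N (incl N q σ) : (ZMod N)ˣ) : ZMod N) = (q : ZMod N))
    (ψ : Additive (Kq N q K) →+ A) (h₁ : t₁K N q K ψ = 0) (h₂ : t₂K hK q ψ = 0) :
    UK (Kq N q K) q (UK (Kq N q K) q ψ) = diamond (isMid_Kq hK q) σ ψ := by
  have hz : r₁K N q K (0 : Additive K →+ A) = 0 := rfl
  rw [UK_UK_K' hK hN hqN σ hσ, h₁, h₂, hz, UK_Kq_zero hK, diamond_zero, add_zero, sub_zero]

/-- There is `σ ∈ Γ₀(N q)` with lower right entry `≡ q mod N`. -/
theorem exists_sigma_q (hN : N ≠ 0) (hqN : ¬ q ∣ N) :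
    ∃ σ : Gamma0 (N * q), ((dUnit N (incl N q σ) : (ZMod N)ˣ) : ZMod N) = (q : ZMod N) := by
  have hqp : q.Prime := Fact.out
  have : NeZero (N * q) := ⟨Nat.mul_ne_zero hN hqp.ne_zero⟩
  have hcop : Nat.Coprime q N := hqp.coprime_iff_not_dvd.mpr hqN
  obtain ⟨σ, hσ⟩ := exists_Gamma0q_dUnit N q (ZMod.unitOfCoprime q hcop)
  exact ⟨σ, by rw [hσ, ZMod.coe_unitOfCoprime]⟩

end Ops2

end Fermat.Agent.S38.H719

end
-- ===== PACK-END S38/H719/UUK.lean

-- ===== PACK-BEGIN S38/H593/StCorSpec.lean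
section


/-!
# Row HARD, cell HECKE, leaf IA-ST, middle glue (B): the COR statement  (helper593)

The only input of the final assembly of IA-ST (`S38/H593/StAsm.lean`,
`iaStPt_h593 : IAMinZeroStatement → S35Statement → IAStCorStatement → IAStPtStatement953`)
which is not a closed theorem yet.  Only definitions here.

`K = KIA p Smin pv qv = Γ₀(N_min) ∩ Γ_H(Piv ∪ Q)`, `K₁ = KG p (ribetLevel p Smin Piv) qv =
Γ₀(N_min · ∏ Piv) ∩ Γ_H(Q)` (same level as a number, `K ≤ K₁`).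

`IAStCorStatement` : there is an `𝒪`-linear map `c : X_K(𝒪) → X_{K₁}(𝒪)` (the corestriction) and
an integer `n ≠ 0` (the index `[K₁ : K] = |Δ_Piv|`, or `1`) such that, for the localisation `V`
of `X_K(𝒪)` (`IsIAPart`):

* NAT: `c V ⊆ V₁` for every localisation `V₁` of `X_{K₁}(𝒪)` at the same eigen-system;
* EQUIVARIANCE: `c (⟨ℓ⟩^h T_ℓ v) = ⟨ℓ⟩^h T_ℓ (c v)` for `v ∈ V` and every good prime `ℓ`;
* KERNEL: `c v = 0`, `v ∈ V` ⟹ `n • v ∈ chiRelIA 1 V = I_{Δ_Piv} V`
  (`res ∘ cor = ∑_{d ∈ Δ_Piv} ⟨d⟩`).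
-/

set_option autoImplicit false

open Polynomial IsLocalRing CongruenceSubgroup
open scoped MatrixGroups

namespace Fermat.Agent.S38.H593

open Fermat.Agent.S59.Arch Fermat.Agent.S59.TW.H959 Fermat.Agent.S59.TW Fermat.Agent.S59.H765
open Fermat.Agent.S59.TW.H653 Fermat.Agent.S59.TW.Aut
open Fermat.Agent.S38.IA Fermat.Agent.S38.IA.Hecke
open CuspForm

/-- **IA-ST-COR.**  Binders of `IAStStatement` (without `_hmin`, `a`); see the header. -/
def IAStCorStatement : Prop :=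
  ∀ (p : ℕ) [Fact p.Prime] (_hp5 : 5 ≤ p)
    (𝒪 : Type) [CommRing 𝒪] [IsDomain 𝒪] [IsDiscreteValuationRing 𝒪]
    [IsAdicComplete (maximalIdeal 𝒪) 𝒪] [Finite (ResidueField 𝒪)] [CharZero 𝒪]
    (ρbar : ResidualGaloisRep (ResidueField 𝒪)) (Smin : Finset ℕ)
    (_h : ResidualHyp p 𝒪 ρbar Smin)
    (_hflat : (GaloisRepAdic.ofResidualGaloisRep ρbar).IsFlatAt p)
    (Piv : Finset ℕ) (_hPiv : IsPivotSet p ρbar Smin Piv)
    (k : ℕ) (pv : Fin k → ℕ) (_hpv : Function.Injective pv)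
    (_hpvPiv : Finset.univ.image pv = Piv)
    (n r : ℕ) (qv : Fin r → ℕ) (_hq : IsTWSet p ρbar (Smin ∪ Piv) n qv)
    [NeZero (wilesLevel p .flat Smin (Smin ∪ Piv ∪ Finset.univ.image qv))]
    (PQ : HeckePkg p 𝒪 ρbar .flat Smin (Smin ∪ Piv ∪ Finset.univ.image qv))
    (α : Fin r → 𝒪) (_hα : IsFrobLift ρbar qv α)
    (V : Submodule 𝒪 (XIA p Smin pv qv 𝒪)) (h : ℕ),
    IsIAPart PQ α V → IsHalf p pv h → IsHalf p qv h →
    ∃ (c : XIA p Smin pv qv 𝒪 →ₗ[𝒪] (Additive (KG p (ribetLevel p Smin Piv) qv) →+ 𝒪))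
      (m : ℕ), m ≠ 0 ∧
      (∀ V₁ : Submodule 𝒪 (Additive (KG p (ribetLevel p Smin Piv) qv) →+ 𝒪),
        IsLocPart (isMid_KG p (ribetLevel p Smin Piv) qv) (TsetOf PQ) (UsetOf qv α) V₁ →
        ∀ v ∈ V, c v ∈ V₁) ∧
      (∀ (ℓ : ℕ) (hℓ : ℓ.Prime),
        ¬ ℓ ∣ wilesLevel p .flat Smin (Smin ∪ Piv ∪ Finset.univ.image qv) →
        ℓ ∉ (↑(Smin ∪ Piv ∪ Finset.univ.image qv) : Set ℕ) → ∀ v ∈ V,
        c (tOpTw (isMid_KIA p Smin pv qv) 𝒪 h ℓ hℓ v) =
          tOpTw (isMid_KG p (ribetLevel p Smin Piv) qv) 𝒪 h ℓ hℓ (c v)) ∧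
      ∀ v ∈ V, c v = 0 → m • v ∈ chiRelIA p Smin pv qv 1 V

end Fermat.Agent.S38.H593

end
-- ===== PACK-END S38/H593/StCorSpec.lean

-- ===== PACK-BEGIN S38/H264/UForm.lean
section


/-!
# Row HARD, leaf (ST), bridge MODQ-U (helper264), part 1: `U_q` on `S₂(K)` and on the
# nebentypus components

`Γ₁(M) ≤ K ≤ Γ₀(M)` (`H653.IsMid M K`), `q ∣ M` prime.  Mirror of helper658's `TForm` / `nebT`
(`S59/TW/H658/{HeckeForms,NebOps}.lean`) for the operator `U_q`:

* `UForm hK hq : CuspForm K 2 →ₗ[ℂ] CuspForm K 2`, `⇑(UForm hK hq f) = ∑ⱼ ⇑f ∣[2] repsU q j`;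
  `perG_UForm : perG (UForm hK hq f) = H653.UK K q (perG f)`;
* `isNeb_famOp_repsU` : `F ↦ ∑ⱼ F ∣ repsU q j` preserves the nebentypus;
* `famOp_repsU_eq` : `∑ⱼ F ∣ repsU q j = heckeU 2 q F`;
* `nebU χ hq c : nebSub M χ →ₗ[ℂ] nebSub M χ`, `F ↦ c • ∑ⱼ F ∣ repsU q j`;
* `perG_nebForm_nebU` : `perG (nebForm (nebU χ hq (χ u) F)) = ⟨u⟩ U_q (perG (nebForm F))`.
-/

set_option autoImplicit false
set_option linter.unusedSectionVars false

noncomputable section

namespace Fermat.Agent.S38.H264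

open CongruenceSubgroup ModularForm ModularCurve ModularCurve.Period
open UpperHalfPlane hiding I
open Matrix.SpecialLinearGroup Fermat.Agent.Lib.Newform.H803
open Fermat.Agent.S41.H761 Fermat.Agent.S29.H642
open Fermat.Agent.S59.TW.H653 Fermat.Agent.S59.TW.H564 Fermat.Agent.S59.TW.H658
open scoped Manifold MatrixGroups ModularForm

variable {M : ℕ} {K : Subgroup SL(2, ℤ)}

theorem det_repsU_pos (q : ℕ) (j : ZMod q) :
    0 < ((repsU q j : GL (Fin 2) ℝ) : Matrix (Fin 2) (Fin 2) ℝ).det := by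
  have := ModularForm.det_heckeMatrix_pos q j.val
  rwa [Matrix.GeneralLinearGroup.val_det_apply] at this

theorem isCuspidal_slash_repsU {k : ℤ} {q : ℕ} (hq0 : q ≠ 0) (F : ℍ → ℂ)
    (hF : IsCuspidal k F) (j : ZMod q) : IsCuspidal k (F ∣[k] repsU q j) :=
  hF.slash_heckeMatrix hq0 _

/-- `∑ⱼ F ∣ repsU q j = U_q F` (function level). -/
theorem famOp_repsU_eq {k : ℤ} (q : ℕ) [NeZero q] (F : ℍ → ℂ) :
    famOp k (repsU q) F = heckeU k q F := by
  rw [famOp]
  exact sum_zmod_val_eq_sum_range (fun j => F ∣[k] heckeMatrix q j)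

/-- The operator `∑ⱼ F ∣ repsU q j` preserves the nebentypus. -/
theorem isNeb_famOp_repsU (χ : DirichletCharacter ℂ M) {q : ℕ} [Fact q.Prime] (hq : q ∣ M)
    {F : ℍ → ℂ} (hF : IsNeb 2 M (chiZ χ) F) :
    IsNeb 2 M (chiZ χ) (famOp 2 (repsU q) F) := by
  intro γ hγ
  have h₀ := repsU_system0 (M := M) hq
  have key : ∀ i : ZMod q, (F ∣[(2 : ℤ)] repsU q i) ∣[(2 : ℤ)] γ =
      chiZ χ (γ 1 1) • F ∣[(2 : ℤ)] repsU q (h₀.act i ⟨γ, hγ⟩) := by
    intro i
    have hs := h₀.spec i ⟨γ, hγ⟩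
    rw [ιN_apply, ιN_apply] at hs
    have hd := dUnit_coc h₀ (isNormRep_repsU q) i ⟨γ, hγ⟩
    have hc : chiZ χ (((h₀.coc i ⟨γ, hγ⟩ : Gamma0 M) : SL(2, ℤ)) 1 1) = chiZ χ (γ 1 1) := by
      rw [chiZ_of_mem, hd, ← chiZ_of_mem]
    rw [sl_slash_mapGL, ← SlashAction.slash_mul, hs, SlashAction.slash_mul, ← sl_slash_mapGL,
      hF _ (h₀.coc i ⟨γ, hγ⟩).2, smul_slash_of_det_pos _ _ (det_repsU_pos q _), hc]
  rw [famOp, SlashAction.sum_slash]
  simp only [key]
  rw [← Finset.smul_sum]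
  congr 1
  exact Equiv.sum_comp (h₀.actEquiv ⟨γ, hγ⟩) (fun j => F ∣[(2 : ℤ)] repsU q j)

/-- `F ↦ c • ∑ⱼ F ∣ repsU q j` on the nebentypus-`χ` component. -/
def nebU (χ : DirichletCharacter ℂ M) {q : ℕ} [Fact q.Prime] (hq : q ∣ M) (c : ℂ) :
    _root_.Fermat.Agent.S59.TW.H658.nebSub M χ →ₗ[ℂ] _root_.Fermat.Agent.S59.TW.H658.nebSub M χ where
  toFun F := ⟨c • famOp 2 (repsU q) (F : ℍ → ℂ), (_root_.Fermat.Agent.S59.TW.H658.nebSub M χ).smul_mem c
    ⟨isCuspidal_famOp (isCuspidal_slash_repsU (Fact.out : q.Prime).ne_zero) F.2.1,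
      isNeb_famOp_repsU χ hq F.2.2⟩⟩
  map_add' F G := Subtype.ext <| by
    show c • famOp 2 (repsU q) ((F : ℍ → ℂ) + (G : ℍ → ℂ)) = _
    rw [famOp_add, smul_add]
    rfl
  map_smul' a F := Subtype.ext <| by
    show c • famOp 2 (repsU q) (a • (F : ℍ → ℂ)) = a • (c • famOp 2 (repsU q) (F : ℍ → ℂ))
    rw [famOp_smul _ (det_repsU_pos q), smul_comm]

@[simp] theorem coe_nebU (χ : DirichletCharacter ℂ M) {q : ℕ} [Fact q.Prime] (hq : q ∣ M)
    (c : ℂ) (F : _root_.Fermat.Agent.S59.TW.H658.nebSub M χ) :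
    ((nebU χ hq c F : _root_.Fermat.Agent.S59.TW.H658.nebSub M χ) : ℍ → ℂ) = c • famOp 2 (repsU q) (F : ℍ → ℂ) := rfl

variable [K.FiniteIndex]

/-- `U_q` on weight-2 cusp forms of `K`. -/
def UForm (hK : IsMid M K) {q : ℕ} [Fact q.Prime] (hq : q ∣ M) :
    CuspForm K 2 →ₗ[ℂ] CuspForm K 2 :=
  cosetOp (repsU_system hK hq) (det_repsU_pos q)
    (isCuspidal_slash_repsU (Fact.out : q.Prime).ne_zero)

@[simp] theorem coe_UForm (hK : IsMid M K) {q : ℕ} [Fact q.Prime] (hq : q ∣ M)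
    (f : CuspForm K 2) : (⇑(UForm hK hq f) : ℍ → ℂ) = famOp 2 (repsU q) ⇑f := rfl

/-- **E2 for `U_q`.** -/
theorem perG_UForm (hK : IsMid M K) {q : ℕ} [Fact q.Prime] (hq : q ∣ M) (f : CuspForm K 2) :
    perG (UForm hK hq f) = UK K q (perG f) := by
  rw [UK_eq hK hq]
  exact perG_cosetOp (repsU_system hK hq) _ _ f

/-- **E2 on the `χ`-component for `U_q`**: the period map intertwines
`χ(u) • ∑ⱼ · ∣ repsU q j` with `⟨u⟩ ∘ U_q`. -/
theorem perG_nebForm_nebU [NeZero M] (hK : IsMid M K) (χ : DirichletCharacter ℂ M)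
    (hχ : _root_.Fermat.Agent.S59.TW.H658.TrivOn K χ) {q : ℕ} [Fact q.Prime] (hq : q ∣ M) (u : (ZMod M)ˣ) (F : _root_.Fermat.Agent.S59.TW.H658.nebSub M χ) :
    perG (nebForm hK χ hχ (nebU χ hq (χ (u : ZMod M)) F)) =
      diamondU hK u (UK K q (perG (nebForm hK χ hχ F))) := by
  rw [← perG_UForm hK hq, diamondU_eq hK (dUnit_sg u), ← perG_diaForm]
  congr 1
  apply DFunLike.coe_injective
  rw [coe_nebForm, coe_nebU, coe_diaForm, coe_UForm, coe_nebForm,
    isNeb_famOp_repsU χ hq F.2.2 _ (sg u).2, chiZ_of_mem, dUnit_sg]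

end Fermat.Agent.S38.H264

end
end
-- ===== PACK-END S38/H264/UForm.lean

-- ===== PACK-BEGIN S38/H509/GFam.lean
section




/-!
# Row HARD, cell HECKE, leaf IA-FREE (helper509): the group `Δ` of a finite family of primes

Bookkeeping for the objects `gLevel`, `gRed`, `gChi`, `gKappa`, `KG`, `gLift`, `GDelta` of
`S38/IA/Hecke/Spec3.lean` (helper3), for a family `qq : ι → ℕ` of primes indexed by an ARBITRARY
finite type `ι` (for `ι = Fin r` these are helper511's `bLevel`, `red`, `chi`, `kappa`, `KQ`,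
`liftU`, `Delta`, and the statements below are those of helper762, `S59/TW/Aut/H762`).

* `gRed_surjective_h509`   : `(ℤ/M)ˣ → ∏ (ℤ/qq s)ˣ` is onto (Chinese remainder theorem);
* `gKappa_surjective_h509`, `gKappa_trivial_h509`;
* `gEps_bijective_h509`    : for primitive roots `g s`, the map `e ↦ class of (g s ^ e s)`,
  `∏ Fin (p ^ m_s) → Δ`, is bijective;
* `card_gDelta_h509`       : `|Δ| = p ^ a`;
* `pow_twelve_eq_one_h509` : an element of finite order of `SL(2, ℤ)` has order dividing `12`;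
* `gKappa_ell_h509`        : for `5 ≤ p` the elements of finite order of `Γ₀(M)` lie in `ker κ`
  (hypothesis (Ell) of `MFree.free`);
* `diamondU_gLift_eq_conjAct_h509` : the diamond operator `⟨a⟩` in the vocabulary of M-FREE.
-/

set_option autoImplicit false

open CongruenceSubgroup
open scoped MatrixGroups

namespace Fermat.Agent.S38.H509

open Fermat.Agent.S59.TW.H653 Fermat.Agent.S59.MFree Fermat.Agent.S38.IA.Hecke

/-! ## Elements of finite order of `SL(2, ℤ)` -/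

section Torsion

open Fermat.Agent.S41.H952

theorem sq_of_tr2_h509 (g : SL(2, ℤ)) :
    ((g ^ 2 : SL(2, ℤ)) : Matrix (Fin 2) (Fin 2) ℤ) = tr2 g • g.1 - 1 := by
  rw [pow_two, Matrix.SpecialLinearGroup.coe_mul]
  exact cayley g

/-- An element of finite order of `SL(2, ℤ)` has order dividing `12`. -/
theorem pow_twelve_eq_one_h509 {g : SL(2, ℤ)} (hg : IsOfFinOrder g) : g ^ 12 = 1 := by
  have h2 := abs_tr2_le_two hg
  have hc := cayley g
  -- the matrix `A` of `g` satisfies `A * A = t • A - 1`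
  set A : Matrix (Fin 2) (Fin 2) ℤ := g.1 with hA
  set t : ℤ := tr2 g with ht
  have hpow : ∀ n : ℕ, ((g ^ n : SL(2, ℤ)) : Matrix (Fin 2) (Fin 2) ℤ) = A ^ n := by
    intro n
    exact Matrix.SpecialLinearGroup.coe_pow g n
  have hcases : t = -2 ∨ t = -1 ∨ t = 0 ∨ t = 1 ∨ t = 2 := by
    have := abs_le.mp h2
    omega
  have hAA : A ^ 2 = t • A - 1 := by rw [pow_two]; exact hc
  apply Subtype.ext
  rw [hpow 12]
  show A ^ 12 = 1
  rcases hcases with h | h | h | h | h
  · -- `t = -2`: `-g` has trace `2`, so `g = -1`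
    have h1 : tr2 (-g) = 2 := by rw [tr2_neg, ← ht, h]; norm_num
    have h3 := eq_one_of_tr2_eq_two (isOfFinOrder_neg hg) h1
    have h4 : A = -1 := by
      have h5 : (-g).1 = 1 := by rw [h3]; rfl
      have h6 : (-g).1 = -A := by
        rw [hA]
        exact Matrix.SpecialLinearGroup.coe_neg g
      rw [h6] at h5
      rw [← neg_neg A, h5]
    rw [h4]
    have : (12 : ℕ) = 2 * 6 := by norm_num
    rw [this, pow_mul, neg_one_sq, one_pow]
  · -- `t = -1`: `A^3 = 1`
    rw [h] at hAA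
    have h3 : A ^ 3 = 1 := by
      have : A ^ 3 = A ^ 2 * A := by rw [pow_succ]
      rw [this, hAA, Matrix.sub_mul, Matrix.smul_mul, Matrix.one_mul, ← pow_two, hAA]
      module
    have : (12 : ℕ) = 3 * 4 := by norm_num
    rw [this, pow_mul, h3, one_pow]
  · -- `t = 0`: `A^2 = -1`
    rw [h] at hAA
    have h3 : A ^ 2 = -1 := by rw [hAA]; module
    have : (12 : ℕ) = 2 * 6 := by norm_num
    rw [this, pow_mul, h3]
    have h6 : (6 : ℕ) = 2 * 3 := by norm_num
    rw [h6, pow_mul, neg_one_sq, one_pow]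
  · -- `t = 1`: `A^3 = -1`
    rw [h] at hAA
    have h3 : A ^ 3 = -1 := by
      have : A ^ 3 = A ^ 2 * A := by rw [pow_succ]
      rw [this, hAA, Matrix.sub_mul, Matrix.smul_mul, Matrix.one_mul, ← pow_two, hAA]
      module
    have : (12 : ℕ) = 3 * 4 := by norm_num
    rw [this, pow_mul, h3]
    have h4 : (4 : ℕ) = 2 * 2 := by norm_num
    rw [h4, pow_mul, neg_one_sq, one_pow]
  · -- `t = 2`: `g = 1`
    have h3 := eq_one_of_tr2_eq_two hg (by rw [← ht, h])
    have h4 : A = 1 := by rw [hA, h3]; rfl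
    rw [h4, one_pow]

end Torsion

/-! ## The family -/

section Family

variable (p N₀ : ℕ) {ι : Type} [Fintype ι] (qq : ι → ℕ)

theorem gKappa_apply_h509 (γ : Gamma0 (gLevel N₀ qq)) :
    gKappa p N₀ qq γ = gChi p N₀ qq (dUnit (gLevel N₀ qq) γ) := rfl

theorem gChi_apply_h509 (u : (ZMod (gLevel N₀ qq))ˣ) :
    gChi p N₀ qq u = QuotientGroup.mk (gRed N₀ qq u) := rfl

theorem gRed_apply_h509 (u : (ZMod (gLevel N₀ qq))ˣ) (s : ι) :
    gRed N₀ qq u s = ZMod.unitsMap (dvd_gLevel N₀ qq s) u := rfl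

theorem gKappa_trivial_h509 (γ : Gamma0 (gLevel N₀ qq))
    (h : ((((γ : SL(2, ℤ)) 1 1 : ℤ)) : ZMod (gLevel N₀ qq)) = 1) : gKappa p N₀ qq γ = 1 := by
  have h1 : dUnit (gLevel N₀ qq) γ = 1 := by
    apply Units.ext
    rw [coe_dUnit, h, Units.val_one]
  unfold gKappa
  rw [MonoidHom.comp_apply, h1, map_one]

theorem neZero_gLevel_h509 (hN₀ : N₀ ≠ 0) (hprime : ∀ s, (qq s).Prime) :
    NeZero (gLevel N₀ qq) :=
  ⟨Nat.mul_ne_zero hN₀ (Finset.prod_ne_zero_iff.mpr fun s _ => (hprime s).ne_zero)⟩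

/-- `(ℤ/M)ˣ → ∏ (ℤ/qq s)ˣ` is onto. -/
theorem gRed_surjective_h509 (hN₀ : N₀ ≠ 0) (hinj : Function.Injective qq)
    (hprime : ∀ s, (qq s).Prime) : Function.Surjective (gRed N₀ qq) := by
  classical
  intro a
  have hcop : Pairwise (Function.onFun Nat.Coprime qq) := by
    intro i j hij
    exact (Nat.coprime_primes (hprime i) (hprime j)).mpr fun h => hij (hinj h)
  have hM : NeZero (gLevel N₀ qq) := neZero_gLevel_h509 N₀ qq hN₀ hprime
  have hPM : (∏ s, qq s) ∣ gLevel N₀ qq := Dvd.intro_left _ rfl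
  set e := ZMod.prodEquivPi qq hcop with he
  set x : ZMod (∏ s, qq s) := e.symm (fun s => ((a s : (ZMod (qq s))ˣ) : ZMod (qq s))) with hx
  set y : ZMod (∏ s, qq s) := e.symm (fun s => ((a s)⁻¹ : (ZMod (qq s))ˣ)) with hy
  have hxy : x * y = 1 := by
    rw [hx, hy, ← map_mul]
    have : ((fun s => ((a s : (ZMod (qq s))ˣ) : ZMod (qq s))) *
        fun s => (((a s)⁻¹ : (ZMod (qq s))ˣ) : ZMod (qq s))) = 1 := by
      funext s
      simp
    rw [this, map_one]
  obtain ⟨u, hu⟩ := ZMod.unitsMap_surjective hPM (Units.mkOfMulEqOne x y hxy)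
  refine ⟨u, ?_⟩
  funext s
  apply Units.ext
  rw [gRed_apply_h509]
  have h1 : ZMod.unitsMap (dvd_gLevel N₀ qq s) u =
      ZMod.unitsMap (Finset.dvd_prod_of_mem qq (Finset.mem_univ s)) (ZMod.unitsMap hPM u) := by
    rw [← MonoidHom.comp_apply, ZMod.unitsMap_comp]
  rw [h1, hu]
  show ZMod.castHom (Finset.dvd_prod_of_mem qq (Finset.mem_univ s)) (ZMod (qq s)) x = _
  rw [← ZMod.prodEquivPi_apply qq hcop x s, ← he, hx, RingEquiv.apply_symm_apply]

theorem gKappa_surjective_h509 [NeZero (gLevel N₀ qq)]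
    (hsurj : Function.Surjective (gRed N₀ qq)) : Function.Surjective (gKappa p N₀ qq) := by
  intro d
  obtain ⟨a, rfl⟩ := QuotientGroup.mk_surjective d
  obtain ⟨u, rfl⟩ := hsurj a
  obtain ⟨γ, rfl⟩ := dUnit_surjective u
  exact ⟨γ, rfl⟩

/-- The diamond operator of `K` depends only on the class in `Δ`. -/
theorem diamondU_eq_of_gChi_h509 [NeZero (gLevel N₀ qq)] {A : Type} [AddCommGroup A]
    {u u' : (ZMod (gLevel N₀ qq))ˣ} (hu : gChi p N₀ qq u = gChi p N₀ qq u')
    (x : Additive (KG p N₀ qq) →+ A) :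
    diamondU (isMid_KG p N₀ qq) u x = diamondU (isMid_KG p N₀ qq) u' x := by
  have h1 : u = u' * (u'⁻¹ * u) := by group
  have h2 : gChi p N₀ qq (u'⁻¹ * u) = 1 := by
    rw [map_mul, map_inv, hu, inv_mul_cancel]
  have h3 : diamondU (isMid_KG p N₀ qq) (u'⁻¹ * u) x = x := by
    have h := diamondHom_GammaH (A := A) (M := gLevel N₀ qq) (H := (gChi p N₀ qq).ker)
      (u := u'⁻¹ * u) (MonoidHom.mem_ker.mpr h2)
    exact congrArg (fun f : AddMonoid.End (Additive (GammaH (gLevel N₀ qq)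
      (gChi p N₀ qq).ker) →+ A) => f x) h
  rw [h1, diamondU_mul, h3]

/-- The diamond operator `⟨a⟩` of `K` in the vocabulary of block M-FREE. -/
theorem diamondU_gLift_eq_conjAct_h509 [NeZero (gLevel N₀ qq)]
    (hsurj : Function.Surjective (gRed N₀ qq)) {A : Type} [AddCommGroup A]
    (a : ∀ s : ι, (ZMod (qq s))ˣ) (γ : Gamma0 (gLevel N₀ qq))
    (hγ : gKappa p N₀ qq γ = (QuotientGroup.mk a)⁻¹)
    (x : Additive (kerSub (gKappa p N₀ qq)) →+ A) :
    diamondU (isMid_KG p N₀ qq) (gLift N₀ qq a) x = conjAct (gKappa p N₀ qq) γ x := by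
  rw [conjAct_eq_diamond (gKappa p N₀ qq) (gKappa_trivial_h509 p N₀ qq) γ x]
  rw [diamond_eq_diamondU]
  apply diamondU_eq_of_gChi_h509
  have h1 : gChi p N₀ qq (gLift N₀ qq a) = QuotientGroup.mk a := by
    rw [gChi_apply_h509, gRed_gLift N₀ qq (hsurj a)]
  have h2 : gChi p N₀ qq (dUnit (gLevel N₀ qq) γ⁻¹) = QuotientGroup.mk a := by
    rw [← gKappa_apply_h509, map_inv, hγ]
    exact inv_inv (QuotientGroup.mk a : GDelta p qq)
  exact h1.trans h2.symm

end Family

/-! ## The index set -/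

section Index

variable (p : ℕ) {ι : Type} [Fintype ι] (qq : ι → ℕ)

/-- The index map `e ↦ class of (g s ^ e s)_s`. -/
def gEps (g : ∀ s : ι, (ZMod (qq s))ˣ)
    (e : ∀ s : ι, Fin (p ^ padicValNat p (qq s - 1))) : GDelta p qq :=
  QuotientGroup.mk (fun s => g s ^ (e s : ℕ))

theorem mem_gPowSub_iff_h509 (a : ∀ s : ι, (ZMod (qq s))ˣ) :
    a ∈ gPowSub p qq ↔ ∀ s, ∃ u : (ZMod (qq s))ˣ, u ^ (p ^ padicValNat p (qq s - 1)) = a s := by
  unfold gPowSub
  rw [Subgroup.mem_pi]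
  constructor
  · intro h s
    obtain ⟨u, hu⟩ := h s (Set.mem_univ s)
    exact ⟨u, hu⟩
  · intro h s _
    obtain ⟨u, hu⟩ := h s
    exact ⟨u, hu⟩

/-- A primitive root generates. -/
theorem exists_pow_eq_of_orderOf_h509 {q : ℕ} (hq : q.Prime) {g : (ZMod q)ˣ}
    (hg : orderOf g = q - 1) (u : (ZMod q)ˣ) : ∃ k : ℕ, g ^ k = u := by
  have : Fact q.Prime := ⟨hq⟩
  have hcard : Nat.card (ZMod q)ˣ = q - 1 := by
    rw [Nat.card_eq_fintype_card, ZMod.card_units]
  have h1 : Subgroup.zpowers g = ⊤ := by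
    apply (Subgroup.card_eq_iff_eq_top _).mp
    rw [Nat.card_zpowers, hg, hcard]
  have h2 : u ∈ Subgroup.zpowers g := by
    rw [h1]
    exact Subgroup.mem_top u
  rw [← mem_powers_iff_mem_zpowers] at h2
  exact (Submonoid.mem_powers_iff u g).mp h2

theorem gEps_injective_h509 [Fact p.Prime] (hprime : ∀ s, (qq s).Prime)
    (g : ∀ s : ι, (ZMod (qq s))ˣ) (hg : ∀ s, orderOf (g s) = qq s - 1) :
    Function.Injective (gEps p qq g) := by
  intro e e' h
  unfold gEps at h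
  rw [QuotientGroup.eq, mem_gPowSub_iff_h509] at h
  funext j
  obtain ⟨u, hu⟩ := h j
  obtain ⟨k, rfl⟩ := exists_pow_eq_of_orderOf_h509 (hprime j) (hg j) u
  have h1 : g j ^ (k * p ^ padicValNat p (qq j - 1) + (e j : ℕ)) = g j ^ (e' j : ℕ) := by
    rw [pow_add, pow_mul, hu]
    simp
  rw [pow_eq_pow_iff_modEq, hg j] at h1
  have hdvd : p ^ padicValNat p (qq j - 1) ∣ qq j - 1 := pow_padicValNat_dvd
  have h2 : (k * p ^ padicValNat p (qq j - 1) + (e j : ℕ)) ≡ (e' j : ℕ)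
      [MOD p ^ padicValNat p (qq j - 1)] := h1.of_dvd hdvd
  have h3 : ((e j : ℕ)) ≡ (e' j : ℕ) [MOD p ^ padicValNat p (qq j - 1)] := by
    have h4 : (k * p ^ padicValNat p (qq j - 1) + (e j : ℕ)) ≡ (e j : ℕ)
        [MOD p ^ padicValNat p (qq j - 1)] := by
      unfold Nat.ModEq
      rw [Nat.mul_add_mod_of_lt (e j).2]
      exact (Nat.mod_eq_of_lt (e j).2).symm
    exact h4.symm.trans h2
  apply Fin.ext
  unfold Nat.ModEq at h3
  rw [Nat.mod_eq_of_lt (e j).2, Nat.mod_eq_of_lt (e' j).2] at h3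
  exact h3

theorem gEps_surjective_h509 [hp : Fact p.Prime] (hprime : ∀ s, (qq s).Prime)
    (g : ∀ s : ι, (ZMod (qq s))ˣ) (hg : ∀ s, orderOf (g s) = qq s - 1) :
    Function.Surjective (gEps p qq g) := by
  intro d
  obtain ⟨a, rfl⟩ := QuotientGroup.mk_surjective d
  have hk : ∀ j, ∃ k : ℕ, g j ^ k = a j := fun j =>
    exists_pow_eq_of_orderOf_h509 (hprime j) (hg j) (a j)
  choose k hk using hk
  have hpos : ∀ j, 0 < p ^ padicValNat p (qq j - 1) := fun j => pow_pos hp.out.pos _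
  refine ⟨fun j => ⟨k j % p ^ padicValNat p (qq j - 1), Nat.mod_lt _ (hpos j)⟩, ?_⟩
  unfold gEps
  rw [QuotientGroup.eq, mem_gPowSub_iff_h509]
  intro j
  refine ⟨g j ^ (k j / p ^ padicValNat p (qq j - 1)), ?_⟩
  show _ = ((fun j => g j ^ (k j % p ^ padicValNat p (qq j - 1)))⁻¹ * a) j
  rw [Pi.mul_apply, Pi.inv_apply, ← hk j, ← pow_mul, eq_inv_mul_iff_mul_eq, ← pow_add]
  congr 1
  rw [mul_comm]
  exact Nat.mod_add_div _ _

theorem gEps_bijective_h509 [Fact p.Prime] (hprime : ∀ s, (qq s).Prime)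
    (g : ∀ s : ι, (ZMod (qq s))ˣ) (hg : ∀ s, orderOf (g s) = qq s - 1) :
    Function.Bijective (gEps p qq g) :=
  ⟨gEps_injective_h509 p qq hprime g hg, gEps_surjective_h509 p qq hprime g hg⟩

/-- Primitive roots exist. -/
theorem exists_primitive_roots_h509 (hprime : ∀ s, (qq s).Prime) :
    ∃ g : ∀ s : ι, (ZMod (qq s))ˣ, ∀ s, orderOf (g s) = qq s - 1 := by
  have h : ∀ j, ∃ g : (ZMod (qq j))ˣ, orderOf g = qq j - 1 := by
    intro j
    have : Fact (qq j).Prime := ⟨hprime j⟩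
    obtain ⟨g, hg⟩ := IsCyclic.exists_generator (α := (ZMod (qq j))ˣ)
    refine ⟨g, ?_⟩
    rw [orderOf_eq_card_of_forall_mem_zpowers hg, Nat.card_eq_fintype_card, ZMod.card_units]
  choose g hg using h
  exact ⟨g, hg⟩

/-- `Δ` is finite. -/
theorem finite_gDelta_h509 [Fact p.Prime] (hprime : ∀ s, (qq s).Prime) :
    Finite (GDelta p qq) := by
  obtain ⟨g, hg⟩ := exists_primitive_roots_h509 qq hprime
  exact Finite.of_surjective _ (gEps_surjective_h509 p qq hprime g hg)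

/-- `|Δ| = p ^ a`. -/
theorem card_gDelta_h509 [Fact p.Prime] (hprime : ∀ s, (qq s).Prime) :
    ∃ a : ℕ, Nat.card (GDelta p qq) = p ^ a := by
  classical
  obtain ⟨g, hg⟩ := exists_primitive_roots_h509 qq hprime
  refine ⟨∑ s, padicValNat p (qq s - 1), ?_⟩
  rw [← Nat.card_congr (Equiv.ofBijective _ (gEps_bijective_h509 p qq hprime g hg)),
    Nat.card_eq_fintype_card, Fintype.card_pi]
  simp only [Fintype.card_fin]
  exact Finset.prod_pow_eq_pow_sum _ _ _

/-- Every element of `Δ` is killed by a power of `p`. -/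
theorem pow_eq_one_gDelta_h509 [Fact p.Prime] (hprime : ∀ s, (qq s).Prime) (d : GDelta p qq) :
    ∃ a : ℕ, d ^ (p ^ a) = 1 := by
  haveI := finite_gDelta_h509 p qq hprime
  obtain ⟨a, ha⟩ := card_gDelta_h509 p qq hprime
  exact ⟨a, by rw [← ha]; exact pow_card_eq_one'⟩

end Index

/-! ## Hypothesis (Ell) -/

section Ell

variable (p N₀ : ℕ) {ι : Type} [Fintype ι] (qq : ι → ℕ)

/-- **(Ell)** for `5 ≤ p`: the elements of finite order of `Γ₀(M)` lie in `K = ker κ`. -/
theorem gKappa_ell_h509 [hp : Fact p.Prime] (hp5 : 5 ≤ p) (hprime : ∀ s, (qq s).Prime)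
    (γ : Gamma0 (gLevel N₀ qq)) (hγ : IsOfFinOrder γ) : gKappa p N₀ qq γ = 1 := by
  have h1 : IsOfFinOrder (γ : SL(2, ℤ)) := by
    obtain ⟨n, hn, hγn⟩ := isOfFinOrder_iff_pow_eq_one.mp hγ
    refine isOfFinOrder_iff_pow_eq_one.mpr ⟨n, hn, ?_⟩
    have := congrArg (fun g : Gamma0 (gLevel N₀ qq) => (g : SL(2, ℤ))) hγn
    simpa using this
  have h2 : γ ^ 12 = 1 := by
    apply Subtype.ext
    rw [Subgroup.coe_pow, pow_twelve_eq_one_h509 h1]
    rfl
  have h3 : (gKappa p N₀ qq γ) ^ 12 = 1 := by rw [← map_pow, h2, map_one]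
  obtain ⟨a, ha⟩ := pow_eq_one_gDelta_h509 p qq hprime (gKappa p N₀ qq γ)
  have hcop : Nat.Coprime 12 (p ^ a) := by
    apply Nat.Coprime.pow_right
    have h12 : (12 : ℕ) = 2 ^ 2 * 3 := by norm_num
    rw [h12]
    apply Nat.Coprime.mul_left
    · apply Nat.Coprime.pow_left
      exact (Nat.coprime_primes Nat.prime_two hp.out).mpr (by omega)
    · exact (Nat.coprime_primes Nat.prime_three hp.out).mpr (by omega)
  have h4 := orderOf_dvd_of_pow_eq_one h3
  have h5 := orderOf_dvd_of_pow_eq_one ha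
  have h6 : orderOf (gKappa p N₀ qq γ) = 1 :=
    Nat.eq_one_of_dvd_coprimes hcop h4 h5
  exact orderOf_eq_one_iff.mp h6

end Ell

end Fermat.Agent.S38.H509

end
-- ===== PACK-END S38/H509/GFam.lean

-- ===== PACK-BEGIN S38/H719/NakDesc.lean
section



/-!
# HARD / HECKE, leaf CTRL-MIN, part (i): Nakayama descent from the M-FREE conclusion (helper719)

Setting of `S59/MFree/Spec.lean`: `Γ ≤ SL(2,ℤ)`, `κ : Γ →* D` onto a finite group, `Γ' = ker κ`,
`H = Hom(Γ', O)`, `e` an `O`-linear operator on `H` (a Hecke-type projector), `cor : H → Hom(Γ, O)` the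
transfer.  From `FreeConclusion κ O e` (the output of `MFree.free` / `MFree.freeAbs`):

* `corL κ`                          — `cor` as an `O`-linear map;
* `linearIndependent_cor_basis`     — for the `O[D]`-basis `b` of `e H`, the family `cor (b i)` is
                                      `O`-linearly independent in `Hom(Γ, O)`;
* `cor_ne_zero_of_freeConclusion`   — **descent**: if `e H ≠ 0` then `cor (e H) ≠ 0`;
* `exists_rank_of_freeConclusion`   — the rank statement: `e H` has `O`-rank `|D| · n` and contains `n`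
                                      elements whose transfers are linearly independent;
* `eH_eq_zero_of_cor_eq_zero`       — contrapositive ("(MIN) at level `Γ` kills level `Γ'`"): if `cor`
                                      vanishes on `e H`, then `e H = 0`.

No hypothesis on `O` beyond `CommRing` (`Nontrivial` for the descent), none on `e` beyond the
`FreeConclusion`.
-/

set_option autoImplicit false

namespace Fermat.Agent.S38.H719

open Fermat.Agent.S59.MFree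
open scoped MatrixGroups

universe u

section NakDesc

variable {Γ : Subgroup SL(2, ℤ)} {D : Type} [Group D] [Fintype D] (κ : Γ →* D)
variable {O : Type u} [CommRing O]

/-- `cor` as an `O`-linear map. -/
noncomputable def corL : (Additive (kerSub κ) →+ O) →ₗ[O] (Additive Γ →+ O) where
  toFun := cor κ
  map_add' x y := H587.cor_add κ x y
  map_smul' c x := H587.cor_smul κ c x

@[simp] theorem corL_apply (x : Additive (kerSub κ) →+ O) : corL κ x = cor κ x := rfl

/-- The translates `d • b j` of a family `b`, through a section `s` of `κ`. -/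
def translates {n : ℕ} (s : D → Γ) (b : Fin n → (Additive (kerSub κ) →+ O)) :
    D × Fin n → (Additive (kerSub κ) →+ O) :=
  fun z => conjAct κ (s z.1) (b z.2)

variable {κ}

omit [Fintype D] in
theorem conjAct_translates {n : ℕ} {s : D → Γ} (hs : ∀ d, κ (s d) = d)
    (b : Fin n → (Additive (kerSub κ) →+ O)) (g : Γ) (z : D × Fin n) :
    conjAct κ g (translates κ s b z) = translates κ s b (κ g * z.1, z.2) := by
  unfold translates
  rw [← H761.conjAct_mul]
  refine H57.conjAct_congr57 κ (b z.2) ?_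
  rw [hs, map_mul, hs]

omit [Fintype D] in
theorem translates_one {n : ℕ} {s : D → Γ} (hs : ∀ d, κ (s d) = d)
    (b : Fin n → (Additive (kerSub κ) →+ O)) (i : Fin n) :
    translates κ s b (1, i) = b i := by
  unfold translates
  have h1 : conjAct κ (s 1) (b i) = conjAct κ 1 (b i) :=
    H57.conjAct_congr57 κ (b i) (by rw [hs, map_one])
  rw [h1, H761.conjAct_one]

omit [Fintype D] in
/-- The diamond operator of `g` on a linear combination of translates. -/
theorem conjAct_linearCombination {n : ℕ} {s : D → Γ} (hs : ∀ d, κ (s d) = d)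
    (b : Fin n → (Additive (kerSub κ) →+ O)) (g : Γ) (f : (D × Fin n) →₀ O) :
    conjAct κ g (Finsupp.linearCombination O (translates κ s b) f) =
      Finsupp.linearCombination O (translates κ s b)
        (Finsupp.mapDomain (fun z : D × Fin n => (κ g * z.1, z.2)) f) := by
  have h1 : conjAct κ g (Finsupp.linearCombination O (translates κ s b) f) =
      H761.conjL κ g (Finsupp.linearCombination O (translates κ s b) f) := rfl
  have h2 : (⇑(H761.conjL κ g) ∘ translates κ s b) =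
      (translates κ s b ∘ fun z : D × Fin n => (κ g * z.1, z.2)) :=
    funext fun z => conjAct_translates hs b g z
  rw [h1, Finsupp.apply_linearCombination O (H761.conjL κ g) (translates κ s b) f, h2,
    Finsupp.linearCombination_mapDomain]

omit [Fintype D] in
/-- The augmentation span lies in the image of the kernel of the "sum over `D`" map. -/
theorem augSpan_le_map_ker {n : ℕ} {s : D → Γ} (hs : ∀ d, κ (s d) = d)
    (e : (Additive (kerSub κ) →+ O) →ₗ[O] (Additive (kerSub κ) →+ O))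
    (b : Fin n → (Additive (kerSub κ) →+ O))
    (hspan : ∀ x, e x = x → x ∈ Submodule.span O (Set.range (translates κ s b))) :
    Submodule.span O {w | ∃ (g : Γ) (y : Additive (kerSub κ) →+ O),
        e y = y ∧ w = conjAct κ g y - y} ≤
      (LinearMap.ker (Finsupp.lmapDomain O O (Prod.snd : D × Fin n → Fin n))).map
        (Finsupp.linearCombination O (translates κ s b)) := by
  refine Submodule.span_le.mpr ?_
  rintro w ⟨g, y, hy, rfl⟩
  obtain ⟨f, rfl⟩ := (Finsupp.mem_span_range_iff_exists_finsupp).1 (hspan y hy)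
  refine ⟨Finsupp.mapDomain (fun z : D × Fin n => (κ g * z.1, z.2)) f - f, ?_, ?_⟩
  · rw [SetLike.mem_coe, LinearMap.mem_ker, map_sub, Finsupp.lmapDomain_apply,
      Finsupp.lmapDomain_apply, ← Finsupp.mapDomain_comp, sub_eq_zero]
    rfl
  · have h2 := conjAct_linearCombination hs b g f
    rw [map_sub, ← h2]
    simp only [Finsupp.linearCombination_apply]

/-- Core: in a free `O[D]`-module with control, the transfers of the basis are linearly
independent. -/
theorem linearIndependent_cor_of_basis {n : ℕ} {s : D → Γ} (hs : ∀ d, κ (s d) = d)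
    (e : (Additive (kerSub κ) →+ O) →ₗ[O] (Additive (kerSub κ) →+ O))
    (b : Fin n → (Additive (kerSub κ) →+ O)) (hb : ∀ i, e (b i) = b i)
    (hli : LinearIndependent O (translates κ s b))
    (hspan : ∀ x, e x = x → x ∈ Submodule.span O (Set.range (translates κ s b)))
    (hker : ∀ x, e x = x → cor κ x = 0 →
      x ∈ Submodule.span O {w | ∃ (g : Γ) (y : Additive (kerSub κ) →+ O),
        e y = y ∧ w = conjAct κ g y - y}) :
    LinearIndependent O (fun i => cor κ (b i)) := by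
  rw [linearIndependent_iff]
  intro c hc
  -- the element `x = ∑ c i • b i`
  set x : Additive (kerSub κ) →+ O := Finsupp.linearCombination O b c with hx
  have hex : e x = x := by
    have h0 : (⇑e ∘ b) = b := funext hb
    rw [hx, Finsupp.apply_linearCombination O e b c, h0]
  have hcor : cor κ x = 0 := by
    have h1 : corL κ x = Finsupp.linearCombination O (fun i => cor κ (b i)) c := by
      rw [hx, Finsupp.apply_linearCombination O (corL κ) b c]
      rfl
    rw [← corL_apply, h1, hc]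
  obtain ⟨f, hf, hfx⟩ := augSpan_le_map_ker hs e b hspan (hker x hex hcor)
  -- `x` is also the combination of the translates with coefficients `c` placed at `d = 1`
  have hx2 : Finsupp.linearCombination O (translates κ s b)
      (Finsupp.mapDomain (fun i : Fin n => ((1 : D), i)) c) = x := by
    have h0 : (translates κ s b ∘ fun i : Fin n => ((1 : D), i)) = b :=
      funext fun i => translates_one hs b i
    rw [Finsupp.linearCombination_mapDomain, hx, h0]
  have hfc : f = Finsupp.mapDomain (fun i : Fin n => ((1 : D), i)) c :=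
    hli (by rw [hfx, hx2])
  have h3 : Finsupp.mapDomain (Prod.snd : D × Fin n → Fin n) f = 0 := by
    have := LinearMap.mem_ker.1 hf
    rwa [Finsupp.lmapDomain_apply] at this
  rw [hfc, ← Finsupp.mapDomain_comp] at h3
  have h4 : (Prod.snd ∘ fun i : Fin n => ((1 : D), i)) = id := rfl
  rwa [h4, Finsupp.mapDomain_id] at h3

/-- For the basis produced by `FreeConclusion`, the transfers are linearly independent. -/
theorem linearIndependent_cor_basis (hκ : Function.Surjective κ)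
    (e : (Additive (kerSub κ) →+ O) →ₗ[O] (Additive (kerSub κ) →+ O))
    (hfree : FreeConclusion κ O e) :
    ∃ (n : ℕ) (b : Fin n → (Additive (kerSub κ) →+ O)), (∀ i, e (b i) = b i) ∧
      (∀ s : D → Γ, (∀ d, κ (s d) = d) →
        LinearIndependent O (fun z : D × Fin n => conjAct κ (s z.1) (b z.2)) ∧
        ∀ x, e x = x →
          x ∈ Submodule.span O (Set.range fun z : D × Fin n => conjAct κ (s z.1) (b z.2))) ∧
      LinearIndependent O (fun i => cor κ (b i)) := by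
  obtain ⟨⟨n, b, hb, hbasis⟩, hker, -⟩ := hfree
  refine ⟨n, b, hb, hbasis, ?_⟩
  obtain ⟨s, hs⟩ := hκ.hasRightInverse
  obtain ⟨hli, hspan⟩ := hbasis s hs
  exact linearIndependent_cor_of_basis hs e b hb hli hspan hker

/-- **Nakayama descent.**  If the `e`-part of `Hom(Γ', O)` is nonzero, then so is its image under
the transfer to `Hom(Γ, O)`. -/
theorem cor_ne_zero_of_freeConclusion [Nontrivial O] (hκ : Function.Surjective κ)
    (e : (Additive (kerSub κ) →+ O) →ₗ[O] (Additive (kerSub κ) →+ O))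
    (hfree : FreeConclusion κ O e) (hne : ∃ x, e x = x ∧ x ≠ 0) :
    ∃ x, e x = x ∧ cor κ x ≠ 0 := by
  obtain ⟨n, b, hb, hbasis, hcli⟩ := linearIndependent_cor_basis hκ e hfree
  obtain ⟨s, hs⟩ := hκ.hasRightInverse
  obtain ⟨-, hspan⟩ := hbasis s hs
  obtain ⟨x, hex, hx0⟩ := hne
  obtain ⟨f, hf⟩ := (Finsupp.mem_span_range_iff_exists_finsupp).1 (hspan x hex)
  have hf0 : f ≠ 0 := by
    rintro rfl
    rw [Finsupp.sum_zero_index] at hf
    exact hx0 hf.symm
  obtain ⟨z, -⟩ := Finsupp.ne_iff.1 hf0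
  exact ⟨b z.2, hb _, hcli.ne_zero z.2⟩

/-- Contrapositive: if the transfer kills `e H`, then `e H = 0`. -/
theorem eH_eq_zero_of_cor_eq_zero [Nontrivial O] (hκ : Function.Surjective κ)
    (e : (Additive (kerSub κ) →+ O) →ₗ[O] (Additive (kerSub κ) →+ O))
    (hfree : FreeConclusion κ O e) (hcor : ∀ x, e x = x → cor κ x = 0) :
    ∀ x, e x = x → x = 0 := by
  intro x hex
  by_contra hx0
  obtain ⟨y, hey, hy⟩ := cor_ne_zero_of_freeConclusion hκ e hfree ⟨x, hex, hx0⟩
  exact hy (hcor y hey)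

end NakDesc

end Fermat.Agent.S38.H719

end
-- ===== PACK-END S38/H719/NakDesc.lean

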