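import Fermat.Agent.Pack.S43C.E0L0
import Fermat.Agent.Pack.S43MC.G0E26L1
import Fermat.Agent.Pack.S43MC.G0E24L0
import Fermat.Agent.Pack.S43MC.G0E20L1
import Fermat.Agent.Pack.S43C.E0L3
import Fermat.Agent.Pack.S43MC.G0E25L3
import Fermat.Agent.Pack.S43MC.G0E5L1
import Fermat.Agent.Pack.S43C.E0L2
import Fermat.Agent.Pack.S43C.E1L3
import Fermat.Agent.Pack.S43C.E1L2
import Fermat.Agent.Pack.S43GC.G0E15L3
import Fermat.Agent.Pack.S43C.E1L1
import Fermat.Agent.Pack.S43MC.G0E26L3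
import Fermat.Agent.Pack.S44C.G0E6L2
import Fermat.Agent.Pack.S44C.G0E22L1
import Fermat.Agent.Pack.S43MC.G0E5L3
import Fermat.Agent.Pack.S44C.G0E27L2
import Fermat.Agent.Pack.Fast891

-- ===== PACK-BEGIN S38/IA/Hecke/Asm.lean
section



/-!
# Row HARD, cell HECKE, layer 2: the assembly  (helper3)

`iaHecke_of_leaves : PkgFlatStatement → IAAutStatement → TW.InertiaExistsStatement →
  TW.InertiaOrderStatement → TW.CycloSurjStatement → TW.AlgStatement → IA.IAHeckeStatement`.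

Mirror of `TW.heckeSide_of_leaves` (helper24): the package `P_Q` of type `Smin ∪ Piv ∪ Q` over
the character `θ₀ ∘ oldRestrict` (`θ₀` from `hmod`), the inertia values `w_j` at the
Taylor–Wiles primes (INX, CYC), their order (INO), the comparison `Cmp` and the basis transfer
(ALG).  The clauses (SUPP-NU) and (ST) are fields of `IAAutLevel`.
-/

set_option autoImplicit false

open Polynomial IsLocalRing

namespace Fermat.Agent.S38.IA.Hecke

open Fermat.Agent.S59.Arch Fermat.Agent.S59.TW.H959 Fermat.Agent.S59.TW Fermat.Agent.S59.H765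
open CuspForm

/-! ## Levels -/

/-- Ribet's level `L = ∏_{Smin ∖ p} q · ∏_{Piv} q` and Wiles's level of type
`Smin ∪ Piv ∪ Q` form a level pair (`Piv` disjoint from `Smin`). -/
theorem levelPairIA (p : ℕ) {Smin Piv Q : Finset ℕ}
    (hSminP : ∀ q ∈ Smin, q.Prime) (hPivP : ∀ q ∈ Piv, q.Prime) (hQP : ∀ q ∈ Q, q.Prime)
    (hdisj : ∀ q ∈ Piv, q ∉ Smin) (hpS : p ∈ Smin) :
    LevelPair (ribetLevel p Smin Piv) (wilesLevel p .flat Smin (Smin ∪ Piv ∪ Q))
      (↑(Smin ∪ Piv) : Set ℕ) (↑(Smin ∪ Piv ∪ Q) : Set ℕ) where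
  dvd := by
    rw [wilesLevel_eq]
    unfold ribetLevel pFactor
    rw [mul_one]
    refine Nat.mul_dvd_mul dvd_rfl ?_
    have hsub : Piv ⊆ (Smin ∪ Piv ∪ Q) \ Smin := by
      intro q hq
      exact Finset.mem_sdiff.mpr
        ⟨Finset.mem_union_left _ (Finset.mem_union_right _ hq), hdisj q hq⟩
    exact (Finset.prod_dvd_prod_of_dvd _ _ fun q _ => dvd_pow_self q two_ne_zero).trans
      (Finset.prod_dvd_prod_of_subset _ _ _ hsub)
  sub := by
    intro x hx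
    exact Finset.mem_coe.mpr (Finset.mem_union_left _ (Finset.mem_coe.mp hx))
  hU := by
    intro ℓ hℓ hd hℓS
    refine absurd (Finset.mem_coe.mpr (prime_dvd_wilesLevel p .flat
      (Finset.subset_union_left.trans Finset.subset_union_left) ?_
      (Finset.mem_union_left _ (Finset.mem_union_left _ hpS)) hℓ hd)) hℓS
    intro q hq
    rcases Finset.mem_union.mp hq with h | h
    · rcases Finset.mem_union.mp h with h' | h'
      · exact hSminP q h'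
      · exact hPivP q h'
    · exact hQP q h

/-! ## Roots of unity of `p`-power order are residually trivial -/

theorem sub_one_mem_maximalIdeal_of_pow_eq_one {T : Type} [CommRing T] [IsLocalRing T] {p : ℕ}
    (hp : p.Prime) (hpT : (p : T) ∈ maximalIdeal T) {w : T} {k : ℕ} (hw : w ^ (p ^ k) = 1) :
    w - 1 ∈ maximalIdeal T := by
  have h0 : ((p : ℕ) : ResidueField T) = 0 := by
    have h1 := (residue_eq_zero_iff (p : T)).mpr hpT
    rwa [map_natCast] at h1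
  haveI : CharP (ResidueField T) p := (CharP.charP_iff_prime_eq_zero hp).mpr h0
  haveI : ExpChar (ResidueField T) p := ExpChar.prime hp
  have h1 : (residue T w) ^ p ^ k = 1 := by rw [← map_pow, hw, map_one]
  have h2 : residue T w = 1 := by
    apply iterateFrobenius_inj (ResidueField T) p k
    rw [iterateFrobenius_def, iterateFrobenius_def, h1, one_pow]
  rw [← residue_eq_zero_iff, map_sub, h2, map_one, sub_self]

/-! ## The assembly -/

/-- **Layer 2 of the cell HECKE of row HARD**: `IA.IAHeckeStatement` from its leaves. -/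
theorem iaHecke_of_leaves (hPkg : PkgFlatStatement) (hAut : IAAutStatement)
    (hInx : InertiaExistsStatement) (hIno : InertiaOrderStatement)
    (hCyc : CycloSurjStatement) (hAlg : AlgStatement) : IAHeckeStatement := by
  intro p hpF 𝒪 _ _ _ _ _ _ ρbar Smin h hflat ζ hζ Piv hPiv hmod hmin
  obtain ⟨hL, θ₀, hθ₀⟩ := hmod
  haveI := hL
  obtain ⟨d, hd, hA⟩ := hAut p 𝒪 ρbar Smin h hflat ζ hζ Piv hPiv θ₀ hθ₀ hmin
  refine ⟨d, hd, ?_⟩
  intro n r qv hq
  obtain ⟨-, hqv, hfrob⟩ := id hq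
  have hPivP : ∀ q ∈ Piv, q.Prime := fun q hq' => (hPiv q hq').1
  have hdisj : ∀ q ∈ Piv, q ∉ Smin := fun q hq' => (hPiv q hq').2.1
  -- the level `Q`
  have hQP : ∀ q ∈ Finset.univ.image qv, q.Prime := by
    intro q hq'
    obtain ⟨j, -, rfl⟩ := Finset.mem_image.mp hq'
    exact (hqv j).1
  have hSigP : ∀ q ∈ Smin ∪ Piv ∪ Finset.univ.image qv, q.Prime := by
    intro q hq'
    rcases Finset.mem_union.mp hq' with h' | h'
    · rcases Finset.mem_union.mp h' with h'' | h''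
      · exact h.hSmin q h''
      · exact hPivP q h''
    · exact hQP q h'
  have hsub : Smin ⊆ Smin ∪ Piv ∪ Finset.univ.image qv :=
    Finset.subset_union_left.trans Finset.subset_union_left
  have hNQ : NeZero (wilesLevel p .flat Smin (Smin ∪ Piv ∪ Finset.univ.image qv)) :=
    ⟨wilesLevel_ne_zero hpF.out h.hSmin hSigP⟩
  have hp := levelPairIA p h.hSmin hPivP hQP hdisj h.hpSmin
  have hθQ : Fermat.Agent.S59.G4.ResFrobCond ρbar (θ₀.comp (oldRestrict hp)) :=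
    resFrobCond_comp hp hθ₀
  obtain ⟨PQ, hθPQ⟩ := hPkg p 𝒪 ρbar Smin h hflat (Smin ∪ Piv ∪ Finset.univ.image qv)
    hsub hSigP (θ₀.comp (oldRestrict hp)) hθQ
  obtain ⟨A, hCmp⟩ := hA n r qv hq hp PQ hθPQ
  -- primitive roots, places, Frobenius and inertia elements, eigenvalues
  choose g hgord hggen using fun j => exists_primitive_root_units (hqv j).1
  choose Pv φv hPv hφv using fun j => Fermat.Agent.S54.exists_frobenius (qv j) (hqv j).1
  choose σv hσv hcyc using fun j => hCyc (qv j) (hqv j).1 (Pv j) (hPv j) (g j)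
  choose α β hαβ hchar using fun j => hfrob j (Pv j) (hPv j) (φv j) (hφv j)
  choose αv hαv using fun j => residue_surjective (α j)
  -- inertia values
  have hcharT : ∀ j, LinearMap.charpoly (PQ.H.ρ.residual.ρ (φv j)) =
      (X - C (residue PQ.T (algebraMap 𝒪 PQ.T (αv j)))) *
        (X - C (ResidueField.map (algebraMap 𝒪 PQ.T) (β j))) := by
    intro j
    rw [charpoly_eq_of_residual_isEquiv PQ.hres, charpoly_residual_baseChangeAlong, hchar j,
      Polynomial.map_mul, Polynomial.map_sub, Polynomial.map_sub, Polynomial.map_X,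
      Polynomial.map_C, Polynomial.map_C, ← hαv j, ResidueField.map_residue]
  have hne : ∀ j, residue PQ.T (algebraMap 𝒪 PQ.T (αv j)) ≠
      ResidueField.map (algebraMap 𝒪 PQ.T) (β j) := by
    intro j hj
    rw [← ResidueField.map_residue, hαv j] at hj
    exact hαβ j ((ResidueField.map (algebraMap 𝒪 PQ.T)).injective hj)
  choose w hw using fun j => hInx PQ.T PQ.H.ρ (φv j) (σv j) (algebraMap 𝒪 PQ.T (αv j))
    (ResidueField.map (algebraMap 𝒪 PQ.T) (β j)) (hne j) (hcharT j)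
  -- the order of the inertia values
  haveI : Finite (ResidueField PQ.T) := by
    refine Finite.of_surjective (ResidueField.map (algebraMap 𝒪 PQ.T)) ?_
    intro x
    obtain ⟨y, hy⟩ := PQ.H.residue_surjective x
    exact ⟨residue 𝒪 y, by rw [ResidueField.map_residue]; exact hy⟩
  have hpT : (p : PQ.T) ∈ maximalIdeal PQ.T := by
    have h1 := h.hp𝒪
    rw [mem_maximalIdeal, mem_nonunits_iff] at h1 ⊢
    intro hu
    apply h1
    have : IsUnit (algebraMap 𝒪 PQ.T (p : 𝒪)) := by rwa [map_natCast]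
    exact IsLocalHom.map_nonunit _ this
  have hdet : PQ.H.ρ.DetIsCyclotomic p := PQ.hcond.1.1
  have hqS : ∀ j, qv j ∉ Smin := fun j hj => (hqv j).2.1 (Finset.mem_union_left _ hj)
  have hqp : ∀ j, qv j ≠ p := by
    intro j hj
    exact hqS j (hj ▸ h.hpSmin)
  have hunr : ∀ j, PQ.H.ρ.residual.IsUnramifiedAt (qv j) := by
    intro j
    refine isUnramifiedAt_of_residual_isEquiv' PQ.hres
      (isUnramifiedAt_residual_baseChangeAlong _ ?_)
    by_contra hcon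
    exact hqS j ((h.hmin (qv j) (hqv j).1 (hqp j)).mpr hcon)
  have hpq : ∀ j, p ∣ qv j - 1 := fun j =>
    Dvd.dvd.trans (dvd_pow_self p (Nat.succ_ne_zero n)) (hqv j).2.2
  have hord : ∀ j, w j ^ (p ^ padicValNat p (qv j - 1)) = 1 := by
    intro j
    obtain ⟨w', -, h2, -⟩ := hIno p PQ.T hpT PQ.H.ρ hdet (qv j) (hqv j).1 (hqp j) (hpq j)
      (hunr j) (Pv j) (hPv j) (φv j) (hφv j) (σv j) (hσv j) _ (w j) (hw j)
    exact h2
  -- the comparison
  have hrange : ∀ (j : Fin r) (y : A.MQ),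
      (∃ y' : A.MQ, y = w j • y' - y') ↔ ∃ y' : A.MQ, y = A.dia (Pi.mulSingle j (g j)) y' - y' :=
    fun j => hCmp j (Pv j) (hPv j) (φv j) (hφv j) (σv j) (hσv j) (g j) (hgord j) (hcyc j) _
      (w j) (hw j)
  -- the basis
  have hn : ∀ j, n ≤ padicValNat p (qv j - 1) := by
    intro j
    have h0 : qv j - 1 ≠ 0 := Nat.sub_ne_zero_of_lt (hqv j).1.one_lt
    exact (Nat.le_succ n).trans ((padicValNat_dvd_iff_le h0).mp (hqv j).2.2)
  have hX : ∀ j, A.dia (Pi.mulSingle j (g j)) ^ (p ^ padicValNat p (qv j - 1)) = 1 := by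
    intro j
    rw [← map_pow, ← A.dia_pow (Pi.mulSingle j (g j))]
    congr 1
    funext i
    by_cases hij : i = j
    · subst hij
      simp only [Pi.pow_apply, Pi.mulSingle_eq_same]
    · simp only [Pi.pow_apply, Pi.mulSingle_eq_of_ne hij, one_pow]
  have hpJ : (p : 𝒪) ∈ Ideal.jacobson (⊥ : Ideal 𝒪) := by
    rw [IsLocalRing.jacobson_eq_maximalIdeal ⊥ bot_ne_top]
    exact h.hp𝒪
  obtain ⟨b, hb⟩ := A.free g hgord
  have hgrb : IsGroupRingBasis 𝒪 (p ^ n) w b :=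
    hAlg p hpF.out h.hp2 𝒪 hpJ PQ.T A.MQ r (fun j => (ZMod (qv j))ˣ)
      (fun j => padicValNat p (qv j - 1)) n hn A.dia g hX d b hb w hord hrange
  exact ⟨hNQ, PQ, A.MQ, inferInstance, inferInstance, w, b, hgrb,
    fun i => sub_one_mem_maximalIdeal_of_pow_eq_one hpF.out hpT (hord i), A.supp_nu, A.st⟩

end Fermat.Agent.S38.IA.Hecke

end
-- ===== PACK-END S38/IA/Hecke/Asm.lean

-- ===== PACK-BEGIN S38/H903/Cross.lean
section



/-!
# Row HARD, cell HECKE, leaf IA-CTRL / row S59 cell TW leaf CTRL: the leaf CROSS  (helper903)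

`cross903 : S59.H105.CrossStatement` — for `q ∤ N` and `q' ∣ N` (both prime) the operator `U_{q'}`
commutes with the four degeneracy maps `r₁, r₂, t₁, t₂` between the levels `N` and `N q`.

This is the adapter between helper105's frozen hypothesis `CrossStatement` of `one_step`
(vocabulary `UK (Gamma0 M) q'` of helper653) and helper719's `Uq_r₁, Uq_r₂, Uq_t₁, Uq_t₂`
(vocabulary `Uq` of `S59/H105/UqSystem.lean`).  Unconditional.
-/

set_option autoImplicit false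

namespace Fermat.Agent.S38.H903

open CongruenceSubgroup
open Fermat.Agent.S41.Spec Fermat.Agent.S59.H105 Fermat.Agent.S59.TW.H653
open scoped MatrixGroups

/-- `U_q` of helper653 at `K = Γ₀(M)` is `Uq` of helper105. -/
theorem UK_Gamma0_eq_Uq903 {M q : ℕ} [Fact q.Prime] (hq : q ∣ M) {A : Type*} [AddCommGroup A]
    (ψ : Additive (Gamma0 M) →+ A) : UK (Gamma0 M) q ψ = Uq hq ψ := by
  rw [UK_Gamma0_eq hq]
  rfl

/-- **CROSS**: `U_{q'}`, `q' ∣ N`, commutes with the degeneracy maps between the levels `N` and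
`N q`, `q ∤ N`. -/
theorem cross903 : Fermat.Agent.S59.H105.CrossStatement := by
  intro N q q' _ _ hqN hq'N A _
  have hq : q.Prime := Fact.out
  have hq' : q'.Prime := Fact.out
  have hq'Nq : q' ∣ N * q := Dvd.dvd.mul_right hq'N q
  have hne : q ≠ q' := by
    rintro rfl
    exact hqN hq'N
  have hcop : Nat.Coprime q q' := (Nat.coprime_primes hq hq').mpr hne
  refine ⟨fun φ => ⟨?_, ?_⟩, fun ψ => ⟨?_, ?_⟩⟩
  · rw [UK_Gamma0_eq_Uq903 hq'Nq, UK_Gamma0_eq_Uq903 hq'N]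
    exact Fermat.Agent.S38.H719.Uq_r₁ hq'N hq'Nq φ
  · rw [UK_Gamma0_eq_Uq903 hq'Nq, UK_Gamma0_eq_Uq903 hq'N]
    exact Fermat.Agent.S38.H719.Uq_r₂ hq.ne_zero hcop hq'N hq'Nq φ
  · rw [UK_Gamma0_eq_Uq903 hq'Nq, UK_Gamma0_eq_Uq903 hq'N]
    exact Fermat.Agent.S38.H719.Uq_t₁ hq hqN hq'N hq'Nq ψ
  · rw [UK_Gamma0_eq_Uq903 hq'Nq, UK_Gamma0_eq_Uq903 hq'N]
    exact Fermat.Agent.S38.H719.Uq_t₂ hq.ne_zero hq'N hq'Nq ψ

end Fermat.Agent.S38.H903

end
-- ===== PACK-END S38/H903/Cross.lean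

-- ===== PACK-BEGIN S38/H227/SuppRel.lean
section



/-!
# Row HARD / S59-TW, (NU): SUPP-REL   (helper227)

Vocabulary of helper653 / helper658: `Γ₁(M) ≤ K ≤ Γ₀(M)` (`IsMid M K`), `X_K(A) = Hom(K, A)`,
`t_ℓ = ⟨u ℓ⟩ T_ℓ` (`H658.tFam`), diamond operators `⟨d_j⟩` (`diaFam`).

* `opFam` : the combined family `t_ℓ` (`ℓ` good), `⟨d_j⟩` (`j : ι`) on `X_K(A)`;
* `rel_int_of_complex`, `rel_coeff_of_complex` : a noncommutative polynomial in the `t_ℓ`, `⟨d_j⟩`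
  vanishing on the parabolic classes in `Hom(K, ℂ)` vanishes on the parabolic classes in
  `Hom(K, ℤ)` and in `Hom(K, A)`, `A` torsion-free;
* `chiRel` : the `χ`-relations `span {⟨d_j⟩ y - χ j • y | y ∈ V}`;
* `suppRel` : **SUPP-REL.**  `V ⊆ X_K(𝒪)` a submodule of parabolic classes stable under the
  `⟨d_j⟩`, `a : T → End_𝒪 V` an action with `a (τ ℓ) = t_ℓ`, and `x : T → 𝒪'` a point of `T` with
  `x t = 0` as soon as `a t V ⊆ chiRel` (i.e. `x` kills the annihilator of `V / chiRel`).  Then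
  `P(x (τ ℓ), χ j) = 0` for every `P` vanishing on the parabolic classes in `Hom(K, ℂ)`.
  This is the hypothesis of the Eichler–Shimura dictionary in its relation (character) form.
-/

set_option autoImplicit false
set_option linter.unusedSectionVars false
set_option linter.style.haveILetI false

noncomputable section

namespace Fermat.Agent.S38.H227

open CongruenceSubgroup ModularCurve ModularCurve.Period
open Fermat.Agent.S59.TW.H653 Fermat.Agent.S59.TW.H658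
open scoped MatrixGroups

variable {M : ℕ} {K : Subgroup SL(2, ℤ)}

section Ops

variable (hK : IsMid M K) (A : Type*) [AddCommGroup A]

/-- The diamond operators `⟨d_j⟩` as `ℤ`-linear endomorphisms of `X_K(A)`. -/
def diaFam {ι : Type*} (dv : ι → (ZMod M)ˣ) (j : ι) : Module.End ℤ (Additive K →+ A) :=
  (AddMonoidHom.mk' (diamondU hK (dv j)) (diamondU_add hK (dv j))).toIntLinearMap

/-- The combined family: `t_ℓ = ⟨u ℓ⟩ T_ℓ` for the good primes, and the diamond operators. -/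
def opFam {N' : ℕ} (hMN : M ∣ N') (u : ℕ → (ZMod M)ˣ) {S : Set ℕ} {ι : Type*}
    (dv : ι → (ZMod M)ˣ) : GoodPrime N' S ⊕ ι → Module.End ℤ (Additive K →+ A) :=
  Sum.elim (tFam hK A hMN u) (diaFam hK A dv)

variable {A}

@[simp] theorem diaFam_apply {ι : Type*} (dv : ι → (ZMod M)ˣ) (j : ι) (φ : Additive K →+ A) :
    diaFam hK A dv j φ = diamondU hK (dv j) φ := rfl

@[simp] theorem opFam_inl {N' : ℕ} (hMN : M ∣ N') (u : ℕ → (ZMod M)ˣ) {S : Set ℕ} {ι : Type*}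
    (dv : ι → (ZMod M)ˣ) (i : GoodPrime N' S) :
    opFam hK A hMN u dv (Sum.inl i) = tFam hK A hMN u i := rfl

@[simp] theorem opFam_inr {N' : ℕ} (hMN : M ∣ N') (u : ℕ → (ZMod M)ˣ) {S : Set ℕ} {ι : Type*}
    (dv : ι → (ZMod M)ˣ) (j : ι) :
    opFam hK A hMN u dv (Sum.inr j : GoodPrime N' S ⊕ ι) = diaFam hK A dv j := rfl

theorem opFam_comp {B : Type*} [AddCommGroup B] {N' : ℕ} (hMN : M ∣ N') (u : ℕ → (ZMod M)ˣ)
    {S : Set ℕ} {ι : Type*} (dv : ι → (ZMod M)ˣ) (s : GoodPrime N' S ⊕ ι) (π : A →+ B)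
    (φ : Additive K →+ A) :
    opFam hK B hMN u dv s (π.comp φ) = π.comp (opFam hK A hMN u dv s φ) := by
  rcases s with i | j
  · exact tFam_comp hK hMN u i π φ
  · exact diamondU_comp hK (dv j) π φ

/-- The operators are linear over a commutative coefficient ring. -/
theorem opFam_smul {R : Type*} [CommRing R] {N' : ℕ} (hMN : M ∣ N') (u : ℕ → (ZMod M)ˣ)
    {S : Set ℕ} {ι : Type*} (dv : ι → (ZMod M)ˣ) (s : GoodPrime N' S ⊕ ι) (r : R)
    (φ : Additive K →+ R) :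
    opFam hK R hMN u dv s (r • φ) = r • opFam hK R hMN u dv s φ := by
  have h1 : ∀ ψ : Additive K →+ R, r • ψ = (AddMonoidHom.mulLeft r).comp ψ := fun ψ =>
    AddMonoidHom.ext fun _ => rfl
  rw [h1, h1, opFam_comp]

/-- The diamond operators commute with the whole family. -/
theorem opFam_comm [NeZero M] {N' : ℕ} (hMN : M ∣ N') (u : ℕ → (ZMod M)ˣ)
    {S : Set ℕ} {ι : Type*} (dv : ι → (ZMod M)ˣ) (s : GoodPrime N' S ⊕ ι) (j : ι)
    (φ : Additive K →+ A) :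
    opFam hK A hMN u dv s (opFam hK A hMN u dv (Sum.inr j : GoodPrime N' S ⊕ ι) φ)
      = opFam hK A hMN u dv (Sum.inr j : GoodPrime N' S ⊕ ι) (opFam hK A hMN u dv s φ) := by
  rcases s with i | j'
  · haveI : Fact i.1.Prime := ⟨i.2.1⟩
    have hℓ : ¬ i.1 ∣ M := fun h => i.2.2.1 (h.trans hMN)
    show diamondU hK (u i.1) (TK M K i.1 (diamondU hK (dv j) φ))
      = diamondU hK (dv j) (diamondU hK (u i.1) (TK M K i.1 φ))
    rw [diamondU_TK hK hℓ, ← diamondU_mul, ← diamondU_mul, mul_comm]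
  · show diamondU hK (dv j') (diamondU hK (dv j) φ) = diamondU hK (dv j) (diamondU hK (dv j') φ)
    rw [← diamondU_mul, ← diamondU_mul, mul_comm]

end Ops

section Rel

variable [NeZero M] [K.FiniteIndex]

/-- A relation on the complex parabolic classes holds on the integral ones. -/
theorem rel_int_of_complex (hK : IsMid M K) {N' : ℕ} (hMN : M ∣ N') (u : ℕ → (ZMod M)ˣ)
    {S : Set ℕ} {ι : Type*} (dv : ι → (ZMod M)ˣ) (P : FreeAlgebra ℤ (GoodPrime N' S ⊕ ι))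
    (hP : ∀ y : Additive K →+ ℂ, IsParabolicHom K y →
      FreeAlgebra.lift ℤ (opFam hK ℂ hMN u dv) P y = 0)
    (y : Additive K →+ ℤ) (hy : IsParabolicHom K y) :
    FreeAlgebra.lift ℤ (opFam hK ℤ hMN u dv) P y = 0 := by
  apply castHom_injective
  rw [lift_intertwine (opFam hK ℤ hMN u dv) (opFam hK ℂ hMN u dv) (castHom _)
    (fun s m => (opFam_comp hK hMN u dv s (Int.castAddHom ℂ) m).symm) P y, map_zero]
  exact hP _ (isParabolicHom_castHom.mpr hy)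

/-- A relation on the complex parabolic classes holds on the parabolic classes with torsion-free
coefficients. -/
theorem rel_coeff_of_complex {A : Type*} [AddCommGroup A] [Module.IsTorsionFree ℤ A]
    (hK : IsMid M K) {N' : ℕ} (hMN : M ∣ N') (u : ℕ → (ZMod M)ˣ)
    {S : Set ℕ} {ι : Type*} (dv : ι → (ZMod M)ˣ) (P : FreeAlgebra ℤ (GoodPrime N' S ⊕ ι))
    (hP : ∀ y : Additive K →+ ℂ, IsParabolicHom K y →
      FreeAlgebra.lift ℤ (opFam hK ℂ hMN u dv) P y = 0)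
    (y : Additive K →+ A) (hy : IsParabolicHom K y) :
    FreeAlgebra.lift ℤ (opFam hK A hMN u dv) P y = 0 := by
  haveI := fg_of_finiteIndex K
  refine hom_induction_of_torsionFree (parSet K)
    (fun y => FreeAlgebra.lift ℤ (opFam hK A hMN u dv) P y = 0) ?_ (map_zero _) ?_ y hy
  · intro φ ψ hφ hψ
    rw [map_add, hφ, hψ, add_zero]
  · intro ψ a hψ
    have h1 := lift_intertwine (opFam hK ℤ hMN u dv) (opFam hK A hMN u dv)
      (compAdd _ (zmultiplesHom A a))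
      (fun s m => (opFam_comp hK hMN u dv s (zmultiplesHom A a) m).symm) P ψ
    simp only [compAdd_apply] at h1
    rw [← h1, rel_int_of_complex hK hMN u dv P hP ψ hψ]
    exact AddMonoidHom.comp_zero _

end Rel

section Main

variable [NeZero M] [K.FiniteIndex]

/-- The `χ`-relations in `V ⊆ X_K(𝒪)`: the `𝒪`-span of the `⟨d_j⟩ y - χ j • y`, `y ∈ V`. -/
def chiRel (hK : IsMid M K) {𝒪 : Type*} [CommRing 𝒪] {ι : Type*} (dv : ι → (ZMod M)ˣ)
    (χ : ι → 𝒪) (V : Submodule 𝒪 (Additive K →+ 𝒪)) : Submodule 𝒪 (Additive K →+ 𝒪) :=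
  Submodule.span 𝒪 {w | ∃ j, ∃ y ∈ V, w = diamondU hK (dv j) y - χ j • y}

/-- **SUPP-REL.**  A point of `T` through the annihilator of `V` modulo the `χ`-relations
satisfies every relation of the operators `t_ℓ`, `⟨d_j⟩` on the complex parabolic classes, the
`⟨d_j⟩` being replaced by the scalars `χ j`. -/
theorem suppRel (hK : IsMid M K) {N' : ℕ} (hMN : M ∣ N') (u : ℕ → (ZMod M)ˣ) (S : Set ℕ)
    {ι : Type*} (dv : ι → (ZMod M)ˣ)
    {𝒪 : Type*} [CommRing 𝒪] [Module.IsTorsionFree ℤ 𝒪] (χ : ι → 𝒪)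
    (V : Submodule 𝒪 (Additive K →+ 𝒪)) (hpar : ∀ v ∈ V, IsParabolicHom K v)
    (hVd : ∀ j, ∀ v ∈ V, diamondU hK (dv j) v ∈ V)
    {T : Type*} [CommRing T] [Algebra 𝒪 T] (a : T →ₐ[𝒪] Module.End 𝒪 V)
    (τ : GoodPrime N' S → T)
    (ha : ∀ (i : GoodPrime N' S) (v : V),
      ((a (τ i) v : V) : Additive K →+ 𝒪) = tFam hK 𝒪 hMN u i v)
    {𝒪' : Type*} [CommRing 𝒪'] [Algebra 𝒪 𝒪'] (x : T →ₐ[𝒪] 𝒪')
    (hx : ∀ t : T, (∀ v : V, ((a t v : V) : Additive K →+ 𝒪) ∈ chiRel hK dv χ V) → x t = 0)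
    (P : FreeAlgebra ℤ (GoodPrime N' S ⊕ ι))
    (hP : ∀ y : Additive K →+ ℂ, IsParabolicHom K y →
      FreeAlgebra.lift ℤ (opFam hK ℂ hMN u dv) P y = 0) :
    FreeAlgebra.lift ℤ (Sum.elim (fun i => x (τ i)) (fun j => algebraMap 𝒪 𝒪' (χ j))) P = 0 := by
  have hBV : ∀ s : GoodPrime N' S ⊕ ι, ∀ v ∈ V, opFam hK 𝒪 hMN u dv s v ∈ V := by
    intro s v hv
    rcases s with i | j
    · have := ha i ⟨v, hv⟩
      rw [opFam_inl, ← this]
      exact (a (τ i) ⟨v, hv⟩).2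
    · exact hVd j v hv
  refine suppRel_core V (opFam hK 𝒪 hMN u dv) χ a τ
    (fun s c y => opFam_smul hK hMN u dv s c y) hBV
    (fun s j v _ => opFam_comm hK hMN u dv s j v) ha x hx P
    (fun v hv => rel_coeff_of_complex hK hMN u dv P hP v (hpar v hv))

end Main

end Fermat.Agent.S38.H227

end
end
-- ===== PACK-END S38/H227/SuppRel.lean

-- ===== PACK-BEGIN S38/H227/DictTot.lean
section



/-!
# Row HARD / S59-TW, (NU): the Eichler–Shimura dictionary, relation form — the form side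
(helper227)

`Γ₁(M) ≤ K ≤ Γ₀(M)`, `TwistHyp K N' u` (helper658).  On the form side the role of
`Hom_par(K, ℂ)` is played by the EXTERNAL direct sum `NebTot = ∏_χ S₂(M, χ)` of the nebentypus
components, `χ` running over the characters trivial on `K`, with the operators
`opsTot` : `t_ℓ ↦ (χ(u ℓ) T_ℓ)_χ`, `⟨d_j⟩ ↦ (χ(d_j))_χ`.

* `nebTwistLin`, `finiteDimensional_nebSub` : the twist of helper658 is `ℂ`-linear, hence the
  nebentypus components are finite dimensional;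
* `opsTot_commute` : the operators `opsTot` commute;
* `rel_complex_of_tot` : every noncommutative polynomial relation among the `opsTot` holds for the
  operators `t_ℓ = ⟨u ℓ⟩ T_ℓ`, `⟨d_j⟩` on the parabolic classes in `Hom(K, ℂ)`
  (Eichler–Shimura SURJECTIVITY only).
-/

set_option autoImplicit false
set_option linter.unusedSectionVars false
set_option linter.style.haveILetI false

noncomputable section

namespace Fermat.Agent.S38.H227

open CongruenceSubgroup ModularForm ModularCurve ModularCurve.Period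
open UpperHalfPlane hiding I
open Fermat.Agent.S59.TW.H653 Fermat.Agent.S59.TW.H658
open Fermat.Agent.S59.TW.H564 (twistL twistL_smul)
open scoped MatrixGroups ModularForm

variable {M : ℕ} {K : Subgroup SL(2, ℤ)}

section Twist

variable {N' : ℕ} {χ : DirichletCharacter ℂ M}

theorem nebTwist_smul (D : TwistDatum M N' χ) (c : ℂ) (F : _root_.Fermat.Agent.S59.TW.H658.nebSub M χ) :
    nebTwist D (c • F) = c • nebTwist D F := by
  apply DFunLike.coe_injective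
  show twistL 2 D.ψ D.L (c • (F : ℍ → ℂ)) = c • twistL 2 D.ψ D.L (F : ℍ → ℂ)
  exact twistL_smul D.L c _

/-- The twist of helper658 as a `ℂ`-linear map. -/
def nebTwistLin (D : TwistDatum M N' χ) : _root_.Fermat.Agent.S59.TW.H658.nebSub M χ →ₗ[ℂ] CuspForm (Gamma0 N') 2 where
  toFun := nebTwist D
  map_add' := map_add (nebTwist D)
  map_smul' := nebTwist_smul D

@[simp] theorem nebTwistLin_apply (D : TwistDatum M N' χ) (F : _root_.Fermat.Agent.S59.TW.H658.nebSub M χ) :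
    nebTwistLin D F = nebTwist D F := rfl

theorem finiteDimensional_nebSub [NeZero N'] (D : TwistDatum M N' χ) :
    FiniteDimensional ℂ (_root_.Fermat.Agent.S59.TW.H658.nebSub M χ) :=
  haveI := Fermat.Agent.Lib.Newform.H683.finiteDimensional_cuspForm N' 2
  FiniteDimensional.of_injective (nebTwistLin D) (nebTwist_injective D)

end Twist

section Tot

variable [NeZero M]

/-- The characters trivial on `K`. -/
abbrev NebIdx (M : ℕ) (K : Subgroup SL(2, ℤ)) : Type :=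
  {χ : DirichletCharacter ℂ M // _root_.Fermat.Agent.S59.TW.H658.TrivOn K χ}

/-- The external direct sum of the nebentypus components. -/
abbrev NebTot (M : ℕ) (K : Subgroup SL(2, ℤ)) : Type :=
  (e : NebIdx M K) → _root_.Fermat.Agent.S59.TW.H658.nebSub M e.1

/-- The diagonal operator of a family of operators on the components. -/
def diagOp (c : ∀ e : NebIdx M K, Module.End ℂ (_root_.Fermat.Agent.S59.TW.H658.nebSub M e.1)) : Module.End ℂ (NebTot M K) :=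
  LinearMap.pi fun e => (c e).comp (LinearMap.proj e)

@[simp] theorem diagOp_apply (c : ∀ e : NebIdx M K, Module.End ℂ (_root_.Fermat.Agent.S59.TW.H658.nebSub M e.1))
    (w : NebTot M K) (e : NebIdx M K) : diagOp c w e = c e (w e) := rfl

theorem diagOp_single [DecidableEq (NebIdx M K)]
    (c : ∀ e : NebIdx M K, Module.End ℂ (_root_.Fermat.Agent.S59.TW.H658.nebSub M e.1)) (e : NebIdx M K) (w : _root_.Fermat.Agent.S59.TW.H658.nebSub M e.1) :
    diagOp c (Pi.single e w) = Pi.single e (c e w) := by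
  funext e'
  rw [diagOp_apply]
  by_cases h : e' = e
  · subst h
    rw [Pi.single_eq_same, Pi.single_eq_same]
  · rw [Pi.single_eq_of_ne h, Pi.single_eq_of_ne h, map_zero]

theorem singleNeb_injective [DecidableEq (NebIdx M K)] (e : NebIdx M K) :
    Function.Injective
      ((LinearMap.single ℂ (fun e : NebIdx M K => _root_.Fermat.Agent.S59.TW.H658.nebSub M e.1) e).toAddMonoidHom) := by
  intro a b h
  have h2 : (Pi.single e a : NebTot M K) e = (Pi.single e b : NebTot M K) e := congrFun h e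
  rwa [Pi.single_eq_same, Pi.single_eq_same] at h2

variable {N' : ℕ} (hMN : M ∣ N') (u : ℕ → (ZMod M)ˣ) {S : Set ℕ} {ι : Type*}
  (dv : ι → (ZMod M)ˣ)

/-- The operators on the component of `χ`: `χ(u ℓ) T_ℓ` and the scalars `χ(d_j)`. -/
def opsNeb (e : NebIdx M K) : GoodPrime N' S ⊕ ι → Module.End ℂ (_root_.Fermat.Agent.S59.TW.H658.nebSub M e.1)
  | Sum.inl i =>
    haveI : Fact i.1.Prime := ⟨i.2.1⟩
    nebT e.1 (fun h => i.2.2.1 (h.trans hMN)) (e.1 ((u i.1 : (ZMod M)ˣ) : ZMod M))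
  | Sum.inr j => e.1 ((dv j : (ZMod M)ˣ) : ZMod M) • LinearMap.id

/-- The operators on the external direct sum of the nebentypus components. -/
def opsTot (s : GoodPrime N' S ⊕ ι) : Module.End ℂ (NebTot M K) :=
  diagOp fun e => opsNeb hMN u dv e s

@[simp] theorem opsTot_apply (s : GoodPrime N' S ⊕ ι) (w : NebTot M K) (e : NebIdx M K) :
    opsTot hMN u dv s w e = opsNeb hMN u dv e s (w e) := rfl

theorem opsNeb_inr (e : NebIdx M K) (j : ι) (w : _root_.Fermat.Agent.S59.TW.H658.nebSub M e.1) :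
    opsNeb hMN u dv e (Sum.inr j : GoodPrime N' S ⊕ ι) w
      = e.1 ((dv j : (ZMod M)ˣ) : ZMod M) • w := rfl

theorem opsNeb_inl (e : NebIdx M K) (i : GoodPrime N' S) (w : _root_.Fermat.Agent.S59.TW.H658.nebSub M e.1) :
    opsNeb hMN u dv e (Sum.inl i : GoodPrime N' S ⊕ ι) w
      = haveI : Fact i.1.Prime := ⟨i.2.1⟩
        nebT e.1 (fun h => i.2.2.1 (h.trans hMN)) (e.1 ((u i.1 : (ZMod M)ˣ) : ZMod M)) w := rfl

end Tot

section Comm

variable [NeZero M] {N' : ℕ} {u : ℕ → (ZMod M)ˣ} {S : Set ℕ} {ι : Type*}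
  (dv : ι → (ZMod M)ˣ)

/-- The operators on a nebentypus component commute (the twist is injective and intertwines them
with the Hecke operators of `Γ₀(N')`). -/
theorem opsNeb_commute (H : EmbHyp K N' u) (e : NebIdx M K) (s s' : GoodPrime N' S ⊕ ι) :
    Commute (opsNeb H.dvd u dv e s) (opsNeb H.dvd u dv e s') := by
  obtain ⟨J, hJi, hJ⟩ := H.emb e.1 e.2
  rcases s with i | j <;> rcases s' with i' | j'
  · refine LinearMap.ext fun w => hJi ?_
    haveI : Fact i.1.Prime := ⟨i.2.1⟩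
    haveI : Fact i'.1.Prime := ⟨i'.2.1⟩
    have hi : ¬ i.1 ∣ M := fun h => i.2.2.1 (h.trans H.dvd)
    have hi' : ¬ i'.1 ∣ M := fun h => i'.2.2.1 (h.trans H.dvd)
    have hc := CuspForm.heckeTLin_comm (N := N') 2 i.2.1 i.2.2.1 i'.2.1 i'.2.2.1
    rw [Module.End.mul_apply, Module.End.mul_apply, opsNeb_inl, opsNeb_inl, opsNeb_inl,
      opsNeb_inl, ← hJ i.1 hi i.2.2.1, ← hJ i'.1 hi' i'.2.2.1, ← hJ i'.1 hi' i'.2.2.1,
      ← hJ i.1 hi i.2.2.1]
    exact congrArg (fun T => T (J w)) hc.eq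
  · refine LinearMap.ext fun w => ?_
    rw [Module.End.mul_apply, Module.End.mul_apply, opsNeb_inr, opsNeb_inr, map_smul]
  · refine LinearMap.ext fun w => ?_
    rw [Module.End.mul_apply, Module.End.mul_apply, opsNeb_inr, opsNeb_inr, map_smul]
  · refine LinearMap.ext fun w => ?_
    rw [Module.End.mul_apply, Module.End.mul_apply, opsNeb_inr, opsNeb_inr, opsNeb_inr,
      opsNeb_inr, smul_comm]

/-- The operators on the external direct sum commute. -/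
theorem opsTot_commute (H : EmbHyp K N' u) (s s' : GoodPrime N' S ⊕ ι) :
    Commute (opsTot (K := K) H.dvd u dv s) (opsTot H.dvd u dv s') := by
  refine LinearMap.ext fun w => funext fun e => ?_
  have h := opsNeb_commute dv H e s s'
  have h2 := congrArg (fun T => T (w e)) h.eq
  simpa [Module.End.mul_apply] using h2

end Comm

section Rel

variable [NeZero M] [K.FiniteIndex]

/-- The period map of the nebentypus component of `χ`. -/
def perNeb (hK : IsMid M K) (e : NebIdx M K) : _root_.Fermat.Agent.S59.TW.H658.nebSub M e.1 →+ (Additive K →+ ℂ) :=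
  (perGL K).toAddMonoidHom.comp (nebForm hK e.1 e.2).toAddMonoidHom

@[simp] theorem perNeb_apply (hK : IsMid M K) (e : NebIdx M K) (w : _root_.Fermat.Agent.S59.TW.H658.nebSub M e.1) :
    perNeb hK e w = perG (nebForm hK e.1 e.2 w) := rfl

/-- The diamond operators act on the periods of the nebentypus component of `χ` through `χ`. -/
theorem diamondU_perNeb (hK : IsMid M K) (e : NebIdx M K) (d : (ZMod M)ˣ) (w : _root_.Fermat.Agent.S59.TW.H658.nebSub M e.1) :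
    diamondU hK d (perNeb hK e w) = perNeb hK e (e.1 ((d : (ZMod M)ˣ) : ZMod M) • w) := by
  rw [perNeb_apply, perNeb_apply, diamondU_eq hK (dUnit_sg d), ← perG_diaForm]
  congr 1
  apply DFunLike.coe_injective
  rw [coe_diaForm, coe_nebForm, coe_nebForm, w.2.2 _ (sg d).2, chiZ_of_mem, dUnit_sg]
  rfl

/-- **The relations of the form side hold on the Betti side.**  Every noncommutative polynomial
relation among the operators `opsTot` on `∏_χ S₂(M, χ)` holds for the `t_ℓ = ⟨u ℓ⟩ T_ℓ` and the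
diamond operators on the parabolic classes in `Hom(K, ℂ)`. -/
theorem rel_complex_of_tot (hK : IsMid M K) {N' : ℕ} (hMN : M ∣ N')
    (hneg : (-1 : SL(2, ℤ)) ∈ K) (u : ℕ → (ZMod M)ˣ) {S : Set ℕ} {ι : Type*}
    (dv : ι → (ZMod M)ˣ) (P : FreeAlgebra ℤ (GoodPrime N' S ⊕ ι))
    (hP : FreeAlgebra.lift ℤ (opsTot (K := K) hMN u dv) P = 0)
    (y : Additive K →+ ℂ) (hy : IsParabolicHom K y) :
    FreeAlgebra.lift ℤ (opFam hK ℂ hMN u dv) P y = 0 := by
  classical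
  refine rel_of_intertwiners (opsTot (K := K) hMN u dv) (opFam hK ℂ hMN u dv)
    (parabolicHoms ℤ K ℂ).toAddSubgroup
    (W := fun e : NebIdx M K => _root_.Fermat.Agent.S59.TW.H658.nebSub M e.1)
    (fun e s => endToInt ℂ _ (opsNeb hMN u dv e s))
    (fun e => (LinearMap.single ℂ (fun e : NebIdx M K => _root_.Fermat.Agent.S59.TW.H658.nebSub M e.1) e).toAddMonoidHom)
    (fun e => singleNeb_injective e) ?_
    (fun e => perNeb hK e) ?_
    (conjAdd _) ?_ ?_ P hP y hy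
  · intro e s w
    exact (diagOp_single (fun e => opsNeb hMN u dv e s) e w).symm
  · intro e s w
    rcases s with i | j
    · haveI : Fact i.1.Prime := ⟨i.2.1⟩
      exact perG_nebForm_nebT hK e.1 e.2 (fun h => i.2.2.1 (h.trans hMN)) (u i.1) w
    · exact (diamondU_perNeb hK e (dv j) w).symm
  · intro s x
    exact opFam_comp hK hMN u dv s (starRingEnd ℂ).toAddMonoidHom x
  · intro y hy
    obtain ⟨f₁, f₂, rfl⟩ := exists_perG_add_conj_of_isMid hK hneg y hy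
    obtain ⟨w₁, hw₁⟩ := exists_nebForm_sum hK f₁
    obtain ⟨w₂, hw₂⟩ := exists_nebForm_sum hK f₂
    refine AddSubgroup.add_mem _ ?_ ?_
    · have : perG f₁ = ∑ χ : NebIdx M K, perG (nebForm hK χ.1 χ.2 (w₁ χ)) := by
        conv_lhs => rw [hw₁]
        rw [← perGL_apply, map_sum]
        rfl
      rw [this]
      exact AddSubgroup.sum_mem _ fun χ _ => AddSubgroup.subset_closure ⟨χ, w₁ χ, Or.inl rfl⟩
    · have : conjHom (perG f₂) = ∑ χ : NebIdx M K, conjHom (perG (nebForm hK χ.1 χ.2 (w₂ χ))) := by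
        conv_lhs => rw [hw₂]
        rw [← perGL_apply, map_sum, ← conjAdd_apply, map_sum]
        rfl
      rw [this]
      exact AddSubgroup.sum_mem _ fun χ _ => AddSubgroup.subset_closure ⟨χ, w₂ χ, Or.inr rfl⟩

end Rel

end Fermat.Agent.S38.H227

end
end
-- ===== PACK-END S38/H227/DictTot.lean

-- ===== PACK-BEGIN S38/H227/Dict.lean
section



/-!
# Row HARD / S59-TW, (NU): the Eichler–Shimura dictionary, relation (character) form
(helper227)

`Γ₁(M) ≤ K ≤ Γ₀(M)`, `TwistHyp K N' u` (helper658), `dv : ι → (ℤ/M)ˣ` a family of diamond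
operators.  A system of values `cT ℓ`, `ε j` in a domain `R` satisfying every noncommutative
polynomial relation of the operators `t_ℓ = ⟨u ℓ⟩ T_ℓ`, `⟨dv j⟩` on the parabolic classes in
`Hom(K, ℂ)` (this is the conclusion of `suppRel` for a point of the Hecke ring through the
`χ`-part of the Betti module) is the eigen-system of a nebentypus form:

* `dict` : there are a character `χ` trivial on `K`, `f ≠ 0` in `S₂(M, χ)`, a subring
  `R₀ ⊆ ℂ`, `L : R₀ → R` and `c ℓ ∈ R₀` with `χ(u ℓ) T_ℓ f = c ℓ • f`, `L (c ℓ) = cT ℓ`,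
  `χ(dv j) ∈ R₀` and `L (χ(dv j)) = ε j`;
* `dict_twist` : the twist `F = nebTwist D f ∈ S₂(Γ₀(N'))` is nonzero and
  `T_ℓ F = c ℓ • F` for the good primes.

Only Eichler–Shimura SURJECTIVITY is used (`H658.exists_perG_add_conj_of_isMid`): no injectivity
of the period map, no finiteness of `Hom(K, ℂ)`.
-/

set_option autoImplicit false
set_option linter.unusedSectionVars false
set_option linter.style.haveILetI false

noncomputable section

namespace Fermat.Agent.S38.H227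

open CongruenceSubgroup ModularForm ModularCurve ModularCurve.Period
open UpperHalfPlane hiding I
open Fermat.Agent.S59.TW.H653 Fermat.Agent.S59.TW.H658
open scoped MatrixGroups ModularForm

variable {M : ℕ} [NeZero M] {K : Subgroup SL(2, ℤ)} [K.FiniteIndex]

/-- **DICT, relation form.** -/
theorem dict (hK : IsMid M K) {N' : ℕ} [NeZero N'] {u : ℕ → (ZMod M)ˣ}
    (H : TwistHyp K N' u) (S : Set ℕ) {ι : Type*} (dv : ι → (ZMod M)ˣ)
    {R : Type*} [CommRing R] [IsDomain R] (cT : GoodPrime N' S → R) (ε : ι → R)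
    (hrel : ∀ P : FreeAlgebra ℤ (GoodPrime N' S ⊕ ι),
      (∀ y : Additive K →+ ℂ, IsParabolicHom K y →
        FreeAlgebra.lift ℤ (opFam hK ℂ H.dvd u dv) P y = 0) →
      FreeAlgebra.lift ℤ (Sum.elim cT ε) P = 0) :
    ∃ (e : NebIdx M K) (f : nebSub M e.1) (R₀ : Subring ℂ) (L : R₀ →+* R)
      (c : GoodPrime N' S → R₀), f ≠ 0 ∧
      (∀ i : GoodPrime N' S, L (c i) = cT i ∧
        opsNeb H.dvd u dv e (Sum.inl i) f = (c i : ℂ) • f) ∧
      (∀ j : ι, ∃ h : e.1 ((dv j : (ZMod M)ˣ) : ZMod M) ∈ R₀,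
        L ⟨e.1 ((dv j : (ZMod M)ˣ) : ZMod M), h⟩ = ε j) := by
  classical
  haveI : ∀ e : NebIdx M K, FiniteDimensional ℂ (nebSub M e.1) := fun e => by
    obtain ⟨D, -⟩ := H.twist e.1 e.2
    exact finiteDimensional_nebSub D
  obtain ⟨g, R₀, L, c, hg0, hg⟩ := exists_eigen_of_rel
    (opsTot (K := K) (S := S) H.dvd u dv) (fun s s' => opsTot_commute dv H.embHyp s s')
    (Sum.elim cT ε)
    (fun P hP => hrel P fun y hy => rel_complex_of_tot hK H.dvd H.neg u dv P hP y hy)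
  -- a nonzero component
  obtain ⟨e, he⟩ : ∃ e : NebIdx M K, g e ≠ 0 := by
    by_contra hcon
    push Not at hcon
    exact hg0 (funext hcon)
  refine ⟨e, g e, R₀, L, fun i => c (Sum.inl i), he, fun i => ⟨(hg (Sum.inl i)).2, ?_⟩,
    fun j => ?_⟩
  · have h1 := congrFun (hg (Sum.inl i)).1 e
    rw [opsTot_apply] at h1
    exact h1
  · have h1 := congrFun (hg (Sum.inr j)).1 e
    rw [opsTot_apply, opsNeb_inr] at h1
    have h2 : (e.1 ((dv j : (ZMod M)ˣ) : ZMod M) : ℂ) = (c (Sum.inr j) : ℂ) :=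
      smul_left_injective ℂ he h1
    refine ⟨h2 ▸ (c (Sum.inr j)).2, ?_⟩
    have h3 : (⟨e.1 ((dv j : (ZMod M)ˣ) : ZMod M), h2 ▸ (c (Sum.inr j)).2⟩ : R₀)
        = c (Sum.inr j) := Subtype.ext h2
    rw [h3]
    exact (hg (Sum.inr j)).2

/-- **DICT, twisted form.**  The twist `F = nebTwist D f` of the form of `dict` to `Γ₀(N')`. -/
theorem dict_twist (hK : IsMid M K) {N' : ℕ} [NeZero N'] {u : ℕ → (ZMod M)ˣ}
    (H : TwistHyp K N' u) (S : Set ℕ) {ι : Type*} (dv : ι → (ZMod M)ˣ)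
    {R : Type*} [CommRing R] [IsDomain R] (cT : GoodPrime N' S → R) (ε : ι → R)
    (hrel : ∀ P : FreeAlgebra ℤ (GoodPrime N' S ⊕ ι),
      (∀ y : Additive K →+ ℂ, IsParabolicHom K y →
        FreeAlgebra.lift ℤ (opFam hK ℂ H.dvd u dv) P y = 0) →
      FreeAlgebra.lift ℤ (Sum.elim cT ε) P = 0) :
    ∃ (χ : DirichletCharacter ℂ M) (_ : TrivOn K χ) (D : TwistDatum M N' χ) (f : nebSub M χ)
      (R₀ : Subring ℂ) (L : R₀ →+* R) (c : GoodPrime N' S → R₀),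
      nebTwist D f ≠ 0 ∧
      (∀ i : GoodPrime N' S, L (c i) = cT i ∧
        CuspForm.heckeTLin 2 i.2.1 i.2.2.1 (nebTwist D f) = (c i : ℂ) • nebTwist D f) ∧
      (∀ j : ι, ∃ h : χ ((dv j : (ZMod M)ˣ) : ZMod M) ∈ R₀,
        L ⟨χ ((dv j : (ZMod M)ˣ) : ZMod M), h⟩ = ε j) := by
  obtain ⟨e, f, R₀, L, c, hf0, hc, hd⟩ := dict hK H S dv cT ε hrel
  obtain ⟨D, hD⟩ := H.twist e.1 e.2
  refine ⟨e.1, e.2, D, f, R₀, L, c, ?_, fun i => ⟨(hc i).1, ?_⟩, hd⟩
  · intro h0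
    exact hf0 (nebTwist_injective D (h0.trans (map_zero _).symm))
  · haveI : Fact i.1.Prime := ⟨i.2.1⟩
    have hℓM : ¬ i.1 ∣ M := fun h => i.2.2.1 (h.trans H.dvd)
    have h1 := heckeTLin_nebTwist D i.2.2.1 hℓM f
    rw [hD i.1 i.2.1 i.2.2.1] at h1
    have h2 : nebT e.1 hℓM (e.1 ((u i.1 : (ZMod M)ˣ) : ZMod M)) f = (c i : ℂ) • f := (hc i).2
    rw [h2, nebTwist_smul] at h1
    exact h1

end Fermat.Agent.S38.H227

end
end
-- ===== PACK-END S38/H227/Dict.lean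

-- ===== PACK-BEGIN S38/H264/RelU.lean
section



/-!
# Row HARD, leaf (ST), bridge MODQ-U (helper264), part 3: the Hecke relations INCLUDING `U_q`

Setting of helper658's E5 (`S59/TW/H658/HeckeRel.lean`): `Γ₁(M) ≤ K ≤ Γ₀(M)`, `M ∣ N'`,
`u : ℕ → (ℤ/M)ˣ`, but now `S` need NOT contain all primes dividing `N'`: the Prelude ring
`heckeAlgebra N' 2 S` is generated by the `T_ℓ` (`ℓ ∤ N'`, `ℓ ∉ S`) AND the `U_q` (`q ∣ N'`,
`q ∉ S`).  Index type `HIdx N' S = GoodPrime N' S ⊕ BadPrime N' S`.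

On `X_K(A) = Hom(K, A)`:  `t_ℓ = ⟨u ℓ⟩ ∘ T_ℓ`, `u_q = ⟨u q⟩ ∘ U_q` (`tFamU`).  Under `EmbHypU`
(the nebentypus components embed into `S₂(Γ₀(N'))`, intertwining `χ(u ℓ) T_ℓ` with `T_ℓ` and
`χ(u q) U_q` with `U_q`):

* `rel_complexU`, `rel_intU`, `rel_coeffU` : every polynomial relation among the `T_ℓ`, `U_q` on
  `S₂(Γ₀(N'))` holds for the `t_ℓ`, `u_q` on the parabolic classes;
* `isParabolicHom_tFamU_*` : the operators preserve parabolic classes;
* `exists_heckeActionU_sub` : `heckeAlgebra N' 2 S →+* End_R V` for a stable `R`-submodule `V`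
  of parabolic classes, `T_ℓ ↦ t_ℓ`, `U_q ↦ u_q`.
-/

set_option autoImplicit false
set_option linter.unusedSectionVars false
set_option linter.style.haveILetI false

noncomputable section

namespace Fermat.Agent.S38.H264

open CongruenceSubgroup ModularForm ModularCurve ModularCurve.Period
open UpperHalfPlane hiding I
open Matrix.SpecialLinearGroup Fermat.Agent.Lib.Newform.H803
open Fermat.Agent.S41.H761 Fermat.Agent.S29.H642
open Fermat.Agent.S59.TW.H653 Fermat.Agent.S59.TW.H658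
open scoped Manifold MatrixGroups ModularForm

/-- The primes `q ∣ N'`, `q ∉ S`. -/
abbrev BadPrime (N' : ℕ) (S : Set ℕ) : Type := {q : ℕ // q.Prime ∧ q ∣ N' ∧ q ∉ S}

/-- The index type of the generators of `heckeAlgebra N' 2 S`. -/
abbrev HIdx (N' : ℕ) (S : Set ℕ) : Type := GoodPrime N' S ⊕ BadPrime N' S

section Fam

variable (N' : ℕ) [NeZero N'] (S : Set ℕ)

/-- The family of the `T_ℓ` and `U_q` on `S₂(Γ₀(N'))`. -/
def heckeFamU : HIdx N' S → Module.End ℂ (CuspForm (Gamma0 N') 2) :=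
  Sum.elim (heckeFam N' S) (fun i => CuspForm.heckeULin 2 i.2.2.1)

@[simp] theorem heckeFamU_inl (i : GoodPrime N' S) :
    heckeFamU N' S (Sum.inl i) = CuspForm.heckeTLin 2 i.2.1 i.2.2.1 := rfl

@[simp] theorem heckeFamU_inr (i : BadPrime N' S) :
    heckeFamU N' S (Sum.inr i) = CuspForm.heckeULin 2 i.2.2.1 := rfl

theorem heckeGenerators_eq_rangeU :
    CuspForm.heckeGenerators N' 2 S = Set.range (heckeFamU N' S) := by
  ext T
  constructor
  · rintro (⟨ℓ, hℓ, hℓN, hℓS, rfl⟩ | ⟨q, hqN, hq, hqS, rfl⟩)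
    · exact ⟨Sum.inl ⟨ℓ, hℓ, hℓN, hℓS⟩, rfl⟩
    · exact ⟨Sum.inr ⟨q, hq, hqN, hqS⟩, rfl⟩
  · rintro ⟨i | i, rfl⟩
    · exact CuspForm.heckeTLin_mem_heckeGenerators i.2.1 i.2.2.1 i.2.2.2
    · exact CuspForm.heckeULin_mem_heckeGenerators i.2.1 i.2.2.1 i.2.2.2

theorem heckeAlgebra_eq_adjoinU :
    CuspForm.heckeAlgebra N' 2 S = Algebra.adjoin ℤ (Set.range (heckeFamU N' S)) := by
  rw [CuspForm.heckeAlgebra, heckeGenerators_eq_rangeU N' S]

end Fam

variable {M : ℕ} {K : Subgroup SL(2, ℤ)}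

section Ops

variable (hK : IsMid M K) (A : Type*) [AddCommGroup A]

/-- `u_q = ⟨u⟩ ∘ U_q` as an additive endomorphism of `X_K(A) = Hom(K, A)`. -/
def uHom (u : (ZMod M)ˣ) {q : ℕ} [Fact q.Prime] (hq : q ∣ M) :
    (Additive K →+ A) →+ (Additive K →+ A) :=
  (AddMonoidHom.mk' (diamondU hK u) (diamondU_add hK u)).comp (UKHom hK A hq)

variable {A}

@[simp] theorem uHom_apply (u : (ZMod M)ˣ) {q : ℕ} [Fact q.Prime] (hq : q ∣ M)
    (φ : Additive K →+ A) : uHom hK A u hq φ = diamondU hK u (UK K q φ) := rfl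

theorem uHom_comp {B : Type*} [AddCommGroup B] (u : (ZMod M)ˣ) {q : ℕ} [Fact q.Prime]
    (hq : q ∣ M) (π : A →+ B) (φ : Additive K →+ A) :
    uHom hK B u hq (π.comp φ) = π.comp (uHom hK A u hq φ) := by
  rw [uHom_apply, uHom_apply, UK_comp hK hq, diamondU_comp]

variable (A)

/-- The family of the `t_ℓ` (`ℓ ∤ N'`, `ℓ ∉ S`) and `u_q` (`q ∣ N'`, `q ∉ S`; these divide `M`
by `hB`) as `ℤ`-linear endomorphisms of `X_K(A)`. -/
def tFamU {N' : ℕ} (hMN : M ∣ N') (u : ℕ → (ZMod M)ˣ) {S : Set ℕ}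
    (hB : ∀ q : ℕ, q.Prime → q ∣ N' → q ∉ S → q ∣ M) :
    HIdx N' S → Module.End ℤ (Additive K →+ A) :=
  Sum.elim (tFam hK A hMN u) (fun i =>
    haveI : Fact i.1.Prime := ⟨i.2.1⟩
    (uHom hK A (u i.1) (hB i.1 i.2.1 i.2.2.1 i.2.2.2)).toIntLinearMap)

variable {A}

@[simp] theorem tFamU_inl {N' : ℕ} (hMN : M ∣ N') (u : ℕ → (ZMod M)ˣ) {S : Set ℕ}
    (hB : ∀ q : ℕ, q.Prime → q ∣ N' → q ∉ S → q ∣ M) (i : GoodPrime N' S) :
    tFamU hK A hMN u hB (Sum.inl i) = tFam hK A hMN u i := rfl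

theorem tFamU_inr_apply {N' : ℕ} (hMN : M ∣ N') (u : ℕ → (ZMod M)ˣ) {S : Set ℕ}
    (hB : ∀ q : ℕ, q.Prime → q ∣ N' → q ∉ S → q ∣ M) {q : ℕ} [Fact q.Prime]
    (hq : q.Prime ∧ q ∣ N' ∧ q ∉ S) (φ : Additive K →+ A) :
    tFamU hK A hMN u hB (Sum.inr (⟨q, hq⟩ : BadPrime N' S)) φ =
      diamondU hK (u q) (UK K q φ) := rfl

theorem tFamU_comp {B : Type*} [AddCommGroup B] {N' : ℕ} (hMN : M ∣ N') (u : ℕ → (ZMod M)ˣ)
    {S : Set ℕ} (hB : ∀ q : ℕ, q.Prime → q ∣ N' → q ∉ S → q ∣ M) (i : HIdx N' S)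
    (π : A →+ B) (φ : Additive K →+ A) :
    tFamU hK B hMN u hB i (π.comp φ) = π.comp (tFamU hK A hMN u hB i φ) := by
  rcases i with i | i
  · exact tFam_comp hK hMN u i π φ
  · haveI : Fact i.1.Prime := ⟨i.2.1⟩
    exact uHom_comp hK (u i.1) (hB i.1 i.2.1 i.2.2.1 i.2.2.2) π φ

end Ops

/-- The hypothesis of the transfer, with `U_q`: for every character `χ` trivial on `K` the
nebentypus-`χ` component embeds into `S₂(Γ₀(N'))`, intertwining `χ(u ℓ) • T_ℓ` with `T_ℓ`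
(`ℓ ∤ N'`) and `χ(u q) • U_q` with `U_q` (`q ∣ N'`, `q ∉ S`; such `q` divide `M`). -/
structure EmbHypU (K : Subgroup SL(2, ℤ)) (N' : ℕ) [NeZero N'] (u : ℕ → (ZMod M)ˣ)
    (S : Set ℕ) : Prop where
  dvd : M ∣ N'
  neg : (-1 : SL(2, ℤ)) ∈ K
  bad : ∀ q : ℕ, q.Prime → q ∣ N' → q ∉ S → q ∣ M
  emb : ∀ χ : DirichletCharacter ℂ M, TrivOn K χ →
    ∃ J : nebSub M χ →+ CuspForm (Gamma0 N') 2, Function.Injective J ∧
      (∀ (ℓ : ℕ) [Fact ℓ.Prime] (hℓ : ¬ ℓ ∣ M) (hℓN : ¬ ℓ ∣ N'), ℓ ∉ S → ∀ F : nebSub M χ,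
        CuspForm.heckeTLin 2 (Fact.out : ℓ.Prime) hℓN (J F) =
          J (nebT χ hℓ (χ ((u ℓ : (ZMod M)ˣ) : ZMod M)) F)) ∧
      (∀ (q : ℕ) [Fact q.Prime] (hq : q ∣ M) (hqN : q ∣ N'), q ∉ S → ∀ F : nebSub M χ,
        CuspForm.heckeULin 2 hqN (J F) =
          J (nebU χ hq (χ ((u q : (ZMod M)ˣ) : ZMod M)) F))

variable [NeZero M] [K.FiniteIndex]

/-- **E5 with `U_q`, complex coefficients.** -/
theorem rel_complexU (hK : IsMid M K) {N' : ℕ} [NeZero N'] {u : ℕ → (ZMod M)ˣ} {S : Set ℕ}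
    (H : EmbHypU K N' u S) (P : FreeAlgebra ℤ (HIdx N' S))
    (hP : FreeAlgebra.lift ℤ (heckeFamU N' S) P = 0)
    (y : Additive K →+ ℂ) (hy : IsParabolicHom K y) :
    FreeAlgebra.lift ℤ (tFamU hK ℂ H.dvd u H.bad) P y = 0 := by
  classical
  choose J hJi hJT hJU using H.emb
  have hℓM : ∀ i : GoodPrime N' S, ¬ i.1 ∣ M := fun i h => i.2.2.1 (h.trans H.dvd)
  have hqM : ∀ i : BadPrime N' S, i.1 ∣ M := fun i => H.bad i.1 i.2.1 i.2.2.1 i.2.2.2
  refine rel_of_intertwiners (heckeFamU N' S) (tFamU hK ℂ H.dvd u H.bad)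
    (parabolicHoms ℤ K ℂ).toAddSubgroup
    (W := fun e : {χ : DirichletCharacter ℂ M // TrivOn K χ} => nebSub M e.1)
    (fun e => Sum.elim
      (fun i => haveI : Fact i.1.Prime := ⟨i.2.1⟩
        endToInt ℂ _ (nebT e.1 (hℓM i) (e.1 ((u i.1 : (ZMod M)ˣ) : ZMod M))))
      (fun i => haveI : Fact i.1.Prime := ⟨i.2.1⟩
        endToInt ℂ _ (nebU e.1 (hqM i) (e.1 ((u i.1 : (ZMod M)ˣ) : ZMod M)))))
    (fun e => J e.1 e.2) (fun e => hJi e.1 e.2) ?_
    (fun e => (perGL K).toAddMonoidHom.comp (nebForm hK e.1 e.2).toAddMonoidHom) ?_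
    (conjAdd _) ?_ ?_ P hP y hy
  · rintro e (i | i) w
    · haveI : Fact i.1.Prime := ⟨i.2.1⟩
      exact (hJT e.1 e.2 i.1 (hℓM i) i.2.2.1 i.2.2.2 w).symm
    · haveI : Fact i.1.Prime := ⟨i.2.1⟩
      exact (hJU e.1 e.2 i.1 (hqM i) i.2.2.1 i.2.2.2 w).symm
  · rintro e (i | i) w
    · haveI : Fact i.1.Prime := ⟨i.2.1⟩
      exact perG_nebForm_nebT hK e.1 e.2 (hℓM i) (u i.1) w
    · haveI : Fact i.1.Prime := ⟨i.2.1⟩
      exact perG_nebForm_nebU hK e.1 e.2 (hqM i) (u i.1) w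
  · intro i x
    exact tFamU_comp hK H.dvd u H.bad i (starRingEnd ℂ).toAddMonoidHom x
  · intro y hy
    obtain ⟨f₁, f₂, rfl⟩ := exists_perG_add_conj_of_isMid hK H.neg y hy
    obtain ⟨w₁, hw₁⟩ := exists_nebForm_sum hK f₁
    obtain ⟨w₂, hw₂⟩ := exists_nebForm_sum hK f₂
    refine AddSubgroup.add_mem _ ?_ ?_
    · have : perG f₁ = ∑ χ : {χ : DirichletCharacter ℂ M // TrivOn K χ},
          perG (nebForm hK χ.1 χ.2 (w₁ χ)) := by
        conv_lhs => rw [hw₁]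
        rw [← perGL_apply, map_sum]
        rfl
      rw [this]
      exact AddSubgroup.sum_mem _ fun χ _ => AddSubgroup.subset_closure ⟨χ, w₁ χ, Or.inl rfl⟩
    · have : conjHom (perG f₂) = ∑ χ : {χ : DirichletCharacter ℂ M // TrivOn K χ},
          conjHom (perG (nebForm hK χ.1 χ.2 (w₂ χ))) := by
        conv_lhs => rw [hw₂]
        rw [← perGL_apply, map_sum, ← conjAdd_apply, map_sum]
        rfl
      rw [this]
      exact AddSubgroup.sum_mem _ fun χ _ => AddSubgroup.subset_closure ⟨χ, w₂ χ, Or.inr rfl⟩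

/-- `u_q = ⟨u⟩ U_q` preserves the complex parabolic classes. -/
theorem isParabolicHom_uHom_complex (hK : IsMid M K) (hneg : (-1 : SL(2, ℤ)) ∈ K)
    (u : (ZMod M)ˣ) {q : ℕ} [Fact q.Prime] (hq : q ∣ M)
    (y : Additive K →+ ℂ) (hy : IsParabolicHom K y) :
    IsParabolicHom K (uHom hK ℂ u hq y) := by
  obtain ⟨f₁, f₂, rfl⟩ := exists_perG_add_conj_of_isMid hK hneg y hy
  have h1 : ∀ f : CuspForm K 2, uHom hK ℂ u hq (perG f) =
      perG (diaForm hK (sg u) (UForm hK hq f)) := by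
    intro f
    rw [perG_diaForm, perG_UForm, ← diamondU_eq hK (dUnit_sg u)]
    rfl
  have h2 : uHom hK ℂ u hq (conjHom (perG f₂)) = conjHom (uHom hK ℂ u hq (perG f₂)) :=
    uHom_comp hK u hq (starRingEnd ℂ).toAddMonoidHom _
  rw [map_add, h2, h1, h1]
  intro γ hγ
  rw [AddMonoidHom.add_apply, conjHom_apply, perG_parabolic _ γ hγ, perG_parabolic _ γ hγ]
  simp

/-- The operators `t_ℓ`, `u_q` preserve the complex parabolic classes. -/
theorem isParabolicHom_tFamU_complex (hK : IsMid M K) {N' : ℕ} (hMN : M ∣ N')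
    (hneg : (-1 : SL(2, ℤ)) ∈ K) (u : ℕ → (ZMod M)ˣ) {S : Set ℕ}
    (hB : ∀ q : ℕ, q.Prime → q ∣ N' → q ∉ S → q ∣ M) (i : HIdx N' S)
    (y : Additive K →+ ℂ) (hy : IsParabolicHom K y) :
    IsParabolicHom K (tFamU hK ℂ hMN u hB i y) := by
  rcases i with i | i
  · exact isParabolicHom_tFam_complex hK hMN hneg u i y hy
  · haveI : Fact i.1.Prime := ⟨i.2.1⟩
    exact isParabolicHom_uHom_complex hK hneg (u i.1) (hB i.1 i.2.1 i.2.2.1 i.2.2.2) y hy

/-- The operators `t_ℓ`, `u_q` preserve the integral parabolic classes. -/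
theorem isParabolicHom_tFamU_int (hK : IsMid M K) {N' : ℕ} (hMN : M ∣ N')
    (hneg : (-1 : SL(2, ℤ)) ∈ K) (u : ℕ → (ZMod M)ˣ) {S : Set ℕ}
    (hB : ∀ q : ℕ, q.Prime → q ∣ N' → q ∉ S → q ∣ M) (i : HIdx N' S)
    (y : Additive K →+ ℤ) (hy : IsParabolicHom K y) :
    IsParabolicHom K (tFamU hK ℤ hMN u hB i y) := by
  rw [← isParabolicHom_castHom]
  have h1 : castHom _ (tFamU hK ℤ hMN u hB i y) = tFamU hK ℂ hMN u hB i (castHom _ y) :=
    (tFamU_comp hK hMN u hB i (Int.castAddHom ℂ) y).symm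
  rw [h1]
  exact isParabolicHom_tFamU_complex hK hMN hneg u hB i _ (isParabolicHom_castHom.mpr hy)

/-- **E5 with `U_q`, integral coefficients.** -/
theorem rel_intU (hK : IsMid M K) {N' : ℕ} [NeZero N'] {u : ℕ → (ZMod M)ˣ} {S : Set ℕ}
    (H : EmbHypU K N' u S) (P : FreeAlgebra ℤ (HIdx N' S))
    (hP : FreeAlgebra.lift ℤ (heckeFamU N' S) P = 0)
    (y : Additive K →+ ℤ) (hy : IsParabolicHom K y) :
    FreeAlgebra.lift ℤ (tFamU hK ℤ H.dvd u H.bad) P y = 0 := by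
  apply castHom_injective
  rw [lift_intertwine (tFamU hK ℤ H.dvd u H.bad) (tFamU hK ℂ H.dvd u H.bad) (castHom _)
    (fun i m => (tFamU_comp hK H.dvd u H.bad i (Int.castAddHom ℂ) m).symm) P y, map_zero]
  exact rel_complexU hK H P hP _ (isParabolicHom_castHom.mpr hy)

section Coeff

variable {A : Type*} [AddCommGroup A] [Module.IsTorsionFree ℤ A]

/-- **E6 with `U_q`.**  The relations hold on parabolic classes with torsion-free
coefficients. -/
theorem rel_coeffU (hK : IsMid M K) {N' : ℕ} [NeZero N'] {u : ℕ → (ZMod M)ˣ} {S : Set ℕ}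
    (H : EmbHypU K N' u S) (P : FreeAlgebra ℤ (HIdx N' S))
    (hP : FreeAlgebra.lift ℤ (heckeFamU N' S) P = 0)
    (y : Additive K →+ A) (hy : IsParabolicHom K y) :
    FreeAlgebra.lift ℤ (tFamU hK A H.dvd u H.bad) P y = 0 := by
  haveI := fg_of_finiteIndex K
  refine hom_induction_of_torsionFree (parSet K)
    (fun y => FreeAlgebra.lift ℤ (tFamU hK A H.dvd u H.bad) P y = 0) ?_ (map_zero _) ?_ y hy
  · intro φ ψ hφ hψ
    rw [map_add, hφ, hψ, add_zero]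
  · intro ψ a hψ
    have h1 := lift_intertwine (tFamU hK ℤ H.dvd u H.bad) (tFamU hK A H.dvd u H.bad)
      (compAdd _ (zmultiplesHom A a))
      (fun i m => (tFamU_comp hK H.dvd u H.bad i (zmultiplesHom A a) m).symm) P ψ
    simp only [compAdd_apply] at h1
    rw [← h1, rel_intU hK H P hP ψ hψ]
    exact AddMonoidHom.comp_zero _

/-- `t_ℓ`, `u_q` preserve the parabolic classes with torsion-free coefficients. -/
theorem isParabolicHom_tFamU_coeff (hK : IsMid M K) {N' : ℕ} (hMN : M ∣ N')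
    (hneg : (-1 : SL(2, ℤ)) ∈ K) (u : ℕ → (ZMod M)ˣ) {S : Set ℕ}
    (hB : ∀ q : ℕ, q.Prime → q ∣ N' → q ∉ S → q ∣ M) (i : HIdx N' S)
    (y : Additive K →+ A) (hy : IsParabolicHom K y) :
    IsParabolicHom K (tFamU hK A hMN u hB i y) := by
  haveI := fg_of_finiteIndex K
  refine hom_induction_of_torsionFree (parSet K)
    (fun y => IsParabolicHom K (tFamU hK A hMN u hB i y)) ?_ ?_ ?_ y hy
  · intro φ ψ hφ hψ γ hγ
    rw [map_add, AddMonoidHom.add_apply, hφ γ hγ, hψ γ hγ, add_zero]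
  · intro γ hγ
    rw [map_zero]
    rfl
  · intro ψ a hψ γ hγ
    rw [tFamU_comp hK hMN u hB i (zmultiplesHom A a) ψ, AddMonoidHom.comp_apply,
      isParabolicHom_tFamU_int hK hMN hneg u hB i ψ hψ γ hγ, map_zero]

end Coeff

section Sub

variable {R : Type*} [CommRing R] [Module.IsTorsionFree ℤ R]

/-- `t_ℓ`, `u_q` are `R`-linear on `Hom(K, R)`. -/
theorem tFamU_smul (hK : IsMid M K) {N' : ℕ} (hMN : M ∣ N') (u : ℕ → (ZMod M)ˣ) {S : Set ℕ}
    (hB : ∀ q : ℕ, q.Prime → q ∣ N' → q ∉ S → q ∣ M) (i : HIdx N' S) (r : R)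
    (φ : Additive K →+ R) :
    tFamU hK R hMN u hB i (r • φ) = r • tFamU hK R hMN u hB i φ := by
  have h1 : ∀ ψ : Additive K →+ R, r • ψ = (AddMonoidHom.mulLeft r).comp ψ := fun ψ =>
    AddMonoidHom.ext fun _ => rfl
  rw [h1, h1, tFamU_comp]

/-- **MODQ-U (abstract shape).**  For a commutative ring `R`, torsion-free as an abelian
group, and an `R`-submodule `V ⊆ Hom(K, R)` of parabolic classes stable under the
`t_ℓ = ⟨u ℓ⟩ T_ℓ` and the `u_q = ⟨u q⟩ U_q`: the Hecke algebra of `Γ₀(N')` away from `S`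
(generated by the `T_ℓ` AND the `U_q`, `q ∣ N'`, `q ∉ S`) acts `R`-linearly on `V`. -/
theorem exists_heckeActionU_sub (hK : IsMid M K) {N' : ℕ} [NeZero N'] {u : ℕ → (ZMod M)ˣ}
    {S : Set ℕ} (H : EmbHypU K N' u S)
    (V : Submodule R (Additive K →+ R)) (hpar : ∀ v ∈ V, IsParabolicHom K v)
    (hstT : ∀ (ℓ : ℕ) [Fact ℓ.Prime], ¬ ℓ ∣ N' → ℓ ∉ S → ∀ v ∈ V,
      diamondU hK (u ℓ) (TK M K ℓ v) ∈ V)
    (hstU : ∀ (q : ℕ) [Fact q.Prime], q ∣ N' → q ∉ S → ∀ v ∈ V,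
      diamondU hK (u q) (UK K q v) ∈ V) :
    ∃ Ψ : CuspForm.heckeAlgebra N' 2 S →+* Module.End R V,
      (∀ (ℓ : ℕ) [Fact ℓ.Prime] (hℓN : ¬ ℓ ∣ N') (hℓS : ℓ ∉ S) (v : V),
        ((Ψ (CuspForm.heckeAlgebra.T (Fact.out : ℓ.Prime) hℓN hℓS) v : V) :
          Additive K →+ R) = diamondU hK (u ℓ) (TK M K ℓ (v : Additive K →+ R))) ∧
      ∀ (q : ℕ) [Fact q.Prime] (hqN : q ∣ N') (hqS : q ∉ S) (v : V),
        ((Ψ (CuspForm.heckeAlgebra.U (Fact.out : q.Prime) hqN hqS) v : V) :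
          Additive K →+ R) = diamondU hK (u q) (UK K q (v : Additive K →+ R)) := by
  have hst' : ∀ (i : HIdx N' S), ∀ v ∈ V, tFamU hK R H.dvd u H.bad i v ∈ V := by
    rintro (i | i) v hv
    · haveI : Fact i.1.Prime := ⟨i.2.1⟩
      exact hstT i.1 i.2.2.1 i.2.2.2 v hv
    · haveI : Fact i.1.Prime := ⟨i.2.1⟩
      exact hstU i.1 i.2.2.1 i.2.2.2 v hv
  obtain ⟨Φ₀, hΦ₀⟩ := exists_ringHom_linear (heckeFamU N' S) (tFamU hK R H.dvd u H.bad)
    (fun i r x => tFamU_smul hK H.dvd u H.bad i r x) V hst'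
    (fun P hP v hv => rel_coeffU hK H P hP v (hpar v hv))
  have heq := heckeAlgebra_eq_adjoinU N' S
  refine ⟨Φ₀.comp (Subalgebra.equivOfEq _ _ heq).toRingEquiv.toRingHom, ?_, ?_⟩
  · intro ℓ _ hℓN hℓS v
    have h1 : (Subalgebra.equivOfEq _ _ heq).toRingEquiv.toRingHom
        (CuspForm.heckeAlgebra.T (Fact.out : ℓ.Prime) hℓN hℓS) =
        ⟨heckeFamU N' S (Sum.inl ⟨ℓ, Fact.out, hℓN, hℓS⟩),
          Algebra.subset_adjoin ⟨_, rfl⟩⟩ := rfl
    rw [RingHom.comp_apply, h1, hΦ₀]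
    rfl
  · intro q _ hqN hqS v
    have h1 : (Subalgebra.equivOfEq _ _ heq).toRingEquiv.toRingHom
        (CuspForm.heckeAlgebra.U (Fact.out : q.Prime) hqN hqS) =
        ⟨heckeFamU N' S (Sum.inr ⟨q, Fact.out, hqN, hqS⟩),
          Algebra.subset_adjoin ⟨_, rfl⟩⟩ := rfl
    rw [RingHom.comp_apply, h1, hΦ₀]
    rfl

end Sub

end Fermat.Agent.S38.H264

end
end
-- ===== PACK-END S38/H264/RelU.lean

-- ===== PACK-BEGIN S38/H264/ActionU.lean
section



/-!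
# Row HARD, leaf (ST), bridge MODQ-U (helper264), part 4: the concrete hypothesis and the action

Taylor–Wiles shape (as in helper658's `embHyp_of_odd`): `Γ₁(M) ≤ K ≤ Γ₀(M)`, `Qs` a list of
distinct primes `q' ∥ M` with `Γ₀(M) ∩ Γ₁(∏ Qs) ≤ K` and `γ^(2m+1) ∈ K` for `γ ∈ Γ₀(M)`,
`M · ∏ Qs ∣ N'`.  `S` a set of primes such that every prime `q ∣ N'` OUTSIDE `S` divides `M`
(the pivots).  `w : ℕ → (ℤ/M)ˣ` with `w ℓ ≡ ℓ` modulo the primes of `Qs` (`ℓ ∉ S` prime).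

* `embHypU_of_odd` : `EmbHypU K N' (fun ℓ => w ℓ ^ m) S`;
* `exists_heckeActionU_sub_of_odd` (**MODQ-U**) : for `R` torsion-free and a stable submodule
  `V ⊆ Hom(K, R)` of parabolic classes, a ring homomorphism
  `Ψ : heckeAlgebra N' 2 S →+* End_R V`, `T_ℓ ↦ ⟨w ℓ⟩^m T_ℓ`, `U_q ↦ ⟨w q⟩^m U_q`.
-/

set_option autoImplicit false
set_option linter.unusedSectionVars false
set_option linter.style.haveILetI false

noncomputable section

namespace Fermat.Agent.S38.H264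

open CongruenceSubgroup ModularForm ModularCurve ModularCurve.Period
open UpperHalfPlane hiding I
open Matrix.SpecialLinearGroup Fermat.Agent.Lib.Newform.H803
open Fermat.Agent.S59.TW Fermat.Agent.S59.TW.H653 Fermat.Agent.S59.TW.H658
open scoped Manifold MatrixGroups ModularForm

variable {M : ℕ} [NeZero M] {K : Subgroup SL(2, ℤ)} [K.FiniteIndex]

/-- **The concrete transfer hypothesis with `U_q`** (Taylor–Wiles shape). -/
theorem embHypU_of_odd (hK : IsMid M K) (Qs : List ℕ) (hnd : Qs.Nodup)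
    (hQs : ∀ q ∈ Qs, q.Prime ∧ ∃ M' : ℕ, M = M' * q ∧ Nat.Coprime M' q)
    (hK1 : ∀ γ ∈ Gamma0 M, ((Qs.prod : ℕ) : ℤ) ∣ γ 1 1 - 1 → γ ∈ K)
    (m : ℕ) (hK2 : ∀ γ ∈ Gamma0 M, γ ^ (2 * m + 1) ∈ K)
    {N' : ℕ} [NeZero N'] (hN' : M * Qs.prod ∣ N') (S : Set ℕ)
    (hB : ∀ q : ℕ, q.Prime → q ∣ N' → q ∉ S → q ∣ M)
    (w : ℕ → (ZMod M)ˣ)
    (hw : ∀ ℓ : ℕ, ℓ.Prime → ℓ ∉ S → ∀ d : ℤ,
      ((d : ℤ) : ZMod M) = ((w ℓ : (ZMod M)ˣ) : ZMod M) → ∀ q' ∈ Qs, (q' : ℤ) ∣ d - (ℓ : ℤ)) :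
    EmbHypU K N' (fun ℓ => w ℓ ^ m) S where
  dvd := (Dvd.intro _ rfl).trans hN'
  neg := by
    have h1 : (-1 : SL(2, ℤ)) ∈ Gamma0 M := by
      rw [Gamma0_mem]
      simp
    have h2 := hK2 _ h1
    rwa [Odd.neg_one_pow ⟨m, rfl⟩] at h2
  bad := hB
  emb := fun χ hχ => by
    have hQM : ((Qs.prod : ℕ) : ℤ) ∣ (M : ℤ) :=
      H564.list_prod_dvd_of_primes Qs hnd (fun q hq => (hQs q hq).1) _ (fun q hq => by
        obtain ⟨-, M', hM, -⟩ := hQs q hq
        exact Int.natCast_dvd_natCast.mpr ⟨M', by rw [hM, mul_comm]⟩)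
    -- `χ` is trivial on the units `≡ 1 mod ∏ Qs`
    have hε : ∀ d : ℤ, ((Qs.prod : ℕ) : ℤ) ∣ d - 1 → IsUnit ((d : ℤ) : ZMod M) →
        χ ((d : ℤ) : ZMod M) = 1 := by
      intro d hd hu
      obtain ⟨v, hv⟩ := hu
      obtain ⟨g, hg⟩ := dUnit_surjective (M := M) v
      have h1 : ((((g : SL(2, ℤ)) 1 1 : ℤ)) : ZMod M) = ((d : ℤ) : ZMod M) := by
        rw [← coe_dUnit, hg, hv]
      have h2 : (M : ℤ) ∣ (g : SL(2, ℤ)) 1 1 - d := by
        rw [← ZMod.intCast_zmod_eq_zero_iff_dvd]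
        push_cast
        rw [h1, sub_self]
      have h3 : ((Qs.prod : ℕ) : ℤ) ∣ (g : SL(2, ℤ)) 1 1 - 1 := by
        have := dvd_add (hQM.trans h2) hd
        rwa [sub_add_sub_cancel] at this
      have h4 := hχ g (hK1 _ g.2 h3)
      rw [hg, hv] at h4
      exact h4
    -- `χ ^ (2 m + 1) = 1`
    have hm : χ ^ (2 * m + 1) = 1 := by
      ext v
      rw [MulChar.pow_apply_coe, MulChar.one_apply_coe, ← map_pow, ← Units.val_pow_eq_pow_val]
      obtain ⟨g, rfl⟩ := dUnit_surjective (M := M) v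
      rw [← map_pow]
      exact hχ (g ^ (2 * m + 1)) (hK2 _ g.2)
    have hper := H564.periodic_of_trivial Qs hnd (fun q hq => (hQs q hq).1) χ hε
    -- the value of `χ` at `w ℓ ^ m`
    have hval : ∀ ℓ : ℕ, χ (((w ℓ ^ m : (ZMod M)ˣ) : (ZMod M)ˣ) : ZMod M) =
        χ ((w ℓ : (ZMod M)ˣ) : ZMod M) ^ m := fun ℓ => by
      rw [Units.val_pow_eq_pow_val, map_pow]
    obtain ⟨J, hJi, hJT, hJU⟩ :=
      exists_twistEmbeddingKU 2 hK.ge Qs hnd hQs χ hε m hm N' hN'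
    refine ⟨(J.comp (toNebK hK χ hχ)).toAddMonoidHom,
      hJi.comp (toNebK_injective hK χ hχ), ?_, ?_⟩
    · intro ℓ _ hℓ hℓN hℓS F
      have hℓp : ℓ.Prime := Fact.out
      have hcop : Nat.Coprime ℓ M := (Nat.Prime.coprime_iff_not_dvd hℓp).mpr hℓ
      obtain ⟨d, hd⟩ := ZMod.intCast_surjective ((w ℓ : (ZMod M)ˣ) : ZMod M)
      have hdu : IsUnit ((d : ℤ) : ZMod M) := hd ▸ (w ℓ).isUnit
      have hℓu : IsUnit ((((ℓ : ℕ) : ℤ) : ℤ) : ZMod M) := by
        rw [Int.cast_natCast, ZMod.isUnit_iff_coprime]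
        exact hcop
      have hχw : χ ((w ℓ : (ZMod M)ˣ) : ZMod M) = χ ((ℓ : ℕ) : ZMod M) := by
        have := hper d (ℓ : ℤ) hdu hℓu (hw ℓ hℓp hℓS d hd)
        rwa [hd, Int.cast_natCast] at this
      refine hJT ℓ hℓ hℓN (toNebK hK χ hχ F) (toNebK hK χ hχ _) ?_
      rw [coe_toNebK, coe_toNebK, coe_nebT, famOp_repsT_eq χ hcop F.2.2, hval, hχw,
        chiZ_apply, Int.cast_natCast]
    · intro q _ hq hqN hqS F
      have hqp : q.Prime := Fact.out
      obtain ⟨d, hd⟩ := ZMod.intCast_surjective ((w q : (ZMod M)ˣ) : ZMod M)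
      have hdu : IsUnit ((d : ℤ) : ZMod M) := hd ▸ (w q).isUnit
      refine hJU q hqp.ne_zero hqN d hdu (hw q hqp hqS d hd) (toNebK hK χ hχ F)
        (toNebK hK χ hχ _) ?_
      rw [coe_toNebK, coe_toNebK, coe_nebU, famOp_repsU_eq, hval, hd]

variable {R : Type*} [CommRing R] [Module.IsTorsionFree ℤ R]

/-- **MODQ-U (Taylor–Wiles shape).**  `K` with `Γ₀(M) ∩ Γ₁(∏ Qs) ≤ K ≤ Γ₀(M)` and
`Γ₀(M)^(2m+1) ⊆ K`, `M · ∏ Qs ∣ N'`, `R` torsion-free, `S` such that the primes `q ∣ N'` outside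
`S` divide `M`, `w ℓ ≡ ℓ` modulo the primes of `Qs`: the Hecke algebra of `Γ₀(N')` away from `S`
(generated by the `T_ℓ` and the `U_q`, `q ∣ N'`, `q ∉ S`) acts on every `R`-submodule
`V ⊆ Hom(K, R)` of parabolic classes stable under the `⟨w ℓ⟩^m T_ℓ` and the `⟨w q⟩^m U_q`,
through `T_ℓ ↦ ⟨w ℓ⟩^m T_ℓ`, `U_q ↦ ⟨w q⟩^m U_q`. -/
theorem exists_heckeActionU_sub_of_odd (hK : IsMid M K) (Qs : List ℕ) (hnd : Qs.Nodup)
    (hQs : ∀ q ∈ Qs, q.Prime ∧ ∃ M' : ℕ, M = M' * q ∧ Nat.Coprime M' q)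
    (hK1 : ∀ γ ∈ Gamma0 M, ((Qs.prod : ℕ) : ℤ) ∣ γ 1 1 - 1 → γ ∈ K)
    (m : ℕ) (hK2 : ∀ γ ∈ Gamma0 M, γ ^ (2 * m + 1) ∈ K)
    {N' : ℕ} [NeZero N'] (hN' : M * Qs.prod ∣ N') (S : Set ℕ)
    (hB : ∀ q : ℕ, q.Prime → q ∣ N' → q ∉ S → q ∣ M)
    (w : ℕ → (ZMod M)ˣ)
    (hw : ∀ ℓ : ℕ, ℓ.Prime → ℓ ∉ S → ∀ d : ℤ,
      ((d : ℤ) : ZMod M) = ((w ℓ : (ZMod M)ˣ) : ZMod M) → ∀ q' ∈ Qs, (q' : ℤ) ∣ d - (ℓ : ℤ))
    (V : Submodule R (Additive K →+ R)) (hpar : ∀ v ∈ V, IsParabolicHom K v)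
    (hstT : ∀ (ℓ : ℕ) [Fact ℓ.Prime], ¬ ℓ ∣ N' → ℓ ∉ S → ∀ v ∈ V,
      diamondU hK (w ℓ ^ m) (TK M K ℓ v) ∈ V)
    (hstU : ∀ (q : ℕ) [Fact q.Prime], q ∣ N' → q ∉ S → ∀ v ∈ V,
      diamondU hK (w q ^ m) (UK K q v) ∈ V) :
    ∃ Ψ : CuspForm.heckeAlgebra N' 2 S →+* Module.End R V,
      (∀ (ℓ : ℕ) [Fact ℓ.Prime] (hℓN : ¬ ℓ ∣ N') (hℓS : ℓ ∉ S) (v : V),
        ((Ψ (CuspForm.heckeAlgebra.T (Fact.out : ℓ.Prime) hℓN hℓS) v : V) :
          Additive K →+ R) = diamondU hK (w ℓ ^ m) (TK M K ℓ (v : Additive K →+ R))) ∧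
      ∀ (q : ℕ) [Fact q.Prime] (hqN : q ∣ N') (hqS : q ∉ S) (v : V),
        ((Ψ (CuspForm.heckeAlgebra.U (Fact.out : q.Prime) hqN hqS) v : V) :
          Additive K →+ R) = diamondU hK (w q ^ m) (UK K q (v : Additive K →+ R)) :=
  exists_heckeActionU_sub hK (embHypU_of_odd hK Qs hnd hQs hK1 m hK2 hN' S hB w hw) V hpar
    hstT hstU

end Fermat.Agent.S38.H264

end
end
-- ===== PACK-END S38/H264/ActionU.lean

-- ===== PACK-BEGIN S38/H264/PsiU.lean
section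



/-!
# Row HARD, leaf IA-ST, bridge MODQ-U (helper264), part 6: `Ψ(U_q)² = 1` from the identity (UU)

Mid group `Γ₁(M) ≤ K ≤ Γ₀(M)` of Taylor–Wiles shape (`Γ₀(M) ∩ Γ₁(∏ Qs) ≤ K`, `γ^(2m+1) ∈ K`),
`q ∣ M` THE prime of `N'` outside `S` (the pivot), `V ⊆ Hom(K, R)` a submodule of parabolic
classes stable under the `⟨ℓ⟩^m T_ℓ` (`= Aut.tOpTw hK R m ℓ`), under `U_q` and under the diamond
operators, on which the identity (UU) holds:

  `U_q (U_q v) = ⟨u⟩ v`,   `u ≡ q` modulo the primes of `Qs`.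

Then (`exists_psiU_sq_eq_one`) there is a ring homomorphism
`Ψ : heckeAlgebra N' 2 S →+* End_R V` with `Ψ(T_ℓ) = ⟨ℓ⟩^m T_ℓ` and `Ψ(U_q) * Ψ(U_q) = 1`:
exactly the inputs `Ψ`, `hUU` of `H53.st_of_action_h53` / `H114` POINT-U.

(`Ψ(U_q) = ⟨w_q⟩^m U_q` with `w_q ≡ q` modulo the primes of `Qs`, so
`Ψ(U_q)² = ⟨w_q⟩^(2m) ⟨u⟩ = ⟨w_q⟩^(2m+1) ⟨w_q⁻¹ u⟩ = 1`.)
-/

set_option autoImplicit false
set_option linter.unusedSectionVars false
set_option linter.style.haveILetI false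

noncomputable section

namespace Fermat.Agent.S38.H264

open CongruenceSubgroup ModularForm ModularCurve ModularCurve.Period
open Matrix.SpecialLinearGroup
open Fermat.Agent.S59.TW Fermat.Agent.S59.TW.H653 Fermat.Agent.S59.TW.H658
open Fermat.Agent.S59.TW.Aut
open scoped MatrixGroups

variable {M : ℕ} [NeZero M] {K : Subgroup SL(2, ℤ)}

/-- `u ≡ c` modulo every prime of `Qs`, for a unit `u` of `ℤ/M` (integer form, as in the
hypothesis `hw` of `exists_heckeActionU_sub_of_odd`). -/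
def CongrAt (Qs : List ℕ) (u : (ZMod M)ˣ) (c : ℕ) : Prop :=
  ∀ d : ℤ, ((d : ℤ) : ZMod M) = ((u : (ZMod M)ˣ) : ZMod M) → ∀ q' ∈ Qs, (q' : ℤ) ∣ d - (c : ℤ)

/-- The reduction of a unit `u ≡ c` modulo a prime `q' ∈ Qs`, `q' ∣ M`. -/
theorem CongrAt.castHom_eq {Qs : List ℕ} {u : (ZMod M)ˣ} {c : ℕ} (h : CongrAt Qs u c)
    {q' : ℕ} (hq' : q' ∈ Qs) (hq'M : q' ∣ M) :
    ZMod.castHom hq'M (ZMod q') ((u : (ZMod M)ˣ) : ZMod M) = (c : ZMod q') := by
  obtain ⟨d, hd⟩ := ZMod.intCast_surjective ((u : (ZMod M)ˣ) : ZMod M)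
  have h1 := h d hd q' hq'
  have h2 : ((d : ℤ) : ZMod q') = (c : ZMod q') := by
    have h3 := (ZMod.intCast_zmod_eq_zero_iff_dvd (d - (c : ℤ)) q').mpr h1
    push_cast at h3
    exact sub_eq_zero.mp h3
  rw [← hd, map_intCast, h2]

/-- Two units congruent to the same `c` modulo the primes of `Qs` have the same diamond
operator on `X_K`, if `Γ₀(M) ∩ Γ₁(∏ Qs) ≤ K`. -/
theorem diamondU_eq_of_congrAt (hK : IsMid M K) (Qs : List ℕ) (hnd : Qs.Nodup)
    (hQs : ∀ q ∈ Qs, q.Prime ∧ q ∣ M)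
    (hK1 : ∀ γ ∈ Gamma0 M, ((Qs.prod : ℕ) : ℤ) ∣ γ 1 1 - 1 → γ ∈ K)
    {u u' : (ZMod M)ˣ} {c : ℕ} (hu : CongrAt Qs u c) (hu' : CongrAt Qs u' c)
    {A : Type*} [AddCommGroup A] (φ : Additive K →+ A) :
    diamondU hK u φ = diamondU hK u' φ := by
  obtain ⟨γ, hγ⟩ := dUnit_surjective (M := M) (u'⁻¹ * u)
  have hmem : (γ : SL(2, ℤ)) ∈ K := by
    refine hK1 _ γ.2 ?_
    refine H564.list_prod_dvd_of_primes Qs hnd (fun q hq => (hQs q hq).1) _ fun q' hq' => ?_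
    have hq'M := (hQs q' hq').2
    have e1 := hu.castHom_eq hq' hq'M
    have e2 := hu'.castHom_eq hq' hq'M
    have e3 : ZMod.castHom hq'M (ZMod q') (((u'⁻¹ : (ZMod M)ˣ) : (ZMod M)ˣ) : ZMod M) *
        ZMod.castHom hq'M (ZMod q') ((u' : (ZMod M)ˣ) : ZMod M) = 1 := by
      rw [← map_mul, ← Units.val_mul, inv_mul_cancel, Units.val_one, map_one]
    have e4 : ZMod.castHom hq'M (ZMod q') (((u'⁻¹ * u : (ZMod M)ˣ) : (ZMod M)ˣ) : ZMod M)
        = 1 := by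
      rw [Units.val_mul, map_mul, e1, ← e2, e3]
    have e5 : ((((γ : SL(2, ℤ)) 1 1 : ℤ)) : ZMod M) =
        (((u'⁻¹ * u : (ZMod M)ˣ) : (ZMod M)ˣ) : ZMod M) := by
      rw [← coe_dUnit, hγ]
    have e6 : ((((γ : SL(2, ℤ)) 1 1 : ℤ)) : ZMod q') = 1 := by
      rw [← e4, ← e5, map_intCast]
    rw [← ZMod.intCast_zmod_eq_zero_iff_dvd]
    push_cast
    rw [e6, sub_self]
  have h1 : u = u' * (u'⁻¹ * u) := by group
  rw [h1, diamondU_mul, ← hγ, diamondU_of_mem hK hmem]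

/-- `⟨u⟩^(2m+1) = 1` on `X_K` if `γ^(2m+1) ∈ K` for `γ ∈ Γ₀(M)`. -/
theorem diamondU_pow_half (hK : IsMid M K) (m : ℕ)
    (hK2 : ∀ γ ∈ Gamma0 M, γ ^ (2 * m + 1) ∈ K) (u : (ZMod M)ˣ)
    {A : Type*} [AddCommGroup A] (φ : Additive K →+ A) :
    diamondU hK (u ^ (2 * m + 1)) φ = φ := by
  obtain ⟨γ, rfl⟩ := dUnit_surjective (M := M) u
  rw [← map_pow]
  exact diamondU_of_mem hK (hK2 _ γ.2) φ

variable [K.FiniteIndex] {R : Type} [CommRing R] [Module.IsTorsionFree ℤ R]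

/-- **`Ψ` with `Ψ(U_q)² = 1`.**  See the header. -/
theorem exists_psiU_sq_eq_one (hK : IsMid M K) (Qs : List ℕ) (hnd : Qs.Nodup)
    (hQs : ∀ q ∈ Qs, q.Prime ∧ ∃ M' : ℕ, M = M' * q ∧ Nat.Coprime M' q)
    (hK1 : ∀ γ ∈ Gamma0 M, ((Qs.prod : ℕ) : ℤ) ∣ γ 1 1 - 1 → γ ∈ K)
    (m : ℕ) (hK2 : ∀ γ ∈ Gamma0 M, γ ^ (2 * m + 1) ∈ K)
    {N' : ℕ} [NeZero N'] (hN' : M * Qs.prod ∣ N') (S : Set ℕ)
    {q : ℕ} [Fact q.Prime] (hqN : q ∣ N') (hqS : q ∉ S) (hqM : q ∣ M)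
    (hSq : ∀ ℓ : ℕ, ℓ.Prime → ℓ ∣ N' → ℓ ∉ S → ℓ = q)
    (V : Submodule R (Additive K →+ R)) (hpar : ∀ v ∈ V, IsParabolicHom K v)
    (hstT : ∀ (ℓ : ℕ) (hℓ : ℓ.Prime), ¬ ℓ ∣ N' → ℓ ∉ S → ∀ v ∈ V, tOpTw hK R m ℓ hℓ v ∈ V)
    (hstU : ∀ v ∈ V, UK K q v ∈ V)
    (hstD : ∀ (u : (ZMod M)ˣ), ∀ v ∈ V, diamondU hK u v ∈ V)
    (hUU : ∀ v ∈ V, ∃ u : (ZMod M)ˣ, CongrAt Qs u q ∧ UK K q (UK K q v) = diamondU hK u v) :
    ∃ Ψ : CuspForm.heckeAlgebra N' 2 S →+* Module.End R V,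
      (∀ (ℓ : ℕ) (hℓ : ℓ.Prime) (hℓN : ¬ ℓ ∣ N') (hℓS : ℓ ∉ S) (v : V),
        ((Ψ (CuspForm.heckeAlgebra.T hℓ hℓN hℓS) v : V) : Additive K →+ R) =
          tOpTw hK R m ℓ hℓ (v : Additive K →+ R)) ∧
      (∃ wq : (ZMod M)ˣ, CongrAt Qs wq q ∧ ∀ v : V,
        ((Ψ (CuspForm.heckeAlgebra.U (Fact.out : q.Prime) hqN hqS) v : V) : Additive K →+ R) =
          diamondU hK (wq ^ m) (UK K q (v : Additive K →+ R))) ∧
      Ψ (CuspForm.heckeAlgebra.U (Fact.out : q.Prime) hqN hqS) *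
        Ψ (CuspForm.heckeAlgebra.U (Fact.out : q.Prime) hqN hqS) = 1 := by
  classical
  have hqp : q.Prime := Fact.out
  have hQs' : ∀ q' ∈ Qs, q'.Prime ∧ q' ∣ M := fun q' hq' => by
    obtain ⟨hp, M', hM, -⟩ := hQs q' hq'
    exact ⟨hp, ⟨M', by rw [hM, mul_comm]⟩⟩
  have hMN : M ∣ N' := (Dvd.intro _ rfl).trans hN'
  -- the unit `w_q`
  obtain ⟨wq, hwq, -⟩ := hUU 0 V.zero_mem
  set w : ℕ → (ZMod M)ˣ := fun ℓ => if ℓ = q then wq else uOf M ℓ with hw_def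
  have hwq' : w q = wq := by simp [hw_def]
  have hwℓ : ∀ ℓ : ℕ, ℓ ≠ q → w ℓ = uOf M ℓ := fun ℓ hℓ => by simp [hw_def, hℓ]
  have hw : ∀ ℓ : ℕ, ℓ.Prime → ℓ ∉ S → ∀ d : ℤ,
      ((d : ℤ) : ZMod M) = ((w ℓ : (ZMod M)ˣ) : ZMod M) → ∀ q' ∈ Qs, (q' : ℤ) ∣ d - (ℓ : ℤ) := by
    intro ℓ hℓ hℓS d hd q' hq'
    by_cases hℓq : ℓ = q
    · subst hℓq
      rw [hwq'] at hd
      exact hwq d hd q' hq'
    · rw [hwℓ ℓ hℓq] at hd
      have hℓN : ¬ ℓ ∣ N' := fun h => hℓq (hSq ℓ hℓ h hℓS)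
      have hℓM : ¬ ℓ ∣ M := fun h => hℓN (h.trans hMN)
      have hcop : Nat.Coprime ℓ M := (Nat.Prime.coprime_iff_not_dvd hℓ).mpr hℓM
      rw [coe_uOf hcop] at hd
      have h1 : ((d - (ℓ : ℤ) : ℤ) : ZMod M) = 0 := by
        push_cast
        rw [hd, sub_self]
      have h2 : (M : ℤ) ∣ d - (ℓ : ℤ) := (ZMod.intCast_zmod_eq_zero_iff_dvd _ _).mp h1
      exact (Int.natCast_dvd_natCast.mpr (hQs' q' hq').2).trans h2
  have hB : ∀ q' : ℕ, q'.Prime → q' ∣ N' → q' ∉ S → q' ∣ M := fun q' hq' hq'N hq'S => by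
    rw [hSq q' hq' hq'N hq'S]
    exact hqM
  obtain ⟨Ψ, hΨT, hΨU⟩ := exists_heckeActionU_sub_of_odd (R := R) hK Qs hnd hQs hK1 m hK2 hN' S
    hB w hw V hpar
    (fun ℓ _ hℓN hℓS v hv => by
      have hℓp : ℓ.Prime := Fact.out
      have hℓq : ℓ ≠ q := fun h => hℓN (h ▸ hqN)
      rw [hwℓ ℓ hℓq]
      exact hstT ℓ hℓp hℓN hℓS v hv)
    (fun q' _ hq'N hq'S v hv => by
      have hq'p : q'.Prime := Fact.out
      obtain rfl := hSq q' hq'p hq'N hq'S
      exact hstD _ _ (hstU v hv))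
  have hΨT' : ∀ (ℓ : ℕ) (hℓ : ℓ.Prime) (hℓN : ¬ ℓ ∣ N') (hℓS : ℓ ∉ S) (v : V),
      ((Ψ (CuspForm.heckeAlgebra.T hℓ hℓN hℓS) v : V) : Additive K →+ R) =
        tOpTw hK R m ℓ hℓ (v : Additive K →+ R) := by
    intro ℓ hℓ hℓN hℓS v
    haveI : Fact ℓ.Prime := ⟨hℓ⟩
    have hℓq : ℓ ≠ q := fun h => hℓN (h ▸ hqN)
    have h1 := hΨT ℓ hℓN hℓS v
    rw [hwℓ ℓ hℓq] at h1
    exact h1
  have hΨU' : ∀ v : V,
      ((Ψ (CuspForm.heckeAlgebra.U (Fact.out : q.Prime) hqN hqS) v : V) : Additive K →+ R) =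
        diamondU hK (wq ^ m) (UK K q (v : Additive K →+ R)) := by
    intro v
    have h1 := hΨU q hqN hqS v
    rw [hwq'] at h1
    exact h1
  refine ⟨Ψ, hΨT', ⟨wq, hwq, hΨU'⟩, ?_⟩
  -- `Ψ(U_q)² = 1`
  apply LinearMap.ext
  intro v
  apply Subtype.ext
  rw [Module.End.mul_apply, Module.End.one_apply, hΨU', hΨU']
  obtain ⟨u, hu, huv⟩ := hUU (v : Additive K →+ R) v.2
  rw [diamondU_UK hK hqM, huv, diamondU_eq_of_congrAt hK Qs hnd hQs' hK1 hu hwq,
    ← diamondU_mul, ← diamondU_mul]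
  have h2 : wq ^ m * wq ^ m * wq = wq ^ (2 * m + 1) := by
    rw [← pow_add, ← pow_succ]
    congr 1
    ring
  rw [h2]
  exact diamondU_pow_half hK m hK2 wq _

end Fermat.Agent.S38.H264

end
end
-- ===== PACK-END S38/H264/PsiU.lean

-- ===== PACK-BEGIN S38/H264/PsiK1.lean
section



/-!
# Row HARD, leaf IA-ST, piece ST-PSI (helper264): MODQ-U at the level `K₁`, Spec3 vocabulary

`K₁ := KG p L qv = Γ₀(L) ∩ Γ_H(Q)`, `L = ribetLevel p Smin Piv` (`Γ₀` at the pivots, `Γ_H` at the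
Taylor–Wiles primes), Betti level `M₁ = gLevel L qv = L · ∏ qv`, `q ∈ Piv` a pivot.
Hecke level `N₁ = L · ∏ qv²` (the twist is at the Taylor–Wiles primes only, so `q ∥ N₁`),
`S₁ = (Smin ∪ Piv ∪ Q) ∖ {q}`.

* `exists_psiU_KG` : generic base level `L` and family `qq : ι → ℕ`;
* `exists_psiU_K1` : the instance above.

INPUT (from the Betti side, owners of ST-UU / ST-BETTI): `V₁ ⊆ X_{K₁}(𝒪)` parabolic, stable under
the `⟨ℓ⟩^h T_ℓ = tOpTw`, under `U_q` and under the diamond operators, and the identity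

  (UU)  `U_q (U_q v) = ⟨s⟩ v` for `v ∈ V₁`,  `s ∈ Γ₀(M₁)`, `d(s) ≡ q` modulo every `qv j`

(`H666.UK_UK_of_new` on the classes killed by both traces to the level without `q`).
OUTPUT: `Ψ : heckeAlgebra N₁ 2 S₁ →+* End_𝒪 V₁` with `Ψ(T_ℓ) = tOpTw h ℓ` and
`Ψ(U_q) * Ψ(U_q) = 1`: the inputs `Ψ`, `hUU` of `H53.st_of_action_h53` / `H114` POINT-U.
-/

set_option autoImplicit false
set_option linter.unusedSectionVars false
set_option linter.style.haveILetI false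

noncomputable section

namespace Fermat.Agent.S38.H264

open CongruenceSubgroup ModularForm ModularCurve ModularCurve.Period
open Matrix.SpecialLinearGroup
open Fermat.Agent.S59.TW Fermat.Agent.S59.TW.H653 Fermat.Agent.S59.TW.H658
open Fermat.Agent.S59.TW.Aut
open Fermat.Agent.S38.IA Fermat.Agent.S38.IA.Hecke
open scoped MatrixGroups

/-! ## `CongrAt` from a matrix or from the reductions -/

section Congr

variable {M : ℕ} [NeZero M]

/-- The class of `d(g)`, `g ∈ Γ₀(M)`, is `≡ c` modulo the primes `q' ∣ M` of `Qs` as soon as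
`d(g) ≡ c` modulo these primes. -/
theorem congrAt_dUnit (Qs : List ℕ) (hQs : ∀ q' ∈ Qs, q' ∣ M) (g : Gamma0 M) (c : ℕ)
    (h : ∀ q' ∈ Qs, (q' : ℤ) ∣ (g : SL(2, ℤ)) 1 1 - (c : ℤ)) : CongrAt Qs (dUnit M g) c := by
  intro d hd q' hq'
  rw [coe_dUnit] at hd
  have h1 : ((d - (g : SL(2, ℤ)) 1 1 : ℤ) : ZMod M) = 0 := by
    push_cast
    rw [hd, sub_self]
  have h2 : (M : ℤ) ∣ d - (g : SL(2, ℤ)) 1 1 := (ZMod.intCast_zmod_eq_zero_iff_dvd _ _).mp h1
  have h3 : (q' : ℤ) ∣ d - (g : SL(2, ℤ)) 1 1 :=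
    (Int.natCast_dvd_natCast.mpr (hQs q' hq')).trans h2
  have h4 := dvd_add h3 (h q' hq')
  rwa [sub_add_sub_cancel] at h4

end Congr

/-! ## The group `KG` -/

section Group

variable (p L : ℕ) {ι : Type} [Fintype ι] (qq : ι → ℕ)

/-- The list of the primes of the family. -/
def qListU : List ℕ := (Finset.univ : Finset ι).toList.map qq

theorem qListU_prod : (qListU qq).prod = ∏ s, qq s := Finset.prod_map_toList _ _

theorem mem_qListU {q : ℕ} : q ∈ qListU qq ↔ ∃ s, qq s = q := by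
  unfold qListU
  simp

theorem nodup_qListU (hqi : Function.Injective qq) : (qListU qq).Nodup :=
  (Finset.nodup_toList _).map hqi

/-- `Γ₀(M) ∩ Γ₁(∏ qq) ⊆ KG`. -/
theorem mem_KG_of_dvdU {γ : SL(2, ℤ)} (hγ : γ ∈ Gamma0 (gLevel L qq))
    (h : (((qListU qq).prod : ℕ) : ℤ) ∣ γ 1 1 - 1) : γ ∈ KG p L qq := by
  rw [KG, mem_GammaH]
  refine ⟨hγ, ?_⟩
  rw [MonoidHom.mem_ker]
  have h1 : gRed L qq (dUnit _ ⟨γ, hγ⟩) = 1 := by
    funext j
    apply Units.ext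
    rw [gRed_apply]
    show ZMod.castHom (dvd_gLevel L qq j) (ZMod (qq j))
      ((dUnit (gLevel L qq) ⟨γ, hγ⟩ : (ZMod (gLevel L qq))ˣ) : ZMod (gLevel L qq)) = 1
    rw [coe_dUnit, map_intCast]
    have h2 : ((qq j : ℕ) : ℤ) ∣ γ 1 1 - 1 := by
      refine dvd_trans (Int.natCast_dvd_natCast.mpr ?_) h
      rw [qListU_prod]
      exact Finset.dvd_prod_of_mem qq (Finset.mem_univ j)
    have h3 := (ZMod.intCast_zmod_eq_zero_iff_dvd _ _).mpr h2
    push_cast at h3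
    exact sub_eq_zero.mp h3
  show (QuotientGroup.mk' (gPowSub p qq)) (gRed L qq (dUnit _ ⟨γ, hγ⟩)) = 1
  rw [h1, map_one]

variable {p qq}

/-- `γ^(2e+1) ∈ KG` for `γ ∈ Γ₀(M)`, if `2 e ≡ -1` modulo the exponent of `Δ`. -/
theorem pow_mem_KGU {e : ℕ} (he : ∀ s : ι, p ^ padicValNat p (qq s - 1) ∣ 2 * e + 1)
    {γ : SL(2, ℤ)} (hγ : γ ∈ Gamma0 (gLevel L qq)) : γ ^ (2 * e + 1) ∈ KG p L qq := by
  rw [KG, mem_GammaH]
  refine ⟨Subgroup.pow_mem _ hγ _, ?_⟩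
  rw [MonoidHom.mem_ker]
  have h1 : (⟨γ ^ (2 * e + 1), Subgroup.pow_mem _ hγ _⟩ : Gamma0 (gLevel L qq)) =
      (⟨γ, hγ⟩ : Gamma0 (gLevel L qq)) ^ (2 * e + 1) := rfl
  rw [h1, map_pow, map_pow]
  show (QuotientGroup.mk' (gPowSub p qq)) (gRed L qq (dUnit _ ⟨γ, hγ⟩)) ^ (2 * e + 1) = 1
  rw [← map_pow]
  refine (QuotientGroup.eq_one_iff _).mpr ?_
  rw [gPowSub, Subgroup.mem_pi]
  intro j _
  obtain ⟨c, hc⟩ := he j
  refine ⟨(gRed L qq (dUnit _ ⟨γ, hγ⟩)) j ^ c, ?_⟩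
  rw [powMonoidHom_apply, Pi.pow_apply, hc, pow_mul']

variable (qq)

/-- Each `qq j` exactly divides the Betti level. -/
theorem exists_gLevel_eqU [DecidableEq ι] (hqi : Function.Injective qq)
    (hq : ∀ i, (qq i).Prime ∧ Nat.Coprime L (qq i)) (j : ι) :
    ∃ M' : ℕ, gLevel L qq = M' * qq j ∧ Nat.Coprime M' (qq j) := by
  refine ⟨L * ∏ i ∈ Finset.univ.erase j, qq i, ?_, ?_⟩
  · rw [gLevel, ← Finset.mul_prod_erase Finset.univ qq (Finset.mem_univ j)]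
    ring
  · refine Nat.Coprime.mul_left (hq j).2 ?_
    refine Nat.Coprime.prod_left fun i hi => ?_
    exact (Nat.coprime_primes (hq i).1 (hq j).1).mpr
      fun h => (Finset.ne_of_mem_erase hi) (hqi h)

end Group

/-! ## `Ψ` at the level `KG` -/

section KG

variable (p L : ℕ) {ι : Type} [Fintype ι] (qq : ι → ℕ)

/-- **MODQ-U at `KG p L qq`, with `Ψ(U_q)² = 1`** (generic base level `L`, `q ∣ L`). -/
theorem exists_psiU_KG (hL : L ≠ 0) (hqi : Function.Injective qq)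
    (hq : ∀ i, (qq i).Prime ∧ Nat.Coprime L (qq i))
    {e : ℕ} (he : ∀ s : ι, p ^ padicValNat p (qq s - 1) ∣ 2 * e + 1)
    {N' : ℕ} [NeZero N'] (hN' : L * ∏ s, qq s ^ 2 ∣ N') (S : Set ℕ)
    {q : ℕ} [Fact q.Prime] (hqN : q ∣ N') (hqS : q ∉ S) (hqL : q ∣ L)
    (hSq : ∀ ℓ : ℕ, ℓ.Prime → ℓ ∣ N' → ℓ ∉ S → ℓ = q)
    (𝒪 : Type) [CommRing 𝒪] [Module.IsTorsionFree ℤ 𝒪]
    (V : Submodule 𝒪 (Additive (KG p L qq) →+ 𝒪))
    (hpar : ∀ v ∈ V, IsParabolicHom (KG p L qq) v)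
    (hstT : ∀ (ℓ : ℕ) (hℓ : ℓ.Prime), ¬ ℓ ∣ N' → ℓ ∉ S → ∀ v ∈ V,
      tOpTw (isMid_KG p L qq) 𝒪 e ℓ hℓ v ∈ V)
    (hstU : ∀ v ∈ V, UK (KG p L qq) q v ∈ V)
    (hstD : ∀ (u : (ZMod (gLevel L qq))ˣ), ∀ v ∈ V, diamondU (isMid_KG p L qq) u v ∈ V)
    (hUU : ∀ v ∈ V, ∃ s : Gamma0 (gLevel L qq),
      (∀ j : ι, ((qq j : ℕ) : ℤ) ∣ (s : SL(2, ℤ)) 1 1 - (q : ℤ)) ∧
      UK (KG p L qq) q (UK (KG p L qq) q v) = diamond (isMid_KG p L qq) s v) :
    ∃ Ψ : CuspForm.heckeAlgebra N' 2 S →+* Module.End 𝒪 V,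
      (∀ (ℓ : ℕ) (hℓ : ℓ.Prime) (hℓN : ¬ ℓ ∣ N') (hℓS : ℓ ∉ S) (v : V),
        ((Ψ (CuspForm.heckeAlgebra.T hℓ hℓN hℓS) v : V) : Additive (KG p L qq) →+ 𝒪) =
          tOpTw (isMid_KG p L qq) 𝒪 e ℓ hℓ (v : Additive (KG p L qq) →+ 𝒪)) ∧
      Ψ (CuspForm.heckeAlgebra.U (Fact.out : q.Prime) hqN hqS) *
        Ψ (CuspForm.heckeAlgebra.U (Fact.out : q.Prime) hqN hqS) = 1 := by
  classical
  haveI : NeZero (gLevel L qq) := ⟨gLevel_ne_zero L qq hL fun s => (hq s).1⟩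
  haveI : (KG p L qq).FiniteIndex :=
    Fermat.Agent.S59.TW.H564.finiteIndex_of_Gamma1_le (isMid_KG p L qq).ge
  have hQs : ∀ q' ∈ qListU qq, q'.Prime ∧
      ∃ M' : ℕ, gLevel L qq = M' * q' ∧ Nat.Coprime M' q' := fun q' hq' => by
    obtain ⟨j, rfl⟩ := (mem_qListU qq).mp hq'
    exact ⟨(hq j).1, exists_gLevel_eqU L qq hqi hq j⟩
  have hQsM : ∀ q' ∈ qListU qq, q' ∣ gLevel L qq := fun q' hq' => by
    obtain ⟨-, M', hM, -⟩ := hQs q' hq'
    exact ⟨M', by rw [hM, mul_comm]⟩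
  have hMN : gLevel L qq * (qListU qq).prod ∣ N' := by
    refine Dvd.dvd.trans (dvd_of_eq ?_) hN'
    rw [qListU_prod, gLevel, Finset.prod_pow]
    ring
  obtain ⟨Ψ, hΨT, -, hΨUU⟩ := exists_psiU_sq_eq_one (R := 𝒪) (isMid_KG p L qq) (qListU qq)
    (nodup_qListU qq hqi) hQs (fun γ hγ hd => mem_KG_of_dvdU p L qq hγ hd) e
    (fun γ hγ => pow_mem_KGU L he hγ) hMN S hqN hqS (hqL.trans (self_dvd_gLevel L qq)) hSq
    V hpar hstT hstU hstD
    (fun v hv => by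
      obtain ⟨s, hs, hsv⟩ := hUU v hv
      refine ⟨dUnit _ s, congrAt_dUnit (qListU qq) hQsM s q fun q' hq' => ?_, ?_⟩
      · obtain ⟨j, rfl⟩ := (mem_qListU qq).mp hq'
        exact hs j
      · rw [hsv, diamond_eq_diamondU])
  exact ⟨Ψ, hΨT, hΨUU⟩

end KG

/-! ## The instance `K₁ = Γ₀(L) ∩ Γ_H(Q)`, `L = ribetLevel p Smin Piv` -/

section K1

variable (p : ℕ) (Smin Piv : Finset ℕ) {r : ℕ} (qv : Fin r → ℕ)

theorem ribetLevel_ne_zero (hSp : ∀ x ∈ Smin, x.Prime) (hPp : ∀ x ∈ Piv, x.Prime) :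
    ribetLevel p Smin Piv ≠ 0 := by
  unfold ribetLevel
  refine Nat.mul_ne_zero ?_ ?_
  · exact Finset.prod_ne_zero_iff.mpr fun x hx => (hSp x (Finset.mem_of_mem_erase hx)).ne_zero
  · exact Finset.prod_ne_zero_iff.mpr fun x hx => (hPp x hx).ne_zero

/-- A prime dividing `ribetLevel` lies in `Smin ∪ Piv`. -/
theorem mem_of_dvd_ribetLevel (hSp : ∀ x ∈ Smin, x.Prime) (hPp : ∀ x ∈ Piv, x.Prime)
    {ℓ : ℕ} (hℓ : ℓ.Prime) (h : ℓ ∣ ribetLevel p Smin Piv) : ℓ ∈ Smin ∪ Piv := by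
  unfold ribetLevel at h
  rcases (Nat.Prime.dvd_mul hℓ).mp h with h1 | h1
  · obtain ⟨x, hx, hℓx⟩ := (Prime.dvd_finsetProd_iff hℓ.prime _).mp h1
    have hxp := hSp x (Finset.mem_of_mem_erase hx)
    rw [(Nat.prime_dvd_prime_iff_eq hℓ hxp).mp hℓx]
    exact Finset.mem_union_left _ (Finset.mem_of_mem_erase hx)
  · obtain ⟨x, hx, hℓx⟩ := (Prime.dvd_finsetProd_iff hℓ.prime _).mp h1
    have hxp := hPp x hx
    rw [(Nat.prime_dvd_prime_iff_eq hℓ hxp).mp hℓx]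
    exact Finset.mem_union_right _ hx

/-- A prime outside `Smin ∪ Piv` is prime to `ribetLevel`. -/
theorem coprime_ribetLevel (hSp : ∀ x ∈ Smin, x.Prime) (hPp : ∀ x ∈ Piv, x.Prime)
    {ℓ : ℕ} (hℓ : ℓ.Prime) (h : ℓ ∉ Smin ∪ Piv) : Nat.Coprime (ribetLevel p Smin Piv) ℓ := by
  rw [Nat.coprime_comm, Nat.Prime.coprime_iff_not_dvd hℓ]
  exact fun hd => h (mem_of_dvd_ribetLevel p Smin Piv hSp hPp hℓ hd)

theorem dvd_ribetLevel_of_mem {q : ℕ} (hq : q ∈ Piv) : q ∣ ribetLevel p Smin Piv :=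
  Dvd.dvd.mul_left (Finset.dvd_prod_of_mem _ hq) _

/-- **ST-PSI: MODQ-U at `K₁ = KG p (ribetLevel p Smin Piv) qv`, with `Ψ(U_q)² = 1`.**
See the header. -/
theorem exists_psiU_K1 (hSp : ∀ x ∈ Smin, x.Prime) (hPp : ∀ x ∈ Piv, x.Prime)
    (hqi : Function.Injective qv) (hqv : ∀ j, (qv j).Prime ∧ qv j ∉ Smin ∪ Piv)
    {h : ℕ} (hh : IsHalf p qv h)
    [NeZero (ribetLevel p Smin Piv * ∏ j, qv j ^ 2)]
    {q : ℕ} [Fact q.Prime] (hqP : q ∈ Piv)
    (hqN : q ∣ ribetLevel p Smin Piv * ∏ j, qv j ^ 2)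
    (hqS : q ∉ (↑((Smin ∪ Piv ∪ Finset.univ.image qv).erase q) : Set ℕ))
    (𝒪 : Type) [CommRing 𝒪] [Module.IsTorsionFree ℤ 𝒪]
    (V : Submodule 𝒪 (Additive (KG p (ribetLevel p Smin Piv) qv) →+ 𝒪))
    (hpar : ∀ v ∈ V, IsParabolicHom (KG p (ribetLevel p Smin Piv) qv) v)
    (hstT : ∀ (ℓ : ℕ) (hℓ : ℓ.Prime), ¬ ℓ ∣ ribetLevel p Smin Piv * ∏ j, qv j ^ 2 →
      ℓ ∉ (↑((Smin ∪ Piv ∪ Finset.univ.image qv).erase q) : Set ℕ) → ∀ v ∈ V,
      tOpTw (isMid_KG p (ribetLevel p Smin Piv) qv) 𝒪 h ℓ hℓ v ∈ V)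
    (hstU : ∀ v ∈ V, UK (KG p (ribetLevel p Smin Piv) qv) q v ∈ V)
    (hstD : ∀ (u : (ZMod (gLevel (ribetLevel p Smin Piv) qv))ˣ), ∀ v ∈ V,
      diamondU (isMid_KG p (ribetLevel p Smin Piv) qv) u v ∈ V)
    (hUU : ∀ v ∈ V, ∃ s : Gamma0 (gLevel (ribetLevel p Smin Piv) qv),
      (∀ j : Fin r, ((qv j : ℕ) : ℤ) ∣ (s : SL(2, ℤ)) 1 1 - (q : ℤ)) ∧
      UK (KG p (ribetLevel p Smin Piv) qv) q (UK (KG p (ribetLevel p Smin Piv) qv) q v) =
        diamond (isMid_KG p (ribetLevel p Smin Piv) qv) s v) :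
    ∃ Ψ : CuspForm.heckeAlgebra (ribetLevel p Smin Piv * ∏ j, qv j ^ 2) 2
        (↑((Smin ∪ Piv ∪ Finset.univ.image qv).erase q) : Set ℕ) →+* Module.End 𝒪 V,
      (∀ (ℓ : ℕ) (hℓ : ℓ.Prime) (hℓN : ¬ ℓ ∣ ribetLevel p Smin Piv * ∏ j, qv j ^ 2)
        (hℓS : ℓ ∉ (↑((Smin ∪ Piv ∪ Finset.univ.image qv).erase q) : Set ℕ)) (v : V),
        ((Ψ (CuspForm.heckeAlgebra.T hℓ hℓN hℓS) v : V) :
            Additive (KG p (ribetLevel p Smin Piv) qv) →+ 𝒪) =
          tOpTw (isMid_KG p (ribetLevel p Smin Piv) qv) 𝒪 h ℓ hℓ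
            (v : Additive (KG p (ribetLevel p Smin Piv) qv) →+ 𝒪)) ∧
      Ψ (CuspForm.heckeAlgebra.U (Fact.out : q.Prime) hqN hqS) *
        Ψ (CuspForm.heckeAlgebra.U (Fact.out : q.Prime) hqN hqS) = 1 := by
  classical
  refine exists_psiU_KG p (ribetLevel p Smin Piv) qv
    (ribetLevel_ne_zero p Smin Piv hSp hPp) hqi
    (fun j => ⟨(hqv j).1, coprime_ribetLevel p Smin Piv hSp hPp (hqv j).1 (hqv j).2⟩)
    hh (dvd_refl _) _ hqN hqS (dvd_ribetLevel_of_mem p Smin Piv hqP) ?_ 𝒪 V hpar hstT hstU hstD hUU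
  intro ℓ hℓ hℓN hℓS
  by_contra hℓq
  apply hℓS
  rw [Finset.mem_coe, Finset.mem_erase]
  refine ⟨hℓq, ?_⟩
  rcases (Nat.Prime.dvd_mul hℓ).mp hℓN with h1 | h1
  · exact Finset.mem_union_left _ (mem_of_dvd_ribetLevel p Smin Piv hSp hPp hℓ h1)
  · obtain ⟨j, -, hℓj⟩ := (Prime.dvd_finsetProd_iff hℓ.prime _).mp h1
    have h2 : ℓ ∣ qv j := hℓ.dvd_of_dvd_pow hℓj
    rw [(Nat.prime_dvd_prime_iff_eq hℓ (hqv j).1).mp h2]
    exact Finset.mem_union_right _ (Finset.mem_image.mpr ⟨j, Finset.mem_univ _, rfl⟩)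

/-- A unit of `ℤ/M₁` congruent to `q` modulo every Taylor–Wiles prime (Chinese remainder
theorem, `gRed_surjective`). -/
theorem exists_unit_congr (L : ℕ) (hL : L ≠ 0) (hqi : Function.Injective qv)
    (hqv : ∀ j, (qv j).Prime) {q : ℕ} (hq : ∀ j, Nat.Coprime q (qv j)) :
    ∃ u : (ZMod (gLevel L qv))ˣ, ∀ d : ℤ,
      ((d : ℤ) : ZMod (gLevel L qv)) = ((u : (ZMod (gLevel L qv))ˣ) : ZMod (gLevel L qv)) →
        ∀ j, (qv j : ℤ) ∣ d - (q : ℤ) := by
  obtain ⟨u, hu⟩ := gRed_surjective L qv hL hqi hqv (fun j => ZMod.unitOfCoprime q (hq j))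
  refine ⟨u, fun d hd j => ?_⟩
  have h1 : ((gRed L qv u j : (ZMod (qv j))ˣ) : ZMod (qv j)) = (q : ZMod (qv j)) := by
    rw [hu]
    rfl
  rw [gRed_apply, ZMod.unitsMap_val, ← hd] at h1
  have h2 : ((d : ℤ) : ZMod (qv j)) = (q : ZMod (qv j)) := by
    rw [← h1]
    have : CharP (ZMod (qv j)) (qv j) := ZMod.charP _
    exact (ZMod.cast_intCast (dvd_gLevel L qv j) d).symm
  rw [← ZMod.intCast_zmod_eq_zero_iff_dvd]
  push_cast
  rw [h2, sub_self]

/-- **ST-PSI, with (UU) in the form of `H593.IAStUUStatement`**: the hypothesis `hUU` is the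
identity `U_q (U_q y) = ⟨u⟩ y` for EVERY unit `u ≡ q` modulo the Taylor–Wiles primes. -/
theorem exists_psiU_K1_forall (hSp : ∀ x ∈ Smin, x.Prime) (hPp : ∀ x ∈ Piv, x.Prime)
    (hqi : Function.Injective qv) (hqv : ∀ j, (qv j).Prime ∧ qv j ∉ Smin ∪ Piv)
    {h : ℕ} (hh : IsHalf p qv h)
    [NeZero (ribetLevel p Smin Piv * ∏ j, qv j ^ 2)]
    {q : ℕ} [Fact q.Prime] (hqP : q ∈ Piv)
    (hqN : q ∣ ribetLevel p Smin Piv * ∏ j, qv j ^ 2)
    (hqS : q ∉ (↑((Smin ∪ Piv ∪ Finset.univ.image qv).erase q) : Set ℕ))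
    (𝒪 : Type) [CommRing 𝒪] [Module.IsTorsionFree ℤ 𝒪]
    (V : Submodule 𝒪 (Additive (KG p (ribetLevel p Smin Piv) qv) →+ 𝒪))
    (hpar : ∀ v ∈ V, IsParabolicHom (KG p (ribetLevel p Smin Piv) qv) v)
    (hstT : ∀ (ℓ : ℕ) (hℓ : ℓ.Prime), ¬ ℓ ∣ ribetLevel p Smin Piv * ∏ j, qv j ^ 2 →
      ℓ ∉ (↑((Smin ∪ Piv ∪ Finset.univ.image qv).erase q) : Set ℕ) → ∀ v ∈ V,
      tOpTw (isMid_KG p (ribetLevel p Smin Piv) qv) 𝒪 h ℓ hℓ v ∈ V)
    (hstU : ∀ v ∈ V, UK (KG p (ribetLevel p Smin Piv) qv) q v ∈ V)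
    (hstD : ∀ (u : (ZMod (gLevel (ribetLevel p Smin Piv) qv))ˣ), ∀ v ∈ V,
      diamondU (isMid_KG p (ribetLevel p Smin Piv) qv) u v ∈ V)
    (hUU : ∀ u : (ZMod (gLevel (ribetLevel p Smin Piv) qv))ˣ,
      (∀ d : ℤ, ((d : ℤ) : ZMod (gLevel (ribetLevel p Smin Piv) qv)) =
          ((u : (ZMod (gLevel (ribetLevel p Smin Piv) qv))ˣ) :
            ZMod (gLevel (ribetLevel p Smin Piv) qv)) →
        ∀ j, (qv j : ℤ) ∣ d - (q : ℤ)) →
      ∀ y ∈ V, UK (KG p (ribetLevel p Smin Piv) qv) q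
          (UK (KG p (ribetLevel p Smin Piv) qv) q y) =
        diamondU (isMid_KG p (ribetLevel p Smin Piv) qv) u y) :
    ∃ Ψ : CuspForm.heckeAlgebra (ribetLevel p Smin Piv * ∏ j, qv j ^ 2) 2
        (↑((Smin ∪ Piv ∪ Finset.univ.image qv).erase q) : Set ℕ) →+* Module.End 𝒪 V,
      (∀ (ℓ : ℕ) (hℓ : ℓ.Prime) (hℓN : ¬ ℓ ∣ ribetLevel p Smin Piv * ∏ j, qv j ^ 2)
        (hℓS : ℓ ∉ (↑((Smin ∪ Piv ∪ Finset.univ.image qv).erase q) : Set ℕ)) (v : V),
        ((Ψ (CuspForm.heckeAlgebra.T hℓ hℓN hℓS) v : V) :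
            Additive (KG p (ribetLevel p Smin Piv) qv) →+ 𝒪) =
          tOpTw (isMid_KG p (ribetLevel p Smin Piv) qv) 𝒪 h ℓ hℓ
            (v : Additive (KG p (ribetLevel p Smin Piv) qv) →+ 𝒪)) ∧
      Ψ (CuspForm.heckeAlgebra.U (Fact.out : q.Prime) hqN hqS) *
        Ψ (CuspForm.heckeAlgebra.U (Fact.out : q.Prime) hqN hqS) = 1 := by
  classical
  have hqp : q.Prime := Fact.out
  have hL := ribetLevel_ne_zero p Smin Piv hSp hPp
  haveI : NeZero (gLevel (ribetLevel p Smin Piv) qv) :=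
    ⟨gLevel_ne_zero _ qv hL fun j => (hqv j).1⟩
  obtain ⟨u, hu⟩ := exists_unit_congr qv (ribetLevel p Smin Piv) hL hqi (fun j => (hqv j).1)
    (q := q) (fun j => (Nat.coprime_primes hqp (hqv j).1).mpr fun hqj =>
      (hqv j).2 (hqj ▸ Finset.mem_union_right _ hqP))
  obtain ⟨s, hs⟩ := dUnit_surjective (M := gLevel (ribetLevel p Smin Piv) qv) u
  refine exists_psiU_K1 p Smin Piv qv hSp hPp hqi hqv hh hqP hqN hqS 𝒪 V hpar hstT hstU hstD
    fun v hv => ⟨s, fun j => ?_, ?_⟩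
  · refine hu _ ?_ j
    rw [← hs, coe_dUnit]
  · rw [hUU u hu v hv, diamond_eq_diamondU, hs]

end K1

end Fermat.Agent.S38.H264

end
end
-- ===== PACK-END S38/H264/PsiK1.lean

-- ===== PACK-BEGIN S38/H509/StLevel.lean
section




/-!
# Row HARD, cell HECKE, leaf IA-ST, Betti step (helper509): levels and groups

`K = KIA = Γ₀(N_min) ∩ Γ_H(Piv ∪ Q)` has the level `M = N_min ∏ pv ∏ qv`.  For a pivot `q` let
`L' = ribetLevel p Smin (Piv.erase q)`, `M' = gLevel L' qv = L' ∏ qv`, `K' = KG p L' qv`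
(the group of `IAMinZeroStatement`) and `K₁ = Kq M' q K' = K' ⊓ Γ₀(M' q)`
(`= Γ₀(L) ∩ Γ_H(Q)`, `L = ribetLevel p Smin Piv`).

* `pivFree` : the subgroup of `(ℤ/M)ˣ` of the units which are `p^{m_j}`-th powers modulo the
  Taylor–Wiles primes `qv j` (no condition at the pivots); `ker gChi ≤ pivFree`;
* `mia_eq_h509` : `M = M' q`;
* `kq_eq_gammaH_h509` : `K₁ = Γ_{pivFree}(M)`;
* `diamondU_pivFree_h509` : the diamond operators of `pivFree` on `X_K` are the `diaIA a₁ 1`.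
-/

set_option autoImplicit false

open CongruenceSubgroup
open scoped MatrixGroups

namespace Fermat.Agent.S38.H509

open Fermat.Agent.S59.TW.H653 Fermat.Agent.S59.MFree Fermat.Agent.S38.IA.Hecke
open Fermat.Agent.S59.TW.H201 Fermat.Agent.S59.Arch Fermat.Agent.S38.IA

/-! ## The lower right entry -/

section Entry

variable (N₀ : ℕ) {ι : Type} [Fintype ι] (qq : ι → ℕ)

theorem coe_gRed_dUnit_h509 (γ : Gamma0 (gLevel N₀ qq)) (s : ι) :
    ((gRed N₀ qq (dUnit (gLevel N₀ qq) γ) s : (ZMod (qq s))ˣ) : ZMod (qq s)) =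
      ((((γ : SL(2, ℤ)) 1 1 : ℤ)) : ZMod (qq s)) := by
  rw [gRed_apply_h509, ZMod.unitsMap_def, Units.coe_map, coe_dUnit]
  simp only [MonoidHom.coe_coe, map_intCast]

end Entry

/-! ## The subgroup `pivFree` -/

section PivFree

variable (p N₀ : ℕ) {k r : ℕ} (pv : Fin k → ℕ) (qv : Fin r → ℕ)

/-- The `p^{m_j}`-th powers in `(ℤ/qv j)ˣ`. -/
def powRange (j : Fin r) : Subgroup (ZMod (qv j))ˣ :=
  (powMonoidHom (p ^ padicValNat p (qv j - 1)) : (ZMod (qv j))ˣ →* (ZMod (qv j))ˣ).range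

/-- The component at the Taylor–Wiles prime `qv j` of the reduction. -/
def redQ (j : Fin r) : (ZMod (gLevel N₀ (Sum.elim pv qv)))ˣ →* (ZMod (qv j))ˣ :=
  ZMod.unitsMap (dvd_gLevel N₀ (Sum.elim pv qv) (Sum.inr j))

theorem redQ_apply (j : Fin r) (u : (ZMod (gLevel N₀ (Sum.elim pv qv)))ˣ) :
    redQ N₀ pv qv j u = gRed N₀ (Sum.elim pv qv) u (Sum.inr j) := rfl

/-- The units of `(ℤ/M)ˣ` which are `p^{m_j}`-th powers modulo every Taylor–Wiles prime. -/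
def pivFree : Subgroup (ZMod (gLevel N₀ (Sum.elim pv qv)))ˣ :=
  ⨅ j : Fin r, (powRange p qv j).comap (redQ N₀ pv qv j)

theorem mem_pivFree {u : (ZMod (gLevel N₀ (Sum.elim pv qv)))ˣ} :
    u ∈ pivFree p N₀ pv qv ↔ ∀ j : Fin r, redQ N₀ pv qv j u ∈ powRange p qv j := by
  unfold pivFree
  rw [Subgroup.mem_iInf]
  rfl

theorem mem_powRange {j : Fin r} {a : (ZMod (qv j))ˣ} :
    a ∈ powRange p qv j ↔ ∃ u : (ZMod (qv j))ˣ, u ^ (p ^ padicValNat p (qv j - 1)) = a :=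
  Iff.rfl

theorem ker_gChi_le_pivFree :
    (gChi p N₀ (Sum.elim pv qv)).ker ≤ pivFree p N₀ pv qv := by
  intro u hu
  rw [MonoidHom.mem_ker, gChi_apply_h509, QuotientGroup.eq_one_iff,
    mem_gPowSub_iff_h509] at hu
  rw [mem_pivFree]
  intro j
  exact hu (Sum.inr j)

/-- Two units with the same components at the pivots... : the classes in `Δ` of `u ∈ pivFree`
and of `pairU a₁ 1`, `a₁` the pivot components of `u`, agree. -/
theorem gChi_eq_of_mem_pivFree {u : (ZMod (gLevel N₀ (Sum.elim pv qv)))ˣ}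
    (hu : u ∈ pivFree p N₀ pv qv) (v : (ZMod (gLevel N₀ (Sum.elim pv qv)))ˣ)
    (hv : gRed N₀ (Sum.elim pv qv) v =
      pairU (fun i => gRed N₀ (Sum.elim pv qv) u (Sum.inl i)) 1) :
    gChi p N₀ (Sum.elim pv qv) u = gChi p N₀ (Sum.elim pv qv) v := by
  rw [gChi_apply_h509, gChi_apply_h509, hv, QuotientGroup.eq, mem_gPowSub_iff_h509]
  rintro (i | j)
  · refine ⟨1, ?_⟩
    rw [one_pow]
    show (1 : (ZMod (pv i))ˣ) = (gRed N₀ (Sum.elim pv qv) u (Sum.inl i))⁻¹ *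
      gRed N₀ (Sum.elim pv qv) u (Sum.inl i)
    exact (inv_mul_cancel _).symm
  · obtain ⟨w, hw⟩ := (mem_pivFree p N₀ pv qv).mp hu j
    refine ⟨w⁻¹, ?_⟩
    show w⁻¹ ^ (p ^ padicValNat p (qv j - 1)) = (redQ N₀ pv qv j u)⁻¹ * 1
    rw [mul_one, inv_pow]
    exact congrArg _ hw

theorem mem_pivFree_of_gRed {v : (ZMod (gLevel N₀ (Sum.elim pv qv)))ˣ}
    (a₁ : ∀ i : Fin k, (ZMod (pv i))ˣ)
    (hv : gRed N₀ (Sum.elim pv qv) v = pairU a₁ 1) : v ∈ pivFree p N₀ pv qv := by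
  rw [mem_pivFree]
  intro j
  rw [redQ_apply, hv]
  exact ⟨1, one_pow _⟩

end PivFree

/-! ## The groups -/

section Groups

variable (p N₀ L' : ℕ) {k r : ℕ} (pv : Fin k → ℕ) (qv : Fin r → ℕ) (q : ℕ)

theorem gamma0_cast_h509 {M M' : ℕ} (h : M = M') {g : SL(2, ℤ)} :
    g ∈ Gamma0 M ↔ g ∈ Gamma0 M' := by
  subst h
  exact Iff.rfl

theorem gamma0_of_mul_h509 {M q : ℕ} {g : SL(2, ℤ)} (h : g ∈ Gamma0 (M * q)) : g ∈ Gamma0 M := by
  rw [Gamma0_mem] at h ⊢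
  have h1 : (((g 1 0 : ℤ)) : ZMod (M * q)) = 0 := h
  rw [ZMod.intCast_zmod_eq_zero_iff_dvd] at h1 ⊢
  exact (Int.natCast_dvd_natCast.mpr (Dvd.intro q rfl)).trans h1

/-- `K₁ = K' ⊓ Γ₀(M' q)` is `Γ_{pivFree}(M)`. -/
theorem kq_eq_gammaH_h509
    (hM : gLevel N₀ (Sum.elim pv qv) = gLevel L' qv * q) :
    Kq (gLevel L' qv) q (KG p L' qv) =
      GammaH (gLevel N₀ (Sum.elim pv qv)) (pivFree p N₀ pv qv) := by
  have key : ∀ (g : SL(2, ℤ)) (h1 : g ∈ Gamma0 (gLevel N₀ (Sum.elim pv qv)))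
      (h2 : g ∈ Gamma0 (gLevel L' qv)) (j : Fin r),
      redQ N₀ pv qv j (dUnit _ ⟨g, h1⟩) = gRed L' qv (dUnit _ ⟨g, h2⟩) j := by
    intro g h1 h2 j
    apply Units.ext
    rw [redQ_apply, coe_gRed_dUnit_h509, coe_gRed_dUnit_h509]
    rfl
  ext g
  rw [mem_Kq, mem_GammaH]
  constructor
  · rintro ⟨hg1, hg2⟩
    have h1 : g ∈ Gamma0 (gLevel N₀ (Sum.elim pv qv)) := (gamma0_cast_h509 hM).mpr hg2
    refine ⟨h1, ?_⟩
    obtain ⟨h2, h3⟩ := mem_GammaH.mp hg1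
    rw [MonoidHom.mem_ker, gChi_apply_h509, QuotientGroup.eq_one_iff,
      mem_gPowSub_iff_h509] at h3
    rw [mem_pivFree]
    intro j
    rw [key g h1 h2 j]
    exact h3 j
  · rintro ⟨h1, h3⟩
    have hg2 : g ∈ Gamma0 (gLevel L' qv * q) := (gamma0_cast_h509 hM).mp h1
    have h2 : g ∈ Gamma0 (gLevel L' qv) := gamma0_of_mul_h509 hg2
    refine ⟨mem_GammaH.mpr ⟨h2, ?_⟩, hg2⟩
    rw [MonoidHom.mem_ker, gChi_apply_h509, QuotientGroup.eq_one_iff, mem_gPowSub_iff_h509]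
    intro j
    rw [← key g h1 h2 j]
    exact (mem_pivFree p N₀ pv qv).mp h3 j

end Groups

/-! ## The level identity -/

section Level

variable (p : ℕ) (Smin Piv : Finset ℕ) {k r : ℕ} (pv : Fin k → ℕ) (qv : Fin r → ℕ)

theorem wilesLevel_min_h509 :
    wilesLevel p .flat Smin Smin = ∏ x ∈ Smin.erase p, x := by
  unfold wilesLevel
  rw [Finset.sdiff_self, Finset.prod_empty, mul_one, mul_one]

theorem ribetLevel_eq_h509 :
    ribetLevel p Smin Piv = wilesLevel p .flat Smin Smin * ∏ x ∈ Piv, x := by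
  rw [wilesLevel_min_h509]
  rfl

/-- `M = M' q`. -/
theorem mia_eq_h509 (hpv : Function.Injective pv) (hpvPiv : Finset.univ.image pv = Piv)
    {q : ℕ} (hq : q ∈ Piv) :
    MIA p Smin pv qv = gLevel (ribetLevel p Smin (Piv.erase q)) qv * q := by
  have h1 : ∏ i, pv i = ∏ x ∈ Piv, x := by
    rw [← hpvPiv, Finset.prod_image (fun a _ b _ h => hpv h)]
  have h2 : ∏ x ∈ Piv, x = q * ∏ x ∈ Piv.erase q, x := (Finset.mul_prod_erase Piv _ hq).symm
  show gLevel (wilesLevel p .flat Smin Smin) (Sum.elim pv qv) = _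
  unfold gLevel
  rw [Fintype.prod_sum_type, ribetLevel_eq_h509]
  simp only [Sum.elim_inl, Sum.elim_inr]
  rw [h1, h2]
  ring

/-- `M = L ∏ qv`. -/
theorem mia_eq_ribet_h509 (hpv : Function.Injective pv)
    (hpvPiv : Finset.univ.image pv = Piv) :
    MIA p Smin pv qv = gLevel (ribetLevel p Smin Piv) qv := by
  have h1 : ∏ i, pv i = ∏ x ∈ Piv, x := by
    rw [← hpvPiv, Finset.prod_image (fun a _ b _ h => hpv h)]
  show gLevel (wilesLevel p .flat Smin Smin) (Sum.elim pv qv) = _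
  unfold gLevel
  rw [Fintype.prod_sum_type, ribetLevel_eq_h509]
  simp only [Sum.elim_inl, Sum.elim_inr]
  rw [h1]
  ring

end Level

end Fermat.Agent.S38.H509

end
-- ===== PACK-END S38/H509/StLevel.lean

-- ===== PACK-BEGIN S38/H509/StCor.lean
section



/-!
# Row HARD, cell HECKE, leaf IA-ST, Betti step (helper509): the partial corestriction

Generic family `qq : ι → ℕ`, `K = KG p N₀ qq = Γ_{ker gChi}(M)`, `ker gChi ≤ H'`,
`K' = GammaH M H'`.

* `pcor_ker_G_h509` : for `V ⊆ X_K(𝒪)` diamond-stable with an `𝒪`-basis `⟨g^e⟩ b_i` and `y ∈ V`: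
  `coresK (K ≤ K') y = 0 ↔ y ∈` the additive closure of the `⟨u⟩ y' - y'`, `u ∈ H'`, `y' ∈ V`
  (helper762's `pcor_ker_N0_h762` for an arbitrary finite index type);
* `coresK_TK_cast_h509`, `coresK_UK_cast_h509`, `coresK_tOpTw_cast_h509` : `cor : X_K → X_{K₁}`
  commutes with the Hecke operators, for ANY presentation `K₁ = GammaH M H'` of level
  `M₁ = M` (the equalities are hypotheses).
-/

set_option autoImplicit false

open CongruenceSubgroup
open scoped MatrixGroups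

namespace Fermat.Agent.S38.H509

open Fermat.Agent.S59.TW.H653 Fermat.Agent.S59.MFree Fermat.Agent.S38.IA.Hecke
open Fermat.Agent.S59.TW.Aut Fermat.Agent.S59.TW.Aut.H762

/-! ## The characters -/

section Chi

variable (p N₀ : ℕ) {ι : Type} [Fintype ι] (qq : ι → ℕ)

theorem gChi_surjective_h509 (hN₀ : N₀ ≠ 0) (hinj : Function.Injective qq)
    (hprime : ∀ s, (qq s).Prime) : Function.Surjective (gChi p N₀ qq) := by
  intro d
  obtain ⟨a, rfl⟩ := QuotientGroup.mk_surjective d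
  obtain ⟨u, rfl⟩ := gRed_surjective_h509 N₀ qq hN₀ hinj hprime a
  exact ⟨u, rfl⟩

theorem gChi_gLift_h509 (hN₀ : N₀ ≠ 0) (hinj : Function.Injective qq)
    (hprime : ∀ s, (qq s).Prime) (a : ∀ s : ι, (ZMod (qq s))ˣ) :
    gChi p N₀ qq (gLift N₀ qq a) = QuotientGroup.mk a := by
  rw [gChi_apply_h509, gRed_gLift N₀ qq (gRed_surjective_h509 N₀ qq hN₀ hinj hprime a)]

end Chi

/-! ## The kernel of the partial corestriction -/

section Main

variable {p : ℕ} [hp : Fact p.Prime] (N₀ : ℕ) (hN₀ : N₀ ≠ 0) {ι : Type} [Fintype ι]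
  [DecidableEq ι] (qq : ι → ℕ) (hprime : ∀ s, (qq s).Prime) (hinj : Function.Injective qq)
  (𝒪 : Type) [CommRing 𝒪]
  (H' : Subgroup (ZMod (gLevel N₀ qq))ˣ) (hH' : (gChi p N₀ qq).ker ≤ H')

include hp hN₀ hprime hinj hH' in
/-- **PCOR**, generic index type. -/
theorem pcor_ker_G_h509
    (V : Submodule 𝒪 (Additive (KG p N₀ qq) →+ 𝒪))
    (hVdia : ∀ (u : (ZMod (gLevel N₀ qq))ˣ), ∀ x ∈ V, diamondU (isMid_KG p N₀ qq) u x ∈ V)
    (g : ∀ s : ι, (ZMod (qq s))ˣ) (hg : ∀ s, orderOf (g s) = qq s - 1)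
    {d : ℕ} (b : Fin d → Additive (KG p N₀ qq) →+ 𝒪) (hbV : ∀ i, b i ∈ V)
    (hb : ∀ y ∈ V, ∃! c : Fin d → (∀ s : ι, Fin (p ^ padicValNat p (qq s - 1))) → 𝒪,
        y = ∑ i, ∑ e, c i e •
          diamondU (isMid_KG p N₀ qq) (gLift N₀ qq (fun s => g s ^ (e s : ℕ))) (b i))
    {y : Additive (KG p N₀ qq) →+ 𝒪} (hy : y ∈ V) :
    coresK (GammaH_mono hH' : KG p N₀ qq ≤ GammaH (gLevel N₀ qq) H') y = 0 ↔
      y ∈ AddSubgroup.closure {z : Additive (KG p N₀ qq) →+ 𝒪 |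
        ∃ u ∈ H', ∃ y' ∈ V, z = diamondU (isMid_KG p N₀ qq) u y' - y'} := by
  classical
  have hM : NeZero (gLevel N₀ qq) := neZero_gLevel_h509 N₀ qq hN₀ hprime
  have hχ := gChi_surjective_h509 p N₀ qq hN₀ hinj hprime
  have hfin : Finite (GDelta p qq) := finite_gDelta_h509 p qq hprime
  let _ : Fintype (GDelta p qq) := Fintype.ofFinite _
  let _ : Fintype ↥(H'.map (gChi p N₀ qq)) := Fintype.ofFinite _
  have hKeq : KG p N₀ qq = kerSub (kappaSub_h762 (G := GDelta p qq) (gChi p N₀ qq) H') :=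
    (kerSub_kappaSub_h762 (G := GDelta p qq) (gChi p N₀ qq) H' hH').symm
  let lift : GDelta p qq → (ZMod (gLevel N₀ qq))ˣ := Function.surjInv hχ
  have hlift : ∀ d, gChi p N₀ qq (lift d) = d := Function.surjInv_eq hχ
  have hliftH : ∀ d : ↥(H'.map (gChi p N₀ qq)), lift (d : GDelta p qq) ∈ H' := by
    rintro ⟨d, u, hu, rfl⟩
    have h1 : (lift (gChi p N₀ qq u)) * u⁻¹ ∈ (gChi p N₀ qq).ker := by
      rw [MonoidHom.mem_ker, map_mul, hlift, map_inv, mul_inv_cancel]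
    have h2 := H'.mul_mem (hH' h1) hu
    rwa [inv_mul_cancel_right] at h2
  constructor
  · intro h
    -- the action of `Δ`
    let δ : GDelta p qq → (Additive (KG p N₀ qq) →+ 𝒪) →ₗ[𝒪] (Additive (KG p N₀ qq) →+ 𝒪) :=
      fun d =>
        { toFun := fun x => diamondU (isMid_KG p N₀ qq) (lift d) x
          map_add' := fun _ _ => rfl
          map_smul' := fun _ _ => rfl }
    have hδapp : ∀ d x, δ d x = diamondU (isMid_KG p N₀ qq) (lift d) x := fun _ _ => rfl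
    have hδ : ∀ g h x, δ g (δ h x) = δ (g * h) x := by
      intro g h x
      rw [hδapp, hδapp, hδapp, ← diamondU_mul]
      apply diamondU_eq_of_gChi_h509
      rw [map_mul, hlift, hlift, hlift]
    have hb' : ∀ y ∈ V, ∃! c : Fin d → GDelta p qq → 𝒪,
        y = ∑ i, ∑ g', c i g' • δ g' (b i) := by
      intro y hy
      have h1 := hb y hy
      have h2 : ∀ (e : ∀ s : ι, Fin (p ^ padicValNat p (qq s - 1))) (i : Fin d),
          diamondU (isMid_KG p N₀ qq) (gLift N₀ qq (fun s => g s ^ (e s : ℕ))) (b i) =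
          δ (gEps p qq g e) (b i) := by
        intro e i
        rw [hδapp]
        apply diamondU_eq_of_gChi_h509
        rw [hlift, gChi_gLift_h509 p N₀ qq hN₀ hinj hprime]
        rfl
      simp only [h2] at h1
      exact basis_transport_h762 δ (gEps p qq g) (gEps_bijective_h509 p qq hprime g hg) b h1
    have hN : ∑ d' : ↥(H'.map (gChi p N₀ qq)), δ (d' : GDelta p qq) y = 0 := by
      have h3 := resK_coresK_h762 (G := GDelta p qq) (gChi p N₀ qq) H' (KG p N₀ qq) hKeq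
        (GammaH_mono hH') (isMid_KG p N₀ qq) (fun d' => lift (d' : GDelta p qq))
        (fun d' => ⟨hliftH d', hlift _⟩) y
      have e0 : resK (GammaH_mono hH' : KG p N₀ qq ≤ GammaH (gLevel N₀ qq) H')
          (coresK (GammaH_mono hH' : KG p N₀ qq ≤ GammaH (gLevel N₀ qq) H') y) = 0 :=
        (congrArg (resK (GammaH_mono hH' : KG p N₀ qq ≤ GammaH (gLevel N₀ qq) H')) h).trans rfl
      exact h3.symm.trans e0
    have h4 := ker_norm_sub_h762 (fun a b => mul_comm a b) δ hδ V (fun g x hx => hVdia _ x hx)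
      b hbV hb' (H'.map (gChi p N₀ qq)) hy hN
    refine AddSubgroup.closure_mono ?_ h4
    rintro z ⟨d', y', hy', rfl⟩
    exact ⟨lift (d' : GDelta p qq), hliftH d', y', hy', rfl⟩
  · intro h
    clear hy
    induction h using AddSubgroup.closure_induction with
    | mem z hz =>
      obtain ⟨u, hu, y', -, rfl⟩ := hz
      have h5 := coresK_diamondU_h762 (G := GDelta p qq) (gChi p N₀ qq) H' (KG p N₀ qq) hKeq
        (GammaH_mono hH') (isMid_KG p N₀ qq) u hu y'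
      have h6 : coresK (GammaH_mono hH' : KG p N₀ qq ≤ GammaH (gLevel N₀ qq) H')
          (diamondU (isMid_KG p N₀ qq) u y' - y') =
          coresK (GammaH_mono hH') (diamondU (isMid_KG p N₀ qq) u y') -
            coresK (GammaH_mono hH') y' :=
        map_sub (coresKLin_h762 (GammaH_mono hH' : KG p N₀ qq ≤ GammaH (gLevel N₀ qq) H') 𝒪)
          _ _
      exact h6.trans (sub_eq_zero.mpr h5)
    | zero => exact map_zero (coresKLin_h762 (GammaH_mono hH') 𝒪)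
    | add a b _ _ ha hb =>
      have h7 : coresK (GammaH_mono hH' : KG p N₀ qq ≤ GammaH (gLevel N₀ qq) H') (a + b) =
          coresK (GammaH_mono hH') a + coresK (GammaH_mono hH') b :=
        map_add (coresKLin_h762 (GammaH_mono hH' :
          KG p N₀ qq ≤ GammaH (gLevel N₀ qq) H') 𝒪) a b
      exact h7.trans ((congrArg₂ (· + ·) ha hb).trans (add_zero 0))
    | neg a _ ha =>
      have h8 : coresK (GammaH_mono hH' : KG p N₀ qq ≤ GammaH (gLevel N₀ qq) H') (-a) =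
          -coresK (GammaH_mono hH') a :=
        map_neg (coresKLin_h762 (GammaH_mono hH' :
          KG p N₀ qq ≤ GammaH (gLevel N₀ qq) H') 𝒪) a
      exact h8.trans ((congrArg Neg.neg ha).trans neg_zero)

end Main

/-! ## Change of presentation -/

section Cast

variable {M : ℕ} [NeZero M] {G : Type} [Group G] [Finite G] (χ : (ZMod M)ˣ →* G)
  (H' : Subgroup (ZMod M)ˣ) (hH' : χ.ker ≤ H')
  {M₁ : ℕ} {K₁ : Subgroup SL(2, ℤ)}

omit [NeZero M] [Finite G] in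
include hH' in
/-- The kernel of `cor : X_K → X_{K₁}` does not depend on the presentation of `K₁`. -/
theorem coresK_eq_zero_cast_h509 (hS : K₁ = GammaH M H') (h : GammaH M χ.ker ≤ K₁)
    {A : Type} [AddCommGroup A] (x : Additive (GammaH M χ.ker) →+ A) :
    coresK h x = 0 ↔ coresK (GammaH_mono hH' : GammaH M χ.ker ≤ GammaH M H') x = 0 := by
  subst hS
  exact Iff.rfl

include hH' in
/-- `cor` commutes with `T_ℓ`. -/
theorem coresK_TK_cast_h509 (hM : M = M₁) (hS : K₁ = GammaH M H') (h : GammaH M χ.ker ≤ K₁)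
    {A : Type} [AddCommGroup A] {ℓ : ℕ} [Fact ℓ.Prime] (hℓ : ¬ ℓ ∣ M)
    (x : Additive (GammaH M χ.ker) →+ A) :
    coresK h (TK M (GammaH M χ.ker) ℓ x) = TK M₁ K₁ ℓ (coresK h x) := by
  subst hM
  subst hS
  exact coresK_TK_gen_h762 χ H' hH' hℓ x

include hH' in
/-- `cor` commutes with `U_q`. -/
theorem coresK_UK_cast_h509 (hS : K₁ = GammaH M H') (h : GammaH M χ.ker ≤ K₁)
    {A : Type} [AddCommGroup A] {q : ℕ} [Fact q.Prime] (hq : q ∣ M)
    (x : Additive (GammaH M χ.ker) →+ A) :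
    coresK h (UK (GammaH M χ.ker) q x) = UK K₁ q (coresK h x) := by
  subst hS
  exact coresK_UK_gen_h762 χ H' hH' hq x

omit [NeZero M] [Finite G] in
/-- `cor` commutes with the diamond operators. -/
theorem coresK_diamondU_cast_h509 (hM : M = M₁) (hK₁ : IsMid M₁ K₁)
    (h : GammaH M χ.ker ≤ K₁) {A : Type} [AddCommGroup A] (n : ℕ) (e : ℕ)
    (x : Additive (GammaH M χ.ker) →+ A) :
    coresK h (diamondU (isMid_GammaH M χ.ker) (uOf M n ^ e) x) =
      diamondU hK₁ (uOf M₁ n ^ e) (coresK h x) := by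
  subst hM
  exact Fermat.Agent.S41.H924.transferAlong_comp_aut (Subgroup.inclusion h)
    (conjK (isMid_GammaH M χ.ker) _) (conjK hK₁ _) (fun _ => Subtype.ext rfl) x

include hH' in
/-- `cor` commutes with the twisted Hecke operators `⟨ℓ⟩^e T_ℓ`. -/
theorem coresK_tOpTw_cast_h509 (hM : M = M₁) (hS : K₁ = GammaH M H') (hK₁ : IsMid M₁ K₁)
    (h : GammaH M χ.ker ≤ K₁) {𝒪 : Type} [CommRing 𝒪] (e : ℕ) (ℓ : ℕ) (hℓ : ℓ.Prime)
    (hℓM : ¬ ℓ ∣ M) (x : Additive (GammaH M χ.ker) →+ 𝒪) :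
    coresK h (tOpTw (isMid_GammaH M χ.ker) 𝒪 e ℓ hℓ x) = tOpTw hK₁ 𝒪 e ℓ hℓ (coresK h x) := by
  haveI : Fact ℓ.Prime := ⟨hℓ⟩
  unfold tOpTw tOp
  rw [coresK_diamondU_cast_h509 χ hM hK₁ h ℓ e]
  congr 1
  exact coresK_TK_cast_h509 χ H' hH' hM hS h hℓM x

end Cast

end Fermat.Agent.S38.H509

end
-- ===== PACK-END S38/H509/StCor.lean

-- ===== PACK-BEGIN S38/H401/Back.lean
section





/-!
# Row HARD, cell TOP, piece BACK (helper401): `ResModular ⇒ ModularRepOfLevel`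

The BACK dictionary of the TOP glue: a character `θ : 𝕋(M; S) → k` of the anemic Hecke algebra of
level `M` whose values at the `T_ℓ` are the traces of Frobenius on `E[p] ⊗ k`
(`G4.ResFrobCond (curveResidual p W hcard hker ι) θ`, i.e. the body of
`Arch.ResModular 𝒪 ρ̄ M S`) makes the curve residually modular of level `M` in the Prelude sense.

* `back401_theta_T`      : `θ (T_ℓ) = a_ℓ(W)` in `k` for the good primes `ℓ ≥ 5`, `ℓ ≠ p`, `ℓ ∉ S`;
* `back401_congr`        : a normalised eigenform `f` of level `M` and a maximal ideal `𝔪 ∋ p` of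
  `ℤ̄` with `a_ℓ(f) ≡ a_ℓ(W) mod 𝔪` for all primes `ℓ` outside a finite set;
* `back401_isResiduallyModular` : `W.IsResiduallyModularOfLevel p M`   (no R3' needed);
* `back401_frey`         : `P.ModularRepOfLevel M` for a Frey package (no R3' needed);
* `back401_resModular`   : the shape of the field (BACK) of `S38.H727.FreyIADataStatement`.

Inputs: `S59.H401.dict_charpoly_good` (Frobenius on `E[p]` at good primes, on main),
`S54.exists_frobenius`, `Lib.Ribet.H584` (Deligne–Serre lifting).  Sorry-free.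
-/

set_option autoImplicit false
set_option linter.style.haveILetI false

open Polynomial IsLocalRing CuspForm
open WeierstrassCurve WeierstrassCurve.Affine WeierstrassCurve.Affine.Point

namespace Fermat.Agent.S38.H401

open Fermat.Agent.S59.Arch Fermat.Agent.S59.H401

/-- Restriction of a character of the Hecke algebra away from `S` to the Hecke algebra away from a
larger set `S'`. -/
noncomputable def backRestrict401 {N : ℕ} [NeZero N] {S S' : Set ℕ} (h : S ⊆ S') {k : Type*}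
    [Semiring k] (θ : heckeAlgebra N 2 S →+* k) : heckeAlgebra N 2 S' →+* k :=
  θ.comp (Subalgebra.inclusion (heckeAlgebra_mono h)).toRingHom

theorem backRestrict401_T {N : ℕ} [NeZero N] {S S' : Set ℕ} (h : S ⊆ S') {k : Type*}
    [Semiring k] (θ : heckeAlgebra N 2 S →+* k) {ℓ : ℕ} (hℓ : ℓ.Prime) (hℓN : ¬ ℓ ∣ N)
    (hℓS' : ℓ ∉ S') :
    backRestrict401 h θ (heckeAlgebra.T hℓ hℓN hℓS')
      = θ (heckeAlgebra.T hℓ hℓN (fun hS => hℓS' (h hS))) := rfl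

/-- A field receiving `ZMod p` has characteristic `p`. -/
theorem back401_charP (p : ℕ) [Fact p.Prime] {k : Type*} [Field k] (ι : ZMod p →+* k) :
    CharP k p :=
  charP_of_injective_ringHom ι.injective p

section Curve

variable (p : ℕ) [Fact p.Prime] (W : WeierstrassCurve ℤ) (hΔ : W.Δ ≠ 0)
  (hirr : W.ModRepIsIrreducible p)
  (hcard : Nat.card (Submodule.torsionBy ℤ
    ((W.map (Int.castRingHom ℚ))⁄(AlgebraicClosure ℚ)).Point p) = p ^ 2)
  (hker : GaloisFactorsThroughFiniteLevel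
    (WeierstrassCurve.Affine.Point.galoisRepModuleEnd (K := AlgebraicClosure ℚ) ℚ
      (W.map (Int.castRingHom ℚ)) p))
  {k : Type} [Field k] (ι : ZMod p →+* k)
  {M : ℕ} [NeZero M] {S : Set ℕ} (θ : heckeAlgebra M 2 S →+* k)

include hΔ hirr in
/-- **The values of `θ` at the good primes.** -/
theorem back401_theta_T
    (h : Fermat.Agent.S59.G4.ResFrobCond (curveResidual p W hcard hker ι) θ)
    {ℓ : ℕ} (hℓ : ℓ.Prime) (hℓM : ¬ ℓ ∣ M) (hℓS : ℓ ∉ S) (h5 : 5 ≤ ℓ)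
    (hgood : W.IsGoodPrimeFor ℓ) (hℓp : ℓ ≠ p) :
    θ (heckeAlgebra.T hℓ hℓM hℓS) = ((W.apOfModel ℓ : ℤ) : k) := by
  obtain ⟨A, σ, hA, hσ⟩ := Fermat.Agent.S54.exists_frobenius ℓ hℓ
  have h1 := h ℓ hℓ hℓM hℓS A hA σ hσ
  have h2 := dict_charpoly_good W hΔ p hirr hcard hker ℓ hℓ h5 hgood hℓp A hA σ hσ
  have h3 : LinearMap.charpoly ((curveResidual p W hcard hker ι).ρ σ)
      = (LinearMap.charpoly
          (((W.map (Int.castRingHom ℚ)).residualGaloisRepOf p hcard hker).ρ σ)).map ι :=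
    dict_charpoly_baseChangeAlong ι _ σ
  rw [h2] at h3
  rw [h3] at h1
  simp only [Polynomial.map_add, Polynomial.map_sub, Polynomial.map_mul, Polynomial.map_pow,
    Polynomial.map_X, Polynomial.map_C] at h1
  have e1 : ∀ b c : k, (X ^ 2 - C b * X + C c : k[X]).coeff 1 = -b := by
    intro b c
    simp [coeff_X_pow, coeff_C]
  have h4 := congrArg (fun f : k[X] => f.coeff 1) h1
  simp only [e1] at h4
  rw [map_intCast] at h4
  exact (neg_injective h4).symm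

include hΔ hirr in
/-- **Congruence outside a finite set.** -/
theorem back401_congr (S : Finset ℕ) (θ : heckeAlgebra M 2 (↑S : Set ℕ) →+* k)
    (h : Fermat.Agent.S59.G4.ResFrobCond (curveResidual p W hcard hker ι) θ) :
    ∃ (f : CuspForm (CongruenceSubgroup.Gamma0 M) 2) (𝔪 : Ideal (integralClosure ℤ ℂ))
      (S' : Finset ℕ),
      f.IsNormalizedEigenform ∧ 𝔪.IsMaximal ∧ (p : integralClosure ℤ ℂ) ∈ 𝔪 ∧
      ∀ ℓ : ℕ, ℓ.Prime → ℓ ∉ S' →
        ∃ a : integralClosure ℤ ℂ, (a : ℂ) = ModularFormClass.qCoeff f ℓ ∧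
          a - ((W.apOfModel ℓ : ℤ) : integralClosure ℤ ℂ) ∈ 𝔪 := by
  classical
  have hM0 : M ≠ 0 := NeZero.ne M
  haveI : CharP k p := back401_charP p ι
  -- the enlarged finite set
  set S' : Finset ℕ := S ∪ ({2, 3, p} ∪ (M.primeFactors ∪ W.Δ.natAbs.primeFactors)) with hS'
  have hsub : (↑S : Set ℕ) ⊆ (↑S' : Set ℕ) := by
    intro x hx
    rw [hS']
    exact Finset.mem_coe.mpr (Finset.mem_union_left _ (Finset.mem_coe.mp hx))
  have hout : ∀ ℓ : ℕ, ℓ.Prime → ℓ ∉ S' →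
      ℓ ∉ S ∧ ℓ ≠ 2 ∧ ℓ ≠ 3 ∧ ℓ ≠ p ∧ ¬ ℓ ∣ M ∧ W.IsGoodPrimeFor ℓ := by
    intro ℓ hℓ hℓS'
    rw [hS'] at hℓS'
    simp only [Finset.mem_union, Finset.mem_insert, Finset.mem_singleton, not_or] at hℓS'
    obtain ⟨hS, ⟨h2, h3, hp⟩, hM, hD⟩ := hℓS'
    refine ⟨hS, h2, h3, hp, fun hd => hM (Nat.mem_primeFactors.mpr ⟨hℓ, hd, hM0⟩), ?_⟩
    intro hd
    apply hD
    refine Nat.mem_primeFactors.mpr ⟨hℓ, ?_, Int.natAbs_ne_zero.mpr hΔ⟩
    exact Int.natCast_dvd.mp hd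
  obtain ⟨f, 𝔪, hf, h𝔪, hp𝔪, hcong⟩ :=
    Fermat.Agent.Lib.Ribet.H584.exists_eigenform_congr_of_ringHom (↑S' : Set ℕ) p
      (backRestrict401 hsub θ) (fun ℓ => W.apOfModel ℓ) (by
        intro ℓ hℓ hℓM hℓS'
        obtain ⟨hS, h2, h3, hp, -, hgood⟩ := hout ℓ hℓ (fun hm => hℓS' (Finset.mem_coe.mpr hm))
        rw [backRestrict401_T]
        exact back401_theta_T p W hΔ hirr hcard hker ι θ h hℓ hℓM _
          (dict_five_le hℓ h2 h3) hgood hp)
  refine ⟨f, 𝔪, S', hf, h𝔪, hp𝔪, ?_⟩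
  intro ℓ hℓ hℓS'
  obtain ⟨-, -, -, -, hℓM, -⟩ := hout ℓ hℓ hℓS'
  exact hcong ℓ hℓ hℓM (fun hm => hℓS' (Finset.mem_coe.mp hm))

end Curve

end Fermat.Agent.S38.H401

end
-- ===== PACK-END S38/H401/Back.lean

-- ===== PACK-BEGIN S38/H401/BackFrey.lean
section



/-!
# Row HARD, cell TOP, piece BACK (helper401): Frey form

`back401_resModular_of_r3 : R3' → (ResModular 𝒪 (E[p] ⊗ k) M S → P.ModularRepOfLevel M)` —
the field (BACK) of `S38.H727.FreyIADataStatement`, for `ρ̄ = curveResidual P.p P.freyCurveInt …`.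
`R3'` is `Ribet.Spec.AlmostAllToWitnessStatement` (on main: `H764.almostAllToWitness_of_S42` on
the frozen `S42.result`).  Sorry-free.
-/

set_option autoImplicit false
set_option linter.style.haveILetI false

open Polynomial IsLocalRing CuspForm
open WeierstrassCurve WeierstrassCurve.Affine WeierstrassCurve.Affine.Point

namespace Fermat.Agent.S38.H401

open Fermat.Agent.S59.Arch Fermat.Agent.S59.H401
open Fermat.Agent.Ribet Fermat.Agent.Ribet.Spec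

/-- Transport of irreducibility along an equality of curves. -/
theorem back401_irr_transport {E E' : WeierstrassCurve ℚ} (h : E = E') (n : ℕ) :
    GaloisRepIsIrreducible (K := AlgebraicClosure ℚ) ℚ E n ↔
      GaloisRepIsIrreducible (K := AlgebraicClosure ℚ) ℚ E' n := by
  subst h
  rfl

/-- The integral Frey curve has irreducible `E[p]` if the Frey curve has. -/
theorem back401_freyInt_irr (P : FreyPackage)
    (hirr : GaloisRepIsIrreducible (K := AlgebraicClosure ℚ) ℚ P.freyCurve P.p) :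
    P.freyCurveInt.ModRepIsIrreducible P.p :=
  (back401_irr_transport (H104.freyCurve_eq_map P) P.p).mp hirr

section Frey

variable (P : FreyPackage) [Fact P.p.Prime]
  (hcard : Nat.card (Submodule.torsionBy ℤ
    ((P.freyCurveInt.map (Int.castRingHom ℚ))⁄(AlgebraicClosure ℚ)).Point P.p) = P.p ^ 2)
  (hker : GaloisFactorsThroughFiniteLevel
    (WeierstrassCurve.Affine.Point.galoisRepModuleEnd (K := AlgebraicClosure ℚ) ℚ
      (P.freyCurveInt.map (Int.castRingHom ℚ)) P.p))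

/-- **BACK, character form.** -/
theorem back401_frey_of_r3 (hR3' : AlmostAllToWitnessStatement)
    (hirr : GaloisRepIsIrreducible (K := AlgebraicClosure ℚ) ℚ P.freyCurve P.p)
    {k : Type} [Field k] (ι : ZMod P.p →+* k)
    {M : ℕ} [NeZero M] (S : Finset ℕ) (θ : heckeAlgebra M 2 (↑S : Set ℕ) →+* k)
    (h : Fermat.Agent.S59.G4.ResFrobCond (curveResidual P.p P.freyCurveInt hcard hker ι) θ) :
    P.ModularRepOfLevel M := by
  obtain ⟨f, 𝔪, S', hf, h𝔪, hp𝔪, hcong⟩ :=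
    back401_congr P.p P.freyCurveInt (H104.Δ_ne_zero P) (back401_freyInt_irr P hirr)
      hcard hker ι S θ h
  have hw := hR3' P M (Nat.pos_of_ne_zero (NeZero.ne M)) f P.freyCurveInt 𝔪 S' hf
    (H104.isIntegralModelOf P) h𝔪 hp𝔪 hcong
  exact ⟨f, P.freyCurveInt, 𝔪, hw⟩

/-- **BACK, `ResModular` form** (the field (BACK) of the TOP data). -/
theorem back401_resModular_of_r3 (hR3' : AlmostAllToWitnessStatement)
    (hirr : GaloisRepIsIrreducible (K := AlgebraicClosure ℚ) ℚ P.freyCurve P.p)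
    (𝒪 : Type) [CommRing 𝒪] [IsDomain 𝒪] [IsDiscreteValuationRing 𝒪]
    (ι : ZMod P.p →+* ResidueField 𝒪) (M : ℕ) (S : Finset ℕ)
    (h : ResModular 𝒪 (curveResidual P.p P.freyCurveInt hcard hker ι) M S) :
    P.ModularRepOfLevel M := by
  obtain ⟨hM, θ, hθ⟩ := h
  exact back401_frey_of_r3 P hcard hker hR3' hirr ι S θ hθ

end Frey

end Fermat.Agent.S38.H401

end
-- ===== PACK-END S38/H401/BackFrey.lean

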