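import Fermat.Agent.Pack.S43C.E1L2
import Fermat.Agent.Pack.S43MC.G0E26L0
import Fermat.Agent.Pack.S43MC.G0E24L2
import Fermat.Agent.Pack.S43MC.G0E26L3
import Fermat.Agent.Pack.S43C.E0L3
import Fermat.Agent.Pack.S43GC.G0E7L1
import Fermat.Agent.Pack.S43MC.G0E10L2
import Fermat.Agent.Pack.S43MC.G0E25L2
import Fermat.Agent.Pack.S43MC.G0E26L2
import Fermat.Agent.Pack.S43MC.G0E19L2
import Fermat.Agent.Pack.S43GC.G0E11L1
import Fermat.Agent.Pack.S43MC.G0E27L3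
import Fermat.Agent.Pack.S43MC.G0E3L2
import Fermat.Agent.Pack.S43MC.G0E25L3
import Fermat.Agent.Pack.S43MC.G0E19L1
import Fermat.Agent.Pack.S43MC.G0E20L3
import Fermat.Agent.Pack.S43MC.G0E23L1
import Fermat.Agent.Pack.S43MC.G0E23L3
import Fermat.Agent.Pack.S43MC.G0E5L3
import Fermat.Agent.Pack.S44C.G0E19L2
import Fermat.Agent.Pack.S43C.E2L1
import Fermat.Agent.Pack.Fast891

-- ===== PACK-BEGIN S38/H781/IAModLevel.lean
section



/-!
# Row HARD, cell HECKE, layer 3, leaf IA-MOD: arithmetic of the levels  (helper781)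

Generic-index versions (family `qq : ι → ℕ`, `ι` a finite type) of the level lemmas of helper658
(`S59/TW/H658/ModQRing.lean`), in the vocabulary of helper3 (`gLevel`, `gChi`, `KG`):

* `wilesLevel_union_h781` : `N_{Smin ∪ image qq} = N_{Smin} · ∏ qq s ²`;
* `exists_gLevel_eq_h781` : every `qq s` exactly divides `gLevel N₀ qq`;
* `mem_KG_of_dvd_h781`   : `Γ₀(M) ∩ Γ₁(∏ qq s) ⊆ KG`;
* `pow_mem_KG_h781`      : `Γ₀(M)^(2h+1) ⊆ KG` if `p^{m_s} ∣ 2h + 1` for all `s`;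
* `gChi_pow_h781`        : `Δ` is killed by `p^a`, `a = ∑ m_s`;
* `exists_isHalf_two_h781` : for `p` odd, a common `h` for two families.
-/

set_option autoImplicit false
set_option linter.unusedSectionVars false

noncomputable section

namespace Fermat.Agent.S38.H781

open CongruenceSubgroup
open Fermat.Agent.S59.Arch Fermat.Agent.S59.TW.H653 Fermat.Agent.S59.TW.Aut
open Fermat.Agent.S38.IA.Hecke
open scoped MatrixGroups

/-! ## Arithmetic of the levels -/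

section Level

variable (p : ℕ) (t : PType) (Smin : Finset ℕ) {ι : Type} [Fintype ι] (qq : ι → ℕ)

theorem image_sdiff_h781 (hq : ∀ s, qq s ∉ Smin) :
    (Smin ∪ Finset.univ.image qq) \ Smin = Finset.univ.image qq := by
  ext q
  simp only [Finset.mem_sdiff, Finset.mem_union, Finset.mem_image, Finset.mem_univ, true_and]
  constructor
  · rintro ⟨h1 | h1, h2⟩
    · exact absurd h1 h2
    · exact h1
  · rintro ⟨i, rfl⟩
    exact ⟨Or.inr ⟨i, rfl⟩, hq i⟩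

/-- `N_{Smin ∪ image qq} = N_{Smin} · ∏ qq s ²`. -/
theorem wilesLevel_union_h781 (hqi : Function.Injective qq) (hq : ∀ s, qq s ∉ Smin) :
    wilesLevel p t Smin (Smin ∪ Finset.univ.image qq) =
      wilesLevel p t Smin Smin * ∏ s, qq s ^ 2 := by
  unfold wilesLevel
  rw [image_sdiff_h781 Smin qq hq, Finset.sdiff_self, Finset.prod_empty,
    Finset.prod_image (fun i _ j _ h => hqi h)]
  ring

/-- `M · ∏ qq s = N_{Smin} · ∏ qq s ²`. -/
theorem gLevel_mul_prod_h781 :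
    gLevel (wilesLevel p t Smin Smin) qq * ∏ s, qq s =
      wilesLevel p t Smin Smin * ∏ s, qq s ^ 2 := by
  rw [gLevel, Finset.prod_pow]
  ring

theorem gLevel_mul_prod_dvd_h781 (hqi : Function.Injective qq) (hq : ∀ s, qq s ∉ Smin) :
    gLevel (wilesLevel p t Smin Smin) qq * ∏ s, qq s ∣
      wilesLevel p t Smin (Smin ∪ Finset.univ.image qq) := by
  rw [gLevel_mul_prod_h781, wilesLevel_union_h781 p t Smin qq hqi hq]

theorem gLevel_dvd_h781 (hqi : Function.Injective qq) (hq : ∀ s, qq s ∉ Smin) :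
    gLevel (wilesLevel p t Smin Smin) qq ∣
      wilesLevel p t Smin (Smin ∪ Finset.univ.image qq) :=
  (Dvd.intro _ rfl).trans (gLevel_mul_prod_dvd_h781 p t Smin qq hqi hq)

variable [Fact p.Prime]

/-- Each `qq s` exactly divides `gLevel N₀ qq`. -/
theorem exists_gLevel_eq_h781 (hpS : p ∈ Smin) (hSp : ∀ q ∈ Smin, q.Prime)
    (hqi : Function.Injective qq) (hq : ∀ s, (qq s).Prime ∧ qq s ∉ Smin) (s : ι) :
    ∃ M' : ℕ, gLevel (wilesLevel p t Smin Smin) qq = M' * qq s ∧ Nat.Coprime M' (qq s) := by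
  classical
  refine ⟨wilesLevel p t Smin Smin * ∏ i ∈ Finset.univ.erase s, qq i, ?_, ?_⟩
  · rw [gLevel, ← Finset.mul_prod_erase Finset.univ qq (Finset.mem_univ s)]
    ring
  · refine Nat.Coprime.mul_left
      (Fermat.Agent.S59.TW.H658.coprime_wilesLevel p t Smin hpS hSp (hq s).1 (hq s).2) ?_
    refine Nat.Coprime.prod_left fun i hi => ?_
    exact (Nat.coprime_primes (hq i).1 (hq s).1).mpr
      fun h => (Finset.ne_of_mem_erase hi) (hqi h)

end Level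

/-! ## The group `K` -/

section Group

variable (p N₀ : ℕ) {ι : Type} [Fintype ι] (qq : ι → ℕ)

/-- `Γ₀(M) ∩ Γ₁(∏ qq s) ⊆ K`. -/
theorem mem_KG_of_dvd_h781 {γ : SL(2, ℤ)} (hγ : γ ∈ Gamma0 (gLevel N₀ qq))
    (h : ((∏ s, qq s : ℕ) : ℤ) ∣ γ 1 1 - 1) : γ ∈ KG p N₀ qq := by
  rw [KG, mem_GammaH]
  refine ⟨hγ, ?_⟩
  rw [MonoidHom.mem_ker]
  have h1 : gRed N₀ qq (dUnit _ ⟨γ, hγ⟩) = 1 := by
    funext j
    apply Units.ext
    rw [gRed_apply]
    show ZMod.castHom (dvd_gLevel N₀ qq j) (ZMod (qq j))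
      ((dUnit (gLevel N₀ qq) ⟨γ, hγ⟩ : (ZMod (gLevel N₀ qq))ˣ) : ZMod (gLevel N₀ qq)) = 1
    rw [coe_dUnit, map_intCast]
    have h2 : ((qq j : ℕ) : ℤ) ∣ γ 1 1 - 1 := by
      refine dvd_trans (Int.natCast_dvd_natCast.mpr ?_) h
      exact Finset.dvd_prod_of_mem qq (Finset.mem_univ j)
    have h3 := (ZMod.intCast_zmod_eq_zero_iff_dvd _ _).mpr h2
    push_cast at h3
    exact sub_eq_zero.mp h3
  show (QuotientGroup.mk' (gPowSub p qq)) (gRed N₀ qq (dUnit _ ⟨γ, hγ⟩)) = 1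
  rw [h1, map_one]

/-- `Δ` is killed by `c` if `p^{m_s} ∣ c` for all `s`. -/
theorem pow_mem_gPowSub_h781 {c : ℕ} (hc : ∀ s, p ^ padicValNat p (qq s - 1) ∣ c)
    (x : ∀ s : ι, (ZMod (qq s))ˣ) : x ^ c ∈ gPowSub p qq := by
  rw [gPowSub, Subgroup.mem_pi]
  intro j _
  obtain ⟨e, he⟩ := hc j
  refine ⟨x j ^ e, ?_⟩
  rw [powMonoidHom_apply, Pi.pow_apply, he, pow_mul']

/-- `gChi u ^ c = 1` if `p^{m_s} ∣ c` for all `s`. -/
theorem gChi_pow_h781 {c : ℕ} (hc : ∀ s, p ^ padicValNat p (qq s - 1) ∣ c)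
    (u : (ZMod (gLevel N₀ qq))ˣ) : gChi p N₀ qq (u ^ c) = 1 := by
  rw [map_pow, gChi_apply, ← map_pow]
  exact (QuotientGroup.eq_one_iff _).mpr (pow_mem_gPowSub_h781 p qq hc _)

theorem pow_mem_KG_h781 {c : ℕ} (hc : ∀ s, p ^ padicValNat p (qq s - 1) ∣ c) {γ : SL(2, ℤ)}
    (hγ : γ ∈ Gamma0 (gLevel N₀ qq)) : γ ^ c ∈ KG p N₀ qq := by
  rw [KG, mem_GammaH]
  refine ⟨Subgroup.pow_mem _ hγ _, ?_⟩
  rw [MonoidHom.mem_ker]
  have h1 : (⟨γ ^ c, Subgroup.pow_mem _ hγ _⟩ : Gamma0 (gLevel N₀ qq)) =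
      (⟨γ, hγ⟩ : Gamma0 (gLevel N₀ qq)) ^ c := rfl
  rw [h1, map_pow]
  exact gChi_pow_h781 p N₀ qq hc _

end Group

/-! ## The two families -/

section Two

variable (p : ℕ) {k r : ℕ} (pv : Fin k → ℕ) (qv : Fin r → ℕ)

/-- For odd `p` there is `h` with `2 h ≡ -1` modulo the exponents of `Δ_Piv` and of `Δ_Q`, and the
exponent of `Δ_Piv × Δ_Q` divides `p ^ a`. -/
theorem exists_isHalf_two_h781 (hp : Odd p) :
    ∃ h a : ℕ, IsHalf p pv h ∧ IsHalf p qv h ∧ 2 * h + 1 = p ^ a ∧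
      ∀ s : Fin k ⊕ Fin r, p ^ padicValNat p (Sum.elim pv qv s - 1) ∣ p ^ a := by
  set a := (∑ i, padicValNat p (pv i - 1)) + ∑ j, padicValNat p (qv j - 1) with ha
  have hodd : Odd (p ^ a) := hp.pow
  obtain ⟨h, hh⟩ := hodd
  have h1 : ∀ i, padicValNat p (pv i - 1) ≤ a := fun i =>
    le_trans (Finset.single_le_sum (f := fun i => padicValNat p (pv i - 1))
      (fun _ _ => Nat.zero_le _) (Finset.mem_univ i)) (Nat.le_add_right _ _)
  have h2 : ∀ j, padicValNat p (qv j - 1) ≤ a := fun j =>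
    le_trans (Finset.single_le_sum (f := fun j => padicValNat p (qv j - 1))
      (fun _ _ => Nat.zero_le _) (Finset.mem_univ j)) (Nat.le_add_left _ _)
  refine ⟨h, a, fun i => ?_, fun j => ?_, hh.symm, fun s => ?_⟩
  · rw [← hh]
    exact pow_dvd_pow p (h1 i)
  · rw [← hh]
    exact pow_dvd_pow p (h2 j)
  · rcases s with i | j
    · exact pow_dvd_pow p (h1 i)
    · exact pow_dvd_pow p (h2 j)

theorem isHalf_sum_h781 {h : ℕ} (h1 : IsHalf p pv h) (h2 : IsHalf p qv h) :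
    ∀ s : Fin k ⊕ Fin r, p ^ padicValNat p (Sum.elim pv qv s - 1) ∣ 2 * h + 1 := by
  rintro (i | j)
  · exact h1 i
  · exact h2 j

theorem image_sum_elim_h781 :
    (Finset.univ : Finset (Fin k ⊕ Fin r)).image (Sum.elim pv qv) =
      Finset.univ.image pv ∪ Finset.univ.image qv := by
  ext q
  simp only [Finset.mem_image, Finset.mem_univ, true_and, Finset.mem_union, Sum.exists,
    Sum.elim_inl, Sum.elim_inr]

theorem injective_sum_elim_h781 (hpv : Function.Injective pv) (hqv : Function.Injective qv)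
    (hdisj : ∀ i j, pv i ≠ qv j) : Function.Injective (Sum.elim pv qv) := by
  rintro (i | j) (i' | j') h
  · exact congrArg Sum.inl (hpv h)
  · exact absurd h (hdisj i j')
  · exact absurd h.symm (hdisj i' j)
  · exact congrArg Sum.inr (hqv h)

end Two

end Fermat.Agent.S38.H781

end
end
-- ===== PACK-END S38/H781/IAModLevel.lean

-- ===== PACK-BEGIN S38/H483/IACorG.lean
section



/-!
# Row HARD, cell HECKE, layer 3, leaf IA-CTRL, step COR for a family indexed by a finite type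
(helper483; generic-index version of helper762's `cor_ctrl_N0_h762`)

`K = KG p N₀ qq = ker κ ≤ Γ₀(M)`, `M = gLevel N₀ qq`, `Δ = GDelta p qq`, for a family
`qq : ι → ℕ` of distinct primes.

* `gEps483`, `gEps_bijective483` : for primitive roots `g s` the map
  `e ↦ class of (g s ^ e s)_s`, `∏_s Fin (p ^ m_s) → Δ`, is bijective;
* `gKappa_surjective483`, `diamondU_gLift_eq_conjAct483` : the dictionary with block M-FREE;
* `cor_ctrl_G483` : for `V ⊆ X_K(𝒪)` stable under the diamond operators with an "`𝒪[Δ]`-basis"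
  `⟨ε e⟩ b_i` (`ε : E → ∏ (ℤ/qq s)ˣ` inducing a bijection `E → Δ`), and `W ⊆ X_{Γ₀(M)}(𝒪)` with
  `cor V ⊆ W`, `res W ⊆ V`: the corestriction `V → W` is onto with kernel the augmentation
  submodule.
-/

set_option autoImplicit false

namespace Fermat.Agent.S38.H483

open CongruenceSubgroup
open Fermat.Agent.S59.TW.H653 Fermat.Agent.S59.MFree Fermat.Agent.S59.TW.Aut.H762
open Fermat.Agent.S38.IA.Hecke
open scoped MatrixGroups

/-! ## The index set -/

section Idx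

variable (p : ℕ) {ι : Type} [Fintype ι] (qq : ι → ℕ)

/-- The index map `e ↦ class of (g s ^ e s)_s`. -/
def gEps483 (g : ∀ s : ι, (ZMod (qq s))ˣ)
    (e : ∀ s : ι, Fin (p ^ padicValNat p (qq s - 1))) : GDelta p qq :=
  QuotientGroup.mk (fun s => g s ^ (e s : ℕ))

theorem mem_gPowSub_iff483 (a : ∀ s : ι, (ZMod (qq s))ˣ) :
    a ∈ gPowSub p qq ↔ ∀ s, ∃ u : (ZMod (qq s))ˣ, u ^ (p ^ padicValNat p (qq s - 1)) = a s := by
  unfold gPowSub
  rw [Subgroup.mem_pi]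
  constructor
  · intro h s
    obtain ⟨u, hu⟩ := h s (Set.mem_univ s)
    exact ⟨u, hu⟩
  · intro h s _
    obtain ⟨u, hu⟩ := h s
    exact ⟨u, hu⟩

theorem gEps_injective483 [Fact p.Prime] (hprime : ∀ s, (qq s).Prime)
    (g : ∀ s : ι, (ZMod (qq s))ˣ) (hg : ∀ s, orderOf (g s) = qq s - 1) :
    Function.Injective (gEps483 p qq g) := by
  intro e e' h
  unfold gEps483 at h
  rw [QuotientGroup.eq, mem_gPowSub_iff483] at h
  funext j
  obtain ⟨u, hu⟩ := h j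
  obtain ⟨k, rfl⟩ := exists_pow_eq_of_orderOf (hprime j) (hg j) u
  have h1 : g j ^ (k * p ^ padicValNat p (qq j - 1) + (e j : ℕ)) = g j ^ (e' j : ℕ) := by
    rw [pow_add, pow_mul, hu]
    simp
  rw [pow_eq_pow_iff_modEq, hg j] at h1
  have hdvd : p ^ padicValNat p (qq j - 1) ∣ qq j - 1 := pow_padicValNat_dvd
  have h2 : (k * p ^ padicValNat p (qq j - 1) + (e j : ℕ)) ≡ (e' j : ℕ)
      [MOD p ^ padicValNat p (qq j - 1)] := h1.of_dvd hdvd
  have h3 : ((e j : ℕ)) ≡ (e' j : ℕ) [MOD p ^ padicValNat p (qq j - 1)] := by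
    have h4 : (k * p ^ padicValNat p (qq j - 1) + (e j : ℕ)) ≡ (e j : ℕ)
        [MOD p ^ padicValNat p (qq j - 1)] := by
      unfold Nat.ModEq
      rw [Nat.mul_add_mod_of_lt (e j).2]
      exact (Nat.mod_eq_of_lt (e j).2).symm
    exact h4.symm.trans h2
  apply Fin.ext
  unfold Nat.ModEq at h3
  rw [Nat.mod_eq_of_lt (e j).2, Nat.mod_eq_of_lt (e' j).2] at h3
  exact h3

theorem gEps_surjective483 [hp : Fact p.Prime] (hprime : ∀ s, (qq s).Prime)
    (g : ∀ s : ι, (ZMod (qq s))ˣ) (hg : ∀ s, orderOf (g s) = qq s - 1) :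
    Function.Surjective (gEps483 p qq g) := by
  intro d
  obtain ⟨a, rfl⟩ := QuotientGroup.mk_surjective d
  have hk : ∀ j, ∃ k : ℕ, g j ^ k = a j := fun j =>
    exists_pow_eq_of_orderOf (hprime j) (hg j) (a j)
  choose k hk using hk
  have hpos : ∀ j, 0 < p ^ padicValNat p (qq j - 1) := fun j => pow_pos hp.out.pos _
  refine ⟨fun j => ⟨k j % p ^ padicValNat p (qq j - 1), Nat.mod_lt _ (hpos j)⟩, ?_⟩
  unfold gEps483
  rw [QuotientGroup.eq, mem_gPowSub_iff483]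
  intro j
  refine ⟨g j ^ (k j / p ^ padicValNat p (qq j - 1)), ?_⟩
  show _ = ((fun j => g j ^ (k j % p ^ padicValNat p (qq j - 1)))⁻¹ * a) j
  rw [Pi.mul_apply, Pi.inv_apply, ← hk j, ← pow_mul, eq_inv_mul_iff_mul_eq, ← pow_add]
  congr 1
  rw [mul_comm]
  exact Nat.mod_add_div _ _

theorem gEps_bijective483 [Fact p.Prime] (hprime : ∀ s, (qq s).Prime)
    (g : ∀ s : ι, (ZMod (qq s))ˣ) (hg : ∀ s, orderOf (g s) = qq s - 1) :
    Function.Bijective (gEps483 p qq g) :=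
  ⟨gEps_injective483 p qq hprime g hg, gEps_surjective483 p qq hprime g hg⟩

omit [Fintype ι] in
/-- Primitive roots exist. -/
theorem exists_primitive_roots483 (hprime : ∀ s, (qq s).Prime) :
    ∃ g : ∀ s : ι, (ZMod (qq s))ˣ, ∀ s, orderOf (g s) = qq s - 1 := by
  have h : ∀ j, ∃ g : (ZMod (qq j))ˣ, orderOf g = qq j - 1 := by
    intro j
    have : Fact (qq j).Prime := ⟨hprime j⟩
    obtain ⟨g, hg⟩ := IsCyclic.exists_generator (α := (ZMod (qq j))ˣ)
    refine ⟨g, ?_⟩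
    rw [orderOf_eq_card_of_forall_mem_zpowers hg, Nat.card_eq_fintype_card, ZMod.card_units]
  choose g hg using h
  exact ⟨g, hg⟩

end Idx

/-! ## The dictionary with block M-FREE -/

section Kappa

variable (p N₀ : ℕ) {ι : Type} [Fintype ι] (qq : ι → ℕ)

theorem gKappa_trivial483 (γ : Gamma0 (gLevel N₀ qq))
    (h : ((((γ : SL(2, ℤ)) 1 1 : ℤ)) : ZMod (gLevel N₀ qq)) = 1) : gKappa p N₀ qq γ = 1 := by
  have h1 : dUnit (gLevel N₀ qq) γ = 1 := by
    apply Units.ext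
    rw [coe_dUnit, h, Units.val_one]
  unfold gKappa
  rw [MonoidHom.comp_apply, h1, map_one]

theorem gKappa_apply483 (γ : Gamma0 (gLevel N₀ qq)) :
    gKappa p N₀ qq γ = gChi p N₀ qq (dUnit (gLevel N₀ qq) γ) := rfl

theorem gChi_mk483 (u : (ZMod (gLevel N₀ qq))ˣ) :
    gChi p N₀ qq u = QuotientGroup.mk (gRed N₀ qq u) := rfl

theorem gKappa_surjective483 [NeZero (gLevel N₀ qq)]
    (hsurj : Function.Surjective (gRed N₀ qq)) : Function.Surjective (gKappa p N₀ qq) := by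
  intro d
  obtain ⟨a, rfl⟩ := QuotientGroup.mk_surjective d
  obtain ⟨u, rfl⟩ := hsurj a
  obtain ⟨γ, rfl⟩ := dUnit_surjective u
  exact ⟨γ, rfl⟩

/-- The diamond operator `⟨a⟩` of `K` in the vocabulary of block M-FREE. -/
theorem diamondU_gLift_eq_conjAct483 [NeZero (gLevel N₀ qq)]
    (hsurj : Function.Surjective (gRed N₀ qq)) {A : Type} [AddCommGroup A]
    (a : ∀ s : ι, (ZMod (qq s))ˣ) (γ : Gamma0 (gLevel N₀ qq))
    (hγ : gKappa p N₀ qq γ = (QuotientGroup.mk a)⁻¹)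
    (x : Additive (kerSub (gKappa p N₀ qq)) →+ A) :
    diamondU (isMid_KG p N₀ qq) (gLift N₀ qq a) x = conjAct (gKappa p N₀ qq) γ x := by
  rw [conjAct_eq_diamond (gKappa p N₀ qq) (gKappa_trivial483 p N₀ qq) γ x]
  rw [diamond_eq_diamondU]
  apply diamondU_eq_of_gChi
  have h1 : gChi p N₀ qq (gLift N₀ qq a) = QuotientGroup.mk a := by
    rw [gChi_mk483, gRed_gLift N₀ qq (hsurj a)]
  have h2 : gChi p N₀ qq (dUnit (gLevel N₀ qq) γ⁻¹) = QuotientGroup.mk a := by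
    rw [← gKappa_apply483, map_inv, hγ]
    exact inv_inv (QuotientGroup.mk a : GDelta p qq)
  exact h1.trans h2.symm

end Kappa

/-! ## `cor` and the Hecke operators -/

section CorHecke

variable (p N₀ : ℕ) {ι : Type} [Fintype ι] (qq : ι → ℕ) {A : Type} [AddCommGroup A]

/-- `cor` commutes with `U_q`, `q ∣ M`. -/
theorem coresK_UK_G483 {q : ℕ} [Fact q.Prime] (hq : q ∣ gLevel N₀ qq)
    (x : Additive (KG p N₀ qq) →+ A) :
    coresK (isMid_KG p N₀ qq).le (UK (KG p N₀ qq) q x) =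
      UK (Gamma0 (gLevel N₀ qq)) q (coresK (isMid_KG p N₀ qq).le x) :=
  cor_UqKer (gKappa p N₀ qq) (gKappa_trivial483 p N₀ qq) hq x

/-- `cor` commutes with `T_ℓ`, `ℓ ∤ M`. -/
theorem coresK_TK_G483 {ℓ : ℕ} [Fact ℓ.Prime] (hℓ : ¬ ℓ ∣ gLevel N₀ qq)
    (x : Additive (KG p N₀ qq) →+ A) :
    coresK (isMid_KG p N₀ qq).le (TK (gLevel N₀ qq) (KG p N₀ qq) ℓ x) =
      TK (gLevel N₀ qq) (Gamma0 (gLevel N₀ qq)) ℓ (coresK (isMid_KG p N₀ qq).le x) := by
  have h1 := cor_transfer (gKappa p N₀ qq) (gKappa_trivial483 p N₀ qq) (repsT_system0 hℓ)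
    (isNormRep_repsT hℓ) x
  rw [TK_eq (isMid_KG p N₀ qq) hℓ, TK_eq (isMid_Gamma0 _) hℓ]
  exact h1

end CorHecke

/-! ## The control statement for `cor` -/

section Main

variable {p : ℕ} [hp : Fact p.Prime] (N₀ : ℕ) [hN₀ : NeZero N₀] {ι : Type} [Fintype ι]
  (qq : ι → ℕ) (hprime : ∀ s, (qq s).Prime) (hinj : Function.Injective qq)
  (𝒪 : Type) [CommRing 𝒪] [IsDomain 𝒪] [CharZero 𝒪]

include hp hN₀ hprime hinj in
/-- **COR** for a family indexed by a finite type and a basis indexed by any `ε : E → ∏ (ℤ/qq s)ˣ`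
inducing a bijection `E → Δ`. -/
theorem cor_ctrl_G483
    (V : Submodule 𝒪 (Additive (KG p N₀ qq) →+ 𝒪))
    (W : Submodule 𝒪 (Additive (Gamma0 (gLevel N₀ qq)) →+ 𝒪))
    (hVdia : ∀ (a : ∀ s : ι, (ZMod (qq s))ˣ), ∀ x ∈ V,
      diamondU (isMid_KG p N₀ qq) (gLift N₀ qq a) x ∈ V)
    {E : Type} [Fintype E] (ε : E → ∀ s : ι, (ZMod (qq s))ˣ)
    (hε : Function.Bijective (fun e => (QuotientGroup.mk (ε e) : GDelta p qq)))
    {d : ℕ} (b : Fin d → V)
    (hb : ∀ y : V, ∃! c : Fin d → E → 𝒪,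
      (y : Additive (KG p N₀ qq) →+ 𝒪) =
        ∑ i, ∑ e, c i e • diamondU (isMid_KG p N₀ qq) (gLift N₀ qq (ε e)) (b i))
    (hcor : ∀ x ∈ V, coresK (isMid_KG p N₀ qq).le x ∈ W)
    (hres : ∀ y ∈ W, resK (isMid_KG p N₀ qq).le y ∈ V) :
    ∃ c : V →ₗ[𝒪] W, Function.Surjective c ∧
      (∀ v : V, ((c v : W) : Additive (Gamma0 (gLevel N₀ qq)) →+ 𝒪) =
        coresK (isMid_KG p N₀ qq).le (v : Additive (KG p N₀ qq) →+ 𝒪)) ∧
      ∀ y : V, c y = 0 ↔ y ∈ AddSubgroup.closure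
        {z : V | ∃ (a : ∀ s : ι, (ZMod (qq s))ˣ) (y' : V),
          (z : Additive (KG p N₀ qq) →+ 𝒪) =
            diamondU (isMid_KG p N₀ qq) (gLift N₀ qq a) (y' : Additive (KG p N₀ qq) →+ 𝒪) -
              (y' : Additive (KG p N₀ qq) →+ 𝒪)} := by
  classical
  have hM : NeZero (gLevel N₀ qq) := ⟨gLevel_ne_zero N₀ qq (NeZero.ne N₀) hprime⟩
  have hsurj := gRed_surjective N₀ qq (NeZero.ne N₀) hinj hprime
  have hκ := gKappa_surjective483 p N₀ qq hsurj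
  have hNZ : ∀ s, NeZero (qq s) := fun s => ⟨(hprime s).ne_zero⟩
  have hfin : Finite (GDelta p qq) := inferInstance
  let _ : Fintype (GDelta p qq) := Fintype.ofFinite _
  let s : GDelta p qq → Gamma0 (gLevel N₀ qq) := Function.surjInv hκ
  have hs : ∀ d, gKappa p N₀ qq (s d) = d := Function.surjInv_eq hκ
  -- the diamond operators in the vocabulary of M-FREE
  have hdia : ∀ (a : ∀ s : ι, (ZMod (qq s))ˣ)
      (x : Additive (kerSub (gKappa p N₀ qq)) →+ 𝒪),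
      diamondU (isMid_KG p N₀ qq) (gLift N₀ qq a) x =
        conjAct (gKappa p N₀ qq) (s (QuotientGroup.mk a : GDelta p qq)⁻¹) x := fun a x =>
    diamondU_gLift_eq_conjAct483 p N₀ qq hsurj a _ (hs _) x
  have hdiaF : ∀ (a : ∀ s : ι, (ZMod (qq s))ˣ),
      (diamondU (isMid_KG p N₀ qq) (gLift N₀ qq a) :
        (Additive (KG p N₀ qq) →+ 𝒪) → (Additive (KG p N₀ qq) →+ 𝒪)) =
      fun x => conjAct (gKappa p N₀ qq) (s (QuotientGroup.mk a : GDelta p qq)⁻¹) x :=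
    fun a => funext fun x => hdia a x
  have hconj : ∀ (γ : Gamma0 (gLevel N₀ qq)) (x : Additive (kerSub (gKappa p N₀ qq)) →+ 𝒪),
      ∃ a : ∀ s : ι, (ZMod (qq s))ˣ,
        conjAct (gKappa p N₀ qq) γ x = diamondU (isMid_KG p N₀ qq) (gLift N₀ qq a) x := by
    intro γ x
    obtain ⟨a', ha'⟩ := QuotientGroup.mk_surjective (gKappa p N₀ qq γ)
    refine ⟨a'⁻¹, ?_⟩
    have h3 : gKappa p N₀ qq γ = (QuotientGroup.mk (a'⁻¹) : GDelta p qq)⁻¹ := by
      rw [← ha']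
      exact (inv_inv (QuotientGroup.mk a' : GDelta p qq)).symm
    rw [diamondU_gLift_eq_conjAct483 p N₀ qq hsurj a'⁻¹ γ h3 x]
  -- the basis
  have hεbij : Function.Bijective (fun e => ((QuotientGroup.mk (ε e) : GDelta p qq))⁻¹) :=
    (Equiv.inv (GDelta p qq)).bijective.comp hε
  have hb' : ∀ y ∈ V, ∃! c : Fin d → GDelta p qq → 𝒪,
      y = ∑ i, ∑ g', c i g' •
        conjAct (gKappa p N₀ qq) (s g') ((b i : V) : Additive (KG p N₀ qq) →+ 𝒪) := by
    intro y hy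
    have h1 := hb ⟨y, hy⟩
    simp only [hdiaF] at h1
    exact basis_transport_h762 (fun d' => conjLin_h762 (gKappa p N₀ qq) 𝒪 (s d'))
      (fun e => ((QuotientGroup.mk (ε e) : GDelta p qq))⁻¹) hεbij
      (fun i => ((b i : V) : Additive (KG p N₀ qq) →+ 𝒪)) h1
  have hsurjW := fun (w : Additive (Gamma0 (gLevel N₀ qq)) →+ 𝒪) (hw : w ∈ W) =>
    cor_surj_gen_h762 (gKappa p N₀ qq) hκ 𝒪 V W hres
      (fun i => ((b i : V) : Additive (KG p N₀ qq) →+ 𝒪)) (fun i => (b i).2) s hs hb' hw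
  have hkerV := fun (v : Additive (KG p N₀ qq) →+ 𝒪) (hv : v ∈ V) =>
    cor_ker_gen_h762 (gKappa p N₀ qq) 𝒪 V
      (fun i => ((b i : V) : Additive (KG p N₀ qq) →+ 𝒪)) (fun i => (b i).2) s hs hb' hv
  -- the map
  refine ⟨LinearMap.codRestrict W ((corLin_h762 (gKappa p N₀ qq) 𝒪).comp V.subtype)
    (fun v => hcor v v.2), ?_, fun v => rfl, ?_⟩
  · rintro ⟨w, hw⟩
    obtain ⟨v, hv, hvw⟩ := hsurjW w hw
    exact ⟨⟨v, hv⟩, Subtype.ext hvw⟩
  · intro y
    have h0 : (LinearMap.codRestrict W ((corLin_h762 (gKappa p N₀ qq) 𝒪).comp V.subtype)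
        (fun v => hcor v v.2) y = 0) ↔
        cor (gKappa p N₀ qq) (y : Additive (KG p N₀ qq) →+ 𝒪) = 0 := by
      constructor
      · intro h
        exact congrArg Subtype.val h
      · intro h
        exact Subtype.ext h
    rw [h0, hkerV y y.2]
    -- comparison of the two closures
    have hSXV : ∀ x ∈ {z : Additive (KG p N₀ qq) →+ 𝒪 |
        ∃ (γ : Gamma0 (gLevel N₀ qq)) (y' : Additive (kerSub (gKappa p N₀ qq)) →+ 𝒪),
          y' ∈ V ∧ z = conjAct (gKappa p N₀ qq) γ y' - y'}, x ∈ V := by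
      rintro x ⟨γ, y', hy', rfl⟩
      obtain ⟨a, ha⟩ := hconj γ y'
      have h5 := V.sub_mem (hVdia a y' hy') hy'
      rw [← ha] at h5
      exact h5
    have h6 := closure_subtype_iff_h762 V _ hSXV y
    refine h6.trans ?_
    have hset : {z : V | (z : Additive (KG p N₀ qq) →+ 𝒪) ∈
        {z : Additive (KG p N₀ qq) →+ 𝒪 |
          ∃ (γ : Gamma0 (gLevel N₀ qq)) (y' : Additive (kerSub (gKappa p N₀ qq)) →+ 𝒪),
            y' ∈ V ∧ z = conjAct (gKappa p N₀ qq) γ y' - y'}} =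
        {z : V | ∃ (a : ∀ s : ι, (ZMod (qq s))ˣ) (y' : V),
          (z : Additive (KG p N₀ qq) →+ 𝒪) =
            diamondU (isMid_KG p N₀ qq) (gLift N₀ qq a) (y' : Additive (KG p N₀ qq) →+ 𝒪) -
              (y' : Additive (KG p N₀ qq) →+ 𝒪)} := by
      ext z
      constructor
      · rintro ⟨γ, y', hy', hz⟩
        obtain ⟨a, ha⟩ := hconj γ y'
        exact ⟨a, ⟨y', hy'⟩, hz.trans (congrArg (fun w => w - y') ha)⟩
      · rintro ⟨a, y', hz⟩
        exact ⟨s (QuotientGroup.mk a : GDelta p qq)⁻¹, (y' : Additive (KG p N₀ qq) →+ 𝒪), y'.2,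
          hz.trans (congrArg (fun w => w - (y' : Additive (KG p N₀ qq) →+ 𝒪))
            (hdia a (y' : Additive (KG p N₀ qq) →+ 𝒪)))⟩
    rw [hset]

end Main

end Fermat.Agent.S38.H483

end
-- ===== PACK-END S38/H483/IACorG.lean

-- ===== PACK-BEGIN S38/H483/IACtrl.lean
section



/-!
# Row HARD, cell HECKE, layer 3, leaf IA-CTRL: naturality + final glue (helper483)

`IACtrlStatement` (`Hecke/Spec3.lean`) asks for `π : V ↠ V₀` with kernel `I_Δ V`, where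
`V ⊆ X_K(𝒪)` (`K = Γ₀(N_min) ∩ Γ_H(Piv ∪ Q)`, level `M`) and `V₀ ⊆ X_{Γ₀(L)}(𝒪)` are the
localisations.  Cut:

* COR (`IACorG.lean`): `cor : V ↠ W`, kernel `I_Δ V`, `W` the localisation of `X_{Γ₀(M)}(𝒪)`;
* NAT (this file, `nat_cor_G483`, `nat_res_G483`): `cor V ⊆ W`, `res W ⊆ V`
  (helper105's `nat_of_isLocPart`);
* CHAIN (`IAChainStatement`, owner helper299 on helper105's `one_step`): `W ≅ V₀`, the
  Taylor–Wiles chain at the levels `Γ₀(L ∏_{j<i} q_j)`;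
* glue (this file): `iaCtrl_of_chain483 : IdemStatement → IAFreeStatement → IAChainStatement →
  IACtrlStatement`.
-/

set_option autoImplicit false

open IsLocalRing CongruenceSubgroup
open scoped MatrixGroups

namespace Fermat.Agent.S38.H483

open Fermat.Agent.S59.Arch Fermat.Agent.S59.TW.H959 Fermat.Agent.S59.TW Fermat.Agent.S59.H765
open Fermat.Agent.S59.TW.H653 Fermat.Agent.S59.TW.Aut Fermat.Agent.S59.MFree
open Fermat.Agent.S59.TW.Aut.H762 Fermat.Agent.S59.H105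
open Fermat.Agent.S38.IA Fermat.Agent.S38.IA.Hecke
open CuspForm

/-! ## NAT: `cor` and `res` respect the localisations -/

section Nat

variable {𝒪 : Type} [CommRing 𝒪] [IsDomain 𝒪] [IsDiscreteValuationRing 𝒪]
  [IsAdicComplete (maximalIdeal 𝒪) 𝒪]
  (p N₀ : ℕ) {ι : Type} [Fintype ι] (qq : ι → ℕ)

/-- `cor : X_K(𝒪) → X_{Γ₀(M)}(𝒪)`, `𝒪`-linear. -/
noncomputable def corG483 :
    (Additive (KG p N₀ qq) →+ 𝒪) →ₗ[𝒪] (Additive (Gamma0 (gLevel N₀ qq)) →+ 𝒪) :=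
  corLin_h762 (gKappa p N₀ qq) 𝒪

theorem corG483_apply (x : Additive (KG p N₀ qq) →+ 𝒪) :
    corG483 (𝒪 := 𝒪) p N₀ qq x = coresK (isMid_KG p N₀ qq).le x := rfl

/-- `res : X_{Γ₀(M)}(𝒪) → X_K(𝒪)`, `𝒪`-linear. -/
noncomputable def resG483 :
    (Additive (Gamma0 (gLevel N₀ qq)) →+ 𝒪) →ₗ[𝒪] (Additive (KG p N₀ qq) →+ 𝒪) :=
  resLin_h762 (gKappa p N₀ qq) 𝒪

theorem resG483_apply (y : Additive (Gamma0 (gLevel N₀ qq)) →+ 𝒪) :
    resG483 (𝒪 := 𝒪) p N₀ qq y = resK (isMid_KG p N₀ qq).le y := rfl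

/-- `cor` maps the localisation of `X_K(𝒪)` into the localisation of `X_{Γ₀(M)}(𝒪)`. -/
theorem nat_cor_G483 (hM : gLevel N₀ qq ≠ 0) {Tset Uset : Set (ℕ × 𝒪)}
    (hT : ∀ x ∈ Tset, x.1.Prime ∧ ¬ x.1 ∣ gLevel N₀ qq)
    (hU : ∀ x ∈ Uset, x.1.Prime ∧ x.1 ∣ gLevel N₀ qq)
    {V : Submodule 𝒪 (Additive (KG p N₀ qq) →+ 𝒪)}
    (hV : IsLocPart (isMid_KG p N₀ qq) Tset Uset V)
    {W : Submodule 𝒪 (Additive (Gamma0 (gLevel N₀ qq)) →+ 𝒪)}
    (hW : IsLocPart (isMid_Gamma0 (gLevel N₀ qq)) Tset Uset W) :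
    ∀ x ∈ V, coresK (isMid_KG p N₀ qq).le x ∈ W := by
  have key := nat_of_isLocPart hM (isMid_KG p N₀ qq) (isMid_Gamma0 (gLevel N₀ qq)) hV hW
    subset_rfl subset_rfl hT hU hT hU (corG483 p N₀ qq) (by
      rintro (i | i) x
      · haveI : Fact i.1.1.Prime := ⟨(hT i.1 i.2).1⟩
        show corG483 p N₀ qq
            (shiftE 𝒪 (TKL (isMid_KG p N₀ qq) 𝒪 (hT i.1 i.2).2) i.1.2 x) =
          shiftE 𝒪 (TKL (isMid_Gamma0 (gLevel N₀ qq)) 𝒪 (hT i.1 i.2).2) i.1.2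
            (corG483 p N₀ qq x)
        rw [shiftE_apply, shiftE_apply, map_sub, map_smul]
        congr 1
        exact coresK_TK_G483 p N₀ qq (hT i.1 i.2).2 x
      · haveI : Fact i.1.1.Prime := ⟨(hU i.1 i.2).1⟩
        show corG483 p N₀ qq
            (shiftE 𝒪 (UKL (isMid_KG p N₀ qq) 𝒪 (hU i.1 i.2).2) i.1.2 x) =
          shiftE 𝒪 (UKL (isMid_Gamma0 (gLevel N₀ qq)) 𝒪 (hU i.1 i.2).2) i.1.2
            (corG483 p N₀ qq x)
        rw [shiftE_apply, shiftE_apply, map_sub, map_smul]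
        congr 1
        exact coresK_UK_G483 p N₀ qq (hU i.1 i.2).2 x)
  exact key

/-- `res` maps the localisation of `X_{Γ₀(M)}(𝒪)` into the localisation of `X_K(𝒪)`. -/
theorem nat_res_G483 (hM : gLevel N₀ qq ≠ 0) {Tset Uset : Set (ℕ × 𝒪)}
    (hT : ∀ x ∈ Tset, x.1.Prime ∧ ¬ x.1 ∣ gLevel N₀ qq)
    (hU : ∀ x ∈ Uset, x.1.Prime ∧ x.1 ∣ gLevel N₀ qq)
    {V : Submodule 𝒪 (Additive (KG p N₀ qq) →+ 𝒪)}
    (hV : IsLocPart (isMid_KG p N₀ qq) Tset Uset V)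
    {W : Submodule 𝒪 (Additive (Gamma0 (gLevel N₀ qq)) →+ 𝒪)}
    (hW : IsLocPart (isMid_Gamma0 (gLevel N₀ qq)) Tset Uset W) :
    ∀ y ∈ W, resK (isMid_KG p N₀ qq).le y ∈ V := by
  have key := nat_of_isLocPart hM (isMid_Gamma0 (gLevel N₀ qq)) (isMid_KG p N₀ qq) hW hV
    subset_rfl subset_rfl hT hU hT hU (resG483 p N₀ qq) (by
      rintro (i | i) x
      · haveI : Fact i.1.1.Prime := ⟨(hT i.1 i.2).1⟩
        show resG483 p N₀ qq
            (shiftE 𝒪 (TKL (isMid_Gamma0 (gLevel N₀ qq)) 𝒪 (hT i.1 i.2).2) i.1.2 x) =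
          shiftE 𝒪 (TKL (isMid_KG p N₀ qq) 𝒪 (hT i.1 i.2).2) i.1.2
            (resG483 p N₀ qq x)
        rw [shiftE_apply, shiftE_apply, map_sub, map_smul]
        congr 1
        exact (resK_TK (isMid_Gamma0 (gLevel N₀ qq)) (isMid_KG p N₀ qq)
          (isMid_KG p N₀ qq).le (hT i.1 i.2).2 x).symm
      · haveI : Fact i.1.1.Prime := ⟨(hU i.1 i.2).1⟩
        show resG483 p N₀ qq
            (shiftE 𝒪 (UKL (isMid_Gamma0 (gLevel N₀ qq)) 𝒪 (hU i.1 i.2).2) i.1.2 x) =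
          shiftE 𝒪 (UKL (isMid_KG p N₀ qq) 𝒪 (hU i.1 i.2).2) i.1.2
            (resG483 p N₀ qq x)
        rw [shiftE_apply, shiftE_apply, map_sub, map_smul]
        congr 1
        exact (resK_UK (isMid_Gamma0 (gLevel N₀ qq)) (isMid_KG p N₀ qq)
          (isMid_KG p N₀ qq).le (hU i.1 i.2).2 x).symm)
  exact key

end Nat

end Fermat.Agent.S38.H483

namespace Fermat.Agent.S38.H483

open Fermat.Agent.S59.Arch Fermat.Agent.S59.TW.H959 Fermat.Agent.S59.TW Fermat.Agent.S59.H765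
open Fermat.Agent.S59.TW.H653 Fermat.Agent.S59.TW.Aut Fermat.Agent.S59.MFree
open Fermat.Agent.S59.TW.Aut.H762 Fermat.Agent.S59.H105
open Fermat.Agent.S38.IA Fermat.Agent.S38.IA.Hecke
open CuspForm

/-! ## The combined family -/

section Family

variable {k r : ℕ} {pv : Fin k → ℕ} {qv : Fin r → ℕ}

theorem pairU_eta483 (a : ∀ s : Fin k ⊕ Fin r, (ZMod (Sum.elim pv qv s))ˣ) :
    pairU (pv := pv) (qv := qv) (fun i => a (.inl i)) (fun j => a (.inr j)) = a := by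
  funext s
  cases s <;> rfl

theorem sumElim_prime483 (hpv : ∀ i, (pv i).Prime) (hqv : ∀ j, (qv j).Prime) :
    ∀ s, (Sum.elim pv qv s).Prime := by
  rintro (i | j)
  · exact hpv i
  · exact hqv j

theorem sumElim_injective483 (hpv : Function.Injective pv) (hqv : Function.Injective qv)
    (hdisj : ∀ i j, pv i ≠ qv j) : Function.Injective (Sum.elim pv qv) := by
  rintro (i | j) (i' | j') h
  · exact congrArg Sum.inl (hpv h)
  · exact absurd h (hdisj i j')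
  · exact absurd h.symm (hdisj i' j)
  · exact congrArg Sum.inr (hqv h)

/-- The index map of `IAFreeAt` is a bijection onto `Δ`. -/
theorem pairEps_bijective483 (p : ℕ) [Fact p.Prime] (hpv : ∀ i, (pv i).Prime)
    (hqv : ∀ j, (qv j).Prime)
    (g₁ : ∀ i : Fin k, (ZMod (pv i))ˣ) (g₂ : ∀ j : Fin r, (ZMod (qv j))ˣ)
    (hg₁ : ∀ i, orderOf (g₁ i) = pv i - 1) (hg₂ : ∀ j, orderOf (g₂ j) = qv j - 1) :
    Function.Bijective (fun e : (∀ i : Fin k, Fin (p ^ padicValNat p (pv i - 1))) ×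
        (∀ j : Fin r, Fin (p ^ padicValNat p (qv j - 1))) =>
      (QuotientGroup.mk (pairU (pv := pv) (qv := qv) (fun i => g₁ i ^ (e.1 i : ℕ))
        (fun j => g₂ j ^ (e.2 j : ℕ))) : GDelta p (Sum.elim pv qv))) := by
  have hg : ∀ s, orderOf (pairU (pv := pv) (qv := qv) g₁ g₂ s) = Sum.elim pv qv s - 1 := by
    rintro (i | j)
    · exact hg₁ i
    · exact hg₂ j
  have hbij := gEps_bijective483 p (Sum.elim pv qv) (sumElim_prime483 hpv hqv)
    (pairU g₁ g₂) hg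
  -- the boxes
  let T : ((∀ i : Fin k, Fin (p ^ padicValNat p (pv i - 1))) ×
        (∀ j : Fin r, Fin (p ^ padicValNat p (qv j - 1)))) →
      (∀ s : Fin k ⊕ Fin r, Fin (p ^ padicValNat p (Sum.elim pv qv s - 1))) :=
    fun e s => match s with
      | .inl i => e.1 i
      | .inr j => e.2 j
  have hT : Function.Bijective T := by
    constructor
    · intro e e' h
      refine Prod.ext ?_ ?_
      · funext i
        exact congrFun h (.inl i)
      · funext j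
        exact congrFun h (.inr j)
    · intro f
      refine ⟨(fun i => f (.inl i), fun j => f (.inr j)), ?_⟩
      funext s
      cases s <;> rfl
  have hcomp : (fun e : (∀ i : Fin k, Fin (p ^ padicValNat p (pv i - 1))) ×
        (∀ j : Fin r, Fin (p ^ padicValNat p (qv j - 1))) =>
      (QuotientGroup.mk (pairU (pv := pv) (qv := qv) (fun i => g₁ i ^ (e.1 i : ℕ))
        (fun j => g₂ j ^ (e.2 j : ℕ))) : GDelta p (Sum.elim pv qv))) =
      gEps483 p (Sum.elim pv qv) (pairU g₁ g₂) ∘ T := by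
    funext e
    unfold gEps483
    simp only [Function.comp_apply]
    congr 1
    funext s
    cases s <;> rfl
  rw [hcomp]
  exact hbij.comp hT

end Family

/-! ## The chain and the glue -/

/-- **CHAIN** (the Taylor–Wiles chain at the `Γ₀`-levels): the localisation `W` of
`X_{Γ₀(M)}(𝒪)`, `M = N_min ∏ pv ∏ qv = L ∏ qv`, at `(T_ℓ - c_ℓ (ℓ ∉ Σ_Q), U_{q_j} - α_j)` is
isomorphic to the localisation `V₀` of `X_{Γ₀(L)}(𝒪)` at `θ₀`.
(Iterate `H105.one_step` over the Taylor–Wiles primes; owner helper299.) -/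
def IAChainStatement : Prop :=
  ∀ (p : ℕ) [Fact p.Prime] (_hp5 : 5 ≤ p)
    (𝒪 : Type) [CommRing 𝒪] [IsDomain 𝒪] [IsDiscreteValuationRing 𝒪]
    [IsAdicComplete (maximalIdeal 𝒪) 𝒪] [Finite (ResidueField 𝒪)] [CharZero 𝒪]
    (ρbar : ResidualGaloisRep (ResidueField 𝒪)) (Smin : Finset ℕ)
    (_h : ResidualHyp p 𝒪 ρbar Smin)
    (_hflat : (GaloisRepAdic.ofResidualGaloisRep ρbar).IsFlatAt p)
    (Piv : Finset ℕ) (_hPiv : IsPivotSet p ρbar Smin Piv)
    [NeZero (ribetLevel p Smin Piv)]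
    (θ₀ : CuspForm.heckeAlgebra (ribetLevel p Smin Piv) 2 (↑(Smin ∪ Piv) : Set ℕ) →+*
      ResidueField 𝒪)
    (_hθ₀ : Fermat.Agent.S59.G4.ResFrobCond ρbar θ₀)
    (k : ℕ) (pv : Fin k → ℕ) (_hpv : Function.Injective pv)
    (_hpvPiv : Finset.univ.image pv = Piv)
    (n r : ℕ) (qv : Fin r → ℕ) (_hq : IsTWSet p ρbar (Smin ∪ Piv) n qv)
    [NeZero (wilesLevel p .flat Smin (Smin ∪ Piv ∪ Finset.univ.image qv))]
    (hp : LevelPair (ribetLevel p Smin Piv)
      (wilesLevel p .flat Smin (Smin ∪ Piv ∪ Finset.univ.image qv))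
      (↑(Smin ∪ Piv) : Set ℕ) (↑(Smin ∪ Piv ∪ Finset.univ.image qv) : Set ℕ))
    (PQ : HeckePkg p 𝒪 ρbar .flat Smin (Smin ∪ Piv ∪ Finset.univ.image qv))
    (_hθ : PQ.θ = θ₀.comp (oldRestrict hp))
    (α : Fin r → 𝒪) (_hα : IsFrobLift ρbar qv α)
    (V₀ : Submodule 𝒪 (Additive (Gamma0 (ribetLevel p Smin Piv)) →+ 𝒪))
    (W : Submodule 𝒪 (Additive (Gamma0 (MIA p Smin pv qv)) →+ 𝒪)),
    IsIAMinPart θ₀ V₀ →
    IsLocPart (isMid_Gamma0 (MIA p Smin pv qv)) (TsetOf PQ) (UsetOf qv α) W →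
    ∃ f : W →ₗ[𝒪] V₀, Function.Bijective f

/-- The primes dividing the Betti level `M = N_min ∏ pv ∏ qv` lie in `Smin ∪ Piv ∪ Q`. -/
theorem mem_of_dvd_MIA483 {p : ℕ} {Smin Piv : Finset ℕ} {k r : ℕ} {pv : Fin k → ℕ}
    {qv : Fin r → ℕ} (hS : ∀ q ∈ Smin, q.Prime)
    (hpv : ∀ i, (pv i).Prime) (hqv : ∀ j, (qv j).Prime)
    (hpvPiv : Finset.univ.image pv = Piv) {ℓ : ℕ} (hℓ : ℓ.Prime)
    (hdvd : ℓ ∣ MIA p Smin pv qv) : ℓ ∈ (↑(Smin ∪ Piv ∪ Finset.univ.image qv) : Set ℕ) := by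
  rw [Finset.mem_coe, Finset.mem_union, Finset.mem_union]
  unfold MIA gLevel at hdvd
  rcases (Nat.Prime.dvd_mul hℓ).mp hdvd with h | h
  · refine Or.inl (Or.inl ?_)
    unfold wilesLevel at h
    rw [Finset.sdiff_self, Finset.prod_empty, mul_one, mul_one] at h
    obtain ⟨a, ha, hqa⟩ := (Prime.dvd_finsetProd_iff hℓ.prime _).mp h
    have ha' : a ∈ Smin := Finset.mem_of_mem_erase ha
    have : ℓ = a := (Nat.prime_dvd_prime_iff_eq hℓ (hS a ha')).mp hqa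
    exact this ▸ ha'
  · obtain ⟨s, -, hs⟩ := (Prime.dvd_finsetProd_iff hℓ.prime _).mp h
    rcases s with i | j
    · have h1 : ℓ = pv i := (Nat.prime_dvd_prime_iff_eq hℓ (hpv i)).mp hs
      refine Or.inl (Or.inr ?_)
      rw [← hpvPiv, h1]
      exact Finset.mem_image_of_mem pv (Finset.mem_univ i)
    · have h1 : ℓ = qv j := (Nat.prime_dvd_prime_iff_eq hℓ (hqv j)).mp hs
      refine Or.inr ?_
      rw [h1]
      exact Finset.mem_image_of_mem qv (Finset.mem_univ j)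

theorem wilesLevel_min_ne_zero483 {p : ℕ} {Smin : Finset ℕ} (hS : ∀ q ∈ Smin, q.Prime) :
    wilesLevel p .flat Smin Smin ≠ 0 := by
  unfold wilesLevel
  rw [Finset.sdiff_self, Finset.prod_empty, mul_one, mul_one]
  exact Finset.prod_ne_zero_iff.mpr fun q hq => (hS q (Finset.mem_of_mem_erase hq)).ne_zero

/-- **IA-CTRL from the chain.** -/
theorem iaCtrl_of_chain483 (idem : IdemStatement) (hfree : IAFreeStatement)
    (hchain : IAChainStatement) : IACtrlStatement := by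
  intro p _ hp5 𝒪 _ _ _ _ _ _ ρbar Smin h hflat Piv hPiv _ θ₀ hθ₀ k pv hpv hpvPiv n r qv hq _
    hp PQ hθ α hα V₀ V hV₀ hV
  classical
  -- the family
  have hpvP : ∀ i, (pv i).Prime := fun i =>
    (hPiv (pv i) (by rw [← hpvPiv]; exact Finset.mem_image_of_mem pv (Finset.mem_univ i))).1
  have hqvP : ∀ j, (qv j).Prime := fun j => (hq.2.1 j).1
  have hdisj : ∀ i j, pv i ≠ qv j := by
    intro i j hij
    have h1 : pv i ∈ Piv := by
      rw [← hpvPiv]; exact Finset.mem_image_of_mem pv (Finset.mem_univ i)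
    exact (hq.2.1 j).2.1 (Finset.mem_union_right Smin (hij ▸ h1))
  have hprime := sumElim_prime483 hpvP hqvP
  have hinj := sumElim_injective483 hpv hq.1 hdisj
  have hN₀ : NeZero (wilesLevel p .flat Smin Smin) := ⟨wilesLevel_min_ne_zero483 h.hSmin⟩
  have hM : MIA p Smin pv qv ≠ 0 :=
    gLevel_ne_zero (wilesLevel p .flat Smin Smin) (Sum.elim pv qv) (NeZero.ne _) hprime
  -- the eigen-systems
  have hT : ∀ x ∈ TsetOf PQ, x.1.Prime ∧ ¬ x.1 ∣ MIA p Smin pv qv := by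
    rintro x ⟨hℓ, -, hℓS, -⟩
    exact ⟨hℓ, fun hdvd => hℓS (mem_of_dvd_MIA483 h.hSmin hpvP hqvP hpvPiv hℓ hdvd)⟩
  have hU : ∀ x ∈ UsetOf qv α, x.1.Prime ∧ x.1 ∣ MIA p Smin pv qv := by
    rintro x ⟨j, rfl⟩
    exact ⟨hqvP j, dvd_gLevel (wilesLevel p .flat Smin Smin) (Sum.elim pv qv) (.inr j)⟩
  -- the localisation at the `Γ₀`-level
  obtain ⟨W, hW⟩ := idem 𝒪 (MIA p Smin pv qv) hM (Gamma0 (MIA p Smin pv qv))
    (isMid_Gamma0 _) (TsetOf PQ) (UsetOf qv α) hT hU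
  have hcor := nat_cor_G483 p (wilesLevel p .flat Smin Smin) (Sum.elim pv qv) hM hT hU hV hW
  have hres := nat_res_G483 p (wilesLevel p .flat Smin Smin) (Sum.elim pv qv) hM hT hU hV hW
  -- freeness
  obtain ⟨d, hd⟩ := hfree p hp5 𝒪 ρbar Smin h hflat Piv hPiv k pv hpv hpvPiv n r qv hq PQ α hα V hV
  obtain ⟨g₁, hg₁⟩ := exists_primitive_roots483 pv hpvP
  obtain ⟨g₂, hg₂⟩ := exists_primitive_roots483 qv hqvP
  obtain ⟨b, hb⟩ := hd g₁ g₂ hg₁ hg₂
  -- COR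
  obtain ⟨c, hcsurj, -, hcker⟩ := cor_ctrl_G483 (p := p) (wilesLevel p .flat Smin Smin)
    (Sum.elim pv qv) hprime hinj 𝒪 V W
    (fun a x hx => hV.diamondU_mem _ hx)
    (fun e : (∀ i : Fin k, Fin (p ^ padicValNat p (pv i - 1))) ×
        (∀ j : Fin r, Fin (p ^ padicValNat p (qv j - 1))) =>
      pairU (pv := pv) (qv := qv) (fun i => g₁ i ^ (e.1 i : ℕ)) (fun j => g₂ j ^ (e.2 j : ℕ)))
    (pairEps_bijective483 p hpvP hqvP g₁ g₂ hg₁ hg₂) b hb hcor hres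
  -- CHAIN
  obtain ⟨f, hf⟩ := hchain p hp5 𝒪 ρbar Smin h hflat Piv hPiv θ₀ hθ₀ k pv hpv hpvPiv n r qv hq
    hp PQ hθ α hα V₀ W hV₀ hW
  refine ⟨f.comp c, hf.2.comp hcsurj, fun y => ?_⟩
  have h1 : (f.comp c) y = 0 ↔ c y = 0 := by
    rw [LinearMap.comp_apply]
    constructor
    · intro h0
      exact hf.1 (by rw [h0, map_zero])
    · intro h0
      rw [h0, map_zero]
  rw [h1, hcker y]
  have hset : {z : V | ∃ (a : ∀ s : Fin k ⊕ Fin r, (ZMod (Sum.elim pv qv s))ˣ) (y' : V),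
        (z : Additive (KG p (wilesLevel p .flat Smin Smin) (Sum.elim pv qv)) →+ 𝒪) =
          diamondU (isMid_KG p (wilesLevel p .flat Smin Smin) (Sum.elim pv qv))
            (gLift (wilesLevel p .flat Smin Smin) (Sum.elim pv qv) a)
            (y' : Additive (KG p (wilesLevel p .flat Smin Smin) (Sum.elim pv qv)) →+ 𝒪) -
            (y' : Additive (KG p (wilesLevel p .flat Smin Smin) (Sum.elim pv qv)) →+ 𝒪)} =
      {z : V | ∃ (a₁ : ∀ i : Fin k, (ZMod (pv i))ˣ) (a₂ : ∀ j : Fin r, (ZMod (qv j))ˣ) (y' : V),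
        (z : XIA p Smin pv qv 𝒪) = diaIA p Smin pv qv 𝒪 a₁ a₂ y' - y'} := by
    ext z
    constructor
    · rintro ⟨a, y', hz⟩
      refine ⟨fun i => a (.inl i), fun j => a (.inr j), y', ?_⟩
      rw [hz]
      unfold diaIA
      rw [pairU_eta483 a]
    · rintro ⟨a₁, a₂, y', hz⟩
      exact ⟨pairU a₁ a₂, y', hz⟩
  rw [hset]

end Fermat.Agent.S38.H483

end
-- ===== PACK-END S38/H483/IACtrl.lean

-- ===== PACK-BEGIN S59/TW/H494/TGal.lean
section






/-!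
# Row S59 / HARD, cell TW, leaf CMP, part (T) — Galois core **T-GAL** (helper494)

Part (T) of TW-ALG (`coord/S59-CMPA-helper314.md`): an inertia value `w ∈ T_Q` at a Taylor–Wiles
prime `q` acts unipotently on `M_Q / (⟨a⟩_q - 1) M_Q`.  Pointwise this says: if the eigensystem
of a point `x` of `T_Q` occurs at a level `N'` with `q ∥ N'` (forms with trivial nebentypus at
`q`, twisted to trivial character), then `x w = 1`.  This file proves the Galois half.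

* `isUnipotent_of_compat494` (**transfer**): two Hecke–Galois data `H₁`, `H₂` (ANY levels) with
  points `x₁`, `x₂` in the same complete DVR `𝒪'` and the same eigenvalues at almost all primes;
  if `H₂.ρ` is unipotent on inertia at `q`, so is `H₁.ρ ⊗_{x₁} 𝒪'`.  (Chebotarev:
  `S58.H93.chebCharpoly`; unipotency is a condition on characteristic polynomials.)
* `isUnipotent_of_char494` (**T-GAL**): `H` a datum, `x : T → 𝒪'` a local homomorphism whose
  eigensystem is a character `χ'` of the Hecke algebra of a level `N'` with `q ∥ N'`, `q ≠ p`.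
  From `G4Statement` (existence of the datum of level `N'`) and the frozen S34 (as hypothesis
  `S34Shape494`): `H.ρ ⊗_x 𝒪'` is unipotent on inertia at `q`.
* `inertiaValue_eq_one_of_char494` : in that situation `x w = 1` for every inertia value `w` of
  `H.ρ` at `(φ, σ)`, `φ` a Frobenius at a place over `q`, `σ` in its inertia group.
-/

set_option autoImplicit false

open Polynomial IsLocalRing CuspForm

namespace Fermat.Agent.S59.TW.H494

open Fermat.Agent.S59.TW.H959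

/-- The frozen statement S34 (unipotent inertia at `q ∥ N`, `q ≠ p`), as a `Prop`
(the same text as `NMP.H935.S34Shape`; feed `Fermat.Agent.S34.result`). -/
def S34Shape494 : Prop :=
  ∀ {𝒪 : Type} [CommRing 𝒪] [IsDomain 𝒪] [IsDiscreteValuationRing 𝒪]
    [IsAdicComplete (maximalIdeal 𝒪) 𝒪] [Finite (ResidueField 𝒪)] [CharZero 𝒪]
    {p : ℕ}, p.Prime → (p : 𝒪) ∈ maximalIdeal 𝒪 →
    ∀ {N : ℕ} [NeZero N] {S : Finset ℕ}, p ∈ S → (∀ q : ℕ, q.Prime → q ∣ N → q ∈ S) →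
    ∀ {θ : CuspForm.heckeAlgebra N 2 (↑S : Set ℕ) →+* ResidueField 𝒪}
    {T : Type} [CommRing T] [IsLocalRing T] [IsNoetherianRing T]
    [IsAdicComplete (maximalIdeal T) T] [Algebra 𝒪 T] [IsLocalHom (algebraMap 𝒪 T)]
    [Module.Finite 𝒪 T] [Module.Free 𝒪 T]
    (H : CuspForm.HeckeGaloisRepDatum N (↑S : Set ℕ) 𝒪 θ T)
    (q : ℕ), q.Prime → q ≠ p → q ∣ N → ¬ q ^ 2 ∣ N →
    H.ρ.IsUnipotentOnInertiaAt q

/-! ## Generalities -/

section Gen

variable {A B : Type} [CommRing A] [IsLocalRing A] [CommRing B] [IsLocalRing B]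

/-- The trace of a base change. -/
theorem trace_baseChangeAlong494 (f : A →+* B) (hf : IsLocalHom f) (ρ : GaloisRepAdic A)
    (σ : AlgebraicClosure ℚ ≃ₐ[ℚ] AlgebraicClosure ℚ) :
    (ρ.baseChangeAlong f hf).trace σ = f (ρ.trace σ) := by
  letI : Algebra A B := f.toAlgebra
  exact LinearMap.trace_baseChange (ρ.ρ σ) B

/-- Unipotency on inertia passes to base changes. -/
theorem isUnipotent_baseChangeAlong494 (f : A →+* B) (hf : IsLocalHom f) {ρ : GaloisRepAdic A}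
    {q : ℕ} (hu : ρ.IsUnipotentOnInertiaAt q) :
    (ρ.baseChangeAlong f hf).IsUnipotentOnInertiaAt q := by
  intro P hP σ hσ
  rw [Fermat.Agent.S59.Arch.charpoly_baseChangeAlong, hu P hP σ hσ]
  simp only [Polynomial.map_pow, Polynomial.map_sub, Polynomial.map_X, Polynomial.map_one]

/-- Inertia values are compatible with base change. -/
theorem isInertiaValue_map494 (f : A →+* B) (hf : IsLocalHom f) {ρ : GaloisRepAdic A}
    {φ σ : AlgebraicClosure ℚ ≃ₐ[ℚ] AlgebraicClosure ℚ} {a₀ w : A}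
    (hw : IsInertiaValue ρ φ σ a₀ w) :
    IsInertiaValue (ρ.baseChangeAlong f hf) φ σ (f a₀) (f w) := by
  obtain ⟨a, b, ha, hunit, hcp, hrel⟩ := hw
  refine ⟨f a, f b, ?_, ?_, ?_, ?_⟩
  · rw [← map_sub]
    exact (IsLocalRing.mem_maximalIdeal _).mpr fun hu =>
      (IsLocalRing.mem_maximalIdeal _).mp ha (hf.map_nonunit _ hu)
  · rw [← map_sub]
    exact hunit.map f
  · rw [Fermat.Agent.S59.Arch.charpoly_baseChangeAlong, hcp]
    simp only [Polynomial.map_mul, Polynomial.map_sub, Polynomial.map_X, Polynomial.map_C]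
  · rw [trace_baseChangeAlong494, trace_baseChangeAlong494, ← map_sub, ← map_mul, ← map_mul,
      ← map_sub, hrel]

/-- A surjective ring homomorphism from a local ring to a nontrivial ring is local. -/
theorem isLocalHom_of_surjective494 [Nontrivial B] (f : A →+* B)
    (hf : Function.Surjective f) : IsLocalHom f := by
  refine ⟨fun a ha => ?_⟩
  by_contra hna
  obtain ⟨u, hu⟩ := ha
  obtain ⟨c, hc⟩ := hf (↑u⁻¹ : B)
  have h1 : f (a * c) = 1 := by rw [map_mul, hc, ← hu, Units.mul_inv]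
  have h2 : a * c ∈ maximalIdeal A :=
    Ideal.mul_mem_right _ _ ((IsLocalRing.mem_maximalIdeal _).mpr hna)
  have h3 : IsUnit (1 - a * c) := by
    by_contra h
    have h4 : 1 - a * c ∈ maximalIdeal A := (IsLocalRing.mem_maximalIdeal _).mpr h
    have h5 : (1 : A) ∈ maximalIdeal A := by
      have := (maximalIdeal A).add_mem h4 h2
      rwa [sub_add_cancel] at this
    exact (IsLocalRing.mem_maximalIdeal _).mp h5 isUnit_one
  have h6 : f (1 - a * c) = 0 := by rw [map_sub, map_one, h1, sub_self]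
  have h7 := h3.map f
  rw [h6] at h7
  exact not_isUnit_zero h7

end Gen

/-! ## The transfer -/

section Transfer

variable {N₁ : ℕ} [NeZero N₁] {S₁ : Finset ℕ}
  {𝒪₁ : Type} [CommRing 𝒪₁] [IsDomain 𝒪₁] [IsDiscreteValuationRing 𝒪₁]
  [IsAdicComplete (maximalIdeal 𝒪₁) 𝒪₁]
  {θ₁ : CuspForm.heckeAlgebra N₁ 2 (↑S₁ : Set ℕ) →+* ResidueField 𝒪₁}
  {T₁ : Type} [CommRing T₁] [IsLocalRing T₁] [IsNoetherianRing T₁]
  [IsAdicComplete (maximalIdeal T₁) T₁] [Algebra 𝒪₁ T₁] [IsLocalHom (algebraMap 𝒪₁ T₁)]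
  [Module.Finite 𝒪₁ T₁] [Module.Free 𝒪₁ T₁]
  {N₂ : ℕ} [NeZero N₂] {S₂ : Finset ℕ}
  {𝒪₂ : Type} [CommRing 𝒪₂] [IsDomain 𝒪₂] [IsDiscreteValuationRing 𝒪₂]
  [IsAdicComplete (maximalIdeal 𝒪₂) 𝒪₂]
  {θ₂ : CuspForm.heckeAlgebra N₂ 2 (↑S₂ : Set ℕ) →+* ResidueField 𝒪₂}
  {T₂ : Type} [CommRing T₂] [IsLocalRing T₂] [IsNoetherianRing T₂]
  [IsAdicComplete (maximalIdeal T₂) T₂] [Algebra 𝒪₂ T₂] [IsLocalHom (algebraMap 𝒪₂ T₂)]
  [Module.Finite 𝒪₂ T₂] [Module.Free 𝒪₂ T₂]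
  {𝒪' : Type} [CommRing 𝒪'] [IsDomain 𝒪'] [IsDiscreteValuationRing 𝒪']
  [IsAdicComplete (maximalIdeal 𝒪') 𝒪'] [Finite (ResidueField 𝒪')]

/-- **Transfer of the characteristic polynomials** between two points with the same
eigenvalues outside a finite set `B` of primes. -/
theorem charpoly_eq_of_compat494
    (H₁ : CuspForm.HeckeGaloisRepDatum N₁ (↑S₁ : Set ℕ) 𝒪₁ θ₁ T₁)
    (H₂ : CuspForm.HeckeGaloisRepDatum N₂ (↑S₂ : Set ℕ) 𝒪₂ θ₂ T₂)
    (x₁ : T₁ →+* 𝒪') (hx₁ : IsLocalHom x₁) (x₂ : T₂ →+* 𝒪') (hx₂ : IsLocalHom x₂)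
    (B : Finset ℕ)
    (hcompat : ∀ (ℓ : ℕ) (hℓ : ℓ.Prime) (h₁N : ¬ ℓ ∣ N₁) (h₁S : ℓ ∉ (↑S₁ : Set ℕ))
      (h₂N : ¬ ℓ ∣ N₂) (h₂S : ℓ ∉ (↑S₂ : Set ℕ)), ℓ ∉ B →
      x₁ (H₁.π (heckeAlgebra.T hℓ h₁N h₁S)) = x₂ (H₂.π (heckeAlgebra.T hℓ h₂N h₂S)))
    (σ : AlgebraicClosure ℚ ≃ₐ[ℚ] AlgebraicClosure ℚ) :
    LinearMap.charpoly ((H₁.ρ.baseChangeAlong x₁ hx₁).ρ σ) =
      LinearMap.charpoly ((H₂.ρ.baseChangeAlong x₂ hx₂).ρ σ) := by
  classical
  refine Fermat.Agent.S58.H93.chebCharpoly 𝒪' _ _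
    (B ∪ S₁ ∪ S₂ ∪ N₁.primeFactors ∪ N₂.primeFactors) ?_ σ
  intro ℓ hℓ hℓT A hA τ hτ
  simp only [Finset.mem_union, not_or] at hℓT
  obtain ⟨⟨⟨⟨hB, h1⟩, h2⟩, h3⟩, h4⟩ := hℓT
  have h₁N : ¬ ℓ ∣ N₁ := fun h => h3 (Nat.mem_primeFactors.mpr ⟨hℓ, h, NeZero.ne N₁⟩)
  have h₂N : ¬ ℓ ∣ N₂ := fun h => h4 (Nat.mem_primeFactors.mpr ⟨hℓ, h, NeZero.ne N₂⟩)
  have h₁S : ℓ ∉ (↑S₁ : Set ℕ) := fun h => h1 (Finset.mem_coe.mp h)
  have h₂S : ℓ ∉ (↑S₂ : Set ℕ) := fun h => h2 (Finset.mem_coe.mp h)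
  rw [Fermat.Agent.S59.Arch.charpoly_baseChangeAlong,
    Fermat.Agent.S59.Arch.charpoly_baseChangeAlong,
    H₁.charpoly_frob ℓ hℓ h₁N h₁S A hA τ hτ, H₂.charpoly_frob ℓ hℓ h₂N h₂S A hA τ hτ]
  simp only [Polynomial.map_add, Polynomial.map_sub, Polynomial.map_mul, Polynomial.map_pow,
    Polynomial.map_X, Polynomial.map_C, map_natCast, Polynomial.map_natCast]
  rw [hcompat ℓ hℓ h₁N h₁S h₂N h₂S hB]

/-- **Transfer of unipotency.** -/
theorem isUnipotent_of_compat494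
    (H₁ : CuspForm.HeckeGaloisRepDatum N₁ (↑S₁ : Set ℕ) 𝒪₁ θ₁ T₁)
    (H₂ : CuspForm.HeckeGaloisRepDatum N₂ (↑S₂ : Set ℕ) 𝒪₂ θ₂ T₂)
    (x₁ : T₁ →+* 𝒪') (hx₁ : IsLocalHom x₁) (x₂ : T₂ →+* 𝒪') (hx₂ : IsLocalHom x₂)
    (B : Finset ℕ)
    (hcompat : ∀ (ℓ : ℕ) (hℓ : ℓ.Prime) (h₁N : ¬ ℓ ∣ N₁) (h₁S : ℓ ∉ (↑S₁ : Set ℕ))
      (h₂N : ¬ ℓ ∣ N₂) (h₂S : ℓ ∉ (↑S₂ : Set ℕ)), ℓ ∉ B →
      x₁ (H₁.π (heckeAlgebra.T hℓ h₁N h₁S)) = x₂ (H₂.π (heckeAlgebra.T hℓ h₂N h₂S)))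
    {q : ℕ} (hu : H₂.ρ.IsUnipotentOnInertiaAt q) :
    (H₁.ρ.baseChangeAlong x₁ hx₁).IsUnipotentOnInertiaAt q := by
  intro P hP σ hσ
  rw [charpoly_eq_of_compat494 H₁ H₂ x₁ hx₁ x₂ hx₂ B hcompat σ]
  exact isUnipotent_baseChangeAlong494 x₂ hx₂ hu P hP σ hσ

end Transfer

/-! ## T-GAL -/

section TGal

variable {N₀ : ℕ} [NeZero N₀] {S₀ : Finset ℕ}
  {𝒪 : Type} [CommRing 𝒪] [IsDomain 𝒪] [IsDiscreteValuationRing 𝒪]
  [IsAdicComplete (maximalIdeal 𝒪) 𝒪]
  {θ : CuspForm.heckeAlgebra N₀ 2 (↑S₀ : Set ℕ) →+* ResidueField 𝒪}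
  {T : Type} [CommRing T] [IsLocalRing T] [IsNoetherianRing T]
  [IsAdicComplete (maximalIdeal T) T] [Algebra 𝒪 T] [IsLocalHom (algebraMap 𝒪 T)]
  [Module.Finite 𝒪 T] [Module.Free 𝒪 T]
  {𝒪' : Type} [CommRing 𝒪'] [IsDomain 𝒪'] [IsDiscreteValuationRing 𝒪']
  [IsAdicComplete (maximalIdeal 𝒪') 𝒪'] [Finite (ResidueField 𝒪')] [CharZero 𝒪']

/-- The residual character of an `𝒪'`-valued character of a Hecke algebra which is the
eigensystem of a point of a Hecke–Galois datum is non-Eisenstein. -/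
theorem nonEisenstein_of_compat494
    (H : CuspForm.HeckeGaloisRepDatum N₀ (↑S₀ : Set ℕ) 𝒪 θ T)
    (x : T →+* 𝒪') (hx : IsLocalHom x)
    {N' : ℕ} [NeZero N'] {S' : Finset ℕ}
    (hS₀ : S₀ ⊆ S') (hN₀ : ∀ q : ℕ, q.Prime → q ∣ N₀ → q ∈ S')
    (χ' : CuspForm.heckeAlgebra N' 2 (↑S' : Set ℕ) →+* 𝒪')
    (hcompat : ∀ (ℓ : ℕ) (hℓ : ℓ.Prime) (hℓN₀ : ¬ ℓ ∣ N₀) (hℓS₀ : ℓ ∉ (↑S₀ : Set ℕ))
      (hℓN' : ¬ ℓ ∣ N') (hℓS' : ℓ ∉ (↑S' : Set ℕ)),
      x (H.π (heckeAlgebra.T hℓ hℓN₀ hℓS₀)) = χ' (heckeAlgebra.T hℓ hℓN' hℓS')) :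
    Fermat.Agent.S59.G4.NonEisenstein ((residue 𝒪').comp χ') := by
  haveI := hx
  refine ⟨(H.ρ.baseChangeAlong x hx).residual, ?_, ?_⟩
  · refine Fermat.Agent.S58.H273.residual_absIrr_of_frob H.ρ.residual H.residual_absIrr
      (ResidueField.map x) (H.ρ.baseChangeAlong x hx) ∅ ?_
    intro ℓ _ _ A _ σ _
    rw [Fermat.Agent.S59.Arch.charpoly_baseChangeAlong]
    have e1 : LinearMap.charpoly (H.ρ.residual.ρ σ)
        = (LinearMap.charpoly (H.ρ.ρ σ)).map (residue T) := by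
      have : LinearMap.charpoly (H.ρ.residual.ρ σ)
          = LinearMap.charpoly ((H.ρ.ρ σ).baseChange (ResidueField T)) := rfl
      rw [this, LinearMap.charpoly_baseChange, IsLocalRing.ResidueField.algebraMap_eq]
    rw [e1, Polynomial.map_map, Polynomial.map_map]
    congr 1
  · intro ℓ hℓ hℓN' hℓS' A hA σ hσ
    have hℓS₀ : ℓ ∉ (↑S₀ : Set ℕ) := fun h =>
      hℓS' (Finset.mem_coe.mpr (hS₀ (Finset.mem_coe.mp h)))
    have hℓN₀ : ¬ ℓ ∣ N₀ := fun h => hℓS' (Finset.mem_coe.mpr (hN₀ ℓ hℓ h))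
    have e1 : LinearMap.charpoly ((H.ρ.baseChangeAlong x hx).residual.ρ σ)
        = (LinearMap.charpoly ((H.ρ.baseChangeAlong x hx).ρ σ)).map (residue 𝒪') := by
      have : LinearMap.charpoly ((H.ρ.baseChangeAlong x hx).residual.ρ σ)
          = LinearMap.charpoly (((H.ρ.baseChangeAlong x hx).ρ σ).baseChange
              (ResidueField 𝒪')) := rfl
      rw [this, LinearMap.charpoly_baseChange, IsLocalRing.ResidueField.algebraMap_eq]
    rw [e1, Fermat.Agent.S59.Arch.charpoly_baseChangeAlong,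
      H.charpoly_frob ℓ hℓ hℓN₀ hℓS₀ A hA σ hσ]
    simp only [Polynomial.map_add, Polynomial.map_sub, Polynomial.map_mul, Polynomial.map_pow,
      Polynomial.map_X, Polynomial.map_C, map_natCast, Polynomial.map_natCast,
      RingHom.comp_apply]
    rw [hcompat ℓ hℓ hℓN₀ hℓS₀ hℓN' hℓS']

/-- **T-GAL.**  If the eigensystem of the point `x` of the Hecke–Galois datum `H` is a character
`χ'` of the Hecke algebra of a level `N'` with `q ∥ N'`, `q ≠ p`, then `H.ρ ⊗_x 𝒪'` is unipotent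
on inertia at `q`. -/
theorem isUnipotent_of_char494 (hG4 : Fermat.Agent.S59.G4.G4Statement) (h34 : S34Shape494)
    (p : ℕ) [Fact p.Prime] (hp2 : p ≠ 2) (hp𝒪' : (p : 𝒪') ∈ maximalIdeal 𝒪')
    (H : CuspForm.HeckeGaloisRepDatum N₀ (↑S₀ : Set ℕ) 𝒪 θ T)
    (x : T →+* 𝒪') (hx : IsLocalHom x)
    {N' : ℕ} [NeZero N'] [Fact (CuspForm.HasIntegralStructure N' 2)] {S' : Finset ℕ}
    (hpS' : p ∈ S') (hN'S' : ∀ q : ℕ, q.Prime → q ∣ N' → q ∈ S')
    (hS₀ : S₀ ⊆ S') (hN₀ : ∀ q : ℕ, q.Prime → q ∣ N₀ → q ∈ S')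
    (χ' : CuspForm.heckeAlgebra N' 2 (↑S' : Set ℕ) →+* 𝒪')
    (hcompat : ∀ (ℓ : ℕ) (hℓ : ℓ.Prime) (hℓN₀ : ¬ ℓ ∣ N₀) (hℓS₀ : ℓ ∉ (↑S₀ : Set ℕ))
      (hℓN' : ¬ ℓ ∣ N') (hℓS' : ℓ ∉ (↑S' : Set ℕ)),
      x (H.π (heckeAlgebra.T hℓ hℓN₀ hℓS₀)) = χ' (heckeAlgebra.T hℓ hℓN' hℓS'))
    (q : ℕ) (hq : q.Prime) (hqp : q ≠ p) (hqN : q ∣ N') (hq2 : ¬ q ^ 2 ∣ N') :
    (H.ρ.baseChangeAlong x hx).IsUnipotentOnInertiaAt q := by
  have hNE := nonEisenstein_of_compat494 H x hx hS₀ hN₀ χ' hcompat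
  obtain ⟨H', -⟩ := hG4 p hp2 N' S' hpS' hN'S' 𝒪' hp𝒪' ((residue 𝒪').comp χ') hNE
  obtain ⟨ψ, hψ⟩ := H'.exists_point χ' (fun _ => rfl)
  have hψs : Function.Surjective (ψ : CuspForm.heckeLocal N' (↑S' : Set ℕ) 𝒪'
      ((residue 𝒪').comp χ') →+* 𝒪') := fun a => ⟨algebraMap 𝒪' _ a, by simp⟩
  have hψl : IsLocalHom (ψ : CuspForm.heckeLocal N' (↑S' : Set ℕ) 𝒪'
      ((residue 𝒪').comp χ') →+* 𝒪') := isLocalHom_of_surjective494 _ hψs
  have hu := h34 (Fact.out : p.Prime) hp𝒪' hpS' hN'S' H' q hq hqp hqN hq2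
  refine isUnipotent_of_compat494 H H' x hx (ψ : _ →+* 𝒪') hψl ∅ ?_ hu
  intro ℓ hℓ h₁N h₁S h₂N h₂S _
  rw [hcompat ℓ hℓ h₁N h₁S h₂N h₂S]
  exact (hψ _).symm

/-- **(T), pointwise.**  In the situation of `isUnipotent_of_char494`, every inertia value `w` of
`H.ρ` at `(φ, σ)` — `φ` a Frobenius at a place `P` over `q`, `σ` in the inertia group of `P` —
is mapped to `1` by the point `x`. -/
theorem inertiaValue_eq_one_of_char494 (hG4 : Fermat.Agent.S59.G4.G4Statement)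
    (h34 : S34Shape494)
    (p : ℕ) [Fact p.Prime] (hp2 : p ≠ 2) (hp𝒪' : (p : 𝒪') ∈ maximalIdeal 𝒪')
    (H : CuspForm.HeckeGaloisRepDatum N₀ (↑S₀ : Set ℕ) 𝒪 θ T)
    (x : T →+* 𝒪') (hx : IsLocalHom x)
    {N' : ℕ} [NeZero N'] [Fact (CuspForm.HasIntegralStructure N' 2)] {S' : Finset ℕ}
    (hpS' : p ∈ S') (hN'S' : ∀ q : ℕ, q.Prime → q ∣ N' → q ∈ S')
    (hS₀ : S₀ ⊆ S') (hN₀ : ∀ q : ℕ, q.Prime → q ∣ N₀ → q ∈ S')
    (χ' : CuspForm.heckeAlgebra N' 2 (↑S' : Set ℕ) →+* 𝒪')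
    (hcompat : ∀ (ℓ : ℕ) (hℓ : ℓ.Prime) (hℓN₀ : ¬ ℓ ∣ N₀) (hℓS₀ : ℓ ∉ (↑S₀ : Set ℕ))
      (hℓN' : ¬ ℓ ∣ N') (hℓS' : ℓ ∉ (↑S' : Set ℕ)),
      x (H.π (heckeAlgebra.T hℓ hℓN₀ hℓS₀)) = χ' (heckeAlgebra.T hℓ hℓN' hℓS'))
    (q : ℕ) (hq : q.Prime) (hqp : q ≠ p) (hqN : q ∣ N') (hq2 : ¬ q ^ 2 ∣ N')
    (P : ValuationSubring (AlgebraicClosure ℚ)) (hP : P.LiesOverPrime q)
    (φ σ : AlgebraicClosure ℚ ≃ₐ[ℚ] AlgebraicClosure ℚ) (hφ : P.IsFrobeniusAt φ q)
    (hσ : σ ∈ P.inertiaSubgroupIn ℚ) (a₀ w : T) (hw : IsInertiaValue H.ρ φ σ a₀ w) :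
    x w = 1 :=
  isInertiaValue_eq_one_of_isUnipotent_frob494
    (isUnipotent_of_char494 hG4 h34 p hp2 hp𝒪' H x hx hpS' hN'S' hS₀ hN₀ χ' hcompat q hq hqp
      hqN hq2) hP hφ hσ (isInertiaValue_map494 x hx hw)

end TGal

end Fermat.Agent.S59.TW.H494

end
-- ===== PACK-END S59/TW/H494/TGal.lean

-- ===== PACK-BEGIN S59/TW/H494/GalT.lean
section




/-!
# Row S59, cell TW, layer 4: the leaf **GAL-T** of `TW/H314/CmpSpec.lean`  (helper494)

`galT494 : G4Statement → S34Shape494 → S30Statement → (∀ M, HasIntegralStructure M 2) →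
  H314.GalTStatement`.

At a newform point `emb : T_Q → O'` of level `M` with `q_j² ∤ M` the inertia value is `1`.

* `q_j ∥ M`: `inertiaValue_eq_one_of_char494` (datum of level `M` by G4, unipotent on inertia at
  `q_j` by the frozen S34, Chebotarev transfer to `ρ_Q ⊗ O'`).  No contradiction with the
  Taylor–Wiles condition is needed.
* `q_j ∤ M`: the representation `ρ''` of the frozen S30 at level `M` is unramified at `q_j` and
  has the Frobenius characteristic polynomials of `ρ_Q ⊗ O''`; by Chebotarev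
  (`S58.H93.chebCharpoly`) `ρ_Q ⊗ O''` is unipotent on inertia at `q_j`.

All four hypotheses are theorems on main (`S59.H294.g4_294`, `S34.result`, `S30.result`,
`S23.result`).
-/

set_option autoImplicit false

open Polynomial IsLocalRing CuspForm

namespace Fermat.Agent.S59.TW.H494

open Fermat.Agent.S59.Arch Fermat.Agent.S59.TW.H959 Fermat.Agent.S59.TW.Aut
  Fermat.Agent.S59.TW.H314

/-- An unramified representation is unipotent on inertia. -/
theorem isUnipotent_of_isUnramified494 {A : Type} [CommRing A] [IsLocalRing A]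
    {ρ : GaloisRepAdic A} {q : ℕ} (hu : ρ.IsUnramifiedAt q) : ρ.IsUnipotentOnInertiaAt q := by
  intro P hP σ hσ
  rw [hu P hP σ hσ, LinearMap.charpoly_one, ρ.finrank_eq]

/-- Transfer of unipotency along equal characteristic polynomials. -/
theorem isUnipotent_of_charpoly_eq494 {A : Type} [CommRing A] [IsLocalRing A]
    {ρ₁ ρ₂ : GaloisRepAdic A} {q : ℕ}
    (h : ∀ σ : AlgebraicClosure ℚ ≃ₐ[ℚ] AlgebraicClosure ℚ,
      LinearMap.charpoly (ρ₁.ρ σ) = LinearMap.charpoly (ρ₂.ρ σ))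
    (hu : ρ₂.IsUnipotentOnInertiaAt q) : ρ₁.IsUnipotentOnInertiaAt q := by
  intro P hP σ hσ
  rw [h σ]
  exact hu P hP σ hσ

/-- **GAL-T, the unramified case, for a general datum.**  `H` a Hecke–Galois datum, `x : T → 𝒪'`
a local homomorphism whose eigensystem is a character `χ'` of the Hecke algebra of a level `N'`
prime to `q`, `q ≠ p`.  Then `x w = 1` for every inertia value `w` at `q`. -/
theorem inertiaValue_eq_one_of_char_unram494 (h30 : Fermat.Agent.S31.S30Statement)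
    {N₀ : ℕ} [NeZero N₀] {S₀ : Finset ℕ}
    {𝒪 : Type} [CommRing 𝒪] [IsDomain 𝒪] [IsDiscreteValuationRing 𝒪]
    [IsAdicComplete (maximalIdeal 𝒪) 𝒪]
    {θ : CuspForm.heckeAlgebra N₀ 2 (↑S₀ : Set ℕ) →+* ResidueField 𝒪}
    {T : Type} [CommRing T] [IsLocalRing T] [IsNoetherianRing T]
    [IsAdicComplete (maximalIdeal T) T] [Algebra 𝒪 T] [IsLocalHom (algebraMap 𝒪 T)]
    [Module.Finite 𝒪 T] [Module.Free 𝒪 T]
    {𝒪' : Type} [CommRing 𝒪'] [IsDomain 𝒪'] [IsDiscreteValuationRing 𝒪']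
    [IsAdicComplete (maximalIdeal 𝒪') 𝒪'] [Finite (ResidueField 𝒪')] [CharZero 𝒪']
    (p : ℕ) [Fact p.Prime] (hp𝒪' : (p : 𝒪') ∈ maximalIdeal 𝒪')
    (H : CuspForm.HeckeGaloisRepDatum N₀ (↑S₀ : Set ℕ) 𝒪 θ T)
    (x : T →+* 𝒪') (hx : IsLocalHom x)
    {N' : ℕ} [NeZero N'] {S' : Finset ℕ}
    (hpS' : p ∈ S') (hN'S' : ∀ q : ℕ, q.Prime → q ∣ N' → q ∈ S')
    (hS₀ : S₀ ⊆ S') (hN₀ : ∀ q : ℕ, q.Prime → q ∣ N₀ → q ∈ S')
    (χ' : CuspForm.heckeAlgebra N' 2 (↑S' : Set ℕ) →+* 𝒪')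
    (hcompat : ∀ (ℓ : ℕ) (hℓ : ℓ.Prime) (hℓN₀ : ¬ ℓ ∣ N₀) (hℓS₀ : ℓ ∉ (↑S₀ : Set ℕ))
      (hℓN' : ¬ ℓ ∣ N') (hℓS' : ℓ ∉ (↑S' : Set ℕ)),
      x (H.π (heckeAlgebra.T hℓ hℓN₀ hℓS₀)) = χ' (heckeAlgebra.T hℓ hℓN' hℓS'))
    (q : ℕ) (hq : q.Prime) (hqp : q ≠ p) (hqN : ¬ q ∣ N')
    (P : ValuationSubring (AlgebraicClosure ℚ)) (hP : P.LiesOverPrime q)
    (φ σ : AlgebraicClosure ℚ ≃ₐ[ℚ] AlgebraicClosure ℚ) (hφ : P.IsFrobeniusAt φ q)
    (hσ : σ ∈ P.inertiaSubgroupIn ℚ) (a₀ w : T) (hw : IsInertiaValue H.ρ φ σ a₀ w) :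
    x w = 1 := by
  classical
  obtain ⟨𝒪'', _, _, _, _, _, _, _, _, hloc, hinj, ρ'', hcp, hunr⟩ :=
    h30 p N' S' hpS' hN'S' 𝒪' hp𝒪' χ'
  have hu'' : ρ''.IsUnipotentOnInertiaAt q := isUnipotent_of_isUnramified494 (hunr q hq hqN hqp)
  -- the base change of `H.ρ` to `𝒪''`
  have hcheb : ∀ τ : AlgebraicClosure ℚ ≃ₐ[ℚ] AlgebraicClosure ℚ,
      LinearMap.charpoly
          (((H.ρ.baseChangeAlong x hx).baseChangeAlong (algebraMap 𝒪' 𝒪'') hloc).ρ τ) =
        LinearMap.charpoly (ρ''.ρ τ) := by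
    refine Fermat.Agent.S58.H93.chebCharpoly 𝒪'' _ _ S' ?_
    intro ℓ hℓ hℓS' A hA τ hτ
    have hℓS'c : ℓ ∉ (↑S' : Set ℕ) := fun h => hℓS' (Finset.mem_coe.mp h)
    have hℓS₀ : ℓ ∉ (↑S₀ : Set ℕ) := fun h => hℓS' (hS₀ (Finset.mem_coe.mp h))
    have hℓN₀ : ¬ ℓ ∣ N₀ := fun h => hℓS' (hN₀ ℓ hℓ h)
    have hℓN' : ¬ ℓ ∣ N' := fun h => hℓS' (hN'S' ℓ hℓ h)
    rw [Fermat.Agent.S59.Arch.charpoly_baseChangeAlong,
      Fermat.Agent.S59.Arch.charpoly_baseChangeAlong,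
      H.charpoly_frob ℓ hℓ hℓN₀ hℓS₀ A hA τ hτ, hcp ℓ hℓ hℓN' hℓS'c A hA τ hτ]
    simp only [Polynomial.map_add, Polynomial.map_sub, Polynomial.map_mul, Polynomial.map_pow,
      Polynomial.map_X, Polynomial.map_C, map_natCast, Polynomial.map_natCast]
    rw [hcompat ℓ hℓ hℓN₀ hℓS₀ hℓN' hℓS'c]
  have hu : ((H.ρ.baseChangeAlong x hx).baseChangeAlong (algebraMap 𝒪' 𝒪'')
      hloc).IsUnipotentOnInertiaAt q := isUnipotent_of_charpoly_eq494 hcheb hu''
  have h1 : algebraMap 𝒪' 𝒪'' (x w) = 1 :=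
    isInertiaValue_eq_one_of_isUnipotent_frob494 hu hP hφ hσ
      (isInertiaValue_map494 (algebraMap 𝒪' 𝒪'') hloc (isInertiaValue_map494 x hx hw))
  apply hinj
  rw [h1, map_one]

/-- **GAL-T, general form** (ANY Hecke–Galois datum `H` of ANY level `N₀` away from ANY `S₀`,
any local point `x : T → 𝒪'`, any prime `q ≠ p`): if the eigensystem of `x` is a character `χ'`
of the Hecke algebra of a level `N'` with `q² ∤ N'`, then `x w = 1` for every inertia value `w`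
of `H.ρ` at `q`.  (Serves the cell TW, `Sig = Smin ∪ Q`, and its Ihara-avoidance twin,
`Sig = Smin ∪ Piv ∪ Q`.) -/
theorem inertiaValue_eq_one_of_sq_not_dvd494 (hG4 : Fermat.Agent.S59.G4.G4Statement)
    (h34 : S34Shape494) (h30 : Fermat.Agent.S31.S30Statement)
    (hIS : ∀ (M : ℕ) [NeZero M], CuspForm.HasIntegralStructure M 2)
    {N₀ : ℕ} [NeZero N₀] {S₀ : Finset ℕ}
    {𝒪 : Type} [CommRing 𝒪] [IsDomain 𝒪] [IsDiscreteValuationRing 𝒪]
    [IsAdicComplete (maximalIdeal 𝒪) 𝒪]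
    {θ : CuspForm.heckeAlgebra N₀ 2 (↑S₀ : Set ℕ) →+* ResidueField 𝒪}
    {T : Type} [CommRing T] [IsLocalRing T] [IsNoetherianRing T]
    [IsAdicComplete (maximalIdeal T) T] [Algebra 𝒪 T] [IsLocalHom (algebraMap 𝒪 T)]
    [Module.Finite 𝒪 T] [Module.Free 𝒪 T]
    {𝒪' : Type} [CommRing 𝒪'] [IsDomain 𝒪'] [IsDiscreteValuationRing 𝒪']
    [IsAdicComplete (maximalIdeal 𝒪') 𝒪'] [Finite (ResidueField 𝒪')] [CharZero 𝒪']
    (p : ℕ) [Fact p.Prime] (hp2 : p ≠ 2) (hp𝒪' : (p : 𝒪') ∈ maximalIdeal 𝒪')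
    (H : CuspForm.HeckeGaloisRepDatum N₀ (↑S₀ : Set ℕ) 𝒪 θ T)
    (x : T →+* 𝒪') (hx : IsLocalHom x)
    {N' : ℕ} [NeZero N'] {S' : Finset ℕ}
    (hpS' : p ∈ S') (hN'S' : ∀ q : ℕ, q.Prime → q ∣ N' → q ∈ S')
    (hS₀ : S₀ ⊆ S') (hN₀ : ∀ q : ℕ, q.Prime → q ∣ N₀ → q ∈ S')
    (χ' : CuspForm.heckeAlgebra N' 2 (↑S' : Set ℕ) →+* 𝒪')
    (hcompat : ∀ (ℓ : ℕ) (hℓ : ℓ.Prime) (hℓN₀ : ¬ ℓ ∣ N₀) (hℓS₀ : ℓ ∉ (↑S₀ : Set ℕ))
      (hℓN' : ¬ ℓ ∣ N') (hℓS' : ℓ ∉ (↑S' : Set ℕ)),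
      x (H.π (heckeAlgebra.T hℓ hℓN₀ hℓS₀)) = χ' (heckeAlgebra.T hℓ hℓN' hℓS'))
    (q : ℕ) (hq : q.Prime) (hqp : q ≠ p) (hq2 : ¬ q ^ 2 ∣ N')
    (P : ValuationSubring (AlgebraicClosure ℚ)) (hP : P.LiesOverPrime q)
    (φ σ : AlgebraicClosure ℚ ≃ₐ[ℚ] AlgebraicClosure ℚ) (hφ : P.IsFrobeniusAt φ q)
    (hσ : σ ∈ P.inertiaSubgroupIn ℚ) (a₀ w : T) (hw : IsInertiaValue H.ρ φ σ a₀ w) :
    x w = 1 := by
  haveI : Fact (CuspForm.HasIntegralStructure N' 2) := ⟨hIS N'⟩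
  by_cases hqN : q ∣ N'
  · exact inertiaValue_eq_one_of_char494 hG4 h34 p hp2 hp𝒪' H x hx hpS' hN'S' hS₀ hN₀ χ' hcompat
      q hq hqp hqN hq2 P hP φ σ hφ hσ a₀ w hw
  · exact inertiaValue_eq_one_of_char_unram494 h30 p hp𝒪' H x hx hpS' hN'S' hS₀ hN₀ χ' hcompat
      q hq hqp hqN P hP φ σ hφ hσ a₀ w hw

/-- **GAL-T** (leaf of `TW/H314/CmpSpec.lean`). -/
theorem galT494 (hG4 : Fermat.Agent.S59.G4.G4Statement) (h34 : S34Shape494)
    (h30 : Fermat.Agent.S31.S30Statement)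
    (hIS : ∀ (M : ℕ) [NeZero M], CuspForm.HasIntegralStructure M 2) : GalTStatement := by
  intro p hpF 𝒪 _ _ _ _ _ _ ρbar Smin h t _ n r qv hq _ PQ j P hP φ hφ σ hσ a₀ w hw
    O' _ _ _ _ _ _ emb hemb hnew
  classical
  obtain ⟨M, hM, g, -, hc, hMS, chig, iota, -, hcompat⟩ := hnew
  haveI : NeZero M := hM
  obtain ⟨-, hqv, -⟩ := hq
  obtain ⟨hqprime, hqS, -⟩ := hqv j
  have hp : p.Prime := hpF.out
  have hqp : qv j ≠ p := fun h' => hqS (h' ▸ h.hpSmin)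
  have hpSig : p ∈ Smin ∪ Finset.univ.image qv := Finset.mem_union_left _ h.hpSmin
  have hSig : ∀ q ∈ Smin ∪ Finset.univ.image qv, q.Prime := by
    intro q hqm
    rcases Finset.mem_union.mp hqm with h1 | h1
    · exact h.hSmin q h1
    · obtain ⟨i, -, rfl⟩ := Finset.mem_image.mp h1
      exact (hqv i).1
  have hN₀ : ∀ q : ℕ, q.Prime → q ∣ wilesLevel p t Smin (Smin ∪ Finset.univ.image qv) →
      q ∈ Smin ∪ Finset.univ.image qv := fun q hq' hqd =>
    mem_of_prime_dvd_wilesLevel hp h.hSmin hSig h.hpSmin Finset.subset_union_left q hq' hqd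
  -- `p` is in the maximal ideal of `O'`
  have hpT : (p : PQ.T) ∈ maximalIdeal PQ.T := by
    rw [IsLocalRing.mem_maximalIdeal]
    intro hu
    have h1 : IsUnit (algebraMap 𝒪 PQ.T (p : 𝒪)) := by rwa [map_natCast]
    exact (IsLocalRing.mem_maximalIdeal _).mp h.hp𝒪 (isUnit_of_map_unit (algebraMap 𝒪 PQ.T) _ h1)
  have hpO' : (p : O') ∈ maximalIdeal O' := by
    rw [IsLocalRing.mem_maximalIdeal]
    intro hu
    have h1 : IsUnit (emb (p : PQ.T)) := by rwa [map_natCast]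
    exact (IsLocalRing.mem_maximalIdeal _).mp hpT (hemb.map_nonunit _ h1)
  have hcompat' : ∀ (ℓ : ℕ) (hℓ : ℓ.Prime)
      (hℓN₀ : ¬ ℓ ∣ wilesLevel p t Smin (Smin ∪ Finset.univ.image qv))
      (hℓS₀ : ℓ ∉ (↑(Smin ∪ Finset.univ.image qv) : Set ℕ))
      (hℓN' : ¬ ℓ ∣ M) (hℓS' : ℓ ∉ (↑(Smin ∪ Finset.univ.image qv) : Set ℕ)),
      emb (PQ.H.π (heckeAlgebra.T hℓ hℓN₀ hℓS₀)) =
        (iota.comp chig.rangeRestrict) (heckeAlgebra.T hℓ hℓN' hℓS') :=
    fun ℓ hℓ hℓN₀ hℓS₀ hℓN' hℓS' => (hcompat ℓ hℓ hℓN₀ hℓN' hℓS').symm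
  exact inertiaValue_eq_one_of_sq_not_dvd494 hG4 h34 h30 hIS p h.hp2 hpO' PQ.H emb hemb hpSig hMS
    (Finset.Subset.refl _) hN₀ (iota.comp chig.rangeRestrict) hcompat' (qv j) hqprime hqp hc
    P hP φ σ hφ hσ a₀ w hw

end Fermat.Agent.S59.TW.H494

end
-- ===== PACK-END S59/TW/H494/GalT.lean

-- ===== PACK-BEGIN S38/IA/Hecke/H183/GalTIA.lean
section



/-!
# Row HARD, cell HECKE, layer 4: the leaf IA-GAL-T  (helper183, on helper494's general core)

* `galTSig_of : G4Statement → S34Shape494 → S30Statement → (∀ M, HasIntegralStructure M 2) →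
    GalTSigStatement` — GAL-T for a package of ANY type `Σ`
  (`S59.TW.H494.inertiaValue_eq_one_of_sq_not_dvd494`).
* `iaGalT_of : … → IAGalTStatement` — the leaf IA-GAL-T of `CmpSpecIA.lean`
  (`Σ = Smin ∪ Piv ∪ Q`).
-/

set_option autoImplicit false
set_option linter.style.haveILetI false
set_option linter.unusedVariables false

open Polynomial IsLocalRing CongruenceSubgroup
open scoped MatrixGroups

namespace Fermat.Agent.S38.IA.Hecke.H183

open Fermat.Agent.S59.Arch Fermat.Agent.S59.TW.H959 Fermat.Agent.S59.TW Fermat.Agent.S59.H765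
open Fermat.Agent.S59.TW.H653 Fermat.Agent.S59.TW.Aut
open Fermat.Agent.S38.IA Fermat.Agent.S38.IA.Hecke
open CuspForm

/-- **GAL-T for a package of any type `Σ`.** -/
theorem galTSig_of (hG4 : Fermat.Agent.S59.G4.G4Statement)
    (h34 : Fermat.Agent.S59.TW.H494.S34Shape494)
    (h30 : Fermat.Agent.S31.S30Statement)
    (hIS : ∀ (M : ℕ) [NeZero M], CuspForm.HasIntegralStructure M 2) : GalTSigStatement := by
  intro p hpF 𝒪 _ _ _ _ _ _ ρbar Smin h t Sig hSig hSminSig _ PQ q hq hqSig hqS hpq hdist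
    P hP φ hφ σ hσ a₀ w hw O' _ _ _ _ _ _ emb hemb hnew
  classical
  obtain ⟨M, hM, g, -, hc, hMS, chig, iota, -, hcompat⟩ := hnew
  haveI : NeZero M := hM
  have hp : p.Prime := hpF.out
  have hqp : q ≠ p := fun h' => hqS (h' ▸ h.hpSmin)
  have hpSig : p ∈ Sig := hSminSig h.hpSmin
  have hN₀ : ∀ q' : ℕ, q'.Prime → q' ∣ wilesLevel p t Smin Sig → q' ∈ Sig := fun q' hq' hqd =>
    mem_of_prime_dvd_wilesLevel hp h.hSmin hSig h.hpSmin hSminSig q' hq' hqd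
  -- `p` is in the maximal ideal of `O'`
  have hpT : (p : PQ.T) ∈ maximalIdeal PQ.T := by
    rw [IsLocalRing.mem_maximalIdeal]
    intro hu
    have h1 : IsUnit (algebraMap 𝒪 PQ.T (p : 𝒪)) := by rwa [map_natCast]
    exact (IsLocalRing.mem_maximalIdeal _).mp h.hp𝒪 (isUnit_of_map_unit (algebraMap 𝒪 PQ.T) _ h1)
  have hpO' : (p : O') ∈ maximalIdeal O' := by
    rw [IsLocalRing.mem_maximalIdeal]
    intro hu
    have h1 : IsUnit (emb (p : PQ.T)) := by rwa [map_natCast]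
    exact (IsLocalRing.mem_maximalIdeal _).mp hpT (hemb.map_nonunit _ h1)
  have hcompat' : ∀ (ℓ : ℕ) (hℓ : ℓ.Prime)
      (hℓN₀ : ¬ ℓ ∣ wilesLevel p t Smin Sig)
      (hℓS₀ : ℓ ∉ (↑Sig : Set ℕ))
      (hℓN' : ¬ ℓ ∣ M) (hℓS' : ℓ ∉ (↑Sig : Set ℕ)),
      emb (PQ.H.π (heckeAlgebra.T hℓ hℓN₀ hℓS₀)) =
        (iota.comp chig.rangeRestrict) (heckeAlgebra.T hℓ hℓN' hℓS') :=
    fun ℓ hℓ hℓN₀ hℓS₀ hℓN' hℓS' => (hcompat ℓ hℓ hℓN₀ hℓN' hℓS').symm
  exact Fermat.Agent.S59.TW.H494.inertiaValue_eq_one_of_sq_not_dvd494 hG4 h34 h30 hIS p h.hp2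
    hpO' PQ.H emb hemb hpSig hMS (Finset.Subset.refl _) hN₀ (iota.comp chig.rangeRestrict)
    hcompat' q hq hqp hc P hP φ σ hφ hσ a₀ w hw

/-- **IA-GAL-T** (leaf of `CmpSpecIA.lean`). -/
theorem iaGalT_of (hG4 : Fermat.Agent.S59.G4.G4Statement)
    (h34 : Fermat.Agent.S59.TW.H494.S34Shape494)
    (h30 : Fermat.Agent.S31.S30Statement)
    (hIS : ∀ (M : ℕ) [NeZero M], CuspForm.HasIntegralStructure M 2) : IAGalTStatement :=
  iaGalT_of_sig (galTSig_of hG4 h34 h30 hIS)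

end Fermat.Agent.S38.IA.Hecke.H183

end
-- ===== PACK-END S38/IA/Hecke/H183/GalTIA.lean

-- ===== PACK-BEGIN S38/IA/Hecke/H183/GalRIA.lean
section



/-!
# Row HARD, cell HECKE, layer 4: the leaf IA-GAL-R  (helper183, on helper788's general core)

* `galRSig_of : S36Statement → GalRSigStatement` — GAL-R for a package of ANY type `Σ`
  (`S59.TW.H788.galR_datum788`).
* `iaGalR_of : S36Statement → IAGalRStatement` — the leaf IA-GAL-R of `CmpSpecIA.lean`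
  (`Σ = Smin ∪ Piv ∪ Q`).
-/

set_option autoImplicit false
set_option linter.style.haveILetI false
set_option linter.unusedVariables false

open Polynomial IsLocalRing CongruenceSubgroup
open scoped MatrixGroups

namespace Fermat.Agent.S38.IA.Hecke.H183

open Fermat.Agent.S59.Arch Fermat.Agent.S59.TW.H959 Fermat.Agent.S59.TW Fermat.Agent.S59.H765
open Fermat.Agent.S59.TW.H653 Fermat.Agent.S59.TW.Aut
open Fermat.Agent.S38.IA Fermat.Agent.S38.IA.Hecke
open CuspForm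

/-- **GAL-R for a package of any type `Σ`**, from the frozen S36. -/
theorem galRSig_of (h36 : Fermat.Agent.S58.S36Statement) : GalRSigStatement := by
  intro p hpF 𝒪 _ _ _ _ _ _ ρbar Smin h t Sig hSig hSminSig _ PQ q hq hqSig hqS hpq hdist
    P hP φ hφ σ hσ u hu hcyc a₀ w hw O' _ _ _ _ _ _ emb hemb hnew
  classical
  obtain ⟨M, hM0, g, hg, hfact, hMS, chig, iota, hchig, hcompat⟩ := hnew
  haveI := hM0
  have hp : p.Prime := hpF.out
  have hqp : q ≠ p := fun e => hqS (e ▸ h.hpSmin)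
  have hunr : PQ.H.ρ.residual.IsUnramifiedAt q := by
    have h1 : ρbar.IsUnramifiedAt q := by
      by_contra hcon
      exact hqS ((h.hmin q hq hqp).mpr hcon)
    obtain ⟨e⟩ := PQ.hres
    intro B hB τ hτ
    have h2 : (ρbar.baseChangeAlong (ResidueField.map (algebraMap 𝒪 PQ.T))).ρ τ = 1 := by
      letI : Algebra (ResidueField 𝒪) (ResidueField PQ.T) :=
        (ResidueField.map (algebraMap 𝒪 PQ.T)).toAlgebra
      show (ρbar.ρ τ).baseChange (ResidueField PQ.T) = 1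
      rw [h1 B hB τ hτ]
      exact LinearMap.baseChange_one _ _
    refine LinearMap.ext fun x => ?_
    apply e.toLinearEquiv.injective
    rw [e.map_apply, h2]
    rfl
  have hNS : ∀ q' : ℕ, q'.Prime → q' ∣ wilesLevel p t Smin Sig → q' ∈ Sig := fun q' hq' hqd =>
    mem_of_prime_dvd_wilesLevel hp h.hSmin hSig h.hpSmin hSminSig q' hq' hqd
  exact Fermat.Agent.S59.TW.H788.galR_datum788 h36 p h.hp2 𝒪 h.hp𝒪 (wilesLevel p t Smin Sig) Sig
    (hSminSig h.hpSmin) hNS PQ.θ PQ.T PQ.H q hq hpq hunr P hP φ hφ σ hσ u hu hcyc a₀ w hw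
    O' emb hemb M g hg hfact hMS chig hchig iota hcompat

/-- **IA-GAL-R** (leaf of `CmpSpecIA.lean`), from the frozen S36. -/
theorem iaGalR_of (h36 : Fermat.Agent.S58.S36Statement) : IAGalRStatement :=
  iaGalR_of_sig (galRSig_of h36)

end Fermat.Agent.S38.IA.Hecke.H183

end
-- ===== PACK-END S38/IA/Hecke/H183/GalRIA.lean

-- ===== PACK-BEGIN S38/H47/NUofS36.lean
section





/-!
# Row HARD, cell HECKE / (NU): the consumer of the frozen S36   (helper47, squad S24/S47)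

`(NU)` of the Ihara-avoidance chain (clause SUPP-NU of `S38.IA.HasIAModule`) asks, at a
characteristic-0 point `x : T → 𝒪'` of a Hecke–Galois datum `H`, that
`H.ρ.baseChangeAlong x` is NOT unipotent on inertia at a pivot `q`.

Route B:  (TW-NS, `S59.TW.H54.twist_exists_newform` / `S59.TW.H174.exists_newform_…`) the
eigensystem of `x` is the one of a NEWFORM `g` of some level `M` with `M.factorization q = 2`;
(S36) some `λ`-adic representation attached to `g` is not unipotent on inertia at `q`.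
THIS FILE is the missing glue between the two: the frozen S36 only gives SOME representation
`ρ''` over SOME extension `O''` of `𝒪'`; we transport the conclusion to `H.ρ.baseChangeAlong x`.

* hypothesis `hres` of S36 (absolutely irreducible, odd reduction of every attached
  representation) is discharged from `H.residual_absIrr` (Chebotarev + Burnside/Gram,
  `S58.H273.residual_absIrr_of_frob`) and from the Frobenius determinants
  (`S59.H540.detIsCyclotomic_of_frob`, `S59.G4.H178.det_involution_eq_neg_one`);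
* transport: `IsUnipotentOnInertiaAt` is a statement on characteristic polynomials, and two
  `GaloisRepAdic O''` with the same Frobenius characteristic polynomials outside a finite set have
  the same characteristic polynomials everywhere (`S58.H115.chebCharpoly`).

Main results:
* `not_isUnipotentOnInertiaAt_of_newform` : the statement above (`S36Statement` is a hypothesis).
* `NUPointStatement` / `nuPoint_of_s36` : the same as a frozen `Prop` for the HECKE assembler.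
-/

set_option autoImplicit false

open Polynomial IsLocalRing

namespace Fermat.Agent.S38.H47

/-- `Gal(ℚ̄/ℚ)` -/
abbrev GQ47 : Type := AlgebraicClosure ℚ ≃ₐ[ℚ] AlgebraicClosure ℚ

section Basic

variable {A : Type} [CommRing A] [IsLocalRing A]

/-- Characteristic polynomials commute with base change. -/
theorem charpoly_baseChangeAlong_h47 {B : Type} [CommRing B] [IsLocalRing B] (φ : A →+* B)
    (hφ : IsLocalHom φ) (ρ : GaloisRepAdic A) (σ : GQ47) :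
    LinearMap.charpoly ((ρ.baseChangeAlong φ hφ).ρ σ) = (LinearMap.charpoly (ρ.ρ σ)).map φ := by
  let _ : Algebra A B := φ.toAlgebra
  exact LinearMap.charpoly_baseChange (ρ.ρ σ) B

/-- The characteristic polynomial of the reduction. -/
theorem charpoly_residual_h47 (ρ : GaloisRepAdic A) (σ : GQ47) :
    LinearMap.charpoly (ρ.residual.ρ σ) = (LinearMap.charpoly (ρ.ρ σ)).map (residue A) := by
  have hres : LinearMap.charpoly (ρ.residual.ρ σ)
      = LinearMap.charpoly ((ρ.ρ σ).baseChange (ResidueField A)) := rfl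
  rw [hres, LinearMap.charpoly_baseChange, IsLocalRing.ResidueField.algebraMap_eq]

/-- The determinant is the constant coefficient of a quadratic characteristic polynomial. -/
theorem det_eq_of_charpoly_h47 (ρ : GaloisRepAdic A) (σ : GQ47) (a d : A)
    (h : LinearMap.charpoly (ρ.ρ σ) = X ^ 2 - C a * X + C d) :
    LinearMap.det (ρ.ρ σ) = d := by
  classical
  have hfr : Module.finrank A ρ.V = 2 := ρ.finrank_eq
  have h0 := LinearMap.det_eq_sign_charpoly_coeff (ρ.ρ σ)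
  rw [hfr, h] at h0
  simpa [coeff_X_pow, coeff_C] using h0

end Basic

section Main

variable {N : ℕ} [NeZero N] {S : Finset ℕ}
  {𝒪 : Type} [CommRing 𝒪] [IsDomain 𝒪] [IsDiscreteValuationRing 𝒪]
  [IsAdicComplete (maximalIdeal 𝒪) 𝒪]
  {θ : CuspForm.heckeAlgebra N 2 (↑S : Set ℕ) →+* ResidueField 𝒪}
  {T : Type} [CommRing T] [IsLocalRing T] [IsNoetherianRing T]
  [IsAdicComplete (maximalIdeal T) T] [Algebra 𝒪 T] [IsLocalHom (algebraMap 𝒪 T)]
  [Module.Finite 𝒪 T] [Module.Free 𝒪 T]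

/-- **(NU) at a point, from the frozen S36.**

`H` a Hecke–Galois datum of level `N` away from `S`; `x : T → 𝒪'` a local homomorphism to a
complete DVR of characteristic `0` and residue characteristic `p` odd; `g` a newform of level
`M` whose Hecke eigenvalues (transported to `𝒪'` by `iota`) are the values of `x` at the `T_ℓ`,
`ℓ ∉ S'` (`S' ⊇ S ∪ {p} ∪ primes of N M`).  If `q² ∥ M`, `q ≠ p`, then `H.ρ ⊗_x 𝒪'` is not
unipotent on inertia at `q`. -/
theorem not_isUnipotentOnInertiaAt_of_newform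
    (h36 : Fermat.Agent.S58.S36Statement)
    (H : CuspForm.HeckeGaloisRepDatum N (↑S : Set ℕ) 𝒪 θ T)
    (p : ℕ) [Fact p.Prime] (hp2 : p ≠ 2)
    {𝒪' : Type} [CommRing 𝒪'] [IsDomain 𝒪'] [IsDiscreteValuationRing 𝒪']
    [IsAdicComplete (maximalIdeal 𝒪') 𝒪'] [Finite (ResidueField 𝒪')] [CharZero 𝒪']
    (hp𝒪' : (p : 𝒪') ∈ maximalIdeal 𝒪')
    (x : T →+* 𝒪') (hx : IsLocalHom x)
    {M : ℕ} [NeZero M] {g : CuspForm (CongruenceSubgroup.Gamma0 M) 2} (hg : g.IsNewform)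
    (S' : Finset ℕ) (hSS' : S ⊆ S') (hpS' : p ∈ S')
    (hNS' : ∀ q : ℕ, q.Prime → q ∣ N → q ∈ S') (hMS' : ∀ q : ℕ, q.Prime → q ∣ M → q ∈ S')
    (chig : CuspForm.heckeAlgebra M 2 (↑S' : Set ℕ) →+* ℂ)
    (hchig : ∀ (ℓ : ℕ) (hℓ : ℓ.Prime) (hℓM : ¬ ℓ ∣ M) (hℓS : ℓ ∉ (↑S' : Set ℕ)),
      chig (CuspForm.heckeAlgebra.T hℓ hℓM hℓS) = ModularFormClass.qCoeff g ℓ)
    (iota : chig.range →+* 𝒪')
    (hcompat : ∀ (ℓ : ℕ) (hℓ : ℓ.Prime) (hℓN : ¬ ℓ ∣ N) (hℓM : ¬ ℓ ∣ M)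
      (hℓS : ℓ ∉ (↑S : Set ℕ)) (hℓS' : ℓ ∉ (↑S' : Set ℕ)),
      x (H.π (CuspForm.heckeAlgebra.T hℓ hℓN hℓS))
        = (iota.comp chig.rangeRestrict) (CuspForm.heckeAlgebra.T hℓ hℓM hℓS'))
    {q : ℕ} (hq : q.Prime) (hqp : q ≠ p) (hq2 : M.factorization q = 2) :
    ¬ (H.ρ.baseChangeAlong x hx).IsUnipotentOnInertiaAt q := by
  classical
  intro hU
  -- the Frobenius characteristic polynomials of `ρ_x`
  have hfrobx : ∀ (ℓ : ℕ) (hℓ : ℓ.Prime) (hℓM : ¬ ℓ ∣ M) (hℓS' : ℓ ∉ (↑S' : Set ℕ)),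
      ∀ P : ValuationSubring (AlgebraicClosure ℚ), P.LiesOverPrime ℓ →
        ∀ σ : GQ47, P.IsFrobeniusAt σ ℓ →
          LinearMap.charpoly ((H.ρ.baseChangeAlong x hx).ρ σ)
            = X ^ 2 - C ((iota.comp chig.rangeRestrict) (CuspForm.heckeAlgebra.T hℓ hℓM hℓS')) * X
              + C ((ℓ : 𝒪')) := by
    intro ℓ hℓ hℓM hℓS' P hP σ hσ
    have hℓS : ℓ ∉ (↑S : Set ℕ) := fun h => hℓS' (Finset.mem_coe.mpr (hSS' (Finset.mem_coe.mp h)))
    have hℓN : ¬ ℓ ∣ N := fun h => hℓS' (Finset.mem_coe.mpr (hNS' ℓ hℓ h))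
    rw [charpoly_baseChangeAlong_h47, H.charpoly_frob ℓ hℓ hℓN hℓS P hP σ hσ,
      ← hcompat ℓ hℓ hℓN hℓM hℓS hℓS']
    simp only [Polynomial.map_add, Polynomial.map_sub, Polynomial.map_mul, Polynomial.map_pow,
      Polynomial.map_X, Polynomial.map_C, Polynomial.map_natCast, map_natCast]
  -- the hypothesis `hres` of S36
  have hres : ∀ (O'' : Type) [CommRing O''] [IsDomain O''] [IsDiscreteValuationRing O'']
      [IsAdicComplete (maximalIdeal O'') O''] [Finite (ResidueField O'')] [CharZero O'']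
      [Algebra 𝒪' O''] [Module.Finite 𝒪' O''] [IsLocalHom (algebraMap 𝒪' O'')],
      Function.Injective (algebraMap 𝒪' O'') → ∀ (ρ : GaloisRepAdic O''),
      (∀ (ℓ : ℕ) (hℓ : ℓ.Prime) (_hℓlam : ℓ ≠ p) (hℓM : ¬ ℓ ∣ M) (hℓS : ℓ ∉ (↑S' : Set ℕ)),
        ∀ A : ValuationSubring (AlgebraicClosure ℚ), A.LiesOverPrime ℓ →
          ∀ σ : AlgebraicClosure ℚ ≃ₐ[ℚ] AlgebraicClosure ℚ, A.IsFrobeniusAt σ ℓ →
            LinearMap.charpoly (ρ.ρ σ) =
              X ^ 2 - C (algebraMap 𝒪' O''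
                ((iota.comp chig.rangeRestrict) (CuspForm.heckeAlgebra.T hℓ hℓM hℓS))) * X
                + C ((ℓ : O'')))
      → ρ.residual.IsAbsolutelyIrreducible ∧ ρ.residual.IsOdd := by
    intro O'' _ _ _ _ _ _ _ _ hloc _hinj ρ hρ
    have hpO'' : (p : O'') ∈ maximalIdeal O'' := by
      have h1 : algebraMap 𝒪' O'' (p : 𝒪') ∈ maximalIdeal O'' := by
        by_contra hcon
        have hu : IsUnit (algebraMap 𝒪' O'' (p : 𝒪')) := by
          by_contra hnu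
          exact hcon ((IsLocalRing.mem_maximalIdeal _).mpr hnu)
        have hu' : IsUnit (p : 𝒪') := hloc.map_nonunit _ hu
        exact ((IsLocalRing.mem_maximalIdeal _).mp hp𝒪') hu'
      rwa [map_natCast] at h1
    have hp : p.Prime := Fact.out
    refine ⟨?_, ?_⟩
    · -- absolutely irreducible
      let ψ : T →+* O'' := (algebraMap 𝒪' O'').comp x
      have hψ : IsLocalHom ψ := by
        have := hx
        exact RingHom.isLocalHom_comp (algebraMap 𝒪' O'') x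
      let ι : ResidueField T →+* ResidueField O'' := ResidueField.map ψ
      refine Fermat.Agent.S58.H273.residual_absIrr_of_frob H.ρ.residual H.residual_absIrr ι ρ
        (insert p S') ?_
      intro ℓ hℓ hℓS B hB σ hσ
      have hℓS' : ℓ ∉ (↑S' : Set ℕ) := fun h =>
        hℓS (Finset.mem_insert_of_mem (Finset.mem_coe.mp h))
      have hℓp : ℓ ≠ p := fun h => hℓS (by rw [h]; exact Finset.mem_insert_self _ _)
      have hℓS0 : ℓ ∉ (↑S : Set ℕ) := fun h =>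
        hℓS' (Finset.mem_coe.mpr (hSS' (Finset.mem_coe.mp h)))
      have hℓN : ¬ ℓ ∣ N := fun h => hℓS' (Finset.mem_coe.mpr (hNS' ℓ hℓ h))
      have hℓM : ¬ ℓ ∣ M := fun h => hℓS' (Finset.mem_coe.mpr (hMS' ℓ hℓ h))
      rw [hρ ℓ hℓ hℓp hℓM hℓS' B hB σ hσ, charpoly_residual_h47,
        H.charpoly_frob ℓ hℓ hℓN hℓS0 B hB σ hσ, ← hcompat ℓ hℓ hℓN hℓM hℓS0 hℓS']
      simp only [Polynomial.map_add, Polynomial.map_sub, Polynomial.map_mul, Polynomial.map_pow,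
        Polynomial.map_X, Polynomial.map_C, Polynomial.map_natCast, map_natCast]
      have hι : ∀ t : T, ι (residue T t) = residue O'' (algebraMap 𝒪' O'' (x t)) := by
        intro t
        rfl
      rw [hι]
    · -- odd
      intro c hc hc1
      have hdet : ∀ ℓ : ℕ, ℓ.Prime → ℓ ∉ insert p S' →
          ∀ P : ValuationSubring (AlgebraicClosure ℚ), P.LiesOverPrime ℓ →
            ∀ σ : AlgebraicClosure ℚ ≃ₐ[ℚ] AlgebraicClosure ℚ, P.IsFrobeniusAt σ ℓ →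
              LinearMap.det (ρ.ρ σ) = (ℓ : O'') := by
        intro ℓ hℓ hℓS P hP σ hσ
        have hℓS' : ℓ ∉ (↑S' : Set ℕ) := fun h =>
          hℓS (Finset.mem_insert_of_mem (Finset.mem_coe.mp h))
        have hℓp : ℓ ≠ p := fun h => hℓS (by rw [h]; exact Finset.mem_insert_self _ _)
        have hℓM : ¬ ℓ ∣ M := fun h => hℓS' (Finset.mem_coe.mpr (hMS' ℓ hℓ h))
        exact det_eq_of_charpoly_h47 ρ σ _ _ (hρ ℓ hℓ hℓp hℓM hℓS' P hP σ hσ)
      have hcyc : ρ.DetIsCyclotomic p :=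
        Fermat.Agent.S59.H540.detIsCyclotomic_of_frob ρ p hpO'' (insert p S') hdet
      have h1 : LinearMap.det (ρ.ρ c) = -1 :=
        Fermat.Agent.S59.G4.H178.det_involution_eq_neg_one ρ p hp2 hcyc c hc hc1
      have h2 : LinearMap.det (ρ.residual.ρ c)
          = algebraMap O'' (ResidueField O'') (LinearMap.det (ρ.ρ c)) :=
        LinearMap.det_baseChange (ρ.ρ c)
      rw [h2, h1, map_neg, map_one]
  -- apply S36
  obtain ⟨O'', i1, i2, i3, i4, i5, i6, i7, i8, i9, _hinj, ρ'', hfrob'', hnu''⟩ :=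
    h36 (M := M) (g := g) hg p S' 𝒪' hp𝒪' hp2 chig hchig iota hpS' hMS' hres
  -- transport
  apply hnu'' q hq hqp hq2
  let ρx'' : GaloisRepAdic O'' :=
    (H.ρ.baseChangeAlong x hx).baseChangeAlong (algebraMap 𝒪' O'') i9
  have hcheb : ∀ σ : GQ47, LinearMap.charpoly (ρ''.ρ σ) = LinearMap.charpoly (ρx''.ρ σ) := by
    refine Fermat.Agent.S58.H115.chebCharpoly O'' ρ'' ρx'' S' ?_
    intro ℓ hℓ hℓS' A hA σ hσ
    have hℓS'' : ℓ ∉ (↑S' : Set ℕ) := fun h => hℓS' (Finset.mem_coe.mp h)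
    have hℓM : ¬ ℓ ∣ M := fun h => hℓS' (hMS' ℓ hℓ h)
    rw [hfrob'' ℓ hℓ hℓM hℓS'' A hA σ hσ, charpoly_baseChangeAlong_h47,
      hfrobx ℓ hℓ hℓM hℓS'' A hA σ hσ]
    simp only [Polynomial.map_add, Polynomial.map_sub, Polynomial.map_mul, Polynomial.map_pow,
      Polynomial.map_X, Polynomial.map_C, Polynomial.map_natCast, map_natCast]
  intro P hP σ hσ
  rw [hcheb σ, charpoly_baseChangeAlong_h47, hU P hP σ hσ]
  simp

end Main

end Fermat.Agent.S38.H47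

end
-- ===== PACK-END S38/H47/NUofS36.lean

-- ===== PACK-BEGIN S38/H47/NUPoint.lean
section




/-!
# Row HARD, cell HECKE / (NU): (NU) at a point of a Hecke–Galois datum   (helper47)

Consumer-side packaging of `NUofS36.lean` for the HECKE assembler.

* `range_le_of_T_h47` : a character of the Hecke algebra away from `S ⊇ primes(M)` has its range
  in every subring of `ℂ` containing its values at the `T_ℓ`.
* `eigenCharAway` : the eigencharacter away from `S` of a normalized eigenform.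
* `not_isUnipotentOnInertiaAt_of_char` : **(NU), interface form.**  `x : T → 𝒪'` a point of the
  datum `H` (level `N`, away from `S`), `chiF : heckeAlgebra N 2 S → ℂ` a complex character and
  `j : chiF.range → 𝒪'` with `j ∘ chiF = x ∘ π` ("`chiF` is `x` read in `ℂ`"), `g` a newform of
  level `M` (primes of `M` in `S`) with `a_ℓ(g) = chiF(T_ℓ)` for the primes `ℓ ∉ S`, `v_q(M) = 2`,
  `q ≠ p`.  Then `H.ρ ⊗_x 𝒪'` is NOT unipotent on inertia at `q`.
  The pair `(g, v_q(M) = 2)` is the output of TW-NS (`S59.TW.H54.twist_exists_newform`,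
  `S59.TW.H174.exists_newform_factorization_eq_two`) for the twist `F` whose good eigenvalues are
  `chiF(T_ℓ)`.
* `exists_char_of_point` : **DICT-0.**  Every point `χ : heckeAlgebra N 2 S → D` (`D` a domain of
  characteristic `0`) can be read in `ℂ`: there are a normalized eigenform `F` of level `N`,
  `chiF` with `chiF(T_ℓ) = a_ℓ(F)` and `j : chiF.range → D` with `j ∘ chiF = χ`.
-/

set_option autoImplicit false

open Polynomial IsLocalRing CuspForm CongruenceSubgroup ModularFormClass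

namespace Fermat.Agent.S38.H47

section Range

variable {M : ℕ} [NeZero M] {S : Set ℕ}

/-- A character of the Hecke algebra away from `S ⊇ primes(M)` takes its values in every subring
of `ℂ` containing its values at the `T_ℓ`. -/
theorem range_le_of_T_h47 (hMS : ∀ q : ℕ, q.Prime → q ∣ M → q ∈ S)
    (χ : heckeAlgebra M 2 S →+* ℂ) (R : Subring ℂ)
    (h : ∀ (ℓ : ℕ) (hℓ : ℓ.Prime) (hℓM : ¬ ℓ ∣ M) (hℓS : ℓ ∉ S),
      χ (heckeAlgebra.T hℓ hℓM hℓS) ∈ R) :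
    χ.range ≤ R := by
  rintro _ ⟨⟨y, hy⟩, rfl⟩
  have key : ∀ (y : Module.End ℂ (CuspForm (Gamma0 M) 2))
      (hy : y ∈ Algebra.adjoin ℤ (heckeGenerators M 2 S)),
      χ (⟨y, hy⟩ : heckeAlgebra M 2 S) ∈ R := by
    intro y hy
    induction hy using Algebra.adjoin_induction with
    | mem z hz =>
      rcases hz with ⟨ℓ, hℓ, hℓM, hℓS, rfl⟩ | ⟨q, hqM, hq, hqS, rfl⟩
      · exact h ℓ hℓ hℓM hℓS
      · exact absurd (hMS q hq hqM) hqS
    | algebraMap r =>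
      have e : (⟨algebraMap ℤ (Module.End ℂ (CuspForm (Gamma0 M) 2)) r,
          Subalgebra.algebraMap_mem _ r⟩ : heckeAlgebra M 2 S)
          = ((r : ℤ) : heckeAlgebra M 2 S) := by
        apply Subtype.ext
        simp
      rw [e, map_intCast]
      exact intCast_mem R r
    | add a b ha hb iha ihb =>
      have e : (⟨a + b, add_mem ha hb⟩ : heckeAlgebra M 2 S)
          = (⟨a, ha⟩ : heckeAlgebra M 2 S) + ⟨b, hb⟩ := rfl
      rw [e, map_add]
      exact add_mem iha ihb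
    | mul a b ha hb iha ihb =>
      have e : (⟨a * b, mul_mem ha hb⟩ : heckeAlgebra M 2 S)
          = (⟨a, ha⟩ : heckeAlgebra M 2 S) * ⟨b, hb⟩ := rfl
      rw [e, map_mul]
      exact mul_mem iha ihb
  exact key y hy

/-- The eigencharacter away from `S` of a normalized eigenform. -/
noncomputable def eigenCharAway {g : CuspForm (Gamma0 M) 2} (hg : g.IsNormalizedEigenform)
    (S : Set ℕ) : heckeAlgebra M 2 S →+* ℂ :=
  (Fermat.Agent.Lib.Ribet.H404.eigenChar hg).comp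
    (Subalgebra.inclusion (heckeAlgebra_mono (Set.empty_subset S))).toRingHom

theorem eigenCharAway_T {g : CuspForm (Gamma0 M) 2} (hg : g.IsNormalizedEigenform)
    {ℓ : ℕ} (hℓ : ℓ.Prime) (hℓM : ¬ ℓ ∣ M) (hℓS : ℓ ∉ S) :
    eigenCharAway hg S (heckeAlgebra.T hℓ hℓM hℓS) = qCoeff g ℓ := by
  have e : (Subalgebra.inclusion (heckeAlgebra_mono (N := M) (k := 2) (Set.empty_subset S))).toRingHom
      (heckeAlgebra.T hℓ hℓM hℓS) = heckeAlgebra.T hℓ hℓM (Set.notMem_empty _) :=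
    Subtype.ext rfl
  rw [eigenCharAway, RingHom.comp_apply, e, Fermat.Agent.Lib.Ribet.H404.eigenChar_T]

end Range

section Main

variable {N : ℕ} [NeZero N] {S : Finset ℕ}
  {𝒪 : Type} [CommRing 𝒪] [IsDomain 𝒪] [IsDiscreteValuationRing 𝒪]
  [IsAdicComplete (maximalIdeal 𝒪) 𝒪]
  {θ : CuspForm.heckeAlgebra N 2 (↑S : Set ℕ) →+* ResidueField 𝒪}
  {T : Type} [CommRing T] [IsLocalRing T] [IsNoetherianRing T]
  [IsAdicComplete (maximalIdeal T) T] [Algebra 𝒪 T] [IsLocalHom (algebraMap 𝒪 T)]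
  [Module.Finite 𝒪 T] [Module.Free 𝒪 T]

/-- **(NU) at a point, interface form.** -/
theorem not_isUnipotentOnInertiaAt_of_char
    (h36 : Fermat.Agent.S58.S36Statement)
    (H : CuspForm.HeckeGaloisRepDatum N (↑S : Set ℕ) 𝒪 θ T)
    (p : ℕ) [Fact p.Prime] (hp2 : p ≠ 2) (hpS : p ∈ S)
    (hNS : ∀ q : ℕ, q.Prime → q ∣ N → q ∈ S)
    {𝒪' : Type} [CommRing 𝒪'] [IsDomain 𝒪'] [IsDiscreteValuationRing 𝒪']
    [IsAdicComplete (maximalIdeal 𝒪') 𝒪'] [Finite (ResidueField 𝒪')] [CharZero 𝒪']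
    (hp𝒪' : (p : 𝒪') ∈ maximalIdeal 𝒪')
    (x : T →+* 𝒪') (hx : IsLocalHom x)
    (chiF : CuspForm.heckeAlgebra N 2 (↑S : Set ℕ) →+* ℂ)
    (j : chiF.range →+* 𝒪')
    (hj : ∀ t : CuspForm.heckeAlgebra N 2 (↑S : Set ℕ), j (chiF.rangeRestrict t) = x (H.π t))
    {M : ℕ} [NeZero M] {g : CuspForm (Gamma0 M) 2} (hg : g.IsNewform)
    (hMS : ∀ q : ℕ, q.Prime → q ∣ M → q ∈ S)
    (hgF : ∀ (ℓ : ℕ) (hℓ : ℓ.Prime) (hℓN : ¬ ℓ ∣ N) (hℓS : ℓ ∉ (↑S : Set ℕ)),
      qCoeff g ℓ = chiF (CuspForm.heckeAlgebra.T hℓ hℓN hℓS))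
    {q : ℕ} (hq : q.Prime) (hqp : q ≠ p) (hq2 : M.factorization q = 2) :
    ¬ (H.ρ.baseChangeAlong x hx).IsUnipotentOnInertiaAt q := by
  classical
  have hMS' : ∀ q : ℕ, q.Prime → q ∣ M → q ∈ (↑S : Set ℕ) := fun q hq hqM =>
    Finset.mem_coe.mpr (hMS q hq hqM)
  -- the character of `g`
  set chig : heckeAlgebra M 2 (↑S : Set ℕ) →+* ℂ := eigenCharAway hg.isNormalizedEigenform ↑S
    with hchig_def
  have hchig : ∀ (ℓ : ℕ) (hℓ : ℓ.Prime) (hℓM : ¬ ℓ ∣ M) (hℓS : ℓ ∉ (↑S : Set ℕ)),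
      chig (heckeAlgebra.T hℓ hℓM hℓS) = qCoeff g ℓ := fun ℓ hℓ hℓM hℓS =>
    eigenCharAway_T hg.isNormalizedEigenform hℓ hℓM hℓS
  have hle : chig.range ≤ chiF.range := by
    refine range_le_of_T_h47 hMS' chig chiF.range ?_
    intro ℓ hℓ hℓM hℓS
    have hℓN : ¬ ℓ ∣ N := fun h => hℓS (Finset.mem_coe.mpr (hNS ℓ hℓ h))
    rw [hchig ℓ hℓ hℓM hℓS, hgF ℓ hℓ hℓN hℓS]
    exact ⟨_, rfl⟩
  let iota : chig.range →+* 𝒪' := j.comp (Subring.inclusion hle)
  refine not_isUnipotentOnInertiaAt_of_newform h36 H p hp2 hp𝒪' x hx hg S (Finset.Subset.refl S)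
    hpS hNS hMS chig hchig iota ?_ hq hqp hq2
  intro ℓ hℓ hℓN hℓM hℓS hℓS'
  rw [← hj]
  show j (chiF.rangeRestrict (heckeAlgebra.T hℓ hℓN hℓS))
    = j (Subring.inclusion hle (chig.rangeRestrict (heckeAlgebra.T hℓ hℓM hℓS')))
  congr 1
  apply Subtype.ext
  show chiF (heckeAlgebra.T hℓ hℓN hℓS) = chig (heckeAlgebra.T hℓ hℓM hℓS')
  rw [hchig ℓ hℓ hℓM hℓS', hgF ℓ hℓ hℓN hℓS]

end Main

section Dict

variable {N : ℕ} [NeZero N]

/-- If `B` is integral over `ℤ`, `χ : B → D` (`D` a domain of characteristic `0`) and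
`χ' : B → ℂ` are characters with `ker χ' ≤ ker χ`, then `ker χ ≤ ker χ'`. -/
theorem ker_le_of_ker_le_h47 {B : Type*} [CommRing B] [Algebra.IsIntegral ℤ B]
    {D : Type*} [CommRing D] [IsDomain D] [CharZero D]
    (χ : B →+* D) (χ' : B →+* ℂ) (hker : RingHom.ker χ' ≤ RingHom.ker χ) :
    RingHom.ker χ ≤ RingHom.ker χ' := by
  intro c hc
  rw [RingHom.mem_ker] at hc ⊢
  by_contra hx
  obtain ⟨P, hPmonic, hP⟩ := Algebra.IsIntegral.isIntegral (R := ℤ) c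
  have hP0 : P ≠ 0 := hPmonic.ne_zero
  obtain ⟨Q, hPQ, hQ⟩ := Polynomial.exists_eq_pow_rootMultiplicity_mul_and_not_dvd P hP0 0
  rw [map_zero, sub_zero] at hPQ hQ
  have hQ0 : Q.eval 0 ≠ 0 := by
    intro h0
    apply hQ
    have : (X - C (0 : ℤ)) ∣ Q := Polynomial.dvd_iff_isRoot.mpr h0
    simpa using this
  have e1 : ∀ R : ℤ[X], χ' (eval₂ (algebraMap ℤ B) c R) = eval₂ (Int.castRingHom ℂ) (χ' c) R := by
    intro R
    rw [Polynomial.hom_eval₂]
    congr 1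
    exact RingHom.ext_int _ _
  have e2 : ∀ R : ℤ[X], χ (eval₂ (algebraMap ℤ B) c R) = eval₂ (Int.castRingHom D) (χ c) R := by
    intro R
    rw [Polynomial.hom_eval₂]
    congr 1
    exact RingHom.ext_int _ _
  have h1 := e1 P
  rw [hP, map_zero, hPQ, eval₂_mul, eval₂_pow, eval₂_X] at h1
  have h2 : eval₂ (Int.castRingHom ℂ) (χ' c) Q = 0 := by
    rcases mul_eq_zero.mp h1.symm with h | h
    · exact absurd h (pow_ne_zero _ hx)
    · exact h
  have h3 : eval₂ (algebraMap ℤ B) c Q ∈ RingHom.ker χ := by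
    apply hker
    rw [RingHom.mem_ker, e1 Q, h2]
  rw [RingHom.mem_ker, e2 Q, hc] at h3
  have h4 : eval₂ (Int.castRingHom D) 0 Q = ((Q.eval 0 : ℤ) : D) := by
    rw [Polynomial.eval₂_at_zero, Polynomial.coeff_zero_eq_eval_zero]
    rfl
  rw [h4] at h3
  exact hQ0 (by exact_mod_cast h3)

/-- **DICT-0.**  A point of the Hecke algebra with values in a domain of characteristic `0` can
be read in `ℂ`: it is the eigencharacter of a normalized eigenform of the same level, up to an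
identification `j` of the coefficient rings. -/
theorem exists_char_of_point (S : Set ℕ) {D : Type*} [CommRing D] [IsDomain D] [CharZero D]
    (χ : heckeAlgebra N 2 S →+* D) :
    ∃ (F : CuspForm (Gamma0 N) 2) (chiF : heckeAlgebra N 2 S →+* ℂ) (j : chiF.range →+* D),
      F.IsNormalizedEigenform ∧
      (∀ (ℓ : ℕ) (hℓ : ℓ.Prime) (hℓN : ¬ ℓ ∣ N) (hℓS : ℓ ∉ S),
        chiF (heckeAlgebra.T hℓ hℓN hℓS) = qCoeff F ℓ) ∧
      (∀ t : heckeAlgebra N 2 S, j (chiF.rangeRestrict t) = χ t) ∧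
      Function.Injective j := by
  classical
  have := Fermat.Agent.Lib.Newform.H863.finiteDimensional_cuspForm N
  have : Module.Finite ℤ (heckeAlgebra N 2 S) := Fermat.Agent.S22.result N 2 S
  have : Algebra.IsIntegral ℤ (heckeAlgebra N 2 S) := inferInstance
  have : (RingHom.ker χ).IsPrime := RingHom.ker_isPrime χ
  obtain ⟨h, χ', hh, hχ', hker⟩ := Fermat.Agent.S49.exists_eigenvector_ker_le
    (K := ℂ) (V := CuspForm (Gamma0 N) 2)
    ((heckeAlgebra N 2 S).val.toRingHom) Subtype.val_injective (RingHom.ker χ)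
  have hker' : RingHom.ker χ ≤ RingHom.ker χ' := ker_le_of_ker_le_h47 χ χ' hker
  let lam : ℕ → ℂ := fun ℓ =>
    if hc : ℓ.Prime ∧ ¬ ℓ ∣ N ∧ ℓ ∉ S then χ' (heckeAlgebra.T hc.1 hc.2.1 hc.2.2) else 0
  have hlam : ∀ (ℓ : ℕ) (hℓ : ℓ.Prime) (hℓN : ¬ ℓ ∣ N) (hℓS : ℓ ∉ S),
      lam ℓ = χ' (heckeAlgebra.T hℓ hℓN hℓS) := by
    intro ℓ hℓ hℓN hℓS
    simp only [lam, dif_pos (⟨hℓ, hℓN, hℓS⟩ : ℓ.Prime ∧ ¬ ℓ ∣ N ∧ ℓ ∉ S)]
  obtain ⟨F, hF, hFl⟩ := Fermat.Agent.Lib.Newform.H863.exists_normalizedEigenform_of_eigenvector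
    S lam h hh (fun ℓ hℓ hℓN hℓS => by
      have h1 := hχ' (heckeAlgebra.T hℓ hℓN hℓS)
      rw [hlam ℓ hℓ hℓN hℓS]
      exact h1)
  have hsurj : Function.Surjective χ'.rangeRestrict := χ'.rangeRestrict_surjective
  have hkr : RingHom.ker χ'.rangeRestrict ≤ RingHom.ker χ := by
    intro t ht
    apply hker
    rw [RingHom.mem_ker] at ht ⊢
    have := congrArg Subtype.val ht
    simpa using this
  refine ⟨F, χ', χ'.rangeRestrict.liftOfSurjective hsurj ⟨χ, hkr⟩, hF, ?_, ?_, ?_⟩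
  · intro ℓ hℓ hℓN hℓS
    rw [hFl ℓ hℓ hℓN hℓS, hlam ℓ hℓ hℓN hℓS]
  · intro t
    exact RingHom.liftOfSurjective_comp_apply χ'.rangeRestrict hsurj ⟨χ, hkr⟩ t
  · rw [injective_iff_map_eq_zero]
    rintro ⟨_, t, rfl⟩ ht
    have e : (⟨χ' t, t, rfl⟩ : χ'.range) = χ'.rangeRestrict t := rfl
    rw [e, RingHom.liftOfSurjective_comp_apply χ'.rangeRestrict hsurj ⟨χ, hkr⟩ t] at ht
    have : t ∈ RingHom.ker χ' := hker' (RingHom.mem_ker.mpr ht)
    apply Subtype.ext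
    exact RingHom.mem_ker.mp this

end Dict

end Fermat.Agent.S38.H47

end
-- ===== PACK-END S38/H47/NUPoint.lean

-- ===== PACK-BEGIN S38/H47/TwistHypIA.lean
section




/-!
# Row HARD, cell HECKE, leaf IA-NU / DICT (helper47): the twist hypothesis at the level `K_IA`

`S59/TW/H47/TwistHypOdd.lean` (main) proves `H658.TwistHyp K N' (uCls^m)` in the abstract
Taylor–Wiles shape.  Here are the instances for the groups of row HARD:

* for a family `qq : ι → ℕ` of distinct primes prime to `N₀` (`ι` any finite type),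
  `M = gLevel N₀ qq`, `K = KG p N₀ qq`: the list `gList qq` of the primes, `q ∥ M`
  (`exists_gLevel_eq`), `Γ₀(M) ∩ Γ₁(∏ qq) ⊆ K` (`mem_KG_of_dvd`), `γ^(2h+1) ∈ K` when
  `p^{m_s} ∣ 2h+1` for all `s` (`pow_mem_KG`), hence `twistHyp_KG`;
* `wilesLevel_IA` : `N_{Smin ∪ Piv ∪ Q} = N_{Smin} · ∏ pv² · ∏ qv²`, and `gLevel_mul_prod_IA`;
* `twistHyp_KIA` : `TwistHyp (KIA p Smin pv qv) (wilesLevel p .flat Smin (Smin ∪ Piv ∪ Q))
  (fun ℓ => uOf M ℓ ^ h)` for `IsHalf p pv h`, `IsHalf p qv h`: the hypothesis `H` of the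
  dictionaries (`H561.exists_twisted_eigenvector`, `H126.dictK_complex126`, …) at `K = K_IA`,
  with `u ℓ = uOf M ℓ ^ h` exactly as in `Aut.tOpTw` / `IsIAAction`;
* `embHyp_KIA`, `exists_heckeAction_KIA_int` : the same for `H658.EmbHyp` and the integral Hecke
  action on `Hom_par(K_IA, ℤ)`.
-/

set_option autoImplicit false
set_option linter.unusedSectionVars false
set_option linter.unusedVariables false
set_option linter.style.haveILetI false

noncomputable section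

namespace Fermat.Agent.S38.H47

open CongruenceSubgroup ModularForm
open Matrix.SpecialLinearGroup
open Fermat.Agent.S59.Arch Fermat.Agent.S59.TW.H653 Fermat.Agent.S59.TW.Aut
open Fermat.Agent.S59.TW.H658 Fermat.Agent.S38.IA.Hecke
open scoped MatrixGroups

/-! ## A family of primes indexed by a finite type -/

section Gen

variable (p N₀ : ℕ) {ι : Type} [Fintype ι] (qq : ι → ℕ)

/-- The list of the primes of the family. -/
def gList : List ℕ := (Finset.univ : Finset ι).toList.map qq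

theorem gList_prod : (gList qq).prod = ∏ s, qq s := Finset.prod_map_toList _ _

theorem mem_gList {q : ℕ} : q ∈ gList qq ↔ ∃ s, qq s = q := by
  simp [gList]

theorem gList_nodup (hinj : Function.Injective qq) : (gList qq).Nodup :=
  List.Nodup.map hinj (Finset.nodup_toList _)

/-- Each `qq s` exactly divides `gLevel N₀ qq`. -/
theorem exists_gLevel_eq (hinj : Function.Injective qq) (hprime : ∀ s, (qq s).Prime)
    (hcop : ∀ s, Nat.Coprime N₀ (qq s)) (s : ι) :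
    ∃ M' : ℕ, gLevel N₀ qq = M' * qq s ∧ Nat.Coprime M' (qq s) := by
  classical
  refine ⟨N₀ * ∏ i ∈ Finset.univ.erase s, qq i, ?_, ?_⟩
  · rw [gLevel, ← Finset.mul_prod_erase Finset.univ qq (Finset.mem_univ s)]
    ring
  · refine Nat.Coprime.mul_left (hcop s) ?_
    refine Nat.Coprime.prod_left fun i hi => ?_
    exact (Nat.coprime_primes (hprime i) (hprime s)).mpr
      fun h => (Finset.ne_of_mem_erase hi) (hinj h)

theorem gList_spec (hinj : Function.Injective qq) (hprime : ∀ s, (qq s).Prime)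
    (hcop : ∀ s, Nat.Coprime N₀ (qq s)) :
    ∀ q ∈ gList qq, q.Prime ∧ ∃ M' : ℕ, gLevel N₀ qq = M' * q ∧ Nat.Coprime M' q := by
  intro q hq
  obtain ⟨s, rfl⟩ := (mem_gList qq).mp hq
  exact ⟨hprime s, exists_gLevel_eq N₀ qq hinj hprime hcop s⟩

/-- `Γ₀(M) ∩ Γ₁(∏ qq) ⊆ K`. -/
theorem mem_KG_of_dvd {γ : SL(2, ℤ)} (hγ : γ ∈ Gamma0 (gLevel N₀ qq))
    (h : (((gList qq).prod : ℕ) : ℤ) ∣ γ 1 1 - 1) : γ ∈ KG p N₀ qq := by
  rw [KG, mem_GammaH]
  refine ⟨hγ, ?_⟩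
  rw [MonoidHom.mem_ker]
  have h1 : gRed N₀ qq (dUnit _ ⟨γ, hγ⟩) = 1 := by
    funext s
    apply Units.ext
    rw [gRed_apply]
    show ZMod.castHom (dvd_gLevel N₀ qq s) (ZMod (qq s))
      ((dUnit (gLevel N₀ qq) ⟨γ, hγ⟩ : (ZMod (gLevel N₀ qq))ˣ) : ZMod (gLevel N₀ qq)) = 1
    rw [coe_dUnit, map_intCast]
    have h2 : ((qq s : ℕ) : ℤ) ∣ γ 1 1 - 1 := by
      refine dvd_trans (Int.natCast_dvd_natCast.mpr ?_) h
      rw [gList_prod]
      exact Finset.dvd_prod_of_mem qq (Finset.mem_univ s)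
    have h3 := (ZMod.intCast_zmod_eq_zero_iff_dvd _ _).mpr h2
    push_cast at h3
    exact sub_eq_zero.mp h3
  show (QuotientGroup.mk' (gPowSub p qq)) (gRed N₀ qq (dUnit _ ⟨γ, hγ⟩)) = 1
  rw [h1, map_one]

/-- `h` is `-1/2` modulo the exponent of `Δ`, for the whole family. -/
def IsHalfG (h : ℕ) : Prop := ∀ s : ι, p ^ padicValNat p (qq s - 1) ∣ 2 * h + 1

/-- `Δ` is killed by `2h + 1`. -/
theorem pow_mem_gPowSub_of_half {h : ℕ} (hh : IsHalfG p qq h) (x : ∀ s : ι, (ZMod (qq s))ˣ) :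
    x ^ (2 * h + 1) ∈ gPowSub p qq := by
  rw [gPowSub, Subgroup.mem_pi]
  intro s _
  obtain ⟨c, hc⟩ := hh s
  refine ⟨x s ^ c, ?_⟩
  rw [powMonoidHom_apply, Pi.pow_apply, hc, pow_mul']

theorem pow_mem_KG {h : ℕ} (hh : IsHalfG p qq h) {γ : SL(2, ℤ)}
    (hγ : γ ∈ Gamma0 (gLevel N₀ qq)) : γ ^ (2 * h + 1) ∈ KG p N₀ qq := by
  rw [KG, mem_GammaH]
  refine ⟨Subgroup.pow_mem _ hγ _, ?_⟩
  rw [MonoidHom.mem_ker]
  have h1 : (⟨γ ^ (2 * h + 1), Subgroup.pow_mem _ hγ _⟩ : Gamma0 (gLevel N₀ qq)) =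
      (⟨γ, hγ⟩ : Gamma0 (gLevel N₀ qq)) ^ (2 * h + 1) := rfl
  rw [h1, map_pow, map_pow]
  show (QuotientGroup.mk' (gPowSub p qq)) (gRed N₀ qq (dUnit _ ⟨γ, hγ⟩)) ^ (2 * h + 1) = 1
  rw [← map_pow]
  exact (QuotientGroup.eq_one_iff _).mpr (pow_mem_gPowSub_of_half p qq hh _)

/-- **The twist hypothesis at `K = KG p N₀ qq`.** -/
theorem twistHyp_KG [NeZero (gLevel N₀ qq)] (hinj : Function.Injective qq)
    (hprime : ∀ s, (qq s).Prime) (hcop : ∀ s, Nat.Coprime N₀ (qq s))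
    {h : ℕ} (hh : IsHalfG p qq h) {N' : ℕ} (hN' : gLevel N₀ qq * ∏ s, qq s ∣ N') :
    TwistHyp (KG p N₀ qq) N' (fun ℓ => uOf (gLevel N₀ qq) ℓ ^ h) :=
  Fermat.Agent.S59.TW.H47.twistHyp_of_odd (isMid_KG p N₀ qq) (gList qq)
    (gList_nodup qq hinj) (gList_spec N₀ qq hinj hprime hcop)
    (fun γ hγ hd => mem_KG_of_dvd p N₀ qq hγ hd) h
    (fun γ hγ => pow_mem_KG p N₀ qq hh hγ) (by rw [gList_prod]; exact hN')

/-- **The abstract transfer hypothesis at `K = KG p N₀ qq`.** -/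
theorem embHyp_KG [NeZero (gLevel N₀ qq)] (hinj : Function.Injective qq)
    (hprime : ∀ s, (qq s).Prime) (hcop : ∀ s, Nat.Coprime N₀ (qq s))
    {h : ℕ} (hh : IsHalfG p qq h) {N' : ℕ} (hN' : gLevel N₀ qq * ∏ s, qq s ∣ N') :
    EmbHyp (KG p N₀ qq) N' (fun ℓ => uOf (gLevel N₀ qq) ℓ ^ h) :=
  (twistHyp_KG p N₀ qq hinj hprime hcop hh hN').embHyp

end Gen

/-! ## The level of Ihara avoidance -/

section IA

variable (p : ℕ) (Smin : Finset ℕ) {k r : ℕ} (pv : Fin k → ℕ) (qv : Fin r → ℕ)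

theorem isHalfG_elim {h : ℕ} (h1 : IsHalf p pv h) (h2 : IsHalf p qv h) :
    IsHalfG p (Sum.elim pv qv) h := by
  rintro (i | j)
  · exact h1 i
  · exact h2 j

theorem elim_injective (hpvi : Function.Injective pv) (hqvi : Function.Injective qv)
    (hdisj : ∀ i j, pv i ≠ qv j) : Function.Injective (Sum.elim pv qv) := by
  rintro (i | j) (i' | j') hij
  · exact congrArg Sum.inl (hpvi hij)
  · exact absurd hij (hdisj i j')
  · exact absurd hij.symm (hdisj i' j)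
  · exact congrArg Sum.inr (hqvi hij)

theorem image_elim :
    (Finset.univ : Finset (Fin k ⊕ Fin r)).image (Sum.elim pv qv) =
      Finset.univ.image pv ∪ Finset.univ.image qv := by
  ext q
  simp only [Finset.mem_image, Finset.mem_univ, true_and, Finset.mem_union, Sum.exists,
    Sum.elim_inl, Sum.elim_inr]

/-- `N_{Smin ∪ Piv ∪ Q} = N_{Smin} · ∏_{Piv ∪ Q} q²`. -/
theorem wilesLevel_IA (t : PType) (hpvi : Function.Injective pv) (hqvi : Function.Injective qv)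
    (hdisj : ∀ i j, pv i ≠ qv j) (hpv : ∀ i, pv i ∉ Smin) (hqv : ∀ j, qv j ∉ Smin) :
    wilesLevel p t Smin (Smin ∪ Finset.univ.image pv ∪ Finset.univ.image qv) =
      wilesLevel p t Smin Smin * ∏ s, (Sum.elim pv qv s) ^ 2 := by
  have h1 : (Smin ∪ Finset.univ.image pv ∪ Finset.univ.image qv) \ Smin =
      (Finset.univ : Finset (Fin k ⊕ Fin r)).image (Sum.elim pv qv) := by
    rw [image_elim]
    ext q
    simp only [Finset.mem_sdiff, Finset.mem_union, Finset.mem_image, Finset.mem_univ, true_and]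
    constructor
    · rintro ⟨(h | h) | h, h2⟩
      · exact absurd h h2
      · exact Or.inl h
      · exact Or.inr h
    · rintro (⟨i, rfl⟩ | ⟨j, rfl⟩)
      · exact ⟨Or.inl (Or.inr ⟨i, rfl⟩), hpv i⟩
      · exact ⟨Or.inr ⟨j, rfl⟩, hqv j⟩
  unfold wilesLevel
  rw [h1, Finset.sdiff_self, Finset.prod_empty,
    Finset.prod_image (fun s _ s' _ h => elim_injective pv qv hpvi hqvi hdisj h)]
  ring

theorem gLevel_mul_prod_IA (t : PType) (hpvi : Function.Injective pv)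
    (hqvi : Function.Injective qv) (hdisj : ∀ i j, pv i ≠ qv j) (hpv : ∀ i, pv i ∉ Smin)
    (hqv : ∀ j, qv j ∉ Smin) :
    gLevel (wilesLevel p t Smin Smin) (Sum.elim pv qv) * ∏ s, Sum.elim pv qv s =
      wilesLevel p t Smin (Smin ∪ Finset.univ.image pv ∪ Finset.univ.image qv) := by
  rw [wilesLevel_IA p Smin pv qv t hpvi hqvi hdisj hpv hqv, gLevel, Finset.prod_pow]
  ring

variable [Fact p.Prime]

theorem MIA_ne_zero (hSp : ∀ q ∈ Smin, q.Prime) (hpvp : ∀ i, (pv i).Prime)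
    (hqvp : ∀ j, (qv j).Prime) : MIA p Smin pv qv ≠ 0 := by
  have h1 : wilesLevel p .flat Smin Smin ≠ 0 := by
    unfold wilesLevel
    rw [Finset.sdiff_self, Finset.prod_empty, mul_one, mul_one]
    exact Finset.prod_ne_zero_iff.mpr fun q hq' => (hSp q (Finset.mem_of_mem_erase hq')).ne_zero
  refine gLevel_ne_zero _ _ h1 ?_
  rintro (i | j)
  · exact hpvp i
  · exact hqvp j

/-- **The twist hypothesis at `K = K_IA`**, for the twisted operators `⟨ℓ⟩^h T_ℓ` of `IsIAAction`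
with `h` half at the pivots and at the Taylor–Wiles primes. -/
theorem twistHyp_KIA (hpS : p ∈ Smin) (hSp : ∀ q ∈ Smin, q.Prime)
    (hpvi : Function.Injective pv) (hqvi : Function.Injective qv)
    (hdisj : ∀ i j, pv i ≠ qv j)
    (hpv : ∀ i, (pv i).Prime ∧ pv i ∉ Smin) (hqv : ∀ j, (qv j).Prime ∧ qv j ∉ Smin)
    {h : ℕ} (h1 : IsHalf p pv h) (h2 : IsHalf p qv h) :
    TwistHyp (KIA p Smin pv qv)
      (wilesLevel p .flat Smin (Smin ∪ Finset.univ.image pv ∪ Finset.univ.image qv))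
      (fun ℓ => uOf (MIA p Smin pv qv) ℓ ^ h) := by
  haveI : NeZero (gLevel (wilesLevel p .flat Smin Smin) (Sum.elim pv qv)) :=
    ⟨MIA_ne_zero p Smin pv qv hSp (fun i => (hpv i).1) (fun j => (hqv j).1)⟩
  refine twistHyp_KG p (wilesLevel p .flat Smin Smin) (Sum.elim pv qv)
    (elim_injective pv qv hpvi hqvi hdisj) ?_ ?_ (isHalfG_elim p pv qv h1 h2) ?_
  · rintro (i | j)
    · exact (hpv i).1
    · exact (hqv j).1
  · rintro (i | j)
    · exact coprime_wilesLevel p .flat Smin hpS hSp (hpv i).1 (hpv i).2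
    · exact coprime_wilesLevel p .flat Smin hpS hSp (hqv j).1 (hqv j).2
  · rw [gLevel_mul_prod_IA p Smin pv qv .flat hpvi hqvi hdisj (fun i => (hpv i).2)
      (fun j => (hqv j).2)]

/-- The same with the pivot set `Piv = image pv` of `Spec3`. -/
theorem twistHyp_KIA' (hpS : p ∈ Smin) (hSp : ∀ q ∈ Smin, q.Prime) {Piv : Finset ℕ}
    (hpvi : Function.Injective pv) (hpvPiv : Finset.univ.image pv = Piv)
    (hPivp : ∀ q ∈ Piv, q.Prime ∧ q ∉ Smin) (hqvi : Function.Injective qv)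
    (hqv : ∀ j, (qv j).Prime ∧ qv j ∉ Smin ∪ Piv)
    {h : ℕ} (h1 : IsHalf p pv h) (h2 : IsHalf p qv h) :
    TwistHyp (KIA p Smin pv qv)
      (wilesLevel p .flat Smin (Smin ∪ Piv ∪ Finset.univ.image qv))
      (fun ℓ => uOf (MIA p Smin pv qv) ℓ ^ h) := by
  subst hpvPiv
  have hmem : ∀ i, pv i ∈ Finset.univ.image pv := fun i =>
    Finset.mem_image.mpr ⟨i, Finset.mem_univ _, rfl⟩
  refine twistHyp_KIA p Smin pv qv hpS hSp hpvi hqvi ?_ (fun i => hPivp _ (hmem i))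
    (fun j => ⟨(hqv j).1, fun hj => (hqv j).2 (Finset.mem_union_left _ hj)⟩) h1 h2
  intro i j hij
  exact (hqv j).2 (Finset.mem_union_right _ (hij ▸ hmem i))

end IA

/-! ## In the context of `Spec3` -/

section Spec3

open IsLocalRing Fermat.Agent.S59.TW.H959 Fermat.Agent.S38.IA

variable {p : ℕ} [Fact p.Prime]
  {𝒪 : Type} [CommRing 𝒪] [IsDomain 𝒪] [IsDiscreteValuationRing 𝒪]
  [IsAdicComplete (maximalIdeal 𝒪) 𝒪]
  {ρbar : ResidualGaloisRep (ResidueField 𝒪)} {Smin Piv : Finset ℕ}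
  {k r : ℕ} {pv : Fin k → ℕ} {qv : Fin r → ℕ}

/-- **The twist hypothesis at `K_IA` from the hypotheses of the leaves of `Spec3`.** -/
theorem twistHyp_KIA_of_spec (hR : ResidualHyp p 𝒪 ρbar Smin)
    (hPiv : IsPivotSet p ρbar Smin Piv) (hpvi : Function.Injective pv)
    (hpvPiv : Finset.univ.image pv = Piv) {n : ℕ} (hq : IsTWSet p ρbar (Smin ∪ Piv) n qv)
    {h : ℕ} (h1 : IsHalf p pv h) (h2 : IsHalf p qv h) :
    TwistHyp (KIA p Smin pv qv)
      (wilesLevel p .flat Smin (Smin ∪ Piv ∪ Finset.univ.image qv))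
      (fun ℓ => uOf (MIA p Smin pv qv) ℓ ^ h) :=
  twistHyp_KIA' p Smin pv qv hR.hpSmin hR.hSmin hpvi hpvPiv
    (fun q hqP => ⟨(hPiv q hqP).1, (hPiv q hqP).2.1⟩) hq.1
    (fun j => ⟨(hq.2.1 j).1, (hq.2.1 j).2.1⟩) h1 h2

/-- The level `M_IA` is nonzero. -/
theorem MIA_ne_zero_of_spec (hR : ResidualHyp p 𝒪 ρbar Smin)
    (hPiv : IsPivotSet p ρbar Smin Piv) (hpvPiv : Finset.univ.image pv = Piv) {n : ℕ}
    (hq : IsTWSet p ρbar (Smin ∪ Piv) n qv) : MIA p Smin pv qv ≠ 0 :=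
  MIA_ne_zero p Smin pv qv hR.hSmin
    (fun i => (hPiv (pv i) (hpvPiv ▸ Finset.mem_image.mpr ⟨i, Finset.mem_univ _, rfl⟩)).1)
    (fun j => (hq.2.1 j).1)

/-- `q² ∥ N_{Smin ∪ Piv ∪ Q}` for every pivot `q`. -/
theorem factorization_wilesLevel_pivot (hR : ResidualHyp p 𝒪 ρbar Smin)
    (hPiv : IsPivotSet p ρbar Smin Piv) (hpvi : Function.Injective pv)
    (hpvPiv : Finset.univ.image pv = Piv) {n : ℕ} (hq : IsTWSet p ρbar (Smin ∪ Piv) n qv)
    (i : Fin k) :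
    (wilesLevel p .flat Smin (Smin ∪ Piv ∪ Finset.univ.image qv)).factorization (pv i) = 2 := by
  classical
  subst hpvPiv
  have hmem : ∀ i, pv i ∈ Finset.univ.image pv := fun i =>
    Finset.mem_image.mpr ⟨i, Finset.mem_univ _, rfl⟩
  have hpvp : ∀ i, (pv i).Prime ∧ pv i ∉ Smin := fun i =>
    ⟨(hPiv _ (hmem i)).1, (hPiv _ (hmem i)).2.1⟩
  have hqvp : ∀ j, (qv j).Prime ∧ qv j ∉ Smin := fun j =>
    ⟨(hq.2.1 j).1, fun hj => (hq.2.1 j).2.1 (Finset.mem_union_left _ hj)⟩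
  have hdisj : ∀ i j, pv i ≠ qv j := fun i j hij =>
    (hq.2.1 j).2.1 (Finset.mem_union_right _ (hij ▸ hmem i))
  have hinj := elim_injective pv qv hpvi hq.1 hdisj
  have hprime : ∀ s, (Sum.elim pv qv s).Prime := by
    rintro (i | j)
    · exact (hpvp i).1
    · exact (hqvp j).1
  rw [wilesLevel_IA p Smin pv qv .flat hpvi hq.1 hdisj (fun i => (hpvp i).2)
    (fun j => (hqvp j).2)]
  have hN₀ : wilesLevel p .flat Smin Smin ≠ 0 := by
    unfold wilesLevel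
    rw [Finset.sdiff_self, Finset.prod_empty, mul_one, mul_one]
    exact Finset.prod_ne_zero_iff.mpr fun q hq' =>
      (hR.hSmin q (Finset.mem_of_mem_erase hq')).ne_zero
  have hP0 : (∏ s, (Sum.elim pv qv s) ^ 2) ≠ 0 :=
    Finset.prod_ne_zero_iff.mpr fun s _ => pow_ne_zero _ (hprime s).ne_zero
  rw [Nat.factorization_mul hN₀ hP0, Finsupp.add_apply]
  have h0 : (wilesLevel p .flat Smin Smin).factorization (pv i) = 0 := by
    rw [Nat.factorization_eq_zero_iff]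
    right; left
    exact fun hd => (hpvp i).2 (mem_of_dvd_wilesLevel p .flat Smin hR.hpSmin hR.hSmin
      (hpvp i).1 hd)
  rw [h0, zero_add, Nat.factorization_prod (fun s _ => pow_ne_zero _ (hprime s).ne_zero),
    Finset.sum_apply']
  rw [Finset.sum_eq_single (Sum.inl i : Fin k ⊕ Fin r)]
  · rw [Sum.elim_inl, Nat.factorization_pow, Finsupp.smul_apply,
      (hpvp i).1.factorization_self, smul_eq_mul, mul_one]
  · intro s _ hs
    rw [Nat.factorization_pow, Finsupp.smul_apply, smul_eq_mul, mul_eq_zero]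
    right
    rw [Nat.factorization_eq_zero_iff]
    right; left
    intro hd
    have := (Nat.prime_dvd_prime_iff_eq (hpvp i).1 (hprime s)).mp hd
    exact hs (hinj (by rw [Sum.elim_inl]; exact this.symm))
  · intro h
    exact absurd (Finset.mem_univ _) h

end Spec3

end Fermat.Agent.S38.H47

end
end
-- ===== PACK-END S38/H47/TwistHypIA.lean

-- ===== PACK-BEGIN Ribet/H577/Ram2Hyp.lean
section






/-!
# RIBET / HARD, leaf RAM2 (helper577), part 3: `Arch.ResidualHyp` for the Frey curve, ANY `p ≥ 5`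

The Frey → `ρ̄` dictionary of row HARD (board §3.5) needs the standing hypotheses
`S59.Arch.ResidualHyp` (absolute irreducibility, cyclotomic determinant, split characteristic
polynomials, Taylor–Wiles irreducibility on index-two subgroups, unipotent inertia at `Smin`) for
`ρ̄ = E[p] ⊗ k` of the Frey curve at a GENERAL prime `p ≥ 5`.  `S59.H405.curveResidualHyp` is
restricted to `p ∈ {3, 5}`; `S59.H577.curveResidualHyp_of_ram` works for every odd `p` as soon as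
`ρ̄` is ramified at some prime `q ≠ p`.  For the Frey curve `q = 2` (leaf RAM2).

* `frey_isMinSet577`   : `IsMinSet p (curveResidual p freyCurveInt …) {2, p}` (RAM2 + S05);
* `frey_residualHyp577`: `ResidualHyp p 𝒪 (curveResidual p freyCurveInt …) {2, p}`.
-/

set_option autoImplicit false
set_option linter.style.haveILetI false

open Polynomial IsLocalRing

namespace Fermat.Agent.Ribet.H577

open WeierstrassCurve WeierstrassCurve.Affine WeierstrassCurve.Affine.Point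
open Fermat.Agent.S59.Arch

/-- `ℚ̄` -/
abbrev QbR577 : Type := AlgebraicClosure ℚ

section Transport

variable (P : FreyPackage)

/-- RAM2 for any curve equal to the Frey curve (used for `freyCurveInt.map (Int.castRingHom ℚ)`). -/
theorem ramified_two_of_eq577 (E : WeierstrassCurve ℚ) (hE : E = P.freyCurve)
    (A : ValuationSubring QbR577) (hA : A.LiesOverPrime 2) :
    ∃ σ ∈ A.inertiaSubgroupIn ℚ,
      ∃ t : Submodule.torsionBy ℤ (E⁄QbR577).Point P.p, σ • t ≠ t := by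
  subst hE
  exact frey_ramified_two577 P A hA

/-- S05 for any curve equal to the Frey curve. -/
theorem unramified_of_eq577 (E : WeierstrassCurve ℚ) (hE : E = P.freyCurve) {q : ℕ}
    (hq : q.Prime) (hq2 : q ≠ 2) (hqp : q ≠ P.p) :
    WeierstrassCurve.Affine.Point.GaloisRepUnramifiedAt (K := QbR577) ℚ E P.p q := by
  subst hE
  exact Fermat.Agent.S05.result P hq hq2 hqp

/-- Irreducibility for any curve equal to the Frey curve. -/
theorem irreducible_of_eq577 (E : WeierstrassCurve ℚ) (hE : E = P.freyCurve)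
    (hirr : GaloisRepIsIrreducible (K := QbR577) ℚ P.freyCurve P.p) :
    GaloisRepIsIrreducible (K := QbR577) ℚ E P.p := by
  subst hE
  exact hirr

/-- Irreducibility of `E[p]` of the Frey curve in the language of integral models. -/
theorem frey_modRepIsIrreducible577
    (hirr : GaloisRepIsIrreducible (K := QbR577) ℚ P.freyCurve P.p) :
    P.freyCurveInt.ModRepIsIrreducible P.p :=
  irreducible_of_eq577 P _ (Fermat.Agent.Ribet.H104.freyCurve_eq_map P).symm hirr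

end Transport

section Residual

variable (p : ℕ) [Fact p.Prime] (E : WeierstrassCurve ℚ)
  (hcard : Nat.card (Submodule.torsionBy ℤ (E⁄QbR577).Point p) = p ^ 2)
  (hker : GaloisFactorsThroughFiniteLevel
    (WeierstrassCurve.Affine.Point.galoisRepModuleEnd (K := QbR577) ℚ E p))

/-- Ramification of `residualGaloisRepOf` is ramification of `E[p]` in the Prelude sense. -/
theorem residual_isUnramifiedAt_iff577 (q : ℕ) :
    (E.residualGaloisRepOf p hcard hker).IsUnramifiedAt q ↔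
      WeierstrassCurve.Affine.Point.GaloisRepUnramifiedAt (K := QbR577) ℚ E p q := by
  constructor
  · intro h A hA σ hσ x
    have h1 := h A hA σ hσ
    have h2 : (E.residualGaloisRepOf p hcard hker).ρ σ x = x := by
      rw [h1]
      rfl
    exact h2
  · intro h A hA σ hσ
    refine LinearMap.ext fun x => ?_
    exact h A hA σ hσ x

end Residual

section Frey

variable (P : FreyPackage) [Fact P.p.Prime]
  (hcard : Nat.card (Submodule.torsionBy ℤ
    ((P.freyCurveInt.map (Int.castRingHom ℚ))⁄QbR577).Point P.p) = P.p ^ 2)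
  (hker : GaloisFactorsThroughFiniteLevel
    (WeierstrassCurve.Affine.Point.galoisRepModuleEnd (K := QbR577) ℚ
      (P.freyCurveInt.map (Int.castRingHom ℚ)) P.p))

/-- `ρ̄ = E[p] ⊗ k` of the Frey curve is ramified at `2`. -/
theorem frey_curveResidual_ramified_two577 {k : Type} [Field k] (ι : ZMod P.p →+* k) :
    ¬ (curveResidual P.p P.freyCurveInt hcard hker ι).IsUnramifiedAt 2 := by
  intro h
  have h1 : ((P.freyCurveInt.map (Int.castRingHom ℚ)).residualGaloisRepOf P.p hcard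
      hker).IsUnramifiedAt 2 :=
    (Fermat.Agent.S59.H601.isUnramifiedAt_baseChangeAlong_iff601 ι _ 2).mp h
  have h2 := (residual_isUnramifiedAt_iff577 P.p _ hcard hker 2).mp h1
  obtain ⟨A, hA⟩ := Fermat.Agent.S54.exists_valuationSubring_liesOver 2 Nat.prime_two
  obtain ⟨σ, hσ, t, ht⟩ := ramified_two_of_eq577 P _
    (Fermat.Agent.Ribet.H104.freyCurve_eq_map P).symm A hA
  exact ht (h2 A hA σ hσ t)

/-- `ρ̄ = E[p] ⊗ k` of the Frey curve is unramified at every prime `q ≠ 2, p` (S05). -/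
theorem frey_curveResidual_unramified577 {k : Type} [Field k] (ι : ZMod P.p →+* k) {q : ℕ}
    (hq : q.Prime) (hq2 : q ≠ 2) (hqp : q ≠ P.p) :
    (curveResidual P.p P.freyCurveInt hcard hker ι).IsUnramifiedAt q := by
  refine (Fermat.Agent.S59.H601.isUnramifiedAt_baseChangeAlong_iff601 ι _ q).mpr ?_
  refine (residual_isUnramifiedAt_iff577 P.p _ hcard hker q).mpr ?_
  exact unramified_of_eq577 P _ (Fermat.Agent.Ribet.H104.freyCurve_eq_map P).symm hq hq2 hqp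

/-- **The minimal set of the Frey curve is `{2, p}`.** -/
theorem frey_isMinSet577 {k : Type} [Field k] (ι : ZMod P.p →+* k) :
    IsMinSet P.p (curveResidual P.p P.freyCurveInt hcard hker ι) {2, P.p} := by
  refine ⟨by simp, ?_, ?_⟩
  · intro q hq
    rcases Finset.mem_insert.mp hq with rfl | hq
    · exact Nat.prime_two
    · rw [Finset.mem_singleton.mp hq]
      exact P.pp
  · intro q hq hqp
    constructor
    · intro hmem
      rcases Finset.mem_insert.mp hmem with rfl | hmem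
      · exact frey_curveResidual_ramified_two577 P hcard hker ι
      · exact absurd (Finset.mem_singleton.mp hmem) hqp
    · intro hram
      by_contra hmem
      have hq2 : q ≠ 2 := fun h => hmem (by rw [h]; simp)
      exact hram (frey_curveResidual_unramified577 P hcard hker ι hq hq2 hqp)

/-- **`Arch.ResidualHyp` for the Frey curve at every `p ≥ 5`**, with `Smin = {2, p}`. -/
theorem frey_residualHyp577
    (hirr : GaloisRepIsIrreducible (K := QbR577) ℚ P.freyCurve P.p)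
    (𝒪 : Type) [CommRing 𝒪] [IsDomain 𝒪] [IsDiscreteValuationRing 𝒪]
    [IsAdicComplete (maximalIdeal 𝒪) 𝒪] [Finite (ResidueField 𝒪)] [CharZero 𝒪]
    (hp𝒪 : (P.p : 𝒪) ∈ maximalIdeal 𝒪)
    (ι : ZMod P.p →+* ResidueField 𝒪)
    (hι : ∀ f : (ZMod P.p)[X], f.Monic → f.natDegree = 2 →
      ∃ α β : ResidueField 𝒪, f.map ι = (X - C α) * (X - C β)) :
    ResidualHyp P.p 𝒪 (curveResidual P.p P.freyCurveInt hcard hker ι) {2, P.p} := by
  have hp2 : P.p ≠ 2 := by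
    have := P.hp5
    omega
  exact Fermat.Agent.S59.H577.curveResidualHyp_of_ram P.p hp2 P.freyCurveInt
    (Fermat.Agent.Ribet.H104.Δ_ne_zero P) (Fermat.Agent.Ribet.H104.isSemistableModel P)
    (frey_modRepIsIrreducible577 P hirr) hcard hker 𝒪 hp𝒪 ι hι {2, P.p}
    (frey_isMinSet577 P hcard hker ι)
    ⟨2, by simp, fun h => hp2 h.symm⟩

end Frey

end Fermat.Agent.Ribet.H577

end
-- ===== PACK-END Ribet/H577/Ram2Hyp.lean

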