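import Fermat.Agent.Pack.S43C.E0L0
import Fermat.Agent.Pack.S43C.E1L3
import Fermat.Agent.Pack.S43C.E1L1
import Fermat.Agent.Pack.S43GC.G0E15L2
import Fermat.Agent.Pack.S43C.E1L2
import Fermat.Agent.Pack.S43GC.G0E6L0
import Fermat.Agent.Pack.S43MC.G0E26L3
import Fermat.Agent.Pack.S43MC.G0E21L2
import Fermat.Agent.Pack.S43MC.G0E21L0
import Fermat.Agent.Pack.S43MC.G0E26L2
import Fermat.Agent.Pack.S43GC.G0E15L3
import Fermat.Agent.Pack.Fast891

-- ===== PACK-BEGIN S38/IA/Gal/H1/PivFacts.lean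
section






/-!
# IA-GAL (helper1): the facts at one pivot

* `scalar_on_decomp` : `ρ̄` unramified at `P | q` with scalar Frobenius elements is scalar on the
  whole decomposition group `D_P`;
* `matResUnramAt_uFrame`, `phi_res_uFrame` : the universal matrices at inertia / at a Frobenius
  with scalar residual value;
* `isPivotPres_of` : the structure `IsPivotPres` from traceless coordinates.
-/

set_option autoImplicit false
set_option linter.unusedSectionVars false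
set_option linter.unusedVariables false
set_option linter.style.haveILetI false

namespace Fermat.Agent.S38.IA.Gal

open IsLocalRing Fermat.Agent.S56 Fermat.Agent.S56.H794 Fermat.Agent.S38.H953
open Fermat.Agent.S53 (M2 matEnd MatCont toAdic mapRep)

section Scalar

variable {k : Type} [Field k] (ρbar : ResidualGaloisRep k)

theorem finiteLevel_residual : FiniteLevel ρbar.ρ.toHomUnits := by
  obtain ⟨L, hL, h⟩ := ρbar.factorsThroughFiniteLevel
  exact ⟨L, hL, fun τ hτ => Units.ext (h τ hτ)⟩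

/-- `ρ̄` unramified at `P` with scalar Frobenius elements is scalar on `D_P`. -/
theorem scalar_on_decomp {p q : ℕ} (hp : p.Prime) (hq : q.Prime) (hpq : p ≠ q)
    (P : ValuationSubring Qb) (hP : P.LiesOverPrime q)
    (hunr : ∀ ι ∈ P.inertiaSubgroupIn ℚ, ρbar.ρ ι = 1)
    (hfrob : ∀ φ : _root_.Fermat.Agent.S56.GQ, P.IsFrobeniusAt φ q →
      ∃ c : k, ρbar.ρ φ = c • (1 : Module.End k ρbar.V)) :
    ∀ τ ∈ P.decompositionSubgroup ℚ, ∃ a : k, ρbar.ρ τ = a • (1 : Module.End k ρbar.V) := by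
  intro τ hτ
  obtain ⟨φ, σ, h⟩ := locGenExists p q hp hq hpq P hP
  obtain ⟨c, hc⟩ := hfrob φ h.frob
  have hpow : PPowOnInertia p P ρbar.ρ.toHomUnits := by
    intro ι hι
    refine ⟨0, ?_⟩
    rw [pow_zero, pow_one]
    exact Units.ext (hunr ι hι)
  obtain ⟨n, j, hnj⟩ := locGenDecomp.{0} p q hp hq hpq P hP φ σ h _ ρbar.ρ.toHomUnits
    (finiteLevel_residual ρbar) hpow τ hτ
  have h1 := congrArg Units.val hnj
  rw [Units.val_mul, Units.val_pow_eq_pow_val, Units.val_pow_eq_pow_val] at h1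
  have e1 : ((ρbar.ρ.toHomUnits τ : (Module.End k ρbar.V)ˣ) : Module.End k ρbar.V) = ρbar.ρ τ :=
    rfl
  have e2 : ((ρbar.ρ.toHomUnits φ : (Module.End k ρbar.V)ˣ) : Module.End k ρbar.V) = ρbar.ρ φ :=
    rfl
  have e3 : ((ρbar.ρ.toHomUnits σ : (Module.End k ρbar.V)ˣ) : Module.End k ρbar.V) = ρbar.ρ σ :=
    rfl
  rw [e1, e2, e3, hunr σ h.mem, one_pow, mul_one, hc] at h1
  refine ⟨c ^ n, ?_⟩
  rw [h1, smul_pow, one_pow]

end Scalar

section Univ

variable {𝒪 : Type} [CommRing 𝒪] [IsDomain 𝒪] [IsDiscreteValuationRing 𝒪]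
  [IsAdicComplete (maximalIdeal 𝒪) 𝒪]
  {ρbar : ResidualGaloisRep (ResidueField 𝒪)} {𝒟 : DefCond 𝒪}
  {DQ : GaloisRep.DeformationRingData 𝒪 ρbar 𝒟}

theorem sig_res_uFrame (F : UFrame DQ) (ι : _root_.Fermat.Agent.S56.GQ) (hι : ρbar.ρ ι = 1) (i j : Fin 2) :
    (F.rR ι - 1) i j ∈ maximalIdeal DQ.R := by
  have h := pivX_mem F (fun _ : Unit => (1 : _root_.Fermat.Agent.S56.GQ)) (fun _ : Unit => ι) (fun _ : Unit => (1 : 𝒪))
    (fun _ => by rw [map_one, map_one, one_smul]) (fun _ => hι) ((), true, i, j)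
  simpa only [pivX, if_true, Matrix.sub_apply] using h

theorem phi_res_uFrame (F : UFrame DQ) (φ : _root_.Fermat.Agent.S56.GQ) (a : 𝒪)
    (hφ : ρbar.ρ φ = residue 𝒪 a • (1 : Module.End (ResidueField 𝒪) ρbar.V)) (i j : Fin 2) :
    (F.rR φ - algebraMap 𝒪 DQ.R a • (1 : Matrix (Fin 2) (Fin 2) DQ.R)) i j ∈
      maximalIdeal DQ.R := by
  have h := pivX_mem F (fun _ : Unit => φ) (fun _ : Unit => (1 : _root_.Fermat.Agent.S56.GQ)) (fun _ : Unit => a)
    (fun _ => hφ) (fun _ => map_one _) ((), false, i, j)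
  simpa only [pivX, Bool.false_eq_true, if_false, Matrix.sub_apply, Matrix.smul_apply,
    smul_eq_mul] using h

theorem matResUnramAt_uFrame (F : UFrame DQ) (P : ValuationSubring Qb)
    (hunr : ∀ ι ∈ P.inertiaSubgroupIn ℚ, ρbar.ρ ι = 1) : MatResUnramAt P F.rR :=
  fun ι hι i j => sig_res_uFrame F ι (hunr ι hι) i j

/-- **The structure at one pivot.** -/
theorem isPivotPres_of (p : ℕ) [Fact p.Prime] (F : UFrame DQ)
    (hdet : DQ.ρ.DetIsCyclotomic p)
    {q : ℕ} (hq : q.Prime) (hqp : q ≠ p) (P : ValuationSubring Qb) (hP : P.LiesOverPrime q)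
    (φ σ : _root_.Fermat.Agent.S56.GQ) (htp : IsTamePair p q P φ σ)
    (hunr : ∀ ι ∈ P.inertiaSubgroupIn ℚ, ρbar.ρ ι = 1) (a : 𝒪)
    (ha : ρbar.ρ φ = residue 𝒪 a • (1 : Module.End (ResidueField 𝒪) ρbar.V))
    (v₀ v₁ v₂ w₀ w₁ w₂ : DQ.R) (hv : IsTraceless (F.rR σ) v₀ v₁ v₂)
    (hw : IsTraceless (F.rR φ) w₀ w₁ w₂) :
    IsPivotPres q a DQ F φ σ v₀ v₁ v₂ w₀ w₁ w₂ := by
  have hp : p.Prime := Fact.out
  have hpR : (p : DQ.R) ∈ maximalIdeal DQ.R := hdet.1
  have hdetR : (toAdic F.rR F.hrR).DetIsCyclotomic p :=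
    Fermat.Agent.S56.H966.detIsCyclotomic_of_isEquiv ⟨F.eR⟩ hdet
  have hres := matResUnramAt_uFrame F P hunr
  have hdS : (F.rR σ).det = 1 :=
    Fermat.Agent.S59.H126.det_inertia_eq_one (p := p) F.rR F.hrR hdetR hq hqp P hP htp.mem
  refine ⟨hv, hw, hdS, ?_, ?_, fun i j => sig_res_uFrame F σ (hunr σ htp.mem) i j,
    fun i j => phi_res_uFrame F φ a ha i j, ?_⟩
  · exact Fermat.Agent.S59.H126.det_frobenius_eq (p := p) F.rR F.hrR hdetR hq hqp P hP htp.frob
  · have h1 := mat_rel htp hp hq (Ne.symm hqp) hP hpR F.hrR hres separated_of_noetherian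
    rw [map_mul, map_mul] at h1
    have h2 : F.rR φ⁻¹ * F.rR φ = 1 := by rw [← map_mul, inv_mul_cancel, map_one]
    calc F.rR φ * F.rR σ = F.rR φ * F.rR σ * (F.rR φ⁻¹ * F.rR φ) := by rw [h2, mul_one]
      _ = (F.rR φ * F.rR σ * F.rR φ⁻¹) * F.rR φ := by rw [mul_assoc, mul_assoc, mul_assoc]
      _ = F.rR σ ^ q * F.rR φ := by rw [h1]
  · intro A _ _ _ y hy htr
    exact isUnipotentOnInertiaAt_baseChangeAlong_of_trace htp hp hq (Ne.symm hqp) hP hpR DQ.ρ
      F.rR F.hrR ⟨F.eR⟩ hres hdS y hy htr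

end Univ

end Fermat.Agent.S38.IA.Gal

end
-- ===== PACK-END S38/IA/Gal/H1/PivFacts.lean

-- ===== PACK-BEGIN S38/IA/H183/RelWall.lean
section


/-!
# Row 37 pivot (Ihara avoidance), Galois side — the RELATIVE WALL (helper183)

Plain-function language of `Fermat/Agent/S56/H716`.  `Smin` = `p` and the primes where `ρ̄` is
ramified (as in `S56.Hyp`), `T` = a finite set of further primes (the "hard" primes `q`, where the
two local lifting rings `R¹`, `R^χ` of Taylor's Ihara avoidance live), `Q` = Taylor–Wiles primes.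

* `IsRelSelCocycle ρbar Pl Λ Smin T Q c` — `c` is a Selmer cocycle of type `Λ` at `Smin`,
  unramified outside `Smin ∪ T ∪ Q`, and a COBOUNDARY on `D_{Pl v}` for every `v ∈ T`
  (= tangent vectors of the global deformation ring RELATIVE to the local lifting rings at `T`).
* `RelWall 𝒪 p ρbar S Smin T` — there are places `Pl` and a dual frame `D` (chosen BEFORE the local
  spaces at `Smin`: the Taylor–Wiles primes are the same for all local conditions) such that for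
  local spaces `Λ` at `Smin` with `LocBounds` (`∑ δ ≤ 1`) and every Taylor–Wiles set `Q` killing
  `D`, the relative Selmer cocycles are represented modulo coboundaries by a space `𝒯` with

      `dim 𝒯 + ∑_{v ∈ T} h⁰(D_{Pl v}, ad⁰ρ̄) ≤ #Q`.

* `relWall_of_sharpWall`, `exists_relWall_sup` (from the leaves BASE-BIG-OVER, REC-Q-SUB,
  UR-COUNT of row S56).

Nothing unproved in this file.
-/

set_option autoImplicit false

open Polynomial IsLocalRing

noncomputable section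

namespace Fermat.Agent.S38.IA.H183

open Fermat.Agent.S56 Fermat.Agent.S56.H716

section

variable {k : Type} [Field k] (ρbar : ResidualGaloisRep k)

/-- Relative Selmer cocycles: Selmer of type `Λ` at `Smin`, unramified outside `Smin ∪ T ∪ Q`,
coboundaries on the decomposition groups at the places `Pl v`, `v ∈ T`. -/
structure IsRelSelCocycle (Pl : ℕ → ValuationSubring Qb)
    (Λ : ℕ → Submodule k (GQ → Module.End k ρbar.V)) (Smin T Q : Finset ℕ)
    (c : GQ → Module.End k ρbar.V) : Prop where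
  sel : IsSelCocycle ρbar Pl Λ Smin (T ∪ Q) c
  strict : ∀ v ∈ T, IsAdCoboundaryOn ρbar ((Pl v).decompositionSubgroup ℚ) c

end

section

variable (𝒪 : Type) [CommRing 𝒪] [IsDomain 𝒪] [IsDiscreteValuationRing 𝒪]
  (p : ℕ) (ρbar : ResidualGaloisRep (ResidueField 𝒪)) (S Smin T : Finset ℕ)

/-- (REL-WALL) for one residual representation: the Greenberg–Wiles inequality for the Selmer
conditions which are strict at `T`. -/
def RelWall : Prop :=
  ∃ Pl : ℕ → ValuationSubring Qb, (∀ v ∈ Smin ∪ T, (Pl v).LiesOverPrime v) ∧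
    ∃ D : Submodule (ResidueField 𝒪) (GQ → Module.End (ResidueField 𝒪) ρbar.V),
      IsDualFrame ρbar p D ∧
      ∀ (Λ : ℕ → Submodule (ResidueField 𝒪) (GQ → Module.End (ResidueField 𝒪) ρbar.V))
        (δ : ℕ → ℕ), LocBounds ρbar Pl Λ δ Smin →
        ∀ Q : Finset ℕ, (∀ q ∈ Q, IsTWPrime ρbar p S q) → Kills ρbar p D Q →
          ∃ 𝒯 : Submodule (ResidueField 𝒪) (GQ → Module.End (ResidueField 𝒪) ρbar.V),
            Module.Finite (ResidueField 𝒪) 𝒯 ∧
            Module.finrank (ResidueField 𝒪) 𝒯 +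
                ∑ v ∈ T, Module.finrank (ResidueField 𝒪)
                  (adInv ρbar ((Pl v).decompositionSubgroup ℚ))
              ≤ Q.card ∧
            ∀ c, IsRelSelCocycle ρbar Pl Λ Smin T Q c → ∃ t ∈ 𝒯, IsAdCoboundary ρbar (c - t)

/-- **Glue** `REL-WALL(S, Smin, T) ⇐ SHARP-WALL(S, S') + UR-COUNT` for `Smin ∪ T ⊆ S' ⊆ S`. -/
theorem relWall_of_sharpWall (S' : Finset ℕ) (hSS' : Smin ∪ T ⊆ S') (hS'S : S' ⊆ S)
    (hdisj : Disjoint Smin T) (hS'prime : ∀ q ∈ S', q.Prime)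
    (hw : SharpWall 𝒪 p ρbar S S')
    (hur : ∀ v : ℕ, v.Prime → v ∉ Smin → ∀ P : ValuationSubring Qb, P.LiesOverPrime v →
      ∃ Λ : Submodule (ResidueField 𝒪) (GQ → Module.End (ResidueField 𝒪) ρbar.V),
        Module.Finite (ResidueField 𝒪) Λ ∧
        Module.finrank (ResidueField 𝒪) Λ ≤
          Module.finrank (ResidueField 𝒪) (adInv ρbar (P.decompositionSubgroup ℚ)) ∧
        ∀ c, IsAdCocycle ρbar c → UnramAt ρbar c v →
          ∃ t ∈ Λ, IsAdCoboundaryOn ρbar (P.decompositionSubgroup ℚ) (c - t)) :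
    RelWall 𝒪 p ρbar S Smin T := by
  classical
  obtain ⟨Pl, hPl, D, hD, -, hW⟩ := hw
  refine ⟨Pl, fun v hv => hPl v (hSS' hv), D, hD, fun Λ δ hΛ Q hQ hK => ?_⟩
  have hQS : ∀ q ∈ Q, q ∉ S' := fun q hq h => (hQ q hq).2.1 (hS'S h)
  have hTS' : T ⊆ S' := fun v hv => hSS' (Finset.mem_union_right _ hv)
  have hSminS' : Smin ⊆ S' := fun v hv => hSS' (Finset.mem_union_left _ hv)
  have hTSmin : ∀ v ∈ T, v ∉ Smin := fun v hv h => (Finset.disjoint_left.1 hdisj h) hv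
  -- the local spaces on `S'`
  let Λ' : ℕ → Submodule (ResidueField 𝒪) (GQ → Module.End (ResidueField 𝒪) ρbar.V) :=
    fun v => if h : v ∈ Smin then Λ v else
      if v ∈ T then ⊥ else
        if h' : v ∈ S' then (hur v (hS'prime v h') h (Pl v) (hPl v h')).choose else ⊥
  have hΛ'1 : ∀ v, v ∈ Smin → Λ' v = Λ v := fun v h => dif_pos h
  have hΛ'T : ∀ v, v ∈ T → Λ' v = ⊥ := fun v h => by
    simp only [Λ', dif_neg (hTSmin v h), if_pos h]
  have hΛ'2 : ∀ v (h : v ∉ Smin) (_ : v ∉ T) (h' : v ∈ S'),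
      Λ' v = (hur v (hS'prime v h') h (Pl v) (hPl v h')).choose := fun v h hT h' => by
    simp only [Λ', dif_neg h, if_neg hT, dif_pos h']
  let h0 : ℕ → ℕ := fun v =>
    Module.finrank (ResidueField 𝒪) (adInv ρbar ((Pl v).decompositionSubgroup ℚ))
  let dd : ℕ → ℕ := fun v => if v ∈ Smin then δ v else 0
  let tt : ℕ → ℕ := fun v => if v ∈ T then h0 v else 0
  have hfin' : ∀ v ∈ S', Module.Finite (ResidueField 𝒪) (Λ' v) := by
    intro v hvS'
    by_cases h : v ∈ Smin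
    · rw [hΛ'1 v h]
      exact (hΛ.1 v h).1
    · by_cases hT : v ∈ T
      · rw [hΛ'T v hT]
        infer_instance
      · rw [hΛ'2 v h hT hvS']
        exact (hur v (hS'prime v hvS') h (Pl v) (hPl v hvS')).choose_spec.1
  have hbound' : ∀ v ∈ S',
      Module.finrank (ResidueField 𝒪) (Λ' v) + tt v ≤ h0 v + dd v := by
    intro v hvS'
    by_cases h : v ∈ Smin
    · have hT : v ∉ T := fun hT => hTSmin v hT h
      rw [hΛ'1 v h]
      simpa [dd, tt, h0, h, hT] using (hΛ.1 v h).2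
    · by_cases hT : v ∈ T
      · rw [hΛ'T v hT]
        simp [dd, tt, h0, h, hT]
      · rw [hΛ'2 v h hT hvS']
        simpa [dd, tt, h0, h, hT] using
          (hur v (hS'prime v hvS') h (Pl v) (hPl v hvS')).choose_spec.2.1
  have hsel' : ∀ c, IsRelSelCocycle ρbar Pl Λ Smin T Q c → IsSelCocycle ρbar Pl Λ' S' Q c := by
    intro c hc
    refine ⟨hc.sel.cocycle, fun q hq hqn => hc.sel.unram q hq fun hq' => hqn ?_, fun v hvS' => ?_⟩
    · rcases Finset.mem_union.1 hq' with h | h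
      · exact Finset.mem_union_left _ (hSminS' h)
      · rcases Finset.mem_union.1 h with h1 | h1
        · exact Finset.mem_union_left _ (hTS' h1)
        · exact Finset.mem_union_right _ h1
    · by_cases h : v ∈ Smin
      · rw [hΛ'1 v h]
        exact hc.sel.loc v h
      · by_cases hT : v ∈ T
        · rw [hΛ'T v hT]
          refine ⟨0, Submodule.zero_mem _, ?_⟩
          rw [sub_zero]
          exact hc.strict v hT
        · rw [hΛ'2 v h hT hvS']
          refine (hur v (hS'prime v hvS') h (Pl v) (hPl v hvS')).choose_spec.2.2 c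
            hc.sel.cocycle (hc.sel.unram v (hS'prime v hvS') fun hv' => ?_)
          rcases Finset.mem_union.1 hv' with h1 | h1
          · exact h h1
          · rcases Finset.mem_union.1 h1 with h2 | h2
            · exact hT h2
            · exact hQS v h2 hvS'
  obtain ⟨𝒯, h𝒯fin, h𝒯dim, h𝒯⟩ := hW Λ' hfin' Q hQ hK
  refine ⟨𝒯, h𝒯fin, ?_, fun c hc => h𝒯 c (hsel' c hc)⟩
  have h2 : ∑ v ∈ S', Module.finrank (ResidueField 𝒪) (Λ' v) + ∑ v ∈ S', tt v ≤
      ∑ v ∈ S', h0 v + ∑ v ∈ S', dd v := by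
    rw [← Finset.sum_add_distrib, ← Finset.sum_add_distrib]
    exact Finset.sum_le_sum hbound'
  have h3 : ∑ v ∈ S', dd v = ∑ v ∈ Smin, δ v := by
    rw [← Finset.sum_subset hSminS' (f := dd) fun v _ hv => by simp [dd, hv]]
    exact Finset.sum_congr rfl fun v hv => by simp [dd, hv]
  have h4 : ∑ v ∈ S', tt v = ∑ v ∈ T, h0 v := by
    rw [← Finset.sum_subset hTS' (f := tt) fun v _ hv => by simp [tt, hv]]
    exact Finset.sum_congr rfl fun v hv => by simp [tt, hv]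
  have h7 := hΛ.2
  have hdim' : Module.finrank (ResidueField 𝒪) 𝒯 + ∑ v ∈ S', h0 v + 1 ≤
      Q.card + ∑ v ∈ S', Module.finrank (ResidueField 𝒪) (Λ' v) := h𝒯dim
  have hgoal : Module.finrank (ResidueField 𝒪) 𝒯 + ∑ v ∈ T, h0 v ≤ Q.card := by omega
  exact hgoal

end

/-- (BASE-BIG-OVER): (BASE) for some finite set of primes containing `Smin` and any prescribed
finite set `T` of primes.  (Same proof as `H716.BaseBigStatement`: Tate's Euler characteristic
formula is available for all big enough sets.) -/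
def BaseBigOverStatement : Prop :=
  ∀ (𝒪 : Type) [CommRing 𝒪] [IsDomain 𝒪] [IsDiscreteValuationRing 𝒪]
    [IsAdicComplete (maximalIdeal 𝒪) 𝒪] [Finite (ResidueField 𝒪)]
    (p : ℕ) (ρbar : ResidualGaloisRep (ResidueField 𝒪)) (S Smin : Finset ℕ),
    Hyp 𝒪 p ρbar S Smin → ∀ T : Finset ℕ, (∀ q ∈ T, q.Prime) →
      ∃ S' : Finset ℕ, Smin ∪ T ⊆ S' ∧ (∀ q ∈ S', q.Prime) ∧ Base 𝒪 p ρbar S'

section

variable (𝒪 : Type) [CommRing 𝒪] [IsDomain 𝒪] [IsDiscreteValuationRing 𝒪]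
  [IsAdicComplete (maximalIdeal 𝒪) 𝒪] [Finite (ResidueField 𝒪)]
  (p : ℕ) (ρbar : ResidualGaloisRep (ResidueField 𝒪)) (S Smin : Finset ℕ)

/-- (SHARP-WALL) for some `S'' ⊇ S ∪ T`, relative to a set `S'` with `Smin ∪ T ⊆ S' ⊆ S''`,
from the leaves of row S56. -/
theorem exists_sharpWall_sup (hb : BaseBigOverStatement) (hr : RecQSubStatement)
    (hyp : Hyp 𝒪 p ρbar S Smin) (T : Finset ℕ) (hT : ∀ q ∈ T, q.Prime) :
    ∃ S'' S' : Finset ℕ, S ∪ T ⊆ S'' ∧ (∀ q ∈ S'', q.Prime) ∧ Smin ∪ T ⊆ S' ∧ S' ⊆ S'' ∧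
      Hyp 𝒪 p ρbar S'' Smin ∧ SharpWall 𝒪 p ρbar S'' S' := by
  classical
  obtain ⟨S₀, hS₀, hS₀prime, hbase⟩ := hb 𝒪 p ρbar S Smin hyp T hT
  have hprime : ∀ q ∈ S ∪ S₀, q.Prime := fun q hq => by
    rcases Finset.mem_union.1 hq with h | h
    · exact hyp.hS q h
    · exact hS₀prime q h
  have hyp'' : Hyp 𝒪 p ρbar (S ∪ S₀) Smin :=
    hyp_mono 𝒪 p ρbar S Smin hyp Finset.subset_union_left hprime
  have hSminS₀ : Smin ⊆ S₀ := fun v hv => hS₀ (Finset.mem_union_left _ hv)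
  refine ⟨S ∪ S₀, S₀, fun v hv => ?_, hprime, hS₀, Finset.subset_union_right, hyp'',
    sharpWall_of_base_recQ 𝒪 p ρbar (S ∪ S₀) S₀ hbase
      (hr 𝒪 p ρbar (S ∪ S₀) Smin hyp'' S₀ hSminS₀ Finset.subset_union_right)⟩
  rcases Finset.mem_union.1 hv with h | h
  · exact Finset.mem_union_left _ h
  · exact Finset.mem_union_right _ (hS₀ (Finset.mem_union_right _ h))

/-- (REL-WALL) for some `S'' ⊇ S ∪ T`, from the leaves of row S56. -/
theorem exists_relWall_sup (hb : BaseBigOverStatement) (hr : RecQSubStatement)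
    (hur : UrCountStatement) (hyp : Hyp 𝒪 p ρbar S Smin)
    (T : Finset ℕ) (hT : ∀ q ∈ T, q.Prime) (hdisj : Disjoint Smin T) :
    ∃ S'' : Finset ℕ, S ∪ T ⊆ S'' ∧ (∀ q ∈ S'', q.Prime) ∧ Hyp 𝒪 p ρbar S'' Smin ∧
      RelWall 𝒪 p ρbar S'' Smin T := by
  obtain ⟨S'', S', hSS'', hprime, hS', hS'S'', hyp'', hw⟩ :=
    exists_sharpWall_sup 𝒪 p ρbar S Smin hb hr hyp T hT
  exact ⟨S'', hSS'', hprime, hyp'',
    relWall_of_sharpWall 𝒪 p ρbar S'' Smin T S' hS' hS'S'' hdisj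
      (fun q hq => hprime q (hS'S'' hq)) hw (hur 𝒪 p ρbar S'' Smin hyp'')⟩

end

end Fermat.Agent.S38.IA.H183

end

end
-- ===== PACK-END S38/IA/H183/RelWall.lean

-- ===== PACK-BEGIN S38/IA/H183/Framed.lean
section


/-!
# Row 37 pivot (Ihara avoidance), Galois side — the FRAMED WALL (helper183)

Plain-function language of `Fermat/Agent/S56/H716`.  Notation of `RelWall.lean`.

A tangent vector of the deformation ring framed at `T` (`R_Q[[z_{v,1}, z_{v,2}, z_{v,3}]]_{v ∈ T}`)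
RELATIVE to the local lifting rings at `T` is a pair `(c, y)`: `c` a Selmer cocycle (no condition
at `T`), `y v ∈ End V` (`v ∈ T`) a *frame*: `c = ∂(y v)` on `D_{Pl v}`; two pairs are equivalent
when they differ by a *framed coboundary* `(∂m, (m + a_v)_v)`, `a_v` scalars.

* `IsFrameOf`, `IsFramedCoboundary`, `framedSpace`.
* `FramedWall 𝒪 p ρbar S Smin T` : the pairs `(c, y)` are represented, modulo framed coboundaries,
  by a space of dimension `≤ #Q`.
* `framedWall_of_relWall : (2 : k) ≠ 0 → RelWall → FramedWall`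
  (`dim = dim 𝒯 + ∑_{v ∈ T} h⁰(D_v, ad⁰ρ̄) ≤ #Q`).
* `VanishingWall 𝒪 p ρbar S Smin q` (`T = {q}`): the Selmer cocycles VANISHING on `D_{Pl q}`
  lie in a space of dimension `≤ #Q`;  `vanishingWall_of_framedWall`.

Nothing unproved in this file.
-/

set_option autoImplicit false

open Polynomial IsLocalRing

noncomputable section

namespace Fermat.Agent.S38.IA.H183

open Fermat.Agent.S56 Fermat.Agent.S56.H716

section

variable {k : Type} [Field k] (ρbar : ResidualGaloisRep k)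

/-- `y` is a frame of the cocycle `c` along `T`: `c = ∂(y v)` on the decomposition group of the
place `Pl v`, for every `v ∈ T`. -/
def IsFrameOf (Pl : ℕ → ValuationSubring Qb) (T : Finset ℕ)
    (c : GQ → Module.End k ρbar.V) (y : ℕ → Module.End k ρbar.V) : Prop :=
  ∀ v ∈ T, ∀ σ ∈ (Pl v).decompositionSubgroup ℚ, c σ = ρbar.ρ σ * y v * ρbar.ρ σ⁻¹ - y v

/-- Framed coboundaries: `(∂m, (m + a_v)_{v ∈ T})`, `a_v` scalars. -/
def IsFramedCoboundary (T : Finset ℕ)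
    (x : (GQ → Module.End k ρbar.V) × (ℕ → Module.End k ρbar.V)) : Prop :=
  ∃ m : Module.End k ρbar.V, (∀ σ, x.1 σ = ρbar.ρ σ * m * ρbar.ρ σ⁻¹ - m) ∧
    ∀ v ∈ T, ∃ a : k, x.2 v = m + a • (1 : Module.End k ρbar.V)

/-- The framed pairs `(t, y)` with `t ∈ 𝒯`, `y v` a trace-zero frame of `t` at `v ∈ T` and
`y v = 0` for `v ∉ T`. -/
def framedSpace (Pl : ℕ → ValuationSubring Qb) (T : Finset ℕ)
    (𝒯 : Submodule k (GQ → Module.End k ρbar.V)) :
    Submodule k ((GQ → Module.End k ρbar.V) × (ℕ → Module.End k ρbar.V)) where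
  carrier := {x | x.1 ∈ 𝒯 ∧
    (∀ v ∈ T, LinearMap.trace k ρbar.V (x.2 v) = 0 ∧
      ∀ σ ∈ (Pl v).decompositionSubgroup ℚ,
        x.1 σ = ρbar.ρ σ * x.2 v * ρbar.ρ σ⁻¹ - x.2 v) ∧
    ∀ v, v ∉ T → x.2 v = 0}
  add_mem' := by
    rintro a b ⟨ha1, ha2, ha3⟩ ⟨hb1, hb2, hb3⟩
    refine ⟨Submodule.add_mem _ ha1 hb1, fun v hv => ⟨?_, fun σ hσ => ?_⟩, fun v hv => ?_⟩
    · simp only [Prod.snd_add, Pi.add_apply, map_add, (ha2 v hv).1, (hb2 v hv).1, add_zero]
    · simp only [Prod.fst_add, Prod.snd_add, Pi.add_apply, (ha2 v hv).2 σ hσ,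
        (hb2 v hv).2 σ hσ, mul_add, add_mul]
      abel
    · simp only [Prod.snd_add, Pi.add_apply, ha3 v hv, hb3 v hv, add_zero]
  zero_mem' := by
    refine ⟨Submodule.zero_mem _, fun v _ => ⟨?_, fun σ _ => ?_⟩, fun v _ => rfl⟩
    · simp
    · simp
  smul_mem' := by
    rintro r a ⟨ha1, ha2, ha3⟩
    refine ⟨Submodule.smul_mem _ r ha1, fun v hv => ⟨?_, fun σ hσ => ?_⟩, fun v hv => ?_⟩
    · simp only [Prod.smul_snd, Pi.smul_apply, map_smul, (ha2 v hv).1, smul_zero]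
    · simp only [Prod.smul_fst, Prod.smul_snd, Pi.smul_apply, (ha2 v hv).2 σ hσ,
        mul_smul_comm, smul_mul_assoc, smul_sub]
    · simp only [Prod.smul_snd, Pi.smul_apply, ha3 v hv, smul_zero]

/-- The framed space over a finite-dimensional `𝒯` is finite-dimensional, of dimension
`≤ dim 𝒯 + ∑_{v ∈ T} h⁰(D_{Pl v}, ad⁰ρ̄)`. -/
theorem framedSpace_finrank_le (Pl : ℕ → ValuationSubring Qb) (T : Finset ℕ)
    (𝒯 : Submodule k (GQ → Module.End k ρbar.V)) [Module.Finite k 𝒯] :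
    Module.Finite k (framedSpace ρbar Pl T 𝒯) ∧
      Module.finrank k (framedSpace ρbar Pl T 𝒯) ≤ Module.finrank k 𝒯 +
        ∑ v ∈ T, Module.finrank k (adInv ρbar ((Pl v).decompositionSubgroup ℚ)) := by
  classical
  -- an injective linear map into a finite-dimensional space
  let J : framedSpace ρbar Pl T 𝒯 →ₗ[k] 𝒯 × ((v : ↥T) → Module.End k ρbar.V) :=
    { toFun := fun x => (⟨x.1.1, x.2.1⟩, fun v => x.1.2 v.1)
      map_add' := fun x y => rfl
      map_smul' := fun r x => rfl }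
  have hJ : Function.Injective J := by
    intro x y hxy
    have h1 : x.1.1 = y.1.1 := congrArg (fun z => (z.1 : GQ → Module.End k ρbar.V)) hxy
    have h2 : ∀ v : ↥T, x.1.2 v.1 = y.1.2 v.1 := fun v => congrFun (congrArg Prod.snd hxy) v
    apply Subtype.ext
    refine Prod.ext h1 (funext fun v => ?_)
    by_cases hv : v ∈ T
    · exact h2 ⟨v, hv⟩
    · rw [x.2.2.2 v hv, y.2.2.2 v hv]
  have : Module.Finite k (framedSpace ρbar Pl T 𝒯) := Module.Finite.of_injective J hJ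
  refine ⟨inferInstance, ?_⟩
  let π : framedSpace ρbar Pl T 𝒯 →ₗ[k] 𝒯 :=
    { toFun := fun x => ⟨x.1.1, x.2.1⟩
      map_add' := fun x y => rfl
      map_smul' := fun r x => rfl }
  have hker : ∀ x : LinearMap.ker π, (x.1.1.1 : GQ → Module.End k ρbar.V) = 0 := fun x =>
    congrArg (fun z : 𝒯 => (z : GQ → Module.End k ρbar.V)) (LinearMap.mem_ker.1 x.2)
  let ι : LinearMap.ker π →ₗ[k]
      ((v : ↥T) → adInv ρbar ((Pl v.1).decompositionSubgroup ℚ)) :=
    { toFun := fun x v => ⟨x.1.1.2 v.1, (x.1.2.2.1 v.1 v.2).1, fun σ hσ => by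
        have h := (x.1.2.2.1 v.1 v.2).2 σ hσ
        rw [hker x, Pi.zero_apply] at h
        exact (sub_eq_zero.1 h.symm)⟩
      map_add' := fun x y => rfl
      map_smul' := fun r x => rfl }
  have hι : Function.Injective ι := by
    intro x y hxy
    have h2 : ∀ v : ↥T, x.1.1.2 v.1 = y.1.1.2 v.1 := fun v =>
      congrArg (fun z : adInv ρbar ((Pl v.1).decompositionSubgroup ℚ) =>
        (z : Module.End k ρbar.V)) (congrFun hxy v)
    apply Subtype.ext
    apply Subtype.ext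
    refine Prod.ext ((hker x).trans (hker y).symm) (funext fun v => ?_)
    by_cases hv : v ∈ T
    · exact h2 ⟨v, hv⟩
    · rw [x.1.2.2.2 v hv, y.1.2.2.2 v hv]
  have h1 := LinearMap.finrank_range_add_finrank_ker π
  have h3 : Module.finrank k (LinearMap.range π) ≤ Module.finrank k 𝒯 :=
    Submodule.finrank_le _
  have h4 : Module.finrank k (LinearMap.ker π) ≤
      ∑ v ∈ T, Module.finrank k (adInv ρbar ((Pl v).decompositionSubgroup ℚ)) := by
    calc Module.finrank k (LinearMap.ker π)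
        ≤ Module.finrank k ((v : ↥T) → adInv ρbar ((Pl v.1).decompositionSubgroup ℚ)) :=
          LinearMap.finrank_le_finrank_of_injective hι
      _ = ∑ v : ↥T, Module.finrank k (adInv ρbar ((Pl v.1).decompositionSubgroup ℚ)) :=
          Module.finrank_pi_fintype k
      _ = ∑ v ∈ T, Module.finrank k (adInv ρbar ((Pl v).decompositionSubgroup ℚ)) :=
          Finset.sum_coe_sort T fun v =>
            Module.finrank k (adInv ρbar ((Pl v).decompositionSubgroup ℚ))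
  omega

end

section

variable (𝒪 : Type) [CommRing 𝒪] [IsDomain 𝒪] [IsDiscreteValuationRing 𝒪]
  (p : ℕ) (ρbar : ResidualGaloisRep (ResidueField 𝒪)) (S Smin T : Finset ℕ)

/-- (FRAMED-WALL) for one residual representation: the framed pairs `(c, y)` are represented,
modulo framed coboundaries, by a space of dimension `≤ #Q`. -/
def FramedWall : Prop :=
  ∃ Pl : ℕ → ValuationSubring Qb, (∀ v ∈ Smin ∪ T, (Pl v).LiesOverPrime v) ∧
    ∃ D : Submodule (ResidueField 𝒪) (GQ → Module.End (ResidueField 𝒪) ρbar.V),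
      IsDualFrame ρbar p D ∧
      ∀ (Λ : ℕ → Submodule (ResidueField 𝒪) (GQ → Module.End (ResidueField 𝒪) ρbar.V))
        (δ : ℕ → ℕ), LocBounds ρbar Pl Λ δ Smin →
        ∀ Q : Finset ℕ, (∀ q ∈ Q, IsTWPrime ρbar p S q) → Kills ρbar p D Q →
          ∃ F : Submodule (ResidueField 𝒪)
              ((GQ → Module.End (ResidueField 𝒪) ρbar.V) ×
                (ℕ → Module.End (ResidueField 𝒪) ρbar.V)),
            Module.Finite (ResidueField 𝒪) F ∧
            Module.finrank (ResidueField 𝒪) F ≤ Q.card ∧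
            ∀ c y, IsSelCocycle ρbar Pl Λ Smin (T ∪ Q) c → IsFrameOf ρbar Pl T c y →
              ∃ t ∈ F, IsFramedCoboundary ρbar T ((c, y) - t)

/-- **Glue** `FRAMED-WALL ⇐ REL-WALL` (`p` odd). -/
theorem framedWall_of_relWall (h2 : (2 : ResidueField 𝒪) ≠ 0)
    (hw : RelWall 𝒪 p ρbar S Smin T) : FramedWall 𝒪 p ρbar S Smin T := by
  classical
  obtain ⟨Pl, hPl, D, hD, hW⟩ := hw
  refine ⟨Pl, hPl, D, hD, fun Λ δ hΛ Q hQ hK => ?_⟩
  obtain ⟨𝒯, h𝒯fin, h𝒯dim, h𝒯⟩ := hW Λ δ hΛ Q hQ hK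
  have := h𝒯fin
  obtain ⟨hFfin, hFdim⟩ := framedSpace_finrank_le ρbar Pl T 𝒯
  refine ⟨framedSpace ρbar Pl T 𝒯, hFfin, hFdim.trans h𝒯dim, fun c y hc hy => ?_⟩
  obtain ⟨t, ht, m, hm⟩ := h𝒯 c ⟨hc, fun v hv => ⟨y v, fun σ hσ => hy v hv σ hσ⟩⟩
  have htr1 : LinearMap.trace (ResidueField 𝒪) ρbar.V (1 : Module.End (ResidueField 𝒪) ρbar.V)
      = 2 := by
    rw [LinearMap.trace_one, ρbar.finrank_eq]
    norm_cast
  have hconj : ∀ (σ : GQ) (a : ResidueField 𝒪),
      ρbar.ρ σ * (a • (1 : Module.End (ResidueField 𝒪) ρbar.V)) * ρbar.ρ σ⁻¹ = a • 1 := by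
    intro σ a
    rw [mul_smul_comm, mul_one, smul_mul_assoc, ← map_mul, mul_inv_cancel, map_one]
  let a : ℕ → ResidueField 𝒪 := fun v =>
    LinearMap.trace (ResidueField 𝒪) ρbar.V (y v - m) / 2
  let y' : ℕ → Module.End (ResidueField 𝒪) ρbar.V := fun v =>
    if v ∈ T then y v - m - a v • (1 : Module.End (ResidueField 𝒪) ρbar.V) else 0
  have hy'T : ∀ v ∈ T, y' v = y v - m - a v • (1 : Module.End (ResidueField 𝒪) ρbar.V) :=
    fun v hv => if_pos hv
  refine ⟨(t, y'), ⟨ht, fun v hv => ⟨?_, fun σ hσ => ?_⟩, fun v hv => if_neg hv⟩, m,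
    fun σ => ?_, fun v hv => ⟨a v, ?_⟩⟩
  · show LinearMap.trace (ResidueField 𝒪) ρbar.V (y' v) = 0
    rw [hy'T v hv, map_sub, map_smul, htr1, smul_eq_mul]
    simp only [a]
    field_simp
    ring
  · show t σ = ρbar.ρ σ * y' v * ρbar.ρ σ⁻¹ - y' v
    have h1 := hm σ
    have h3 := hy v hv σ hσ
    rw [Pi.sub_apply, h3] at h1
    rw [hy'T v hv, mul_sub, sub_mul, mul_sub, sub_mul, hconj]
    have h4 : t σ = ρbar.ρ σ * y v * ρbar.ρ σ⁻¹ - y v - (ρbar.ρ σ * m * ρbar.ρ σ⁻¹ - m) := by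
      rw [← h1]
      abel
    rw [h4]
    abel
  · show ((c, y) - (t, y')).1 σ = ρbar.ρ σ * m * ρbar.ρ σ⁻¹ - m
    simpa using hm σ
  · show ((c, y) - (t, y')).2 v = m + a v • (1 : Module.End (ResidueField 𝒪) ρbar.V)
    simp only [Prod.mk_sub_mk, Pi.sub_apply, hy'T v hv]
    abel

/-- (VANISHING-WALL) for one residual representation and one prime `q`: the Selmer cocycles
(no condition at `q`) which VANISH on the decomposition group at `Pl q` lie in a space of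
dimension `≤ #Q`. -/
def VanishingWall (q : ℕ) : Prop :=
  ∃ Pl : ℕ → ValuationSubring Qb, (∀ v ∈ Smin ∪ {q}, (Pl v).LiesOverPrime v) ∧
    ∃ D : Submodule (ResidueField 𝒪) (GQ → Module.End (ResidueField 𝒪) ρbar.V),
      IsDualFrame ρbar p D ∧
      ∀ (Λ : ℕ → Submodule (ResidueField 𝒪) (GQ → Module.End (ResidueField 𝒪) ρbar.V))
        (δ : ℕ → ℕ), LocBounds ρbar Pl Λ δ Smin →
        ∀ Q : Finset ℕ, (∀ q' ∈ Q, IsTWPrime ρbar p S q') → Kills ρbar p D Q →
          ∃ 𝒯₀ : Submodule (ResidueField 𝒪) (GQ → Module.End (ResidueField 𝒪) ρbar.V),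
            Module.Finite (ResidueField 𝒪) 𝒯₀ ∧
            Module.finrank (ResidueField 𝒪) 𝒯₀ ≤ Q.card ∧
            ∀ c, IsSelCocycle ρbar Pl Λ Smin ({q} ∪ Q) c →
              (∀ σ ∈ (Pl q).decompositionSubgroup ℚ, c σ = 0) → c ∈ 𝒯₀

/-- **Glue** `VANISHING-WALL(q) ⇐ FRAMED-WALL({q})`. -/
theorem vanishingWall_of_framedWall (q : ℕ) (hw : FramedWall 𝒪 p ρbar S Smin {q}) :
    VanishingWall 𝒪 p ρbar S Smin q := by
  classical
  obtain ⟨Pl, hPl, D, hD, hW⟩ := hw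
  refine ⟨Pl, hPl, D, hD, fun Λ δ hΛ Q hQ hK => ?_⟩
  obtain ⟨F, hFfin, hFdim, hF⟩ := hW Λ δ hΛ Q hQ hK
  have := hFfin
  -- the linear map `(t, y) ↦ t − ∂(y q)`
  let L : ((GQ → Module.End (ResidueField 𝒪) ρbar.V) ×
      (ℕ → Module.End (ResidueField 𝒪) ρbar.V)) →ₗ[ResidueField 𝒪]
      (GQ → Module.End (ResidueField 𝒪) ρbar.V) :=
    { toFun := fun x σ => x.1 σ - (ρbar.ρ σ * x.2 q * ρbar.ρ σ⁻¹ - x.2 q)
      map_add' := fun x y => by
        funext σ
        simp only [Prod.fst_add, Prod.snd_add, Pi.add_apply, mul_add, add_mul]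
        abel
      map_smul' := fun r x => by
        funext σ
        simp only [Prod.smul_fst, Prod.smul_snd, Pi.smul_apply, mul_smul_comm, smul_mul_assoc,
          RingHom.id_apply, smul_sub] }
  refine ⟨F.map L, inferInstance, (Submodule.finrank_map_le L F).trans hFdim, fun c hc h0 => ?_⟩
  have hfr : IsFrameOf ρbar Pl {q} c (fun _ => 0) := by
    intro v hv σ hσ
    rw [Finset.mem_singleton.1 hv] at hσ
    rw [h0 σ hσ]
    simp
  obtain ⟨t, ht, m, hm1, hm2⟩ := hF c (fun _ => 0) hc hfr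
  obtain ⟨a, ha⟩ := hm2 q (Finset.mem_singleton_self q)
  refine ⟨t, ht, funext fun σ => ?_⟩
  have h1 := hm1 σ
  have h2 : t.2 q = -(m + a • (1 : Module.End (ResidueField 𝒪) ρbar.V)) := by
    have : (0 : Module.End (ResidueField 𝒪) ρbar.V) - t.2 q = m + a • 1 := by simpa using ha
    rw [← this]
    abel
  have hconj : ρbar.ρ σ * (a • (1 : Module.End (ResidueField 𝒪) ρbar.V)) * ρbar.ρ σ⁻¹
      = a • 1 := by
    rw [mul_smul_comm, mul_one, smul_mul_assoc, ← map_mul, mul_inv_cancel, map_one]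
  have h3 : c σ = t.1 σ + (ρbar.ρ σ * m * ρbar.ρ σ⁻¹ - m) := by
    have : c σ - t.1 σ = ρbar.ρ σ * m * ρbar.ρ σ⁻¹ - m := by simpa using h1
    rw [← this]
    abel
  show t.1 σ - (ρbar.ρ σ * t.2 q * ρbar.ρ σ⁻¹ - t.2 q) = c σ
  rw [h2, h3, mul_neg, neg_mul, mul_add, add_mul, hconj]
  abel

end

end Fermat.Agent.S38.IA.H183

end

end
-- ===== PACK-END S38/IA/H183/Framed.lean

-- ===== PACK-BEGIN S38/IA/H183/RelSel.lean
section



/-!
# Row 37 pivot (Ihara avoidance), Galois side — the FRAMED SELMER BOUND (helper183)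

The walls of `RelWall.lean`, `Framed.lean` in terms of TANGENT cocycles of the deformation
conditions of row S56 with auxiliary set `T ∪ Q` (`T` = the hard primes, no condition there;
every deformation condition used in Ihara avoidance — type `1`, type `χ` — implies one of these).

* `LocAny` / `locAny_of_local` / `locOrdAny_of` / `locFlatAny_of` : `H716.Loc` for ARBITRARY
  auxiliary sets (the Taylor–Wiles hypothesis of `H716.Loc` is never used).
* `FramedSelBound 𝒪 p ρbar S Smin T cond` : places `Pl`, a dual frame `D`; for every Taylor–Wiles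
  set `Q` killing `D` a space `F` of framed pairs with `dim F ≤ #Q` representing, modulo framed
  coboundaries, all pairs `(c, y)`: `c` a tangent cocycle of type `cond (T ∪ Q)`, `y` a frame of
  `c` along `T`.
* `VanishingSelBound 𝒪 p ρbar S Smin q cond` (`T = {q}`): the tangent cocycles of type
  `cond ({q} ∪ Q)` VANISHING on `D_{Pl q}` lie in a space of dimension `≤ #Q`.
* `framedSelBoundOrd_sup`, `framedSelBoundFlat_sup`, `vanishingSelBoundOrd_sup`,
  `vanishingSelBoundFlat_sup` : these bounds for some `S'' ⊇ S ∪ T`, from the leaves of row S56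
  (LOC-MIN, LOC-SO / LOC-FLAT, REC-Q-SUB, UR-COUNT) and BASE-BIG-OVER (`BaseOver.lean`).

Nothing unproved in this file.
-/

set_option autoImplicit false

open Polynomial IsLocalRing
open scoped TensorProduct

noncomputable section

namespace Fermat.Agent.S38.IA.H183

open Fermat.Agent.S56 Fermat.Agent.S56.H716

section

variable (𝒪 : Type) [CommRing 𝒪] [IsDomain 𝒪] [IsDiscreteValuationRing 𝒪]
  [IsAdicComplete (maximalIdeal 𝒪) 𝒪]
  (p : ℕ) (ρbar : ResidualGaloisRep (ResidueField 𝒪)) (S Smin T : Finset ℕ)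

/-- (LOC-ANY): `H716.Loc` for arbitrary auxiliary sets. -/
def LocAny (cond : Finset ℕ → DefCond 𝒪) : Prop :=
  ∀ Pl : ℕ → ValuationSubring Qb, (∀ v ∈ Smin, (Pl v).LiesOverPrime v) →
    ∃ (Λ : ℕ → Submodule (ResidueField 𝒪) (GQ → Module.End (ResidueField 𝒪) ρbar.V))
      (δ : ℕ → ℕ), LocBounds ρbar Pl Λ δ Smin ∧
      ∀ (Q : Finset ℕ) (c : GQ → Module.End (ResidueField 𝒪) ρbar.V),
        IsTanCocycle 𝒪 ρbar (cond Q) c → IsSelCocycle ρbar Pl Λ Smin Q c

/-- `LOC-ANY(cond)` from one local bound per place of `Smin` (proof of `H716.loc_of_local`). -/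
theorem locAny_of_local (cond : Finset ℕ → DefCond 𝒪)
    (Ty : ℕ → GaloisRepAdic (DualNumber (ResidueField 𝒪)) → Prop) (d : ℕ → ℕ)
    (hd : ∑ v ∈ Smin, d v ≤ 1)
    (hloc : ∀ v ∈ Smin, ∀ P : ValuationSubring Qb, P.LiesOverPrime v →
      LocalBoundAt ρbar P (Ty v) (d v))
    (hTy : ∀ (Q : Finset ℕ) (ρ' : GaloisRepAdic (DualNumber (ResidueField 𝒪))),
      @cond Q (DualNumber (ResidueField 𝒪)) _ _ (tanAlgebra 𝒪) ρ' →
        (∀ v ∈ Smin, Ty v ρ') ∧ ∀ q : ℕ, q.Prime → q ∉ Smin ∪ Q → ρ'.IsUnramifiedAt q) :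
    LocAny 𝒪 ρbar Smin cond := by
  classical
  intro Pl hPl
  let Λ : ℕ → Submodule (ResidueField 𝒪) (GQ → Module.End (ResidueField 𝒪) ρbar.V) :=
    fun v => if h : v ∈ Smin then (hloc v h (Pl v) (hPl v h)).choose else ⊥
  have hΛ : ∀ v (h : v ∈ Smin), Λ v = (hloc v h (Pl v) (hPl v h)).choose := fun v h => dif_pos h
  refine ⟨Λ, d, ⟨fun v hv => ?_, hd⟩, fun Q c hc => ?_⟩
  · rw [hΛ v hv]
    exact ⟨(hloc v hv (Pl v) (hPl v hv)).choose_spec.1,
      (hloc v hv (Pl v) (hPl v hv)).choose_spec.2.1⟩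
  · obtain ⟨hcoc, ρ', hl, hcond⟩ := hc
    obtain ⟨hT, hur⟩ := hTy Q ρ' hcond
    refine ⟨hcoc, fun q hq hqn => unramAt_of_isLiftOf ρbar hl (hur q hq hqn), fun v hv => ?_⟩
    rw [hΛ v hv]
    exact (hloc v hv (Pl v) (hPl v hv)).choose_spec.2.2 c hcoc ⟨ρ', hl, hT v hv⟩

/-- (FRAMED-SELBOUND) for a family of conditions indexed by the auxiliary set. -/
def FramedSelBound (cond : Finset ℕ → DefCond 𝒪) : Prop :=
  ∃ Pl : ℕ → ValuationSubring Qb, (∀ v ∈ Smin ∪ T, (Pl v).LiesOverPrime v) ∧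
    ∃ D : Submodule (ResidueField 𝒪) (GQ → Module.End (ResidueField 𝒪) ρbar.V),
      IsDualFrame ρbar p D ∧
      ∀ Q : Finset ℕ, (∀ q ∈ Q, IsTWPrime ρbar p S q) → Kills ρbar p D Q →
        ∃ F : Submodule (ResidueField 𝒪)
            ((GQ → Module.End (ResidueField 𝒪) ρbar.V) ×
              (ℕ → Module.End (ResidueField 𝒪) ρbar.V)),
          Module.Finite (ResidueField 𝒪) F ∧
          Module.finrank (ResidueField 𝒪) F ≤ Q.card ∧
          ∀ c y, IsTanCocycle 𝒪 ρbar (cond (T ∪ Q)) c → IsFrameOf ρbar Pl T c y →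
            ∃ t ∈ F, IsFramedCoboundary ρbar T ((c, y) - t)

/-- `FRAMED-SELBOUND(cond) ⇐ LOC-ANY(cond) + FRAMED-WALL`. -/
theorem framedSelBound_of (cond : Finset ℕ → DefCond 𝒪)
    (hloc : LocAny 𝒪 ρbar Smin cond) (hw : FramedWall 𝒪 p ρbar S Smin T) :
    FramedSelBound 𝒪 p ρbar S Smin T cond := by
  obtain ⟨Pl, hPl, D, hD, hW⟩ := hw
  obtain ⟨Λ, δ, hb, hsel⟩ := hloc Pl fun v hv => hPl v (Finset.mem_union_left _ hv)
  refine ⟨Pl, hPl, D, hD, fun Q hQ hK => ?_⟩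
  obtain ⟨F, hF1, hF2, hF3⟩ := hW Λ δ hb Q hQ hK
  exact ⟨F, hF1, hF2, fun c y hc hy => hF3 c y (hsel (T ∪ Q) c hc) hy⟩

/-- (VANISHING-SELBOUND) for a family of conditions indexed by the auxiliary set, `T = {q}`. -/
def VanishingSelBound (q : ℕ) (cond : Finset ℕ → DefCond 𝒪) : Prop :=
  ∃ Pl : ℕ → ValuationSubring Qb, (∀ v ∈ Smin ∪ {q}, (Pl v).LiesOverPrime v) ∧
    ∃ D : Submodule (ResidueField 𝒪) (GQ → Module.End (ResidueField 𝒪) ρbar.V),
      IsDualFrame ρbar p D ∧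
      ∀ Q : Finset ℕ, (∀ q' ∈ Q, IsTWPrime ρbar p S q') → Kills ρbar p D Q →
        ∃ 𝒯₀ : Submodule (ResidueField 𝒪) (GQ → Module.End (ResidueField 𝒪) ρbar.V),
          Module.Finite (ResidueField 𝒪) 𝒯₀ ∧
          Module.finrank (ResidueField 𝒪) 𝒯₀ ≤ Q.card ∧
          ∀ c, IsTanCocycle 𝒪 ρbar (cond ({q} ∪ Q)) c →
            (∀ σ ∈ (Pl q).decompositionSubgroup ℚ, c σ = 0) → c ∈ 𝒯₀

/-- `VANISHING-SELBOUND(cond) ⇐ LOC-ANY(cond) + VANISHING-WALL`. -/
theorem vanishingSelBound_of (q : ℕ) (cond : Finset ℕ → DefCond 𝒪)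
    (hloc : LocAny 𝒪 ρbar Smin cond) (hw : VanishingWall 𝒪 p ρbar S Smin q) :
    VanishingSelBound 𝒪 p ρbar S Smin q cond := by
  obtain ⟨Pl, hPl, D, hD, hW⟩ := hw
  obtain ⟨Λ, δ, hb, hsel⟩ := hloc Pl fun v hv => hPl v (Finset.mem_union_left _ hv)
  refine ⟨Pl, hPl, D, hD, fun Q hQ hK => ?_⟩
  obtain ⟨𝒯₀, h1, h2, h3⟩ := hW Λ δ hb Q hQ hK
  exact ⟨𝒯₀, h1, h2, fun c hc h0 => h3 c (hsel ({q} ∪ Q) c hc) h0⟩

end

section

variable (𝒪 : Type) [CommRing 𝒪] [IsDomain 𝒪] [IsDiscreteValuationRing 𝒪]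
  [IsAdicComplete (maximalIdeal 𝒪) 𝒪] [Finite (ResidueField 𝒪)]
  (p : ℕ) (ρbar : ResidualGaloisRep (ResidueField 𝒪)) (S Smin : Finset ℕ)

/-- (LOC-ANY-ord) from the local leaves (LOC-MIN) and (LOC-SO). -/
theorem locOrdAny_of (hmin : LocMinStatement) (hord : LocOrdPStatement)
    (hyp : Hyp 𝒪 p ρbar S Smin) : LocAny 𝒪 ρbar Smin (ordCond 𝒪 p Smin) := by
  classical
  refine locAny_of_local 𝒪 ρbar Smin (ordCond 𝒪 p Smin)
    (fun v ρ' => if v = p then ρ'.DetIsCyclotomic p ∧ ρ'.IsStrictOrdinaryAt p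
      else ρ'.DetIsCyclotomic p ∧ ρ'.IsUnipotentOnInertiaAt v)
    (fun v => if v = p then 1 else 0) (sum_defect_le_one p Smin) ?_ ?_
  · intro v hv P hP
    by_cases hvp : v = p
    · subst hvp
      simpa using hord 𝒪 v ρbar S Smin hyp P hP
    · simpa [hvp] using hmin 𝒪 p ρbar S Smin hyp v hv hvp P hP
  · rintro Q ρ' ⟨⟨hdet, hso, hur⟩, huni⟩
    refine ⟨fun v hv => ?_, hur⟩
    by_cases hvp : v = p
    · simp only [hvp, if_true]
      exact ⟨hdet, hso⟩
    · simp only [hvp, if_false]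
      exact ⟨hdet, huni v hv (hyp.hS v (hyp.hSmin hv)) hvp⟩

/-- (LOC-ANY-flat) from the local leaves (LOC-MIN) and (LOC-FLAT). -/
theorem locFlatAny_of (hmin : LocMinStatement) (hflat : LocFlatPStatement)
    (hyp : Hyp 𝒪 p ρbar S Smin) : LocAny 𝒪 ρbar Smin (flatCond 𝒪 p Smin) := by
  classical
  refine locAny_of_local 𝒪 ρbar Smin (flatCond 𝒪 p Smin)
    (fun v ρ' => if v = p then ρ'.DetIsCyclotomic p ∧ ρ'.IsFlatAt p
      else ρ'.DetIsCyclotomic p ∧ ρ'.IsUnipotentOnInertiaAt v)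
    (fun v => if v = p then 1 else 0) (sum_defect_le_one p Smin) ?_ ?_
  · intro v hv P hP
    by_cases hvp : v = p
    · subst hvp
      simpa using hflat 𝒪 v ρbar S Smin hyp P hP
    · simpa [hvp] using hmin 𝒪 p ρbar S Smin hyp v hv hvp P hP
  · rintro Q ρ' ⟨⟨hdet, hfl, hur⟩, huni⟩
    refine ⟨fun v hv => ?_, hur⟩
    by_cases hvp : v = p
    · simp only [hvp, if_true]
      exact ⟨hdet, hfl⟩
    · simp only [hvp, if_false]
      exact ⟨hdet, huni v hv (hyp.hS v (hyp.hSmin hv)) hvp⟩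

/-- (FRAMED-WALL) for some `S'' ⊇ S ∪ T`, from the leaves of row S56. -/
theorem exists_framedWall_sup (hb : BaseBigOverStatement) (hr : RecQSubStatement)
    (hur : UrCountStatement) (hyp : Hyp 𝒪 p ρbar S Smin)
    (T : Finset ℕ) (hT : ∀ q ∈ T, q.Prime) (hdisj : Disjoint Smin T) :
    ∃ S'' : Finset ℕ, S ∪ T ⊆ S'' ∧ (∀ q ∈ S'', q.Prime) ∧ Hyp 𝒪 p ρbar S'' Smin ∧
      FramedWall 𝒪 p ρbar S'' Smin T := by
  obtain ⟨S'', h1, h2, hyp'', hw⟩ := exists_relWall_sup 𝒪 p ρbar S Smin hb hr hur hyp T hT hdisj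
  exact ⟨S'', h1, h2, hyp'',
    framedWall_of_relWall 𝒪 p ρbar S'' Smin T (H596.two_ne_zero_of_hyp hyp) hw⟩

/-- **(FRAMED-SELBOUND-ord)** for some `S'' ⊇ S ∪ T`, from the leaves. -/
theorem framedSelBoundOrd_sup (hmin : LocMinStatement) (hord : LocOrdPStatement)
    (hb : BaseBigOverStatement) (hr : RecQSubStatement) (hur : UrCountStatement)
    (hyp : Hyp 𝒪 p ρbar S Smin)
    (T : Finset ℕ) (hT : ∀ q ∈ T, q.Prime) (hdisj : Disjoint Smin T) :
    ∃ S'' : Finset ℕ, S ∪ T ⊆ S'' ∧ (∀ q ∈ S'', q.Prime) ∧ Hyp 𝒪 p ρbar S'' Smin ∧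
      FramedSelBound 𝒪 p ρbar S'' Smin T (ordCond 𝒪 p Smin) := by
  obtain ⟨S'', h1, h2, hyp'', hw⟩ :=
    exists_framedWall_sup 𝒪 p ρbar S Smin hb hr hur hyp T hT hdisj
  exact ⟨S'', h1, h2, hyp'', framedSelBound_of 𝒪 p ρbar S'' Smin T (ordCond 𝒪 p Smin)
    (locOrdAny_of 𝒪 p ρbar S'' Smin hmin hord hyp'') hw⟩

/-- **(FRAMED-SELBOUND-flat)** for some `S'' ⊇ S ∪ T`, from the leaves. -/
theorem framedSelBoundFlat_sup (hmin : LocMinStatement) (hflat : LocFlatPStatement)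
    (hb : BaseBigOverStatement) (hr : RecQSubStatement) (hur : UrCountStatement)
    (hyp : Hyp 𝒪 p ρbar S Smin)
    (T : Finset ℕ) (hT : ∀ q ∈ T, q.Prime) (hdisj : Disjoint Smin T) :
    ∃ S'' : Finset ℕ, S ∪ T ⊆ S'' ∧ (∀ q ∈ S'', q.Prime) ∧ Hyp 𝒪 p ρbar S'' Smin ∧
      FramedSelBound 𝒪 p ρbar S'' Smin T (flatCond 𝒪 p Smin) := by
  obtain ⟨S'', h1, h2, hyp'', hw⟩ :=
    exists_framedWall_sup 𝒪 p ρbar S Smin hb hr hur hyp T hT hdisj
  exact ⟨S'', h1, h2, hyp'', framedSelBound_of 𝒪 p ρbar S'' Smin T (flatCond 𝒪 p Smin)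
    (locFlatAny_of 𝒪 p ρbar S'' Smin hmin hflat hyp'') hw⟩

/-- **(VANISHING-SELBOUND-ord)** at one prime `q ∉ Smin`, for some `S'' ⊇ S ∪ {q}`. -/
theorem vanishingSelBoundOrd_sup (hmin : LocMinStatement) (hord : LocOrdPStatement)
    (hb : BaseBigOverStatement) (hr : RecQSubStatement) (hur : UrCountStatement)
    (hyp : Hyp 𝒪 p ρbar S Smin) (q : ℕ) (hq : q.Prime) (hqS : q ∉ Smin) :
    ∃ S'' : Finset ℕ, S ∪ {q} ⊆ S'' ∧ (∀ q' ∈ S'', q'.Prime) ∧ Hyp 𝒪 p ρbar S'' Smin ∧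
      VanishingSelBound 𝒪 p ρbar S'' Smin q (ordCond 𝒪 p Smin) := by
  obtain ⟨S'', h1, h2, hyp'', hw⟩ :=
    exists_framedWall_sup 𝒪 p ρbar S Smin hb hr hur hyp {q}
      (fun q' hq' => by rw [Finset.mem_singleton.1 hq']; exact hq)
      (Finset.disjoint_singleton_right.2 hqS)
  exact ⟨S'', h1, h2, hyp'', vanishingSelBound_of 𝒪 p ρbar S'' Smin q (ordCond 𝒪 p Smin)
    (locOrdAny_of 𝒪 p ρbar S'' Smin hmin hord hyp'')
    (vanishingWall_of_framedWall 𝒪 p ρbar S'' Smin q hw)⟩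

/-- **(VANISHING-SELBOUND-flat)** at one prime `q ∉ Smin`, for some `S'' ⊇ S ∪ {q}`. -/
theorem vanishingSelBoundFlat_sup (hmin : LocMinStatement) (hflat : LocFlatPStatement)
    (hb : BaseBigOverStatement) (hr : RecQSubStatement) (hur : UrCountStatement)
    (hyp : Hyp 𝒪 p ρbar S Smin) (q : ℕ) (hq : q.Prime) (hqS : q ∉ Smin) :
    ∃ S'' : Finset ℕ, S ∪ {q} ⊆ S'' ∧ (∀ q' ∈ S'', q'.Prime) ∧ Hyp 𝒪 p ρbar S'' Smin ∧
      VanishingSelBound 𝒪 p ρbar S'' Smin q (flatCond 𝒪 p Smin) := by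
  obtain ⟨S'', h1, h2, hyp'', hw⟩ :=
    exists_framedWall_sup 𝒪 p ρbar S Smin hb hr hur hyp {q}
      (fun q' hq' => by rw [Finset.mem_singleton.1 hq']; exact hq)
      (Finset.disjoint_singleton_right.2 hqS)
  exact ⟨S'', h1, h2, hyp'', vanishingSelBound_of 𝒪 p ρbar S'' Smin q (flatCond 𝒪 p Smin)
    (locFlatAny_of 𝒪 p ρbar S'' Smin hmin hflat hyp'')
    (vanishingWall_of_framedWall 𝒪 p ρbar S'' Smin q hw)⟩

end

end Fermat.Agent.S38.IA.H183

end

end
-- ===== PACK-END S38/IA/H183/RelSel.lean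

-- ===== PACK-BEGIN S38/IA/H183/ToRelSel.lean
section



/-!
# Row 37 pivot (Ihara avoidance), Galois side — REL-SEL from the walls (helper183)

helper953's relative presentation `H953.exists_surjective_of_relSel` (REL-P1,
`Fermat/Agent/S38/H953/RelP1.lean`) consumes

    `H953.RelSel 𝒪 ρbar 𝒟 Dset r` : the tangent cocycles of type `𝒟`, and the cocycles which are
    coboundaries, VANISHING on the set `Dset ⊆ G_ℚ` lie in a space of dimension `≤ r`.

This file produces it, with `r = #Q`, from the vanishing wall of `Framed.lean`: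

* `isSelCocycle_of_isAdCoboundary` : a cocycle which is a coboundary is a Selmer cocycle for any
  local spaces (`ρ̄` is unramified outside `Smin`).
* `RelSelAt 𝒪 p ρbar S Smin q base` : places `Pl`, a dual frame `D`; for every Taylor–Wiles set
  `Q` killing `D`, EVERY deformation condition `𝒟` which implies `base ({q} ∪ Q)` on lifts to
  the dual numbers, and EVERY set `Dset` such that a cocycle vanishing on `Dset` vanishes on the
  decomposition group at `Pl q` (e.g. `Dset = D_{Pl q}`, or a tame pair `{φ, σ}` at `Pl q` by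
  helper1's `locGenCocycle`):  `H953.RelSel 𝒪 ρbar 𝒟 Dset #Q`.
* `relSelAt_of_vanishingWall`, `relSelAtOrd_sup`, `relSelAtFlat_sup` (from the leaves of row S56
  and BASE-BIG-OVER).

Nothing unproved in this file.
-/

set_option autoImplicit false

open Polynomial IsLocalRing

noncomputable section

namespace Fermat.Agent.S38.IA.H183

open Fermat.Agent.S56 Fermat.Agent.S56.H716

section

variable {𝒪 : Type} [CommRing 𝒪] [IsDomain 𝒪] [IsDiscreteValuationRing 𝒪]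
  {p : ℕ} {ρbar : ResidualGaloisRep (ResidueField 𝒪)} {S Smin : Finset ℕ}

/-- A cocycle which is a coboundary is a Selmer cocycle, for any places, local spaces and
auxiliary set. -/
theorem isSelCocycle_of_isAdCoboundary (hyp : Hyp 𝒪 p ρbar S Smin)
    (Pl : ℕ → ValuationSubring Qb)
    (Λ : ℕ → Submodule (ResidueField 𝒪) (GQ → Module.End (ResidueField 𝒪) ρbar.V))
    (Q : Finset ℕ) {c : GQ → Module.End (ResidueField 𝒪) ρbar.V}
    (hc : IsAdCocycle ρbar c) (hb : IsAdCoboundary ρbar c) :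
    IsSelCocycle ρbar Pl Λ Smin Q c := by
  obtain ⟨m, hm⟩ := hb
  refine ⟨hc, fun q hq hqn P hP σ hσ => ?_, fun v _ => ⟨0, Submodule.zero_mem _, m, fun σ _ => ?_⟩⟩
  · have hqSmin : q ∉ Smin := fun h => hqn (Finset.mem_union_left _ h)
    have hqp : q ≠ p := fun h => hqSmin (h ▸ hyp.hpSmin)
    have hur : ρbar.IsUnramifiedAt q := by
      by_contra hcon
      exact hqSmin ((hyp.hmin q hq hqp).2 hcon)
    have h1 : ρbar.ρ σ = 1 := hur P hP σ hσ
    have h2 : ρbar.ρ σ⁻¹ = 1 := hur P hP σ⁻¹ (inv_mem hσ)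
    rw [hm σ, h1, h2, one_mul, mul_one, sub_self]
  · rw [sub_zero]
    exact hm σ

end

section

variable (𝒪 : Type) [CommRing 𝒪] [IsDomain 𝒪] [IsDiscreteValuationRing 𝒪]
  [IsAdicComplete (maximalIdeal 𝒪) 𝒪]
  (p : ℕ) (ρbar : ResidualGaloisRep (ResidueField 𝒪)) (S Smin : Finset ℕ)

/-- (REL-SEL-AT) the input `H953.RelSel` of the relative presentation at one prime `q`, with
`r = #Q`, for all deformation conditions finer than `base ({q} ∪ Q)`. -/
def RelSelAt (q : ℕ) (base : Finset ℕ → DefCond 𝒪) : Prop :=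
  ∃ Pl : ℕ → ValuationSubring Qb, (∀ v ∈ Smin ∪ {q}, (Pl v).LiesOverPrime v) ∧
    ∃ D : Submodule (ResidueField 𝒪) (GQ → Module.End (ResidueField 𝒪) ρbar.V),
      IsDualFrame ρbar p D ∧
      ∀ Q : Finset ℕ, (∀ q' ∈ Q, IsTWPrime ρbar p S q') → Kills ρbar p D Q →
        ∀ 𝒟 : DefCond 𝒪,
          (∀ ρ' : GaloisRepAdic (DualNumber (ResidueField 𝒪)),
            @𝒟 (DualNumber (ResidueField 𝒪)) _ _ (tanAlgebra 𝒪) ρ' →
              @base ({q} ∪ Q) (DualNumber (ResidueField 𝒪)) _ _ (tanAlgebra 𝒪) ρ') →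
          ∀ Dset : Set GQ,
            (∀ c, IsAdCocycle ρbar c → (∀ σ ∈ Dset, c σ = 0) →
              ∀ σ ∈ (Pl q).decompositionSubgroup ℚ, c σ = 0) →
            H953.RelSel 𝒪 ρbar 𝒟 Dset Q.card

/-- `REL-SEL-AT(base) ⇐ LOC-ANY(base) + VANISHING-WALL`. -/
theorem relSelAt_of_vanishingWall (hyp : Hyp 𝒪 p ρbar S Smin) (q : ℕ)
    (base : Finset ℕ → DefCond 𝒪) (hloc : LocAny 𝒪 ρbar Smin base)
    (hw : VanishingWall 𝒪 p ρbar S Smin q) : RelSelAt 𝒪 p ρbar S Smin q base := by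
  obtain ⟨Pl, hPl, D, hD, hW⟩ := hw
  obtain ⟨Λ, δ, hb, hsel⟩ := hloc Pl fun v hv => hPl v (Finset.mem_union_left _ hv)
  refine ⟨Pl, hPl, D, hD, fun Q hQ hK 𝒟 h𝒟 Dset hDset => ?_⟩
  obtain ⟨𝒯₀, h1, h2, h3⟩ := hW Λ δ hb Q hQ hK
  refine ⟨𝒯₀, h1, h2, fun c hc h0 => ?_⟩
  rcases hc with hc | ⟨hc, hcb⟩
  · obtain ⟨hcoc, ρ', hl, hcond⟩ := hc
    exact h3 c (hsel ({q} ∪ Q) c ⟨hcoc, ρ', hl, h𝒟 ρ' hcond⟩) (hDset c hcoc h0)
  · exact h3 c (isSelCocycle_of_isAdCoboundary hyp Pl Λ ({q} ∪ Q) hc hcb) (hDset c hc h0)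

end

section

variable (𝒪 : Type) [CommRing 𝒪] [IsDomain 𝒪] [IsDiscreteValuationRing 𝒪]
  [IsAdicComplete (maximalIdeal 𝒪) 𝒪] [Finite (ResidueField 𝒪)]
  (p : ℕ) (ρbar : ResidualGaloisRep (ResidueField 𝒪)) (S Smin : Finset ℕ)

/-- (VANISHING-WALL) at one prime `q ∉ Smin`, for some `S'' ⊇ S ∪ {q}`, from the leaves. -/
theorem exists_vanishingWall_sup (hb : BaseBigOverStatement) (hr : RecQSubStatement)
    (hur : UrCountStatement) (hyp : Hyp 𝒪 p ρbar S Smin) (q : ℕ) (hq : q.Prime)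
    (hqS : q ∉ Smin) :
    ∃ S'' : Finset ℕ, S ∪ {q} ⊆ S'' ∧ (∀ q' ∈ S'', q'.Prime) ∧ Hyp 𝒪 p ρbar S'' Smin ∧
      VanishingWall 𝒪 p ρbar S'' Smin q := by
  obtain ⟨S'', h1, h2, hyp'', hw⟩ :=
    exists_framedWall_sup 𝒪 p ρbar S Smin hb hr hur hyp {q}
      (fun q' hq' => by rw [Finset.mem_singleton.1 hq']; exact hq)
      (Finset.disjoint_singleton_right.2 hqS)
  exact ⟨S'', h1, h2, hyp'', vanishingWall_of_framedWall 𝒪 p ρbar S'' Smin q hw⟩

/-- **(REL-SEL-AT-ord)** at one prime `q ∉ Smin`, for some `S'' ⊇ S ∪ {q}`, from the leaves. -/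
theorem relSelAtOrd_sup (hmin : LocMinStatement) (hord : LocOrdPStatement)
    (hb : BaseBigOverStatement) (hr : RecQSubStatement) (hur : UrCountStatement)
    (hyp : Hyp 𝒪 p ρbar S Smin) (q : ℕ) (hq : q.Prime) (hqS : q ∉ Smin) :
    ∃ S'' : Finset ℕ, S ∪ {q} ⊆ S'' ∧ (∀ q' ∈ S'', q'.Prime) ∧ Hyp 𝒪 p ρbar S'' Smin ∧
      RelSelAt 𝒪 p ρbar S'' Smin q (ordCond 𝒪 p Smin) := by
  obtain ⟨S'', h1, h2, hyp'', hw⟩ :=
    exists_vanishingWall_sup 𝒪 p ρbar S Smin hb hr hur hyp q hq hqS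
  exact ⟨S'', h1, h2, hyp'', relSelAt_of_vanishingWall 𝒪 p ρbar S'' Smin hyp'' q
    (ordCond 𝒪 p Smin) (locOrdAny_of 𝒪 p ρbar S'' Smin hmin hord hyp'') hw⟩

/-- **(REL-SEL-AT-flat)** at one prime `q ∉ Smin`, for some `S'' ⊇ S ∪ {q}`, from the leaves. -/
theorem relSelAtFlat_sup (hmin : LocMinStatement) (hflat : LocFlatPStatement)
    (hb : BaseBigOverStatement) (hr : RecQSubStatement) (hur : UrCountStatement)
    (hyp : Hyp 𝒪 p ρbar S Smin) (q : ℕ) (hq : q.Prime) (hqS : q ∉ Smin) :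
    ∃ S'' : Finset ℕ, S ∪ {q} ⊆ S'' ∧ (∀ q' ∈ S'', q'.Prime) ∧ Hyp 𝒪 p ρbar S'' Smin ∧
      RelSelAt 𝒪 p ρbar S'' Smin q (flatCond 𝒪 p Smin) := by
  obtain ⟨S'', h1, h2, hyp'', hw⟩ :=
    exists_vanishingWall_sup 𝒪 p ρbar S Smin hb hr hur hyp q hq hqS
  exact ⟨S'', h1, h2, hyp'', relSelAt_of_vanishingWall 𝒪 p ρbar S'' Smin hyp'' q
    (flatCond 𝒪 p Smin) (locFlatAny_of 𝒪 p ρbar S'' Smin hmin hflat hyp'') hw⟩

end

end Fermat.Agent.S38.IA.H183

end

end
-- ===== PACK-END S38/IA/H183/ToRelSel.lean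

-- ===== PACK-BEGIN S38/IA/H183/Unframed.lean
section


/-!
# Row 37 pivot (Ihara avoidance), Galois side — the UNFRAMED bound `g = r − 3·#Π` (helper183)

Board `coord/HARD.md` v2, cell GAL (3): at a set `Π` of pivot primes (`ρ̄` SCALAR on the
decomposition groups) no frames are needed, and the relative tangent space has dimension
`≤ r − 3·#Π`, `r = #Q`.  This is `RelWall` (`RelWall.lean`) together with `h⁰(D_v, ad⁰ρ̄) = 3`.

* `finrank_adInv_of_scalar` : `ρ̄(H)` scalar, `2 ≠ 0` ⇒ `dim H⁰(H, ad⁰ρ̄) = 3`.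
* `RelSelCobAt 𝒪 p ρbar S Smin Π base` : places `Pl`, a dual frame `D`; for every Taylor–Wiles set
  `Q` killing `D` and every deformation condition `𝒟` finer than `base (Π ∪ Q)` on the dual
  numbers: a space `𝒯` with `dim 𝒯 + 3·#Π ≤ #Q` representing, modulo coboundaries, every tangent
  cocycle of type `𝒟` (and every cocycle which is a coboundary) which is a coboundary on
  `D_{Pl v}` for all `v ∈ Π` (e.g. which VANISHES on these groups).
* `relSelCobAt_of_relWall`, `relSelCobAtOrd_sup`, `relSelCobAtFlat_sup`.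
* `RelTWPrimesCob` / `relTWPrimesCob_of` / `relTWPrimesCobOrd_of` / `relTWPrimesCobFlat_of` :
  the Taylor–Wiles primes (`r` of them for every `n`, the same for all `𝒟`).

Nothing unproved in this file.
-/

set_option autoImplicit false

open Polynomial IsLocalRing

noncomputable section

namespace Fermat.Agent.S38.IA.H183

open Fermat.Agent.S56 Fermat.Agent.S56.H716

section

variable {k : Type} [Field k] (ρbar : ResidualGaloisRep k)

/-- If `ρ̄(H)` consists of scalars, `H⁰(H, ad⁰ρ̄)` is the space of all trace-zero endomorphisms. -/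
theorem adInv_eq_ker_trace_of_scalar (H : Subgroup GQ)
    (hsc : ∀ σ ∈ H, ∃ a : k, ρbar.ρ σ = a • (1 : Module.End k ρbar.V)) :
    adInv ρbar H = LinearMap.ker (LinearMap.trace k ρbar.V) := by
  ext m
  constructor
  · rintro ⟨h1, -⟩
    exact LinearMap.mem_ker.2 h1
  · intro hm
    refine ⟨LinearMap.mem_ker.1 hm, fun σ hσ => ?_⟩
    obtain ⟨a, ha⟩ := hsc σ hσ
    have hinv : ρbar.ρ σ * ρbar.ρ σ⁻¹ = 1 := by rw [← map_mul, mul_inv_cancel, map_one]
    have hcomm : ρbar.ρ σ * m = m * ρbar.ρ σ := by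
      rw [ha, smul_mul_assoc, one_mul, mul_smul_comm, mul_one]
    rw [hcomm, mul_assoc, hinv, mul_one]

/-- The space of trace-zero endomorphisms of `V` has dimension `3` (`p` odd). -/
theorem finrank_ker_trace (h2 : (2 : k) ≠ 0) :
    Module.finrank k (LinearMap.ker (LinearMap.trace k ρbar.V)) = 3 := by
  have h1 := LinearMap.finrank_range_add_finrank_ker (LinearMap.trace k ρbar.V)
  have htr1 : LinearMap.trace k ρbar.V (1 : Module.End k ρbar.V) = 2 := by
    rw [LinearMap.trace_one, ρbar.finrank_eq]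
    norm_cast
  have hsurj : Function.Surjective (LinearMap.trace k ρbar.V) := by
    intro x
    refine ⟨(x / 2) • (1 : Module.End k ρbar.V), ?_⟩
    rw [map_smul, htr1, smul_eq_mul]
    field_simp
  have h3 : Module.finrank k (LinearMap.range (LinearMap.trace k ρbar.V)) = 1 := by
    rw [LinearMap.range_eq_top.2 hsurj, finrank_top, Module.finrank_self]
  have h4 : Module.finrank k (ρbar.V →ₗ[k] ρbar.V) = 4 := by
    rw [Module.finrank_linearMap, ρbar.finrank_eq]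
  rw [h3, h4] at h1
  omega

/-- `dim H⁰(H, ad⁰ρ̄) = 3` when `ρ̄(H)` consists of scalars (`p` odd). -/
theorem finrank_adInv_of_scalar (h2 : (2 : k) ≠ 0) (H : Subgroup GQ)
    (hsc : ∀ σ ∈ H, ∃ a : k, ρbar.ρ σ = a • (1 : Module.End k ρbar.V)) :
    Module.finrank k (adInv ρbar H) = 3 := by
  rw [adInv_eq_ker_trace_of_scalar ρbar H hsc]
  exact finrank_ker_trace ρbar h2

end

section

variable (𝒪 : Type) [CommRing 𝒪] [IsDomain 𝒪] [IsDiscreteValuationRing 𝒪]
  [IsAdicComplete (maximalIdeal 𝒪) 𝒪]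
  (p : ℕ) (ρbar : ResidualGaloisRep (ResidueField 𝒪)) (S Smin T : Finset ℕ)

/-- (REL-SEL-COB-AT) the unframed relative Selmer bound at a set `T` of pivot primes. -/
def RelSelCobAt (base : Finset ℕ → DefCond 𝒪) : Prop :=
  ∃ Pl : ℕ → ValuationSubring Qb, (∀ v ∈ Smin ∪ T, (Pl v).LiesOverPrime v) ∧
    ∃ D : Submodule (ResidueField 𝒪) (GQ → Module.End (ResidueField 𝒪) ρbar.V),
      IsDualFrame ρbar p D ∧
      ∀ Q : Finset ℕ, (∀ q' ∈ Q, IsTWPrime ρbar p S q') → Kills ρbar p D Q →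
        ∀ 𝒟 : DefCond 𝒪,
          (∀ ρ' : GaloisRepAdic (DualNumber (ResidueField 𝒪)),
            @𝒟 (DualNumber (ResidueField 𝒪)) _ _ (tanAlgebra 𝒪) ρ' →
              @base (T ∪ Q) (DualNumber (ResidueField 𝒪)) _ _ (tanAlgebra 𝒪) ρ') →
          ∃ 𝒯 : Submodule (ResidueField 𝒪) (GQ → Module.End (ResidueField 𝒪) ρbar.V),
            Module.Finite (ResidueField 𝒪) 𝒯 ∧
            Module.finrank (ResidueField 𝒪) 𝒯 + 3 * T.card ≤ Q.card ∧
            ∀ c, (IsTanCocycle 𝒪 ρbar 𝒟 c ∨ (IsAdCocycle ρbar c ∧ IsAdCoboundary ρbar c)) →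
              (∀ v ∈ T, IsAdCoboundaryOn ρbar ((Pl v).decompositionSubgroup ℚ) c) →
              ∃ t ∈ 𝒯, IsAdCoboundary ρbar (c - t)

/-- `REL-SEL-COB-AT(base) ⇐ LOC-ANY(base) + REL-WALL`, when `ρ̄` is scalar on the decomposition
groups over `T`. -/
theorem relSelCobAt_of_relWall (hyp : Hyp 𝒪 p ρbar S Smin)
    (hsc : ∀ v ∈ T, ∀ P : ValuationSubring Qb, P.LiesOverPrime v →
      ∀ σ ∈ P.decompositionSubgroup ℚ,
        ∃ a : ResidueField 𝒪, ρbar.ρ σ = a • (1 : Module.End (ResidueField 𝒪) ρbar.V))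
    (base : Finset ℕ → DefCond 𝒪) (hloc : LocAny 𝒪 ρbar Smin base)
    (hw : RelWall 𝒪 p ρbar S Smin T) : RelSelCobAt 𝒪 p ρbar S Smin T base := by
  obtain ⟨Pl, hPl, D, hD, hW⟩ := hw
  obtain ⟨Λ, δ, hb, hsel⟩ := hloc Pl fun v hv => hPl v (Finset.mem_union_left _ hv)
  refine ⟨Pl, hPl, D, hD, fun Q hQ hK 𝒟 h𝒟 => ?_⟩
  obtain ⟨𝒯, h1, h2, h3⟩ := hW Λ δ hb Q hQ hK
  have h0 : ∑ v ∈ T, Module.finrank (ResidueField 𝒪)
      (adInv ρbar ((Pl v).decompositionSubgroup ℚ)) = 3 * T.card := by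
    rw [Finset.sum_congr rfl fun v hv => finrank_adInv_of_scalar ρbar
      (H596.two_ne_zero_of_hyp hyp) _
      (hsc v hv (Pl v) (hPl v (Finset.mem_union_right _ hv)))]
    rw [Finset.sum_const, smul_eq_mul, mul_comm]
  rw [h0] at h2
  refine ⟨𝒯, h1, h2, fun c hc hstr => ?_⟩
  rcases hc with hc | ⟨hc, hcb⟩
  · obtain ⟨hcoc, ρ', hl, hcond⟩ := hc
    exact h3 c ⟨hsel (T ∪ Q) c ⟨hcoc, ρ', hl, h𝒟 ρ' hcond⟩, hstr⟩
  · exact h3 c ⟨isSelCocycle_of_isAdCoboundary hyp Pl Λ (T ∪ Q) hc hcb, hstr⟩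

end

section

variable (𝒪 : Type) [CommRing 𝒪] [IsDomain 𝒪] [IsDiscreteValuationRing 𝒪]
  [IsAdicComplete (maximalIdeal 𝒪) 𝒪] [Finite (ResidueField 𝒪)]
  (p : ℕ) (ρbar : ResidualGaloisRep (ResidueField 𝒪)) (S Smin : Finset ℕ)

/-- **(REL-SEL-COB-AT-ord)** for some `S'' ⊇ S ∪ T`, from the leaves. -/
theorem relSelCobAtOrd_sup (hmin : LocMinStatement) (hord : LocOrdPStatement)
    (hb : BaseBigOverStatement) (hr : RecQSubStatement) (hur : UrCountStatement)
    (hyp : Hyp 𝒪 p ρbar S Smin)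
    (T : Finset ℕ) (hT : ∀ q ∈ T, q.Prime) (hdisj : Disjoint Smin T)
    (hsc : ∀ v ∈ T, ∀ P : ValuationSubring Qb, P.LiesOverPrime v →
      ∀ σ ∈ P.decompositionSubgroup ℚ,
        ∃ a : ResidueField 𝒪, ρbar.ρ σ = a • (1 : Module.End (ResidueField 𝒪) ρbar.V)) :
    ∃ S'' : Finset ℕ, S ∪ T ⊆ S'' ∧ (∀ q ∈ S'', q.Prime) ∧ Hyp 𝒪 p ρbar S'' Smin ∧
      RelSelCobAt 𝒪 p ρbar S'' Smin T (ordCond 𝒪 p Smin) := by
  obtain ⟨S'', h1, h2, hyp'', hw⟩ := exists_relWall_sup 𝒪 p ρbar S Smin hb hr hur hyp T hT hdisj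
  exact ⟨S'', h1, h2, hyp'', relSelCobAt_of_relWall 𝒪 p ρbar S'' Smin T hyp'' hsc
    (ordCond 𝒪 p Smin) (locOrdAny_of 𝒪 p ρbar S'' Smin hmin hord hyp'') hw⟩

/-- **(REL-SEL-COB-AT-flat)** for some `S'' ⊇ S ∪ T`, from the leaves. -/
theorem relSelCobAtFlat_sup (hmin : LocMinStatement) (hflat : LocFlatPStatement)
    (hb : BaseBigOverStatement) (hr : RecQSubStatement) (hur : UrCountStatement)
    (hyp : Hyp 𝒪 p ρbar S Smin)
    (T : Finset ℕ) (hT : ∀ q ∈ T, q.Prime) (hdisj : Disjoint Smin T)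
    (hsc : ∀ v ∈ T, ∀ P : ValuationSubring Qb, P.LiesOverPrime v →
      ∀ σ ∈ P.decompositionSubgroup ℚ,
        ∃ a : ResidueField 𝒪, ρbar.ρ σ = a • (1 : Module.End (ResidueField 𝒪) ρbar.V)) :
    ∃ S'' : Finset ℕ, S ∪ T ⊆ S'' ∧ (∀ q ∈ S'', q.Prime) ∧ Hyp 𝒪 p ρbar S'' Smin ∧
      RelSelCobAt 𝒪 p ρbar S'' Smin T (flatCond 𝒪 p Smin) := by
  obtain ⟨S'', h1, h2, hyp'', hw⟩ := exists_relWall_sup 𝒪 p ρbar S Smin hb hr hur hyp T hT hdisj
  exact ⟨S'', h1, h2, hyp'', relSelCobAt_of_relWall 𝒪 p ρbar S'' Smin T hyp'' hsc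
    (flatCond 𝒪 p Smin) (locFlatAny_of 𝒪 p ρbar S'' Smin hmin hflat hyp'') hw⟩

/-- The conclusion of the unframed main theorem of the Galois side at a set `T` of pivots, for
one family `base` of deformation conditions: `r` Taylor–Wiles primes for every `n`, and the
relative tangent space of every condition finer than `base (T ∪ Q_n)` has dimension
`≤ r − 3·#T`. -/
def RelTWPrimesCob (T : Finset ℕ) (base : Finset ℕ → DefCond 𝒪) : Prop :=
  ∃ (r : ℕ) (Pl : ℕ → ValuationSubring Qb), (∀ v ∈ T, (Pl v).LiesOverPrime v) ∧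
    ∀ n : ℕ, ∃ qv : Fin r → ℕ, Function.Injective qv ∧
      (∀ i, (qv i).Prime ∧ qv i ∉ S ∧ qv i ∉ T ∧ p ^ (n + 1) ∣ qv i - 1) ∧
      (∀ i, ∀ P' : ValuationSubring Qb, P'.LiesOverPrime (qv i) →
        ∀ φ : GQ, P'.IsFrobeniusAt φ (qv i) →
          ∃ α β : ResidueField 𝒪, α ≠ β ∧
            LinearMap.charpoly (ρbar.ρ φ) = (X - C α) * (X - C β)) ∧
      ∀ 𝒟 : DefCond 𝒪,
        (∀ ρ' : GaloisRepAdic (DualNumber (ResidueField 𝒪)),
          @𝒟 (DualNumber (ResidueField 𝒪)) _ _ (tanAlgebra 𝒪) ρ' →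
            @base (T ∪ Finset.univ.image qv) (DualNumber (ResidueField 𝒪)) _ _
              (tanAlgebra 𝒪) ρ') →
        ∃ 𝒯 : Submodule (ResidueField 𝒪) (GQ → Module.End (ResidueField 𝒪) ρbar.V),
          Module.Finite (ResidueField 𝒪) 𝒯 ∧
          Module.finrank (ResidueField 𝒪) 𝒯 + 3 * T.card ≤ r ∧
          ∀ c, (IsTanCocycle 𝒪 ρbar 𝒟 c ∨ (IsAdCocycle ρbar c ∧ IsAdCoboundary ρbar c)) →
            (∀ v ∈ T, IsAdCoboundaryOn ρbar ((Pl v).decompositionSubgroup ℚ) c) →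
            ∃ t ∈ 𝒯, IsAdCoboundary ρbar (c - t)

/-- **Taylor–Wiles primes for the unframed problem at the pivots `T`**, from (TWP) and
(REL-SEL-COB-AT) for some `S'' ⊇ S ∪ T`. -/
theorem relTWPrimesCob_of (hTWP : TWPrimesStatement) (T : Finset ℕ)
    (base : Finset ℕ → DefCond 𝒪)
    (h : ∃ S'' : Finset ℕ, S ∪ T ⊆ S'' ∧ (∀ q' ∈ S'', q'.Prime) ∧ Hyp 𝒪 p ρbar S'' Smin ∧
      RelSelCobAt 𝒪 p ρbar S'' Smin T base) :
    RelTWPrimesCob 𝒪 p ρbar S T base := by
  classical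
  obtain ⟨S'', hSS'', -, hyp'', Pl, hPl, D, hD, hsel⟩ := h
  refine ⟨Module.finrank (ResidueField 𝒪) D, Pl,
    fun v hv => hPl v (Finset.mem_union_right _ hv), fun n => ?_⟩
  obtain ⟨qv, hinj, hq, hfrob, hkill⟩ := hTWP 𝒪 p ρbar S'' Smin hyp'' D hD n
  refine ⟨qv, hinj, fun i => ⟨(hq i).1, fun hi => (hq i).2.1 (hSS'' (Finset.mem_union_left _ hi)),
    fun hi => (hq i).2.1 (hSS'' (Finset.mem_union_right _ hi)), (hq i).2.2⟩, hfrob,
    fun 𝒟 h𝒟 => ?_⟩
  have hTWQ : ∀ q' ∈ Finset.univ.image qv, IsTWPrime ρbar p S'' q' := by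
    intro q' hqQ
    obtain ⟨i, -, rfl⟩ := Finset.mem_image.mp hqQ
    refine ⟨(hq i).1, (hq i).2.1, ?_, hfrob i⟩
    exact dvd_trans (dvd_pow_self p (Nat.succ_ne_zero n)) (hq i).2.2
  have hQcard : (Finset.univ.image qv).card = Module.finrank (ResidueField 𝒪) D := by
    rw [Finset.card_image_of_injective _ hinj, Finset.card_univ, Fintype.card_fin]
  have := hsel (Finset.univ.image qv) hTWQ hkill 𝒟 h𝒟
  rwa [hQcard] at this

/-- The unframed main theorem (strict-ordinary half) from the leaves of row S56 and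
BASE-BIG-OVER. -/
theorem relTWPrimesCobOrd_of (hTWP : TWPrimesStatement) (hmin : LocMinStatement)
    (hord : LocOrdPStatement) (hb : BaseBigOverStatement) (hr : RecQSubStatement)
    (hur : UrCountStatement) (hyp : Hyp 𝒪 p ρbar S Smin)
    (T : Finset ℕ) (hT : ∀ q ∈ T, q.Prime) (hdisj : Disjoint Smin T)
    (hsc : ∀ v ∈ T, ∀ P : ValuationSubring Qb, P.LiesOverPrime v →
      ∀ σ ∈ P.decompositionSubgroup ℚ,
        ∃ a : ResidueField 𝒪, ρbar.ρ σ = a • (1 : Module.End (ResidueField 𝒪) ρbar.V)) :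
    RelTWPrimesCob 𝒪 p ρbar S T (ordCond 𝒪 p Smin) :=
  relTWPrimesCob_of 𝒪 p ρbar S Smin hTWP T (ordCond 𝒪 p Smin)
    (relSelCobAtOrd_sup 𝒪 p ρbar S Smin hmin hord hb hr hur hyp T hT hdisj hsc)

/-- The unframed main theorem (flat half) from the leaves of row S56 and BASE-BIG-OVER. -/
theorem relTWPrimesCobFlat_of (hTWP : TWPrimesStatement) (hmin : LocMinStatement)
    (hflat : LocFlatPStatement) (hb : BaseBigOverStatement) (hr : RecQSubStatement)
    (hur : UrCountStatement) (hyp : Hyp 𝒪 p ρbar S Smin)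
    (T : Finset ℕ) (hT : ∀ q ∈ T, q.Prime) (hdisj : Disjoint Smin T)
    (hsc : ∀ v ∈ T, ∀ P : ValuationSubring Qb, P.LiesOverPrime v →
      ∀ σ ∈ P.decompositionSubgroup ℚ,
        ∃ a : ResidueField 𝒪, ρbar.ρ σ = a • (1 : Module.End (ResidueField 𝒪) ρbar.V)) :
    RelTWPrimesCob 𝒪 p ρbar S T (flatCond 𝒪 p Smin) :=
  relTWPrimesCob_of 𝒪 p ρbar S Smin hTWP T (flatCond 𝒪 p Smin)
    (relSelCobAtFlat_sup 𝒪 p ρbar S Smin hmin hflat hb hr hur hyp T hT hdisj hsc)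

end

end Fermat.Agent.S38.IA.H183

end

end
-- ===== PACK-END S38/IA/H183/Unframed.lean

-- ===== PACK-BEGIN S38/IA/Gal/IAGalMain.lean
section






/-!
# Row HARD (row 37), cell GAL: `IAGalStatement` from the relative Taylor–Wiles wall
(integrator helper1)

* `RelTWCobStatement` : helper183's unframed relative Taylor–Wiles theorem (`RelTWPrimesCob` for
  the flat and the strict-ordinary families), as a `Prop`
  (proved unconditionally in `S38/IA/H183/Closed.lean`);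
* `iaGal_core` : the Galois block for one family of deformation conditions;
* `iaGal_of : RelTWCobStatement → IAGalStatement`.

Ingredients: helper183 (`RelTWPrimesCob`: Taylor–Wiles primes and the bound `r − 3k` modulo
coboundaries), helper953 (`exists_surjective_pivots`: presentation over the matrix entries),
LOC-GEN (tame pairs, `locGenCocycle`, `mat_rel`), `exists_surjective_traceless` (8 → 6 variables),
`isPivotPres_of`.
-/

set_option autoImplicit false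
set_option linter.unusedSectionVars false
set_option linter.unusedVariables false
set_option linter.style.haveILetI false

open Polynomial IsLocalRing

namespace Fermat.Agent.S38.IA.Gal

noncomputable section

open Fermat.Agent.S56 Fermat.Agent.S56.H716 Fermat.Agent.S56.H596 Fermat.Agent.S38.H953
open Fermat.Agent.S59.Arch (ResidualHyp sigmaCond PType pCond)
open Fermat.Agent.S59.TW.H959 (IsTWSet)

attribute [local instance] Fermat.Agent.S56.tanAlgebra

/-- **helper183's relative Taylor–Wiles theorem** (unframed, multi-pivot), as a `Prop`. -/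
def RelTWCobStatement : Prop :=
  ∀ (𝒪 : Type) [CommRing 𝒪] [IsDomain 𝒪] [IsDiscreteValuationRing 𝒪]
    [IsAdicComplete (maximalIdeal 𝒪) 𝒪] [Finite (ResidueField 𝒪)]
    (p : ℕ) (ρbar : ResidualGaloisRep (ResidueField 𝒪)) (S Smin : Finset ℕ),
    Hyp 𝒪 p ρbar S Smin → ∀ T : Finset ℕ, (∀ q ∈ T, q.Prime) → Disjoint Smin T →
      (∀ v ∈ T, ∀ P : ValuationSubring _root_.Fermat.Agent.S56.Qb, P.LiesOverPrime v →
        ∀ σ ∈ P.decompositionSubgroup ℚ,
          ∃ a : ResidueField 𝒪, ρbar.ρ σ = a • (1 : Module.End (ResidueField 𝒪) ρbar.V)) →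
      H183.RelTWPrimesCob 𝒪 p ρbar S T (flatCond 𝒪 p Smin) ∧
        H183.RelTWPrimesCob 𝒪 p ρbar S T (ordCond 𝒪 p Smin)

section Core

variable (p : ℕ) [Fact p.Prime]
  (𝒪 : Type) [CommRing 𝒪] [IsDomain 𝒪] [IsDiscreteValuationRing 𝒪]
  [IsAdicComplete (maximalIdeal 𝒪) 𝒪] [Finite (ResidueField 𝒪)]
  (ρbar : ResidualGaloisRep (ResidueField 𝒪)) (Smin : Finset ℕ)

theorem hyp_of_residualHyp (h : ResidualHyp p 𝒪 ρbar Smin) : Hyp 𝒪 p ρbar Smin Smin :=
  ⟨Fact.out, h.hp2, h.hp𝒪, h.habs, h.hdet, h.hsplit, h.hTW, h.hpSmin, subset_rfl, h.hSmin,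
    h.hmin⟩

variable {p 𝒪 ρbar Smin}

theorem isUnit_of_rho_eq_smul (φ : _root_.Fermat.Agent.S56.GQ) (a : 𝒪)
    (h : ρbar.ρ φ = residue 𝒪 a • (1 : Module.End (ResidueField 𝒪) ρbar.V)) : IsUnit a := by
  by_contra hcon
  have h0 : residue 𝒪 a = 0 := (residue_eq_zero_iff a).mpr ((mem_maximalIdeal a).mpr hcon)
  rw [h0, zero_smul] at h
  have h1 : ρbar.ρ φ * ρbar.ρ φ⁻¹ = 1 := by rw [← map_mul, mul_inv_cancel, map_one]
  rw [h, zero_mul] at h1
  haveI : Nontrivial ρbar.V := by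
    apply Module.nontrivial_of_finrank_pos (R := ResidueField 𝒪)
    rw [ρbar.finrank_eq]
    norm_num
  obtain ⟨v, hv⟩ := exists_ne (0 : ρbar.V)
  have := congrArg (fun f : Module.End (ResidueField 𝒪) ρbar.V => f v) h1
  simp only [LinearMap.zero_apply, Module.End.one_apply] at this
  exact hv this.symm

/-- **The Galois block for one family `cond` of deformation conditions.** -/
theorem iaGal_core (h : ResidualHyp p 𝒪 ρbar Smin) (Piv : Finset ℕ)
    (hPiv : IsPivotSet p ρbar Smin Piv)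
    (cond base : Finset ℕ → DefCond 𝒪)
    (hbase : ∀ (Q : Finset ℕ) (ρ' : GaloisRepAdic (DualNumber (ResidueField 𝒪))),
      cond (Smin ∪ Piv ∪ Q) ρ' → base (Piv ∪ Q) ρ')
    (hdet : ∀ (Sig : Finset ℕ) ⦃A : Type⦄ [CommRing A] [IsLocalRing A] [Algebra 𝒪 A]
      (ρ : GaloisRepAdic A), cond Sig ρ → ρ.DetIsCyclotomic p)
    (hbc : ∀ (Sig : Finset ℕ) (DQ : GaloisRep.DeformationRingData 𝒪 ρbar (cond Sig))
      (ψ : TanHom 𝒪 DQ.R) (hψ : IsLocalHom (ψ : DQ.R →+* DualNumber (ResidueField 𝒪))),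
      Function.Surjective ψ →
      cond Sig (DQ.ρ.baseChangeAlong (ψ : DQ.R →+* DualNumber (ResidueField 𝒪)) hψ))
    (hrel : H183.RelTWPrimesCob 𝒪 p ρbar Smin Piv base) :
    ∃ (r : ℕ) (Pl : ℕ → ValuationSubring _root_.Fermat.Agent.S56.Qb) (φ σ : ℕ → _root_.Fermat.Agent.S56.GQ) (a : ℕ → 𝒪),
      3 * Piv.card ≤ r ∧
      (∀ q ∈ Piv, (Pl q).LiesOverPrime q ∧ IsTamePair p q (Pl q) (φ q) (σ q) ∧
        ρbar.ρ (φ q) = residue 𝒪 (a q) • (1 : Module.End (ResidueField 𝒪) ρbar.V)) ∧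
      ∀ n : ℕ, ∃ qv : Fin r → ℕ, IsTWSet p ρbar (Smin ∪ Piv) n qv ∧
        ∀ DQ : GaloisRep.DeformationRingData 𝒪 ρbar
            (cond (Smin ∪ Piv ∪ Finset.univ.image qv)),
          ∃ (F : UFrame DQ) (γ : IARing 𝒪 Piv (r - 3 * Piv.card) →ₐ[𝒪] DQ.R),
            Function.Surjective γ ∧
            ∀ q : ↥Piv, IsPivotPres (q : ℕ) (a q) DQ F (φ q) (σ q)
              (γ (MvPowerSeries.X (Sum.inl (q, 0)))) (γ (MvPowerSeries.X (Sum.inl (q, 1))))
              (γ (MvPowerSeries.X (Sum.inl (q, 2)))) (γ (MvPowerSeries.X (Sum.inl (q, 3))))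
              (γ (MvPowerSeries.X (Sum.inl (q, 4)))) (γ (MvPowerSeries.X (Sum.inl (q, 5)))) := by
  classical
  have hp : p.Prime := Fact.out
  have hyp : Hyp 𝒪 p ρbar Smin Smin := hyp_of_residualHyp p 𝒪 ρbar Smin h
  have hPivP : ∀ q ∈ Piv, q.Prime := fun q hq => (hPiv q hq).1
  have hqp : ∀ q ∈ Piv, q ≠ p := fun q hq hqp => (hPiv q hq).2.1 (hqp ▸ h.hpSmin)
  have hunr : ∀ q ∈ Piv, ρbar.IsUnramifiedAt q := by
    intro q hq
    by_contra hcon
    exact (hPiv q hq).2.1 ((h.hmin q (hPivP q hq) (hqp q hq)).mpr hcon)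
  obtain ⟨r, Pl, hPl, hn⟩ := hrel
  -- tame pairs and lifts of the scalars
  have hex : ∀ q : ℕ, ∃ x : _root_.Fermat.Agent.S56.GQ × _root_.Fermat.Agent.S56.GQ × 𝒪, q ∈ Piv →
      IsTamePair p q (Pl q) x.1 x.2.1 ∧
        ρbar.ρ x.1 = residue 𝒪 x.2.2 • (1 : Module.End (ResidueField 𝒪) ρbar.V) := by
    intro q
    by_cases hq : q ∈ Piv
    · obtain ⟨φ, σ, hts⟩ :=
        locGenExists p q hp (hPivP q hq) (Ne.symm (hqp q hq)) (Pl q) (hPl q hq)
      obtain ⟨c, hc⟩ := (hPiv q hq).2.2.2 (Pl q) (hPl q hq) φ hts.frob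
      obtain ⟨a, rfl⟩ := residue_surjective c
      exact ⟨(φ, σ, a), fun _ => ⟨hts, hc⟩⟩
    · exact ⟨(1, 1, 0), fun hq' => absurd hq' hq⟩
  choose x hx using hex
  refine ⟨r, Pl, fun q => (x q).1, fun q => (x q).2.1, fun q => (x q).2.2, ?_,
    fun q hq => ⟨hPl q hq, (hx q hq).1, (hx q hq).2⟩, fun n => ?_⟩
  · obtain ⟨qv, -, -, -, hD⟩ := hn 0
    obtain ⟨𝒯, -, hle, -⟩ := hD (base (Piv ∪ Finset.univ.image qv)) (fun ρ' h => h)
    omega
  obtain ⟨qv, hinj, hq, hfrob, hD⟩ := hn n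
  refine ⟨qv, ⟨hinj, fun i => ⟨(hq i).1, ?_, (hq i).2.2.2⟩, hfrob⟩, fun DQ => ?_⟩
  · rw [Finset.mem_union]
    rintro (h1 | h1)
    · exact (hq i).2.1 h1
    · exact (hq i).2.2.1 h1
  obtain ⟨F⟩ := exists_uFrame DQ
  obtain ⟨𝒯, hfin, hle, hrep⟩ := hD (cond (Smin ∪ Piv ∪ Finset.univ.image qv)) (hbase _)
  let φ' : ↥Piv → _root_.Fermat.Agent.S56.GQ := fun j => (x j).1
  let σ' : ↥Piv → _root_.Fermat.Agent.S56.GQ := fun j => (x j).2.1
  let a' : ↥Piv → 𝒪 := fun j => (x j).2.2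
  have htp : ∀ j : ↥Piv, IsTamePair p j (Pl j) (φ' j) (σ' j) := fun j => (hx j j.2).1
  have hφ' : ∀ j : ↥Piv, ρbar.ρ (φ' j) =
      residue 𝒪 (a' j) • (1 : Module.End (ResidueField 𝒪) ρbar.V) := fun j => (hx j j.2).2
  have hunrP : ∀ j : ↥Piv, ∀ ι ∈ (Pl j).inertiaSubgroupIn ℚ, ρbar.ρ ι = 1 :=
    fun j => hunr j j.2 (Pl j) (hPl j j.2)
  have hσ' : ∀ j : ↥Piv, ρbar.ρ (σ' j) = 1 := fun j => hunrP j _ (htp j).mem
  -- the relative Selmer bound modulo coboundaries at the tame generators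
  have hsel : RelSelCob 𝒪 ρbar (cond (Smin ∪ Piv ∪ Finset.univ.image qv))
      (Set.range φ' ∪ Set.range σ') (r - 3 * Piv.card) := by
    refine ⟨𝒯, hfin, by omega, fun c hc hv => hrep c (Or.inl hc) (fun v hv' => ⟨0, fun τ hτ => ?_⟩)⟩
    rw [mul_zero, zero_mul, sub_zero]
    exact locGenCocycle p v hp (hPivP v hv') (Ne.symm (hqp v hv')) (Pl v) (hPl v hv') _ _
      (hx v hv').1 _ ρbar (natCast_p_eq_zero hyp) (hunr v hv' (Pl v) (hPl v hv')) c hc.1
      (hv _ (Or.inl ⟨⟨v, hv'⟩, rfl⟩)) (hv _ (Or.inr ⟨⟨v, hv'⟩, rfl⟩)) τ hτ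
  obtain ⟨γ8, hγ8, hγ8X⟩ := exists_surjective_pivots p hp
    (fun ρ' hρ' => hdet _ ρ' hρ') (hbc _ DQ) F φ' σ' a' hφ' hσ' (r - 3 * Piv.card) hsel
  -- `2` is invertible in `𝒪`
  obtain ⟨half, hhalf⟩ : ∃ c : 𝒪, 2 * c = 1 := by
    have h2 : IsUnit (2 : 𝒪) := by
      by_contra hcon
      have h0 : residue 𝒪 (2 : 𝒪) = 0 :=
        (residue_eq_zero_iff _).mpr ((mem_maximalIdeal _).mpr hcon)
      rw [map_ofNat] at h0
      exact two_ne_zero_of_hyp hyp h0
    exact ⟨↑h2.unit⁻¹, by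
      have := h2.unit.mul_inv
      rwa [IsUnit.unit_spec] at this⟩
  -- determinants
  have hdetρ : DQ.ρ.DetIsCyclotomic p := hdet _ DQ.ρ DQ.isOfType
  have hdetR : (Fermat.Agent.S53.toAdic F.rR F.hrR).DetIsCyclotomic p :=
    Fermat.Agent.S56.H966.detIsCyclotomic_of_isEquiv ⟨F.eR⟩ hdetρ
  have hdetS : ∀ j : ↥Piv, (F.rR (σ' j)).det = 1 := fun j =>
    Fermat.Agent.S59.H126.det_inertia_eq_one (p := p) F.rR F.hrR hdetR (hPivP j j.2) (hqp j j.2)
      (Pl j) (hPl j j.2) (htp j).mem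
  have hdetΦ : ∀ j : ↥Piv, (F.rR (φ' j)).det = ((j : ℕ) : DQ.R) := fun j =>
    Fermat.Agent.S59.H126.det_frobenius_eq (p := p) F.rR F.hrR hdetR (hPivP j j.2) (hqp j j.2)
      (Pl j) (hPl j j.2) (htp j).frob
  have hSg : ∀ (j : ↥Piv) (i k : Fin 2), (F.rR (σ' j) - 1) i k ∈ maximalIdeal DQ.R :=
    fun j i k => sig_res_uFrame F (σ' j) (hσ' j) i k
  have hPh : ∀ (j : ↥Piv) (i k : Fin 2),
      (F.rR (φ' j) - algebraMap 𝒪 DQ.R (a' j) • (1 : Matrix (Fin 2) (Fin 2) DQ.R)) i k ∈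
        maximalIdeal DQ.R := fun j i k => phi_res_uFrame F (φ' j) (a' j) (hφ' j) i k
  have hdetP : ∀ j : ↥Piv, (F.rR (φ' j)).det - algebraMap 𝒪 DQ.R (a' j) ^ 2 ∈
      Ideal.map (algebraMap 𝒪 DQ.R) (maximalIdeal 𝒪) := by
    intro j
    have h1 : (F.rR (φ' j)).det -
        (algebraMap 𝒪 DQ.R (a' j) • (1 : Matrix (Fin 2) (Fin 2) DQ.R)).det ∈
          maximalIdeal DQ.R := m2_det_sub_mem _ _ _ (hPh j)
    have h2 : (algebraMap 𝒪 DQ.R (a' j) • (1 : Matrix (Fin 2) (Fin 2) DQ.R)).det =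
        algebraMap 𝒪 DQ.R (a' j) ^ 2 := by
      rw [Matrix.det_smul, Matrix.det_one, mul_one, Fintype.card_fin]
    rw [h2, hdetΦ j] at h1
    have h3 : ((j : ℕ) : DQ.R) - algebraMap 𝒪 DQ.R (a' j) ^ 2 =
        algebraMap 𝒪 DQ.R (((j : ℕ) : 𝒪) - a' j ^ 2) := by
      rw [map_sub, map_pow, map_natCast]
    rw [hdetΦ j, h3]
    rw [h3] at h1
    refine Ideal.mem_map_of_mem _ ?_
    rw [mem_maximalIdeal, mem_nonunits_iff]
    intro hu
    exact (mem_maximalIdeal _).mp h1 (hu.map _)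
  have ha : ∀ j : ↥Piv, IsUnit (a' j) := fun j => isUnit_of_rho_eq_smul (φ' j) (a' j) (hφ' j)
  -- the images of the free variables
  haveI hloc8 : IsLocalHom (γ8 : MvPowerSeries ((↥Piv × Bool × Fin 2 × Fin 2) ⊕
      Fin (r - 3 * Piv.card)) 𝒪 →+* DQ.R) := IsLocalHom.of_surjective _ hγ8
  have hy : ∀ i, γ8 (MvPowerSeries.X (Sum.inr i)) ∈ maximalIdeal DQ.R := by
    intro i
    have hX := Fermat.Agent.S53.H596.X_mem_maximalIdeal_mvPowerSeries (R := 𝒪)
      (Sum.inr i : (↥Piv × Bool × Fin 2 × Fin 2) ⊕ Fin (r - 3 * Piv.card))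
    exact Fermat.Agent.S56.H966.map_mem_maximalIdeal
      (γ8 : MvPowerSeries ((↥Piv × Bool × Fin 2 × Fin 2) ⊕ Fin (r - 3 * Piv.card)) 𝒪 →+* DQ.R)
      hloc8 hX
  have hgen : maximalIdeal DQ.R ≤ Ideal.map (algebraMap 𝒪 DQ.R) (maximalIdeal 𝒪) ⊔
      Ideal.span (Set.range (Sum.elim
        (entCoord (fun j => F.rR (σ' j)) (fun j => F.rR (φ' j)) a')
        (fun i => γ8 (MvPowerSeries.X (Sum.inr i))))) := by
    have hfun : (fun i => γ8 (MvPowerSeries.X i)) = Sum.elim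
        (entCoord (fun j => F.rR (σ' j)) (fun j => F.rR (φ' j)) a')
        (fun i => γ8 (MvPowerSeries.X (Sum.inr i))) := by
      funext i
      rcases i with z | i
      · rw [hγ8X z]
        obtain ⟨j, b, i, k⟩ := z
        cases b
        · simp only [Sum.elim_inl, pivX, entCoord, Bool.false_eq_true, if_false,
            Matrix.sub_apply, Matrix.smul_apply, smul_eq_mul]
        · simp only [Sum.elim_inl, pivX, entCoord, if_true, Matrix.sub_apply]
      · rfl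
    rw [← hfun, ← Fermat.Agent.S53.H596.map_maximalIdeal_mvPowerSeries γ8]
    intro y hy'
    obtain ⟨f, rfl⟩ := hγ8 y
    refine Ideal.mem_map_of_mem _ ?_
    rw [mem_maximalIdeal, mem_nonunits_iff]
    intro hu
    exact (mem_maximalIdeal _).mp hy' (hu.map γ8)
  obtain ⟨γ, hγ, hS, hP, -⟩ := exists_surjective_traceless DQ.residue_surjective half hhalf
    (fun j => F.rR (σ' j)) (fun j => F.rR (φ' j)) a'
    (fun i => γ8 (MvPowerSeries.X (Sum.inr i))) hSg hPh hy hdetS hdetP ha hgen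
  exact ⟨F, γ, hγ, fun q => isPivotPres_of p F hdetρ (hPivP q q.2) (hqp q q.2) (Pl q)
    (hPl q q.2) _ _ (htp q) (hunrP q) _ (hφ' q) _ _ _ _ _ _ (hS q) (hP q)⟩

end Core

/-- **`IAGalStatement` from helper183's relative Taylor–Wiles theorem.** -/
theorem iaGal_of (h183 : RelTWCobStatement) : _root_.Fermat.Agent.S38.IA.Gal.IAGalStatement := by
  intro p _ 𝒪 _ _ _ _ _ ρbar Smin h t ht Piv hPiv
  have hp : p.Prime := Fact.out
  have hyp : Hyp 𝒪 p ρbar Smin Smin := hyp_of_residualHyp p 𝒪 ρbar Smin h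
  have hPivP : ∀ q ∈ Piv, q.Prime := fun q hq => (hPiv q hq).1
  have hqp : ∀ q ∈ Piv, q ≠ p := fun q hq hqp => (hPiv q hq).2.1 (hqp ▸ h.hpSmin)
  have hdisj : Disjoint Smin Piv :=
    Finset.disjoint_left.mpr fun q hqS hqP => (hPiv q hqP).2.1 hqS
  have hunr : ∀ q ∈ Piv, ρbar.IsUnramifiedAt q := by
    intro q hq
    by_contra hcon
    exact (hPiv q hq).2.1 ((h.hmin q (hPivP q hq) (hqp q hq)).mpr hcon)
  have hsc : ∀ v ∈ Piv, ∀ P : ValuationSubring _root_.Fermat.Agent.S56.Qb, P.LiesOverPrime v →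
      ∀ σ ∈ P.decompositionSubgroup ℚ,
        ∃ a : ResidueField 𝒪, ρbar.ρ σ = a • (1 : Module.End (ResidueField 𝒪) ρbar.V) :=
    fun v hv P hP => scalar_on_decomp ρbar hp (hPivP v hv) (Ne.symm (hqp v hv)) P hP
      (hunr v hv P hP) ((hPiv v hv).2.2.2 P hP)
  obtain ⟨hflat, hord⟩ := h183 𝒪 p ρbar Smin Smin hyp Piv hPivP hdisj hsc
  rcases ht with rfl | rfl
  · refine iaGal_core h Piv hPiv (sigmaCond 𝒪 p .flat Smin) (flatCond 𝒪 p Smin) ?_ ?_ ?_ hflat
    · intro Q ρ' hρ'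
      show GaloisRep.flatCondition 𝒪 p (Smin ∪ (Piv ∪ Q)) ρ' ∧ _
      rw [← Finset.union_assoc]
      exact hρ'
    · intro Sig A _ _ _ ρ hρ
      exact (hρ.1 : GaloisRep.flatCondition 𝒪 p Sig ρ).1
    · intro Sig DQ ψ hψ hs
      exact ⟨Fermat.Agent.S56.H966.flatCondition_baseChangeAlong_of_surjective 𝒪 _ hψ hs
          DQ.isOfType.1,
        fun q hq hqp' hne => Fermat.Agent.S56.H966.isUnipotentOnInertiaAt_baseChangeAlong _ hψ
          (DQ.isOfType.2 q hq hqp' hne)⟩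
  · refine iaGal_core h Piv hPiv (sigmaCond 𝒪 p .sord Smin) (ordCond 𝒪 p Smin) ?_ ?_ ?_ hord
    · intro Q ρ' hρ'
      show GaloisRep.strictOrdinaryCondition 𝒪 p (Smin ∪ (Piv ∪ Q)) ρ' ∧ _
      rw [← Finset.union_assoc]
      exact hρ'
    · intro Sig A _ _ _ ρ hρ
      exact (hρ.1 : GaloisRep.strictOrdinaryCondition 𝒪 p Sig ρ).1
    · intro Sig DQ ψ hψ hs
      exact ⟨Fermat.Agent.S56.H966.strictOrdinaryCondition_baseChangeAlong 𝒪 _ hψ DQ.isOfType.1,
        fun q hq hqp' hne => Fermat.Agent.S56.H966.isUnipotentOnInertiaAt_baseChangeAlong _ hψ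
          (DQ.isOfType.2 q hq hqp' hne)⟩

end

end Fermat.Agent.S38.IA.Gal

end
-- ===== PACK-END S38/IA/Gal/IAGalMain.lean

-- ===== PACK-BEGIN S38/IA/H183/Main.lean
section


/-!
# Row 37 pivot (Ihara avoidance), Galois side — MAIN THEOREM, conditional form (helper183)

`relSel_twPrimes_of` : Taylor–Wiles primes for the deformation problem framed at one prime `q`.

Under `S56.Hyp 𝒪 p ρbar S Smin`, for a prime `q ∉ Smin` (so `ρ̄` is unramified at `q`): there are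
`r` and a place `P ∣ q` such that for every `n` there are `r` distinct Taylor–Wiles primes
`q_i ≡ 1 mod p^{n+1}`, `q_i ∉ S ∪ {q}`, with: for EVERY deformation condition `𝒟` which implies
`base ({q} ∪ Q_n)` on lifts to the dual numbers (`base = S56.ordCond 𝒪 p Smin` or
`S56.flatCond 𝒪 p Smin`; e.g. `𝒟` = type `1` or type `χ` at `q`) and every set `Dset ⊆ G_ℚ`
controlling the decomposition group at `P`:

    `H953.RelSel 𝒪 ρbar 𝒟 Dset r`,

the input of helper953's relative presentation `H953.exists_surjective_of_relSel`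
(`B⟦x₁, …, x_r⟧ ↠ R_{Q_n}⟦Y₀, Y₁, Y₂⟧`, `B` the local framed ring at `q`).  The number `r` and the
primes `q_i` do NOT depend on `𝒟`: the same Taylor–Wiles data serve `R¹` and `R^χ`.

Nothing unproved in this file.
-/

set_option autoImplicit false

open Polynomial IsLocalRing

noncomputable section

namespace Fermat.Agent.S38.IA.H183

open Fermat.Agent.S56 Fermat.Agent.S56.H716

section

variable (𝒪 : Type) [CommRing 𝒪] [IsDomain 𝒪] [IsDiscreteValuationRing 𝒪]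
  [IsAdicComplete (maximalIdeal 𝒪) 𝒪] [Finite (ResidueField 𝒪)]
  (p : ℕ) (ρbar : ResidualGaloisRep (ResidueField 𝒪)) (S Smin : Finset ℕ)

/-- The conclusion of the main theorem of the Galois side, for one family `base` of deformation
conditions. -/
def RelTWPrimes (q : ℕ) (base : Finset ℕ → DefCond 𝒪) : Prop :=
  ∃ (r : ℕ) (P : ValuationSubring Qb), P.LiesOverPrime q ∧
    ∀ n : ℕ, ∃ qv : Fin r → ℕ, Function.Injective qv ∧
      (∀ i, (qv i).Prime ∧ qv i ∉ S ∧ qv i ≠ q ∧ p ^ (n + 1) ∣ qv i - 1) ∧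
      (∀ i, ∀ P' : ValuationSubring Qb, P'.LiesOverPrime (qv i) →
        ∀ φ : GQ, P'.IsFrobeniusAt φ (qv i) →
          ∃ α β : ResidueField 𝒪, α ≠ β ∧
            LinearMap.charpoly (ρbar.ρ φ) = (X - C α) * (X - C β)) ∧
      ∀ 𝒟 : DefCond 𝒪,
        (∀ ρ' : GaloisRepAdic (DualNumber (ResidueField 𝒪)),
          @𝒟 (DualNumber (ResidueField 𝒪)) _ _ (tanAlgebra 𝒪) ρ' →
            @base ({q} ∪ Finset.univ.image qv) (DualNumber (ResidueField 𝒪)) _ _
              (tanAlgebra 𝒪) ρ') →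
        ∀ Dset : Set GQ,
          (∀ c, IsAdCocycle ρbar c → (∀ σ ∈ Dset, c σ = 0) →
            ∀ σ ∈ P.decompositionSubgroup ℚ, c σ = 0) →
          H953.RelSel 𝒪 ρbar 𝒟 Dset r

/-- **Taylor–Wiles primes for the problem framed at `q`**, from (TWP) and (REL-SEL-AT) for some
`S'' ⊇ S ∪ {q}`. -/
theorem relTWPrimes_of (hTWP : TWPrimesStatement) (q : ℕ) (base : Finset ℕ → DefCond 𝒪)
    (h : ∃ S'' : Finset ℕ, S ∪ {q} ⊆ S'' ∧ (∀ q' ∈ S'', q'.Prime) ∧ Hyp 𝒪 p ρbar S'' Smin ∧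
      RelSelAt 𝒪 p ρbar S'' Smin q base) :
    RelTWPrimes 𝒪 p ρbar S q base := by
  classical
  obtain ⟨S'', hSS'', -, hyp'', Pl, hPl, D, hD, hsel⟩ := h
  refine ⟨Module.finrank (ResidueField 𝒪) D, Pl q,
    hPl q (Finset.mem_union_right _ (Finset.mem_singleton_self q)), fun n => ?_⟩
  obtain ⟨qv, hinj, hq, hfrob, hkill⟩ := hTWP 𝒪 p ρbar S'' Smin hyp'' D hD n
  have hqS'' : q ∈ S'' := hSS'' (Finset.mem_union_right _ (Finset.mem_singleton_self q))
  refine ⟨qv, hinj, fun i => ⟨(hq i).1, fun hi => (hq i).2.1 (hSS'' (Finset.mem_union_left _ hi)),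
    fun hi => (hq i).2.1 (hi ▸ hqS''), (hq i).2.2⟩, hfrob, fun 𝒟 h𝒟 Dset hDset => ?_⟩
  have hTWQ : ∀ q' ∈ Finset.univ.image qv, IsTWPrime ρbar p S'' q' := by
    intro q' hqQ
    obtain ⟨i, -, rfl⟩ := Finset.mem_image.mp hqQ
    refine ⟨(hq i).1, (hq i).2.1, ?_, hfrob i⟩
    exact dvd_trans (dvd_pow_self p (Nat.succ_ne_zero n)) (hq i).2.2
  have hQcard : (Finset.univ.image qv).card = Module.finrank (ResidueField 𝒪) D := by
    rw [Finset.card_image_of_injective _ hinj, Finset.card_univ, Fintype.card_fin]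
  have := hsel (Finset.univ.image qv) hTWQ hkill 𝒟 h𝒟 Dset hDset
  rwa [hQcard] at this

/-- The main theorem (strict-ordinary half) from the leaves of row S56 and BASE-BIG-OVER. -/
theorem relTWPrimesOrd_of (hTWP : TWPrimesStatement) (hmin : LocMinStatement)
    (hord : LocOrdPStatement) (hb : BaseBigOverStatement) (hr : RecQSubStatement)
    (hur : UrCountStatement) (hyp : Hyp 𝒪 p ρbar S Smin) (q : ℕ) (hq : q.Prime)
    (hqS : q ∉ Smin) : RelTWPrimes 𝒪 p ρbar S q (ordCond 𝒪 p Smin) :=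
  relTWPrimes_of 𝒪 p ρbar S Smin hTWP q (ordCond 𝒪 p Smin)
    (relSelAtOrd_sup 𝒪 p ρbar S Smin hmin hord hb hr hur hyp q hq hqS)

/-- The main theorem (flat half) from the leaves of row S56 and BASE-BIG-OVER. -/
theorem relTWPrimesFlat_of (hTWP : TWPrimesStatement) (hmin : LocMinStatement)
    (hflat : LocFlatPStatement) (hb : BaseBigOverStatement) (hr : RecQSubStatement)
    (hur : UrCountStatement) (hyp : Hyp 𝒪 p ρbar S Smin) (q : ℕ) (hq : q.Prime)
    (hqS : q ∉ Smin) : RelTWPrimes 𝒪 p ρbar S q (flatCond 𝒪 p Smin) :=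
  relTWPrimes_of 𝒪 p ρbar S Smin hTWP q (flatCond 𝒪 p Smin)
    (relSelAtFlat_sup 𝒪 p ρbar S Smin hmin hflat hb hr hur hyp q hq hqS)

end

end Fermat.Agent.S38.IA.H183

end

end
-- ===== PACK-END S38/IA/H183/Main.lean

-- ===== PACK-BEGIN S38/H299/CtrlChain.lean
section



/-!
# Row HARD / S59, cell HECKE, leaf IA-CTRL, piece CHAIN (helper299)

The multi-prime Taylor–Wiles control chain for the localisations `Aut.IsLocPart` of
`X_{Γ₀(M)}(𝒪) = Hom(Γ₀(M), 𝒪)`, obtained by iterating the one-prime step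
`S59.H105.one_step` (helper105).

A *step datum* is a triple `(q, α, β)`; a list `L` of step data is *admissible* for
`(N, Tset)` (`ChainHyp299`) if the primes `q` are distinct, prime to `N`, units of `𝒪`, occur in
`Tset` with a value `c` such that `α + β ≡ c`, `α β ≡ q`, and `α - β`, `1 - α²`, `1 - β²` are
units.

* `lvl299 N L`      : the level `N · ∏ q`;
* `tsetAfter299`    : `Tset` without the primes of `L`;
* `usetAfter299`    : `Uset` with the pairs `(q, α)` added;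
* `chain299`        : for `V'` the localisation of level `N` at `(Tset, Uset)` and `V` the
  localisation of level `M = lvl299 N L` at `(tsetAfter299 Tset L, usetAfter299 Uset L)` there is
  a bijective `𝒪`-linear map `V → V'` (the composite of the transfers `t₂`).

Inputs (hypotheses): `Aut.IdemStatement` (on main: `Aut.H511.idem`) and `H105.CrossStatement`.
-/

set_option autoImplicit false
set_option linter.style.haveILetI false
set_option linter.unusedSectionVars false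

namespace Fermat.Agent.S38.H299

open IsLocalRing CongruenceSubgroup
open Fermat.Agent.S59.TW.H653 Fermat.Agent.S59.TW.Aut Fermat.Agent.S59.H105
open scoped MatrixGroups

section Defs

variable {𝒪 : Type} [CommRing 𝒪]

/-- The level `N · ∏_{(q, α, β) ∈ L} q`, as an iterated product `((N q₁) q₂) ⋯`. -/
def lvl299 (N : ℕ) : List (ℕ × 𝒪 × 𝒪) → ℕ
  | [] => N
  | x :: L => lvl299 (N * x.1) L

/-- `Tset` without the primes of the list. -/
def tsetAfter299 (Tset : Set (ℕ × 𝒪)) (L : List (ℕ × 𝒪 × 𝒪)) : Set (ℕ × 𝒪) :=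
  {x | x ∈ Tset ∧ ∀ y ∈ L, x.1 ≠ y.1}

/-- `Uset` with the pairs `(q, α)` of the list. -/
def usetAfter299 (Uset : Set (ℕ × 𝒪)) (L : List (ℕ × 𝒪 × 𝒪)) : Set (ℕ × 𝒪) :=
  Uset ∪ {x | ∃ y ∈ L, x = (y.1, y.2.1)}

theorem lvl299_nil (N : ℕ) : lvl299 N ([] : List (ℕ × 𝒪 × 𝒪)) = N := rfl

theorem lvl299_cons (N : ℕ) (x : ℕ × 𝒪 × 𝒪) (L : List (ℕ × 𝒪 × 𝒪)) :
    lvl299 N (x :: L) = lvl299 (N * x.1) L := rfl

theorem lvl299_eq_prod (N : ℕ) (L : List (ℕ × 𝒪 × 𝒪)) :
    lvl299 N L = N * (L.map Prod.fst).prod := by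
  induction L generalizing N with
  | nil => simp [lvl299]
  | cons x L ih =>
    rw [lvl299_cons, ih, List.map_cons, List.prod_cons, mul_assoc]

theorem tsetAfter299_nil (Tset : Set (ℕ × 𝒪)) : tsetAfter299 Tset [] = Tset := by
  ext x
  simp [tsetAfter299]

theorem usetAfter299_nil (Uset : Set (ℕ × 𝒪)) : usetAfter299 Uset [] = Uset := by
  ext x
  simp [usetAfter299]

theorem tsetAfter299_cons (Tset : Set (ℕ × 𝒪)) (y : ℕ × 𝒪 × 𝒪) (L : List (ℕ × 𝒪 × 𝒪)) :
    tsetAfter299 Tset (y :: L) = tsetAfter299 {x | x ∈ Tset ∧ x.1 ≠ y.1} L := by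
  ext x
  simp only [tsetAfter299, Set.mem_ofPred_eq, List.mem_cons, forall_eq_or_imp]
  tauto

theorem usetAfter299_cons (Uset : Set (ℕ × 𝒪)) (y : ℕ × 𝒪 × 𝒪) (L : List (ℕ × 𝒪 × 𝒪)) :
    usetAfter299 Uset (y :: L) = usetAfter299 (Uset ∪ {(y.1, y.2.1)}) L := by
  ext x
  simp only [usetAfter299, Set.mem_union, Set.mem_ofPred_eq, List.mem_cons,
    Set.mem_singleton_iff, exists_eq_or_imp]
  tauto

end Defs

section Chain

variable {𝒪 : Type} [CommRing 𝒪] [IsDomain 𝒪] [IsDiscreteValuationRing 𝒪]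
  [IsAdicComplete (maximalIdeal 𝒪) 𝒪] [Finite (ResidueField 𝒪)]

/-- Admissibility of one step datum `(q, α, β)` for `(N, Tset)`. -/
def StepHyp299 (N : ℕ) (Tset : Set (ℕ × 𝒪)) (y : ℕ × 𝒪 × 𝒪) : Prop :=
  y.1.Prime ∧ ¬ y.1 ∣ N ∧ IsUnit ((y.1 : ℕ) : 𝒪) ∧
    IsUnit (y.2.1 - y.2.2) ∧ IsUnit (1 - y.2.1 ^ 2) ∧ IsUnit (1 - y.2.2 ^ 2) ∧
    y.2.1 * y.2.2 - ((y.1 : ℕ) : 𝒪) ∈ maximalIdeal 𝒪 ∧
    ∃ c : 𝒪, (y.1, c) ∈ Tset ∧ (∀ c', (y.1, c') ∈ Tset → c' - c ∈ maximalIdeal 𝒪) ∧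
      y.2.1 + y.2.2 - c ∈ maximalIdeal 𝒪

/-- Admissibility of a list of step data: every datum is admissible and the primes are
pairwise distinct. -/
def ChainHyp299 (N : ℕ) (Tset : Set (ℕ × 𝒪)) (L : List (ℕ × 𝒪 × 𝒪)) : Prop :=
  (∀ y ∈ L, StepHyp299 N Tset y) ∧ (L.map Prod.fst).Nodup

theorem ChainHyp299.tail {N : ℕ} {Tset : Set (ℕ × 𝒪)} {y : ℕ × 𝒪 × 𝒪}
    {L : List (ℕ × 𝒪 × 𝒪)} (h : ChainHyp299 N Tset (y :: L)) :
    ChainHyp299 (N * y.1) {x | x ∈ Tset ∧ x.1 ≠ y.1} L := by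
  obtain ⟨h1, h2⟩ := h
  rw [List.map_cons, List.nodup_cons] at h2
  have hy := h1 y List.mem_cons_self
  refine ⟨fun z hz => ?_, h2.2⟩
  obtain ⟨z1, z2, z3, z4, z5, z6, z7, c, hc1, hc2, hc3⟩ := h1 z (List.mem_cons_of_mem y hz)
  have hne : z.1 ≠ y.1 := by
    intro e
    exact h2.1 (e ▸ List.mem_map_of_mem hz)
  refine ⟨z1, ?_, z3, z4, z5, z6, z7, c, ⟨hc1, hne⟩, fun c' hc' => hc2 c' hc'.1, hc3⟩
  intro hdvd
  rcases (Nat.Prime.dvd_mul z1).mp hdvd with h | h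
  · exact z2 h
  · exact hne ((Nat.prime_dvd_prime_iff_eq z1 hy.1).mp h)

/-- Transport of `IsLocPart` along equalities of the sets of generators. -/
theorem isLocPart_congr299 {M : ℕ} {K : Subgroup SL(2, ℤ)} (hK : IsMid M K)
    {Tset Tset' Uset Uset' : Set (ℕ × 𝒪)} (hT : Tset = Tset') (hU : Uset = Uset')
    {V : Submodule 𝒪 (Additive K →+ 𝒪)} (hV : IsLocPart hK Tset Uset V) :
    IsLocPart hK Tset' Uset' V := by
  subst hT
  subst hU
  exact hV

/-- **The Taylor–Wiles control chain.** -/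
theorem chain299 (idem : IdemStatement) (hcross : CrossStatement) :
    ∀ (L : List (ℕ × 𝒪 × 𝒪)) (N : ℕ) (_hN : N ≠ 0) (Tset Uset : Set (ℕ × 𝒪))
      (_hT : ∀ x ∈ Tset, x.1.Prime ∧ ¬ x.1 ∣ N) (_hU : ∀ x ∈ Uset, x.1.Prime ∧ x.1 ∣ N)
      (_hL : ChainHyp299 N Tset L)
      (V' : Submodule 𝒪 (Additive (Gamma0 N) →+ 𝒪))
      (_hV' : IsLocPart (isMid_Gamma0 N) Tset Uset V')
      (M : ℕ) (_hM : M = lvl299 N L)
      (V : Submodule 𝒪 (Additive (Gamma0 M) →+ 𝒪))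
      (_hV : IsLocPart (isMid_Gamma0 M) (tsetAfter299 Tset L) (usetAfter299 Uset L) V),
      ∃ f : V →ₗ[𝒪] V', Function.Bijective f := by
  intro L
  induction L with
  | nil =>
    intro N hN Tset Uset hT hU _ V' hV' M hM V hV
    rw [lvl299_nil] at hM
    subst hM
    have hV2 : IsLocPart (isMid_Gamma0 M) Tset Uset V :=
      isLocPart_congr299 _ (tsetAfter299_nil Tset) (usetAfter299_nil Uset) hV
    have hEq : V = V' := isLocPart_unique hN _ hV2 hV' hT hU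
    subst hEq
    exact ⟨LinearMap.id, Function.bijective_id⟩
  | cons y L ih =>
    intro N hN Tset Uset hT hU hL V' hV' M hM V hV
    obtain ⟨y1, y2, y3, y4, y5, y6, y7, c, hc1, hc2, hc3⟩ := hL.1 y List.mem_cons_self
    haveI : Fact y.1.Prime := ⟨y1⟩
    have hNq : N * y.1 ≠ 0 := Nat.mul_ne_zero hN y1.ne_zero
    have hT1 : ∀ x ∈ {x : ℕ × 𝒪 | x ∈ Tset ∧ x.1 ≠ y.1}, x.1.Prime ∧ ¬ x.1 ∣ N * y.1 :=
      fun x hx => ⟨(hT x hx.1).1, not_dvd_mul_of_prime (hT x hx.1).1 y1 (hT x hx.1).2 hx.2⟩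
    have hU1 : ∀ x ∈ Uset ∪ {(y.1, y.2.1)}, x.1.Prime ∧ x.1 ∣ N * y.1 := by
      rintro x (hx | hx)
      · exact ⟨(hU x hx).1, Dvd.dvd.mul_right (hU x hx).2 y.1⟩
      · rw [Set.mem_singleton_iff] at hx
        subst hx
        exact ⟨y1, dvd_mul_self_left N y.1⟩
    -- the intermediate localisation of level `N q`
    obtain ⟨V₁, hV₁⟩ := idem 𝒪 (N * y.1) hNq (Gamma0 (N * y.1)) (isMid_Gamma0 (N * y.1))
      {x | x ∈ Tset ∧ x.1 ≠ y.1} (Uset ∪ {(y.1, y.2.1)}) hT1 hU1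
    obtain ⟨s1, s2, s3⟩ := one_step idem hcross hN y2 y3 hT hU hc1 hc2 hc3 y7 y4 y5 y6 hV' hV₁
    -- the rest of the chain
    rw [lvl299_cons] at hM
    obtain ⟨f, hf⟩ := ih (N * y.1) hNq {x | x ∈ Tset ∧ x.1 ≠ y.1} (Uset ∪ {(y.1, y.2.1)})
      hT1 hU1 hL.tail V₁ hV₁ M hM V
      (isLocPart_congr299 _ (tsetAfter299_cons Tset y L) (usetAfter299_cons Uset y L) hV)
    -- `t₂ : V₁ → V'`
    let g : V₁ →ₗ[𝒪] V' :=
      LinearMap.codRestrict V' ((t₂L 𝒪 𝒪 N y.1).comp V₁.subtype) (fun v => s1 v v.2)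
    have hg : Function.Bijective g := by
      constructor
      · intro v w hvw
        have h1 : t₂L 𝒪 𝒪 N y.1 (v : Additive (Gamma0 (N * y.1)) →+ 𝒪) =
            t₂L 𝒪 𝒪 N y.1 (w : Additive (Gamma0 (N * y.1)) →+ 𝒪) := congrArg Subtype.val hvw
        have h2 : t₂L 𝒪 𝒪 N y.1 ((v : Additive (Gamma0 (N * y.1)) →+ 𝒪) -
            (w : Additive (Gamma0 (N * y.1)) →+ 𝒪)) = 0 := by
          rw [map_sub, h1, sub_self]
        have h3 := s2 _ (V₁.sub_mem v.2 w.2) h2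
        exact Subtype.ext (sub_eq_zero.mp h3)
      · rintro ⟨x, hx⟩
        obtain ⟨v, hv, e⟩ := s3 x hx
        exact ⟨⟨v, hv⟩, Subtype.ext e⟩
    exact ⟨g.comp f, hg.comp hf⟩

end Chain

end Fermat.Agent.S38.H299

end
-- ===== PACK-END S38/H299/CtrlChain.lean

-- ===== PACK-BEGIN S38/H509/IAFreeCore.lean
section




/-!
# Row HARD, cell HECKE, leaf IA-FREE (helper509): the core

`free_of_locPart_h509`: for a family `qq : ι → ℕ` of distinct primes (any finite index type `ι`),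
`M = N₀ ∏ qq s`, `K = KG p N₀ qq = Γ₀(N₀) ∩ Γ_H(qq)`, `5 ≤ p`, and `V ⊆ X_K(𝒪)` THE localisation
at an eigen-system (`IsLocPart`, any `Tset`, `Uset`) such that `T_ℓ - (ℓ + 1)` is bijective on `V`
for one prime `ℓ ∤ M`: there are `d` and `b : Fin d → V` such that for ALL primitive roots `g s`
modulo `qq s` the elements `⟨g^e⟩ b_i` (`e ∈ ∏ Fin (p ^ m_s)`, `i < d`) form an `𝒪`-basis of `V`.

Proof: `MFree.H587.free_heckeKer` (block M-FREE, on main) at `κ = gKappa p N₀ qq`, `e` = the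
projector of `V`; hypothesis (Ell) is `gKappa_ell_h509`; the sections of `κ` are matched with the
exponents by `gEps_bijective_h509`.
-/

set_option autoImplicit false

open CongruenceSubgroup
open scoped MatrixGroups

namespace Fermat.Agent.S38.H509

open Fermat.Agent.S59.TW.H653 Fermat.Agent.S59.MFree Fermat.Agent.S38.IA.Hecke
open Fermat.Agent.S59.TW.Aut

/-! ## Abstract transport of a basis -/

section Abstract

variable {R X : Type*} [CommRing R] [AddCommGroup X] [Module R X]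
  {D E : Type*} [Fintype D] [Fintype E] {n : ℕ}

theorem sum_reindex_h509 (F : D × Fin n → X) (εe : E ≃ D) (c : Fin n → E → R) :
    ∑ i, ∑ e, c i e • F (εe e, i) = ∑ z : D × Fin n, c z.2 (εe.symm z.1) • F z := by
  rw [Fintype.sum_prod_type_right]
  refine Finset.sum_congr rfl fun i _ => ?_
  rw [← Equiv.sum_comp εe (fun d => c i (εe.symm d) • F (d, i))]
  refine Finset.sum_congr rfl fun e _ => ?_
  rw [Equiv.symm_apply_apply]

/-- A linearly independent family `F : D × Fin n → X` spanning `y`, re-indexed along a bijection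
`E ≃ D`, expresses `y` uniquely. -/
theorem existsUnique_of_li_span_h509 (F : D × Fin n → X) (hli : LinearIndependent R F)
    (εe : E ≃ D) (y : X) (hy : y ∈ Submodule.span R (Set.range F)) :
    ∃! c : Fin n → E → R, y = ∑ i, ∑ e, c i e • F (εe e, i) := by
  obtain ⟨c0, hc0⟩ := (Submodule.mem_span_range_iff_exists_fun R).mp hy
  refine ⟨fun i e => c0 (εe e, i), ?_, ?_⟩
  · show y = ∑ i, ∑ e, c0 (εe e, i) • F (εe e, i)
    rw [sum_reindex_h509 F εe (fun i e => c0 (εe e, i)), ← hc0]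
    refine Finset.sum_congr rfl fun z _ => ?_
    rw [Equiv.apply_symm_apply]
  · intro c' hc'
    have h1 : ∑ z : D × Fin n, (c' z.2 (εe.symm z.1) - c0 z) • F z = 0 := by
      simp only [sub_smul, Finset.sum_sub_distrib]
      rw [← sum_reindex_h509 F εe c', ← hc', hc0, sub_self]
    have h2 := Fintype.linearIndependent_iff.mp hli _ h1
    funext i e
    have h3 := h2 (εe e, i)
    simp only [Equiv.symm_apply_apply] at h3
    exact sub_eq_zero.mp h3

end Abstract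

/-! ## The core -/

section Core

variable (p : ℕ) [hp : Fact p.Prime] (N₀ : ℕ) {ι : Type} [Fintype ι] [DecidableEq ι]
  (qq : ι → ℕ)
  (𝒪 : Type) [CommRing 𝒪] [IsDomain 𝒪] [IsDiscreteValuationRing 𝒪] [CharZero 𝒪]

/-- **IA-FREE, core.**  The localisation `V` of `X_K(𝒪)`, `K = Γ₀(N₀) ∩ Γ_H(qq)`, is free over
`𝒪[Δ]`: it has an `𝒪`-basis `⟨g^e⟩ b_i`. -/
theorem free_of_locPart_h509 (hp5 : 5 ≤ p) (hp𝒪 : ¬ IsUnit (p : 𝒪)) (hN₀ : N₀ ≠ 0)
    (hprime : ∀ s, (qq s).Prime) (hinj : Function.Injective qq)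
    {Tset Uset : Set (ℕ × 𝒪)} {V : Submodule 𝒪 (Additive (KG p N₀ qq) →+ 𝒪)}
    (hV : IsLocPart (isMid_KG p N₀ qq) Tset Uset V)
    (ℓ : ℕ) [Fact ℓ.Prime] (hℓ : ¬ ℓ ∣ gLevel N₀ qq)
    (hsurj : ∀ y ∈ V, ∃ x ∈ V,
      TK (gLevel N₀ qq) (KG p N₀ qq) ℓ x - ((ℓ : 𝒪) + 1) • x = y)
    (hinj' : ∀ x ∈ V, TK (gLevel N₀ qq) (KG p N₀ qq) ℓ x - ((ℓ : 𝒪) + 1) • x = 0 → x = 0) :
    ∃ (d : ℕ) (b : Fin d → V), ∀ g : ∀ s : ι, (ZMod (qq s))ˣ,
      (∀ s, orderOf (g s) = qq s - 1) → ∀ y : V,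
        ∃! c : Fin d → (∀ s : ι, Fin (p ^ padicValNat p (qq s - 1))) → 𝒪,
          (y : Additive (KG p N₀ qq) →+ 𝒪) =
            ∑ i, ∑ e, c i e • diamondU (isMid_KG p N₀ qq)
              (gLift N₀ qq (fun s => g s ^ (e s : ℕ))) (b i : Additive (KG p N₀ qq) →+ 𝒪) := by
  classical
  have hM : NeZero (gLevel N₀ qq) := neZero_gLevel_h509 N₀ qq hN₀ hprime
  have hred := gRed_surjective_h509 N₀ qq hN₀ hinj hprime
  have hfinD : Finite (GDelta p qq) := finite_gDelta_h509 p qq hprime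
  letI : Fintype (GDelta p qq) := Fintype.ofFinite _
  have hκ : Function.Surjective (gKappa p N₀ qq) := gKappa_surjective_h509 p N₀ qq hred
  have hcard : ∃ a : ℕ, Fintype.card (GDelta p qq) = p ^ a := by
    obtain ⟨a, ha⟩ := card_gDelta_h509 p qq hprime
    exact ⟨a, by rw [← Nat.card_eq_fintype_card]; exact ha⟩
  have hell := gKappa_ell_h509 p N₀ qq hp5 hprime
  have hΓ1 := gKappa_trivial_h509 p N₀ qq
  obtain ⟨e, he, heV, hVe, hT, -, hD, -⟩ := hV.exists_proj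
  have hmemV : ∀ x : Additive (KG p N₀ qq) →+ 𝒪, e x = x → x ∈ V := fun x hx => by
    rw [← hx]; exact heV x
  have hTK : ∀ x : Additive (kerSub (gKappa p N₀ qq)) →+ 𝒪,
      H587.heckeKerLin hℓ (gKappa p N₀ qq) hΓ1 𝒪 x =
        TK (gLevel N₀ qq) (KG p N₀ qq) ℓ x := fun x =>
    heckeKer_eq_TK hℓ (gKappa p N₀ qq) hΓ1 x
  have hconj : ∀ (γ : Gamma0 (gLevel N₀ qq)) (x : Additive (kerSub (gKappa p N₀ qq)) →+ 𝒪),
      conjAct (gKappa p N₀ qq) γ x =
        diamondU (isMid_KG p N₀ qq) (dUnit (gLevel N₀ qq) γ⁻¹) x := fun γ x => by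
    rw [conjAct_eq_diamond (gKappa p N₀ qq) hΓ1 γ x, diamond_eq_diamondU]
    rfl
  have hfree := H587.free_heckeKer p (gLevel N₀ qq) ℓ hℓ (NeZero.ne _) (GDelta p qq)
    (gKappa p N₀ qq) hκ hcard hell hΓ1 𝒪 hp𝒪 e he
    (fun x => by rw [hTK, hTK]; exact hT ℓ hℓ x)
    (fun γ x => by rw [hconj, hconj]; exact hD _ x)
    (fun y hy => by
      obtain ⟨x, hx, hxy⟩ := hsurj y (hmemV y hy)
      exact ⟨x, hVe x hx, by rw [hTK]; exact hxy⟩)
    (fun x hx h0 => hinj' x (hmemV x hx) (by rw [← hTK]; exact h0))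
  obtain ⟨⟨n, b, hb, hbasis⟩, -, -⟩ := hfree
  refine ⟨n, fun i => ⟨b i, hmemV _ (hb i)⟩, ?_⟩
  intro g hg y
  -- a section of `κ`
  obtain ⟨s, hs⟩ : ∃ s : GDelta p qq → Gamma0 (gLevel N₀ qq), ∀ d, gKappa p N₀ qq (s d) = d :=
    ⟨Function.surjInv hκ, Function.surjInv_eq hκ⟩
  obtain ⟨hli, hspan⟩ := hbasis s hs
  -- the exponents
  let εe : (∀ s : ι, Fin (p ^ padicValNat p (qq s - 1))) ≃ GDelta p qq :=
    (Equiv.ofBijective _ (gEps_bijective_h509 p qq hprime g hg)).trans (Equiv.inv _)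
  have hε : ∀ e', εe e' = (QuotientGroup.mk (fun s => g s ^ (e' s : ℕ)) : GDelta p qq)⁻¹ :=
    fun _ => rfl
  have hy : (y : Additive (KG p N₀ qq) →+ 𝒪) ∈ Submodule.span 𝒪
      (Set.range fun z : GDelta p qq × Fin n => conjAct (gKappa p N₀ qq) (s z.1) (b z.2)) :=
    hspan _ (hVe _ y.2)
  have key := existsUnique_of_li_span_h509
    (fun z : GDelta p qq × Fin n => conjAct (gKappa p N₀ qq) (s z.1) (b z.2)) hli εe _ hy
  have hdia : ∀ (i : Fin n) (e' : ∀ s : ι, Fin (p ^ padicValNat p (qq s - 1))),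
      conjAct (gKappa p N₀ qq) (s (εe e')) (b i) =
        diamondU (isMid_KG p N₀ qq) (gLift N₀ qq (fun s => g s ^ (e' s : ℕ))) (b i) := by
    intro i e'
    exact (diamondU_gLift_eq_conjAct_h509 p N₀ qq hred (fun s => g s ^ (e' s : ℕ))
      (s (εe e')) (by rw [hs, hε]) (b i)).symm
  simp only [hdia] at key
  exact key

end Core

end Fermat.Agent.S38.H509

end
-- ===== PACK-END S38/H509/IAFreeCore.lean

-- ===== PACK-BEGIN S38/H59/MinZeroUnit.lean
section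



/-!
# Row HARD, leaf IA-MINZERO, piece Z3 (UNIT) (helper59)

For a Taylor–Wiles prime `q ≡ 1 mod p` and a lift `α` of an eigenvalue of `ρ̄(Frob_q)` (the two
eigenvalues being distinct, with product `det ρ̄(Frob_q) = q = 1`), `α² - 1` is a unit of `𝒪`.
-/

set_option autoImplicit false

namespace Fermat.Agent.S38.H59

open Polynomial IsLocalRing
open Fermat.Agent.S59.Arch Fermat.Agent.S59.TW.H959 Fermat.Agent.S59.TW.Aut

/-- the determinant of a two-dimensional endomorphism with split characteristic polynomial -/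
theorem det_eq_mul_of_charpoly59 {k : Type} [Field k] {V : Type} [AddCommGroup V] [Module k V]
    [Module.Finite k V] (hV : Module.finrank k V = 2) (f : Module.End k V) (a b : k)
    (h : LinearMap.charpoly f = (X - C a) * (X - C b)) : LinearMap.det f = a * b := by
  rw [LinearMap.det_eq_sign_charpoly_coeff, hV, h]
  simp [Polynomial.mul_coeff_zero]

/-- **Z3 (UNIT).**  `α_j² - 1` is a unit for every Taylor–Wiles prime. -/
theorem isUnit_sq_sub_one59 (p : ℕ) [Fact p.Prime]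
    (𝒪 : Type) [CommRing 𝒪] [IsDomain 𝒪] [IsDiscreteValuationRing 𝒪]
    (ρbar : ResidualGaloisRep (ResidueField 𝒪))
    (hdet : (GaloisRepAdic.ofResidualGaloisRep ρbar).DetIsCyclotomic p)
    (S : Finset ℕ) (hpS : p ∈ S) (n r : ℕ) (qv : Fin r → ℕ) (hq : IsTWSet p ρbar S n qv)
    (α : Fin r → 𝒪) (hα : IsFrobLift ρbar qv α) (j : Fin r) : IsUnit (α j ^ 2 - 1) := by
  obtain ⟨P, φ, β, hP, hφ, hne, hcp⟩ := hα j
  obtain ⟨hqp, hqS, hdvd⟩ := hq.2.1 j
  have hqne : qv j ≠ p := fun h => hqS (h ▸ hpS)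
  have hdet' : LinearMap.det (ρbar.ρ φ) = ((qv j : ℕ) : ResidueField 𝒪) :=
    Fermat.Agent.S58.H999.det_frob_eq p hdet hqp hqne P hP φ hφ
  have hdetcp : LinearMap.det (ρbar.ρ φ) = residue 𝒪 (α j) * β :=
    det_eq_mul_of_charpoly59 ρbar.finrank_eq _ _ _ hcp
  -- `q = 1` in the residue field
  have hp0 : ((p : ℕ) : ResidueField 𝒪) = 0 := hdet.1 |> fun h => by
    have h0 : IsLocalRing.maximalIdeal (ResidueField 𝒪) = ⊥ := IsLocalRing.maximalIdeal_eq_bot
    rw [h0] at h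
    exact h
  have hq1 : ((qv j : ℕ) : ResidueField 𝒪) = 1 := by
    have hpd : p ∣ qv j - 1 := Dvd.dvd.trans (dvd_pow_self p (Nat.succ_ne_zero n)) hdvd
    obtain ⟨c, hc⟩ := hpd
    have hpos : 1 ≤ qv j := hqp.one_lt.le
    have hq' : qv j = p * c + 1 := by omega
    rw [hq', Nat.cast_add, Nat.cast_mul, hp0, zero_mul, zero_add, Nat.cast_one]
  have hab : residue 𝒪 (α j) * β = 1 := by rw [← hdetcp, hdet', hq1]
  have hres : residue 𝒪 (α j ^ 2 - 1) ≠ 0 := by
    intro h0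
    rw [map_sub, map_pow, map_one, sub_eq_zero] at h0
    apply hne
    have ha0 : residue 𝒪 (α j) ≠ 0 := by
      intro h
      rw [h, zero_mul] at hab
      exact zero_ne_one hab
    have : residue 𝒪 (α j) * residue 𝒪 (α j) = residue 𝒪 (α j) * β := by
      rw [← pow_two, h0, hab]
    exact mul_left_cancel₀ ha0 this
  by_contra hu
  exact hres ((residue_eq_zero_iff _).mpr ((mem_maximalIdeal _).mpr hu))

end Fermat.Agent.S38.H59

end
-- ===== PACK-END S38/H59/MinZeroUnit.lean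

-- ===== PACK-BEGIN S59/H401/DictLarge.lean
section


/-!
# Row S59 / row HARD, cell DICT with LARGE coefficients (helper401)

`Fermat.Agent.S59.Arch.DictStatement` produces SOME coefficient ring `𝒪`.  The Ihara-avoidance
chain of row HARD (`S38/IA/Spec.lean`, `IACoreStatement`) needs `𝒪` to contain the `p`-power roots
of unity of order dividing `q - 1` at the pivots.  Here:

* `dict_exists_ext_root` : every complete DVR `O` of characteristic zero with finite residue field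
  of characteristic `p` has a finite extension `O'` of the same kind containing a primitive `n`-th
  root of unity (`O'` = integral closure of `O` in the `n`-th cyclotomic field of `Frac O`);
* `dict_transfer` : the conclusion of DICT is stable under local extensions of the coefficients;
* `DictLargeStatement` = `DictStatement` + `∃ ζ : 𝒪, IsPrimitiveRoot ζ n` for a prescribed `n > 0`
  (hence primitive `d`-th roots of unity for all `d ∣ n`: `dict_primitiveRoot_of_dvd`);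
* `dictLarge_of_dict : DictStatement → DictLargeStatement`.

The unconditional form `dictLarge : DictLargeStatement` is in `DictLargeFinal.lean`.
-/

set_option autoImplicit false
set_option linter.style.haveILetI false

open Polynomial IsLocalRing
open scoped WeierstrassCurve.Affine

namespace Fermat.Agent.S59.H401

/-- **Adjoining roots of unity** to a complete DVR of characteristic zero. -/
theorem dict_exists_ext_root (p : ℕ) (n : ℕ) (hn : 0 < n)
    (O : Type) [CommRing O] [IsDomain O] [IsDiscreteValuationRing O]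
    [IsAdicComplete (maximalIdeal O) O] [Finite (ResidueField O)] [CharZero O]
    (hpO : (p : O) ∈ maximalIdeal O) :
    ∃ (O' : Type) (_ : CommRing O') (_ : IsDomain O') (_ : IsDiscreteValuationRing O')
      (_ : IsAdicComplete (maximalIdeal O') O') (_ : Finite (ResidueField O'))
      (_ : CharZero O') (e : O →+* O') (_ : IsLocalHom e),
      Function.Injective e ∧ (p : O') ∈ maximalIdeal O' ∧ ∃ ζ : O', IsPrimitiveRoot ζ n := by
  classical
  haveI : CharZero (FractionRing O) :=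
    charZero_of_injective_algebraMap (IsFractionRing.injective O (FractionRing O))
  haveI : NeZero n := ⟨hn.ne'⟩
  haveI : NeZero ((n : ℕ) : FractionRing O) := ⟨by exact_mod_cast hn.ne'⟩
  haveI hfd : FiniteDimensional (FractionRing O) (CyclotomicField n (FractionRing O)) :=
    IsCyclotomicExtension.finiteDimensional {n} (FractionRing O) _
  have hdvr : IsDiscreteValuationRing
      (Fermat.Agent.S59.G4.H109.intRingO O (CyclotomicField n (FractionRing O))) :=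
    Fermat.Agent.S59.G4.H109.intRingO_isDiscreteValuationRing O (FractionRing O) _
  have hloc : IsLocalHom (algebraMap O
      (Fermat.Agent.S59.G4.H109.intRingO O (CyclotomicField n (FractionRing O)))) :=
    Fermat.Agent.S59.G4.H109.intRingO_isLocalHom O (FractionRing O) _
  have hpO' : ((p : ℕ) : Fermat.Agent.S59.G4.H109.intRingO O
        (CyclotomicField n (FractionRing O))) ∈
      maximalIdeal (Fermat.Agent.S59.G4.H109.intRingO O
        (CyclotomicField n (FractionRing O))) := by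
    have h1 : algebraMap O (Fermat.Agent.S59.G4.H109.intRingO O
        (CyclotomicField n (FractionRing O))) (p : O) ∈
        maximalIdeal (Fermat.Agent.S59.G4.H109.intRingO O
          (CyclotomicField n (FractionRing O))) := by
      rw [mem_maximalIdeal, mem_nonunits_iff] at hpO ⊢
      exact fun hu => hpO (hloc.map_nonunit _ hu)
    rwa [map_natCast] at h1
  obtain ⟨ζ, hζ⟩ := IsCyclotomicExtension.exists_isPrimitiveRoot (FractionRing O)
    (CyclotomicField n (FractionRing O)) (Set.mem_singleton n) hn.ne'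
  have hint : IsIntegral O ζ := by
    refine ⟨X ^ n - 1, monic_X_pow_sub_C 1 hn.ne', ?_⟩
    simp [hζ.pow_eq_one]
  refine ⟨Fermat.Agent.S59.G4.H109.intRingO O (CyclotomicField n (FractionRing O)),
    inferInstance, inferInstance, hdvr,
    Fermat.Agent.S59.G4.H109.intRingO_isAdicComplete O (FractionRing O) _,
    Fermat.Agent.S59.G4.H109.intRingO_finite_residueField O (FractionRing O) _,
    Fermat.Agent.S59.G4.H109.intRingO_charZero O (FractionRing O) _,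
    algebraMap O _, hloc,
    Fermat.Agent.S59.G4.H109.algebraMap_intRingO_injective O (FractionRing O) _, hpO',
    ⟨ζ, hint⟩, ?_⟩
  refine IsPrimitiveRoot.of_map_of_injective
    (f := (Fermat.Agent.S59.G4.H109.intRingO O (CyclotomicField n (FractionRing O))).val)
    ?_ Subtype.val_injective
  exact hζ

/-- Primitive roots of unity of every order dividing `n`. -/
theorem dict_primitiveRoot_of_dvd {R : Type*} [CommRing R] [IsDomain R] {n d : ℕ} (hn : 0 < n)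
    {ζ : R} (hζ : IsPrimitiveRoot ζ n) (hd : d ∣ n) : ∃ ξ : R, IsPrimitiveRoot ξ d := by
  obtain ⟨c, rfl⟩ := hd
  have hd0 : d ≠ 0 := by
    rintro rfl
    simp at hn
  have hc0 : c ≠ 0 := by
    rintro rfl
    simp at hn
  exact ⟨ζ ^ c, hζ.pow (Nat.mul_pos (Nat.pos_of_ne_zero hd0) (Nat.pos_of_ne_zero hc0))
    (mul_comm d c)⟩

/-- **The conclusion of DICT is stable under local extensions of the coefficient ring.** -/
theorem dict_transfer (p : ℕ) [Fact p.Prime] (W : WeierstrassCurve ℤ)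
    (hcard : Nat.card (Submodule.torsionBy ℤ
      ((W.map (Int.castRingHom ℚ))⁄(AlgebraicClosure ℚ)).Point p) = p ^ 2)
    (hker : GaloisFactorsThroughFiniteLevel
      (WeierstrassCurve.Affine.Point.galoisRepModuleEnd (K := AlgebraicClosure ℚ) ℚ
        (W.map (Int.castRingHom ℚ)) p))
    {N : ℕ} [NeZero N] {S : Set ℕ}
    (O : Type) [CommRing O] [IsLocalRing O]
    (O' : Type) [CommRing O'] [IsLocalRing O']
    (e : O →+* O') [IsLocalHom e]
    (ι : ZMod p →+* ResidueField O) (χ : CuspForm.heckeAlgebra N 2 S →+* O)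
    (hsplit : ∀ f : (ZMod p)[X], f.Monic → f.natDegree = 2 →
      ∃ α β : ResidueField O, f.map ι = (X - C α) * (X - C β))
    (hfrob : Fermat.Agent.S59.G4.ResFrobCond
      (Fermat.Agent.S59.Arch.curveResidual p W hcard hker ι) ((residue O).comp χ)) :
    (∀ f : (ZMod p)[X], f.Monic → f.natDegree = 2 →
      ∃ α β : ResidueField O', f.map ((ResidueField.map e).comp ι) = (X - C α) * (X - C β)) ∧
    Fermat.Agent.S59.G4.ResFrobCond
      (Fermat.Agent.S59.Arch.curveResidual p W hcard hker ((ResidueField.map e).comp ι))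
      ((residue O').comp (e.comp χ)) := by
  refine ⟨fun f hf hdeg => ?_, ?_⟩
  · obtain ⟨α, β, h⟩ := hsplit f hf hdeg
    refine ⟨ResidueField.map e α, ResidueField.map e β, ?_⟩
    rw [← Polynomial.map_map, h]
    simp only [Polynomial.map_mul, Polynomial.map_sub, Polynomial.map_X, Polynomial.map_C]
  · intro ℓ hℓ hℓN hℓS B hB σ hσ
    have h0 := hfrob ℓ hℓ hℓN hℓS B hB σ hσ
    rw [show Fermat.Agent.S59.Arch.curveResidual p W hcard hker ι
        = ((W.map (Int.castRingHom ℚ)).residualGaloisRepOf p hcard hker).baseChangeAlong ι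
        from rfl, dict_charpoly_baseChangeAlong] at h0
    rw [show Fermat.Agent.S59.Arch.curveResidual p W hcard hker ((ResidueField.map e).comp ι)
        = ((W.map (Int.castRingHom ℚ)).residualGaloisRepOf p hcard hker).baseChangeAlong
          ((ResidueField.map e).comp ι) from rfl, dict_charpoly_baseChangeAlong,
      ← Polynomial.map_map, h0]
    simp only [Polynomial.map_add, Polynomial.map_sub, Polynomial.map_mul, Polynomial.map_pow,
      Polynomial.map_X, Polynomial.map_C, RingHom.comp_apply, ResidueField.map_residue,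
      map_natCast, Polynomial.map_natCast]

/-- **Cell DICT with prescribed roots of unity in the coefficient ring.** -/
def DictLargeStatement : Prop :=
  ∀ (p : ℕ) [Fact p.Prime] (_hp2 : p ≠ 2)
    (W : WeierstrassCurve ℤ) (_hΔ : W.Δ ≠ 0) (_hW : W.IsSemistableModel)
    (_hirr : W.ModRepIsIrreducible p)
    (hcard : Nat.card (Submodule.torsionBy ℤ
      ((W.map (Int.castRingHom ℚ))⁄(AlgebraicClosure ℚ)).Point p) = p ^ 2)
    (hker : GaloisFactorsThroughFiniteLevel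
      (WeierstrassCurve.Affine.Point.galoisRepModuleEnd (K := AlgebraicClosure ℚ) ℚ
        (W.map (Int.castRingHom ℚ)) p))
    (N : ℕ) [NeZero N] (S : Finset ℕ) (_hpS : p ∈ S) (_hS : ∀ q ∈ S, q.Prime)
    (_hNS : ∀ q : ℕ, q.Prime → q ∣ N → q ∈ S)
    (_hmod : W.IsResiduallyModularOfLevel p N)
    (n : ℕ) (_hn : 0 < n),
    ∃ (𝒪 : Type) (_ : CommRing 𝒪) (_ : IsDomain 𝒪) (_ : IsDiscreteValuationRing 𝒪)
      (_ : IsAdicComplete (maximalIdeal 𝒪) 𝒪) (_ : Finite (ResidueField 𝒪))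
      (_ : CharZero 𝒪) (ι : ZMod p →+* ResidueField 𝒪)
      (χ : CuspForm.heckeAlgebra N 2 (↑S : Set ℕ) →+* 𝒪),
      (p : 𝒪) ∈ maximalIdeal 𝒪 ∧
      (∀ f : (ZMod p)[X], f.Monic → f.natDegree = 2 →
        ∃ α β : ResidueField 𝒪, f.map ι = (X - C α) * (X - C β)) ∧
      Fermat.Agent.S59.G4.ResFrobCond
        (Fermat.Agent.S59.Arch.curveResidual p W hcard hker ι) ((residue 𝒪).comp χ) ∧
      (∃ ζ : 𝒪, IsPrimitiveRoot ζ n) ∧
      ∀ d : ℕ, d ∣ n → ∃ ξ : 𝒪, IsPrimitiveRoot ξ d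

/-- **DICT with large coefficients, from DICT.** -/
theorem dictLarge_of_dict (h : Fermat.Agent.S59.Arch.DictStatement) : DictLargeStatement := by
  intro p _ hp2 W hΔ hW hirr hcard hker N _ S hpS hS hNS hmod n hn
  obtain ⟨𝒪, i1, i2, i3, i4, i5, i6, ι, χ, hp𝒪, hsplit, hfrob⟩ :=
    h p hp2 W hΔ hW hirr hcard hker N S hpS hS hNS hmod
  obtain ⟨O', j1, j2, j3, j4, j5, j6, e, he, -, hpO', ζ, hζ⟩ :=
    dict_exists_ext_root p n hn 𝒪 hp𝒪
  obtain ⟨hsplit', hfrob'⟩ := dict_transfer p W hcard hker 𝒪 O' e ι χ hsplit hfrob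
  exact ⟨O', j1, j2, j3, j4, j5, j6, (ResidueField.map e).comp ι, e.comp χ, hpO', hsplit',
    hfrob', ⟨ζ, hζ⟩, fun d hd => dict_primitiveRoot_of_dvd hn hζ hd⟩

end Fermat.Agent.S59.H401

end
-- ===== PACK-END S59/H401/DictLarge.lean

-- ===== PACK-BEGIN S59/H401/DictGen.lean
section


/-!
# Cell DICT, GENERAL form (helper401): no semistability, no `p ≠ 2`, prescribed roots of unity

The proof of `dict_of_S29` never uses the hypotheses `W.IsSemistableModel`, `p ≠ 2` and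
`∀ q ∈ S, q.Prime` of `Arch.DictStatement`.  For row HARD (TOP glue: the witness `W` of
`FreyPackage.ModularRepOfLevel` is an ARBITRARY integral model of the Frey curve, not necessarily
semistable) we restate the cell without them:

* `DictGen0Statement` : conclusion of `Arch.DictStatement` for every integral model `W` with
  `W.Δ ≠ 0`, `E[p]` irreducible, residually modular of level `N`;
* `DictGenStatement`  : the same with `∃ ζ : 𝒪, IsPrimitiveRoot ζ n` for a prescribed `n > 0`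
  (and primitive `d`-th roots of unity for all `d ∣ n`);
* `dictGen0_of_S29 : DictS29Statement → DictGen0Statement` (same proof as `dict_of_S29`);
* `dictGen_of_gen0 : DictGen0Statement → DictGenStatement`.

Unconditional forms: `DictGenFinal.lean`.
-/

set_option autoImplicit false
set_option linter.style.haveILetI false

open Polynomial IsLocalRing CuspForm
open scoped WeierstrassCurve.Affine

namespace Fermat.Agent.S59.H401

/-- **Cell DICT without semistability.** -/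
def DictGen0Statement : Prop :=
  ∀ (p : ℕ) [Fact p.Prime]
    (W : WeierstrassCurve ℤ) (_hΔ : W.Δ ≠ 0)
    (_hirr : W.ModRepIsIrreducible p)
    (hcard : Nat.card (Submodule.torsionBy ℤ
      ((W.map (Int.castRingHom ℚ))⁄(AlgebraicClosure ℚ)).Point p) = p ^ 2)
    (hker : GaloisFactorsThroughFiniteLevel
      (WeierstrassCurve.Affine.Point.galoisRepModuleEnd (K := AlgebraicClosure ℚ) ℚ
        (W.map (Int.castRingHom ℚ)) p))
    (N : ℕ) [NeZero N] (S : Finset ℕ) (_hpS : p ∈ S)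
    (_hNS : ∀ q : ℕ, q.Prime → q ∣ N → q ∈ S)
    (_hmod : W.IsResiduallyModularOfLevel p N),
    ∃ (𝒪 : Type) (_ : CommRing 𝒪) (_ : IsDomain 𝒪) (_ : IsDiscreteValuationRing 𝒪)
      (_ : IsAdicComplete (maximalIdeal 𝒪) 𝒪) (_ : Finite (ResidueField 𝒪))
      (_ : CharZero 𝒪) (ι : ZMod p →+* ResidueField 𝒪)
      (χ : CuspForm.heckeAlgebra N 2 (↑S : Set ℕ) →+* 𝒪),
      (p : 𝒪) ∈ maximalIdeal 𝒪 ∧
      (∀ f : (ZMod p)[X], f.Monic → f.natDegree = 2 →
        ∃ α β : ResidueField 𝒪, f.map ι = (X - C α) * (X - C β)) ∧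
      Fermat.Agent.S59.G4.ResFrobCond
        (Fermat.Agent.S59.Arch.curveResidual p W hcard hker ι) ((residue 𝒪).comp χ)

/-- **Cell DICT without semistability, with prescribed roots of unity.** -/
def DictGenStatement : Prop :=
  ∀ (p : ℕ) [Fact p.Prime]
    (W : WeierstrassCurve ℤ) (_hΔ : W.Δ ≠ 0)
    (_hirr : W.ModRepIsIrreducible p)
    (hcard : Nat.card (Submodule.torsionBy ℤ
      ((W.map (Int.castRingHom ℚ))⁄(AlgebraicClosure ℚ)).Point p) = p ^ 2)
    (hker : GaloisFactorsThroughFiniteLevel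
      (WeierstrassCurve.Affine.Point.galoisRepModuleEnd (K := AlgebraicClosure ℚ) ℚ
        (W.map (Int.castRingHom ℚ)) p))
    (N : ℕ) [NeZero N] (S : Finset ℕ) (_hpS : p ∈ S)
    (_hNS : ∀ q : ℕ, q.Prime → q ∣ N → q ∈ S)
    (_hmod : W.IsResiduallyModularOfLevel p N)
    (n : ℕ) (_hn : 0 < n),
    ∃ (𝒪 : Type) (_ : CommRing 𝒪) (_ : IsDomain 𝒪) (_ : IsDiscreteValuationRing 𝒪)
      (_ : IsAdicComplete (maximalIdeal 𝒪) 𝒪) (_ : Finite (ResidueField 𝒪))
      (_ : CharZero 𝒪) (ι : ZMod p →+* ResidueField 𝒪)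
      (χ : CuspForm.heckeAlgebra N 2 (↑S : Set ℕ) →+* 𝒪),
      (p : 𝒪) ∈ maximalIdeal 𝒪 ∧
      (∀ f : (ZMod p)[X], f.Monic → f.natDegree = 2 →
        ∃ α β : ResidueField 𝒪, f.map ι = (X - C α) * (X - C β)) ∧
      Fermat.Agent.S59.G4.ResFrobCond
        (Fermat.Agent.S59.Arch.curveResidual p W hcard hker ι) ((residue 𝒪).comp χ) ∧
      (∃ ζ : 𝒪, IsPrimitiveRoot ζ n) ∧
      ∀ d : ℕ, d ∣ n → ∃ ξ : 𝒪, IsPrimitiveRoot ξ d

/-- **DICT without semistability, from frozen S29** (the proof of `dict_of_S29`). -/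
theorem dictGen0_of_S29 (h29 : DictS29Statement) : DictGen0Statement := by
  intro p _ W hΔ hirr hcard hker N _ S hpS hNS hmod
  classical
  have hpp : p.Prime := Fact.out
  obtain ⟨f, 𝔪, hf, h𝔪, hp𝔪, hcong⟩ := hmod
  have := h𝔪
  let _ : Field (integralClosure ℤ ℂ ⧸ 𝔪) := Ideal.Quotient.field 𝔪
  have hpk : ((p : ℕ) : integralClosure ℤ ℂ ⧸ 𝔪) = 0 := by
    have h1 := Ideal.Quotient.eq_zero_iff_mem.mpr hp𝔪
    rw [map_natCast] at h1
    exact h1
  have : CharP (integralClosure ℤ ℂ ⧸ 𝔪) p := (CharP.charP_iff_prime_eq_zero hpp).mpr hpk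
  -- 1. the eigencharacter
  let incl : heckeAlgebra N 2 (↑S : Set ℕ) →+* heckeAlgebra N 2 (∅ : Set ℕ) :=
    (Subalgebra.inclusion (heckeAlgebra_mono (Set.empty_subset _))).toRingHom
  let χ₀ : heckeAlgebra N 2 (↑S : Set ℕ) →+* integralClosure ℤ ℂ :=
    (Fermat.Agent.Lib.Ribet.H404.eigenCharInt hf).comp incl
  have hχ₀T : ∀ (ℓ : ℕ) (hℓ : ℓ.Prime) (hℓN : ¬ ℓ ∣ N) (hℓS : ℓ ∉ (↑S : Set ℕ)),
      ((χ₀ (heckeAlgebra.T hℓ hℓN hℓS) : integralClosure ℤ ℂ) : ℂ)
        = ModularFormClass.qCoeff f ℓ := by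
    intro ℓ hℓ hℓN hℓS
    have e : incl (heckeAlgebra.T hℓ hℓN hℓS) = heckeAlgebra.T hℓ hℓN (Set.notMem_empty _) :=
      Subtype.ext rfl
    show ((Fermat.Agent.Lib.Ribet.H404.eigenCharInt hf (incl (heckeAlgebra.T hℓ hℓN hℓS)) :
      integralClosure ℤ ℂ) : ℂ) = _
    rw [e, Fermat.Agent.Lib.Ribet.H404.coe_eigenCharInt,
      Fermat.Agent.Lib.Ribet.H404.eigenChar_T]
  -- 2. a point centred at `ker θ₀`
  have hm : (RingHom.ker ((Ideal.Quotient.mk 𝔪).comp χ₀)).IsPrime := RingHom.ker_isPrime _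
  have hpm : ((p : ℕ) : heckeAlgebra N 2 (↑S : Set ℕ)) ∈
      RingHom.ker ((Ideal.Quotient.mk 𝔪).comp χ₀) := by
    rw [RingHom.mem_ker, map_natCast]
    exact hpk
  have hfin : Module.Finite ℤ (heckeAlgebra N 2 (↑S : Set ℕ)) := Fermat.Agent.S22.result N 2 _
  have hred : IsReduced (heckeAlgebra N 2 (↑S : Set ℕ)) :=
    Fermat.Agent.S31.H862.heckeAlgebra_isReduced N _ (fun q hq hqN => by
      simpa using hNS q hq hqN)
  have hPTS := Fermat.Agent.S31.H262.pts_of_reduced p hpp (heckeAlgebra N 2 (↑S : Set ℕ))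
  obtain ⟨P, hP⟩ := dict_exists_point_of_pts hPTS _ hpm
  -- 3. the coefficient ring
  obtain ⟨O', i1, i2, i3, i4, i5, i6, e, ι, he, hpO', hsplit⟩ := dict_exists_ext p P.O P.hp
  refine ⟨O', i1, i2, i3, i4, i5, i6, ι, e.comp P.χ, hpO', hsplit, ?_⟩
  -- 4. the Frobenius condition
  intro ℓ hℓ hℓN hℓS B hB σ hσ
  have hℓp : ℓ ≠ p := by
    rintro rfl
    exact hℓS (by simpa using hpS)
  obtain ⟨a₀, ha₀, hchar⟩ := dict_charpoly_transport h29 p W hΔ hirr hcard hker hf 𝔪 hp𝔪 hcong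
    (ZMod.castHom (dvd_refl p) (integralClosure ℤ ℂ ⧸ 𝔪)) ℓ hℓ hℓN hℓp B hB σ hσ
  have hmonic : (LinearMap.charpoly
      (((W.map (Int.castRingHom ℚ)).residualGaloisRepOf p hcard hker).ρ σ)).Monic :=
    LinearMap.charpoly_monic _
  have hdeg : (LinearMap.charpoly
      (((W.map (Int.castRingHom ℚ)).residualGaloisRepOf p hcard hker).ρ σ)).natDegree = 2 := by
    rw [LinearMap.charpoly_natDegree]
    exact ((W.map (Int.castRingHom ℚ)).residualGaloisRepOf p hcard hker).finrank_eq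
  have hquad := dict_monic_quadratic hmonic hdeg
  show LinearMap.charpoly ((Fermat.Agent.S59.Arch.curveResidual p W hcard hker ι).ρ σ)
    = X ^ 2 - C (((residue O').comp (e.comp P.χ)) (heckeAlgebra.T hℓ hℓN hℓS)) * X
      + C ((ℓ : ℕ) : ResidueField O')
  rw [show Fermat.Agent.S59.Arch.curveResidual p W hcard hker ι
      = ((W.map (Int.castRingHom ℚ)).residualGaloisRepOf p hcard hker).baseChangeAlong ι from rfl,
    dict_charpoly_baseChangeAlong]
  generalize LinearMap.charpoly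
      (((W.map (Int.castRingHom ℚ)).residualGaloisRepOf p hcard hker).ρ σ) = P₀
    at hchar hquad ⊢
  -- the coefficients modulo `𝔪`
  have hmap : P₀.map (ZMod.castHom (dvd_refl p) (integralClosure ℤ ℂ ⧸ 𝔪))
      = X ^ 2 + C (((P₀.coeff 1).val : ℕ) : integralClosure ℤ ℂ ⧸ 𝔪) * X
        + C (((P₀.coeff 0).val : ℕ) : integralClosure ℤ ℂ ⧸ 𝔪) := by
    conv_lhs => rw [hquad]
    rw [Polynomial.map_add, Polynomial.map_add, Polynomial.map_mul, Polynomial.map_pow,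
      Polynomial.map_X, Polynomial.map_C, Polynomial.map_C, dict_map_zmod, dict_map_zmod]
  rw [hmap] at hchar
  have hrew : (X ^ 2 - C (Ideal.Quotient.mk 𝔪 a₀) * X + C ((ℓ : ℕ) : integralClosure ℤ ℂ ⧸ 𝔪) :
      (integralClosure ℤ ℂ ⧸ 𝔪)[X])
      = X ^ 2 + C (-(Ideal.Quotient.mk 𝔪 a₀)) * X + C ((ℓ : ℕ) : integralClosure ℤ ℂ ⧸ 𝔪) := by
    rw [map_neg]
    ring
  rw [hrew] at hchar
  have hc1 : (((P₀.coeff 1).val : ℕ) : integralClosure ℤ ℂ ⧸ 𝔪) = -(Ideal.Quotient.mk 𝔪 a₀) := by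
    have h1 := congrArg (fun q : (integralClosure ℤ ℂ ⧸ 𝔪)[X] => q.coeff 1) hchar
    rwa [dict_coeff_one, dict_coeff_one] at h1
  have hc0 : (((P₀.coeff 0).val : ℕ) : integralClosure ℤ ℂ ⧸ 𝔪)
      = ((ℓ : ℕ) : integralClosure ℤ ℂ ⧸ 𝔪) := by
    have h1 := congrArg (fun q : (integralClosure ℤ ℂ ⧸ 𝔪)[X] => q.coeff 0) hchar
    rwa [dict_coeff_zero, dict_coeff_zero] at h1
  have hc0' : P₀.coeff 0 = ((ℓ : ℕ) : ZMod p) := by
    apply (ZMod.castHom (dvd_refl p) (integralClosure ℤ ℂ ⧸ 𝔪)).injective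
    rw [dict_map_zmod, hc0, map_natCast]
  -- `T_ℓ + c₁` lies in `ker θ₀`
  have hmem : heckeAlgebra.T hℓ hℓN hℓS + (((P₀.coeff 1).val : ℕ) : heckeAlgebra N 2 (↑S : Set ℕ))
      ∈ RingHom.ker ((Ideal.Quotient.mk 𝔪).comp χ₀) := by
    have ha : χ₀ (heckeAlgebra.T hℓ hℓN hℓS) = a₀ :=
      Subtype.ext ((hχ₀T ℓ hℓ hℓN hℓS).trans ha₀.symm)
    rw [RingHom.mem_ker, map_add, map_natCast, RingHom.comp_apply, ha, hc1, add_neg_cancel]
  -- reduce at the point
  have hres : residue O' (e (P.χ (heckeAlgebra.T hℓ hℓN hℓS))) = -ι (P₀.coeff 1) := by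
    have h1 := he _ (hP _ hmem)
    rw [map_add, map_add, map_natCast, map_natCast] at h1
    have h2 := (residue_eq_zero_iff _).mpr h1
    rw [map_add, map_natCast] at h2
    rw [dict_map_zmod ι]
    exact eq_neg_of_add_eq_zero_left h2
  rw [RingHom.comp_apply, RingHom.comp_apply, hres]
  conv_lhs => rw [hquad]
  rw [Polynomial.map_add, Polynomial.map_add, Polynomial.map_mul, Polynomial.map_pow,
    Polynomial.map_X, Polynomial.map_C, Polynomial.map_C, hc0', map_natCast, map_neg]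
  ring

/-- **Roots of unity**: enlarge the coefficient ring. -/
theorem dictGen_of_gen0 (h : DictGen0Statement) : DictGenStatement := by
  intro p _ W hΔ hirr hcard hker N _ S hpS hNS hmod n hn
  obtain ⟨𝒪, i1, i2, i3, i4, i5, i6, ι, χ, hp𝒪, hsplit, hfrob⟩ :=
    h p W hΔ hirr hcard hker N S hpS hNS hmod
  obtain ⟨O', j1, j2, j3, j4, j5, j6, e, he, -, hpO', ζ, hζ⟩ :=
    dict_exists_ext_root p n hn 𝒪 hp𝒪
  obtain ⟨hsplit', hfrob'⟩ := dict_transfer p W hcard hker 𝒪 O' e ι χ hsplit hfrob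
  exact ⟨O', j1, j2, j3, j4, j5, j6, (ResidueField.map e).comp ι, e.comp χ, hpO', hsplit',
    hfrob', ⟨ζ, hζ⟩, fun d hd => dict_primitiveRoot_of_dvd hn hζ hd⟩

/-- The frozen cell `Arch.DictStatement` is a special case. -/
theorem dict_of_gen0 (h : DictGen0Statement) : Fermat.Agent.S59.Arch.DictStatement :=
  fun p _ _ W hΔ _ hirr hcard hker N _ S hpS _ hNS hmod =>
    h p W hΔ hirr hcard hker N S hpS hNS hmod

end Fermat.Agent.S59.H401

end
-- ===== PACK-END S59/H401/DictGen.lean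

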