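import Mathlib
import Fermat.Agent.Pack.S43MC.G0E26L1
import Fermat.Agent.Pack.S43C.E1L2
import Fermat.Agent.Pack.S43C.E0L0
import Fermat.Agent.Pack.S43C.E0L3
import Fermat.Agent.Pack.S43MC.G0E26L3
import Fermat.Agent.Pack.S43MC.G0E20L0
import Fermat.Agent.Pack.S43MC.G0E22L2
import Fermat.Agent.Pack.S43C.E1L3
import Fermat.Agent.Pack.S43C.E1L1
import Fermat.Agent.Pack.S43MC.G0E3L2
import Fermat.Agent.Pack.S43MC.G0E25L2
import Fermat.Agent.Pack.S43MC.G0E20L3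
import Fermat.Agent.Pack.S44C.G0E3L2
import Fermat.Agent.Pack.S43MC.G0E16L0
import Fermat.Agent.Pack.S44C.G0E21L3
import Fermat.Agent.Pack.S43MC.G0E23L3
import Fermat.Agent.Pack.S43C.E1L0
import Fermat.Agent.Pack.S43C.E0L2
import Fermat.Agent.Pack.S43GC.G0E9L0
import Fermat.Agent.Pack.S43MC.G0E26L0
import Fermat.Agent.Pack.S43C.E2L0
import Fermat.Agent.Pack.Fast891

-- ===== PACK-BEGIN Ribet/H723/HardMinScalar.lean
section


/-!
# Row 37 (S43): the SHARPEST target for the hard case (helper723)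

Combines the minimal-level reduction of helper768 (`S43` asks only for SOME divisor `M ∣ N` with
`q ∤ M`) with the scalar / non-scalar split of `H723/Row37Split.lean`:

`HardMinScalarStatement` : a conductor level `L` which is modular, prime to `p`, MINIMAL among
modular levels, and ALL of whose odd prime factors `r` are SCALAR primes (`r ≡ 1 mod p` and
every Frobenius at `r` is a scalar on `E[p]`) has no odd prime factor.

`S43_of_hardMinScalar : S44 → S05 → MazurPrincipleOddPlus →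
    HardMinScalar → S43`.

So the Ihara-avoidance patching may assume: level prime to `p` (flat at `p`), every witness new at
every prime of `L` (minimality), and `ρ̄|_{D_r}` scalar at EVERY odd `r ∣ L` (Taylor's set-up).
Definitions and logic only.
-/

set_option autoImplicit false
set_option linter.style.haveILetI false

open WeierstrassCurve WeierstrassCurve.Affine WeierstrassCurve.Affine.Point
open CuspForm ModularFormClass UpperHalfPlane ModularCurve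

namespace Fermat.Agent.Ribet.H723

open Fermat.Agent.Ribet Fermat.Agent.Ribet.Spec

/-- (HARD-min-scalar)  A modular conductor level `L`, prime to `p`, minimal among modular
levels, all of whose odd prime factors are scalar primes, has no odd prime factor. -/
def HardMinScalarStatement : Prop :=
  ∀ (P : FreyPackage) {L : ℕ}, P.IsConductorLevel L → ¬ P.p ∣ L →
    GaloisRepIsIrreducible (K := AlgebraicClosure ℚ) ℚ P.freyCurve P.p →
    P.ModularRepOfLevel L →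
    (∀ r : ℕ, r.Prime → r ∣ L → ¬ P.ModularRepOfLevel (L / r)) →
    (∀ r : ℕ, r.Prime → r ≠ 2 → r ∣ L → P.p ∣ r - 1 ∧ FrobScalarAt P r) →
    ∀ q : ℕ, q.Prime → q ≠ 2 → ¬ q ∣ L

/-- A minimal modular divisor of a modular level. -/
theorem exists_minimal_modular_dvd_h723 (P : FreyPackage) {N : ℕ}
    (hmod : P.ModularRepOfLevel N) :
    ∃ M : ℕ, M ∣ N ∧ P.ModularRepOfLevel M ∧
      ∀ M' : ℕ, M' ∣ N → P.ModularRepOfLevel M' → M ≤ M' := by
  classical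
  have hex : ∃ M : ℕ, M ∣ N ∧ P.ModularRepOfLevel M := ⟨N, dvd_rfl, hmod⟩
  refine ⟨Nat.find hex, (Nat.find_spec hex).1, (Nat.find_spec hex).2, ?_⟩
  intro M' hM' hmod'
  exact Nat.find_min' hex ⟨hM', hmod'⟩

/-- **S43 from S44, S05, the sharp Mazur principle and the hard case at a minimal level with
scalar primes only.** -/
theorem S43_of_hardMinScalar (h44 : S44Statement) (h05 : S05Statement)
    (hMP : MazurPrincipleOddPlusStatement) (hH : HardMinScalarStatement) : S43Statement := by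
  intro P N q hcond hq hq2 _ _ hirr hmod _
  obtain ⟨M, hMN, hmodM, hmin⟩ := exists_minimal_modular_dvd_h723 P hmod
  have hMpos : 0 < M := Nat.pos_of_dvd_of_pos hMN hcond.pos
  have hcondM : P.IsConductorLevel M := hcond.of_dvd hMN hMpos
  -- `p ∤ M` by S44 and minimality
  have hpM : ¬ P.p ∣ M := by
    intro hp
    obtain ⟨M', hM'M, hpM', hmodM'⟩ := h44 P hcondM hp hirr hmodM
    have hle : M ≤ M' := hmin M' (hM'M.trans hMN) hmodM'
    have hM'le : M' ≤ M := Nat.le_of_dvd hMpos hM'M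
    have : M' = M := le_antisymm hM'le hle
    exact hpM' (this ▸ hp)
  -- minimality in the form needed
  have hminr : ∀ r : ℕ, r.Prime → r ∣ M → ¬ P.ModularRepOfLevel (M / r) := by
    intro r hr hrM hmodr
    have hdvd : M / r ∣ N := (Nat.div_dvd_of_dvd hrM).trans hMN
    have hle : M ≤ M / r := hmin (M / r) hdvd hmodr
    have hlt : M / r < M := Nat.div_lt_self hMpos hr.one_lt
    omega
  -- every odd prime of `M` is a scalar prime (sharp Mazur principle + minimality)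
  have hscal : ∀ r : ℕ, r.Prime → r ≠ 2 → r ∣ M → P.p ∣ r - 1 ∧ FrobScalarAt P r := by
    intro r hr hr2 hrM
    have hrp : r ≠ P.p := fun h => hpM (h ▸ hrM)
    by_contra hcon
    have hex : ¬ P.p ∣ r - 1 ∨ ¬ FrobScalarAt P r := by
      by_cases h1 : P.p ∣ r - 1
      · exact Or.inr fun h2 => hcon ⟨h1, h2⟩
      · exact Or.inl h1
    exact hminr r hr hrM
      (hMP P hMpos hr hr2 hrp hrM (hcondM.sq_not_dvd hr) hirr hmodM (h05 P hr hr2 hrp) hex)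
  exact ⟨M, hMN, hH P hcondM hpM hirr hmodM hminr hscal q hq hq2, hmodM⟩

/-- **S43 from S44, S05, the three targets of the wall at `q`, the row inputs and the hard case
at a minimal level with scalar primes only.** -/
theorem S43_of_targetsQ_hardMinScalar (h44 : S44Statement) (h05 : S05Statement)
    (hE : EmbedStatement) (hPl : PlacesStatement)
    (hDet : DetFrobStatement) (hDim : TorsionRankStatement) (hNE : NonEisensteinStatement)
    (hR3 : EigenformOfOccursAwayStatement) (hR3' : AlmostAllToWitnessStatement)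
    (hT : H158.WallQ.WallQTargetsStatement) (hH : HardMinScalarStatement) : S43Statement :=
  S43_of_hardMinScalar h44 h05
    (mazurPrincipleOddPlus_of_wallQ hE (wallQFreyPlus_of_targets hPl hDet hDim hT) hNE hR3 hR3')
    hH

/-- The scalar hard case of `Row37Split` implies the minimal one (for orientation: the minimal
statement is the weakest of the three hard-case targets). -/
theorem hardMinScalar_of_hardScalar (h05 : S05Statement) (hH : HardScalarStatement) :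
    HardMinScalarStatement := by
  intro P L hcond hpL hirr hmod hmin hscal q hq hq2 hqL
  have hqp : q ≠ P.p := fun h => hpL (h ▸ hqL)
  obtain ⟨h1, h2⟩ := hscal q hq hq2 hqL
  exact hmin q hq hqL
    (hH P hcond.pos hq hqp hqL (hcond.sq_not_dvd hq) hirr hmod (h05 P hq hq2 hqp) h1 h2)

end Fermat.Agent.Ribet.H723

end
-- ===== PACK-END Ribet/H723/HardMinScalar.lean

-- ===== PACK-BEGIN S38/IA/Hecke/GlueB3.lean
section



/-!
# Row HARD, cell HECKE, layer 3, glue B: `iaBetti_of_leaves`  (helper3)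

`iaBetti_of_leaves : IdemStatement → IANontrivStatement → IAModStatement → IAFreeStatement →
  IACtrlStatement → IARankStatement → IACmpStatement → IANuStatement → IAStStatement →
  IABettiStatement`.
-/

set_option autoImplicit false

open Polynomial IsLocalRing CongruenceSubgroup
open scoped MatrixGroups

namespace Fermat.Agent.S38.IA.Hecke

open Fermat.Agent.S59.Arch Fermat.Agent.S59.TW.H959 Fermat.Agent.S59.TW Fermat.Agent.S59.H765
open Fermat.Agent.S59.TW.H653 Fermat.Agent.S59.TW.Aut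
open CuspForm

/-! ## Exponents -/

section Exp

/-- In a finite group generated by `g`, every element is a power of `g` with a natural
exponent. -/
theorem exists_pow_eq_of_zpowers {G : Type} [Group G] [Finite G] {g : G}
    (hg : ∀ x : G, x ∈ Subgroup.zpowers g) (x : G) : ∃ s : ℕ, x = g ^ s := by
  have h1 : x ∈ Submonoid.powers g := mem_powers_iff_mem_zpowers.mpr (hg x)
  obtain ⟨s, hs⟩ := h1
  exact ⟨s, hs.symm⟩

/-- `a · g^e = g^{e'} · c^m` with `e' < m`. -/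
theorem exists_translate {G : Type} [CommGroup G] [Finite G] {g : G}
    (hg : ∀ x : G, x ∈ Subgroup.zpowers g) {m : ℕ} (hm : 0 < m) (a : G) (e : Fin m) :
    ∃ (e' : Fin m) (c : G), a * g ^ (e : ℕ) = g ^ (e' : ℕ) * c ^ m := by
  obtain ⟨s, rfl⟩ := exists_pow_eq_of_zpowers hg a
  refine ⟨⟨(s + e) % m, Nat.mod_lt _ hm⟩, g ^ ((s + e) / m), ?_⟩
  rw [← pow_add, ← pow_mul, ← pow_add]
  congr 1
  rw [mul_comm]
  exact (Nat.mod_add_div (s + e) m).symm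

end Exp

/-! ## The rank -/

section Rank

variable {p : ℕ} [hpF : Fact p.Prime]
  {𝒪 : Type} [CommRing 𝒪] [IsDomain 𝒪] [IsDiscreteValuationRing 𝒪]
  [IsAdicComplete (maximalIdeal 𝒪) 𝒪]
  {ρbar : ResidualGaloisRep (ResidueField 𝒪)} {Smin Piv : Finset ℕ}
  {k r : ℕ} {pv : Fin k → ℕ} {qv : Fin r → ℕ}
  [NeZero (wilesLevel p .flat Smin (Smin ∪ Piv ∪ Finset.univ.image qv))]
  {PQ : HeckePkg p 𝒪 ρbar .flat Smin (Smin ∪ Piv ∪ Finset.univ.image qv)}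
  {α : Fin r → 𝒪} {V : Submodule 𝒪 (XIA p Smin pv qv 𝒪)}
  [NeZero (MIA p Smin pv qv)]
  (hV : IsIAPart PQ α V)
  (hsurj : Function.Surjective (gRed (wilesLevel p .flat Smin Smin) (Sum.elim pv qv)))

/-- The diamond action on `V`, `𝒪`-linearly. -/
noncomputable def diaLin :
    (∀ i : Fin k, (ZMod (pv i))ˣ) × (∀ j : Fin r, (ZMod (qv j))ˣ) →* Module.End 𝒪 V where
  toFun d :=
    { toFun := fun v => ⟨diaIA p Smin pv qv 𝒪 d.1 d.2 v, diaIA_mem hV d.1 d.2 v.2⟩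
      map_add' := fun x y => Subtype.ext (diaIA_add p Smin pv qv 𝒪 d.1 d.2 _ _)
      map_smul' := fun c x => Subtype.ext (diaIA_smul p Smin pv qv 𝒪 d.1 d.2 c _) }
  map_one' := by
    refine LinearMap.ext fun v => Subtype.ext ?_
    exact diaIA_one p Smin pv qv 𝒪 hsurj _
  map_mul' d d' := by
    refine LinearMap.ext fun v => Subtype.ext ?_
    exact diaIA_mul p Smin pv qv 𝒪 hsurj _ _ _ _ _

theorem coe_diaLin (d : (∀ i : Fin k, (ZMod (pv i))ˣ) × (∀ j : Fin r, (ZMod (qv j))ˣ)) (v : V) :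
    ((diaLin hV hsurj d v : V) : XIA p Smin pv qv 𝒪) = diaIA p Smin pv qv 𝒪 d.1 d.2 v := rfl

include hV hsurj in
/-- **The rank of `V` over `𝒪[Δ_Piv × Δ_Q]` is the rank of `V₀`.** -/
theorem rank_eq_of_ctrl (hRank : IARankStatement) (hpvP : ∀ i, (pv i).Prime)
    (hqvP : ∀ j, (qv j).Prime) {d' : ℕ} (hfree : IAFreeAt V d')
    {V₀ : Submodule 𝒪 (Additive (Gamma0 (ribetLevel p Smin Piv)) →+ 𝒪)}
    (hctrl : IACtrlAt V₀ V) {d : ℕ} (B₀ : Module.Basis (Fin d) 𝒪 V₀) : d' = d := by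
  haveI : ∀ i, NeZero (pv i) := fun i => ⟨(hpvP i).ne_zero⟩
  haveI : ∀ j, NeZero (qv j) := fun j => ⟨(hqvP j).ne_zero⟩
  choose g₁ hg₁ hgen₁ using fun i => exists_primitive_root_units (hpvP i)
  choose g₂ hg₂ hgen₂ using fun j => exists_primitive_root_units (hqvP j)
  have hm₁ : ∀ i, 0 < p ^ padicValNat p (pv i - 1) := fun i => pow_pos hpF.out.pos _
  have hm₂ : ∀ j, 0 < p ^ padicValNat p (qv j - 1) := fun j => pow_pos hpF.out.pos _
  obtain ⟨b, hb⟩ := hfree g₁ g₂ hg₁ hg₂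
  obtain ⟨π, hπs, hπk⟩ := hctrl
  refine hRank 𝒪 V V₀ ((∀ i : Fin k, (ZMod (pv i))ˣ) × (∀ j : Fin r, (ZMod (qv j))ˣ))
    (diaLin hV hsurj)
    ((∀ i : Fin k, Fin (p ^ padicValNat p (pv i - 1))) ×
      (∀ j : Fin r, Fin (p ^ padicValNat p (qv j - 1))))
    (fun e => (fun i => g₁ i ^ (e.1 i : ℕ), fun j => g₂ j ^ (e.2 j : ℕ)))
    ?_ ?_ d' b ?_ π hπs ?_ d ⟨B₀⟩
  · -- the exponents are permuted
    intro a e
    choose e₁ c₁ h₁ using fun i => exists_translate (hgen₁ i) (hm₁ i) (a.1 i) (e.1 i)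
    choose e₂ c₂ h₂ using fun j => exists_translate (hgen₂ j) (hm₂ j) (a.2 j) (e.2 j)
    refine ⟨(e₁, e₂), ?_⟩
    have h3 : a * ((fun i => g₁ i ^ (e.1 i : ℕ)), (fun j => g₂ j ^ (e.2 j : ℕ))) =
        ((fun i => g₁ i ^ (e₁ i : ℕ)), (fun j => g₂ j ^ (e₂ j : ℕ))) *
          ((fun i => c₁ i ^ p ^ padicValNat p (pv i - 1)),
            (fun j => c₂ j ^ p ^ padicValNat p (qv j - 1))) :=
      Prod.ext (funext h₁) (funext h₂)
    have h4 : diaLin hV hsurj ((fun i => c₁ i ^ p ^ padicValNat p (pv i - 1)),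
        (fun j => c₂ j ^ p ^ padicValNat p (qv j - 1))) = 1 := by
      refine LinearMap.ext fun v => Subtype.ext ?_
      exact diaIA_pow p Smin pv qv 𝒪 hsurj c₁ c₂ _
    rw [h3, map_mul, h4, mul_one]
  · -- the identity
    refine ⟨(fun i => ⟨0, hm₁ i⟩, fun j => ⟨0, hm₂ j⟩), ?_⟩
    have h3 : (((fun i => g₁ i ^ ((⟨0, hm₁ i⟩ : Fin (p ^ padicValNat p (pv i - 1))) : ℕ)),
        (fun j => g₂ j ^ ((⟨0, hm₂ j⟩ : Fin (p ^ padicValNat p (qv j - 1))) : ℕ))) :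
        (∀ i : Fin k, (ZMod (pv i))ˣ) × (∀ j : Fin r, (ZMod (qv j))ˣ)) = 1 :=
      Prod.ext (funext fun i => pow_zero _) (funext fun j => pow_zero _)
    rw [h3, map_one]
  · -- the basis
    intro y
    obtain ⟨c, hc, hcu⟩ := hb y
    have key : ∀ c' : Fin d' → (∀ i : Fin k, Fin (p ^ padicValNat p (pv i - 1))) ×
        (∀ j : Fin r, Fin (p ^ padicValNat p (qv j - 1))) → 𝒪,
        (y = ∑ i, ∑ e, c' i e • diaLin hV hsurj
          ((fun i' => g₁ i' ^ (e.1 i' : ℕ)), (fun j => g₂ j ^ (e.2 j : ℕ))) (b i)) ↔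
        ((y : XIA p Smin pv qv 𝒪) = ∑ i, ∑ e, c' i e • diaIA p Smin pv qv 𝒪
          (fun i' => g₁ i' ^ (e.1 i' : ℕ)) (fun j => g₂ j ^ (e.2 j : ℕ)) (b i)) := by
      intro c'
      rw [Subtype.ext_iff, Submodule.coe_sum]
      have : ∀ i : Fin d', ((∑ e, c' i e • diaLin hV hsurj
          ((fun i' => g₁ i' ^ (e.1 i' : ℕ)), (fun j => g₂ j ^ (e.2 j : ℕ))) (b i) : V) :
          XIA p Smin pv qv 𝒪) = ∑ e, c' i e • diaIA p Smin pv qv 𝒪
          (fun i' => g₁ i' ^ (e.1 i' : ℕ)) (fun j => g₂ j ^ (e.2 j : ℕ)) (b i) := by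
        intro i
        rw [Submodule.coe_sum]
        rfl
      simp only [this]
    exact ⟨c, (key c).mpr hc, fun c' hc' => hcu c' ((key c').mp hc')⟩
  · -- the kernel
    intro y
    rw [hπk y]
    have hset : {z : V | ∃ (a₁ : ∀ i : Fin k, (ZMod (pv i))ˣ)
        (a₂ : ∀ j : Fin r, (ZMod (qv j))ˣ) (y' : V),
        (z : XIA p Smin pv qv 𝒪) = diaIA p Smin pv qv 𝒪 a₁ a₂ y' - y'} =
        {z : V | ∃ (a : (∀ i : Fin k, (ZMod (pv i))ˣ) × (∀ j : Fin r, (ZMod (qv j))ˣ))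
          (y' : V), z = diaLin hV hsurj a y' - y'} := by
      ext z
      constructor
      · rintro ⟨a₁, a₂, y', h⟩
        exact ⟨(a₁, a₂), y', Subtype.ext h⟩
      · rintro ⟨a, y', h⟩
        exact ⟨a.1, a.2, y', congrArg Subtype.val h⟩
    rw [hset]

end Rank

/-! ## The assembly -/

/-- **Glue B of layer 3 of the cell HECKE**: the abstract Betti module from the concrete
leaves. -/
theorem iaBetti_of_leaves (hIdem : IdemStatement) (hNon : IANontrivStatement)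
    (hMod : IAModStatement) (hFree : IAFreeStatement) (hCtrl : IACtrlStatement)
    (hRank : IARankStatement) (hCmp : IACmpStatement) (hNu : IANuStatement)
    (hSt : IAStStatement) : IABettiStatement := by
  intro p hpF hp5 𝒪 _ _ _ _ _ _ ρbar Smin h hflat Piv hPiv hL θ₀ hθ₀ hmin k pv hpv hpvPiv
  -- the module at the level `L`
  obtain ⟨V₀, hV₀⟩ := hIdem 𝒪 (ribetLevel p Smin Piv) (NeZero.ne _)
    (Gamma0 (ribetLevel p Smin Piv)) (isMid_Gamma0 _) (TsetOfθ θ₀) ∅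
    (fun x hx => by
      obtain ⟨hℓ, hℓN, -, -⟩ := hx
      exact ⟨hℓ, hℓN⟩)
    (fun x hx => absurd hx (Set.notMem_empty x))
  obtain ⟨d, hd, ⟨B₀⟩⟩ := hNon p hp5 𝒪 ρbar Smin h hflat Piv hPiv θ₀ hθ₀ V₀ hV₀
  refine ⟨d, hd, ?_⟩
  intro n r qv hq hNQ hp PQ hθ
  obtain ⟨hqinj, hqv, hfrob⟩ := id hq
  -- the primes
  have hpvMem : ∀ i, pv i ∈ Piv := fun i => by
    rw [← hpvPiv]
    exact Finset.mem_image_of_mem pv (Finset.mem_univ i)
  have hpvP : ∀ i, (pv i).Prime := fun i => (hPiv (pv i) (hpvMem i)).1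
  have hqvP : ∀ j, (qv j).Prime := fun j => (hqv j).1
  have hPivP : ∀ q ∈ Piv, q.Prime := fun q hq' => (hPiv q hq').1
  have hQP : ∀ q ∈ Finset.univ.image qv, q.Prime := by
    intro q hq'
    obtain ⟨j, -, rfl⟩ := Finset.mem_image.mp hq'
    exact hqvP j
  have hSigP : ∀ q ∈ Smin ∪ Piv ∪ Finset.univ.image qv, q.Prime := by
    intro q hq'
    rcases Finset.mem_union.mp hq' with h' | h'
    · rcases Finset.mem_union.mp h' with h'' | h''
      · exact h.hSmin q h''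
      · exact hPivP q h''
    · exact hQP q h'
  have hsub : Smin ⊆ Smin ∪ Piv ∪ Finset.univ.image qv :=
    Finset.subset_union_left.trans Finset.subset_union_left
  have hpvSig : ∀ i, pv i ∈ Smin ∪ Piv ∪ Finset.univ.image qv := fun i =>
    Finset.mem_union_left _ (Finset.mem_union_right _ (hpvMem i))
  have hqvSig : ∀ j, qv j ∈ Smin ∪ Piv ∪ Finset.univ.image qv := fun j =>
    Finset.mem_union_right _ (Finset.mem_image_of_mem qv (Finset.mem_univ j))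
  -- the combined family
  have hprime : ∀ s, (Sum.elim pv qv s).Prime := by
    intro s
    cases s with
    | inl i => exact hpvP i
    | inr j => exact hqvP j
  have hinj : Function.Injective (Sum.elim pv qv) := by
    intro s s' hss
    cases s with
    | inl i =>
      cases s' with
      | inl i' => exact congrArg Sum.inl (hpv hss)
      | inr j' =>
        exfalso
        have h1 : pv i = qv j' := hss
        exact (hqv j').2.1 (Finset.mem_union_right _ (h1 ▸ hpvMem i))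
    | inr j =>
      cases s' with
      | inl i' =>
        exfalso
        have h1 : qv j = pv i' := hss
        exact (hqv j).2.1 (Finset.mem_union_right _ (h1.symm ▸ hpvMem i'))
      | inr j' => exact congrArg Sum.inr (hqinj hss)
  have hN₀ : wilesLevel p .flat Smin Smin ≠ 0 := wilesLevel_ne_zero hpF.out h.hSmin h.hSmin
  have hsurj : Function.Surjective (gRed (wilesLevel p .flat Smin Smin) (Sum.elim pv qv)) :=
    gRed_surjective _ _ hN₀ hinj hprime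
  haveI hMne : NeZero (MIA p Smin pv qv) := ⟨gLevel_ne_zero _ _ hN₀ hprime⟩
  have hsig : ∀ q : ℕ, q.Prime →
      q ∣ wilesLevel p .flat Smin (Smin ∪ Piv ∪ Finset.univ.image qv) →
      q ∈ (↑(Smin ∪ Piv ∪ Finset.univ.image qv) : Set ℕ) := fun q hq' hd' =>
    Finset.mem_coe.mpr (mem_of_prime_dvd_wilesLevel hpF.out h.hSmin hSigP h.hpSmin hsub q hq' hd')
  have hM : ∀ ℓ : ℕ, ℓ.Prime →
      ¬ ℓ ∣ wilesLevel p .flat Smin (Smin ∪ Piv ∪ Finset.univ.image qv) →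
      ℓ ∉ (↑(Smin ∪ Piv ∪ Finset.univ.image qv) : Set ℕ) → ¬ ℓ ∣ MIA p Smin pv qv := by
    intro ℓ hℓ _ hℓS hdvd
    apply hℓS
    rcases (Nat.Prime.dvd_mul hℓ).mp hdvd with h1 | h1
    · exact Finset.mem_coe.mpr (hsub (mem_of_prime_dvd_wilesLevel hpF.out h.hSmin h.hSmin
        h.hpSmin (Finset.Subset.refl _) ℓ hℓ h1))
    · obtain ⟨s, -, hs⟩ := (Prime.dvd_finsetProd_iff hℓ.prime _).mp h1
      have h2 : ℓ = Sum.elim pv qv s := (Nat.prime_dvd_prime_iff_eq hℓ (hprime s)).mp hs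
      rw [h2]
      cases s with
      | inl i => exact Finset.mem_coe.mpr (hpvSig i)
      | inr j => exact Finset.mem_coe.mpr (hqvSig j)
  -- the Frobenius lifts
  choose Pv φv hPv hφv using fun j => Fermat.Agent.S54.exists_frobenius (qv j) (hqvP j)
  choose α₀ β hαβ hchar using fun j => hfrob j (Pv j) (hPv j) (φv j) (hφv j)
  choose α hα using fun j => residue_surjective (α₀ j)
  have hαL : IsFrobLift ρbar qv α := by
    intro j
    refine ⟨Pv j, φv j, β j, hPv j, hφv j, ?_, ?_⟩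
    · rw [hα j]
      exact hαβ j
    · rw [hα j]
      exact hchar j
  -- the module at the level `Q`
  obtain ⟨V, hV⟩ := hIdem 𝒪 (MIA p Smin pv qv) hMne.out (KIA p Smin pv qv)
    (isMid_KIA p Smin pv qv) (TsetOf PQ) (UsetOf qv α)
    (fun x hx => by
      obtain ⟨hℓ, hℓN, hℓS, -⟩ := hx
      exact ⟨hℓ, hM _ hℓ hℓN hℓS⟩)
    (fun x hx => by
      obtain ⟨j, rfl⟩ := hx
      exact ⟨hqvP j, dvd_gLevel _ (Sum.elim pv qv) (Sum.inr j)⟩)
  have hVp : IsIAPart PQ α V := hV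
  obtain ⟨hh, a, hhalf₁, hhalf₂, ha⟩ := hMod p hp5 𝒪 ρbar Smin h hflat Piv hPiv k pv hpv hpvPiv
    n r qv hq PQ α hαL V hVp
  obtain ⟨d', hfree⟩ := hFree p hp5 𝒪 ρbar Smin h hflat Piv hPiv k pv hpv hpvPiv
    n r qv hq PQ α hαL V hVp
  have hctrl := hCtrl p hp5 𝒪 ρbar Smin h hflat Piv hPiv θ₀ hθ₀ k pv hpv hpvPiv
    n r qv hq hp PQ hθ α hαL V₀ V hV₀ hVp
  have hdd : d' = d := rank_eq_of_ctrl hVp hsurj hRank hpvP hqvP hfree hctrl B₀
  subst hdd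
  have hnu := hNu p hp5 𝒪 ρbar Smin h hflat Piv hPiv k pv hpv hpvPiv
    n r qv hq PQ α hαL V hh a hVp hhalf₁ hhalf₂ ha
  have hst := hSt p hp5 𝒪 ρbar Smin h hflat Piv hPiv hmin k pv hpv hpvPiv
    n r qv hq PQ α hαL V hh a hVp hhalf₁ hhalf₂ ha
  have hcmp := hCmp p hp5 𝒪 ρbar Smin h hflat Piv hPiv k pv hpv hpvPiv
    n r qv hq PQ α hαL V hh a hVp hhalf₁ hhalf₂ ha
  exact ⟨bettiOf hVp ha hsig hM hsurj d' hfree hnu hst,
    bettiOf_cmp hVp ha hsig hM hsurj d' hfree hnu hst hcmp⟩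

end Fermat.Agent.S38.IA.Hecke

end
-- ===== PACK-END S38/IA/Hecke/GlueB3.lean

-- ===== PACK-BEGIN S38/H354/ChiAut.lean
section





/-!
# Row HARD, cell HECKE, layer 3: the `χ`-part of a Betti level is an `IAAutLevel` (helper354)

Layer 2 of the cell (`S38/IA/Hecke/Spec.lean`, sub-architect helper3) asks for
`IAAutLevel Piv qv PQ lam d` (module `M_Q`, diamond action of the Taylor–Wiles group, freeness of
rank `d`, (SUPP-NU), (ST)) with the comparison `Cmp`.  Classically `M_Q` is the `χ`-part at the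
pivots of the Betti module `V` at level `Γ₀(N_min) ∩ Γ_H(Piv ∪ Q)`.

This file CONSTRUCTS the `IAAutLevel` from the data at the level of `V`:

* `iaAutLevelOfChi` : `V` a `T_Q`-module with a `T_Q`-linear action `dia` of
  `D₁ × ∏_j (ℤ/q_j)ˣ` (`D₁` = any monoid acting through the pivots), free of rank `d` with an
  exponent basis `dia (γ₁ e₁, g ^ e) (b i)`; `χ : D₁ → 𝒪` with `χ ≡ 1 mod lam`;
  (SUPP-NU) for the `χ`-part; (ST⁰): the Steinberg elements map `V` into the augmentation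
  submodule `I_{D₁} V` (i.e. they kill the trivial-character part `M¹ = V / I_{D₁} V`).
  Then `M_Q := V ⧸ chiRel (rhoL dia) (chiT T χ)` is an `IAAutLevel`.
* `iaAutLevelOfChi_cmp` : the comparison `Cmp` descends from `V` to the `χ`-part.
* `iaAutLevelOfChiCyc`, `exists_iaAutLevel_cyc` : the same with
  `D₁ = ∏_{i < k} (ℤ/pv i)ˣ` and the exponent basis at the pivots; the character `χ` is built
  from the primitive `p`-th root of unity `ζ` (`lam = ζ - 1`).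
-/

set_option autoImplicit false
set_option linter.unusedSectionVars false
set_option linter.style.haveILetI false

open Polynomial IsLocalRing

namespace Fermat.Agent.S38.H354

open Fermat.Agent.S59.Arch Fermat.Agent.S59.TW.H959 Fermat.Agent.S59.TW
open Fermat.Agent.S38.IA Fermat.Agent.S38.IA.Hecke

section General

variable {p : ℕ}
  {𝒪 : Type} [CommRing 𝒪] [IsDomain 𝒪] [IsDiscreteValuationRing 𝒪]
  [IsAdicComplete (maximalIdeal 𝒪) 𝒪]
  {ρbar : ResidualGaloisRep (ResidueField 𝒪)} {Smin : Finset ℕ}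
  {Piv : Finset ℕ} {r : ℕ} {qv : Fin r → ℕ}
  [NeZero (wilesLevel p .flat Smin (Smin ∪ Piv ∪ Finset.univ.image qv))]
  (PQ : HeckePkg p 𝒪 ρbar .flat Smin (Smin ∪ Piv ∪ Finset.univ.image qv))
  (V : Type) [AddCommGroup V] [Module PQ.T V]
  {D₁ : Type} [Monoid D₁] {E₁ : Type} [Fintype E₁] (γ₁ : E₁ → D₁)
  (dia : D₁ × (∀ j : Fin r, (ZMod (qv j))ˣ) →* Module.End PQ.T V)
  (χ : D₁ →* 𝒪) (lam : 𝒪) (d : ℕ)

/-- **The `χ`-part of a Betti level is an automorphic Ihara-avoidance level.** -/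
noncomputable def iaAutLevelOfChi
    (dia_pow : ∀ a : ∀ j : Fin r, (ZMod (qv j))ˣ,
      dia (1, fun j => a j ^ p ^ padicValNat p (qv j - 1)) = 1)
    (hσ : ∀ (a : D₁) (e₁ : E₁), ∃ e₁' : E₁,
      dia (a * γ₁ e₁, 1) = dia (γ₁ e₁', 1) ∧ χ (a * γ₁ e₁) = χ (γ₁ e₁'))
    (e₀ : E₁) (h1 : dia (γ₁ e₀, 1) = 1) (h1χ : χ (γ₁ e₀) = 1)
    (free : ∀ g : ∀ j : Fin r, (ZMod (qv j))ˣ, (∀ j, orderOf (g j) = qv j - 1) →
      ∃ b : Fin d → V, ∀ y : V,
        ∃! c : Fin d → E₁ × (∀ j : Fin r, Fin (p ^ padicValNat p (qv j - 1))) → 𝒪,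
          y = ∑ i, ∑ e, algebraMap 𝒪 PQ.T (c i e) •
            dia (γ₁ e.1, fun j => g j ^ (e.2 j : ℕ)) (b i))
    (hχ : ∀ a, ∃ c : 𝒪, χ a - 1 = lam * c)
    (hnu : ∀ t : PQ.T,
      (∀ (𝒪' : Type) [CommRing 𝒪'] [IsDomain 𝒪'] [IsDiscreteValuationRing 𝒪'] [CharZero 𝒪']
          [Algebra 𝒪 𝒪'] (x : PQ.T →ₐ[𝒪] 𝒪') (hx : IsLocalHom (x : PQ.T →+* 𝒪')),
          (∀ q ∈ Piv,
            ¬ (PQ.H.ρ.baseChangeAlong (x : PQ.T →+* 𝒪') hx).IsUnipotentOnInertiaAt q) →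
          x t = 0) →
      ∀ m : V ⧸ chiRel (rhoL dia) (chiT PQ.T χ), t • m = 0)
    (hst : ∀ q ∈ Piv, ∀ P : ValuationSubring (AlgebraicClosure ℚ), P.LiesOverPrime q →
      ∀ φ : AlgebraicClosure ℚ ≃ₐ[ℚ] AlgebraicClosure ℚ, P.IsFrobeniusAt φ q →
        ∀ x : V, (PQ.H.ρ.trace φ ^ 2 - ((1 + q : ℕ) : PQ.T) ^ 2) • x ∈
          chiRel (rhoL dia) (1 : D₁ →* PQ.T)) :
    IAAutLevel Piv qv PQ lam d where
  MQ := V ⧸ chiRel (rhoL dia) (chiT PQ.T χ)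
  instAddCommGroup := inferInstance
  instModule := inferInstance
  dia := chiRho dia (chiT PQ.T χ)
  dia_pow a := chiRho_eq_one dia (chiT PQ.T χ) _ (dia_pow a)
  free g hg := by
    obtain ⟨b, hb⟩ := free g hg
    letI : Module 𝒪 V := Module.compHom V (algebraMap 𝒪 PQ.T)
    haveI : IsScalarTower 𝒪 PQ.T V := IsScalarTower.of_algebraMap_smul fun _ _ => rfl
    obtain ⟨B, hB⟩ := exists_basis_of_existsUnique (O := 𝒪) (T := PQ.T)
      (E := E₁ × (∀ j : Fin r, Fin (p ^ padicValNat p (qv j - 1)))) (ι := Fin d)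
      (fun z => dia (γ₁ z.1.1, fun j => g j ^ (z.1.2 j : ℕ)) (b z.2)) hb
    refine ⟨fun i => Submodule.Quotient.mk (b i), fun y => ?_⟩
    exact chiQ_existsUnique dia χ γ₁
      (fun e : ∀ j : Fin r, Fin (p ^ padicValNat p (qv j - 1)) => fun j => g j ^ (e j : ℕ))
      b B hB hσ e₀ h1 h1χ y
  supp_nu := hnu
  st q hq P hP φ hφ m := chiQ_st (rhoL dia) χ lam hχ _ (hst q hq P hP φ hφ) m

/-- **The comparison `Cmp` descends to the `χ`-part.** -/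
theorem iaAutLevelOfChi_cmp
    (dia_pow : ∀ a : ∀ j : Fin r, (ZMod (qv j))ˣ,
      dia (1, fun j => a j ^ p ^ padicValNat p (qv j - 1)) = 1)
    (hσ : ∀ (a : D₁) (e₁ : E₁), ∃ e₁' : E₁,
      dia (a * γ₁ e₁, 1) = dia (γ₁ e₁', 1) ∧ χ (a * γ₁ e₁) = χ (γ₁ e₁'))
    (e₀ : E₁) (h1 : dia (γ₁ e₀, 1) = 1) (h1χ : χ (γ₁ e₀) = 1)
    (free : ∀ g : ∀ j : Fin r, (ZMod (qv j))ˣ, (∀ j, orderOf (g j) = qv j - 1) →
      ∃ b : Fin d → V, ∀ y : V,
        ∃! c : Fin d → E₁ × (∀ j : Fin r, Fin (p ^ padicValNat p (qv j - 1))) → 𝒪,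
          y = ∑ i, ∑ e, algebraMap 𝒪 PQ.T (c i e) •
            dia (γ₁ e.1, fun j => g j ^ (e.2 j : ℕ)) (b i))
    (hχ : ∀ a, ∃ c : 𝒪, χ a - 1 = lam * c)
    (hnu : ∀ t : PQ.T,
      (∀ (𝒪' : Type) [CommRing 𝒪'] [IsDomain 𝒪'] [IsDiscreteValuationRing 𝒪'] [CharZero 𝒪']
          [Algebra 𝒪 𝒪'] (x : PQ.T →ₐ[𝒪] 𝒪') (hx : IsLocalHom (x : PQ.T →+* 𝒪')),
          (∀ q ∈ Piv,
            ¬ (PQ.H.ρ.baseChangeAlong (x : PQ.T →+* 𝒪') hx).IsUnipotentOnInertiaAt q) →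
          x t = 0) →
      ∀ m : V ⧸ chiRel (rhoL dia) (chiT PQ.T χ), t • m = 0)
    (hst : ∀ q ∈ Piv, ∀ P : ValuationSubring (AlgebraicClosure ℚ), P.LiesOverPrime q →
      ∀ φ : AlgebraicClosure ℚ ≃ₐ[ℚ] AlgebraicClosure ℚ, P.IsFrobeniusAt φ q →
        ∀ x : V, (PQ.H.ρ.trace φ ^ 2 - ((1 + q : ℕ) : PQ.T) ^ 2) • x ∈
          chiRel (rhoL dia) (1 : D₁ →* PQ.T))
    (hcmp : ∀ (j : Fin r) (P : ValuationSubring Qb), P.LiesOverPrime (qv j) →
      ∀ φ : GQ, P.IsFrobeniusAt φ (qv j) →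
      ∀ σ ∈ P.inertiaSubgroupIn ℚ, ∀ a : (ZMod (qv j))ˣ, orderOf a = qv j - 1 →
        CycloAt (qv j) σ (a : ZMod (qv j)).val →
        ∀ a₀ w : PQ.T, IsInertiaValue PQ.H.ρ φ σ a₀ w →
          ∀ y : V, (∃ y' : V, y = w • y' - y') ↔
            ∃ y' : V, y = dia (1, Pi.mulSingle j a) y' - y') :
    (iaAutLevelOfChi PQ V γ₁ dia χ lam d dia_pow hσ e₀ h1 h1χ free hχ hnu hst).Cmp := by
  intro j P hP φ hφ σ hσ' a ha hcyc a₀ w hw y
  exact chiQ_range dia (chiT PQ.T χ) w (Pi.mulSingle j a)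
    (hcmp j P hP φ hφ σ hσ' a ha hcyc a₀ w hw) y

end General

/-! ## The pivot group `∏ (ℤ/pv i)ˣ`, exponent basis, character built from `ζ` -/

section Cyc

variable {p : ℕ}
  {𝒪 : Type} [CommRing 𝒪] [IsDomain 𝒪] [IsDiscreteValuationRing 𝒪]
  [IsAdicComplete (maximalIdeal 𝒪) 𝒪]
  {ρbar : ResidualGaloisRep (ResidueField 𝒪)} {Smin : Finset ℕ}
  {Piv : Finset ℕ} {r : ℕ} {qv : Fin r → ℕ}
  [NeZero (wilesLevel p .flat Smin (Smin ∪ Piv ∪ Finset.univ.image qv))]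
  (PQ : HeckePkg p 𝒪 ρbar .flat Smin (Smin ∪ Piv ∪ Finset.univ.image qv))
  (V : Type) [AddCommGroup V] [Module PQ.T V]
  {k : ℕ} (pv : Fin k → ℕ)
  (dia : (∀ i : Fin k, (ZMod (pv i))ˣ) × (∀ j : Fin r, (ZMod (qv j))ˣ) →* Module.End PQ.T V)
  (d : ℕ)

theorem exists_nat_pow_of_mem_zpowers {G : Type*} [Group G] [Finite G] {g : G}
    (hg : ∀ x : G, x ∈ Subgroup.zpowers g) (a : G) : ∃ s : ℕ, a = g ^ s := by
  have h := hg a
  rw [← mem_powers_iff_mem_zpowers] at h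
  obtain ⟨s, hs⟩ := Submonoid.mem_powers_iff _ _ |>.mp h
  exact ⟨s, hs.symm⟩

theorem mulSingle_pow_eq (i : Fin k) (g : (ZMod (pv i))ˣ) (m : Fin k → ℕ) :
    (Pi.mulSingle i g : ∀ i : Fin k, (ZMod (pv i))ˣ) ^ m i =
      fun i' => (Pi.mulSingle i g : ∀ i : Fin k, (ZMod (pv i))ˣ) i' ^ m i' := by
  funext i'
  by_cases hii : i' = i
  · subst hii
    simp only [Pi.pow_apply, Pi.mulSingle_eq_same]
  · simp only [Pi.pow_apply, Pi.mulSingle_eq_of_ne hii, one_pow]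

/-- **`IAAutLevel` with `Cmp` from the Betti level** with pivot group `∏ (ℤ/pv i)ˣ`:
the conclusion of `IA.Hecke.IAAutStatement` at one Taylor–Wiles set. -/
theorem exists_iaAutLevel_cyc (hp : p.Prime) (ζ : 𝒪) (hζ : IsPrimitiveRoot ζ p)
    (hpv : ∀ i, (pv i).Prime) (hdvd : ∀ i, p ∣ pv i - 1)
    (dia_pow₁ : ∀ a : ∀ i : Fin k, (ZMod (pv i))ˣ,
      dia (fun i => a i ^ p ^ padicValNat p (pv i - 1), 1) = 1)
    (dia_pow : ∀ a : ∀ j : Fin r, (ZMod (qv j))ˣ,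
      dia (1, fun j => a j ^ p ^ padicValNat p (qv j - 1)) = 1)
    (free : ∀ (g₁ : ∀ i : Fin k, (ZMod (pv i))ˣ) (g : ∀ j : Fin r, (ZMod (qv j))ˣ),
      (∀ i, orderOf (g₁ i) = pv i - 1) → (∀ j, orderOf (g j) = qv j - 1) →
      ∃ b : Fin d → V, ∀ y : V,
        ∃! c : Fin d → (∀ i : Fin k, Fin (p ^ padicValNat p (pv i - 1))) ×
            (∀ j : Fin r, Fin (p ^ padicValNat p (qv j - 1))) → 𝒪,
          y = ∑ i, ∑ e, algebraMap 𝒪 PQ.T (c i e) •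
            dia (fun i => g₁ i ^ (e.1 i : ℕ), fun j => g j ^ (e.2 j : ℕ)) (b i))
    (hnu : ∀ χ : (∀ i : Fin k, (ZMod (pv i))ˣ) →* 𝒪, (∀ a, χ a ^ p = 1) →
      (∀ (i : Fin k) (g : (ZMod (pv i))ˣ), orderOf g = pv i - 1 → χ (Pi.mulSingle i g) ≠ 1) →
      ∀ t : PQ.T,
      (∀ (𝒪' : Type) [CommRing 𝒪'] [IsDomain 𝒪'] [IsDiscreteValuationRing 𝒪'] [CharZero 𝒪']
          [Algebra 𝒪 𝒪'] (x : PQ.T →ₐ[𝒪] 𝒪') (hx : IsLocalHom (x : PQ.T →+* 𝒪')),
          (∀ q ∈ Piv,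
            ¬ (PQ.H.ρ.baseChangeAlong (x : PQ.T →+* 𝒪') hx).IsUnipotentOnInertiaAt q) →
          x t = 0) →
      ∀ m : V ⧸ chiRel (rhoL dia) (chiT PQ.T χ), t • m = 0)
    (hst : ∀ q ∈ Piv, ∀ P : ValuationSubring (AlgebraicClosure ℚ), P.LiesOverPrime q →
      ∀ φ : AlgebraicClosure ℚ ≃ₐ[ℚ] AlgebraicClosure ℚ, P.IsFrobeniusAt φ q →
        ∀ x : V, (PQ.H.ρ.trace φ ^ 2 - ((1 + q : ℕ) : PQ.T) ^ 2) • x ∈
          chiRel (rhoL dia) (1 : (∀ i : Fin k, (ZMod (pv i))ˣ) →* PQ.T))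
    (hcmp : ∀ (j : Fin r) (P : ValuationSubring Qb), P.LiesOverPrime (qv j) →
      ∀ φ : GQ, P.IsFrobeniusAt φ (qv j) →
      ∀ σ ∈ P.inertiaSubgroupIn ℚ, ∀ a : (ZMod (qv j))ˣ, orderOf a = qv j - 1 →
        CycloAt (qv j) σ (a : ZMod (qv j)).val →
        ∀ a₀ w : PQ.T, IsInertiaValue PQ.H.ρ φ σ a₀ w →
          ∀ y : V, (∃ y' : V, y = w • y' - y') ↔
            ∃ y' : V, y = dia (1, Pi.mulSingle j a) y' - y') :
    ∃ A : IAAutLevel Piv qv PQ (ζ - 1) d, A.Cmp := by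
  classical
  obtain ⟨χ, hχp, hχ1, hχg⟩ := exists_pivot_character hp hζ pv hpv hdvd
  -- primitive roots at the pivots and at the Taylor–Wiles primes
  choose g₁ hg₁ord hg₁gen using fun i => exists_primitive_root_units (hpv i)
  have hM : ∀ i, 0 < p ^ padicValNat p (pv i - 1) := fun i => pow_pos hp.pos _
  have hm1 : ∀ i, padicValNat p (pv i - 1) ≠ 0 := by
    intro i
    haveI : Fact p.Prime := ⟨hp⟩
    have h0 : pv i - 1 ≠ 0 := Nat.sub_ne_zero_of_lt (hpv i).one_lt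
    have : 1 ≤ padicValNat p (pv i - 1) :=
      (padicValNat_dvd_iff_le h0).mp (by rw [pow_one]; exact hdvd i)
    omega
  let F : (∀ i : Fin k, (ZMod (pv i))ˣ) →* Module.End PQ.T V × 𝒪 := (rhoL dia).prod χ
  have hF : ∀ i, F (Pi.mulSingle i (g₁ i)) ^ (p ^ padicValNat p (pv i - 1)) = 1 := by
    intro i
    refine Prod.ext ?_ ?_
    · change dia (Pi.mulSingle i (g₁ i), 1) ^ (p ^ padicValNat p (pv i - 1)) = 1
      rw [← map_pow, Prod.pow_mk, one_pow,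
        mulSingle_pow_eq pv i (g₁ i) (fun i => p ^ padicValNat p (pv i - 1))]
      exact dia_pow₁ _
    · change χ (Pi.mulSingle i (g₁ i)) ^ (p ^ padicValNat p (pv i - 1)) = 1
      obtain ⟨m', hm'⟩ := Nat.exists_eq_succ_of_ne_zero (hm1 i)
      rw [hm', pow_succ', pow_mul, hχp, one_pow]
  have hgen : ∀ (i : Fin k) (a : (ZMod (pv i))ˣ), ∃ s : ℕ, a = g₁ i ^ s := by
    intro i a
    haveI : NeZero (pv i) := ⟨(hpv i).ne_zero⟩
    exact exists_nat_pow_of_mem_zpowers (hg₁gen i) a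
  have hσ : ∀ (a : ∀ i : Fin k, (ZMod (pv i))ˣ)
      (e₁ : ∀ i : Fin k, Fin (p ^ padicValNat p (pv i - 1))),
      ∃ e₁' : ∀ i : Fin k, Fin (p ^ padicValNat p (pv i - 1)),
        dia (a * (fun i => g₁ i ^ (e₁ i : ℕ)), 1) = dia ((fun i => g₁ i ^ (e₁' i : ℕ)), 1) ∧
          χ (a * fun i => g₁ i ^ (e₁ i : ℕ)) = χ (fun i => g₁ i ^ (e₁' i : ℕ)) := by
    intro a e₁
    obtain ⟨e₁', he⟩ := exists_exp_translate F g₁ (fun i => p ^ padicValNat p (pv i - 1)) hM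
      hgen hF a e₁
    exact ⟨e₁', congrArg Prod.fst he, congrArg Prod.snd he⟩
  have hone : (fun i : Fin k => g₁ i ^ ((⟨0, hM i⟩ : Fin (p ^ padicValNat p (pv i - 1))) : ℕ)) =
      1 := by
    funext i
    exact pow_zero _
  have h1 : dia ((fun i : Fin k =>
      g₁ i ^ ((⟨0, hM i⟩ : Fin (p ^ padicValNat p (pv i - 1))) : ℕ)), 1) = 1 := by
    rw [hone]
    exact map_one dia
  have h1χ : χ (fun i : Fin k =>
      g₁ i ^ ((⟨0, hM i⟩ : Fin (p ^ padicValNat p (pv i - 1))) : ℕ)) = 1 := by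
    rw [hone]
    exact map_one χ
  exact ⟨iaAutLevelOfChi PQ V (fun e : ∀ i : Fin k, Fin (p ^ padicValNat p (pv i - 1)) =>
      fun i => g₁ i ^ (e i : ℕ)) dia χ (ζ - 1) d dia_pow hσ (fun i => ⟨0, hM i⟩) h1 h1χ
      (fun g hg => free g₁ g hg₁ord hg) hχ1 (hnu χ hχp hχg) hst,
    iaAutLevelOfChi_cmp PQ V _ dia χ (ζ - 1) d dia_pow hσ (fun i => ⟨0, hM i⟩) h1 h1χ
      (fun g hg => free g₁ g hg₁ord hg) hχ1 (hnu χ hχp hχg) hst hcmp⟩

end Cyc

end Fermat.Agent.S38.H354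

end
-- ===== PACK-END S38/H354/ChiAut.lean

-- ===== PACK-BEGIN S38/H593/StUUCore.lean
section






/-!
# Row HARD, cell HECKE, leaf IA-ST, middle glue (A), generic core  (helper593)

Level `N`, a prime `q ∤ N`, a group `Γ₁(N) ≤ K ≤ Γ₀(N)`, `K_q = K ⊓ Γ₀(N q)`
(vocabulary of helper201, `S59/TW/H201/KDegDefs.lean`).

`uu_of_lower_bot_h593` : if every localisation of `X_K(𝒪)` at `(Tset, Uset)` is zero, then on the
localisation `V` of `X_{K_q}(𝒪)` at `(Tset, Uset)` the operator `U_q` satisfies `U_q² = ⟨σ⟩`,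
`σ ∈ Γ₀(N q)` with lower right entry `≡ q mod N`.

Proof: both transfers `t₁, t₂ : X_{K_q} → X_K` commute with the `T_ℓ` and the `U_{q'}`
(`H653.Cross`, helper653), hence map `V` into the localisation of `X_K(𝒪)`
(`H105.nat_of_isLocPart`, helper105), which exists (`Aut.H511.idem`) and is zero; conclude by the
relation (UU) at `Γ_H`-levels (`H719.UK_UK_K_of_new`, helper719).
-/

set_option autoImplicit false

open IsLocalRing CongruenceSubgroup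
open scoped MatrixGroups

namespace Fermat.Agent.S38.H593

open Fermat.Agent.S59.TW.H653 Fermat.Agent.S59.TW.Aut Fermat.Agent.S59.TW.H201
open Fermat.Agent.S41.Spec

section Core

variable {𝒪 : Type} [CommRing 𝒪] [IsDomain 𝒪] [IsDiscreteValuationRing 𝒪]
  [IsAdicComplete (maximalIdeal 𝒪) 𝒪]
  {N q : ℕ} [Fact q.Prime] {K : Subgroup SL(2, ℤ)}

/-- Both transfers kill the localisation at level `K_q` if the localisation at level `K`
vanishes. -/
theorem transfers_eq_zero_h593 (hN : N ≠ 0) (hqN : ¬ q ∣ N) (hK : IsMid N K)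
    {Tset Uset : Set (ℕ × 𝒪)}
    (hT : ∀ x ∈ Tset, x.1.Prime ∧ ¬ x.1 ∣ N * q) (hU : ∀ x ∈ Uset, x.1.Prime ∧ x.1 ∣ N)
    (hbot : ∀ W : Submodule 𝒪 (Additive K →+ 𝒪), IsLocPart hK Tset Uset W → W = ⊥)
    {V : Submodule 𝒪 (Additive (Kq N q K) →+ 𝒪)}
    (hV : IsLocPart (isMid_Kq hK q) Tset Uset V) :
    ∀ y ∈ V, t₁K N q K y = 0 ∧ t₂K hK q y = 0 := by
  have hqp : q.Prime := Fact.out
  have hT' : ∀ x ∈ Tset, x.1.Prime ∧ ¬ x.1 ∣ N := fun x hx =>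
    ⟨(hT x hx).1, fun h => (hT x hx).2 (dvd_mul_of_dvd_left h q)⟩
  have hUq : ∀ x ∈ Uset, x.1.Prime ∧ x.1 ∣ N * q := fun x hx =>
    ⟨(hU x hx).1, dvd_mul_of_dvd_left (hU x hx).2 q⟩
  obtain ⟨W, hW⟩ := Fermat.Agent.S59.TW.Aut.H511.idem 𝒪 N hN K hK Tset Uset hT' hU
  have hWbot : W = ⊥ := hbot W hW
  have hcop : Nat.Coprime N q := (hqp.coprime_iff_not_dvd.mpr hqN).symm
  have hmem : ∀ k : SL(2, ℤ), k ∈ K → k ∈ Gamma0 (N * q) → k ∈ Kq N q K :=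
    fun _ h1 h2 => ⟨h1, h2⟩
  -- `t₁`
  have h1 : ∀ y ∈ V, t₁KL 𝒪 𝒪 N q K y ∈ W := by
    refine Fermat.Agent.S59.H105.nat_of_isLocPart hN (isMid_Kq hK q) hK hV hW
      subset_rfl subset_rfl hT hUq hT' hU (t₁KL 𝒪 𝒪 N q K) ?_
    intro i x
    rcases i with i | i
    · have : Fact i.1.1.Prime := ⟨(hT i.1 i.2).1⟩
      show t₁K N q K (TK (N * q) (Kq N q K) i.1.1 x - i.1.2 • x) =
        TK N K i.1.1 (t₁K N q K x) - i.1.2 • t₁K N q K x
      have e1 := Fermat.Agent.S59.TW.H653.Cross.TK_coresK hK (isMid_Kq hK q) (Kq_le N q K) hmem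
        (hT i.1 i.2).2 x
      have e2 : t₁K N q K (TK (N * q) (Kq N q K) i.1.1 x - i.1.2 • x) =
          t₁K N q K (TK (N * q) (Kq N q K) i.1.1 x) - i.1.2 • t₁K N q K x := by
        have := (t₁KL 𝒪 𝒪 N q K).map_sub (TK (N * q) (Kq N q K) i.1.1 x) (i.1.2 • x)
        rw [(t₁KL 𝒪 𝒪 N q K).map_smul] at this
        exact this
      rw [e2]
      congr 1
      exact e1.symm
    · have : Fact i.1.1.Prime := ⟨(hU i.1 i.2).1⟩
      show t₁K N q K (UK (Kq N q K) i.1.1 x - i.1.2 • x) =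
        UK K i.1.1 (t₁K N q K x) - i.1.2 • t₁K N q K x
      have e1 := Fermat.Agent.S59.TW.H653.Cross.UK_coresK hK (isMid_Kq hK q) (Kq_le N q K) hmem
        hcop (hU i.1 i.2).2 x
      have e2 : t₁K N q K (UK (Kq N q K) i.1.1 x - i.1.2 • x) =
          t₁K N q K (UK (Kq N q K) i.1.1 x) - i.1.2 • t₁K N q K x := by
        have := (t₁KL 𝒪 𝒪 N q K).map_sub (UK (Kq N q K) i.1.1 x) (i.1.2 • x)
        rw [(t₁KL 𝒪 𝒪 N q K).map_smul] at this
        exact this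
      rw [e2]
      congr 1
      exact e1.symm
  -- `t₂`
  have h2 : ∀ y ∈ V, t₂KL 𝒪 𝒪 hK q y ∈ W := by
    refine Fermat.Agent.S59.H105.nat_of_isLocPart hN (isMid_Kq hK q) hK hV hW
      subset_rfl subset_rfl hT hUq hT' hU (t₂KL 𝒪 𝒪 hK q) ?_
    intro i x
    rcases i with i | i
    · have : Fact i.1.1.Prime := ⟨(hT i.1 i.2).1⟩
      show t₂K hK q (TK (N * q) (Kq N q K) i.1.1 x - i.1.2 • x) =
        TK N K i.1.1 (t₂K hK q x) - i.1.2 • t₂K hK q x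
      have e1 := Fermat.Agent.S59.TW.H653.Cross.TK_t₂ hK (isMid_Kq hK q) hmem hqp.ne_zero
        (conjDeltaK hK q) (fun _ => rfl) (hT i.1 i.2).2 x
      have e2 : t₂K hK q (TK (N * q) (Kq N q K) i.1.1 x - i.1.2 • x) =
          t₂K hK q (TK (N * q) (Kq N q K) i.1.1 x) - i.1.2 • t₂K hK q x := by
        have := (t₂KL 𝒪 𝒪 hK q).map_sub (TK (N * q) (Kq N q K) i.1.1 x) (i.1.2 • x)
        rw [(t₂KL 𝒪 𝒪 hK q).map_smul] at this
        exact this
      rw [e2]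
      congr 1
      exact e1.symm
    · have : Fact i.1.1.Prime := ⟨(hU i.1 i.2).1⟩
      show t₂K hK q (UK (Kq N q K) i.1.1 x - i.1.2 • x) =
        UK K i.1.1 (t₂K hK q x) - i.1.2 • t₂K hK q x
      have e1 := Fermat.Agent.S59.TW.H653.Cross.UK_t₂ hK (isMid_Kq hK q) hmem hqp.ne_zero
        (conjDeltaK hK q) (fun _ => rfl) (hU i.1 i.2).2 x
      have e2 : t₂K hK q (UK (Kq N q K) i.1.1 x - i.1.2 • x) =
          t₂K hK q (UK (Kq N q K) i.1.1 x) - i.1.2 • t₂K hK q x := by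
        have := (t₂KL 𝒪 𝒪 hK q).map_sub (UK (Kq N q K) i.1.1 x) (i.1.2 • x)
        rw [(t₂KL 𝒪 𝒪 hK q).map_smul] at this
        exact this
      rw [e2]
      congr 1
      exact e1.symm
  intro y hy
  refine ⟨?_, ?_⟩
  · have := h1 y hy
    rw [hWbot, Submodule.mem_bot] at this
    exact this
  · have := h2 y hy
    rw [hWbot, Submodule.mem_bot] at this
    exact this

/-- **`U_q² = ⟨σ⟩` on the localisation at level `K_q`**, if the localisation at level `K`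
vanishes. -/
theorem uu_of_lower_bot_h593 (hN : N ≠ 0) (hqN : ¬ q ∣ N) (hK : IsMid N K)
    {Tset Uset : Set (ℕ × 𝒪)}
    (hT : ∀ x ∈ Tset, x.1.Prime ∧ ¬ x.1 ∣ N * q) (hU : ∀ x ∈ Uset, x.1.Prime ∧ x.1 ∣ N)
    (hbot : ∀ W : Submodule 𝒪 (Additive K →+ 𝒪), IsLocPart hK Tset Uset W → W = ⊥)
    {V : Submodule 𝒪 (Additive (Kq N q K) →+ 𝒪)}
    (hV : IsLocPart (isMid_Kq hK q) Tset Uset V)
    (σ : Gamma0 (N * q))
    (hσ : ((dUnit N (incl N q σ) : (ZMod N)ˣ) : ZMod N) = (q : ZMod N)) :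
    ∀ y ∈ V, UK (Kq N q K) q (UK (Kq N q K) q y) = diamond (isMid_Kq hK q) σ y := by
  intro y hy
  obtain ⟨h1, h2⟩ := transfers_eq_zero_h593 hN hqN hK hT hU hbot hV y hy
  exact Fermat.Agent.S38.H719.UK_UK_K_of_new hK hN hqN σ hσ y h1 h2

end Core

end Fermat.Agent.S38.H593

end
-- ===== PACK-END S38/H593/StUUCore.lean

-- ===== PACK-BEGIN S38/H593/StUU.lean
section




/-!
# Row HARD, cell HECKE, leaf IA-ST, middle glue (A): `U_q² = ⟨q⟩` at the pivots  (helper593)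

`L = ribetLevel p Smin Piv`, `K₁ = KG p L qv = Γ₀(L) ∩ Γ_H(Q)` (`Γ₀`-structure at the pivots),
`V₁` the localisation of `X_{K₁}(𝒪)` at `(TsetOf PQ, UsetOf qv α)`.

* `iaStUU_h593 : IAMinZeroStatement → IAStUUStatement` : under (MIN), for every pivot `q`,
  `U_q (U_q y) = ⟨u⟩ y` for `y ∈ V₁` and every unit `u` modulo the level which is `≡ q` modulo
  every Taylor–Wiles prime (`IsQClass`);
* `iaStUU_twisted_h593` : hence `(⟨w⟩^h U_q)² = 1` on `V₁` if `h` is half (`IsHalf p qv h`):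
  this is `Ψ(U_q)² = 1` for the Hecke action with `U_q` of helper264 (`S38/H264/ActionU.lean`).

The input `IAMinZeroStatement` (`S38/IA/Hecke/Spec4.lean`) is proved by squad S55/S59.
-/

set_option autoImplicit false

open Polynomial IsLocalRing CongruenceSubgroup
open scoped MatrixGroups

namespace Fermat.Agent.S38.H593

open Fermat.Agent.S59.Arch Fermat.Agent.S59.TW.H959 Fermat.Agent.S59.TW Fermat.Agent.S59.H765
open Fermat.Agent.S59.TW.H653 Fermat.Agent.S59.TW.Aut Fermat.Agent.S59.TW.H201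
open Fermat.Agent.S38.IA Fermat.Agent.S38.IA.Hecke
open Fermat.Agent.S41.Spec
open CuspForm

/-! ## The group `KG` at two levels -/

section Groups

variable (p : ℕ) {ι : Type} [Fintype ι] (qq : ι → ℕ)

/-- The condition at the primes `qq s` defining `KG`, independent of the level. -/
def PowCond (g : SL(2, ℤ)) : Prop :=
  ∀ s : ι, ∃ v : (ZMod (qq s))ˣ,
    (((v ^ (p ^ padicValNat p (qq s - 1)) : (ZMod (qq s))ˣ)) : ZMod (qq s)) =
      (((g 1 1 : ℤ)) : ZMod (qq s))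

theorem coe_gRed_dUnit (N₀ : ℕ) (g : Gamma0 (gLevel N₀ qq)) (s : ι) :
    ((gRed N₀ qq (dUnit (gLevel N₀ qq) g) s : (ZMod (qq s))ˣ) : ZMod (qq s)) =
      ((((g : SL(2, ℤ)) 1 1 : ℤ)) : ZMod (qq s)) := by
  rw [gRed_apply, ZMod.unitsMap_val, coe_dUnit]
  have : CharP (ZMod (qq s)) (qq s) := ZMod.charP _
  exact ZMod.cast_intCast (dvd_gLevel N₀ qq s) _

theorem mem_KG_iff_h593 (N₀ : ℕ) (g : SL(2, ℤ)) :
    g ∈ KG p N₀ qq ↔ g ∈ Gamma0 (gLevel N₀ qq) ∧ PowCond p qq g := by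
  show g ∈ GammaH (gLevel N₀ qq) (gChi p N₀ qq).ker ↔ _
  rw [mem_GammaH]
  constructor
  · rintro ⟨hg, h⟩
    refine ⟨hg, fun s => ?_⟩
    rw [MonoidHom.mem_ker, gChi_apply] at h
    have h2 : gRed N₀ qq (dUnit (gLevel N₀ qq) ⟨g, hg⟩) ∈ gPowSub p qq :=
      (QuotientGroup.eq_one_iff _).mp h
    have h3 := (Subgroup.mem_pi Set.univ).mp h2 s (Set.mem_univ s)
    obtain ⟨v, hv⟩ := h3
    refine ⟨v, ?_⟩
    have := coe_gRed_dUnit qq N₀ ⟨g, hg⟩ s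
    rw [← this, ← hv]
    rfl
  · rintro ⟨hg, h⟩
    refine ⟨hg, ?_⟩
    rw [MonoidHom.mem_ker, gChi_apply]
    refine (QuotientGroup.eq_one_iff _).mpr ?_
    refine (Subgroup.mem_pi Set.univ).mpr fun s _ => ?_
    obtain ⟨v, hv⟩ := h s
    refine ⟨v, ?_⟩
    apply Units.ext
    rw [coe_gRed_dUnit qq N₀ ⟨g, hg⟩ s, ← hv]
    rfl

/-- `KG` at the level `N₀ q` is `K_q` of `KG` at the level `N₀`. -/
theorem KG_eq_Kq_h593 (N₀ N₁ q : ℕ) (hN : gLevel N₁ qq = gLevel N₀ qq * q) :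
    KG p N₁ qq = Kq (gLevel N₀ qq) q (KG p N₀ qq) := by
  ext g
  rw [mem_Kq, mem_KG_iff_h593, mem_KG_iff_h593, hN]
  constructor
  · rintro ⟨h1, h2⟩
    exact ⟨⟨gamma0_mul_le _ _ h1, h2⟩, h1⟩
  · rintro ⟨⟨_, h2⟩, h1⟩
    exact ⟨h1, h2⟩

end Groups

/-! ## Transport along an equality of levels and of groups -/

section Transport

variable {𝒪 : Type} [CommRing 𝒪] [IsLocalRing 𝒪]

theorem uu_transport_h593 {M M' : ℕ} {K K' : Subgroup SL(2, ℤ)} (hM : M = M') (hKK : K = K')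
    (hK : IsMid M K) (hK' : IsMid M' K') (N q : ℕ) [NeZero q] (Tset Uset : Set (ℕ × 𝒪))
    (H : ∀ V' : Submodule 𝒪 (Additive K' →+ 𝒪), IsLocPart hK' Tset Uset V' →
      ∃ σ : Gamma0 M', ((((σ : SL(2, ℤ)) 1 1 : ℤ)) : ZMod N) = (q : ZMod N) ∧
        ∀ y ∈ V', UK K' q (UK K' q y) = diamond hK' σ y) :
    ∀ V : Submodule 𝒪 (Additive K →+ 𝒪), IsLocPart hK Tset Uset V →
      ∃ σ : Gamma0 M, ((((σ : SL(2, ℤ)) 1 1 : ℤ)) : ZMod N) = (q : ZMod N) ∧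
        ∀ y ∈ V, UK K q (UK K q y) = diamond hK σ y := by
  subst hM
  subst hKK
  exact H

end Transport

/-! ## The statement -/

/-- `u` is congruent to `q` modulo every Taylor–Wiles prime. -/
def IsQClass {r : ℕ} (qv : Fin r → ℕ) (q M : ℕ) (u : (ZMod M)ˣ) : Prop :=
  ∀ d : ℤ, ((d : ℤ) : ZMod M) = ((u : (ZMod M)ˣ) : ZMod M) → ∀ j, (qv j : ℤ) ∣ d - (q : ℤ)

/-- **IA-ST-UU.**  Under (MIN), `U_q² = ⟨q⟩` on the localisation at level
`Γ₀(L) ∩ Γ_H(Q)`, `L = ribetLevel p Smin Piv`, for every pivot `q`. -/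
def IAStUUStatement : Prop :=
  ∀ (p : ℕ) [Fact p.Prime] (_hp5 : 5 ≤ p)
    (𝒪 : Type) [CommRing 𝒪] [IsDomain 𝒪] [IsDiscreteValuationRing 𝒪]
    [IsAdicComplete (maximalIdeal 𝒪) 𝒪] [Finite (ResidueField 𝒪)] [CharZero 𝒪]
    (ρbar : ResidualGaloisRep (ResidueField 𝒪)) (Smin : Finset ℕ)
    (_h : ResidualHyp p 𝒪 ρbar Smin)
    (_hflat : (GaloisRepAdic.ofResidualGaloisRep ρbar).IsFlatAt p)
    (Piv : Finset ℕ) (_hPiv : IsPivotSet p ρbar Smin Piv)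
    (_hmin : ∀ q ∈ Piv, ∀ S : Finset ℕ,
      ¬ ResModular 𝒪 ρbar (ribetLevel p Smin (Piv.erase q)) S)
    (n r : ℕ) (qv : Fin r → ℕ) (_hq : IsTWSet p ρbar (Smin ∪ Piv) n qv)
    [NeZero (wilesLevel p .flat Smin (Smin ∪ Piv ∪ Finset.univ.image qv))]
    (PQ : HeckePkg p 𝒪 ρbar .flat Smin (Smin ∪ Piv ∪ Finset.univ.image qv))
    (α : Fin r → 𝒪) (_hα : IsFrobLift ρbar qv α)
    (q : ℕ) (_hqP : q ∈ Piv) [NeZero q]
    (V₁ : Submodule 𝒪 (Additive (KG p (ribetLevel p Smin Piv) qv) →+ 𝒪)),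
    IsLocPart (isMid_KG p (ribetLevel p Smin Piv) qv) (TsetOf PQ) (UsetOf qv α) V₁ →
    ∀ u : (ZMod (gLevel (ribetLevel p Smin Piv) qv))ˣ,
      IsQClass qv q (gLevel (ribetLevel p Smin Piv) qv) u →
      ∀ y ∈ V₁, UK (KG p (ribetLevel p Smin Piv) qv) q
          (UK (KG p (ribetLevel p Smin Piv) qv) q y) =
        diamondU (isMid_KG p (ribetLevel p Smin Piv) qv) u y

/-! ## Arithmetic of the levels -/

section Arith

variable {p : ℕ} {Smin Piv : Finset ℕ} {r : ℕ} {qv : Fin r → ℕ}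

theorem ribetLevel_erase_mul {q : ℕ} (hq : q ∈ Piv) :
    ribetLevel p Smin Piv = ribetLevel p Smin (Piv.erase q) * q := by
  unfold ribetLevel
  rw [← Finset.mul_prod_erase Piv (fun x => x) hq]
  ring

theorem gLevel_erase_mul {q : ℕ} (hq : q ∈ Piv) :
    gLevel (ribetLevel p Smin Piv) qv = gLevel (ribetLevel p Smin (Piv.erase q)) qv * q := by
  unfold gLevel
  rw [ribetLevel_erase_mul (p := p) (Smin := Smin) hq]
  ring

/-- A prime dividing `gLevel (ribetLevel p Smin Piv') qv` lies in `Smin ∪ Piv' ∪ image qv`. -/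
theorem mem_of_prime_dvd_gLevel (Piv' : Finset ℕ)
    (hS : ∀ x ∈ Smin, x.Prime) (hP : ∀ x ∈ Piv', x.Prime) (hQ : ∀ j, (qv j).Prime)
    {ℓ : ℕ} (hℓ : ℓ.Prime) (hd : ℓ ∣ gLevel (ribetLevel p Smin Piv') qv) :
    (ℓ ∈ Smin.erase p ∨ ℓ ∈ Piv') ∨ ∃ j, ℓ = qv j := by
  unfold gLevel ribetLevel at hd
  rcases (Nat.Prime.dvd_mul hℓ).mp hd with h1 | h1
  · left
    rcases (Nat.Prime.dvd_mul hℓ).mp h1 with h2 | h2
    · left
      obtain ⟨a, ha, hla⟩ := (Prime.dvd_finsetProd_iff (Nat.Prime.prime hℓ) _).mp h2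
      have := (Nat.prime_dvd_prime_iff_eq hℓ (hS a (Finset.mem_of_mem_erase ha))).mp hla
      rw [this]
      exact ha
    · right
      obtain ⟨a, ha, hla⟩ := (Prime.dvd_finsetProd_iff (Nat.Prime.prime hℓ) _).mp h2
      have := (Nat.prime_dvd_prime_iff_eq hℓ (hP a ha)).mp hla
      rw [this]
      exact ha
  · right
    obtain ⟨a, _, hla⟩ := (Prime.dvd_finsetProd_iff (Nat.Prime.prime hℓ) _).mp h1
    exact ⟨a, (Nat.prime_dvd_prime_iff_eq hℓ (hQ a)).mp hla⟩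

theorem gLevel_ribetLevel_ne_zero (Piv' : Finset ℕ)
    (hS : ∀ x ∈ Smin, x.Prime) (hP : ∀ x ∈ Piv', x.Prime) (hQ : ∀ j, (qv j).Prime) :
    gLevel (ribetLevel p Smin Piv') qv ≠ 0 := by
  apply gLevel_ne_zero _ _ _ hQ
  unfold ribetLevel
  refine Nat.mul_ne_zero ?_ ?_
  · exact Finset.prod_ne_zero_iff.mpr fun a ha => (hS a (Finset.mem_of_mem_erase ha)).ne_zero
  · exact Finset.prod_ne_zero_iff.mpr fun a ha => (hP a ha).ne_zero

end Arith

/-! ## The theorem -/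

theorem iaStUU_h593 (hMZ : IAMinZeroStatement) : IAStUUStatement := by
  intro p _ hp5 𝒪 _ _ _ _ _ _ ρbar Smin h hflat Piv hPiv hmin n r qv hq _ PQ α hα q hqP _ V₁ hV₁
    u hu y hy
  have hqprime : q.Prime := (hPiv q hqP).1
  have : Fact q.Prime := ⟨hqprime⟩
  have hS : ∀ x ∈ Smin, x.Prime := h.hSmin
  have hP : ∀ x ∈ Piv, x.Prime := fun x hx => (hPiv x hx).1
  have hP' : ∀ x ∈ Piv.erase q, x.Prime := fun x hx => hP x (Finset.mem_of_mem_erase hx)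
  have hQ : ∀ j, (qv j).Prime := fun j => (hq.2.1 j).1
  set L' := ribetLevel p Smin (Piv.erase q) with hL'
  set N := gLevel L' qv with hNdef
  have hlev : gLevel (ribetLevel p Smin Piv) qv = N * q := gLevel_erase_mul hqP
  have hN : N ≠ 0 := gLevel_ribetLevel_ne_zero (Piv.erase q) hS hP' hQ
  have hM₁ : gLevel (ribetLevel p Smin Piv) qv ≠ 0 := gLevel_ribetLevel_ne_zero Piv hS hP hQ
  have : NeZero (gLevel (ribetLevel p Smin Piv) qv) := ⟨hM₁⟩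
  have hqN : ¬ q ∣ N := by
    intro hd
    rcases mem_of_prime_dvd_gLevel (Piv.erase q) hS hP' hQ hqprime hd with (h1 | h1) | ⟨j, hj⟩
    · exact (hPiv q hqP).2.1 (Finset.mem_of_mem_erase h1)
    · exact (Finset.notMem_erase q Piv) h1
    · have := (hq.2.1 j).2.1
      rw [← hj] at this
      exact this (Finset.mem_union_right _ hqP)
  -- the sets of generators
  have hT : ∀ x ∈ TsetOf PQ, x.1.Prime ∧ ¬ x.1 ∣ N * q := by
    rintro x ⟨hℓ, _, hℓS, _⟩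
    refine ⟨hℓ, fun hd => ?_⟩
    rw [← hlev] at hd
    rcases mem_of_prime_dvd_gLevel Piv hS hP hQ hℓ hd with (h1 | h1) | ⟨j, hj⟩
    · exact hℓS (by
        simp only [Finset.coe_union, Set.mem_union, Finset.mem_coe]
        exact Or.inl (Or.inl (Finset.mem_of_mem_erase h1)))
    · exact hℓS (by
        simp only [Finset.coe_union, Set.mem_union, Finset.mem_coe]
        exact Or.inl (Or.inr h1))
    · exact hℓS (by
        simp only [Finset.coe_union, Set.mem_union, Finset.mem_coe]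
        exact Or.inr (Finset.mem_image.mpr ⟨j, Finset.mem_univ j, hj.symm⟩))
  have hU : ∀ x ∈ UsetOf qv α, x.1.Prime ∧ x.1 ∣ N := by
    rintro x ⟨j, rfl⟩
    exact ⟨hQ j, dvd_gLevel L' qv j⟩
  -- (MIN): the localisation at the lower level vanishes
  have hbot : ∀ W : Submodule 𝒪 (Additive (KG p L' qv) →+ 𝒪),
      IsLocPart (isMid_KG p L' qv) (TsetOf PQ) (UsetOf qv α) W → W = ⊥ :=
    fun W hW => hMZ p hp5 𝒪 ρbar Smin h hflat Piv hPiv hmin n r qv hq PQ α hα q hqP W hW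
  -- the relation at the level `K_q`
  have key : ∀ V' : Submodule 𝒪 (Additive (Kq N q (KG p L' qv)) →+ 𝒪),
      IsLocPart (isMid_Kq (isMid_KG p L' qv) q) (TsetOf PQ) (UsetOf qv α) V' →
      ∃ σ : Gamma0 (N * q), ((((σ : SL(2, ℤ)) 1 1 : ℤ)) : ZMod N) = (q : ZMod N) ∧
        ∀ y ∈ V', UK (Kq N q (KG p L' qv)) q (UK (Kq N q (KG p L' qv)) q y) =
          diamond (isMid_Kq (isMid_KG p L' qv) q) σ y := by
    intro V' hV'
    obtain ⟨σ, hσ⟩ := Fermat.Agent.S38.H719.exists_sigma_q (q := q) hN hqN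
    exact ⟨σ, hσ, uu_of_lower_bot_h593 hN hqN (isMid_KG p L' qv) hT hU hbot hV' σ hσ⟩
  obtain ⟨σ, hσ, hUU⟩ := uu_transport_h593 hlev (KG_eq_Kq_h593 p qv L' (ribetLevel p Smin Piv) q hlev)
    (isMid_KG p (ribetLevel p Smin Piv) qv) (isMid_Kq (isMid_KG p L' qv) q) N q
    (TsetOf PQ) (UsetOf qv α) key V₁ hV₁
  rw [hUU y hy, diamond_eq_diamondU]
  apply diamondU_eq_of_gChi
  apply gChi_eq_of_gRed
  funext j
  apply Units.ext
  rw [coe_gRed_dUnit]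
  -- both sides are `q` modulo `qv j`
  have hdj : qv j ∣ N := dvd_gLevel L' qv j
  have e1 : ((((σ : SL(2, ℤ)) 1 1 : ℤ)) : ZMod (qv j)) = (q : ZMod (qv j)) := by
    have := congrArg (ZMod.castHom hdj (ZMod (qv j))) hσ
    simpa using this
  rw [e1, gRed_apply, ZMod.unitsMap_val]
  have hd := hu ((u : ZMod (gLevel (ribetLevel p Smin Piv) qv)).val : ℤ)
    (by rw [Int.cast_natCast, ZMod.natCast_zmod_val]) j
  have e2 : ((((u : ZMod (gLevel (ribetLevel p Smin Piv) qv)).val : ℤ)) : ZMod (qv j)) =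
      ((q : ℤ) : ZMod (qv j)) := by
    rw [ZMod.intCast_eq_intCast_iff_dvd_sub]
    have : ((qv j : ℕ) : ℤ) ∣ -(((u : ZMod (gLevel (ribetLevel p Smin Piv) qv)).val : ℤ) - q) :=
      (dvd_neg).mpr hd
    simpa using this
  rw [Int.cast_natCast, Int.cast_natCast] at e2
  rw [← e2]
  exact ZMod.natCast_val (n := gLevel (ribetLevel p Smin Piv) qv) (R := ZMod (qv j))
    ((u : (ZMod (gLevel (ribetLevel p Smin Piv) qv))ˣ) : ZMod (gLevel (ribetLevel p Smin Piv) qv))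

/-! ## The twisted form: `(⟨u⟩^h U_q)² = 1` -/

/-- `gChi (u ^ c) = 1` if `p^{m_s} ∣ c` for all `s`. -/
theorem gChi_pow_h593 (p N₀ : ℕ) {ι : Type} [Fintype ι] (qq : ι → ℕ) {c : ℕ}
    (hc : ∀ s, p ^ padicValNat p (qq s - 1) ∣ c) (u : (ZMod (gLevel N₀ qq))ˣ) :
    gChi p N₀ qq (u ^ c) = 1 := by
  rw [gChi_apply, map_pow]
  refine (QuotientGroup.eq_one_iff _).mpr ?_
  rw [gPowSub, Subgroup.mem_pi]
  intro j _
  obtain ⟨e, he⟩ := hc j
  refine ⟨gRed N₀ qq u j ^ e, ?_⟩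
  rw [powMonoidHom_apply, Pi.pow_apply, he, pow_mul']

/-- **IA-ST-UU, twisted form.**  `(⟨u⟩^h U_q)² = 1` on `V₁` for `h` half and `u ≡ q` modulo
the Taylor–Wiles primes: the operator `Ψ(U_q)` of the Hecke action with `U_q` (helper264,
`exists_heckeActionU_sub_of_odd`, `m = h`, `w q = u`) is an involution of `V₁`. -/
def IAStUUTwStatement : Prop :=
  ∀ (p : ℕ) [Fact p.Prime] (_hp5 : 5 ≤ p)
    (𝒪 : Type) [CommRing 𝒪] [IsDomain 𝒪] [IsDiscreteValuationRing 𝒪]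
    [IsAdicComplete (maximalIdeal 𝒪) 𝒪] [Finite (ResidueField 𝒪)] [CharZero 𝒪]
    (ρbar : ResidualGaloisRep (ResidueField 𝒪)) (Smin : Finset ℕ)
    (_h : ResidualHyp p 𝒪 ρbar Smin)
    (_hflat : (GaloisRepAdic.ofResidualGaloisRep ρbar).IsFlatAt p)
    (Piv : Finset ℕ) (_hPiv : IsPivotSet p ρbar Smin Piv)
    (_hmin : ∀ q ∈ Piv, ∀ S : Finset ℕ,
      ¬ ResModular 𝒪 ρbar (ribetLevel p Smin (Piv.erase q)) S)
    (n r : ℕ) (qv : Fin r → ℕ) (_hq : IsTWSet p ρbar (Smin ∪ Piv) n qv)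
    [NeZero (wilesLevel p .flat Smin (Smin ∪ Piv ∪ Finset.univ.image qv))]
    (PQ : HeckePkg p 𝒪 ρbar .flat Smin (Smin ∪ Piv ∪ Finset.univ.image qv))
    (α : Fin r → 𝒪) (_hα : IsFrobLift ρbar qv α)
    (q : ℕ) (_hqP : q ∈ Piv) [NeZero q]
    (V₁ : Submodule 𝒪 (Additive (KG p (ribetLevel p Smin Piv) qv) →+ 𝒪)),
    IsLocPart (isMid_KG p (ribetLevel p Smin Piv) qv) (TsetOf PQ) (UsetOf qv α) V₁ →
    ∀ h' : ℕ, IsHalf p qv h' →
    ∀ u : (ZMod (gLevel (ribetLevel p Smin Piv) qv))ˣ,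
      IsQClass qv q (gLevel (ribetLevel p Smin Piv) qv) u →
      ∀ y ∈ V₁,
        diamondU (isMid_KG p (ribetLevel p Smin Piv) qv) (u ^ h')
          (UK (KG p (ribetLevel p Smin Piv) qv) q
            (diamondU (isMid_KG p (ribetLevel p Smin Piv) qv) (u ^ h')
              (UK (KG p (ribetLevel p Smin Piv) qv) q y))) = y

theorem iaStUU_twisted_h593 (hUU : IAStUUStatement) : IAStUUTwStatement := by
  intro p _ hp5 𝒪 _ _ _ _ _ _ ρbar Smin h hflat Piv hPiv hmin n r qv hq _ PQ α hα q hqP _ V₁ hV₁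
    h' hh' u hu y hy
  have hqprime : q.Prime := (hPiv q hqP).1
  have : Fact q.Prime := ⟨hqprime⟩
  have hS : ∀ x ∈ Smin, x.Prime := h.hSmin
  have hP : ∀ x ∈ Piv, x.Prime := fun x hx => (hPiv x hx).1
  have hQ : ∀ j, (qv j).Prime := fun j => (hq.2.1 j).1
  have hM₁ : gLevel (ribetLevel p Smin Piv) qv ≠ 0 := gLevel_ribetLevel_ne_zero Piv hS hP hQ
  have : NeZero (gLevel (ribetLevel p Smin Piv) qv) := ⟨hM₁⟩
  have hqM : q ∣ gLevel (ribetLevel p Smin Piv) qv := by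
    rw [gLevel_erase_mul hqP]
    exact Dvd.intro_left _ rfl
  have h1 := hUU p hp5 𝒪 ρbar Smin h hflat Piv hPiv hmin n r qv hq PQ α hα q hqP V₁ hV₁ u hu y hy
  rw [diamondU_UK (isMid_KG p (ribetLevel p Smin Piv) qv) hqM, h1, ← diamondU_mul,
    ← diamondU_mul]
  apply diamondU_of_gChi
  have e : u ^ h' * u ^ h' * u = u ^ (2 * h' + 1) := by
    rw [pow_succ, two_mul, pow_add]
  rw [e]
  exact gChi_pow_h593 p (ribetLevel p Smin Piv) qv hh' u

end Fermat.Agent.S38.H593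

end
-- ===== PACK-END S38/H593/StUU.lean

-- ===== PACK-BEGIN S38/H113/StGal.lean
section



/-!
# Row HARD (row 37, Ihara avoidance), leaf (ST), Galois core **ST-GAL**   (helper113)

Board `coord/HARD.md` (trunk `origin/helper995`), clause (ST) of `S38.IA.HasIAModule`:
`h_q := tr ρ(φ_q)² - (1+q)²` is divisible by `ζ_p - 1` on the type-`χ` module, because `h_q` KILLS
the trivial-character module `M¹`; and `h_q` kills `M¹` because every characteristic-zero point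
of the Hecke algebra in the support of `M¹` is `q`-new with `q ∥ level`, hence Steinberg at `q`.

This file proves the Galois half, from the frozen S35 (as the hypothesis
`Fermat.Agent.S58.S35Statement`) and qualitative Chebotarev (`S58.H93.chebCharpoly`, on main):

* `stGal` : `H` a Hecke–Galois datum of level `N` away from `Sig` with coefficients `T`,
  `x : T →+* 𝒪'` a local homomorphism to a complete DVR of characteristic `0` with finite residue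
  field of characteristic `lam`, `g` a newform of level `M` with Hecke character `chig`
  (away from `S'`), `iota : chig.range →+* 𝒪'` with `x (π T_ℓ) = iota (a_ℓ(g))` for all primes
  `ℓ` outside a finite set `B`; `q ≠ lam` a prime with `q ∥ M`.  Then for EVERY Frobenius element
  `φ` at EVERY place over `q`:  `x (tr ρ(φ) ^ 2 - (1 + q) ^ 2) = 0`.
* `stGal_trace` : the same as `x (tr ρ(φ)) = (q + 1) ∨ x (tr ρ(φ)) = -(q + 1)`.
* `stGal_rep` : the version for an arbitrary `GaloisRepAdic 𝒪'` instead of a point of a datum.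

Nothing about the level `N` of the datum is used (in the application `N = wilesLevel …` has
`q²` at the pivot, while `M` is the level of the newform of the point).
-/

set_option autoImplicit false
set_option linter.style.haveILetI false

open Polynomial IsLocalRing

namespace Fermat.Agent.S38.H113

open Fermat.Agent.S58

/-! ## Linear algebra in rank two -/

/-- The trace of a two-dimensional adic representation is minus the linear coefficient of the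
characteristic polynomial. -/
theorem trace_eq_neg_coeff_one {A : Type} [CommRing A] [IsLocalRing A] (ρ : GaloisRepAdic A)
    (σ : GQ) : ρ.trace σ = -(LinearMap.charpoly (ρ.ρ σ)).coeff 1 := by
  classical
  let b : Module.Basis (Fin 2) A ρ.V := Module.finBasisOfFinrankEq A ρ.V ρ.finrank_eq
  unfold GaloisRepAdic.trace
  rw [LinearMap.trace_eq_matrix_trace A b, Matrix.trace_eq_neg_charpoly_coeff,
    LinearMap.charpoly_toMatrix]
  simp

/-- Characteristic polynomials commute with base change. -/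
theorem charpoly_baseChangeAlong_h113 {A B : Type} [CommRing A] [IsLocalRing A] [CommRing B]
    [IsLocalRing B] (φ : A →+* B) (hφ : IsLocalHom φ) (ρ : GaloisRepAdic A) (σ : GQ) :
    LinearMap.charpoly ((ρ.baseChangeAlong φ hφ).ρ σ) = (LinearMap.charpoly (ρ.ρ σ)).map φ := by
  letI : Algebra A B := φ.toAlgebra
  exact LinearMap.charpoly_baseChange (ρ.ρ σ) B

/-- The trace commutes with base change. -/
theorem trace_baseChangeAlong_h113 {A B : Type} [CommRing A] [IsLocalRing A] [CommRing B]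
    [IsLocalRing B] (φ : A →+* B) (hφ : IsLocalHom φ) (ρ : GaloisRepAdic A) (σ : GQ) :
    (ρ.baseChangeAlong φ hφ).trace σ = φ (ρ.trace σ) := by
  rw [trace_eq_neg_coeff_one, trace_eq_neg_coeff_one, charpoly_baseChangeAlong_h113,
    Polynomial.coeff_map, map_neg]

/-- The linear coefficient of `X² - a X + b`. -/
theorem coeff_one_quadratic {R : Type} [CommRing R] (a b : R) :
    (X ^ 2 - C a * X + C b : R[X]).coeff 1 = -a := by
  simp [coeff_X_pow, coeff_C]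

/-- The linear coefficient of `X² + a X + b`. -/
theorem coeff_one_quadratic' {R : Type} [CommRing R] (a b : R) :
    (X ^ 2 + C a * X + C b : R[X]).coeff 1 = a := by
  simp [coeff_X_pow, coeff_C]

/-! ## ST-GAL for a representation -/

section Rep

variable {𝒪' : Type} [CommRing 𝒪'] [IsDomain 𝒪'] [IsDiscreteValuationRing 𝒪']
  [IsAdicComplete (maximalIdeal 𝒪') 𝒪'] [Finite (ResidueField 𝒪')] [CharZero 𝒪']

/-- **ST-GAL, representation form.**  A `lam`-adic representation `ρ'` with the Frobenius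
characteristic polynomials of a newform `g` of level `M` outside a finite set `B` of primes has
Frobenius trace `± (q + 1)` at every prime `q ≠ lam` with `q ∥ M`. -/
theorem stGal_rep (hS35 : S35Statement)
    {M : ℕ} [NeZero M] {g : CuspForm (CongruenceSubgroup.Gamma0 M) 2} (hg : g.IsNewform)
    (lam : ℕ) [Fact lam.Prime] (hlam : (lam : 𝒪') ∈ maximalIdeal 𝒪')
    (S' : Finset ℕ) (hlamS : lam ∈ S') (hMS : ∀ q : ℕ, q.Prime → q ∣ M → q ∈ S')
    (chig : CuspForm.heckeAlgebra M 2 (↑S' : Set ℕ) →+* ℂ)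
    (hchig : ∀ (ℓ : ℕ) (hℓ : ℓ.Prime) (hℓM : ¬ ℓ ∣ M) (hℓS : ℓ ∉ (↑S' : Set ℕ)),
      chig (CuspForm.heckeAlgebra.T hℓ hℓM hℓS) = ModularFormClass.qCoeff g ℓ)
    (iota : chig.range →+* 𝒪')
    (ρ' : GaloisRepAdic 𝒪') (B : Finset ℕ)
    (hρ' : ∀ (ℓ : ℕ) (hℓ : ℓ.Prime) (hℓM : ¬ ℓ ∣ M) (hℓS : ℓ ∉ (↑S' : Set ℕ)), ℓ ∉ B →
      ∀ A : ValuationSubring Qb, A.LiesOverPrime ℓ → ∀ σ : GQ, A.IsFrobeniusAt σ ℓ →
        LinearMap.charpoly (ρ'.ρ σ) =
          X ^ 2 - C (iota (chig.rangeRestrict (CuspForm.heckeAlgebra.T hℓ hℓM hℓS))) * X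
            + C ((ℓ : 𝒪')))
    (q : ℕ) (hq : q.Prime) (hqlam : q ≠ lam) (hqM : q ∣ M) (hq2 : ¬ q ^ 2 ∣ M)
    (P : ValuationSubring Qb) (hP : P.LiesOverPrime q) (φ : GQ) (hφ : P.IsFrobeniusAt φ q) :
    ρ'.trace φ = (q : 𝒪') + 1 ∨ ρ'.trace φ = -((q : 𝒪') + 1) := by
  obtain ⟨O'', i1, i2, i3, i4, i5, i6, i7, i8, i9, hinj, ρg, hρg, hρq⟩ :=
    hS35 hg lam S' 𝒪' hlam chig hchig iota hlamS hMS
  -- the base change of `ρ'` to `O''`
  set ρ₁ : GaloisRepAdic O'' := ρ'.baseChangeAlong (algebraMap 𝒪' O'') i9 with hρ₁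
  -- the two representations have the same Frobenius characteristic polynomials outside
  -- `S' ∪ B ∪ primeFactors M`
  have hcmp : ∀ σ : GQ, LinearMap.charpoly (ρ₁.ρ σ) = LinearMap.charpoly (ρg.ρ σ) := by
    refine chebCharpolyAux O'' ρ₁ ρg (S' ∪ B ∪ M.primeFactors) ?_
    intro ℓ hℓ hℓT A hA σ hσ
    have hℓS : ℓ ∉ (↑S' : Set ℕ) := fun h => hℓT (by
      simp only [Finset.mem_union]; exact Or.inl (Or.inl (Finset.mem_coe.mp h)))
    have hℓB : ℓ ∉ B := fun h => hℓT (by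
      simp only [Finset.mem_union]; exact Or.inl (Or.inr h))
    have hℓM : ¬ ℓ ∣ M := fun h => hℓT (by
      simp only [Finset.mem_union]
      exact Or.inr (Nat.mem_primeFactors.mpr ⟨hℓ, h, NeZero.ne M⟩))
    rw [hρ₁, charpoly_baseChangeAlong_h113, hρ' ℓ hℓ hℓM hℓS hℓB A hA σ hσ,
      hρg ℓ hℓ hℓM hℓS A hA σ hσ]
    simp only [Polynomial.map_add, Polynomial.map_sub, Polynomial.map_mul, Polynomial.map_pow,
      Polynomial.map_X, Polynomial.map_C, Polynomial.map_natCast, map_natCast,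
      RingHom.comp_apply]
  -- at `q`
  have h1 : algebraMap 𝒪' O'' (ρ'.trace φ) = -(LinearMap.charpoly (ρg.ρ φ)).coeff 1 := by
    rw [← hcmp φ, ← trace_eq_neg_coeff_one, hρ₁, trace_baseChangeAlong_h113]
  rcases hρq q hq hqlam hqM hq2 P hP φ hφ with h | h
  · left
    apply hinj
    rw [h1, h, coeff_one_quadratic, neg_neg, map_add, map_natCast, map_one]
  · right
    apply hinj
    rw [h1, h, coeff_one_quadratic', map_neg, map_add, map_natCast, map_one]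
where
  /-- `S58.H93.chebCharpoly` with explicit instance arguments. -/
  chebCharpolyAux (O : Type) [CommRing O] [IsDomain O] [IsDiscreteValuationRing O]
      [IsAdicComplete (IsLocalRing.maximalIdeal O) O] [Finite (IsLocalRing.ResidueField O)]
      (ρ₁ ρ₂ : GaloisRepAdic O) (T : Finset ℕ)
      (h : ∀ ℓ : ℕ, ℓ.Prime → ℓ ∉ T → ∀ A : ValuationSubring Qb, A.LiesOverPrime ℓ →
        ∀ σ : GQ, A.IsFrobeniusAt σ ℓ →
          LinearMap.charpoly (ρ₁.ρ σ) = LinearMap.charpoly (ρ₂.ρ σ)) :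
      ∀ σ : GQ, LinearMap.charpoly (ρ₁.ρ σ) = LinearMap.charpoly (ρ₂.ρ σ) :=
    Fermat.Agent.S58.H93.chebCharpoly O ρ₁ ρ₂ T h

end Rep

/-! ## ST-GAL for a point of a Hecke–Galois datum -/

section Point

variable {N : ℕ} [NeZero N] {Sig : Finset ℕ}
  {𝒪 : Type} [CommRing 𝒪] [IsDomain 𝒪] [IsDiscreteValuationRing 𝒪]
  [IsAdicComplete (maximalIdeal 𝒪) 𝒪]
  {θ : CuspForm.heckeAlgebra N 2 (↑Sig : Set ℕ) →+* ResidueField 𝒪}
  {T : Type} [CommRing T] [IsLocalRing T] [IsNoetherianRing T]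
  [IsAdicComplete (maximalIdeal T) T] [Algebra 𝒪 T] [IsLocalHom (algebraMap 𝒪 T)]
  [Module.Finite 𝒪 T] [Module.Free 𝒪 T]
  {𝒪' : Type} [CommRing 𝒪'] [IsDomain 𝒪'] [IsDiscreteValuationRing 𝒪']
  [IsAdicComplete (maximalIdeal 𝒪') 𝒪'] [Finite (ResidueField 𝒪')] [CharZero 𝒪']

/-- **ST-GAL, trace form.**  At a characteristic-zero point `x` of a Hecke–Galois datum whose
eigensystem is that of a newform `g` of level `M` (outside a finite set `B` of primes), the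
Frobenius traces at a prime `q ≠ lam`, `q ∥ M`, are `± (q + 1)`. -/
theorem stGal_trace (hS35 : S35Statement)
    (H : CuspForm.HeckeGaloisRepDatum N (↑Sig : Set ℕ) 𝒪 θ T)
    (x : T →+* 𝒪') (hx : IsLocalHom x)
    {M : ℕ} [NeZero M] {g : CuspForm (CongruenceSubgroup.Gamma0 M) 2} (hg : g.IsNewform)
    (lam : ℕ) [Fact lam.Prime] (hlam : (lam : 𝒪') ∈ maximalIdeal 𝒪')
    (S' : Finset ℕ) (hlamS : lam ∈ S') (hMS : ∀ q : ℕ, q.Prime → q ∣ M → q ∈ S')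
    (chig : CuspForm.heckeAlgebra M 2 (↑S' : Set ℕ) →+* ℂ)
    (hchig : ∀ (ℓ : ℕ) (hℓ : ℓ.Prime) (hℓM : ¬ ℓ ∣ M) (hℓS : ℓ ∉ (↑S' : Set ℕ)),
      chig (CuspForm.heckeAlgebra.T hℓ hℓM hℓS) = ModularFormClass.qCoeff g ℓ)
    (iota : chig.range →+* 𝒪') (B : Finset ℕ)
    (hcompat : ∀ (ℓ : ℕ) (hℓ : ℓ.Prime) (hℓN : ¬ ℓ ∣ N) (hℓSig : ℓ ∉ (↑Sig : Set ℕ))
      (hℓM : ¬ ℓ ∣ M) (hℓS : ℓ ∉ (↑S' : Set ℕ)), ℓ ∉ B →
      x (H.π (CuspForm.heckeAlgebra.T hℓ hℓN hℓSig)) =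
        iota (chig.rangeRestrict (CuspForm.heckeAlgebra.T hℓ hℓM hℓS)))
    (q : ℕ) (hq : q.Prime) (hqlam : q ≠ lam) (hqM : q ∣ M) (hq2 : ¬ q ^ 2 ∣ M)
    (P : ValuationSubring Qb) (hP : P.LiesOverPrime q) (φ : GQ) (hφ : P.IsFrobeniusAt φ q) :
    x (H.ρ.trace φ) = (q : 𝒪') + 1 ∨ x (H.ρ.trace φ) = -((q : 𝒪') + 1) := by
  have key := stGal_rep hS35 hg lam hlam S' hlamS hMS chig hchig iota
    (H.ρ.baseChangeAlong x hx) (B ∪ Sig ∪ N.primeFactors) ?_ q hq hqlam hqM hq2 P hP φ hφ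
  · rwa [trace_baseChangeAlong_h113] at key
  · intro ℓ hℓ hℓM hℓS hℓB A hA σ hσ
    have hℓB' : ℓ ∉ B := fun h => hℓB (by
      simp only [Finset.mem_union]; exact Or.inl (Or.inl h))
    have hℓSig : ℓ ∉ (↑Sig : Set ℕ) := fun h => hℓB (by
      simp only [Finset.mem_union]; exact Or.inl (Or.inr (Finset.mem_coe.mp h)))
    have hℓN : ¬ ℓ ∣ N := fun h => hℓB (by
      simp only [Finset.mem_union]
      exact Or.inr (Nat.mem_primeFactors.mpr ⟨hℓ, h, NeZero.ne N⟩))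
    rw [charpoly_baseChangeAlong_h113, H.charpoly_frob ℓ hℓ hℓN hℓSig A hA σ hσ,
      ← hcompat ℓ hℓ hℓN hℓSig hℓM hℓS hℓB']
    simp only [Polynomial.map_add, Polynomial.map_sub, Polynomial.map_mul, Polynomial.map_pow,
      Polynomial.map_X, Polynomial.map_C, Polynomial.map_natCast, map_natCast]

/-- **ST-GAL.**  The Steinberg element `h_q = tr ρ(φ)² - (1 + q)²` of a Hecke–Galois datum
vanishes at every characteristic-zero point whose newform has level exactly divisible by `q`. -/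
theorem stGal (hS35 : S35Statement)
    (H : CuspForm.HeckeGaloisRepDatum N (↑Sig : Set ℕ) 𝒪 θ T)
    (x : T →+* 𝒪') (hx : IsLocalHom x)
    {M : ℕ} [NeZero M] {g : CuspForm (CongruenceSubgroup.Gamma0 M) 2} (hg : g.IsNewform)
    (lam : ℕ) [Fact lam.Prime] (hlam : (lam : 𝒪') ∈ maximalIdeal 𝒪')
    (S' : Finset ℕ) (hlamS : lam ∈ S') (hMS : ∀ q : ℕ, q.Prime → q ∣ M → q ∈ S')
    (chig : CuspForm.heckeAlgebra M 2 (↑S' : Set ℕ) →+* ℂ)
    (hchig : ∀ (ℓ : ℕ) (hℓ : ℓ.Prime) (hℓM : ¬ ℓ ∣ M) (hℓS : ℓ ∉ (↑S' : Set ℕ)),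
      chig (CuspForm.heckeAlgebra.T hℓ hℓM hℓS) = ModularFormClass.qCoeff g ℓ)
    (iota : chig.range →+* 𝒪') (B : Finset ℕ)
    (hcompat : ∀ (ℓ : ℕ) (hℓ : ℓ.Prime) (hℓN : ¬ ℓ ∣ N) (hℓSig : ℓ ∉ (↑Sig : Set ℕ))
      (hℓM : ¬ ℓ ∣ M) (hℓS : ℓ ∉ (↑S' : Set ℕ)), ℓ ∉ B →
      x (H.π (CuspForm.heckeAlgebra.T hℓ hℓN hℓSig)) =
        iota (chig.rangeRestrict (CuspForm.heckeAlgebra.T hℓ hℓM hℓS)))
    (q : ℕ) (hq : q.Prime) (hqlam : q ≠ lam) (hqM : q ∣ M) (hq2 : ¬ q ^ 2 ∣ M)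
    (P : ValuationSubring Qb) (hP : P.LiesOverPrime q) (φ : GQ) (hφ : P.IsFrobeniusAt φ q) :
    x (H.ρ.trace φ ^ 2 - ((1 + q : ℕ) : T) ^ 2) = 0 := by
  rw [map_sub, map_pow, map_pow, map_natCast, sub_eq_zero]
  rcases stGal_trace hS35 H x hx hg lam hlam S' hlamS hMS chig hchig iota B hcompat q hq hqlam
    hqM hq2 P hP φ hφ with h | h
  · rw [h]; push_cast; ring
  · rw [h]; push_cast; ring

end Point

end Fermat.Agent.S38.H113

end
-- ===== PACK-END S38/H113/StGal.lean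

-- ===== PACK-BEGIN S38/H113/PointNewform.lean
section






/-!
# Row HARD, leaf (ST): the dictionary **POINT → NEWFORM** and **ST-POINT**   (helper113)

`χ : heckeAlgebra N 2 Sig →+* R` a character of the anemic Hecke algebra of level `N` away from
`Sig ⊇ primes(N)` with values in ANY domain `R` (characteristic `0` or `p`).

* `exists_lift_of_char` (Deligne–Serre lifting, characteristic-free): a subring `R₀ ⊆ ℂ`, a ring
  homomorphism `L : R₀ →+* R` and a normalised eigenform `f` of level `N` with `a_ℓ(f) ∈ R₀` and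
  `L (a_ℓ(f)) = χ (T_ℓ)` for all primes `ℓ ∉ Sig`.
* `OccursAt χ N'` : the eigensystem `χ` occurs at the level `N'` (a character `χ₁` of the Hecke
  algebra of level `N'` with the same values at the `T_ℓ`, `ℓ ∉ Sig`).
* `exists_newform_of_char` : a newform `g` of a level `M ∣ N`, its eigencharacter `chig` and
  `iota : chig.range →+* R` with `iota (chig T_ℓ) = χ (T_ℓ)`; and `χ` occurs at every level `N'`
  with `M ∣ N'`, `N' ∣ N`.
* `exists_newform_of_new` : if `q ∥ N` and `χ` does NOT occur at the level `N / q`, then `q ∥ M`.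
* `stPoint` (**ST-POINT**): for a characteristic-zero point `x` of a Hecke–Galois datum (of any
  level) whose eigensystem is `χ` (of level `N`, `q ∥ N`) and does not occur at level `N / q`:
  `x (tr ρ(φ)² - (1 + q)²) = 0` at every Frobenius `φ` at `q`.   (Frozen S35 as a hypothesis.)
-/

set_option autoImplicit false
set_option linter.style.haveILetI false

open Polynomial IsLocalRing CuspForm CongruenceSubgroup ModularFormClass

namespace Fermat.Agent.S38.H113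

open Fermat.Agent.S58 Fermat.Agent.S58.H94

/-! ## Factoring a character through the range of another -/

section Lift

variable {B R R' : Type*} [CommRing B] [CommRing R] [CommRing R']

/-- If `ker χ' ≤ ker χ` then `χ` factors through the range of `χ'`. -/
noncomputable def rangeLift (χ' : B →+* R') (χ : B →+* R)
    (h : RingHom.ker χ' ≤ RingHom.ker χ) : χ'.range →+* R :=
  RingHom.liftOfRightInverse χ'.rangeRestrict
    (Function.surjInv χ'.rangeRestrict_surjective)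
    (Function.rightInverse_surjInv χ'.rangeRestrict_surjective)
    ⟨χ, by rwa [RingHom.ker_rangeRestrict]⟩

theorem rangeLift_apply (χ' : B →+* R') (χ : B →+* R)
    (h : RingHom.ker χ' ≤ RingHom.ker χ) (b : B) :
    rangeLift χ' χ h (χ'.rangeRestrict b) = χ b :=
  RingHom.liftOfRightInverse_comp_apply _ _ _ _ b

end Lift

/-! ## The lifting lemma -/

section Dict

variable {N : ℕ} [NeZero N] {Sig : Finset ℕ} {R : Type*} [CommRing R] [IsDomain R]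

/-- **Lifting lemma.**  A character of the anemic Hecke algebra with values in a domain is the
reduction, along a ring homomorphism `L` defined on a subring of `ℂ`, of the eigencharacter of
a normalised eigenform of the same level. -/
theorem exists_lift_of_char (χ : heckeAlgebra N 2 (↑Sig : Set ℕ) →+* R) :
    ∃ (R₀ : Subring ℂ) (L : R₀ →+* R) (f : CuspForm (Gamma0 N) 2),
      f.IsNormalizedEigenform ∧
      ∀ (ℓ : ℕ) (hℓ : ℓ.Prime) (hℓN : ¬ ℓ ∣ N) (hℓS : ℓ ∉ (↑Sig : Set ℕ)),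
        ∃ h : qCoeff f ℓ ∈ R₀, L ⟨qCoeff f ℓ, h⟩ = χ (heckeAlgebra.T hℓ hℓN hℓS) := by
  classical
  haveI := Fermat.Agent.Lib.Newform.H863.finiteDimensional_cuspForm N
  haveI : (RingHom.ker χ).IsPrime := RingHom.ker_isPrime χ
  obtain ⟨h, χ', hh, hχ', hker⟩ := Fermat.Agent.S49.exists_eigenvector_ker_le
    (K := ℂ) (V := CuspForm (Gamma0 N) 2)
    ((heckeAlgebra N 2 (↑Sig : Set ℕ)).val.toRingHom) Subtype.val_injective (RingHom.ker χ)
  let lam : ℕ → ℂ := fun ℓ =>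
    if hc : ℓ.Prime ∧ ¬ ℓ ∣ N ∧ ℓ ∉ (↑Sig : Set ℕ) then
      χ' (heckeAlgebra.T hc.1 hc.2.1 hc.2.2) else 0
  have hlam : ∀ (ℓ : ℕ) (hℓ : ℓ.Prime) (hℓN : ¬ ℓ ∣ N) (hℓS : ℓ ∉ (↑Sig : Set ℕ)),
      lam ℓ = χ' (heckeAlgebra.T hℓ hℓN hℓS) := by
    intro ℓ hℓ hℓN hℓS
    simp only [lam, dif_pos (⟨hℓ, hℓN, hℓS⟩ : ℓ.Prime ∧ ¬ ℓ ∣ N ∧ ℓ ∉ (↑Sig : Set ℕ))]
  obtain ⟨f, hf, hfl⟩ := Fermat.Agent.Lib.Newform.H863.exists_normalizedEigenform_of_eigenvector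
    (↑Sig : Set ℕ) lam h hh (fun ℓ hℓ hℓN hℓS => by
      have h1 := hχ' (heckeAlgebra.T hℓ hℓN hℓS)
      rw [hlam ℓ hℓ hℓN hℓS]
      exact h1)
  refine ⟨χ'.range, rangeLift χ' χ hker, f, hf, fun ℓ hℓ hℓN hℓS => ?_⟩
  have e : qCoeff f ℓ = χ' (heckeAlgebra.T hℓ hℓN hℓS) := by
    rw [hfl ℓ hℓ hℓN hℓS, hlam ℓ hℓ hℓN hℓS]
  refine ⟨e ▸ ⟨_, rfl⟩, ?_⟩
  have e2 : (⟨qCoeff f ℓ, e ▸ ⟨_, rfl⟩⟩ : χ'.range)
      = χ'.rangeRestrict (heckeAlgebra.T hℓ hℓN hℓS) := Subtype.ext e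
  rw [e2, rangeLift_apply]

/-- The eigensystem `χ` (of level `N`, away from `Sig`) **occurs at the level `N'`**. -/
def OccursAt (χ : heckeAlgebra N 2 (↑Sig : Set ℕ) →+* R) (N' : ℕ) : Prop :=
  ∃ (_ : NeZero N') (χ₁ : heckeAlgebra N' 2 (↑Sig : Set ℕ) →+* R),
    ∀ (ℓ : ℕ) (hℓ : ℓ.Prime) (hℓN : ¬ ℓ ∣ N) (hℓN' : ¬ ℓ ∣ N') (hℓS : ℓ ∉ (↑Sig : Set ℕ)),
      χ₁ (heckeAlgebra.T hℓ hℓN' hℓS) = χ (heckeAlgebra.T hℓ hℓN hℓS)

omit [IsDomain R] in
/-- A normalised eigenform of level `M'` (primes of `M'` in `Sig`) with coefficients in `R₀`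
away from `Sig` gives a character of the Hecke algebra of level `M'` with values in `R`. -/
theorem exists_char_of_eigenform {M' : ℕ} [NeZero M'] {g : CuspForm (Gamma0 M') 2}
    (hg : g.IsNormalizedEigenform) (hMS : ∀ q : ℕ, q.Prime → q ∣ M' → q ∈ Sig)
    (R₀ : Subring ℂ) (L : R₀ →+* R)
    (hR : ∀ ℓ : ℕ, ℓ.Prime → ¬ ℓ ∣ M' → ℓ ∉ (↑Sig : Set ℕ) → qCoeff g ℓ ∈ R₀) :
    ∃ iota : (chigOf hg (↑Sig : Set ℕ)).range →+* R,
      ∀ (ℓ : ℕ) (hℓ : ℓ.Prime) (hℓM : ¬ ℓ ∣ M') (hℓS : ℓ ∉ (↑Sig : Set ℕ)),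
        iota ((chigOf hg (↑Sig : Set ℕ)).rangeRestrict (heckeAlgebra.T hℓ hℓM hℓS))
          = L ⟨qCoeff g ℓ, hR ℓ hℓ hℓM hℓS⟩ := by
  have hle : (chigOf hg (↑Sig : Set ℕ)).range ≤ R₀ :=
    chigOf_range_le hg (↑Sig : Set ℕ) R₀ hR
      (fun q hq hqM => Finset.mem_coe.mpr (hMS q hq hqM))
  refine ⟨L.comp (Subring.inclusion hle), fun ℓ hℓ hℓM hℓS => ?_⟩
  rw [RingHom.comp_apply]
  congr 1
  apply Subtype.ext
  show chigOf hg (↑Sig : Set ℕ) (heckeAlgebra.T hℓ hℓM hℓS) = qCoeff g ℓ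
  exact chigOf_T hg (↑Sig : Set ℕ) hℓ hℓM hℓS

/-- **POINT → NEWFORM.**  The eigensystem of a character `χ` of the anemic Hecke algebra of
level `N` (away from `Sig ⊇ primes(N)`) is that of a newform `g` of a level `M ∣ N`, along a ring
homomorphism `iota` from the coefficient ring of `g`; and `χ` occurs at every level between
`M` and `N`. -/
theorem exists_newform_of_char (hNS : ∀ q : ℕ, q.Prime → q ∣ N → q ∈ Sig)
    (χ : heckeAlgebra N 2 (↑Sig : Set ℕ) →+* R) :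
    ∃ (M : ℕ) (_ : NeZero M) (_ : M ∣ N) (g : CuspForm (Gamma0 M) 2) (hg : g.IsNewform)
      (iota : (chigOf hg.1 (↑Sig : Set ℕ)).range →+* R),
      (∀ (ℓ : ℕ) (hℓ : ℓ.Prime) (hℓN : ¬ ℓ ∣ N) (hℓM : ¬ ℓ ∣ M) (hℓS : ℓ ∉ (↑Sig : Set ℕ)),
        iota ((chigOf hg.1 (↑Sig : Set ℕ)).rangeRestrict (heckeAlgebra.T hℓ hℓM hℓS))
          = χ (heckeAlgebra.T hℓ hℓN hℓS)) ∧
      ∀ N' : ℕ, M ∣ N' → N' ∣ N → OccursAt χ N' := by
  obtain ⟨R₀, L, f, hf, hfL⟩ := exists_lift_of_char χ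
  obtain ⟨M, hMN, g, hg, hgf⟩ := Fermat.Agent.Lib.Newform.descent N f hf
  have hM0 : M ≠ 0 := fun h0 => NeZero.ne N (by rw [h0] at hMN; exact zero_dvd_iff.mp hMN)
  haveI : NeZero M := ⟨hM0⟩
  -- primes not in `Sig` do not divide `N`
  have hSN : ∀ ℓ : ℕ, ℓ.Prime → ℓ ∉ (↑Sig : Set ℕ) → ¬ ℓ ∣ N := fun ℓ hℓ hℓS hℓN =>
    hℓS (Finset.mem_coe.mpr (hNS ℓ hℓ hℓN))
  have hMS : ∀ q : ℕ, q.Prime → q ∣ M → q ∈ Sig := fun q hq hqM =>
    hNS q hq (hqM.trans hMN)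
  have hR : ∀ ℓ : ℕ, ℓ.Prime → ¬ ℓ ∣ M → ℓ ∉ (↑Sig : Set ℕ) → qCoeff g ℓ ∈ R₀ := by
    intro ℓ hℓ _ hℓS
    rw [hgf ℓ hℓ (hSN ℓ hℓ hℓS)]
    exact (hfL ℓ hℓ (hSN ℓ hℓ hℓS) hℓS).1
  obtain ⟨iota, hiota⟩ := exists_char_of_eigenform hg.1 hMS R₀ L hR
  refine ⟨M, inferInstance, hMN, g, hg, iota, fun ℓ hℓ hℓN hℓM hℓS => ?_, ?_⟩
  · rw [hiota ℓ hℓ hℓM hℓS]
    obtain ⟨h1, h2⟩ := hfL ℓ hℓ hℓN hℓS
    rw [← h2]
    congr 1
    exact Subtype.ext (hgf ℓ hℓ hℓN)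
  · intro N' hMN' hN'N
    have hN'0 : N' ≠ 0 := fun h0 => NeZero.ne N (by rw [h0] at hN'N; exact zero_dvd_iff.mp hN'N)
    haveI : NeZero N' := ⟨hN'0⟩
    obtain ⟨g', hg', hg'g⟩ := Fermat.Agent.Lib.Newform.stab M N' hMN' g hg.1
    have hN'S : ∀ q : ℕ, q.Prime → q ∣ N' → q ∈ Sig := fun q hq hqN' =>
      hNS q hq (hqN'.trans hN'N)
    have hR' : ∀ ℓ : ℕ, ℓ.Prime → ¬ ℓ ∣ N' → ℓ ∉ (↑Sig : Set ℕ) → qCoeff g' ℓ ∈ R₀ := by
      intro ℓ hℓ hℓN' hℓS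
      rw [hg'g ℓ hℓ hℓN', hgf ℓ hℓ (hSN ℓ hℓ hℓS)]
      exact (hfL ℓ hℓ (hSN ℓ hℓ hℓS) hℓS).1
    obtain ⟨iota', hiota'⟩ := exists_char_of_eigenform hg' hN'S R₀ L hR'
    refine ⟨inferInstance, iota'.comp (chigOf hg' (↑Sig : Set ℕ)).rangeRestrict,
      fun ℓ hℓ hℓN hℓN' hℓS => ?_⟩
    rw [RingHom.comp_apply, hiota' ℓ hℓ hℓN' hℓS]
    obtain ⟨h1, h2⟩ := hfL ℓ hℓ hℓN hℓS
    rw [← h2]
    congr 1
    exact Subtype.ext ((hg'g ℓ hℓ hℓN').trans (hgf ℓ hℓ hℓN))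

/-- **POINT → NEWFORM, `q`-new case.**  If `q ∥ N` and the eigensystem `χ` does not occur at the
level `N / q`, then the level `M` of its newform satisfies `q ∥ M`. -/
theorem exists_newform_of_new (hNS : ∀ q : ℕ, q.Prime → q ∣ N → q ∈ Sig)
    (χ : heckeAlgebra N 2 (↑Sig : Set ℕ) →+* R)
    (q : ℕ) (hq : q.Prime) (hqN : q ∣ N) (hq2 : ¬ q ^ 2 ∣ N) (hnew : ¬ OccursAt χ (N / q)) :
    ∃ (M : ℕ) (_ : NeZero M) (_ : M ∣ N) (g : CuspForm (Gamma0 M) 2) (hg : g.IsNewform)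
      (iota : (chigOf hg.1 (↑Sig : Set ℕ)).range →+* R),
      (∀ (ℓ : ℕ) (hℓ : ℓ.Prime) (hℓN : ¬ ℓ ∣ N) (hℓM : ¬ ℓ ∣ M) (hℓS : ℓ ∉ (↑Sig : Set ℕ)),
        iota ((chigOf hg.1 (↑Sig : Set ℕ)).rangeRestrict (heckeAlgebra.T hℓ hℓM hℓS))
          = χ (heckeAlgebra.T hℓ hℓN hℓS)) ∧
      q ∣ M ∧ ¬ q ^ 2 ∣ M := by
  obtain ⟨M, hM, hMN, g, hg, iota, hiota, hocc⟩ := exists_newform_of_char hNS χ
  refine ⟨M, hM, hMN, g, hg, iota, hiota, ?_, fun h => hq2 (h.trans hMN)⟩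
  by_contra hqM
  apply hnew
  apply hocc (N / q) ?_ (Nat.div_dvd_of_dvd hqN)
  -- `M ∣ N = q * (N / q)` and `q ∤ M`
  have hcop : Nat.Coprime M q := (Nat.Coprime.symm ((Nat.Prime.coprime_iff_not_dvd hq).mpr hqM))
  have : M ∣ q * (N / q) := by rwa [Nat.mul_div_cancel' hqN]
  exact hcop.dvd_of_dvd_mul_left this

end Dict

/-! ## ST-POINT -/

section Point

variable {N₀ : ℕ} [NeZero N₀] {Sig₀ : Finset ℕ}
  {𝒪 : Type} [CommRing 𝒪] [IsDomain 𝒪] [IsDiscreteValuationRing 𝒪]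
  [IsAdicComplete (maximalIdeal 𝒪) 𝒪]
  {θ : CuspForm.heckeAlgebra N₀ 2 (↑Sig₀ : Set ℕ) →+* ResidueField 𝒪}
  {T : Type} [CommRing T] [IsLocalRing T] [IsNoetherianRing T]
  [IsAdicComplete (maximalIdeal T) T] [Algebra 𝒪 T] [IsLocalHom (algebraMap 𝒪 T)]
  [Module.Finite 𝒪 T] [Module.Free 𝒪 T]
  {𝒪' : Type} [CommRing 𝒪'] [IsDomain 𝒪'] [IsDiscreteValuationRing 𝒪']
  [IsAdicComplete (maximalIdeal 𝒪') 𝒪'] [Finite (ResidueField 𝒪')] [CharZero 𝒪']

/-- **ST-POINT.**  `H` a Hecke–Galois datum (level `N₀`, away from `Sig₀`), `x` a point of it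
with values in a complete DVR `𝒪'` of characteristic `0` and residue characteristic `lam`.
Suppose the eigensystem of `x` is a character `χ` of the Hecke algebra of a level `N` with
`q ∥ N` (away from `Sig ⊇ primes(N) ∪ {lam}`; compatibility at all primes outside a finite set
`B`), which does NOT occur at the level `N / q`.  Then the Steinberg element
`tr ρ(φ)² - (1 + q)²` vanishes at `x`, for every Frobenius `φ` at every place over `q ≠ lam`. -/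
theorem stPoint (hS35 : S35Statement)
    (H : CuspForm.HeckeGaloisRepDatum N₀ (↑Sig₀ : Set ℕ) 𝒪 θ T)
    (x : T →+* 𝒪') (hx : IsLocalHom x)
    (lam : ℕ) [Fact lam.Prime] (hlam : (lam : 𝒪') ∈ maximalIdeal 𝒪')
    {N : ℕ} [NeZero N] {Sig : Finset ℕ} (hlamS : lam ∈ Sig)
    (hNS : ∀ q : ℕ, q.Prime → q ∣ N → q ∈ Sig)
    (χ : heckeAlgebra N 2 (↑Sig : Set ℕ) →+* 𝒪') (B : Finset ℕ)
    (hcompat : ∀ (ℓ : ℕ) (hℓ : ℓ.Prime) (hℓN₀ : ¬ ℓ ∣ N₀) (hℓSig₀ : ℓ ∉ (↑Sig₀ : Set ℕ))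
      (hℓN : ¬ ℓ ∣ N) (hℓS : ℓ ∉ (↑Sig : Set ℕ)), ℓ ∉ B →
      x (H.π (heckeAlgebra.T hℓ hℓN₀ hℓSig₀)) = χ (heckeAlgebra.T hℓ hℓN hℓS))
    (q : ℕ) (hq : q.Prime) (hqlam : q ≠ lam) (hqN : q ∣ N) (hq2 : ¬ q ^ 2 ∣ N)
    (hnew : ¬ OccursAt χ (N / q))
    (P : ValuationSubring Qb) (hP : P.LiesOverPrime q) (φ : GQ) (hφ : P.IsFrobeniusAt φ q) :
    x (H.ρ.trace φ ^ 2 - ((1 + q : ℕ) : T) ^ 2) = 0 := by
  obtain ⟨M, hM, hMN, g, hg, iota, hiota, hqM, hqM2⟩ :=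
    exists_newform_of_new hNS χ q hq hqN hq2 hnew
  have hMS : ∀ r : ℕ, r.Prime → r ∣ M → r ∈ Sig := fun r hr hrM => hNS r hr (hrM.trans hMN)
  refine stGal hS35 H x hx hg lam hlam Sig hlamS hMS (chigOf hg.1 (↑Sig : Set ℕ))
    (fun ℓ hℓ hℓM hℓS => chigOf_T hg.1 (↑Sig : Set ℕ) hℓ hℓM hℓS) iota B ?_
    q hq hqlam hqM hqM2 P hP φ hφ
  intro ℓ hℓ hℓN₀ hℓSig₀ hℓM hℓS hℓB
  have hℓN : ¬ ℓ ∣ N := fun h => hℓS (Finset.mem_coe.mpr (hNS ℓ hℓ h))
  rw [hcompat ℓ hℓ hℓN₀ hℓSig₀ hℓN hℓS hℓB, hiota ℓ hℓ hℓN hℓM hℓS]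

end Point

end Fermat.Agent.S38.H113

end
-- ===== PACK-END S38/H113/PointNewform.lean

-- ===== PACK-BEGIN S38/H53/STUq.lean
section



/-!
# Row HARD, cell HECKE, leaf (ST): the consumer form **ST-UQ**   (helper53, squad S55/S53)

Clause (ST) of `S38.IA.HasIAModule` needs: the Steinberg element
`h_q = tr ρ(φ_q)² - (1 + q)²` KILLS the trivial-character module `M¹_Q`.

The Betti side knows `U_q² = 1` on `M¹_Q` (both traces to the level `L / q` vanish on the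
localized module by (MIN) + control).  This file turns exactly this information into the
vanishing of `h_q` at the points of the Hecke algebra:

* `stUq_rep` : `g` a normalized eigenform of level `N`, `q ∥ N`, `q ≠ lam`, `a_q(g)² = 1`;
  `ρ'` a `lam`-adic representation with the Frobenius characteristic polynomials
  `X² - j(a_ℓ(g)) X + ℓ` outside a finite set.  Then `tr ρ'(φ) = ± (q + 1)` for EVERY Frobenius
  `φ` at `q`.
* `stUq` : the same at a characteristic-zero point `x` of a Hecke–Galois datum (of ANY level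
  `N₀`, e.g. `wilesLevel` with `q²`): `x (tr ρ(φ)² - (1 + q)²) = 0`.
* `IsUqPoint`, `st_kills_of_supp` : module form.  If a `T`-module `M` is supported on points of
  this kind (`hsupp`), then `tr ρ(φ)² - (1 + q)²` kills `M`.

Inputs: frozen S35 (as the hypothesis `S58.S35Statement`), `H113.stGal` (S35 + Chebotarev),
`H53.isNewformAt_of_qCoeff_sq_eq_one` (`a_q² = 1 ⟹ new at q`, strict trivial bound).
No hypothesis "the eigensystem does not occur at level `N / q`" is needed from the consumer.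
-/

set_option autoImplicit false

open Polynomial IsLocalRing CuspForm CongruenceSubgroup ModularFormClass

namespace Fermat.Agent.S38.H53

open Fermat.Agent.S58 Fermat.Agent.S58.H94 Fermat.Agent.S38.H113

section Rep

variable {𝒪' : Type} [CommRing 𝒪'] [IsDomain 𝒪'] [IsDiscreteValuationRing 𝒪']
  [IsAdicComplete (maximalIdeal 𝒪') 𝒪'] [Finite (ResidueField 𝒪')] [CharZero 𝒪']

/-- **ST-UQ, representation form.** -/
theorem stUq_rep (hS35 : S35Statement)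
    (lam : ℕ) [Fact lam.Prime] (hlam : (lam : 𝒪') ∈ maximalIdeal 𝒪')
    {N : ℕ} [NeZero N] {g : CuspForm (Gamma0 N) 2} (hg : g.IsNormalizedEigenform)
    (Sig : Finset ℕ) (hlamS : lam ∈ Sig) (hNS : ∀ r : ℕ, r.Prime → r ∣ N → r ∈ Sig)
    (R : Subring ℂ) (j : R →+* 𝒪')
    (hR : ∀ ℓ : ℕ, ℓ.Prime → ℓ ∉ (↑Sig : Set ℕ) → qCoeff g ℓ ∈ R)
    (ρ' : GaloisRepAdic 𝒪') (B : Finset ℕ)
    (hρ' : ∀ (ℓ : ℕ) (hℓ : ℓ.Prime) (hℓS : ℓ ∉ (↑Sig : Set ℕ)), ℓ ∉ B →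
      ∀ A : ValuationSubring Qb, A.LiesOverPrime ℓ → ∀ σ : GQ, A.IsFrobeniusAt σ ℓ →
        LinearMap.charpoly (ρ'.ρ σ) =
          X ^ 2 - C (j ⟨qCoeff g ℓ, hR ℓ hℓ hℓS⟩) * X + C ((ℓ : 𝒪')))
    (q : ℕ) (hq : q.Prime) (hqlam : q ≠ lam) (hqN : q ∣ N) (hq2 : ¬ q ^ 2 ∣ N)
    (ha : qCoeff g q ^ 2 = 1)
    (P : ValuationSubring Qb) (hP : P.LiesOverPrime q) (φ : GQ) (hφ : P.IsFrobeniusAt φ q) :
    ρ'.trace φ = (q : 𝒪') + 1 ∨ ρ'.trace φ = -((q : 𝒪') + 1) := by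
  obtain ⟨M, hM, hMN, G, hG, hqM, hqM2, hGg⟩ :=
    exists_newform_of_isNewformAt hq hq2 (isNewformAt_of_qCoeff_sq_eq_one hq hqN hq2 hg ha)
  have hSN : ∀ ℓ : ℕ, ℓ.Prime → ℓ ∉ (↑Sig : Set ℕ) → ¬ ℓ ∣ N := fun ℓ hℓ hℓS hℓN =>
    hℓS (Finset.mem_coe.mpr (hNS ℓ hℓ hℓN))
  have hMS : ∀ r : ℕ, r.Prime → r ∣ M → r ∈ Sig := fun r hr hrM => hNS r hr (hrM.trans hMN)
  have hR' : ∀ ℓ : ℕ, ℓ.Prime → ¬ ℓ ∣ M → ℓ ∉ (↑Sig : Set ℕ) → qCoeff G ℓ ∈ R := by
    intro ℓ hℓ _ hℓS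
    rw [hGg ℓ hℓ (hSN ℓ hℓ hℓS)]
    exact hR ℓ hℓ hℓS
  obtain ⟨iota, hiota⟩ := exists_char_of_eigenform hG.1 hMS R j hR'
  refine stGal_rep hS35 hG lam hlam Sig hlamS hMS (chigOf hG.1 (↑Sig : Set ℕ))
    (fun ℓ hℓ hℓM hℓS => chigOf_T hG.1 (↑Sig : Set ℕ) hℓ hℓM hℓS) iota ρ' B ?_
    q hq hqlam hqM hqM2 P hP φ hφ
  intro ℓ hℓ hℓM hℓS hℓB A hA σ hσ
  have e : (⟨qCoeff g ℓ, hR ℓ hℓ hℓS⟩ : R) = ⟨qCoeff G ℓ, hR' ℓ hℓ hℓM hℓS⟩ :=
    Subtype.ext (hGg ℓ hℓ (hSN ℓ hℓ hℓS)).symm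
  rw [hρ' ℓ hℓ hℓS hℓB A hA σ hσ, hiota ℓ hℓ hℓM hℓS, e]

end Rep

section Point

variable {N₀ : ℕ} [NeZero N₀] {Sig₀ : Finset ℕ}
  {𝒪 : Type} [CommRing 𝒪] [IsDomain 𝒪] [IsDiscreteValuationRing 𝒪]
  [IsAdicComplete (maximalIdeal 𝒪) 𝒪]
  {θ : CuspForm.heckeAlgebra N₀ 2 (↑Sig₀ : Set ℕ) →+* ResidueField 𝒪}
  {T : Type} [CommRing T] [IsLocalRing T] [IsNoetherianRing T]
  [IsAdicComplete (maximalIdeal T) T] [Algebra 𝒪 T] [IsLocalHom (algebraMap 𝒪 T)]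
  [Module.Finite 𝒪 T] [Module.Free 𝒪 T]

/-- **ST-UQ.**  `H` a Hecke–Galois datum (level `N₀`, away from `Sig₀`), `x` a point of it with
values in a complete DVR `𝒪'` of characteristic `0` and residue characteristic `lam`.  Suppose
the eigensystem of `x` is that of a normalized eigenform `g` of a level `N` with `q ∥ N`
(`x (T_ℓ) = j (a_ℓ(g))` for the primes `ℓ` outside `Sig₀ ∪ Sig ∪ B`, `j` a ring homomorphism
defined on a subring of `ℂ` containing these `a_ℓ(g)`), and that `a_q(g)² = 1`.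
Then the Steinberg element `tr ρ(φ)² - (1 + q)²` vanishes at `x`, for every Frobenius `φ` at
every place over `q ≠ lam`. -/
theorem stUq (hS35 : S35Statement)
    (H : CuspForm.HeckeGaloisRepDatum N₀ (↑Sig₀ : Set ℕ) 𝒪 θ T)
    {𝒪' : Type} [CommRing 𝒪'] [IsDomain 𝒪'] [IsDiscreteValuationRing 𝒪']
    [IsAdicComplete (maximalIdeal 𝒪') 𝒪'] [Finite (ResidueField 𝒪')] [CharZero 𝒪']
    (x : T →+* 𝒪') (hx : IsLocalHom x)
    (lam : ℕ) [Fact lam.Prime] (hlam : (lam : 𝒪') ∈ maximalIdeal 𝒪')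
    {N : ℕ} [NeZero N] {g : CuspForm (Gamma0 N) 2} (hg : g.IsNormalizedEigenform)
    (Sig : Finset ℕ) (hlamS : lam ∈ Sig) (hNS : ∀ r : ℕ, r.Prime → r ∣ N → r ∈ Sig)
    (R : Subring ℂ) (j : R →+* 𝒪')
    (hR : ∀ ℓ : ℕ, ℓ.Prime → ℓ ∉ (↑Sig : Set ℕ) → qCoeff g ℓ ∈ R) (B : Finset ℕ)
    (hcompat : ∀ (ℓ : ℕ) (hℓ : ℓ.Prime) (hℓN₀ : ¬ ℓ ∣ N₀) (hℓSig₀ : ℓ ∉ (↑Sig₀ : Set ℕ))
      (hℓS : ℓ ∉ (↑Sig : Set ℕ)), ℓ ∉ B →
      x (H.π (heckeAlgebra.T hℓ hℓN₀ hℓSig₀)) = j ⟨qCoeff g ℓ, hR ℓ hℓ hℓS⟩)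
    (q : ℕ) (hq : q.Prime) (hqlam : q ≠ lam) (hqN : q ∣ N) (hq2 : ¬ q ^ 2 ∣ N)
    (ha : qCoeff g q ^ 2 = 1)
    (P : ValuationSubring Qb) (hP : P.LiesOverPrime q) (φ : GQ) (hφ : P.IsFrobeniusAt φ q) :
    x (H.ρ.trace φ ^ 2 - ((1 + q : ℕ) : T) ^ 2) = 0 := by
  have key := stUq_rep hS35 lam hlam hg Sig hlamS hNS R j hR (H.ρ.baseChangeAlong x hx)
    (B ∪ Sig₀ ∪ N₀.primeFactors) ?_ q hq hqlam hqN hq2 ha P hP φ hφ
  · rw [trace_baseChangeAlong_h113] at key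
    rw [map_sub, map_pow, map_pow, map_natCast, sub_eq_zero]
    rcases key with h | h
    · rw [h]; push_cast; ring
    · rw [h]; push_cast; ring
  · intro ℓ hℓ hℓS hℓB A hA σ hσ
    have hℓB' : ℓ ∉ B := fun h => hℓB (by
      simp only [Finset.mem_union]; exact Or.inl (Or.inl h))
    have hℓSig₀ : ℓ ∉ (↑Sig₀ : Set ℕ) := fun h => hℓB (by
      simp only [Finset.mem_union]; exact Or.inl (Or.inr (Finset.mem_coe.mp h)))
    have hℓN₀ : ¬ ℓ ∣ N₀ := fun h => hℓB (by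
      simp only [Finset.mem_union]
      exact Or.inr (Nat.mem_primeFactors.mpr ⟨hℓ, h, NeZero.ne N₀⟩))
    rw [charpoly_baseChangeAlong_h113, H.charpoly_frob ℓ hℓ hℓN₀ hℓSig₀ A hA σ hσ,
      ← hcompat ℓ hℓ hℓN₀ hℓSig₀ hℓS hℓB']
    simp only [Polynomial.map_add, Polynomial.map_sub, Polynomial.map_mul, Polynomial.map_pow,
      Polynomial.map_X, Polynomial.map_C, Polynomial.map_natCast, map_natCast]

/-- **`U_q`-points.**  A characteristic-zero point `x` of the datum `H` is a `U_q`-point (for the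
residue characteristic `lam`) if its eigensystem is that of a normalized eigenform `g` of some
level `N` with `q ∥ N` and `a_q(g)² = 1`. -/
def IsUqPoint (H : CuspForm.HeckeGaloisRepDatum N₀ (↑Sig₀ : Set ℕ) 𝒪 θ T) (lam q : ℕ)
    {𝒪' : Type} [CommRing 𝒪'] (x : T →+* 𝒪') : Prop :=
  ∃ (N : ℕ) (_ : NeZero N) (g : CuspForm (Gamma0 N) 2) (Sig : Finset ℕ) (R : Subring ℂ)
    (j : R →+* 𝒪') (hR : ∀ ℓ : ℕ, ℓ.Prime → ℓ ∉ (↑Sig : Set ℕ) → qCoeff g ℓ ∈ R)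
    (B : Finset ℕ),
    g.IsNormalizedEigenform ∧ lam ∈ Sig ∧ (∀ r : ℕ, r.Prime → r ∣ N → r ∈ Sig) ∧
    (∀ (ℓ : ℕ) (hℓ : ℓ.Prime) (hℓN₀ : ¬ ℓ ∣ N₀) (hℓSig₀ : ℓ ∉ (↑Sig₀ : Set ℕ))
      (hℓS : ℓ ∉ (↑Sig : Set ℕ)), ℓ ∉ B →
      x (H.π (heckeAlgebra.T hℓ hℓN₀ hℓSig₀)) = j ⟨qCoeff g ℓ, hR ℓ hℓ hℓS⟩) ∧
    q ∣ N ∧ ¬ q ^ 2 ∣ N ∧ qCoeff g q ^ 2 = 1

/-- The Steinberg element vanishes at every `U_q`-point. -/
theorem stUq_of_isUqPoint (hS35 : S35Statement)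
    (H : CuspForm.HeckeGaloisRepDatum N₀ (↑Sig₀ : Set ℕ) 𝒪 θ T)
    {𝒪' : Type} [CommRing 𝒪'] [IsDomain 𝒪'] [IsDiscreteValuationRing 𝒪']
    [IsAdicComplete (maximalIdeal 𝒪') 𝒪'] [Finite (ResidueField 𝒪')] [CharZero 𝒪']
    (x : T →+* 𝒪') (hx : IsLocalHom x)
    (lam : ℕ) [Fact lam.Prime] (hlam : (lam : 𝒪') ∈ maximalIdeal 𝒪')
    (q : ℕ) (hq : q.Prime) (hqlam : q ≠ lam) (hpt : IsUqPoint H lam q x)
    (P : ValuationSubring Qb) (hP : P.LiesOverPrime q) (φ : GQ) (hφ : P.IsFrobeniusAt φ q) :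
    x (H.ρ.trace φ ^ 2 - ((1 + q : ℕ) : T) ^ 2) = 0 := by
  obtain ⟨N, hN, g, Sig, R, j, hR, B, hg, hlamS, hNS, hcompat, hqN, hq2, ha⟩ := hpt
  exact stUq hS35 H x hx lam hlam hg Sig hlamS hNS R j hR B hcompat q hq hqlam hqN hq2 ha
    P hP φ hφ

/-- **(ST) on the trivial-character module.**  If the `T`-module `M` is supported on the
`U_q`-points of the datum (`hsupp`: an element of `T` vanishing at all of them kills `M`), then
the Steinberg element `tr ρ(φ)² - (1 + q)²` kills `M`, for every Frobenius `φ` at `q`. -/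
theorem st_kills_of_supp (hS35 : S35Statement)
    (H : CuspForm.HeckeGaloisRepDatum N₀ (↑Sig₀ : Set ℕ) 𝒪 θ T)
    (lam : ℕ) [Fact lam.Prime] (q : ℕ) (hq : q.Prime) (hqlam : q ≠ lam)
    {M : Type} [AddCommGroup M] [Module T M]
    (hsupp : ∀ t : T,
      (∀ (𝒪' : Type) [CommRing 𝒪'] [IsDomain 𝒪'] [IsDiscreteValuationRing 𝒪']
          [IsAdicComplete (maximalIdeal 𝒪') 𝒪'] [Finite (ResidueField 𝒪')] [CharZero 𝒪']
          (x : T →+* 𝒪') (_ : IsLocalHom x), (lam : 𝒪') ∈ maximalIdeal 𝒪' →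
          IsUqPoint H lam q x → x t = 0) →
      ∀ m : M, t • m = 0)
    (P : ValuationSubring Qb) (hP : P.LiesOverPrime q) (φ : GQ) (hφ : P.IsFrobeniusAt φ q)
    (m : M) : (H.ρ.trace φ ^ 2 - ((1 + q : ℕ) : T) ^ 2) • m = 0 :=
  hsupp _ (fun _ _ _ _ _ _ _ x hx hlam hpt =>
    stUq_of_isUqPoint hS35 H x hx lam hlam q hq hqlam hpt P hP φ hφ) m

end Point

end Fermat.Agent.S38.H53

end
-- ===== PACK-END S38/H53/STUq.lean

-- ===== PACK-BEGIN S38/H719/CtrlMinFree.lean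
section





/-!
# HARD / HECKE, leaf CTRL-MIN, part (ii-c): (MIN) at level `N'` kills the Taylor–Wiles module of
# level `N' q₁ ⋯ q_r` with `Γ_H`-structure (helper719)

Vocabulary of block M-FREE (`S59/MFree`): `M = N' q₁ ⋯ q_r`, `κ : Γ₀(M) →* D` onto a finite group, trivial on
`{d ≡ 1 mod M}`, `Γ' = ker κ`, `e` an `O`-linear operator on `Hom(Γ', O)` with `MFree.FreeConclusion κ O e`
(the output of `MFree.free`).

* `UK_Gamma0_eq_Uq` : bridge between the two `U_q` on `Hom(Γ₀(M), A)` (`S59.TW.H653.UK`, `S59.H105.Uq`);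
* `IsPartKer κ hΓ1 ϖ Ipr c Qs α x` : the generalized eigen-part of `Hom(Γ', O)` (operators
  `MFree.H587.heckeKerLin`, `TW.H653.UqKerLin`);
* `IsPartKer.cor` : `cor` maps it into the part `IsPart` of `Hom(Γ₀(M), O)`;
* `eH_eq_zero_of_min` : **CTRL-MIN.**  If the `(T_l ≡ c_l)`-part of `Hom(Γ₀(N'), O)` vanishes ((MIN) at level
  `N'`) and `e H` lies in the part `T_l ≡ c_l`, `U_{q_i} ≡ α_i` (`α_i² - 1` units), then `e H = 0`.
-/

set_option autoImplicit false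

namespace Fermat.Agent.S38.H719

open CongruenceSubgroup Matrix.SpecialLinearGroup
open Fermat.Agent.S29.H642 Fermat.Agent.S41 Fermat.Agent.S41.Spec Fermat.Agent.S41.H761
open Fermat.Agent.S59.H105 Fermat.Agent.S59.MFree Fermat.Agent.S59.MFree.H587
open Fermat.Agent.S59.TW.H653
open scoped MatrixGroups

universe u

section Bridge

variable {M q : ℕ} [Fact q.Prime] {A : Type*} [AddCommGroup A]

/-- The two versions of `U_q` on `Hom(Γ₀(M), A)` agree. -/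
theorem UK_Gamma0_eq_Uq (hq : q ∣ M) (ψ : Additive (Gamma0 M) →+ A) :
    UK (Gamma0 M) q ψ = Uq hq ψ := by
  rw [UK_Gamma0_eq hq]
  rfl

end Bridge

section Ker

variable {M : ℕ} {D : Type} [Group D] (κ : Gamma0 M →* D)
variable (hΓ1 : ∀ γ : Gamma0 M, ((((γ : SL(2, ℤ)) 1 1 : ℤ)) : ZMod M) = 1 → κ γ = 1)
variable {O : Type u} [CommRing O]

/-- The generalized eigen-part `T_l ≡ c_l` (`l ∈ Ipr`, `l ∤ M`), `U_q ≡ α_q` (`q ∈ Qs`, `q ∣ M`) of
`Hom(ker κ, O)`. -/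
def IsPartKer (ϖ : O) (Ipr : Set ℕ) (c : ℕ → O) (Qs : Set ℕ) (α : ℕ → O)
    (x : Additive (kerSub κ) →+ O) : Prop :=
  (∀ (l : ℕ) [Fact l.Prime] (hl : ¬ l ∣ M), l ∈ Ipr →
    TopNilAt ϖ (shiftBy (heckeKerLin hl κ hΓ1 O) (c l)) x) ∧
  (∀ (q' : ℕ) [Fact q'.Prime] (hq' : q' ∣ M), q' ∈ Qs →
    TopNilAt ϖ (shiftBy (UqKerLin κ hΓ1 hq' O) (α q')) x)

variable {κ hΓ1} {ϖ : O} {Ipr : Set ℕ} {c : ℕ → O} {Qs : Set ℕ} {α : ℕ → O}

/-- The transfer maps the part of `Hom(ker κ, O)` into the part of `Hom(Γ₀(M), O)`. -/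
theorem IsPartKer.cor [Fintype D] {x : Additive (kerSub κ) →+ O}
    (hx : IsPartKer κ hΓ1 ϖ Ipr c Qs α x) : IsPart O O ϖ Ipr c Qs α M (cor κ x) := by
  refine ⟨fun l _ hl hlI => ?_, fun q' _ hq' hq'Q => ?_⟩
  · refine (hx.1 l hl hlI).map (corL κ) fun y => ?_
    rw [shiftBy_apply, shiftBy_apply, map_sub, map_smul]
    congr 1
    exact cor_heckeKerOf hl κ hΓ1 (wStd hl) (l : ZMod M) (isNormalising_wStd hl) y
  · refine (hx.2 q' hq' hq'Q).map (corL κ) fun y => ?_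
    rw [shiftBy_apply, shiftBy_apply, map_sub, map_smul]
    congr 1
    exact (cor_UqKer κ hΓ1 hq' y).trans (UK_Gamma0_eq_Uq hq' _)

end Ker

section Main

variable {D : Type} [Group D] [Fintype D] {O : Type u} [CommRing O] [Nontrivial O]

/-- **CTRL-MIN.**  `L = [q₁, …, q_r]` distinct primes not dividing `N'`, `M = N' q₁ ⋯ q_r`,
`κ : Γ₀(M) →* D` onto, `e` with the M-FREE conclusion.  If `e H` lies in the generalized eigen-part
`T_l ≡ c_l` (`l ∈ Ipr`), `U_{q_i} ≡ α_{q_i}` with `α_{q_i}² - 1` units, and the part `T_l ≡ c_l`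
(`l ∈ Ipr`) of `Hom(Γ₀(N'), O)` vanishes, then `e H = 0`. -/
theorem eH_eq_zero_of_min {N' : ℕ} (L : List ℕ) (κ : Gamma0 (L.foldl (· * ·) N') →* D)
    (hΓ1 : ∀ γ : Gamma0 (L.foldl (· * ·) N'),
      ((((γ : SL(2, ℤ)) 1 1 : ℤ)) : ZMod (L.foldl (· * ·) N')) = 1 → κ γ = 1)
    (hκ : Function.Surjective κ)
    (e : (Additive (kerSub κ) →+ O) →ₗ[O] (Additive (kerSub κ) →+ O))
    (hfree : FreeConclusion κ O e)
    (ϖ : O) (Ipr : Set ℕ) (c α : ℕ → O)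
    (hsep : ∀ a : O, (∀ n : ℕ, ∃ z : O, a = ϖ ^ n • z) → a = 0)
    (hN' : N' ≠ 0) (hnd : L.Nodup)
    (hL : ∀ q ∈ L, q.Prime ∧ ¬ q ∣ N' ∧ q ∉ Ipr ∧ IsUnit (α q ^ 2 - 1))
    (hpart : ∀ x, e x = x → IsPartKer κ hΓ1 ϖ Ipr c {q | q ∈ L} α x)
    (hmin : ∀ y : Additive (Gamma0 N') →+ O, IsPart O O ϖ Ipr c ∅ α N' y → y = 0) :
    ∀ x, e x = x → x = 0 := by
  refine eH_eq_zero_of_cor_eq_zero hκ e hfree fun x hex => ?_
  refine eq_zero_of_isPart_chain hsep L N' ∅ hN' hnd hL hmin _ ((hpart x hex).cor.mono ?_)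
  intro z hz
  rcases hz with hz | hz
  · exact absurd hz (Set.notMem_empty z)
  · exact hz

end Main

end Fermat.Agent.S38.H719

end
-- ===== PACK-END S38/H719/CtrlMinFree.lean

-- ===== PACK-BEGIN S38/H841/DictMin.lean
section





/-!
# HARD / HECKE, leaf DICT-MIN (helper841): a Betti class in the `ρ̄`-part ⟹ `ρ̄` is modular

`𝒪` a complete DVR of characteristic `0` with finite residue field `k` of odd characteristic `p`,
`ρ̄ : G_ℚ → GL₂(k)` absolutely irreducible, `N ≥ 1`, `S` a finite set of primes containing `p` and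
the primes dividing `N`, `c ℓ ∈ 𝒪` lifts of the Frobenius traces of `ρ̄` (`ℓ ∉ S`), `ϖ ∈ 𝔪_𝒪`.

`resModular_of_class_h841` : if some `y ≠ 0` in `Hom(Γ₀(N), 𝒪)` lies in the generalized eigen-part
"`T_ℓ ≡ c ℓ`" (every `T_ℓ - c ℓ`, `ℓ ∉ S`, is topologically nilpotent at `y`), then
`S59.Arch.ResModular 𝒪 ρ̄ N S`: there is a character `θ` of the anemic Hecke algebra of level `N`
with values in `k` and `θ(T_ℓ) = tr ρ̄(Frob_ℓ)`.

Contrapositive (`eq_zero_of_not_resModular_h841`) = the hypothesis (MIN) in the form used by the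
control theorems: if `ρ̄` is NOT modular of level `N`, the `ρ̄`-part of `Hom(Γ₀(N), 𝒪)` is zero.

The only input which is not on main is BDRY (`BdryShape_h841`, verbatim the `BdryStatement` of
helper59's `S38/H59/TWMinSpec.lean`), taken as a hypothesis.

Proof.  (i) `nePrimeK_h424` gives `ℓ₀ ∉ S`, `ℓ₀ ≡ 1 mod N`, `ℓ₀ ≠ 2` with `c ℓ₀ ≢ ℓ₀ + 1`; by BDRY,
`T_ℓ₀ - c ℓ₀` acts on the values at parabolic elements as the unit `ℓ₀ + 1 - c ℓ₀`, so `y` is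
parabolic.  (ii) Eichler–Shimura (`S59.NM.H709.ofCls`): `y` comes from `u ∈ W = Hom(Λ, 𝒪)`, `Λ` the
period lattice; write `u = π ^ n • u₀` with `u₀ ≢ 0 mod π`; the reduction `e₀` of `u₀` is a nonzero
element of `Hom(Λ, k)` at which every `T_ℓ - c̄ ℓ` is nilpotent.  (iii) the abstract character
lemma `exists_character_of_locNil_h841`.
-/

set_option autoImplicit false

noncomputable section

namespace Fermat.Agent.S38.H841

open CongruenceSubgroup ModularCurve ModularCurve.Period CuspForm Polynomial IsLocalRing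
open Fermat.Agent.S29.H642 Fermat.Agent.S59.NM.H709 Fermat.Agent.S30.H709
open scoped MatrixGroups

/-- **BDRY** (verbatim `Fermat.Agent.S38.H59.BdryStatement`): the boundary is Eisenstein. -/
def BdryShape_h841 : Prop :=
  ∀ (M ℓ : ℕ) [Fact ℓ.Prime] (hℓ : ¬ ℓ ∣ M), M ≠ 0 → ℓ ≠ 2 → ℓ ≡ 1 [MOD M] →
    ∀ (A : Type) [AddCommGroup A] (φ : Additive (Gamma0 M) →+ A) (γ : Gamma0 M),
      ((γ : SL(2, ℤ)) : Matrix (Fin 2) (Fin 2) ℤ).trace ^ 2 = 4 →
      heckeTransfer hℓ φ (Additive.ofMul γ) = (ℓ + 1) • φ (Additive.ofMul γ)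

section Parabolic

variable {O : Type} [CommRing O] {N ℓ : ℕ} [Fact ℓ.Prime]

/-- On parabolic elements the shifted transfer `T_ℓ - c` is multiplication by `ℓ + 1 - c`. -/
theorem iterate_shift_apply_h841 (hB : BdryShape_h841) (hl : ¬ ℓ ∣ N) (hN : N ≠ 0) (hl2 : ℓ ≠ 2)
    (h1 : ℓ ≡ 1 [MOD N]) (c : O) (γ : Gamma0 N)
    (hγ : ((γ : SL(2, ℤ)) : Matrix (Fin 2) (Fin 2) ℤ).trace ^ 2 = 4) (m : ℕ) :
    ∀ x : Additive (Gamma0 N) →+ O,
      ((fun x : Additive (Gamma0 N) →+ O => heckeTransfer hl x - c • x)^[m] x)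
        (Additive.ofMul γ) = ((ℓ : O) + 1 - c) ^ m * x (Additive.ofMul γ) := by
  induction m with
  | zero =>
    intro x
    rw [Function.iterate_zero_apply, pow_zero, one_mul]
  | succ m ih =>
    intro x
    rw [Function.iterate_succ_apply, ih]
    show ((ℓ : O) + 1 - c) ^ m *
      (heckeTransfer hl x (Additive.ofMul γ) - c • x (Additive.ofMul γ)) = _
    rw [hB N ℓ hl hN hl2 h1 O x γ hγ, nsmul_eq_mul, smul_eq_mul, pow_succ]
    push_cast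
    ring

/-- **(i)** A class at which `T_ℓ - c` is topologically nilpotent, `ℓ ≡ 1 mod N`, `ℓ + 1 - c` a
unit, is parabolic. -/
theorem isParabolic_of_topNil_h841 (hB : BdryShape_h841) (hl : ¬ ℓ ∣ N) (hN : N ≠ 0)
    (hl2 : ℓ ≠ 2) (h1 : ℓ ≡ 1 [MOD N]) (c : O) (hu : IsUnit ((ℓ : O) + 1 - c)) (ϖ : O)
    (hsep : ∀ a : O, (∀ n : ℕ, ϖ ^ n ∣ a) → a = 0)
    (y : Additive (Gamma0 N) →+ O)
    (hnil : ∀ n : ℕ, ∃ (m : ℕ) (z : Additive (Gamma0 N) →+ O),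
      (fun x : Additive (Gamma0 N) →+ O => heckeTransfer hl x - c • x)^[m] y = ϖ ^ n • z) :
    IsParabolicHom (Gamma0 N) y := by
  intro γ hγ
  apply hsep
  intro n
  obtain ⟨m, z, hz⟩ := hnil n
  have h2 := iterate_shift_apply_h841 hB hl hN hl2 h1 c γ hγ m y
  rw [hz] at h2
  have h3 : ϖ ^ n ∣ ((ℓ : O) + 1 - c) ^ m * y (Additive.ofMul γ) :=
    ⟨z (Additive.ofMul γ), h2.symm⟩
  exact ((hu.pow m).dvd_mul_left).1 h3

end Parabolic

section Lattice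

variable {N : ℕ} [NeZero N] {S : Set ℕ}

/-- Reduction modulo the maximal ideal of functionals on the period lattice. -/
def red_h841 (O : Type) [CommRing O] [IsLocalRing O] (w : _root_.Fermat.Agent.S30.H709.perLattice N →+ O) :
    _root_.Fermat.Agent.S30.H709.perLattice N →+ ResidueField O :=
  (residue O).toAddMonoidHom.comp w

variable (O : Type) [CommRing O]

theorem red_apply_h841 [IsLocalRing O] (w : _root_.Fermat.Agent.S30.H709.perLattice N →+ O) (x : _root_.Fermat.Agent.S30.H709.perLattice N) :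
    red_h841 O w x = residue O (w x) := rfl

/-- The shifted Hecke operator `T - c` on `W = Hom(Λ, O)`. -/
def shiftW_h841 (hNS : ∀ q : ℕ, q.Prime → q ∣ N → q ∈ S) (t : heckeAlgebra N 2 S) (c : O) :
    Module.End O (_root_.Fermat.Agent.S30.H709.perLattice N →+ O) :=
  actHom O hNS t - c • (1 : Module.End O (_root_.Fermat.Agent.S30.H709.perLattice N →+ O))

theorem shiftW_apply_h841 (hNS : ∀ q : ℕ, q.Prime → q ∣ N → q ∈ S) (t : heckeAlgebra N 2 S)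
    (c : O) (w : _root_.Fermat.Agent.S30.H709.perLattice N →+ O) (x : _root_.Fermat.Agent.S30.H709.perLattice N) :
    shiftW_h841 O hNS t c w x = w (rhoL hNS t x) - c * w x := rfl

theorem red_shiftW_h841 [IsLocalRing O] (hNS : ∀ q : ℕ, q.Prime → q ∣ N → q ∈ S)
    (t : heckeAlgebra N 2 S) (c : O) (w : _root_.Fermat.Agent.S30.H709.perLattice N →+ O) :
    red_h841 O (shiftW_h841 O hNS t c w) =
      shiftW_h841 (ResidueField O) hNS t (residue O c) (red_h841 O w) := by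
  refine AddMonoidHom.ext fun x => ?_
  rw [red_apply_h841, shiftW_apply_h841, shiftW_apply_h841, red_apply_h841, red_apply_h841,
    map_sub, map_mul]

theorem red_shiftW_pow_h841 [IsLocalRing O] (hNS : ∀ q : ℕ, q.Prime → q ∣ N → q ∈ S)
    (t : heckeAlgebra N 2 S) (c : O) (m : ℕ) :
    ∀ w : _root_.Fermat.Agent.S30.H709.perLattice N →+ O, red_h841 O ((shiftW_h841 O hNS t c ^ m) w) =
      (shiftW_h841 (ResidueField O) hNS t (residue O c) ^ m) (red_h841 O w) := by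
  induction m with
  | zero =>
    intro w
    rw [pow_zero, pow_zero, Module.End.one_apply, Module.End.one_apply]
  | succ m ih =>
    intro w
    rw [pow_succ, pow_succ, Module.End.mul_apply, Module.End.mul_apply, ih, red_shiftW_h841]

theorem toCls_shiftW_h841 (hNS : ∀ q : ℕ, q.Prime → q ∣ N → q ∈ S) {l : ℕ} [Fact l.Prime]
    (hlN : ¬ l ∣ N) (hlS : l ∉ S) (c : O) (w : _root_.Fermat.Agent.S30.H709.perLattice N →+ O) :
    toCls (shiftW_h841 O hNS (heckeAlgebra.T Fact.out hlN hlS) c w) =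
      heckeTransfer hlN (toCls w) - c • toCls w := by
  rw [← toCls_actHom_T O hNS hlN hlS w]
  rfl

theorem toCls_shiftW_pow_h841 (hNS : ∀ q : ℕ, q.Prime → q ∣ N → q ∈ S) {l : ℕ} [Fact l.Prime]
    (hlN : ¬ l ∣ N) (hlS : l ∉ S) (c : O) (m : ℕ) :
    ∀ w : _root_.Fermat.Agent.S30.H709.perLattice N →+ O,
      toCls ((shiftW_h841 O hNS (heckeAlgebra.T Fact.out hlN hlS) c ^ m) w) =
        (fun x : Additive (Gamma0 N) →+ O => heckeTransfer hlN x - c • x)^[m] (toCls w) := by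
  induction m with
  | zero =>
    intro w
    rw [pow_zero, Module.End.one_apply, Function.iterate_zero_apply]
  | succ m ih =>
    intro w
    rw [pow_succ, Module.End.mul_apply, ih, Function.iterate_succ_apply, toCls_shiftW_h841]

/-- The anemic Hecke algebra is generated as a ring by the `T_ℓ`, `ℓ ∉ S`, when `S` contains the
primes dividing `N`. -/
theorem mem_closure_T_h841 (hNS : ∀ q : ℕ, q.Prime → q ∣ N → q ∈ S)
    (x : heckeAlgebra N 2 S) :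
    x ∈ Subring.closure (Set.range fun i : {l : ℕ // l.Prime ∧ l ∉ S} =>
      (heckeAlgebra.T i.2.1 (fun h => i.2.2 (hNS i.1 i.2.1 h)) i.2.2 : heckeAlgebra N 2 S)) := by
  obtain ⟨x, hx⟩ := x
  induction hx using Algebra.adjoin_induction with
  | mem t ht =>
    rcases ht with ⟨l, hl, hlN, hlS, rfl⟩ | ⟨q, hqN, hq, hqS, rfl⟩
    · exact Subring.subset_closure ⟨⟨l, hl, hlS⟩, rfl⟩
    · exact absurd (hNS q hq hqN) hqS
  | algebraMap n =>
    have h1 : (⟨algebraMap ℤ (Module.End ℂ (CuspForm (Gamma0 N) 2)) n,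
        Subalgebra.algebraMap_mem _ n⟩ : heckeAlgebra N 2 S) = ((n : ℤ) : heckeAlgebra N 2 S) := by
      apply Subtype.ext
      show algebraMap ℤ (Module.End ℂ (CuspForm (Gamma0 N) 2)) n = _
      rw [eq_intCast]
      rfl
    rw [h1]
    exact intCast_mem _ n
  | add t s ht hs iht ihs =>
    have h1 : (⟨t + s, Subalgebra.add_mem _ ht hs⟩ : heckeAlgebra N 2 S) = ⟨t, ht⟩ + ⟨s, hs⟩ := rfl
    rw [h1]
    exact Subring.add_mem _ iht ihs
  | mul t s ht hs iht ihs =>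
    have h1 : (⟨t * s, Subalgebra.mul_mem _ ht hs⟩ : heckeAlgebra N 2 S) = ⟨t, ht⟩ * ⟨s, hs⟩ := rfl
    rw [h1]
    exact Subring.mul_mem _ iht ihs

end Lattice

section Main

variable (p : ℕ) [Fact p.Prime] (𝒪 : Type) [CommRing 𝒪] [IsDomain 𝒪]
  [IsDiscreteValuationRing 𝒪]

theorem charP_residueField_h841 (hp𝒪 : (p : 𝒪) ∈ maximalIdeal 𝒪) :
    CharP (ResidueField 𝒪) p := by
  have hpk : ((p : ℕ) : ResidueField 𝒪) = 0 := by
    have h := (residue_eq_zero_iff (p : 𝒪)).2 hp𝒪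
    rwa [map_natCast] at h
  obtain ⟨r, hr⟩ := CharP.exists (ResidueField 𝒪)
  have hdvd : r ∣ p := (CharP.cast_eq_zero_iff (ResidueField 𝒪) r p).1 hpk
  rcases (Nat.dvd_prime (Fact.out : p.Prime)).1 hdvd with h1 | h1
  · exact absurd h1 (CharP.char_ne_one (ResidueField 𝒪) r)
  · rw [← h1]
    exact hr

variable [Finite (ResidueField 𝒪)] [CharZero 𝒪] (ρbar : ResidualGaloisRep (ResidueField 𝒪))

/-- **DICT-MIN.**  A nonzero class `y ∈ Hom(Γ₀(N), 𝒪)` in the generalized eigen-part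
"`T_ℓ ≡ c ℓ` for `ℓ ∉ S`" of an absolutely irreducible `ρ̄` (`c ℓ` lifts of the Frobenius traces)
forces `ρ̄` to be modular of level `N`. -/
theorem resModular_of_class_h841 (hB : BdryShape_h841)
    (hp2 : p ≠ 2) (hp𝒪 : (p : 𝒪) ∈ maximalIdeal 𝒪)
    (habs : ρbar.IsAbsolutelyIrreducible)
    (hsplit : ∀ σ : AlgebraicClosure ℚ ≃ₐ[ℚ] AlgebraicClosure ℚ,
      ∃ α β : ResidueField 𝒪, LinearMap.charpoly (ρbar.ρ σ) = (X - C α) * (X - C β))
    (N : ℕ) [NeZero N] (S : Finset ℕ) (hpS : p ∈ S)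
    (hNS : ∀ q : ℕ, q.Prime → q ∣ N → q ∈ S)
    (ϖ : 𝒪) (hϖ : ϖ ∈ maximalIdeal 𝒪) (c : ℕ → 𝒪)
    (hc : ∀ (l : ℕ), l.Prime → l ∉ S →
      ∀ B : ValuationSubring Fermat.Agent.S31.Qb, B.LiesOverPrime l →
        ∀ σ : Fermat.Agent.S31.GQ, B.IsFrobeniusAt σ l →
          LinearMap.charpoly (ρbar.ρ σ) =
            X ^ 2 - C (residue 𝒪 (c l)) * X + C ((l : ResidueField 𝒪)))
    (y : Additive (Gamma0 N) →+ 𝒪) (hy : y ≠ 0)
    (hnil : ∀ (l : ℕ) [Fact l.Prime] (hl : ¬ l ∣ N), l ∉ S → ∀ n : ℕ,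
      ∃ (m : ℕ) (z : Additive (Gamma0 N) →+ 𝒪),
        (fun x : Additive (Gamma0 N) →+ 𝒪 => heckeTransfer hl x - c l • x)^[m] y = ϖ ^ n • z) :
    Fermat.Agent.S59.Arch.ResModular 𝒪 ρbar N S := by
  classical
  have hp : p.Prime := Fact.out
  have : CharP (ResidueField 𝒪) p := charP_residueField_h841 p 𝒪 hp𝒪
  have hN : N ≠ 0 := NeZero.ne N
  -- a uniformizer
  obtain ⟨π, hπ⟩ := IsDiscreteValuationRing.exists_irreducible 𝒪
  have hπmax : maximalIdeal 𝒪 = Ideal.span {π} := hπ.maximalIdeal_eq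
  have hπ0 : π ≠ 0 := hπ.ne_zero
  have hπmem : π ∈ maximalIdeal 𝒪 := by
    rw [hπmax]
    exact Ideal.mem_span_singleton_self π
  obtain ⟨w, hw⟩ : ∃ w, w * π = ϖ := Ideal.mem_span_singleton'.1 (hπmax ▸ hϖ)
  have hsepϖ : ∀ a : 𝒪, (∀ n : ℕ, ϖ ^ n ∣ a) → a = 0 := eq_zero_of_forall_pow_dvd_h841 hϖ
  have hsepπ : ∀ a : 𝒪, (∀ n : ℕ, π ^ n ∣ a) → a = 0 := eq_zero_of_forall_pow_dvd_h841 hπmem
  -- (i) a non-Eisenstein prime `l₀ ≡ 1 mod N`
  obtain ⟨l₀, hl₀, hl₀S, hl₀S', hl₀N, -, hne, -⟩ :=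
    Fermat.Agent.S59.H424.nePrimeK_h424 p hp2 (ResidueField 𝒪) ρbar habs hsplit S hpS
      (fun l => residue 𝒪 (c l)) hc 2 Nat.prime_two hp2.symm N (Nat.pos_of_ne_zero hN) {2}
  have : Fact l₀.Prime := ⟨hl₀⟩
  have hl₀2 : l₀ ≠ 2 := fun h => hl₀S' (by rw [h]; exact Finset.mem_singleton_self 2)
  have hl₀N' : ¬ l₀ ∣ N := fun h => hl₀S (hNS l₀ hl₀ h)
  have hunit : IsUnit ((l₀ : 𝒪) + 1 - c l₀) := by
    by_contra hnu
    have hmem : (l₀ : 𝒪) + 1 - c l₀ ∈ maximalIdeal 𝒪 := (mem_maximalIdeal _).2 hnu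
    have h1 := (residue_eq_zero_iff _).2 hmem
    rw [map_sub, map_add, map_natCast, map_one, sub_eq_zero] at h1
    exact hne h1.symm
  have hpar : IsParabolicHom (Gamma0 N) y :=
    isParabolic_of_topNil_h841 hB hl₀N' hN hl₀2 hl₀N (c l₀) hunit ϖ hsepϖ y
      (hnil l₀ hl₀N' hl₀S)
  -- (ii) the class on the period lattice and its primitive part
  have hNS' : ∀ q : ℕ, q.Prime → q ∣ N → q ∈ (↑S : Set ℕ) :=
    fun q hq hqN => Finset.mem_coe.2 (hNS q hq hqN)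
  obtain ⟨u, hu⟩ : ∃ u : _root_.Fermat.Agent.S30.H709.perLattice N →+ 𝒪, toCls u = y := ⟨ofCls y hpar, toCls_ofCls y hpar⟩
  have hu0 : u ≠ 0 := by
    intro h
    rw [h, toCls_zero] at hu
    exact hy hu.symm
  obtain ⟨n₀, u₀, hn₀, x₁, hx₁⟩ := exists_primitive_h841 hπ0 hsepπ u hu0
  have he₀ : red_h841 𝒪 u₀ ≠ 0 := by
    intro h
    have h1 : residue 𝒪 (u₀ x₁) = 0 := by
      rw [← red_apply_h841, h]
      rfl
    rw [residue_eq_zero_iff, hπmax, Ideal.mem_span_singleton] at h1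
    exact hx₁ h1
  -- nilpotency of the `T_ℓ - c̄ ℓ` at `e₀`
  have hnil' : ∀ i : {l : ℕ // l.Prime ∧ l ∉ (↑S : Set ℕ)}, ∃ m : ℕ,
      ((actHom (ResidueField 𝒪) hNS'
          (heckeAlgebra.T i.2.1 (fun h => i.2.2 (hNS' i.1 i.2.1 h)) i.2.2) -
        residue 𝒪 (c i.1) •
          (1 : Module.End (ResidueField 𝒪) (_root_.Fermat.Agent.S30.H709.perLattice N →+ ResidueField 𝒪))) ^ m)
        (red_h841 𝒪 u₀) = 0 := by
    rintro ⟨l, hl, hlS⟩
    have : Fact l.Prime := ⟨hl⟩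
    have hlN : ¬ l ∣ N := fun h => hlS (hNS' l hl h)
    obtain ⟨m, z, hz⟩ := hnil l hlN (fun h => hlS (Finset.mem_coe.2 h)) (n₀ + 1)
    refine ⟨m, ?_⟩
    have h1 : toCls ((shiftW_h841 𝒪 hNS' (heckeAlgebra.T Fact.out hlN hlS) (c l) ^ m) u) =
        ϖ ^ (n₀ + 1) • z := by
      rw [toCls_shiftW_pow_h841, hu, hz]
    have h2 : ∀ x : _root_.Fermat.Agent.S30.H709.perLattice N,
        π ∣ ((shiftW_h841 𝒪 hNS' (heckeAlgebra.T Fact.out hlN hlS) (c l) ^ m) u₀) x := by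
      intro x
      obtain ⟨γ, rfl⟩ := perClsHom_surjective x
      have h3 := DFunLike.congr_fun h1 γ
      rw [hn₀, map_smul] at h3
      have h4 : π ^ n₀ *
          ((shiftW_h841 𝒪 hNS' (heckeAlgebra.T Fact.out hlN hlS) (c l) ^ m) u₀)
            (perClsHom N γ) = ϖ ^ (n₀ + 1) * z γ := h3
      rw [← hw, mul_pow, pow_succ] at h4
      have h5 : π ^ n₀ *
          ((shiftW_h841 𝒪 hNS' (heckeAlgebra.T Fact.out hlN hlS) (c l) ^ m) u₀)
            (perClsHom N γ) = π ^ n₀ * (π * (w ^ (n₀ + 1) * z γ)) := by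
        rw [h4]
        ring
      exact ⟨_, mul_left_cancel₀ (pow_ne_zero n₀ hπ0) h5⟩
    have h6 : red_h841 𝒪
        ((shiftW_h841 𝒪 hNS' (heckeAlgebra.T Fact.out hlN hlS) (c l) ^ m) u₀) = 0 := by
      refine AddMonoidHom.ext fun x => ?_
      rw [red_apply_h841, AddMonoidHom.zero_apply, residue_eq_zero_iff, hπmax,
        Ideal.mem_span_singleton]
      exact h2 x
    rw [red_shiftW_pow_h841] at h6
    exact h6
  -- (iii) the character
  obtain ⟨θ, hθ⟩ := exists_character_of_locNil_h841 (actHom (ResidueField 𝒪) hNS')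
    (fun i : {l : ℕ // l.Prime ∧ l ∉ (↑S : Set ℕ)} =>
      (heckeAlgebra.T i.2.1 (fun h => i.2.2 (hNS' i.1 i.2.1 h)) i.2.2 :
        heckeAlgebra N 2 (↑S : Set ℕ)))
    (fun i => residue 𝒪 (c i.1)) (mem_closure_T_h841 hNS') (red_h841 𝒪 u₀) he₀ hnil'
  refine ⟨inferInstance, θ, ?_⟩
  intro l hl hlN hlS B hB' σ hσ
  have h7 : θ (heckeAlgebra.T hl hlN hlS) = residue 𝒪 (c l) := hθ ⟨l, hl, hlS⟩
  rw [h7]
  exact hc l hl (fun h => hlS (Finset.mem_coe.2 h)) B hB' σ hσ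

/-- **DICT-MIN, contrapositive = (MIN) in the form used by the control theorems.**  If `ρ̄` is not
modular of level `N`, the `ρ̄`-part of `Hom(Γ₀(N), 𝒪)` vanishes. -/
theorem eq_zero_of_not_resModular_h841 (hB : BdryShape_h841)
    (hp2 : p ≠ 2) (hp𝒪 : (p : 𝒪) ∈ maximalIdeal 𝒪)
    (habs : ρbar.IsAbsolutelyIrreducible)
    (hsplit : ∀ σ : AlgebraicClosure ℚ ≃ₐ[ℚ] AlgebraicClosure ℚ,
      ∃ α β : ResidueField 𝒪, LinearMap.charpoly (ρbar.ρ σ) = (X - C α) * (X - C β))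
    (N : ℕ) [NeZero N] (S : Finset ℕ) (hpS : p ∈ S)
    (hNS : ∀ q : ℕ, q.Prime → q ∣ N → q ∈ S)
    (hmin : ¬ Fermat.Agent.S59.Arch.ResModular 𝒪 ρbar N S)
    (ϖ : 𝒪) (hϖ : ϖ ∈ maximalIdeal 𝒪) (c : ℕ → 𝒪)
    (hc : ∀ (l : ℕ), l.Prime → l ∉ S →
      ∀ B : ValuationSubring Fermat.Agent.S31.Qb, B.LiesOverPrime l →
        ∀ σ : Fermat.Agent.S31.GQ, B.IsFrobeniusAt σ l →
          LinearMap.charpoly (ρbar.ρ σ) =
            X ^ 2 - C (residue 𝒪 (c l)) * X + C ((l : ResidueField 𝒪)))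
    (y : Additive (Gamma0 N) →+ 𝒪)
    (hnil : ∀ (l : ℕ) [Fact l.Prime] (hl : ¬ l ∣ N), l ∉ S → ∀ n : ℕ,
      ∃ (m : ℕ) (z : Additive (Gamma0 N) →+ 𝒪),
        (fun x : Additive (Gamma0 N) →+ 𝒪 => heckeTransfer hl x - c l • x)^[m] y = ϖ ^ n • z) :
    y = 0 := by
  by_contra hy
  exact hmin (resModular_of_class_h841 p 𝒪 ρbar hB hp2 hp𝒪 habs hsplit N S hpS hNS ϖ hϖ c hc y hy
    hnil)

end Main

end Fermat.Agent.S38.H841

end
end
-- ===== PACK-END S38/H841/DictMin.lean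

-- ===== PACK-BEGIN S38/H841/DictMinPart.lean
section



/-!
# HARD / HECKE, leaf DICT-MIN, adapter to CTRL-MIN (helper841)

`isPart_eq_zero_of_not_resModular_h841` : the hypothesis `hmin` of
`Fermat.Agent.S38.H719.eH_eq_zero_of_min` (the part "`T_l ≡ c_l`, `l ∈ Ipr`" of `Hom(Γ₀(N), 𝒪)`
vanishes) from (MIN) `¬ ResModular 𝒪 ρ̄ N S`, when `Ipr` contains the primes outside `S`.

`resModular_of_isPart_h841` : the direct form.

Imports `S38/H719/CtrlMin.lean` (off-main, `origin/helper719`), hence `S59/H105` (`origin/helper105`).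
-/

set_option autoImplicit false

namespace Fermat.Agent.S38.H841

open CongruenceSubgroup Polynomial IsLocalRing
open Fermat.Agent.S29.H642 Fermat.Agent.S59.H105 Fermat.Agent.S38.H719
open scoped MatrixGroups

section Part

variable (p : ℕ) [Fact p.Prime] (𝒪 : Type) [CommRing 𝒪] [IsDomain 𝒪]
  [IsDiscreteValuationRing 𝒪] [Finite (ResidueField 𝒪)] [CharZero 𝒪]
  (ρbar : ResidualGaloisRep (ResidueField 𝒪))

/-- The `T`-half of `H719.IsPart` is the hypothesis `hnil` of `resModular_of_class_h841`. -/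
theorem hnil_of_isPart_h841 {N : ℕ} {S : Finset ℕ} {ϖ : 𝒪} {c : ℕ → 𝒪} {Ipr Qs : Set ℕ}
    {α : ℕ → 𝒪} (hI : ∀ l : ℕ, l.Prime → l ∉ S → l ∈ Ipr)
    {y : Additive (Gamma0 N) →+ 𝒪} (hy : IsPart 𝒪 𝒪 ϖ Ipr c Qs α N y) :
    ∀ (l : ℕ) [Fact l.Prime] (hl : ¬ l ∣ N), l ∉ S → ∀ n : ℕ,
      ∃ (m : ℕ) (z : Additive (Gamma0 N) →+ 𝒪),
        (fun x : Additive (Gamma0 N) →+ 𝒪 => heckeTransfer hl x - c l • x)^[m] y = ϖ ^ n • z :=
  fun l _ hl hlS n => hy.1 l hl (hI l Fact.out hlS) n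

/-- **DICT-MIN in the vocabulary of CTRL-MIN**: a nonzero element of the part "`T_l ≡ c_l`" of
`Hom(Γ₀(N), 𝒪)` makes `ρ̄` modular of level `N`. -/
theorem resModular_of_isPart_h841 (hB : BdryShape_h841)
    (hp2 : p ≠ 2) (hp𝒪 : (p : 𝒪) ∈ maximalIdeal 𝒪)
    (habs : ρbar.IsAbsolutelyIrreducible)
    (hsplit : ∀ σ : AlgebraicClosure ℚ ≃ₐ[ℚ] AlgebraicClosure ℚ,
      ∃ α β : ResidueField 𝒪, LinearMap.charpoly (ρbar.ρ σ) = (X - C α) * (X - C β))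
    (N : ℕ) [NeZero N] (S : Finset ℕ) (hpS : p ∈ S)
    (hNS : ∀ q : ℕ, q.Prime → q ∣ N → q ∈ S)
    (ϖ : 𝒪) (hϖ : ϖ ∈ maximalIdeal 𝒪) (c : ℕ → 𝒪)
    (hc : ∀ (l : ℕ), l.Prime → l ∉ S →
      ∀ B : ValuationSubring Fermat.Agent.S31.Qb, B.LiesOverPrime l →
        ∀ σ : Fermat.Agent.S31.GQ, B.IsFrobeniusAt σ l →
          LinearMap.charpoly (ρbar.ρ σ) =
            X ^ 2 - C (residue 𝒪 (c l)) * X + C ((l : ResidueField 𝒪)))
    (Ipr Qs : Set ℕ) (hI : ∀ l : ℕ, l.Prime → l ∉ S → l ∈ Ipr) (α : ℕ → 𝒪)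
    (y : Additive (Gamma0 N) →+ 𝒪) (hy0 : y ≠ 0) (hy : IsPart 𝒪 𝒪 ϖ Ipr c Qs α N y) :
    Fermat.Agent.S59.Arch.ResModular 𝒪 ρbar N S :=
  resModular_of_class_h841 p 𝒪 ρbar hB hp2 hp𝒪 habs hsplit N S hpS hNS ϖ hϖ c hc y hy0
    (hnil_of_isPart_h841 𝒪 hI hy)

/-- **(MIN) ⟹ `hmin` of `H719.eH_eq_zero_of_min`.** -/
theorem isPart_eq_zero_of_not_resModular_h841 (hB : BdryShape_h841)
    (hp2 : p ≠ 2) (hp𝒪 : (p : 𝒪) ∈ maximalIdeal 𝒪)
    (habs : ρbar.IsAbsolutelyIrreducible)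
    (hsplit : ∀ σ : AlgebraicClosure ℚ ≃ₐ[ℚ] AlgebraicClosure ℚ,
      ∃ α β : ResidueField 𝒪, LinearMap.charpoly (ρbar.ρ σ) = (X - C α) * (X - C β))
    (N : ℕ) [NeZero N] (S : Finset ℕ) (hpS : p ∈ S)
    (hNS : ∀ q : ℕ, q.Prime → q ∣ N → q ∈ S)
    (hmin : ¬ Fermat.Agent.S59.Arch.ResModular 𝒪 ρbar N S)
    (ϖ : 𝒪) (hϖ : ϖ ∈ maximalIdeal 𝒪) (c : ℕ → 𝒪)
    (hc : ∀ (l : ℕ), l.Prime → l ∉ S →
      ∀ B : ValuationSubring Fermat.Agent.S31.Qb, B.LiesOverPrime l →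
        ∀ σ : Fermat.Agent.S31.GQ, B.IsFrobeniusAt σ l →
          LinearMap.charpoly (ρbar.ρ σ) =
            X ^ 2 - C (residue 𝒪 (c l)) * X + C ((l : ResidueField 𝒪)))
    (Ipr : Set ℕ) (hI : ∀ l : ℕ, l.Prime → l ∉ S → l ∈ Ipr) (α : ℕ → 𝒪) :
    ∀ y : Additive (Gamma0 N) →+ 𝒪, IsPart 𝒪 𝒪 ϖ Ipr c ∅ α N y → y = 0 := by
  intro y hy
  by_contra hy0
  exact hmin (resModular_of_isPart_h841 p 𝒪 ρbar hB hp2 hp𝒪 habs hsplit N S hpS hNS ϖ hϖ c hc
    Ipr ∅ hI α y hy0 hy)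

/-- The separation hypothesis `hsep` of `H719.eH_eq_zero_of_min`, for `ϖ` in the maximal ideal of
a discrete valuation ring. -/
theorem hsep_h841 {ϖ : 𝒪} (hϖ : ϖ ∈ maximalIdeal 𝒪) :
    ∀ a : 𝒪, (∀ n : ℕ, ∃ z : 𝒪, a = ϖ ^ n • z) → a = 0 :=
  fun a h => eq_zero_of_forall_pow_dvd_h841 hϖ a fun n => by
    obtain ⟨z, hz⟩ := h n
    exact ⟨z, hz⟩

end Part

end Fermat.Agent.S38.H841

end
-- ===== PACK-END S38/H841/DictMinPart.lean

-- ===== PACK-BEGIN S38/H841/DictMinMain.lean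
section



/-!
# HARD / HECKE, leaf DICT-MIN (= Z5 of helper59's cut of `IAMinZeroStatement`), UNCONDITIONAL,
MAIN-ONLY imports (helper841)

BDRY is `Fermat.Agent.S59.TW.H653.Bdry.bdry_h653` (helper653, on main).

* `dictMin_h841` : a nonzero class `y ∈ Hom(Γ₀(N), 𝒪)` in the `ρ̄`-part ⟹ `ResModular 𝒪 ρ̄ N S`;
* `dictMin_eq_zero_h841` : (MIN) `¬ ResModular 𝒪 ρ̄ N S` ⟹ the `ρ̄`-part of `Hom(Γ₀(N), 𝒪)` is `0`.
-/

set_option autoImplicit false

namespace Fermat.Agent.S38.H841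

open CongruenceSubgroup Polynomial IsLocalRing
open Fermat.Agent.S29.H642
open scoped MatrixGroups

/-- **BDRY** (helper653, on main). -/
theorem bdryShape_h841 : BdryShape_h841 := Fermat.Agent.S59.TW.H653.Bdry.bdry_h653

section Final

variable (p : ℕ) [Fact p.Prime] (𝒪 : Type) [CommRing 𝒪] [IsDomain 𝒪]
  [IsDiscreteValuationRing 𝒪] [Finite (ResidueField 𝒪)] [CharZero 𝒪]
  (ρbar : ResidualGaloisRep (ResidueField 𝒪))

/-- **DICT-MIN, unconditional.** -/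
theorem dictMin_h841
    (hp2 : p ≠ 2) (hp𝒪 : (p : 𝒪) ∈ maximalIdeal 𝒪)
    (habs : ρbar.IsAbsolutelyIrreducible)
    (hsplit : ∀ σ : AlgebraicClosure ℚ ≃ₐ[ℚ] AlgebraicClosure ℚ,
      ∃ α β : ResidueField 𝒪, LinearMap.charpoly (ρbar.ρ σ) = (X - C α) * (X - C β))
    (N : ℕ) [NeZero N] (S : Finset ℕ) (hpS : p ∈ S)
    (hNS : ∀ q : ℕ, q.Prime → q ∣ N → q ∈ S)
    (ϖ : 𝒪) (hϖ : ϖ ∈ maximalIdeal 𝒪) (c : ℕ → 𝒪)
    (hc : ∀ (l : ℕ), l.Prime → l ∉ S →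
      ∀ B : ValuationSubring Fermat.Agent.S31.Qb, B.LiesOverPrime l →
        ∀ σ : Fermat.Agent.S31.GQ, B.IsFrobeniusAt σ l →
          LinearMap.charpoly (ρbar.ρ σ) =
            X ^ 2 - C (residue 𝒪 (c l)) * X + C ((l : ResidueField 𝒪)))
    (y : Additive (Gamma0 N) →+ 𝒪) (hy : y ≠ 0)
    (hnil : ∀ (l : ℕ) [Fact l.Prime] (hl : ¬ l ∣ N), l ∉ S → ∀ n : ℕ,
      ∃ (m : ℕ) (z : Additive (Gamma0 N) →+ 𝒪),
        (fun x : Additive (Gamma0 N) →+ 𝒪 => heckeTransfer hl x - c l • x)^[m] y = ϖ ^ n • z) :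
    Fermat.Agent.S59.Arch.ResModular 𝒪 ρbar N S :=
  resModular_of_class_h841 p 𝒪 ρbar bdryShape_h841 hp2 hp𝒪 habs hsplit N S hpS hNS ϖ hϖ c hc y hy
    hnil

/-- **(MIN) ⟹ the `ρ̄`-part of `Hom(Γ₀(N), 𝒪)` vanishes**, unconditional. -/
theorem dictMin_eq_zero_h841
    (hp2 : p ≠ 2) (hp𝒪 : (p : 𝒪) ∈ maximalIdeal 𝒪)
    (habs : ρbar.IsAbsolutelyIrreducible)
    (hsplit : ∀ σ : AlgebraicClosure ℚ ≃ₐ[ℚ] AlgebraicClosure ℚ,
      ∃ α β : ResidueField 𝒪, LinearMap.charpoly (ρbar.ρ σ) = (X - C α) * (X - C β))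
    (N : ℕ) [NeZero N] (S : Finset ℕ) (hpS : p ∈ S)
    (hNS : ∀ q : ℕ, q.Prime → q ∣ N → q ∈ S)
    (hmin : ¬ Fermat.Agent.S59.Arch.ResModular 𝒪 ρbar N S)
    (ϖ : 𝒪) (hϖ : ϖ ∈ maximalIdeal 𝒪) (c : ℕ → 𝒪)
    (hc : ∀ (l : ℕ), l.Prime → l ∉ S →
      ∀ B : ValuationSubring Fermat.Agent.S31.Qb, B.LiesOverPrime l →
        ∀ σ : Fermat.Agent.S31.GQ, B.IsFrobeniusAt σ l →
          LinearMap.charpoly (ρbar.ρ σ) =
            X ^ 2 - C (residue 𝒪 (c l)) * X + C ((l : ResidueField 𝒪)))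
    (y : Additive (Gamma0 N) →+ 𝒪)
    (hnil : ∀ (l : ℕ) [Fact l.Prime] (hl : ¬ l ∣ N), l ∉ S → ∀ n : ℕ,
      ∃ (m : ℕ) (z : Additive (Gamma0 N) →+ 𝒪),
        (fun x : Additive (Gamma0 N) →+ 𝒪 => heckeTransfer hl x - c l • x)^[m] y = ϖ ^ n • z) :
    y = 0 :=
  eq_zero_of_not_resModular_h841 p 𝒪 ρbar bdryShape_h841 hp2 hp𝒪 habs hsplit N S hpS hNS hmin ϖ
    hϖ c hc y hnil

end Final

end Fermat.Agent.S38.H841

end
-- ===== PACK-END S38/H841/DictMinMain.lean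

-- ===== PACK-BEGIN S38/H841/DictMinFinal.lean
section



/-!
# HARD / HECKE, leaf DICT-MIN, UNCONDITIONAL, in the vocabulary of CTRL-MIN (helper841)

* `dictMin_isPart_h841` : (MIN) `¬ ResModular 𝒪 ρ̄ N S` ⟹ the hypothesis `hmin` of
  `H719.eH_eq_zero_of_min` / `eq_zero_of_isPart_chain` (= `hBetti` of helper59's cut Z2).

Imports `S38/H719/CtrlMin.lean` (off-main, `origin/helper719`); everything else is on main
(`DictMinMain.lean`: `dictMin_h841`, `dictMin_eq_zero_h841`, BDRY = `H653.Bdry.bdry_h653`).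
-/

set_option autoImplicit false

namespace Fermat.Agent.S38.H841

open CongruenceSubgroup Polynomial IsLocalRing
open Fermat.Agent.S29.H642 Fermat.Agent.S59.H105 Fermat.Agent.S38.H719
open scoped MatrixGroups

section FinalPart

variable (p : ℕ) [Fact p.Prime] (𝒪 : Type) [CommRing 𝒪] [IsDomain 𝒪]
  [IsDiscreteValuationRing 𝒪] [Finite (ResidueField 𝒪)] [CharZero 𝒪]
  (ρbar : ResidualGaloisRep (ResidueField 𝒪))

/-- **(MIN) ⟹ `hmin` of `H719.eH_eq_zero_of_min`**, unconditional. -/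
theorem dictMin_isPart_h841
    (hp2 : p ≠ 2) (hp𝒪 : (p : 𝒪) ∈ maximalIdeal 𝒪)
    (habs : ρbar.IsAbsolutelyIrreducible)
    (hsplit : ∀ σ : AlgebraicClosure ℚ ≃ₐ[ℚ] AlgebraicClosure ℚ,
      ∃ α β : ResidueField 𝒪, LinearMap.charpoly (ρbar.ρ σ) = (X - C α) * (X - C β))
    (N : ℕ) [NeZero N] (S : Finset ℕ) (hpS : p ∈ S)
    (hNS : ∀ q : ℕ, q.Prime → q ∣ N → q ∈ S)
    (hmin : ¬ Fermat.Agent.S59.Arch.ResModular 𝒪 ρbar N S)
    (ϖ : 𝒪) (hϖ : ϖ ∈ maximalIdeal 𝒪) (c : ℕ → 𝒪)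
    (hc : ∀ (l : ℕ), l.Prime → l ∉ S →
      ∀ B : ValuationSubring Fermat.Agent.S31.Qb, B.LiesOverPrime l →
        ∀ σ : Fermat.Agent.S31.GQ, B.IsFrobeniusAt σ l →
          LinearMap.charpoly (ρbar.ρ σ) =
            X ^ 2 - C (residue 𝒪 (c l)) * X + C ((l : ResidueField 𝒪)))
    (Ipr : Set ℕ) (hI : ∀ l : ℕ, l.Prime → l ∉ S → l ∈ Ipr) (α : ℕ → 𝒪) :
    ∀ y : Additive (Gamma0 N) →+ 𝒪, IsPart 𝒪 𝒪 ϖ Ipr c ∅ α N y → y = 0 :=
  isPart_eq_zero_of_not_resModular_h841 p 𝒪 ρbar bdryShape_h841 hp2 hp𝒪 habs hsplit N S hpS hNS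
    hmin ϖ hϖ c hc Ipr hI α

end FinalPart

end Fermat.Agent.S38.H841

end
-- ===== PACK-END S38/H841/DictMinFinal.lean

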