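import Fermat.Agent.Pack.S43C.E2L1
import Fermat.Agent.Pack.S43C.E0L0
import Fermat.Agent.Pack.S43C.E2L3
import Fermat.Agent.Pack.S43C.E1L2
import Fermat.Agent.Pack.S43C.E0L2
import Fermat.Agent.Pack.S43MC.G0E21L0
import Fermat.Agent.Pack.S43MC.G0E27L2
import Fermat.Agent.Pack.S43GC.G0E11L1
import Fermat.Agent.Pack.S43C.E2L2
import Fermat.Agent.Pack.S43MC.G0E22L0
import Fermat.Agent.Pack.S43MC.G0E27L3
import Fermat.Agent.Pack.S43C.E1L3
import Fermat.Agent.Pack.S43C.E0L1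
import Fermat.Agent.Pack.S43MC.G0E20L1
import Fermat.Agent.Pack.S43C.E1L0
import Fermat.Agent.Pack.S43MC.G0E20L0
import Fermat.Agent.Pack.S43MC.G0E17L1
import Fermat.Agent.Pack.S43MC.G0E17L3
import Fermat.Agent.Pack.S43MC.G0E18L0
import Fermat.Agent.Pack.S43C.E2L0
import Fermat.Agent.Pack.S43C.E1L1
import Fermat.Agent.Pack.S43MC.G0E27L1
import Fermat.Agent.Pack.S43C.E0L3
import Fermat.Agent.Pack.S43MC.G0E7L1
import Fermat.Agent.Pack.S43MC.G0E20L3
import Fermat.Agent.Pack.Fast891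

-- ===== PACK-BEGIN S38/IA/Hecke/Asm5.lean
section



/-!
# Row HARD, cell HECKE, layer 2 for `5 ≤ p`: the assembly  (helper3)

`iaHecke5_of_leaves : PkgFlatStatement → IAAut5Statement → TW.InertiaExistsStatement →
  TW.InertiaOrderStatement → TW.CycloSurjStatement → TW.AlgStatement → IAHecke5Statement`
(the proof of `iaHecke_of_leaves`, with the hypothesis `5 ≤ p` carried along), and
`iaHecke5_of_iaHecke`.
-/

set_option autoImplicit false

open Polynomial IsLocalRing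

namespace Fermat.Agent.S38.IA.Hecke

open Fermat.Agent.S59.Arch Fermat.Agent.S59.TW.H959 Fermat.Agent.S59.TW Fermat.Agent.S59.H765
open CuspForm

/-- `IA.IAHeckeStatement` implies its restriction to `5 ≤ p`. -/
theorem iaHecke5_of_iaHecke (h : IAHeckeStatement) : IAHecke5Statement :=
  fun p _ _ 𝒪 _ _ _ _ _ _ ρbar Smin hh hflat ζ hζ Piv hPiv hmod hmin =>
    h p 𝒪 ρbar Smin hh hflat ζ hζ Piv hPiv hmod hmin

/-! ## The assembly -/

/-- **Layer 2 of the cell HECKE of row HARD, `5 ≤ p`**: `IAHecke5Statement` from its leaves. -/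
theorem iaHecke5_of_leaves (hPkg : PkgFlatStatement) (hAut : IAAut5Statement)
    (hInx : InertiaExistsStatement) (hIno : InertiaOrderStatement)
    (hCyc : CycloSurjStatement) (hAlg : AlgStatement) : IAHecke5Statement := by
  intro p hpF hp5 𝒪 _ _ _ _ _ _ ρbar Smin h hflat ζ hζ Piv hPiv hmod hmin
  obtain ⟨hL, θ₀, hθ₀⟩ := hmod
  haveI := hL
  obtain ⟨d, hd, hA⟩ := hAut p hp5 𝒪 ρbar Smin h hflat ζ hζ Piv hPiv θ₀ hθ₀ hmin
  refine ⟨d, hd, ?_⟩
  intro n r qv hq
  obtain ⟨-, hqv, hfrob⟩ := id hq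
  have hPivP : ∀ q ∈ Piv, q.Prime := fun q hq' => (hPiv q hq').1
  have hdisj : ∀ q ∈ Piv, q ∉ Smin := fun q hq' => (hPiv q hq').2.1
  -- the level `Q`
  have hQP : ∀ q ∈ Finset.univ.image qv, q.Prime := by
    intro q hq'
    obtain ⟨j, -, rfl⟩ := Finset.mem_image.mp hq'
    exact (hqv j).1
  have hSigP : ∀ q ∈ Smin ∪ Piv ∪ Finset.univ.image qv, q.Prime := by
    intro q hq'
    rcases Finset.mem_union.mp hq' with h' | h'
    · rcases Finset.mem_union.mp h' with h'' | h''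
      · exact h.hSmin q h''
      · exact hPivP q h''
    · exact hQP q h'
  have hsub : Smin ⊆ Smin ∪ Piv ∪ Finset.univ.image qv :=
    Finset.subset_union_left.trans Finset.subset_union_left
  have hNQ : NeZero (wilesLevel p .flat Smin (Smin ∪ Piv ∪ Finset.univ.image qv)) :=
    ⟨wilesLevel_ne_zero hpF.out h.hSmin hSigP⟩
  have hp := levelPairIA p h.hSmin hPivP hQP hdisj h.hpSmin
  have hθQ : Fermat.Agent.S59.G4.ResFrobCond ρbar (θ₀.comp (oldRestrict hp)) :=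
    resFrobCond_comp hp hθ₀
  obtain ⟨PQ, hθPQ⟩ := hPkg p 𝒪 ρbar Smin h hflat (Smin ∪ Piv ∪ Finset.univ.image qv)
    hsub hSigP (θ₀.comp (oldRestrict hp)) hθQ
  obtain ⟨A, hCmp⟩ := hA n r qv hq hp PQ hθPQ
  -- primitive roots, places, Frobenius and inertia elements, eigenvalues
  choose g hgord hggen using fun j => exists_primitive_root_units (hqv j).1
  choose Pv φv hPv hφv using fun j => Fermat.Agent.S54.exists_frobenius (qv j) (hqv j).1
  choose σv hσv hcyc using fun j => hCyc (qv j) (hqv j).1 (Pv j) (hPv j) (g j)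
  choose α β hαβ hchar using fun j => hfrob j (Pv j) (hPv j) (φv j) (hφv j)
  choose αv hαv using fun j => residue_surjective (α j)
  -- inertia values
  have hcharT : ∀ j, LinearMap.charpoly (PQ.H.ρ.residual.ρ (φv j)) =
      (X - C (residue PQ.T (algebraMap 𝒪 PQ.T (αv j)))) *
        (X - C (ResidueField.map (algebraMap 𝒪 PQ.T) (β j))) := by
    intro j
    rw [charpoly_eq_of_residual_isEquiv PQ.hres, charpoly_residual_baseChangeAlong, hchar j,
      Polynomial.map_mul, Polynomial.map_sub, Polynomial.map_sub, Polynomial.map_X,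
      Polynomial.map_C, Polynomial.map_C, ← hαv j, ResidueField.map_residue]
  have hne : ∀ j, residue PQ.T (algebraMap 𝒪 PQ.T (αv j)) ≠
      ResidueField.map (algebraMap 𝒪 PQ.T) (β j) := by
    intro j hj
    rw [← ResidueField.map_residue, hαv j] at hj
    exact hαβ j ((ResidueField.map (algebraMap 𝒪 PQ.T)).injective hj)
  choose w hw using fun j => hInx PQ.T PQ.H.ρ (φv j) (σv j) (algebraMap 𝒪 PQ.T (αv j))
    (ResidueField.map (algebraMap 𝒪 PQ.T) (β j)) (hne j) (hcharT j)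
  -- the order of the inertia values
  haveI : Finite (ResidueField PQ.T) := by
    refine Finite.of_surjective (ResidueField.map (algebraMap 𝒪 PQ.T)) ?_
    intro x
    obtain ⟨y, hy⟩ := PQ.H.residue_surjective x
    exact ⟨residue 𝒪 y, by rw [ResidueField.map_residue]; exact hy⟩
  have hpT : (p : PQ.T) ∈ maximalIdeal PQ.T := by
    have h1 := h.hp𝒪
    rw [mem_maximalIdeal, mem_nonunits_iff] at h1 ⊢
    intro hu
    apply h1
    have : IsUnit (algebraMap 𝒪 PQ.T (p : 𝒪)) := by rwa [map_natCast]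
    exact IsLocalHom.map_nonunit _ this
  have hdet : PQ.H.ρ.DetIsCyclotomic p := PQ.hcond.1.1
  have hqS : ∀ j, qv j ∉ Smin := fun j hj => (hqv j).2.1 (Finset.mem_union_left _ hj)
  have hqp : ∀ j, qv j ≠ p := by
    intro j hj
    exact hqS j (hj ▸ h.hpSmin)
  have hunr : ∀ j, PQ.H.ρ.residual.IsUnramifiedAt (qv j) := by
    intro j
    refine isUnramifiedAt_of_residual_isEquiv' PQ.hres
      (isUnramifiedAt_residual_baseChangeAlong _ ?_)
    by_contra hcon
    exact hqS j ((h.hmin (qv j) (hqv j).1 (hqp j)).mpr hcon)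
  have hpq : ∀ j, p ∣ qv j - 1 := fun j =>
    Dvd.dvd.trans (dvd_pow_self p (Nat.succ_ne_zero n)) (hqv j).2.2
  have hord : ∀ j, w j ^ (p ^ padicValNat p (qv j - 1)) = 1 := by
    intro j
    obtain ⟨w', -, h2, -⟩ := hIno p PQ.T hpT PQ.H.ρ hdet (qv j) (hqv j).1 (hqp j) (hpq j)
      (hunr j) (Pv j) (hPv j) (φv j) (hφv j) (σv j) (hσv j) _ (w j) (hw j)
    exact h2
  -- the comparison
  have hrange : ∀ (j : Fin r) (y : A.MQ),
      (∃ y' : A.MQ, y = w j • y' - y') ↔ ∃ y' : A.MQ, y = A.dia (Pi.mulSingle j (g j)) y' - y' :=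
    fun j => hCmp j (Pv j) (hPv j) (φv j) (hφv j) (σv j) (hσv j) (g j) (hgord j) (hcyc j) _
      (w j) (hw j)
  -- the basis
  have hn : ∀ j, n ≤ padicValNat p (qv j - 1) := by
    intro j
    have h0 : qv j - 1 ≠ 0 := Nat.sub_ne_zero_of_lt (hqv j).1.one_lt
    exact (Nat.le_succ n).trans ((padicValNat_dvd_iff_le h0).mp (hqv j).2.2)
  have hX : ∀ j, A.dia (Pi.mulSingle j (g j)) ^ (p ^ padicValNat p (qv j - 1)) = 1 := by
    intro j
    rw [← map_pow, ← A.dia_pow (Pi.mulSingle j (g j))]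
    congr 1
    funext i
    by_cases hij : i = j
    · subst hij
      simp only [Pi.pow_apply, Pi.mulSingle_eq_same]
    · simp only [Pi.pow_apply, Pi.mulSingle_eq_of_ne hij, one_pow]
  have hpJ : (p : 𝒪) ∈ Ideal.jacobson (⊥ : Ideal 𝒪) := by
    rw [IsLocalRing.jacobson_eq_maximalIdeal ⊥ bot_ne_top]
    exact h.hp𝒪
  obtain ⟨b, hb⟩ := A.free g hgord
  have hgrb : IsGroupRingBasis 𝒪 (p ^ n) w b :=
    hAlg p hpF.out h.hp2 𝒪 hpJ PQ.T A.MQ r (fun j => (ZMod (qv j))ˣ)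
      (fun j => padicValNat p (qv j - 1)) n hn A.dia g hX d b hb w hord hrange
  exact ⟨hNQ, PQ, A.MQ, inferInstance, inferInstance, w, b, hgrb,
    fun i => sub_one_mem_maximalIdeal_of_pow_eq_one hpF.out hpT (hord i), A.supp_nu, A.st⟩

end Fermat.Agent.S38.IA.Hecke

end
-- ===== PACK-END S38/IA/Hecke/Asm5.lean

-- ===== PACK-BEGIN S38/H354/GlueA.lean
section



/-!
# Row HARD, cell HECKE, layer 3, GLUE A: `IABettiStatement → IAAut5Statement` (helper354)

Pure algebra (the `χ`-part).  `Hecke/Spec3.lean` (sub-architect helper3) cuts `IAAut5Statement`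
into the abstract Betti module `IABettiStatement` (a `T_Q`-module `V` with a `T_Q`-linear diamond
action of `∏ (ℤ/pv i)ˣ × ∏ (ℤ/qv j)ˣ`, free of rank `d`, with (NU) and (ST) into the
`χ`-relations, and `Cmp`) and this glue:

* `iaAutLevel_of_bettiLevel` : `B : IABettiLevel Piv pv qv PQ d`, `B.Cmp`, `ζ` a primitive
  `p`-th root of unity, `pv i` primes `≡ 1 mod p` ⟹ `∃ A : IAAutLevel Piv qv PQ (ζ - 1) d, A.Cmp`
  (`A.MQ` = the `χ`-part `B.V ⧸ chiRel`, `χ` the character of `ChiChar.exists_pivot_character`);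
* `iaAut5_of_betti : IABettiStatement → IAAut5Statement` (VERBATIM `Spec3`).
-/

set_option autoImplicit false
set_option linter.unusedSectionVars false
set_option linter.style.haveILetI false

open Polynomial IsLocalRing

namespace Fermat.Agent.S38.H354

open Fermat.Agent.S59.Arch Fermat.Agent.S59.TW.H959 Fermat.Agent.S59.TW Fermat.Agent.S59.H765
open Fermat.Agent.S38.IA Fermat.Agent.S38.IA.Hecke

/-- The augmentation submodule, in the shape of `IABettiLevel.st`. -/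
theorem chiRel_one_eq_span {T : Type*} [CommRing T] {V : Type*} [AddCommGroup V] [Module T V]
    {D : Type*} [Monoid D] (ρ : D →* Module.End T V) :
    chiRel ρ (1 : D →* T) =
      Submodule.span T {w : V | ∃ (a : D) (y : V), w = ρ a y - y} := by
  unfold chiRel
  congr 1
  ext w
  constructor
  · rintro ⟨a, y, rfl⟩
    exact ⟨a, y, by rw [MonoidHom.one_apply, one_smul]⟩
  · rintro ⟨a, y, rfl⟩
    exact ⟨a, y, by rw [MonoidHom.one_apply, one_smul]⟩

section Level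

variable {p : ℕ}
  {𝒪 : Type} [CommRing 𝒪] [IsDomain 𝒪] [IsDiscreteValuationRing 𝒪]
  [IsAdicComplete (maximalIdeal 𝒪) 𝒪]
  {ρbar : ResidualGaloisRep (ResidueField 𝒪)} {Smin : Finset ℕ}
  {Piv : Finset ℕ} {k : ℕ} {pv : Fin k → ℕ} {r : ℕ} {qv : Fin r → ℕ}
  [NeZero (wilesLevel p .flat Smin (Smin ∪ Piv ∪ Finset.univ.image qv))]
  {PQ : HeckePkg p 𝒪 ρbar .flat Smin (Smin ∪ Piv ∪ Finset.univ.image qv)} {d : ℕ}

/-- **Glue A at one Taylor–Wiles set**: the `χ`-part of an abstract Betti module is an automorphic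
Ihara-avoidance module. -/
theorem iaAutLevel_of_bettiLevel (B : IABettiLevel Piv pv qv PQ d) (hB : B.Cmp)
    (hp : p.Prime) (ζ : 𝒪) (hζ : IsPrimitiveRoot ζ p)
    (hpv : ∀ i, (pv i).Prime) (hdvd : ∀ i, p ∣ pv i - 1) :
    ∃ A : IAAutLevel Piv qv PQ (ζ - 1) d, A.Cmp := by
  refine exists_iaAutLevel_cyc PQ B.V pv B.dia d hp ζ hζ hpv hdvd B.dia_pow₁ B.dia_pow₂ B.free
    ?_ ?_ hB
  · intro χ hχp hχg t ht m
    have hpiv : IsPivChar p pv χ := by
      refine ⟨hχp, fun i => ?_⟩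
      obtain ⟨g, hg, -⟩ := exists_primitive_root_units (hpv i)
      exact ⟨g, hχg i g hg⟩
    induction m using Submodule.Quotient.induction_on with
    | H v =>
      rw [← Submodule.Quotient.mk_smul, Submodule.Quotient.mk_eq_zero]
      exact B.nu χ hpiv t ht v
  · intro q hq P hP φ hφ x
    rw [chiRel_one_eq_span]
    exact B.st q hq P hP φ hφ x

end Level

/-- An enumeration of a finite set of natural numbers. -/
theorem exists_enum (Piv : Finset ℕ) :
    ∃ (k : ℕ) (pv : Fin k → ℕ), Function.Injective pv ∧ Finset.univ.image pv = Piv := by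
  refine ⟨Piv.card, fun i => Piv.orderEmbOfFin rfl i, (Piv.orderEmbOfFin rfl).injective, ?_⟩
  have h := Finset.map_orderEmbOfFin_univ Piv (rfl : Piv.card = Piv.card)
  rw [Finset.map_eq_image] at h
  exact h

/-- **GLUE A** (VERBATIM `Hecke/Spec3.lean`): the abstract Betti module gives the automorphic
module of Ihara avoidance. -/
theorem iaAut5_of_betti (h : IABettiStatement) : IAAut5Statement := by
  intro p hpF hp5 𝒪 _ _ _ _ _ _ ρbar Smin hh hflat ζ hζ Piv hPiv _ θ₀ hθ₀ hmin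
  obtain ⟨k, pv, hpvinj, hpvPiv⟩ := exists_enum Piv
  have hmem : ∀ i, pv i ∈ Piv := by
    intro i
    rw [← hpvPiv]
    exact Finset.mem_image_of_mem pv (Finset.mem_univ i)
  have hpv : ∀ i, (pv i).Prime := fun i => (hPiv (pv i) (hmem i)).1
  have hdvd : ∀ i, p ∣ pv i - 1 := fun i => (hPiv (pv i) (hmem i)).2.2.1
  obtain ⟨d, hd, hB⟩ := h p hp5 𝒪 ρbar Smin hh hflat Piv hPiv θ₀ hθ₀ hmin k pv hpvinj hpvPiv
  refine ⟨d, hd, ?_⟩
  intro n r qv hq _ hp PQ hθ
  obtain ⟨B, hBcmp⟩ := hB n r qv hq hp PQ hθ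
  exact iaAutLevel_of_bettiLevel B hBcmp hpF.out ζ hζ hpv hdvd

end Fermat.Agent.S38.H354

end
-- ===== PACK-END S38/H354/GlueA.lean

-- ===== PACK-BEGIN S38/H916/IAFree.lean
section






/-!
# Row HARD, cell HECKE, layer 3, leaf IA-FREE (helper916)

`iaFree_h916 : Fermat.Agent.S38.IA.Hecke.IAFreeStatement` (VERBATIM).

* `free_of_isLocPart_h916` (generic index type `ι`, ANY `Tset`, `Uset`): for `5 ≤ p`, a family
  `qq : ι → ℕ` of distinct primes, `K = KG p N₀ qq = ker (Γ₀(M) → Δ)`, `V` a localisation of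
  `X_K(𝒪)` (`Aut.IsLocPart`) and a pair `(ℓ, c) ∈ Tset`, `ℓ ∤ M`, with `c - (ℓ + 1) ∈ 𝒪ˣ`
  (a non-Eisenstein prime): there is `d` such that for every family `a : E → ∏ (ℤ/qq s)ˣ`
  inducing a bijection `E → Δ`, `V` has an `𝒪`-basis `⟨a e⟩ b_i` (`i < d`, `e ∈ E`).
  Proof: `MFree.H587.free_heckeKer` at `κ = gKappa`, `e` = the projector of `V`, `t = T_ℓ`;
  (Ell) holds because `5 ≤ p` (`ell_of_card_h916`); `T_ℓ - (ℓ + 1)` is bijective on `V`
  (`H31.locPart_TK_sub_bij_h31`).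
* `iaFree_h916`: the case `ι = Fin k ⊕ Fin r`, `qq = Sum.elim pv qv`; the non-Eisenstein prime is
  `H31.exists_nonEis_mem_TsetOf` (Chebotarev + absolute irreducibility of `ρ̄`).
-/

set_option autoImplicit false

open Polynomial IsLocalRing CongruenceSubgroup
open scoped MatrixGroups

namespace Fermat.Agent.S38.H916

open Fermat.Agent.S59.Arch Fermat.Agent.S59.TW.H959 Fermat.Agent.S59.TW
open Fermat.Agent.S59.TW.H653 Fermat.Agent.S59.TW.Aut Fermat.Agent.S59.MFree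
open Fermat.Agent.S38.IA Fermat.Agent.S38.IA.Hecke

section Generic

variable {p : ℕ} [hpF : Fact p.Prime] (N₀ : ℕ) {ι : Type} [Fintype ι] (qq : ι → ℕ)
  {𝒪 : Type} [CommRing 𝒪] [IsDomain 𝒪] [IsDiscreteValuationRing 𝒪] [CharZero 𝒪]

/-- **FREE, generic form.** -/
theorem free_of_isLocPart_h916 (hp5 : 5 ≤ p) (hN₀ : N₀ ≠ 0) (hinj : Function.Injective qq)
    (hprime : ∀ s, (qq s).Prime) (hp𝒪 : ¬ IsUnit (p : 𝒪))
    {Tset Uset : Set (ℕ × 𝒪)} {V : Submodule 𝒪 (Additive (KG p N₀ qq) →+ 𝒪)}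
    (hV : IsLocPart (isMid_KG p N₀ qq) Tset Uset V)
    {ℓ : ℕ} (hℓ : ℓ.Prime) (hℓM : ¬ ℓ ∣ gLevel N₀ qq) {c : 𝒪} (hmem : (ℓ, c) ∈ Tset)
    (hu : IsUnit (c - ((ℓ : 𝒪) + 1))) :
    ∃ d : ℕ, ∀ (E : Type) [Fintype E] (a : E → ∀ s : ι, (ZMod (qq s))ˣ),
      Function.Bijective (fun e => (QuotientGroup.mk (a e) : GDelta p qq)) →
      ∃ b : Fin d → V, ∀ y : V, ∃! c : Fin d → E → 𝒪,
        (y : Additive (KG p N₀ qq) →+ 𝒪) =
          ∑ i, ∑ e, c i e • diamondU (isMid_KG p N₀ qq) (gLift N₀ qq (a e))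
            (b i : Additive (KG p N₀ qq) →+ 𝒪) := by
  classical
  have hp : p.Prime := hpF.out
  have hM : NeZero (gLevel N₀ qq) := neZero_gLevel_h916 N₀ qq hN₀ hprime
  have : ∀ s, NeZero (qq s) := fun s => ⟨(hprime s).ne_zero⟩
  have : Fact ℓ.Prime := ⟨hℓ⟩
  have hred := gRed_surjective_h916 N₀ qq hN₀ hinj hprime
  have hκ := gKappa_surjective_h916 p N₀ qq hred
  letI : Fintype (GDelta p qq) := Fintype.ofFinite _
  have hcardN := card_gDelta_h916 p qq hprime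
  have hcard : ∃ a : ℕ, Fintype.card (GDelta p qq) = p ^ a :=
    ⟨_, by rw [← Nat.card_eq_fintype_card]; exact hcardN⟩
  have hell : ∀ g : Gamma0 (gLevel N₀ qq), IsOfFinOrder g → gKappa p N₀ qq g = 1 :=
    fun g hg => ell_of_card_h916 (gKappa p N₀ qq) hp hp5 hcardN g hg
  have hΓ1 := gKappa_trivial_h916 p N₀ qq
  obtain ⟨e, he, heV, hVe, hT, -, hD, -⟩ := hV.exists_proj
  obtain ⟨hsurj, hinj'⟩ := H31.locPart_TK_sub_bij_h31 hV hℓM hmem hu
  have hTK : ∀ x : Additive (kerSub (gKappa p N₀ qq)) →+ 𝒪,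
      H587.heckeKerLin hℓM (gKappa p N₀ qq) hΓ1 𝒪 x = TK (gLevel N₀ qq) (KG p N₀ qq) ℓ x :=
    fun x => heckeKer_eq_TK hℓM (gKappa p N₀ qq) hΓ1 x
  have hconj : ∀ (g : Gamma0 (gLevel N₀ qq)) (z : Additive (kerSub (gKappa p N₀ qq)) →+ 𝒪),
      conjAct (gKappa p N₀ qq) g z =
        diamondU (isMid_KG p N₀ qq) (dUnit (gLevel N₀ qq) g⁻¹) z := by
    intro g z
    rw [conjAct_eq_diamond (gKappa p N₀ qq) hΓ1 g z, diamond_eq_diamondU]
    rfl
  have hfc := H587.free_heckeKer p (gLevel N₀ qq) ℓ hℓM hM.ne (GDelta p qq) (gKappa p N₀ qq)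
    hκ hcard hell hΓ1 𝒪 hp𝒪 e he
    (fun x => by rw [hTK, hTK]; exact hT ℓ hℓM x)
    (fun g x => by
      have h1 := hconj g x
      have h2 := hconj g (e x)
      have h3 := hD (dUnit (gLevel N₀ qq) g⁻¹) x
      exact (congrArg e h1).trans (h3.trans h2.symm))
    (fun y hy => by
      have hyV : y ∈ V := by rw [← hy]; exact heV y
      obtain ⟨x, hxV, hx⟩ := hsurj y hyV
      exact ⟨x, hVe x hxV, by rw [hTK]; exact hx⟩)
    (fun x hx h0 => by
      have hxV : x ∈ V := by rw [← hx]; exact heV x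
      rw [hTK] at h0
      exact hinj' x hxV h0)
  obtain ⟨⟨n, b, hb, hfree⟩, -, -⟩ := hfc
  refine ⟨n, fun E _ a ha => ?_⟩
  choose s hs using hκ
  obtain ⟨hli, hspan⟩ := hfree s hs
  refine ⟨fun i => ⟨b i, by rw [← hb i]; exact heV _⟩, fun y => ?_⟩
  have hε : Function.Bijective
      (fun e' : E => ((QuotientGroup.mk (a e') : GDelta p qq))⁻¹) :=
    (Equiv.inv (GDelta p qq)).bijective.comp ha
  have key := existsUnique_of_linearIndependent_h916
    (fun z : GDelta p qq × Fin n => conjAct (gKappa p N₀ qq) (s z.1) (b z.2)) hli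
    (fun e' : E => ((QuotientGroup.mk (a e') : GDelta p qq))⁻¹) hε
    (y : Additive (KG p N₀ qq) →+ 𝒪) (hspan _ (hVe _ y.2))
  have hrew : ∀ (e' : E) (i : Fin n),
      conjAct (gKappa p N₀ qq) (s ((QuotientGroup.mk (a e') : GDelta p qq))⁻¹) (b i) =
        diamondU (isMid_KG p N₀ qq) (gLift N₀ qq (a e')) (b i) :=
    fun e' i => (diamondU_gLift_eq_conjAct_h916 p N₀ qq hred (a e') _ (hs _) (b i)).symm
  simp only [hrew] at key
  exact key

end Generic

/-- **IA-FREE**, verbatim. -/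
theorem iaFree_h916 : IAFreeStatement := by
  intro p _ hp5 𝒪 _ _ _ _ _ _ ρbar Smin h hflat Piv hPiv k pv hpv hpvPiv n r qv hq _ PQ α hα V hV
  classical
  have hp : p.Prime := Fact.out
  have hN₀ : wilesLevel p .flat Smin Smin ≠ 0 := wilesLevel_ne_zero hp h.hSmin h.hSmin
  have hpvmem : ∀ i, pv i ∈ Piv := fun i => by
    rw [← hpvPiv]
    exact Finset.mem_image_of_mem pv (Finset.mem_univ i)
  have hprime : ∀ s, (Sum.elim pv qv s).Prime := by
    rintro (i | j)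
    · exact (hPiv (pv i) (hpvmem i)).1
    · exact (hq.2.1 j).1
  have hinj : Function.Injective (Sum.elim pv qv) := by
    rintro (i | j) (i' | j') hh
    · exact congrArg Sum.inl (hpv hh)
    · exfalso
      have h1 : qv j' ∉ Smin ∪ Piv := (hq.2.1 j').2.1
      apply h1
      rw [Finset.mem_union]
      right
      have h2 : pv i = qv j' := hh
      rw [← h2]
      exact hpvmem i
    · exfalso
      have h1 : qv j ∉ Smin ∪ Piv := (hq.2.1 j).2.1
      apply h1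
      rw [Finset.mem_union]
      right
      have h2 : qv j = pv i' := hh
      rw [h2]
      exact hpvmem i'
    · exact congrArg Sum.inr (hq.1 hh)
  have hM : MIA p Smin pv qv ≠ 0 :=
    (neZero_gLevel_h916 (wilesLevel p .flat Smin Smin) (Sum.elim pv qv) hN₀ hprime).ne
  obtain ⟨ℓ, c, hmem, hℓ, hℓS', -, -, hu⟩ :=
    H31.exists_nonEis_mem_TsetOf h PQ 1 one_pos (MIA p Smin pv qv).primeFactors
  have hℓM : ¬ ℓ ∣ MIA p Smin pv qv :=
    fun hd => hℓS' (Nat.mem_primeFactors.mpr ⟨hℓ, hd, hM⟩)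
  have hp𝒪 : ¬ IsUnit (p : 𝒪) := (mem_maximalIdeal _).mp h.hp𝒪
  obtain ⟨d, hd⟩ := free_of_isLocPart_h916 (wilesLevel p .flat Smin Smin) (Sum.elim pv qv)
    hp5 hN₀ hinj hprime hp𝒪 hV hℓ hℓM hmem hu
  refine ⟨d, fun g₁ g₂ hg₁ hg₂ => ?_⟩
  have hg : ∀ s, orderOf (pairU g₁ g₂ s) = Sum.elim pv qv s - 1 := by
    rintro (i | j)
    · exact hg₁ i
    · exact hg₂ j
  let ψ := (Equiv.sumPiEquivProdPi
    (fun s : Fin k ⊕ Fin r => Fin (p ^ padicValNat p (Sum.elim pv qv s - 1)))).symm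
  have hbij : Function.Bijective (fun e : (∀ i : Fin k, Fin (p ^ padicValNat p (pv i - 1))) ×
      (∀ j : Fin r, Fin (p ^ padicValNat p (qv j - 1))) =>
      (QuotientGroup.mk (pairU (fun i => g₁ i ^ (e.1 i : ℕ)) (fun j => g₂ j ^ (e.2 j : ℕ))) :
        GDelta p (Sum.elim pv qv))) := by
    have h1 := (gEps_bijective_h916 p (Sum.elim pv qv) hprime (pairU g₁ g₂) hg).comp ψ.bijective
    have h2 : (gEps_h916 p (Sum.elim pv qv) (pairU g₁ g₂)) ∘ ψ =
        (fun e : (∀ i : Fin k, Fin (p ^ padicValNat p (pv i - 1))) ×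
          (∀ j : Fin r, Fin (p ^ padicValNat p (qv j - 1))) =>
          (QuotientGroup.mk (pairU (fun i => g₁ i ^ (e.1 i : ℕ))
            (fun j => g₂ j ^ (e.2 j : ℕ))) : GDelta p (Sum.elim pv qv))) := by
      funext e
      show (QuotientGroup.mk (fun s => pairU g₁ g₂ s ^ ((ψ e s : Fin _) : ℕ)) :
        GDelta p (Sum.elim pv qv)) = _
      congr 1
      funext s
      rcases s with i | j <;> rfl
    rw [← h2]
    exact h1
  exact hd _ _ hbij

example : Fermat.Agent.S38.IA.Hecke.IAFreeStatement := iaFree_h916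

end Fermat.Agent.S38.H916


end
-- ===== PACK-END S38/H916/IAFree.lean

-- ===== PACK-BEGIN S38/H781/IAMod.lean
section





/-!
# Row HARD, cell HECKE, layer 3: leaf IA-MOD  (helper781)

`iaMod : IA.Hecke.IAModStatement` VERBATIM (`S38/IA/Hecke/Spec3.lean` v2, helper3): the Hecke ring
`T_Q = heckeLocal (N_min ∏_{Piv ∪ Q} q²)` of the package `P_Q` acts on the localisation
`V ⊆ X_K(𝒪)`, `K = Γ₀(N_min) ∩ Γ_H(Piv ∪ Q)`, through the twisted operators `⟨ℓ⟩^h T_ℓ`, for an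
`h` with `2h ≡ -1` modulo the exponents of `Δ_Piv` and `Δ_Q`.

Pure glue of main, for the combined family `Sum.elim pv qv`:
* `H564.isParabolic_of_pkg` (PAR: `V` consists of parabolic classes);
* `H658.exists_heckeAction_sub_of_odd` (TW-ES + TW-TWIST: the ring homomorphism
  `heckeAlgebra N' 2 Σ →+* End V`, `T_ℓ ↦ ⟨ℓ⟩^h T_ℓ`);
* `H564.exists_locAction` (GENNIL + LOCACT: extension to the localisation `heckeLocal`);
* the level arithmetic of `IAModLevel.lean`.

`iaMod_core_h781` is the same statement for an arbitrary type `t` at `p` and an arbitrary family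
`qq : ι → ℕ` of distinct primes outside `Smin` (no hypothesis on `ρ̄` at the `qq s`).
-/

set_option autoImplicit false
set_option linter.unusedSectionVars false
set_option linter.style.haveILetI false
set_option maxHeartbeats 1000000
set_option synthInstance.maxHeartbeats 400000

noncomputable section

namespace Fermat.Agent.S38.H781

open CongruenceSubgroup IsLocalRing CuspForm
open Fermat.Agent.S59.Arch Fermat.Agent.S59.TW.H959 Fermat.Agent.S59.TW.H653
open Fermat.Agent.S59.TW.Aut Fermat.Agent.S59.TW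
open Fermat.Agent.S38.IA Fermat.Agent.S38.IA.Hecke
open scoped MatrixGroups

section Core

variable {p : ℕ} [Fact p.Prime]
  {𝒪 : Type} [CommRing 𝒪] [IsDomain 𝒪] [IsDiscreteValuationRing 𝒪]
  [IsAdicComplete (maximalIdeal 𝒪) 𝒪] [Finite (ResidueField 𝒪)] [CharZero 𝒪]
  {ρbar : ResidualGaloisRep (ResidueField 𝒪)} {Smin : Finset ℕ} {t : PType} {Sig : Finset ℕ}
  [NeZero (wilesLevel p t Smin Sig)]
  {ι : Type} [Fintype ι] (qq : ι → ℕ)

/-- **IA-MOD, core.**  `qq : ι → ℕ` a family of distinct primes outside `Smin`,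
`Σ = Smin ∪ image qq`, `K = KG p N₀ qq`, `V ⊆ X_K(𝒪)` a localisation at an eigen-system containing
`TsetOf P`, `h` with `p^{m_s} ∣ 2h + 1` for all `s`: the Hecke ring of the package acts on `V`
through `T_ℓ ↦ ⟨ℓ⟩^h T_ℓ`. -/
theorem iaMod_core_h781 (hRH : ResidualHyp p 𝒪 ρbar Smin)
    (hqi : Function.Injective qq) (hq : ∀ s, (qq s).Prime ∧ qq s ∉ Smin)
    (hSig : Sig = Smin ∪ Finset.univ.image qq)
    (P : HeckePkg p 𝒪 ρbar t Smin Sig) {Uset : Set (ℕ × 𝒪)}
    (V : Submodule 𝒪 (Additive (KG p (wilesLevel p t Smin Smin) qq) →+ 𝒪))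
    (hV : IsLocPart (isMid_KG p (wilesLevel p t Smin Smin) qq) (TsetOf P) Uset V)
    {h a : ℕ} (hh : ∀ s, p ^ padicValNat p (qq s - 1) ∣ 2 * h + 1)
    (ha : ∀ s, p ^ padicValNat p (qq s - 1) ∣ p ^ a) :
    ∃ act : P.T →ₐ[𝒪] Module.End 𝒪 V,
      ActsBy P V act (tOpTw (isMid_KG p (wilesLevel p t Smin Smin) qq) 𝒪 h) := by
  classical
  have hp : p.Prime := Fact.out
  have hSminP := hRH.hSmin
  have hpS := hRH.hpSmin
  -- the levels
  have hN₀ : wilesLevel p t Smin Smin ≠ 0 :=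
    wilesLevel_ne_zero hp hSminP hSminP
  haveI hMne : NeZero (gLevel (wilesLevel p t Smin Smin) qq) :=
    ⟨gLevel_ne_zero _ qq hN₀ fun s => (hq s).1⟩
  have hSigP : ∀ q ∈ Sig, q.Prime := by
    intro q hqS
    rw [hSig, Finset.mem_union] at hqS
    rcases hqS with h1 | h1
    · exact hSminP q h1
    · obtain ⟨s, -, rfl⟩ := Finset.mem_image.mp h1
      exact (hq s).1
  have hsub : Smin ⊆ Sig := by
    rw [hSig]
    exact Finset.subset_union_left
  have hS : ∀ q : ℕ, q.Prime → q ∣ wilesLevel p t Smin Sig → q ∈ (↑Sig : Set ℕ) :=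
    fun q hqp hd => Finset.mem_coe.mpr
      (mem_of_prime_dvd_wilesLevel hp hSminP hSigP hpS hsub q hqp hd)
  have hN' : gLevel (wilesLevel p t Smin Smin) qq * ∏ s, qq s ∣ wilesLevel p t Smin Sig := by
    rw [hSig]
    exact gLevel_mul_prod_dvd_h781 p t Smin qq hqi fun s => (hq s).2
  have hMN : gLevel (wilesLevel p t Smin Smin) qq ∣ wilesLevel p t Smin Sig :=
    (Dvd.intro _ rfl).trans hN'
  have hK := isMid_KG p (wilesLevel p t Smin Smin) qq
  haveI : (KG p (wilesLevel p t Smin Smin) qq).FiniteIndex :=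
    H564.finiteIndex_of_Gamma1_le hK.ge
  -- the list of the primes
  set Qs : List ℕ := (Finset.univ : Finset ι).toList.map qq with hQsdef
  have hQsprod : Qs.prod = ∏ s, qq s := Finset.prod_map_toList _ _
  have hQsnd : Qs.Nodup := (Finset.nodup_toList _).map hqi
  have hQsmem : ∀ q ∈ Qs, ∃ s, qq s = q := by
    intro q hqQ
    obtain ⟨s, -, hs⟩ := List.mem_map.mp hqQ
    exact ⟨s, hs⟩
  -- `V` is parabolic
  have hpSig : p ∈ Sig := hsub hpS
  have hpar : ∀ v ∈ V, ModularCurve.Period.IsParabolicHom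
      (KG p (wilesLevel p t Smin Smin) qq) v :=
    H564.isParabolic_of_pkg hRH hpSig P hS hK hMN hV
  -- the ring homomorphism
  obtain ⟨Ψ, hΨ⟩ := H658.exists_heckeAction_sub_of_odd (R := 𝒪) hK Qs hQsnd
    (fun q hqQ => by
      obtain ⟨s, rfl⟩ := hQsmem q hqQ
      exact ⟨(hq s).1, exists_gLevel_eq_h781 p t Smin qq hpS hSminP hqi hq s⟩)
    (fun γ hγ hd => by
      rw [hQsprod] at hd
      exact mem_KG_of_dvd_h781 p _ qq hγ hd)
    h (fun γ hγ => pow_mem_KG_h781 p _ qq hh hγ)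
    (N' := wilesLevel p t Smin Sig) (by rw [hQsprod]; exact hN')
    (↑Sig : Set ℕ) hS V hpar
    (fun ℓ _ hℓN _ v hv =>
      H658.stable_of_isLocPart hK hV _ ℓ (fun hd => hℓN (hd.trans hMN)) v hv)
  -- the localisation
  haveI := P.integral
  obtain ⟨act, hact⟩ := H564.exists_locAction hK hp hRH.hp2 hRH.hp𝒪 hMN hS hV
    (θ := P.θ)
    (fun ℓ hℓ hℓN hℓS c hc => ⟨hℓ, hℓN, hℓS, hc⟩)
    (fun ℓ => H658.uCls (gLevel (wilesLevel p t Smin Smin) qq) ℓ ^ h) a
    (fun ℓ x => by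
      apply diamondU_of_gChi
      exact gChi_pow_h781 p _ qq ha _)
    Ψ hΨ
  refine ⟨act, fun ℓ hℓ hℓN hℓS v => ?_⟩
  haveI : Fact ℓ.Prime := ⟨hℓ⟩
  rw [P.hπ, hact, hΨ ℓ hℓN hℓS v]
  rfl

end Core

/-- **Leaf IA-MOD.** -/
theorem iaMod : IAModStatement := by
  intro p _ _ 𝒪 _ _ _ _ _ _ ρbar Smin hRH _ Piv hPiv k pv hpv hpvPiv n r qv hq _ PQ α _ V hV
  have hp : p.Prime := Fact.out
  have hpodd : Odd p := hp.odd_of_ne_two hRH.hp2
  obtain ⟨hqinj, hqprop, -⟩ := hq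
  have hpvmem : ∀ i, pv i ∈ Piv := fun i => by
    rw [← hpvPiv]
    exact Finset.mem_image_of_mem _ (Finset.mem_univ i)
  have hdisj : ∀ i j, pv i ≠ qv j := fun i j hij =>
    (hqprop j).2.1 (Finset.mem_union_right _ (hij ▸ hpvmem i))
  have hqqinj : Function.Injective (Sum.elim pv qv) :=
    injective_sum_elim_h781 pv qv hpv hqinj hdisj
  have hqqP : ∀ s, (Sum.elim pv qv s).Prime ∧ Sum.elim pv qv s ∉ Smin := by
    rintro (i | j)
    · exact ⟨(hPiv _ (hpvmem i)).1, (hPiv _ (hpvmem i)).2.1⟩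
    · exact ⟨(hqprop j).1, fun hmem => (hqprop j).2.1 (Finset.mem_union_left _ hmem)⟩
  have hset : Smin ∪ Piv ∪ Finset.univ.image qv =
      Smin ∪ Finset.univ.image (Sum.elim pv qv) := by
    rw [image_sum_elim_h781, hpvPiv, Finset.union_assoc]
  obtain ⟨h, a, h1, h2, -, ha⟩ := exists_isHalf_two_h781 p pv qv hpodd
  obtain ⟨act, hact⟩ := iaMod_core_h781 (Sum.elim pv qv) hRH hqqinj hqqP hset PQ V hV
    (isHalf_sum_h781 p pv qv h1 h2) ha
  exact ⟨h, act, h1, h2, hact⟩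

end Fermat.Agent.S38.H781

end
end
-- ===== PACK-END S38/H781/IAMod.lean

-- ===== PACK-BEGIN S38/H473/PtGlue.lean
section






/-!
# Row HARD, cell HECKE, leaves IA-NU / IA-ST: from points to the module  (helper473)

`iaNu_of_pt : IAFreeStatement → IANuPtStatement → IANuStatement`,
`iaSt_of_pt : IAFreeStatement → IAStPtStatement → IAStStatement`   (VERBATIM layer 3, v2).

Route: `V / chiRelIA χ V` has no `𝒪`-torsion (`ChiSat.lean`, from the basis `⟨g^e⟩ b_i` of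
IA-FREE), `T_Q` is reduced (`S59.G4.H547.red`), hence an element of `T_Q` vanishing at every
local `p`-adic point through the annihilator of `V / chiRelIA χ V` kills it (`H113.kill`).
-/

set_option autoImplicit false
set_option linter.unusedSectionVars false
set_option linter.style.haveILetI false

open Polynomial IsLocalRing CongruenceSubgroup
open scoped MatrixGroups

namespace Fermat.Agent.S38.H473

open Fermat.Agent.S59.Arch Fermat.Agent.S59.TW.H959 Fermat.Agent.S59.TW Fermat.Agent.S59.H765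
open Fermat.Agent.S59.TW.H653 Fermat.Agent.S59.TW.Aut
open Fermat.Agent.S38.IA Fermat.Agent.S38.IA.Hecke
open CuspForm

section Glue

variable {p : ℕ} [hpF : Fact p.Prime]
  {𝒪 : Type} [CommRing 𝒪] [IsDomain 𝒪] [IsDiscreteValuationRing 𝒪]
  [IsAdicComplete (maximalIdeal 𝒪) 𝒪]
  {ρbar : ResidualGaloisRep (ResidueField 𝒪)} {Smin Piv : Finset ℕ}
  {k r : ℕ} {pv : Fin k → ℕ} {qv : Fin r → ℕ}
  [NeZero (wilesLevel p .flat Smin (Smin ∪ Piv ∪ Finset.univ.image qv))]
  {PQ : HeckePkg p 𝒪 ρbar .flat Smin (Smin ∪ Piv ∪ Finset.univ.image qv)}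
  {α : Fin r → 𝒪} {V : Submodule 𝒪 (XIA p Smin pv qv 𝒪)} {h : ℕ}
  {a : PQ.T →ₐ[𝒪] Module.End 𝒪 V}
  [NeZero (MIA p Smin pv qv)]
  (hV : IsIAPart PQ α V)
  (hsurj : Function.Surjective (gRed (wilesLevel p .flat Smin Smin) (Sum.elim pv qv)))

/-- The diamond action of the pivot group `∏ (ℤ/pv i)ˣ` on `V`. -/
noncomputable def diaPiv : (∀ i : Fin k, (ZMod (pv i))ˣ) →* Module.End 𝒪 V :=
  (diaLin hV hsurj).comp (MonoidHom.inl _ _)

theorem coe_diaPiv (a₁ : ∀ i : Fin k, (ZMod (pv i))ˣ) (v : V) :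
    ((diaPiv hV hsurj a₁ v : V) : XIA p Smin pv qv 𝒪) = diaIA p Smin pv qv 𝒪 a₁ 1 v := rfl

/-- `chiRelIA χ V` is the image of the `χ`-relations of the pivot action on `V`. -/
theorem chiRelIA_eq_map (χ : (∀ i : Fin k, (ZMod (pv i))ˣ) →* 𝒪) :
    chiRelIA p Smin pv qv χ V =
      (chiRelSpan (V := V) (diaPiv hV hsurj) χ).map V.subtype := by
  unfold chiRelIA chiRelSpan
  rw [Submodule.map_span]
  congr 1
  ext w
  constructor
  · rintro ⟨a₁, y, hy, rfl⟩
    exact ⟨diaPiv hV hsurj a₁ ⟨y, hy⟩ - χ a₁ • ⟨y, hy⟩, ⟨a₁, ⟨y, hy⟩, rfl⟩, rfl⟩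
  · rintro ⟨_, ⟨a₁, y, rfl⟩, rfl⟩
    exact ⟨a₁, y, y.2, rfl⟩

theorem mem_chiRelIA_iff (χ : (∀ i : Fin k, (ZMod (pv i))ˣ) →* 𝒪) (v : V) :
    (v : XIA p Smin pv qv 𝒪) ∈ chiRelIA p Smin pv qv χ V ↔
      v ∈ chiRelSpan (diaPiv hV hsurj) χ := by
  rw [chiRelIA_eq_map hV hsurj χ, Submodule.mem_map]
  constructor
  · rintro ⟨v', hv', e⟩
    have : v' = v := Subtype.ext e
    rw [← this]
    exact hv'
  · intro hv
    exact ⟨v, hv, rfl⟩

/-! ## The action of `T_Q` preserves the `χ`-relations -/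

section Comm

variable (ha : IsIAAction PQ V h a)
  (hsig : ∀ q : ℕ, q.Prime →
    q ∣ wilesLevel p .flat Smin (Smin ∪ Piv ∪ Finset.univ.image qv) →
    q ∈ (↑(Smin ∪ Piv ∪ Finset.univ.image qv) : Set ℕ))
  (hM : ∀ ℓ : ℕ, ℓ.Prime →
    ¬ ℓ ∣ wilesLevel p .flat Smin (Smin ∪ Piv ∪ Finset.univ.image qv) →
    ℓ ∉ (↑(Smin ∪ Piv ∪ Finset.univ.image qv) : Set ℕ) → ¬ ℓ ∣ MIA p Smin pv qv)

include ha hsig hM in
theorem a_diaPiv (t : PQ.T) (a₁ : ∀ i : Fin k, (ZMod (pv i))ˣ) (v : V) :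
    a t (diaPiv hV hsurj a₁ v) = diaPiv hV hsurj a₁ (a t v) :=
  Subtype.ext (a_diaIA hV ha hsig hM a₁ 1 t v)

include ha hsig hM in
/-- The action of `T_Q` preserves the `χ`-relations. -/
theorem a_mem_chiRelSpan (χ : (∀ i : Fin k, (ZMod (pv i))ˣ) →* 𝒪) (t : PQ.T) (v : V)
    (h0 : v ∈ chiRelSpan (V := V) (diaPiv hV hsurj) χ) :
    a t v ∈ chiRelSpan (V := V) (diaPiv hV hsurj) χ := by
  have hf : ∀ (a₁ : ∀ i : Fin k, (ZMod (pv i))ˣ) (y : V),
      a t (diaPiv hV hsurj a₁ y) = diaPiv hV hsurj a₁ (a t y) := by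
    intro a₁ y
    exact a_diaPiv hV hsurj ha hsig hM t a₁ y
  have key := @map_mem_chiRelSpan 𝒪 _ V _ _ _ _ (diaPiv hV hsurj) χ (a t)
  exact key hf h0

/-- The `χ`-relations as a `T_Q`-submodule of `VMod V a`. -/
noncomputable def relSub (χ : (∀ i : Fin k, (ZMod (pv i))ˣ) →* 𝒪) :
    Submodule PQ.T (VMod V a) where
  carrier := {v | VMod.val v ∈ chiRelSpan (V := V) (diaPiv hV hsurj) χ}
  add_mem' := by
    intro x y hx hy
    have h1 : VMod.val x + VMod.val y ∈ chiRelSpan (V := V) (diaPiv hV hsurj) χ :=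
      Submodule.add_mem _ hx hy
    exact h1
  zero_mem' := by
    have h1 : (0 : V) ∈ chiRelSpan (V := V) (diaPiv hV hsurj) χ := Submodule.zero_mem _
    exact h1
  smul_mem' := by
    intro t v hv
    have h0 : VMod.val v ∈ chiRelSpan (V := V) (diaPiv hV hsurj) χ := hv
    have h1 := a_mem_chiRelSpan hV hsurj ha hsig hM χ t (VMod.val v) h0
    show VMod.val (t • v) ∈ chiRelSpan (V := V) (diaPiv hV hsurj) χ
    rw [VMod.smul_def]
    exact h1

theorem mem_relSub (χ : (∀ i : Fin k, (ZMod (pv i))ˣ) →* 𝒪) (v : VMod V a) :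
    v ∈ relSub hV hsurj ha hsig hM χ ↔
      VMod.val v ∈ chiRelSpan (V := V) (diaPiv hV hsurj) χ := Iff.rfl

end Comm

/-! ## Saturation of `chiRelIA χ V` in `V` -/

section Sat

theorem diaPiv_pow (c : ∀ i : Fin k, (ZMod (pv i))ˣ) :
    diaPiv hV hsurj (fun i => c i ^ p ^ padicValNat p (pv i - 1)) = 1 := by
  refine LinearMap.ext fun v => Subtype.ext ?_
  rw [coe_diaPiv]
  have key := diaIA_pow p Smin pv qv 𝒪 hsurj c 1 (v : XIA p Smin pv qv 𝒪)
  have h1 : (fun j => (1 : ∀ j : Fin r, (ZMod (qv j))ˣ) j ^ p ^ padicValNat p (qv j - 1)) = 1 := by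
    funext j
    exact one_pow _
  rw [h1] at key
  exact key

/-- The sum over `(Fin d × E₂) × E₁` is the sum over `Fin d × (E₁ × E₂)`. -/
theorem coe_sum_reindex {d : ℕ} (g₁ : ∀ i : Fin k, (ZMod (pv i))ˣ)
    (g₂ : ∀ j : Fin r, (ZMod (qv j))ˣ) (b : Fin d → V)
    (c' : Fin d × (∀ j : Fin r, Fin (p ^ padicValNat p (qv j - 1))) →
      (∀ i : Fin k, Fin (p ^ padicValNat p (pv i - 1))) → 𝒪) :
    ((∑ j : Fin d × (∀ j : Fin r, Fin (p ^ padicValNat p (qv j - 1))),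
        ∑ e : (∀ i : Fin k, Fin (p ^ padicValNat p (pv i - 1))),
          c' j e • diaPiv hV hsurj (fun i => g₁ i ^ (e i : ℕ))
            (diaLin hV hsurj (1, fun j' => g₂ j' ^ (j.2 j' : ℕ)) (b j.1)) : V) :
        XIA p Smin pv qv 𝒪) =
      ∑ i : Fin d, ∑ e : (∀ i : Fin k, Fin (p ^ padicValNat p (pv i - 1))) ×
          (∀ j : Fin r, Fin (p ^ padicValNat p (qv j - 1))),
        c' (i, e.2) e.1 • diaIA p Smin pv qv 𝒪 (fun i' => g₁ i' ^ (e.1 i' : ℕ))
          (fun j => g₂ j ^ (e.2 j : ℕ)) (b i) := by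
  rw [Submodule.coe_sum, Fintype.sum_prod_type]
  refine Finset.sum_congr rfl fun i _ => ?_
  rw [Fintype.sum_prod_type, Finset.sum_comm]
  refine Finset.sum_congr rfl fun e₂ _ => ?_
  rw [Submodule.coe_sum]
  refine Finset.sum_congr rfl fun e₁ _ => ?_
  rw [Submodule.coe_smul]
  congr 1
  show diaIA p Smin pv qv 𝒪 (fun i => g₁ i ^ (e₁ i : ℕ)) 1
      (diaIA p Smin pv qv 𝒪 1 (fun j' => g₂ j' ^ (e₂ j' : ℕ)) (b i)) = _
  rw [← diaIA_mul p Smin pv qv 𝒪 hsurj, mul_one, one_mul]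

include hpF in
/-- **`V / chiRelIA χ V` has no `𝒪`-torsion** (from the basis of IA-FREE). -/
theorem chiRelSpan_saturated (hpvP : ∀ i, (pv i).Prime) (hpvd : ∀ i, p ∣ pv i - 1)
    (hqvP : ∀ j, (qv j).Prime) {d : ℕ} (hfree : IAFreeAt V d)
    (χ : (∀ i : Fin k, (ZMod (pv i))ˣ) →* 𝒪) (hχ : ∀ a₁, χ a₁ ^ p = 1)
    {l : 𝒪} (hl : l ≠ 0) {v : V}
    (hv : l • v ∈ chiRelSpan (V := V) (diaPiv hV hsurj) χ) :
    v ∈ chiRelSpan (V := V) (diaPiv hV hsurj) χ := by
  haveI : ∀ i, NeZero (pv i) := fun i => ⟨(hpvP i).ne_zero⟩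
  haveI : ∀ j, NeZero (qv j) := fun j => ⟨(hqvP j).ne_zero⟩
  choose g₁ hg₁ hgen₁ using fun i => exists_primitive_root_units (hpvP i)
  choose g₂ hg₂ _ using fun j => exists_primitive_root_units (hqvP j)
  have hm₁ : ∀ i, 0 < p ^ padicValNat p (pv i - 1) := fun i => pow_pos hpF.out.pos _
  have hm1 : ∀ i, 1 ≤ padicValNat p (pv i - 1) := fun i =>
    one_le_padicValNat_of_dvd (Nat.sub_ne_zero_of_lt (hpvP i).one_lt) (hpvd i)
  obtain ⟨b, hb⟩ := hfree g₁ g₂ hg₁ hg₂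
  refine mem_chiRelSpan_of_smul_mem
    (E := (∀ i : Fin k, Fin (p ^ padicValNat p (pv i - 1))))
    (J := Fin d × (∀ j : Fin r, Fin (p ^ padicValNat p (qv j - 1))))
    (γ := fun e i => g₁ i ^ (e i : ℕ))
    (b := fun j => diaLin hV hsurj (1, fun j' => g₂ j' ^ (j.2 j' : ℕ)) (b j.1))
    (comboMap_bijective_of_existsUnique ?_) ?_ hl hv
  · -- the basis
    intro y
    obtain ⟨c, hc, hcu⟩ := hb y
    refine ⟨fun j e => c j.1 (e, j.2), ?_, ?_⟩
    · apply Subtype.ext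
      rw [coe_sum_reindex hV hsurj g₁ g₂ b]
      exact hc
    · intro c' hc'
      have h1 := congrArg Subtype.val hc'
      rw [coe_sum_reindex hV hsurj g₁ g₂ b] at h1
      have h2 := hcu (fun i e => c' (i, e.2) e.1) h1
      funext j e
      rw [← h2]
  · -- the exponents are permuted, compatibly with `χ`
    intro a₁ e
    choose e₁ c₁ h₁ using fun i => exists_translate (hgen₁ i) (hm₁ i) (a₁ i) (e i)
    have h3 : a₁ * (fun i => g₁ i ^ (e i : ℕ)) =
        (fun i => g₁ i ^ (e₁ i : ℕ)) * fun i => c₁ i ^ p ^ padicValNat p (pv i - 1) :=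
      funext h₁
    refine ⟨e₁, ?_, ?_⟩
    · rw [h3, map_mul, diaPiv_pow hV hsurj c₁, mul_one]
    · have h5 : (fun i => c₁ i ^ p ^ padicValNat p (pv i - 1)) =
          (fun i => c₁ i ^ p ^ (padicValNat p (pv i - 1) - 1)) ^ p := by
        funext i
        rw [Pi.pow_apply, ← pow_mul, ← pow_succ, Nat.sub_add_cancel (hm1 i)]
      rw [h3, map_mul, h5, map_pow, hχ, mul_one]

end Sat

/-! ## From the points to the module -/

section Kill

variable [Finite (ResidueField 𝒪)] [CharZero 𝒪]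
  (ha : IsIAAction PQ V h a)
  (hsig : ∀ q : ℕ, q.Prime →
    q ∣ wilesLevel p .flat Smin (Smin ∪ Piv ∪ Finset.univ.image qv) →
    q ∈ (↑(Smin ∪ Piv ∪ Finset.univ.image qv) : Set ℕ))
  (hM : ∀ ℓ : ℕ, ℓ.Prime →
    ¬ ℓ ∣ wilesLevel p .flat Smin (Smin ∪ Piv ∪ Finset.univ.image qv) →
    ℓ ∉ (↑(Smin ∪ Piv ∪ Finset.univ.image qv) : Set ℕ) → ¬ ℓ ∣ MIA p Smin pv qv)

include hpF hV hsurj ha hsig hM in
/-- **KILL for `V / chiRelIA χ V`.**  An element of `T_Q` vanishing at every local `p`-adic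
point through the annihilator of `V / chiRelIA χ V` maps `V` into `chiRelIA χ V`. -/
theorem kill_chiRelIA (hp𝒪 : (p : 𝒪) ∈ maximalIdeal 𝒪)
    (hpvP : ∀ i, (pv i).Prime) (hpvd : ∀ i, p ∣ pv i - 1)
    (hqvP : ∀ j, (qv j).Prime) {d : ℕ} (hfree : IAFreeAt V d)
    (χ : (∀ i : Fin k, (ZMod (pv i))ˣ) →* 𝒪) (hχ : ∀ a₁, χ a₁ ^ p = 1) (t : PQ.T)
    (ht : ∀ P : Fermat.Agent.S31.PadicPoint p PQ.T, IsLocalHom P.χ →
      ThroughAnn PQ V a χ P.χ → P.χ t = 0) :
    ∀ v : V, ((a t v : V) : XIA p Smin pv qv 𝒪) ∈ chiRelIA p Smin pv qv χ V := by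
  haveI : IsReduced PQ.T := Fermat.Agent.S59.G4.H547.red _ _ hsig 𝒪 PQ.θ
  -- no `𝒪`-torsion
  have htf : ∀ l : 𝒪, l ≠ 0 → ∀ m : VMod V a ⧸ relSub hV hsurj ha hsig hM χ,
      algebraMap 𝒪 PQ.T l • m = 0 → m = 0 := by
    intro l hl m hm
    obtain ⟨v, rfl⟩ := Submodule.Quotient.mk_surjective _ m
    rw [← Submodule.Quotient.mk_smul, Submodule.Quotient.mk_eq_zero, mem_relSub,
      VMod.algebraMap_smul] at hm
    rw [Submodule.Quotient.mk_eq_zero, mem_relSub]
    exact chiRelSpan_saturated hV hsurj hpvP hpvd hqvP hfree χ hχ hl hm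
  -- the annihilator
  have hann : ∀ t' : PQ.T,
      (∀ v : V, ((a t' v : V) : XIA p Smin pv qv 𝒪) ∈ chiRelIA p Smin pv qv χ V) →
      ∀ m : VMod V a ⧸ relSub hV hsurj ha hsig hM χ, t' • m = 0 := by
    intro t' ht' m
    obtain ⟨v, rfl⟩ := Submodule.Quotient.mk_surjective _ m
    rw [← Submodule.Quotient.mk_smul, Submodule.Quotient.mk_eq_zero, mem_relSub,
      VMod.smul_def]
    exact (mem_chiRelIA_iff hV hsurj χ _).mp (ht' (VMod.val v))
  have key := Fermat.Agent.S38.H113.kill p hp𝒪 htf t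
    (fun P hP hP' => ht P hP (fun t' ht' => hP' t' (hann t' ht')))
  intro v
  have h1 := key (Submodule.Quotient.mk (VMod.mk v))
  rw [← Submodule.Quotient.mk_smul, Submodule.Quotient.mk_eq_zero, mem_relSub,
    VMod.smul_def] at h1
  exact (mem_chiRelIA_iff hV hsurj χ _).mpr h1

end Kill

end Glue

/-! ## The standing facts -/

section Facts

variable {p : ℕ} [hpF : Fact p.Prime]
  {𝒪 : Type} [CommRing 𝒪] [IsDomain 𝒪] [IsDiscreteValuationRing 𝒪]
  [IsAdicComplete (maximalIdeal 𝒪) 𝒪]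
  {ρbar : ResidualGaloisRep (ResidueField 𝒪)} {Smin Piv : Finset ℕ}
  {k r : ℕ} {pv : Fin k → ℕ} {qv : Fin r → ℕ}

include hpF in
/-- The primes, the Chinese remainder theorem and the levels (as in glue B, helper3). -/
theorem ia_basic_facts (h : ResidualHyp p 𝒪 ρbar Smin) (hPiv : IsPivotSet p ρbar Smin Piv)
    (hpv : Function.Injective pv) (hpvPiv : Finset.univ.image pv = Piv)
    {n : ℕ} (hq : IsTWSet p ρbar (Smin ∪ Piv) n qv) :
    (∀ i, (pv i).Prime) ∧ (∀ i, p ∣ pv i - 1) ∧ (∀ j, (qv j).Prime) ∧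
      Function.Surjective (gRed (wilesLevel p .flat Smin Smin) (Sum.elim pv qv)) ∧
      MIA p Smin pv qv ≠ 0 ∧
      (∀ q : ℕ, q.Prime →
        q ∣ wilesLevel p .flat Smin (Smin ∪ Piv ∪ Finset.univ.image qv) →
        q ∈ (↑(Smin ∪ Piv ∪ Finset.univ.image qv) : Set ℕ)) ∧
      (∀ ℓ : ℕ, ℓ.Prime →
        ¬ ℓ ∣ wilesLevel p .flat Smin (Smin ∪ Piv ∪ Finset.univ.image qv) →
        ℓ ∉ (↑(Smin ∪ Piv ∪ Finset.univ.image qv) : Set ℕ) → ¬ ℓ ∣ MIA p Smin pv qv) := by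
  obtain ⟨hqinj, hqv, -⟩ := id hq
  have hpvMem : ∀ i, pv i ∈ Piv := fun i => by
    rw [← hpvPiv]
    exact Finset.mem_image_of_mem pv (Finset.mem_univ i)
  have hpvP : ∀ i, (pv i).Prime := fun i => (hPiv (pv i) (hpvMem i)).1
  have hpvd : ∀ i, p ∣ pv i - 1 := fun i => (hPiv (pv i) (hpvMem i)).2.2.1
  have hqvP : ∀ j, (qv j).Prime := fun j => (hqv j).1
  have hPivP : ∀ q ∈ Piv, q.Prime := fun q hq' => (hPiv q hq').1
  have hQP : ∀ q ∈ Finset.univ.image qv, q.Prime := by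
    intro q hq'
    obtain ⟨j, -, rfl⟩ := Finset.mem_image.mp hq'
    exact hqvP j
  have hSigP : ∀ q ∈ Smin ∪ Piv ∪ Finset.univ.image qv, q.Prime := by
    intro q hq'
    rcases Finset.mem_union.mp hq' with h' | h'
    · rcases Finset.mem_union.mp h' with h'' | h''
      · exact h.hSmin q h''
      · exact hPivP q h''
    · exact hQP q h'
  have hsub : Smin ⊆ Smin ∪ Piv ∪ Finset.univ.image qv :=
    Finset.subset_union_left.trans Finset.subset_union_left
  have hpvSig : ∀ i, pv i ∈ Smin ∪ Piv ∪ Finset.univ.image qv := fun i =>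
    Finset.mem_union_left _ (Finset.mem_union_right _ (hpvMem i))
  have hqvSig : ∀ j, qv j ∈ Smin ∪ Piv ∪ Finset.univ.image qv := fun j =>
    Finset.mem_union_right _ (Finset.mem_image_of_mem qv (Finset.mem_univ j))
  have hprime : ∀ s, (Sum.elim pv qv s).Prime := by
    intro s
    cases s with
    | inl i => exact hpvP i
    | inr j => exact hqvP j
  have hinj : Function.Injective (Sum.elim pv qv) := by
    intro s s' hss
    cases s with
    | inl i =>
      cases s' with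
      | inl i' => exact congrArg Sum.inl (hpv hss)
      | inr j' =>
        exfalso
        have h1 : pv i = qv j' := hss
        exact (hqv j').2.1 (Finset.mem_union_right _ (h1 ▸ hpvMem i))
    | inr j =>
      cases s' with
      | inl i' =>
        exfalso
        have h1 : qv j = pv i' := hss
        exact (hqv j).2.1 (Finset.mem_union_right _ (h1.symm ▸ hpvMem i'))
      | inr j' => exact congrArg Sum.inr (hqinj hss)
  have hN₀ : wilesLevel p .flat Smin Smin ≠ 0 := wilesLevel_ne_zero hpF.out h.hSmin h.hSmin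
  refine ⟨hpvP, hpvd, hqvP, gRed_surjective _ _ hN₀ hinj hprime,
    gLevel_ne_zero _ _ hN₀ hprime, ?_, ?_⟩
  · intro q hq' hd'
    exact Finset.mem_coe.mpr
      (mem_of_prime_dvd_wilesLevel hpF.out h.hSmin hSigP h.hpSmin hsub q hq' hd')
  · intro ℓ hℓ _ hℓS hdvd
    apply hℓS
    rcases (Nat.Prime.dvd_mul hℓ).mp hdvd with h1 | h1
    · exact Finset.mem_coe.mpr (hsub (mem_of_prime_dvd_wilesLevel hpF.out h.hSmin h.hSmin
        h.hpSmin (Finset.Subset.refl _) ℓ hℓ h1))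
    · obtain ⟨s, -, hs⟩ := (Prime.dvd_finsetProd_iff hℓ.prime _).mp h1
      have h2 : ℓ = Sum.elim pv qv s := (Nat.prime_dvd_prime_iff_eq hℓ (hprime s)).mp hs
      rw [h2]
      cases s with
      | inl i => exact Finset.mem_coe.mpr (hpvSig i)
      | inr j => exact Finset.mem_coe.mpr (hqvSig j)

end Facts

/-! ## The glue -/

/-- **IA-NU from its pointwise form** (with IA-FREE). -/
theorem iaNu_of_pt (hFree : IAFreeStatement) (hPt : IANuPtStatement) : IANuStatement := by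
  intro p hpF hp5 𝒪 _ _ _ _ _ _ ρbar Smin h hflat Piv hPiv k pv hpv hpvPiv n r qv hq hNQ PQ α hα
    V hh a hV hhalf₁ hhalf₂ ha
  obtain ⟨hpvP, hpvd, hqvP, hsurj, hMne, hsig, hM⟩ := ia_basic_facts h hPiv hpv hpvPiv hq
  haveI : NeZero (MIA p Smin pv qv) := ⟨hMne⟩
  obtain ⟨d, hfree⟩ := hFree p hp5 𝒪 ρbar Smin h hflat Piv hPiv k pv hpv hpvPiv
    n r qv hq PQ α hα V hV
  have hpt := hPt p hp5 𝒪 ρbar Smin h hflat Piv hPiv k pv hpv hpvPiv
    n r qv hq PQ α hα V hh a hV hhalf₁ hhalf₂ ha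
  intro χ hχ t ht
  refine kill_chiRelIA hV hsurj ha hsig hM h.hp𝒪 hpvP hpvd hqvP hfree χ hχ.1 t ?_
  intro P hP hthrough
  letI : Algebra 𝒪 P.O := (P.χ.comp (algebraMap 𝒪 PQ.T)).toAlgebra
  let x : PQ.T →ₐ[𝒪] P.O := { P.χ with commutes' := fun _ => rfl }
  exact ht P.O x hP (hpt χ hχ P hP hthrough)

/-- **IA-ST from its pointwise form** (with IA-FREE). -/
theorem iaSt_of_pt (hFree : IAFreeStatement) (hPt : IAStPtStatement) : IAStStatement := by
  intro p hpF hp5 𝒪 _ _ _ _ _ _ ρbar Smin h hflat Piv hPiv hmin k pv hpv hpvPiv n r qv hq hNQ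
    PQ α hα V hh a hV hhalf₁ hhalf₂ ha
  obtain ⟨hpvP, hpvd, hqvP, hsurj, hMne, hsig, hM⟩ := ia_basic_facts h hPiv hpv hpvPiv hq
  haveI : NeZero (MIA p Smin pv qv) := ⟨hMne⟩
  obtain ⟨d, hfree⟩ := hFree p hp5 𝒪 ρbar Smin h hflat Piv hPiv k pv hpv hpvPiv
    n r qv hq PQ α hα V hV
  have hpt := hPt p hp5 𝒪 ρbar Smin h hflat Piv hPiv hmin k pv hpv hpvPiv
    n r qv hq PQ α hα V hh a hV hhalf₁ hhalf₂ ha
  intro q hqP Pl hPl φ hφ
  refine kill_chiRelIA hV hsurj ha hsig hM h.hp𝒪 hpvP hpvd hqvP hfree 1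
    (fun _ => by rw [MonoidHom.one_apply, one_pow]) _ ?_
  intro P hP hthrough
  exact hpt P hP hthrough q hqP Pl hPl φ hφ

end Fermat.Agent.S38.H473

end
-- ===== PACK-END S38/H473/PtGlue.lean

-- ===== PACK-BEGIN S38/IA/Hecke/Wire.lean
section















/-!
# Row HARD, cell HECKE: the wiring with all closed leaves plugged in  (helper3)

What is OPEN in the cell HECKE is exactly the list of hypotheses of `iaHecke5_of_open`:
`PkgFlatStatement` (⇐ `TW.PkgStatement`), `IACtrlStatement`,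
`IACmpStatement`, `IANuStatement`, `IAStStatement` (`Hecke/Spec3.lean`, v2).

Plugged in: IDEM (`S59.TW.Aut.H511.idem`, main), IA-NONTRIV, IA-RANK (helper483), IA-FREE
(helper916), IA-MOD (helper781), the kill glue of IA-NU / IA-ST (helper473: `iaHecke5_of_pt`
takes the POINT-LEVEL forms `H473.IANuPtStatement`, `H473.IAStPtStatement`), glue A
(helper354, `iaAut5_of_betti`), glue B (`iaBetti_of_leaves`), layer 2 (`iaHecke5_of_leaves`) with
INX, INO, CYC, ALG (main).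
-/

set_option autoImplicit false

namespace Fermat.Agent.S38.IA.Hecke

open Fermat.Agent.S59.TW

/-- The cell HECKE of row HARD from the leaves of layer 3 (algebra, glue and layer 2 plugged
in). -/
theorem iaHecke5_of_layer3 (hPkg : PkgFlatStatement) (hMod : IAModStatement)
    (hFree : IAFreeStatement) (hCtrl : IACtrlStatement) (hCmp : IACmpStatement)
    (hNu : IANuStatement) (hSt : IAStStatement) : IAHecke5Statement :=
  iaHecke5_of_leaves hPkg
    (Fermat.Agent.S38.H354.iaAut5_of_betti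
      (iaBetti_of_leaves Fermat.Agent.S59.TW.Aut.H511.idem Fermat.Agent.S38.H483.iaNontriv483
        hMod hFree hCtrl Fermat.Agent.S38.H483.iaRank483 hCmp hNu hSt))
    Fermat.Agent.S59.TW.H427.inertiaExists Fermat.Agent.S59.TW.H123.inertiaOrder
    Fermat.Agent.S59.TW.H59.cycloSurj Fermat.Agent.S59.TW.H95.alg

/-- **The cell HECKE of row HARD from its open leaves.** -/
theorem iaHecke5_of_open (hPkg : PkgFlatStatement)
    (hCtrl : IACtrlStatement) (hCmp : IACmpStatement)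
    (hNu : IANuStatement) (hSt : IAStStatement) : IAHecke5Statement :=
  iaHecke5_of_layer3 hPkg Fermat.Agent.S38.H781.iaMod Fermat.Agent.S38.H916.iaFree_h916
    hCtrl hCmp hNu hSt

/-- **The cell HECKE of row HARD from IA-CTRL, IA-CMP and the POINT-LEVEL forms of IA-NU and
IA-ST** (helper473's `PtSpec`; the kill glue `H473.iaNu_of_pt`, `H473.iaSt_of_pt` is plugged
in). -/
theorem iaHecke5_of_pt (hPkg : PkgFlatStatement)
    (hCtrl : IACtrlStatement) (hCmp : IACmpStatement)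
    (hNuPt : Fermat.Agent.S38.H473.IANuPtStatement)
    (hStPt : Fermat.Agent.S38.H473.IAStPtStatement) : IAHecke5Statement :=
  iaHecke5_of_open hPkg hCtrl hCmp
    (Fermat.Agent.S38.H473.iaNu_of_pt Fermat.Agent.S38.H916.iaFree_h916 hNuPt)
    (Fermat.Agent.S38.H473.iaSt_of_pt Fermat.Agent.S38.H916.iaFree_h916 hStPt)

/-- The same with the point-level forms of helper953 (`NuPtSpec`). -/
theorem iaHecke5_of_pt953 (hPkg : PkgFlatStatement)
    (hCtrl : IACtrlStatement) (hCmp : IACmpStatement)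
    (hNuPt : Fermat.Agent.S38.H953.IANuPtStatement953)
    (hStPt : Fermat.Agent.S38.H953.IAStPtStatement953) : IAHecke5Statement :=
  iaHecke5_of_pt hPkg hCtrl hCmp (iaNuPt_of_953 hNuPt) (iaStPt_of_953 hStPt)

end Fermat.Agent.S38.IA.Hecke

end
-- ===== PACK-END S38/IA/Hecke/Wire.lean

-- ===== PACK-BEGIN S38/H299/CtrlChainIA.lean
section



/-!
# Row HARD, cell HECKE, leaf IA-CTRL, piece CHAIN-IA (helper299)

The Taylor–Wiles control chain `chain299` in the vocabulary of `S38/IA/Hecke/Spec3.lean`: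
under the hypotheses of `IACtrlStatement`, every localisation `W` of
`X_{Γ₀(M)}(𝒪)`, `M = MIA p Smin pv qv = N_min · ∏ pv · ∏ qv`, at `(TsetOf PQ, UsetOf qv α)`
is isomorphic (as an `𝒪`-module) to the localisation `V₀` of `X_{Γ₀(L)}(𝒪)`,
`L = ribetLevel p Smin Piv`, at `θ₀` (`chainIA299`).

Pieces:
* `mia_eq_lvl299`       : `MIA p Smin pv qv = lvl299 (ribetLevel p Smin Piv) (stepList299 qv α β)`;
* `tsetAfter_eq299`     : `tsetAfter299 (TsetOfθ θ₀) (stepList299 qv α β) = TsetOf PQ`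
  (from `PQ.θ = θ₀ ∘ oldRestrict`);
* `usetAfter_eq299`     : `usetAfter299 ∅ (stepList299 qv α β) = UsetOf qv α`;
* `exists_beta299`      : lifts `β_j` of the second Frobenius eigenvalues;
* `chainHyp299_of`      : the admissibility `ChainHyp299` from `IsTWSet`, `IsFrobLift`,
  `ResFrobCond` and `(p : 𝒪) ∈ 𝔪`.
-/

set_option autoImplicit false
set_option linter.style.haveILetI false
set_option linter.unusedSectionVars false

open Polynomial IsLocalRing CongruenceSubgroup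
open scoped MatrixGroups

namespace Fermat.Agent.S38.H299

open Fermat.Agent.S59.Arch Fermat.Agent.S59.TW.H959 Fermat.Agent.S59.TW Fermat.Agent.S59.H765
open Fermat.Agent.S59.TW.H653 Fermat.Agent.S59.TW.Aut Fermat.Agent.S59.H105
open Fermat.Agent.S38.IA Fermat.Agent.S38.IA.Hecke
open CuspForm

/-! ## Polynomial bookkeeping -/

theorem coeffs_of_split299 {k : Type} [CommRing k] {a b t d : k}
    (h : (X - C a) * (X - C b) = X ^ 2 - C t * X + C d) : a + b = t ∧ a * b = d := by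
  have e : (X - C a) * (X - C b) = X ^ 2 - C (a + b) * X + C (a * b) := by
    rw [C_add, C_mul]
    ring
  rw [e] at h
  have h0 := congrArg (fun f : k[X] => f.coeff 0) h
  have h1 := congrArg (fun f : k[X] => f.coeff 1) h
  simp only [coeff_add, coeff_sub, coeff_C_mul, coeff_X_pow, coeff_X, coeff_C] at h0 h1
  norm_num at h0 h1
  exact ⟨by linear_combination (-1 : k) * h1, h0⟩

/-! ## The list of step data -/

section List

variable {𝒪 : Type} [CommRing 𝒪] {r : ℕ}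

/-- The list of the step data `(q_j, α_j, β_j)`. -/
def stepList299 (qv : Fin r → ℕ) (α β : Fin r → 𝒪) : List (ℕ × 𝒪 × 𝒪) :=
  List.ofFn fun j => (qv j, α j, β j)

theorem mem_stepList299 {qv : Fin r → ℕ} {α β : Fin r → 𝒪} {y : ℕ × 𝒪 × 𝒪} :
    y ∈ stepList299 qv α β ↔ ∃ j, y = (qv j, α j, β j) := by
  unfold stepList299
  rw [List.mem_ofFn]
  constructor
  · rintro ⟨j, hj⟩
    exact ⟨j, hj.symm⟩
  · rintro ⟨j, hj⟩
    exact ⟨j, hj.symm⟩

theorem map_fst_stepList299 (qv : Fin r → ℕ) (α β : Fin r → 𝒪) :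
    (stepList299 qv α β).map Prod.fst = List.ofFn qv := by
  unfold stepList299
  rw [List.map_ofFn]
  rfl

theorem lvl299_stepList (N : ℕ) (qv : Fin r → ℕ) (α β : Fin r → 𝒪) :
    lvl299 N (stepList299 qv α β) = N * ∏ j, qv j := by
  rw [lvl299_eq_prod, map_fst_stepList299, List.prod_ofFn]

theorem usetAfter_eq299 (qv : Fin r → ℕ) (α β : Fin r → 𝒪) :
    usetAfter299 (∅ : Set (ℕ × 𝒪)) (stepList299 qv α β) = UsetOf qv α := by
  ext x
  simp only [usetAfter299, UsetOf, Set.empty_union, Set.mem_ofPred_eq]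
  constructor
  · rintro ⟨y, hy, rfl⟩
    obtain ⟨j, rfl⟩ := mem_stepList299.mp hy
    exact ⟨j, rfl⟩
  · rintro ⟨j, rfl⟩
    exact ⟨(qv j, α j, β j), mem_stepList299.mpr ⟨j, rfl⟩, rfl⟩

end List

/-! ## The levels -/

section Level

variable (p : ℕ) (Smin : Finset ℕ)

theorem wilesLevel_flat_self299 : wilesLevel p .flat Smin Smin = ∏ q ∈ Smin.erase p, q := by
  unfold wilesLevel
  rw [Finset.sdiff_self, Finset.prod_empty, mul_one, mul_one]

theorem ribetLevel_eq299 {Piv : Finset ℕ} {k : ℕ} (pv : Fin k → ℕ)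
    (hpv : Function.Injective pv) (hpvPiv : Finset.univ.image pv = Piv) :
    ribetLevel p Smin Piv = wilesLevel p .flat Smin Smin * ∏ i, pv i := by
  unfold ribetLevel
  rw [wilesLevel_flat_self299, ← hpvPiv, Finset.prod_image (fun a _ b _ h => hpv h)]

theorem mia_eq299 {Piv : Finset ℕ} {k r : ℕ} (pv : Fin k → ℕ) (qv : Fin r → ℕ)
    (hpv : Function.Injective pv) (hpvPiv : Finset.univ.image pv = Piv) :
    MIA p Smin pv qv = ribetLevel p Smin Piv * ∏ j, qv j := by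
  rw [ribetLevel_eq299 p Smin pv hpv hpvPiv]
  show wilesLevel p .flat Smin Smin * ∏ s : Fin k ⊕ Fin r, Sum.elim pv qv s = _
  rw [Fintype.prod_sum_type, mul_assoc]
  rfl

theorem mia_eq_lvl299 {𝒪 : Type} [CommRing 𝒪] {Piv : Finset ℕ} {k r : ℕ} (pv : Fin k → ℕ)
    (qv : Fin r → ℕ) (hpv : Function.Injective pv) (hpvPiv : Finset.univ.image pv = Piv)
    (α β : Fin r → 𝒪) :
    MIA p Smin pv qv = lvl299 (ribetLevel p Smin Piv) (stepList299 qv α β) := by
  rw [lvl299_stepList, mia_eq299 p Smin pv qv hpv hpvPiv]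

/-- A prime dividing `ribetLevel` lies in `Smin ∪ Piv`. -/
theorem mem_of_dvd_ribetLevel299 {Piv : Finset ℕ} (hSmin : ∀ q ∈ Smin, q.Prime)
    (hPiv : ∀ q ∈ Piv, q.Prime) {ℓ : ℕ} (hℓ : ℓ.Prime) (h : ℓ ∣ ribetLevel p Smin Piv) :
    ℓ ∈ Smin ∪ Piv := by
  unfold ribetLevel at h
  rcases (Nat.Prime.dvd_mul hℓ).mp h with h | h
  · obtain ⟨q, hq, hdvd⟩ := (Prime.dvd_finsetProd_iff hℓ.prime _).mp h
    have hqS : q ∈ Smin := Finset.mem_of_mem_erase hq
    have : ℓ = q := (Nat.prime_dvd_prime_iff_eq hℓ (hSmin q hqS)).mp hdvd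
    exact Finset.mem_union_left _ (this ▸ hqS)
  · obtain ⟨q, hq, hdvd⟩ := (Prime.dvd_finsetProd_iff hℓ.prime _).mp h
    have : ℓ = q := (Nat.prime_dvd_prime_iff_eq hℓ (hPiv q hq)).mp hdvd
    exact Finset.mem_union_right _ (this ▸ hq)

end Level

/-! ## The sets of generators -/

section Sets

variable {p : ℕ}
  {𝒪 : Type} [CommRing 𝒪] [IsDomain 𝒪] [IsDiscreteValuationRing 𝒪]
  [IsAdicComplete (maximalIdeal 𝒪) 𝒪]
  {ρbar : ResidualGaloisRep (ResidueField 𝒪)} {Smin Piv : Finset ℕ} {r : ℕ} {qv : Fin r → ℕ}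
  [NeZero (ribetLevel p Smin Piv)]
  [NeZero (wilesLevel p .flat Smin (Smin ∪ Piv ∪ Finset.univ.image qv))]

theorem tsetAfter_eq299
    (θ₀ : CuspForm.heckeAlgebra (ribetLevel p Smin Piv) 2 (↑(Smin ∪ Piv) : Set ℕ) →+*
      ResidueField 𝒪)
    (hp : LevelPair (ribetLevel p Smin Piv)
      (wilesLevel p .flat Smin (Smin ∪ Piv ∪ Finset.univ.image qv))
      (↑(Smin ∪ Piv) : Set ℕ) (↑(Smin ∪ Piv ∪ Finset.univ.image qv) : Set ℕ))
    (PQ : HeckePkg p 𝒪 ρbar .flat Smin (Smin ∪ Piv ∪ Finset.univ.image qv))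
    (hθ : PQ.θ = θ₀.comp (oldRestrict hp)) (α β : Fin r → 𝒪) :
    tsetAfter299 (TsetOfθ θ₀) (stepList299 qv α β) = TsetOf PQ := by
  ext x
  constructor
  · rintro ⟨⟨hℓ, hℓN, hℓS, hres⟩, hne⟩
    have hℓS' : x.1 ∉ (↑(Smin ∪ Piv ∪ Finset.univ.image qv) : Set ℕ) := by
      intro hmem
      rw [Finset.mem_coe, Finset.mem_union] at hmem
      rcases hmem with hmem | hmem
      · exact hℓS (Finset.mem_coe.mpr hmem)
      · obtain ⟨j, -, hj⟩ := Finset.mem_image.mp hmem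
        exact hne (qv j, α j, β j) (mem_stepList299.mpr ⟨j, rfl⟩) hj.symm
    have hℓN' : ¬ x.1 ∣ wilesLevel p .flat Smin (Smin ∪ Piv ∪ Finset.univ.image qv) :=
      fun hdvd => hℓN (hp.hU x.1 hℓ hdvd hℓS')
    refine ⟨hℓ, hℓN', hℓS', ?_⟩
    rw [hres, hθ, RingHom.comp_apply, oldRestrict_T hp hℓ hℓN' hℓS' hℓN hℓS]
  · rintro ⟨hℓ, hℓN', hℓS', hres⟩
    have hℓN : ¬ x.1 ∣ ribetLevel p Smin Piv := fun hdvd => hℓN' (hdvd.trans hp.dvd)
    have hℓS : x.1 ∉ (↑(Smin ∪ Piv) : Set ℕ) := fun hmem => hℓS' (hp.sub hmem)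
    refine ⟨⟨hℓ, hℓN, hℓS, ?_⟩, ?_⟩
    · rw [hres, hθ, RingHom.comp_apply, oldRestrict_T hp hℓ hℓN' hℓS' hℓN hℓS]
    · intro y hy e
      obtain ⟨j, rfl⟩ := mem_stepList299.mp hy
      apply hℓS'
      rw [Finset.mem_coe, Finset.mem_union]
      right
      exact Finset.mem_image.mpr ⟨j, Finset.mem_univ j, e.symm⟩

end Sets

/-! ## The admissibility of the Taylor–Wiles primes -/

section Adm

variable {p : ℕ} [Fact p.Prime]
  {𝒪 : Type} [CommRing 𝒪] [IsDomain 𝒪] [IsDiscreteValuationRing 𝒪]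
  [IsAdicComplete (maximalIdeal 𝒪) 𝒪] [Finite (ResidueField 𝒪)]
  {ρbar : ResidualGaloisRep (ResidueField 𝒪)} {Smin Piv : Finset ℕ} {r : ℕ} {qv : Fin r → ℕ}

/-- Lifts of the second eigenvalues of the Frobenius elements at the Taylor–Wiles primes. -/
theorem exists_beta299 {α : Fin r → 𝒪} (hα : IsFrobLift ρbar qv α) :
    ∃ β : Fin r → 𝒪, ∀ j, ∃ (P : ValuationSubring Qb) (φ : GQ),
      P.LiesOverPrime (qv j) ∧ P.IsFrobeniusAt φ (qv j) ∧
      residue 𝒪 (α j) ≠ residue 𝒪 (β j) ∧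
      LinearMap.charpoly (ρbar.ρ φ) =
        (X - C (residue 𝒪 (α j))) * (X - C (residue 𝒪 (β j))) := by
  choose P φ b h1 h2 h3 h4 using hα
  have hs : ∀ j, ∃ β : 𝒪, residue 𝒪 β = b j := fun j => residue_surjective (b j)
  choose β hβ using hs
  refine ⟨β, fun j => ⟨P j, φ j, h1 j, h2 j, ?_, ?_⟩⟩
  · rw [hβ]
    exact h3 j
  · rw [hβ]
    exact h4 j

theorem residue_natCast_eq_one299 (hp𝒪 : (p : 𝒪) ∈ maximalIdeal 𝒪) {q n : ℕ} (hq : 0 < q)
    (hdvd : p ^ (n + 1) ∣ q - 1) : residue 𝒪 ((q : ℕ) : 𝒪) = 1 := by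
  have hp1 : p ∣ q - 1 := (dvd_pow_self p (Nat.succ_ne_zero n)).trans hdvd
  obtain ⟨m, hm⟩ := hp1
  have hq' : q = p * m + 1 := by omega
  rw [hq']
  push_cast
  rw [map_add, map_mul, map_one, (residue_eq_zero_iff _).mpr hp𝒪, zero_mul, zero_add]

theorem isUnit_of_residue_ne_zero299 {x : 𝒪} (h : residue 𝒪 x ≠ 0) : IsUnit x := by
  by_contra hx
  exact h ((residue_eq_zero_iff x).mpr ((mem_maximalIdeal x).mpr hx))

theorem chainHyp299_of [NeZero (ribetLevel p Smin Piv)]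
    (hp𝒪 : (p : 𝒪) ∈ maximalIdeal 𝒪) (hSmin : ∀ q ∈ Smin, q.Prime)
    (hPiv : ∀ q ∈ Piv, q.Prime)
    (θ₀ : CuspForm.heckeAlgebra (ribetLevel p Smin Piv) 2 (↑(Smin ∪ Piv) : Set ℕ) →+*
      ResidueField 𝒪)
    (hθ₀ : Fermat.Agent.S59.G4.ResFrobCond ρbar θ₀)
    {n : ℕ} (hq : IsTWSet p ρbar (Smin ∪ Piv) n qv)
    {α β : Fin r → 𝒪}
    (hβ : ∀ j, ∃ (P : ValuationSubring Qb) (φ : GQ),
      P.LiesOverPrime (qv j) ∧ P.IsFrobeniusAt φ (qv j) ∧
      residue 𝒪 (α j) ≠ residue 𝒪 (β j) ∧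
      LinearMap.charpoly (ρbar.ρ φ) =
        (X - C (residue 𝒪 (α j))) * (X - C (residue 𝒪 (β j)))) :
    ChainHyp299 (ribetLevel p Smin Piv) (TsetOfθ θ₀) (stepList299 qv α β) := by
  obtain ⟨hinj, hq2, -⟩ := hq
  refine ⟨?_, ?_⟩
  · intro y hy
    obtain ⟨j, rfl⟩ := mem_stepList299.mp hy
    obtain ⟨hqp, hqS, hqdvd⟩ := hq2 j
    obtain ⟨P, φ, hP, hφ, hne, hchar⟩ := hβ j
    have hqN : ¬ qv j ∣ ribetLevel p Smin Piv :=
      fun hdvd => hqS (mem_of_dvd_ribetLevel299 p Smin hSmin hPiv hqp hdvd)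
    have hqS' : qv j ∉ (↑(Smin ∪ Piv) : Set ℕ) := fun h => hqS (Finset.mem_coe.mp h)
    have hone : residue 𝒪 ((qv j : ℕ) : 𝒪) = 1 :=
      residue_natCast_eq_one299 hp𝒪 hqp.pos hqdvd
    -- the characteristic polynomial of Frobenius
    have hθ := hθ₀ (qv j) hqp hqN hqS' P hP φ hφ
    rw [hchar] at hθ
    obtain ⟨hsum, hprod⟩ := coeffs_of_split299 hθ
    have hprod1 : residue 𝒪 (α j) * residue 𝒪 (β j) = 1 := by
      rw [hprod, ← hone]
      rfl
    obtain ⟨c, hc⟩ := residue_surjective (θ₀ (CuspForm.heckeAlgebra.T hqp hqN hqS'))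
    refine ⟨hqp, hqN, ?_, ?_, ?_, ?_, ?_, c, ⟨hqp, hqN, hqS', hc⟩, ?_, ?_⟩
    · apply isUnit_of_residue_ne_zero299
      rw [hone]
      exact one_ne_zero
    · apply isUnit_of_residue_ne_zero299
      rw [map_sub]
      exact sub_ne_zero.mpr hne
    · apply isUnit_of_residue_ne_zero299
      rw [map_sub, map_one, map_pow]
      intro h0
      apply hne
      have h1 : residue 𝒪 (α j) ^ 2 = residue 𝒪 (α j) * residue 𝒪 (β j) := by
        rw [hprod1]
        exact (sub_eq_zero.mp h0).symm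
      have hα0 : residue 𝒪 (α j) ≠ 0 := by
        intro h
        rw [h, zero_mul] at hprod1
        exact zero_ne_one hprod1
      rw [pow_two] at h1
      exact mul_left_cancel₀ hα0 h1
    · apply isUnit_of_residue_ne_zero299
      rw [map_sub, map_one, map_pow]
      intro h0
      apply hne
      have h1 : residue 𝒪 (β j) ^ 2 = residue 𝒪 (α j) * residue 𝒪 (β j) := by
        rw [hprod1]
        exact (sub_eq_zero.mp h0).symm
      have hβ0 : residue 𝒪 (β j) ≠ 0 := by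
        intro h
        rw [h, mul_zero] at hprod1
        exact zero_ne_one hprod1
      rw [pow_two] at h1
      exact (mul_right_cancel₀ hβ0 h1).symm
    · rw [← residue_eq_zero_iff, map_sub, map_mul, hprod1, hone, sub_self]
    · rintro c' ⟨h1, h2, h3, h4⟩
      rw [← residue_eq_zero_iff, map_sub, h4, hc, sub_self]
    · rw [← residue_eq_zero_iff, map_sub, map_add, hsum, hc, sub_self]
  · rw [map_fst_stepList299]
    exact (List.nodup_ofFn (f := qv)).mpr hinj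

end Adm

/-! ## The chain in the vocabulary of `Spec3` -/

section Main

variable {p : ℕ} [Fact p.Prime]
  {𝒪 : Type} [CommRing 𝒪] [IsDomain 𝒪] [IsDiscreteValuationRing 𝒪]
  [IsAdicComplete (maximalIdeal 𝒪) 𝒪] [Finite (ResidueField 𝒪)]
  {ρbar : ResidualGaloisRep (ResidueField 𝒪)} {Smin Piv : Finset ℕ}
  {k r : ℕ} {pv : Fin k → ℕ} {qv : Fin r → ℕ}
  [NeZero (ribetLevel p Smin Piv)]
  [NeZero (wilesLevel p .flat Smin (Smin ∪ Piv ∪ Finset.univ.image qv))]

/-- **CHAIN-IA.**  The localisation of `X_{Γ₀(M)}(𝒪)`, `M = N_min ∏ pv ∏ qv`, at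
`(TsetOf PQ, UsetOf qv α)` is isomorphic to the localisation `V₀` of `X_{Γ₀(L)}(𝒪)`,
`L = ribetLevel`, at `θ₀`. -/
theorem chainIA299 (idem : IdemStatement) (hcross : CrossStatement)
    (hp𝒪 : (p : 𝒪) ∈ maximalIdeal 𝒪) (hSmin : ∀ q ∈ Smin, q.Prime)
    (hPiv : ∀ q ∈ Piv, q.Prime)
    (θ₀ : CuspForm.heckeAlgebra (ribetLevel p Smin Piv) 2 (↑(Smin ∪ Piv) : Set ℕ) →+*
      ResidueField 𝒪)
    (hθ₀ : Fermat.Agent.S59.G4.ResFrobCond ρbar θ₀)
    (hpv : Function.Injective pv) (hpvPiv : Finset.univ.image pv = Piv)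
    {n : ℕ} (hq : IsTWSet p ρbar (Smin ∪ Piv) n qv)
    (hp : LevelPair (ribetLevel p Smin Piv)
      (wilesLevel p .flat Smin (Smin ∪ Piv ∪ Finset.univ.image qv))
      (↑(Smin ∪ Piv) : Set ℕ) (↑(Smin ∪ Piv ∪ Finset.univ.image qv) : Set ℕ))
    (PQ : HeckePkg p 𝒪 ρbar .flat Smin (Smin ∪ Piv ∪ Finset.univ.image qv))
    (hθ : PQ.θ = θ₀.comp (oldRestrict hp))
    (α : Fin r → 𝒪) (hα : IsFrobLift ρbar qv α)
    (V₀ : Submodule 𝒪 (Additive (Gamma0 (ribetLevel p Smin Piv)) →+ 𝒪))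
    (hV₀ : IsIAMinPart θ₀ V₀)
    (W : Submodule 𝒪 (Additive (Gamma0 (MIA p Smin pv qv)) →+ 𝒪))
    (hW : IsLocPart (isMid_Gamma0 (MIA p Smin pv qv)) (TsetOf PQ) (UsetOf qv α) W) :
    ∃ f : W →ₗ[𝒪] V₀, Function.Bijective f := by
  obtain ⟨β, hβ⟩ := exists_beta299 hα
  have hL := chainHyp299_of hp𝒪 hSmin hPiv θ₀ hθ₀ hq hβ
  refine chain299 idem hcross (stepList299 qv α β) (ribetLevel p Smin Piv)
    (NeZero.ne _) (TsetOfθ θ₀) ∅ ?_ ?_ hL V₀ hV₀ (MIA p Smin pv qv)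
    (mia_eq_lvl299 p Smin pv qv hpv hpvPiv α β) W ?_
  · rintro x ⟨h1, h2, -, -⟩
    exact ⟨h1, h2⟩
  · intro x hx
    exact absurd hx (Set.notMem_empty x)
  · exact isLocPart_congr299 _ (tsetAfter_eq299 θ₀ hp PQ hθ α β).symm
      (usetAfter_eq299 qv α β).symm hW

end Main

end Fermat.Agent.S38.H299

end
-- ===== PACK-END S38/H299/CtrlChainIA.lean

-- ===== PACK-BEGIN S38/H299/IACtrl.lean
section






/-!
# Row HARD, cell HECKE, layer 3: leaf IA-CTRL, UNCONDITIONAL (helper299)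

* `iaChain299 : H483.IAChainStatement` — the Taylor–Wiles control chain over the base level
  `ribetLevel` (VERBATIM the open piece of helper483's glue), from `chainIA299`
  (`CtrlChainIA.lean`), `Aut.H511.idem` (main) and `H903.cross903` (`H105.CrossStatement`);
* `iaCtrl299 : IA.Hecke.IACtrlStatement` — VERBATIM the leaf IA-CTRL of `Hecke/Spec3.lean`:
  `H483.iaCtrl_of_chain483` (COR + NAT, helper483) applied to `Aut.H511.idem`,
  `H916.iaFree_h916` (IA-FREE, helper916) and `iaChain299`.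
-/

set_option autoImplicit false

namespace Fermat.Agent.S38.H299

open Fermat.Agent.S38.IA.Hecke

/-- **CHAIN** (the open piece of `H483.iaCtrl_of_chain483`), VERBATIM. -/
theorem iaChain299 : Fermat.Agent.S38.H483.IAChainStatement := by
  intro p _ _hp5 𝒪 _ _ _ _ _ _ ρbar Smin h _hflat Piv hPiv _ θ₀ hθ₀ k pv hpv hpvPiv n r qv hq _
    hp PQ hθ α hα V₀ W hV₀ hW
  exact chainIA299 Fermat.Agent.S59.TW.Aut.H511.idem Fermat.Agent.S38.H903.cross903 h.hp𝒪
    h.hSmin (fun q hqP => (hPiv q hqP).1) θ₀ hθ₀ hpv hpvPiv hq hp PQ hθ α hα V₀ hV₀ W hW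

/-- **IA-CTRL**, VERBATIM (`S38/IA/Hecke/Spec3.lean`), unconditional. -/
theorem iaCtrl299 : IACtrlStatement :=
  Fermat.Agent.S38.H483.iaCtrl_of_chain483 Fermat.Agent.S59.TW.Aut.H511.idem
    Fermat.Agent.S38.H916.iaFree_h916 iaChain299

example : Fermat.Agent.S38.IA.Hecke.IACtrlStatement := iaCtrl299

end Fermat.Agent.S38.H299

end
-- ===== PACK-END S38/H299/IACtrl.lean

-- ===== PACK-BEGIN S38/H227/NuNew.lean
section




/-!
# Row HARD / S59-TW, (NU): points of the `χ`-part are `q²`-new at the pivots   (helper227)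

Composition of the dictionary (`dict_twist`), the character of the twisted form
(`exists_char_of_eigen`) and TW-NS (`S59.TW.H54.twistL_anemic_exists_newform`, helper54).

* `mem_L_of_ne_one` : a prime `q₀` at which the nebentypus is ramified belongs to the list of
  twisting primes of any `TwistDatum`;
* `nuNew` : `y : heckeAlgebra N' 2 S → R` a point (`R` a domain), `ε j` values for the diamond
  operators `⟨dv j⟩`, such that `(y (T_ℓ), ε j)` satisfies every relation of the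
  `t_ℓ = ⟨u ℓ⟩ T_ℓ`, `⟨dv j⟩` on the parabolic classes in `Hom(K, ℂ)` (conclusion of `suppRel`),
  and a pivot `q₀`, `q₀² ∥ N'`, with `ε j₀ ≠ 1` for some `dv j₀ ≡ 1` modulo the other primes of
  `M`.  Then `y` is, read in `ℂ` through `(chiF, j)`, the good eigen-system of a newform `g` of
  level `M₁ ∣ N'` with `v_{q₀}(M₁) = 2`: the hypotheses of
  `S38.H47.not_isUnipotentOnInertiaAt_of_char` (frozen S36).
-/

set_option autoImplicit false
set_option linter.unusedSectionVars false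
set_option linter.style.haveILetI false

noncomputable section

namespace Fermat.Agent.S38.H227

open CongruenceSubgroup ModularForm ModularCurve ModularCurve.Period ModularFormClass
open UpperHalfPlane hiding I
open Fermat.Agent.S59.TW.H653 Fermat.Agent.S59.TW.H658
open Fermat.Agent.S59.TW.H564 (chiL chiL_apply)
open scoped MatrixGroups ModularForm

/-- A prime at which the nebentypus is ramified belongs to the twisting primes. -/
theorem mem_L_of_ne_one {M N' : ℕ} {χ : DirichletCharacter ℂ M} (D : TwistDatum M N' χ)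
    (q₀ : ℕ) (d : ℤ) (hd : IsCoprime d (N' : ℤ)) (hχd : chiZ χ d ≠ 1)
    (h1 : ∀ q ∈ D.L, q ≠ q₀ → ((d : ℤ) : ZMod q) = 1) : q₀ ∈ D.L := by
  by_contra hq
  apply hχd
  have h := D.triv d hd
  rw [chiL_apply] at h
  have h2 : (D.L.map fun q => D.ψ q ((d : ℤ) : ZMod q) ^ 2).prod = 1 := by
    apply List.prod_eq_one
    intro x hx
    obtain ⟨q, hqL, rfl⟩ := List.mem_map.mp hx
    rw [h1 q hqL (fun h => hq (h ▸ hqL)), map_one, one_pow]
  rwa [h2, mul_one] at h

/-- **The twisted form is `q₀²`-new.**  `F = nebTwist D f ≠ 0` an eigenvector of the good Hecke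
operators with eigenvalues `c ℓ ∈ R₀ ⊆ ℂ`, `L : R₀ → R`, `y : heckeAlgebra N' 2 S → R` a point with
`y (T_ℓ) = L (c ℓ)`, and `χ(d₀) ≠ 1` for a unit `d₀ ≡ 1` modulo the primes `q ≠ q₀` of `M`,
`q₀² ∥ N'`.  Then `y` is, read in `ℂ` through `(chiF, j)`, the good eigen-system of a newform of
level `M₁ ∣ N'` with `v_{q₀}(M₁) = 2`. -/
theorem newform_of_twist {M N' : ℕ} [NeZero M] [NeZero N'] {χ : DirichletCharacter ℂ M}
    (D : TwistDatum M N' χ) (f : _root_.Fermat.Agent.S59.TW.H658.nebSub M χ) (hF0 : nebTwist D f ≠ 0)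
    (S : Set ℕ) (hS : ∀ q : ℕ, q.Prime → q ∣ N' → q ∈ S)
    (hNM : ∀ r : ℕ, r.Prime → r ∣ N' → r ∣ M)
    (R₀ : Subring ℂ) (c : GoodPrime N' S → R₀)
    (heig : ∀ i : GoodPrime N' S,
      CuspForm.heckeTLin 2 i.2.1 i.2.2.1 (nebTwist D f) = (c i : ℂ) • nebTwist D f)
    {R : Type*} [CommRing R] (L : R₀ →+* R) (y : CuspForm.heckeAlgebra N' 2 S →+* R)
    (hy : ∀ i : GoodPrime N' S, y (CuspForm.heckeAlgebra.T i.2.1 i.2.2.1 i.2.2.2) = L (c i))
    {q₀ : ℕ} (hv : N'.factorization q₀ = 2) (d₀ : (ZMod M)ˣ)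
    (hχ1 : χ ((d₀ : (ZMod M)ˣ) : ZMod M) ≠ 1)
    (hdv : ∀ q : ℕ, q.Prime → q ∣ M → q ≠ q₀ →
      ((((d₀ : (ZMod M)ˣ) : ZMod M).val : ℤ) : ZMod q) = 1) :
    ∃ (chiF : CuspForm.heckeAlgebra N' 2 S →+* ℂ) (j : chiF.range →+* R)
      (M₁ : ℕ) (_ : NeZero M₁) (g : CuspForm (Gamma0 M₁) 2),
      (∀ t, j (chiF.rangeRestrict t) = y t) ∧ g.IsNewform ∧ M₁ ∣ N' ∧
      M₁.factorization q₀ = 2 ∧
      ∀ (ℓ : ℕ) (hℓ : ℓ.Prime) (hℓN : ¬ ℓ ∣ N') (hℓS : ℓ ∉ S),
        qCoeff g ℓ = chiF (CuspForm.heckeAlgebra.T hℓ hℓN hℓS) := by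
  classical
  have hq₀L : q₀ ∈ D.L := by
    refine mem_L_of_ne_one D q₀ ((((d₀ : (ZMod M)ˣ) : ZMod M).val : ℕ) : ℤ) ?_ ?_ ?_
    · rw [Nat.isCoprime_iff_coprime]
      refine Nat.coprime_of_dvd fun r hr hr1 hr2 => ?_
      have hcop : Nat.Coprime ((d₀ : (ZMod M)ˣ) : ZMod M).val M :=
        ZMod.val_coe_unit_coprime d₀
      exact hr.one_lt.ne' (Nat.eq_one_of_dvd_coprimes hcop hr1 (hNM r hr hr2))
    · rw [chiZ_apply]
      have : ((((((d₀ : (ZMod M)ˣ) : ZMod M).val : ℕ) : ℤ) : ℤ) : ZMod M)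
          = ((d₀ : (ZMod M)ˣ) : ZMod M) := by
        rw [Int.cast_natCast, ZMod.natCast_zmod_val]
      rw [this]
      exact hχ1
    · intro q hq hne
      exact hdv q (D.prime q hq).1 (D.hL q hq).2 hne
  -- TW-NS
  let lam : ℕ → ℂ := fun ℓ =>
    if h : ℓ.Prime ∧ ¬ ℓ ∣ N' ∧ ℓ ∉ S then (c ⟨ℓ, h⟩ : ℂ) else 0
  have hlam : ∀ i : GoodPrime N' S, lam i.1 = (c i : ℂ) := fun i => dif_pos i.2
  have heig' : ∀ (ℓ : ℕ) (hℓ : ℓ.Prime) (hℓN : ¬ ℓ ∣ N'), ℓ ∉ S →
      CuspForm.heckeTLin 2 hℓ hℓN (nebTwist D f) = lam ℓ • nebTwist D f := by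
    intro ℓ hℓ hℓN hℓS
    rw [hlam ⟨ℓ, hℓ, hℓN, hℓS⟩]
    exact heig ⟨ℓ, hℓ, hℓN, hℓS⟩
  obtain ⟨M₁, hM₁, g, hg, hM₁N, hM₁v, hgl⟩ :=
    Fermat.Agent.S59.TW.H54.twistL_anemic_exists_newform D.ψ D.L D.prime (isCharMod_chiZ χ)
      D.dvd D.triv f.2.2 hq₀L (D.ψ_ne q₀ hq₀L) hv (nebTwist D f) (coe_nebTwist D f) hF0 S lam
      heig'
  -- the character of the twisted form
  obtain ⟨chiF, j, hj, hchiF⟩ := exists_char_of_eigen hS (nebTwist D f) hF0 R₀ c heig L y hy
  refine ⟨chiF, j, M₁, hM₁, g, hj, hg, hM₁N, hM₁v, fun ℓ hℓ hℓN hℓS => ?_⟩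
  rw [hgl ℓ hℓ hℓN hℓS, hlam ⟨ℓ, hℓ, hℓN, hℓS⟩]
  exact (hchiF ⟨ℓ, hℓ, hℓN, hℓS⟩).symm

variable {M : ℕ} [NeZero M] {K : Subgroup SL(2, ℤ)} [K.FiniteIndex]

/-- **Points of the `χ`-part are `q₀²`-new.** -/
theorem nuNew (hK : IsMid M K) {N' : ℕ} [NeZero N'] {u : ℕ → (ZMod M)ˣ}
    (H : TwistHyp K N' u) (S : Set ℕ) (hS : ∀ q : ℕ, q.Prime → q ∣ N' → q ∈ S)
    (hNM : ∀ r : ℕ, r.Prime → r ∣ N' → r ∣ M)
    {ι : Type*} (dv : ι → (ZMod M)ˣ)
    {R : Type*} [CommRing R] [IsDomain R]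
    (y : CuspForm.heckeAlgebra N' 2 S →+* R) (ε : ι → R)
    (hrel : ∀ P : FreeAlgebra ℤ (GoodPrime N' S ⊕ ι),
      (∀ z : Additive K →+ ℂ, IsParabolicHom K z →
        FreeAlgebra.lift ℤ (opFam hK ℂ H.dvd u dv) P z = 0) →
      FreeAlgebra.lift ℤ
        (Sum.elim (fun i : GoodPrime N' S => y (CuspForm.heckeAlgebra.T i.2.1 i.2.2.1 i.2.2.2))
          ε) P = 0)
    {q₀ : ℕ} (hv : N'.factorization q₀ = 2) (j₀ : ι) (hε : ε j₀ ≠ 1)
    (hdv : ∀ q : ℕ, q.Prime → q ∣ M → q ≠ q₀ →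
      ((((dv j₀ : (ZMod M)ˣ) : ZMod M).val : ℤ) : ZMod q) = 1) :
    ∃ (chiF : CuspForm.heckeAlgebra N' 2 S →+* ℂ) (j : chiF.range →+* R)
      (M₁ : ℕ) (_ : NeZero M₁) (g : CuspForm (Gamma0 M₁) 2),
      (∀ t, j (chiF.rangeRestrict t) = y t) ∧ g.IsNewform ∧ M₁ ∣ N' ∧
      M₁.factorization q₀ = 2 ∧
      ∀ (ℓ : ℕ) (hℓ : ℓ.Prime) (hℓN : ¬ ℓ ∣ N') (hℓS : ℓ ∉ S),
        qCoeff g ℓ = chiF (CuspForm.heckeAlgebra.T hℓ hℓN hℓS) := by
  classical
  obtain ⟨χ, hχ, D, f, R₀, L, c, hF0, hc, hd⟩ := dict_twist hK H S dv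
    (fun i : GoodPrime N' S => y (CuspForm.heckeAlgebra.T i.2.1 i.2.2.1 i.2.2.2)) ε hrel
  -- the nebentypus is ramified at `q₀`
  have hχ1 : χ ((dv j₀ : (ZMod M)ˣ) : ZMod M) ≠ 1 := by
    intro h1
    obtain ⟨h, hL⟩ := hd j₀
    apply hε
    rw [← hL]
    have : (⟨χ ((dv j₀ : (ZMod M)ˣ) : ZMod M), h⟩ : R₀) = 1 := Subtype.ext h1
    rw [this, map_one]
  exact newform_of_twist D f hF0 S hS hNM R₀ c (fun i => (hc i).2) L y
    (fun i => ((hc i).1).symm) hv (dv j₀) hχ1 hdv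

end Fermat.Agent.S38.H227

end
end
-- ===== PACK-END S38/H227/NuNew.lean

-- ===== PACK-BEGIN S38/H47/IANu.lean
section







/-!
# Row HARD, cell HECKE, leaf IA-NU: FINAL ASSEMBLY   (helper47)

* `iaNuPt : S58.S36Statement → H473.IANuPtStatement` : the POINT-LEVEL form of IA-NU
  (`S38/H473/PtSpec.lean`, helper473): a local `p`-adic point of `T_Q` through the annihilator of
  `V / chiRelIA χ V` (`χ` a pivot character) is not unipotent on inertia at any pivot.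
* `iaNu : S58.S36Statement → IAFreeStatement → IANuStatement` : the leaf IA-NU of layer 3
  (`S38/IA/Hecke/Spec3.lean` v2, helper3), VERBATIM.

Chain (all compiled): SUPP-REL `H227.suppRel` (the point satisfies the relations of the
`t_ℓ = ⟨ℓ⟩^h T_ℓ`, `⟨d⟩` on the parabolic classes, the `⟨d⟩` replaced by `χ(d)`), the twist
dictionary + TW-NS `H227.nuNew` (the point is the good eigen-system of a newform of level `M₁`
with `v_q(M₁) = 2`), the twist hypothesis at `K_IA` (`twistHyp_KIA_of_spec`), the lifts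
`d ≡ 1 mod N₀` of the diamond indices (`NiceLift.lean`), cuspidality of the localised part
(`S59.TW.H324.isLocPart_parabolic_of_pkg`), the frozen S36 (`not_isUnipotentOnInertiaAt_of_char`),
and the glue from the points to the module `H473.iaNu_of_pt` (helper473).
-/

set_option autoImplicit false
set_option linter.unusedSectionVars false
set_option linter.unusedVariables false
set_option linter.style.haveILetI false

open Polynomial IsLocalRing CongruenceSubgroup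
open scoped MatrixGroups

namespace Fermat.Agent.S38.H47

open Fermat.Agent.S59.Arch Fermat.Agent.S59.TW.H959 Fermat.Agent.S59.TW Fermat.Agent.S59.H765
open Fermat.Agent.S59.TW.H653 Fermat.Agent.S59.TW.Aut Fermat.Agent.S59.TW.H658
open Fermat.Agent.S38.IA Fermat.Agent.S38.IA.Hecke
open CuspForm

/-- A ring homomorphism from a discrete valuation ring of residue characteristic `p` to a domain
of characteristic `0` is injective. -/
theorem injective_of_dvr_h47 {A R : Type*} [CommRing A] [IsDomain A] [IsDiscreteValuationRing A]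
    [CommRing R] [IsDomain R] [CharZero R] {p : ℕ} (hp0 : p ≠ 0)
    (hp : (p : A) ∈ maximalIdeal A) (f : A →+* R) : Function.Injective f := by
  rw [RingHom.injective_iff_ker_eq_bot]
  by_contra hne
  have hprime : (RingHom.ker f).IsPrime := RingHom.ker_isPrime f
  have hmax : (RingHom.ker f).IsMaximal := hprime.isMaximal hne
  have h1 : RingHom.ker f = maximalIdeal A := IsLocalRing.eq_maximalIdeal hmax
  have hpk : (p : A) ∈ RingHom.ker f := h1 ▸ hp
  rw [RingHom.mem_ker, map_natCast] at hpk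
  exact hp0 (Nat.cast_eq_zero.mp hpk)

/-- **IA-NU, pointwise**, from the frozen S36. -/
theorem iaNuPt (h36 : Fermat.Agent.S58.S36Statement) :
    Fermat.Agent.S38.H473.IANuPtStatement := by
  intro p hpF hp5 𝒪 _ _ _ _ _ _ ρbar Smin hR hflat Piv hPiv k pv hpv hpvPiv n r qv hq hNQ PQ α hα
    V h a hV hhalf₁ hhalf₂ ha
  classical
  obtain ⟨hpvP, hpvd, hqvP, hsurj, hMne, hsig, hM⟩ :=
    Fermat.Agent.S38.H473.ia_basic_facts hR hPiv hpv hpvPiv hq
  haveI : NeZero (MIA p Smin pv qv) := ⟨hMne⟩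
  have hH := twistHyp_KIA_of_spec hR hPiv hpv hpvPiv hq hhalf₁ hhalf₂
  have hvfac := factorization_wilesLevel_pivot hR hPiv hpv hpvPiv hq
  subst hpvPiv
  intro χ hχ P hP hthrough q hqPiv
  obtain ⟨i, -, rfl⟩ := Finset.mem_image.mp hqPiv
  -- the standing facts
  have hpvMem : ∀ i, pv i ∈ Finset.univ.image pv := fun i =>
    Finset.mem_image_of_mem pv (Finset.mem_univ i)
  have hpvS : ∀ i, pv i ∉ Smin := fun i => (hPiv (pv i) (hpvMem i)).2.1
  have hqvS : ∀ j, qv j ∉ Smin := fun j hj => (hq.2.1 j).2.1 (Finset.mem_union_left _ hj)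
  have hdisj : ∀ i j, pv i ≠ qv j := fun i j hij =>
    (hq.2.1 j).2.1 (Finset.mem_union_right _ (hij ▸ hpvMem i))
  have hinj : Function.Injective (Sum.elim pv qv) := elim_injective pv qv hpv hq.1 hdisj
  have hprime : ∀ s, (Sum.elim pv qv s).Prime := by
    rintro (i | j)
    · exact hpvP i
    · exact hqvP j
  have hN₀ : wilesLevel p .flat Smin Smin ≠ 0 := wilesLevel_ne_zero hpF.out hR.hSmin hR.hSmin
  have hcop : ∀ s, Nat.Coprime (wilesLevel p .flat Smin Smin) (Sum.elim pv qv s) := by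
    intro s
    refine Nat.Coprime.symm ((Nat.Prime.coprime_iff_not_dvd (hprime s)).mpr fun hd => ?_)
    have hmem : Sum.elim pv qv s ∈ Smin :=
      mem_of_prime_dvd_wilesLevel hpF.out hR.hSmin hR.hSmin hR.hpSmin (Finset.Subset.refl _)
        _ (hprime s) hd
    rcases s with i | j
    · exact hpvS i hmem
    · exact hqvS j hmem
  have hsub : Smin ⊆ Smin ∪ Finset.univ.image pv ∪ Finset.univ.image qv :=
    Finset.subset_union_left.trans Finset.subset_union_left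
  have hSigP : ∀ q ∈ Smin ∪ Finset.univ.image pv ∪ Finset.univ.image qv, q.Prime := by
    intro q hq'
    rcases Finset.mem_union.mp hq' with h' | h'
    · rcases Finset.mem_union.mp h' with h'' | h''
      · exact hR.hSmin q h''
      · exact (hPiv q h'').1
    · obtain ⟨j, -, rfl⟩ := Finset.mem_image.mp h'
      exact hqvP j
  have hK : IsMid (MIA p Smin pv qv) (KIA p Smin pv qv) := isMid_KIA p Smin pv qv
  haveI : (KIA p Smin pv qv).FiniteIndex :=
    Fermat.Agent.S59.TW.H564.finiteIndex_of_Gamma1_le (M := MIA p Smin pv qv) hK.ge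
  -- the nice lifts of the diamond indices at the pivots
  choose dv hdv hdv1 using fun a₁ : (∀ i : Fin k, (ZMod (pv i))ˣ) =>
    exists_niceLift (wilesLevel p .flat Smin Smin) (Sum.elim pv qv) hN₀ hinj hprime hcop
      (pairU a₁ (1 : ∀ j : Fin r, (ZMod (qv j))ˣ))
  have hdia : ∀ (a₁ : ∀ i : Fin k, (ZMod (pv i))ˣ) (y : XIA p Smin pv qv 𝒪),
      diamondU hK (dv a₁) y = diaIA p Smin pv qv 𝒪 a₁ 1 y := fun a₁ y =>
    diamondU_eq_gLift p (wilesLevel p .flat Smin Smin) (Sum.elim pv qv) hsurj (hdv a₁) y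
  -- parabolic classes
  have hpar : ∀ v ∈ V, ModularCurve.Period.IsParabolicHom (KIA p Smin pv qv) v :=
    Fermat.Agent.S59.TW.H324.isLocPart_parabolic_of_pkg p 𝒪 ρbar Smin hR .flat _ hsub hSigP PQ
      hMne hK hV
  have hVd : ∀ (a₁ : ∀ i : Fin k, (ZMod (pv i))ˣ), ∀ v ∈ V, diamondU hK (dv a₁) v ∈ V := by
    intro a₁ v hv
    rw [hdia a₁ v]
    exact diaIA_mem hV a₁ 1 hv
  -- the point as an `𝒪`-algebra homomorphism
  letI : Algebra 𝒪 P.O := (P.χ.comp (algebraMap 𝒪 PQ.T)).toAlgebra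
  let x : PQ.T →ₐ[𝒪] P.O := { P.χ with commutes' := fun _ => rfl }
  have hxinj : Function.Injective (algebraMap 𝒪 P.O) :=
    injective_of_dvr_h47 hpF.out.ne_zero hR.hp𝒪 _
  -- SUPP-REL
  have hle : Fermat.Agent.S38.H227.chiRel hK dv (fun a₁ => χ a₁) V ≤
      chiRelIA p Smin pv qv χ V := by
    unfold Fermat.Agent.S38.H227.chiRel chiRelIA
    refine Submodule.span_le.mpr ?_
    rintro w ⟨a₁, y, hy, rfl⟩
    refine Submodule.subset_span ⟨a₁, y, hy, ?_⟩
    rw [hdia a₁ y]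
  have hrel := Fermat.Agent.S38.H227.suppRel hK hH.dvd
    (fun ℓ => uOf (MIA p Smin pv qv) ℓ ^ h)
    (↑(Smin ∪ Finset.univ.image pv ∪ Finset.univ.image qv) : Set ℕ) dv (fun a₁ => χ a₁) V hpar hVd
    a (fun i => PQ.H.π (CuspForm.heckeAlgebra.T i.2.1 i.2.2.1 i.2.2.2))
    (fun i v => ha i.1 i.2.1 i.2.2.1 i.2.2.2 v) x
    (fun t ht => hthrough t (fun v => hle (ht v)))
  -- the pivot character is ramified at `pv i`
  obtain ⟨u₀, hu₀⟩ := hχ.2 i
  have hε : algebraMap 𝒪 P.O (χ (Pi.mulSingle i u₀)) ≠ 1 := by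
    intro h1
    apply hu₀
    apply hxinj
    rw [h1, map_one]
  have hNM : ∀ r' : ℕ, r'.Prime →
      r' ∣ wilesLevel p .flat Smin (Smin ∪ Finset.univ.image pv ∪ Finset.univ.image qv) →
      r' ∣ MIA p Smin pv qv := by
    intro r' hr hrN
    rw [← gLevel_mul_prod_IA p Smin pv qv .flat hpv hq.1 hdisj hpvS hqvS] at hrN
    rcases (Nat.Prime.dvd_mul hr).mp hrN with h1 | h1
    · exact h1
    · obtain ⟨s, -, hs⟩ := (Prime.dvd_finsetProd_iff hr.prime _).mp h1
      exact hs.trans (dvd_gLevel _ _ s)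
  have hdvq : ∀ q : ℕ, q.Prime → q ∣ MIA p Smin pv qv → q ≠ pv i →
      (((((dv (Pi.mulSingle i u₀) : (ZMod (MIA p Smin pv qv))ˣ) :
        ZMod (MIA p Smin pv qv)).val : ℕ) : ℤ) : ZMod q) = 1 := by
    intro q hqP hqM hqne
    refine cast_niceLift_of_prime (wilesLevel p .flat Smin Smin) (Sum.elim pv qv) hprime
      (hdv (Pi.mulSingle i u₀)) (hdv1 (Pi.mulSingle i u₀)) hqP hqM ?_
    rintro (i' | j) hne
    · by_cases hii : i' = i
      · subst hii
        exact hqne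
      · exfalso
        apply hne
        show (Pi.mulSingle i u₀ : ∀ i : Fin k, (ZMod (pv i))ˣ) i' = 1
        exact Pi.mulSingle_eq_of_ne (M := fun i => (ZMod (pv i))ˣ) hii u₀
    · exact absurd rfl hne
  -- the dictionary
  obtain ⟨chiF, j, M₁, hM₁, g, hj, hg, hM₁N, hM₁v, hgF⟩ :=
    Fermat.Agent.S38.H227.nuNew hK hH
      (↑(Smin ∪ Finset.univ.image pv ∪ Finset.univ.image qv) : Set ℕ) hsig hNM dv
      (P.χ.comp PQ.H.π) (fun a₁ => algebraMap 𝒪 P.O (χ a₁)) hrel (hvfac i)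
      (Pi.mulSingle i u₀) hε hdvq
  haveI := hM₁
  have hNS : ∀ q : ℕ, q.Prime →
      q ∣ wilesLevel p .flat Smin (Smin ∪ Finset.univ.image pv ∪ Finset.univ.image qv) →
      q ∈ Smin ∪ Finset.univ.image pv ∪ Finset.univ.image qv := fun q hqP hqd =>
    Finset.mem_coe.mp (hsig q hqP hqd)
  exact not_isUnipotentOnInertiaAt_of_char h36 PQ.H p hR.hp2 (hsub hR.hpSmin) hNS P.hp P.χ hP
    chiF j hj hg (fun q hqP hqd => hNS q hqP (hqd.trans hM₁N)) hgF (hpvP i)
    (fun hqp => hpvS i (hqp ▸ hR.hpSmin)) hM₁v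

/-- **IA-NU** (leaf of layer 3 of the cell HECKE of row HARD), from the frozen S36 and IA-FREE. -/
theorem iaNu (h36 : Fermat.Agent.S58.S36Statement) (hFree : IAFreeStatement) :
    IANuStatement :=
  Fermat.Agent.S38.H473.iaNu_of_pt hFree (iaNuPt h36)

end Fermat.Agent.S38.H47

end
-- ===== PACK-END S38/H47/IANu.lean

-- ===== PACK-BEGIN S38/H227/DictR.lean
section



/-!
# Row HARD / S59-TW: DICT-R, generic core (relation form)   (helper227)

`Γ₁(M) ≤ K ≤ Γ₀(M)`, `TwistHyp K N' u`, `V ⊆ X_K(𝒪)` a submodule of parabolic classes, a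
commutative ring `T` acting on `V` by `a`, `a (πH T_ℓ) = t_ℓ = ⟨u ℓ⟩ T_ℓ` on `V`, and a vector
`y ∈ V` with `(1 + ⟨d₀⟩ + … + ⟨d₀⟩^(p-1)) y = 0`, `emb : T → O'` a ring homomorphism into a domain
of characteristic `0` with `Ann_T(y) ≤ ker emb`.

`dictR_core` : if `d₀ ≡ 1` modulo the primes `q ≠ q₀` of `M` and `q₀² ∥ N'`, then `emb ∘ πH` is,
read in `ℂ` through `(chiF, j)`, the good eigen-system of a newform `g` of level `M₁ ∣ N'` with
`v_{q₀}(M₁) = 2`.

No eigenvector of `T` is extracted and no lying-over is used: for the operator family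
`(t_ℓ, D)`, `D = 1 + ⟨d₀⟩ + … + ⟨d₀⟩^(p-1)`, every relation `P(t, D) = 0` on the parabolic classes
gives `P(t, 0) y = P(t, D) y = 0`, hence `P(emb πH T_ℓ, 0) = 0` (`eigRel_core`); on the form side
`D` acts on the nebentypus component of `χ` by the scalar `1 + χ(d₀) + … + χ(d₀)^(p-1)`, which is
`p ≠ 0` if `χ(d₀) = 1`.
-/

set_option autoImplicit false
set_option linter.unusedSectionVars false
set_option linter.style.haveILetI false

noncomputable section

namespace Fermat.Agent.S38.H227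

open CongruenceSubgroup ModularForm ModularCurve ModularCurve.Period ModularFormClass
open UpperHalfPlane hiding I
open Fermat.Agent.S59.TW.H653 Fermat.Agent.S59.TW.H658
open scoped MatrixGroups ModularForm

/-- `Φ = 1 + X + … + X^(p-1)`. -/
def geomPoly (p : ℕ) : Polynomial ℤ := ∑ k ∈ Finset.range p, Polynomial.X ^ k

theorem aeval_geomPoly {E : Type*} [Semiring E] [Algebra ℤ E] (p : ℕ) (A : E) :
    Polynomial.aeval A (geomPoly p) = ∑ k ∈ Finset.range p, A ^ k := by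
  simp [geomPoly]

variable {M : ℕ} [NeZero M] {K : Subgroup SL(2, ℤ)} [K.FiniteIndex]

/-- **DICT-R, generic core.** -/
theorem dictR_core (hK : IsMid M K) {N' : ℕ} [NeZero N'] {u : ℕ → (ZMod M)ˣ}
    (H : TwistHyp K N' u) (S : Set ℕ) (hS : ∀ q : ℕ, q.Prime → q ∣ N' → q ∈ S)
    (hNM : ∀ r : ℕ, r.Prime → r ∣ N' → r ∣ M)
    {𝒪 : Type*} [CommRing 𝒪] [Module.IsTorsionFree ℤ 𝒪]
    (V : Submodule 𝒪 (Additive K →+ 𝒪)) (hpar : ∀ v ∈ V, IsParabolicHom K v)
    {T : Type*} [CommRing T] (a : T →+* Module.End 𝒪 V)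
    (πH : CuspForm.heckeAlgebra N' 2 S →+* T)
    (ha : ∀ (i : GoodPrime N' S) (v : V),
      ((a (πH (CuspForm.heckeAlgebra.T i.2.1 i.2.2.1 i.2.2.2)) v : V) : Additive K →+ 𝒪)
        = tFam hK 𝒪 H.dvd u i v)
    (y : V) {p : ℕ} (hp : p ≠ 0) (d₀ : (ZMod M)ˣ)
    (hd : (∑ k ∈ Finset.range p, (diamondU hK d₀)^[k] (y : Additive K →+ 𝒪)) = 0)
    {O' : Type*} [CommRing O'] [IsDomain O'] [CharZero O'] (emb : T →+* O')
    (hemb : ∀ t : T, a t y = 0 → emb t = 0)
    {q₀ : ℕ} (hv : N'.factorization q₀ = 2)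
    (hdv : ∀ q : ℕ, q.Prime → q ∣ M → q ≠ q₀ →
      ((((d₀ : (ZMod M)ˣ) : ZMod M).val : ℤ) : ZMod q) = 1) :
    ∃ (chiF : CuspForm.heckeAlgebra N' 2 S →+* ℂ) (j : chiF.range →+* O')
      (M₁ : ℕ) (_ : NeZero M₁) (g : CuspForm (Gamma0 M₁) 2),
      (∀ t, j (chiF.rangeRestrict t) = emb (πH t)) ∧ g.IsNewform ∧ M₁ ∣ N' ∧
      M₁.factorization q₀ = 2 ∧
      ∀ (ℓ : ℕ) (hℓ : ℓ.Prime) (hℓN : ¬ ℓ ∣ N') (hℓS : ℓ ∉ S),
        qCoeff g ℓ = chiF (CuspForm.heckeAlgebra.T hℓ hℓN hℓS) := by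
  classical
  let dv : Unit → (ZMod M)ˣ := fun _ => d₀
  let Φ : Polynomial ℤ := geomPoly p
  let τ : GoodPrime N' S → T := fun i => πH (CuspForm.heckeAlgebra.T i.2.1 i.2.2.1 i.2.2.2)
  -- the Betti operators
  let B : GoodPrime N' S ⊕ Unit → Module.End ℤ (Additive K →+ 𝒪) :=
    polyFam (opFam hK 𝒪 H.dvd u dv) Φ
  have hcommB : ∀ (s : GoodPrime N' S ⊕ Unit) (j : Unit), ∀ v ∈ V,
      B s (B (Sum.inr j) v) = B (Sum.inr j) (B s v) := by
    intro s j v _
    have hc : Commute (opFam hK 𝒪 H.dvd u dv s) (opFam hK 𝒪 H.dvd u dv (Sum.inr j)) :=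
      LinearMap.ext fun φ => opFam_comm hK H.dvd u dv s j φ
    have := polyFam_commute (opFam hK 𝒪 H.dvd u dv) Φ hc
    exact congrArg (fun A => A v) this.eq
  have hBy : ∀ j : Unit, B (Sum.inr j) (y : Additive K →+ 𝒪)
      = ((fun _ : Unit => (0 : ℤ)) j) • (y : Additive K →+ 𝒪) := by
    intro j
    show Polynomial.aeval (opFam hK 𝒪 H.dvd u dv (Sum.inr j)) (geomPoly p)
      (y : Additive K →+ 𝒪) = _
    rw [aeval_geomPoly, LinearMap.sum_apply, zero_smul, ← hd]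
    refine Finset.sum_congr rfl fun k _ => ?_
    rw [Module.End.pow_apply]
    rfl
  -- the relations
  have hrel : ∀ P : FreeAlgebra ℤ (GoodPrime N' S ⊕ Unit),
      FreeAlgebra.lift ℤ (polyFam (opsTot (K := K) (S := S) H.dvd u dv) Φ) P = 0 →
      FreeAlgebra.lift ℤ (Sum.elim (fun i => emb (τ i)) (fun _ : Unit => (0 : O'))) P = 0 := by
    intro P hP
    have hP' : FreeAlgebra.lift ℤ (opsTot (K := K) (S := S) H.dvd u dv) (subPoly Φ P) = 0 :=
      (lift_polyFam _ Φ P).symm.trans hP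
    have h1 : FreeAlgebra.lift ℤ B P (y : Additive K →+ 𝒪) = 0 := by
      have h0 : FreeAlgebra.lift ℤ B P
          = FreeAlgebra.lift ℤ (opFam hK 𝒪 H.dvd u dv) (subPoly Φ P) :=
        lift_polyFam _ Φ P
      rw [h0]
      exact rel_coeff_of_complex hK H.dvd u dv (subPoly Φ P)
        (fun z hz => rel_complex_of_tot hK H.dvd H.neg u dv (subPoly Φ P) hP' z hz)
        (y : Additive K →+ 𝒪) (hpar y y.2)
    have h2 := eigRel_core V B (fun _ : Unit => (0 : ℤ)) a τ hcommB ha y hBy emb hemb P h1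
    simpa using h2
  -- the eigenvector on the form side
  haveI : ∀ e : NebIdx M K, FiniteDimensional ℂ (nebSub M e.1) := fun e => by
    obtain ⟨D, -⟩ := H.twist e.1 e.2
    exact finiteDimensional_nebSub D
  obtain ⟨g, R₀, L, c, hg0, hg⟩ := exists_eigen_of_rel
    (polyFam (opsTot (K := K) (S := S) H.dvd u dv) Φ)
    (fun s s' => polyFam_commute _ Φ (opsTot_commute dv H.embHyp s s'))
    (Sum.elim (fun i => emb (τ i)) (fun _ : Unit => (0 : O'))) hrel
  obtain ⟨e, he⟩ : ∃ e : NebIdx M K, g e ≠ 0 := by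
    by_contra hcon
    push Not at hcon
    exact hg0 (funext hcon)
  -- the nebentypus is ramified at `q₀`
  have hpow : ∀ (k : ℕ) (w : NebTot M K),
      ((opsTot (K := K) (S := S) H.dvd u dv (Sum.inr ())) ^ k) w e
        = (e.1 ((d₀ : (ZMod M)ˣ) : ZMod M)) ^ k • w e := by
    intro k
    induction k with
    | zero => intro w; simp
    | succ k ih =>
      intro w
      rw [pow_succ, Module.End.mul_apply, ih, opsTot_apply, opsNeb_inr, smul_smul, pow_succ]
  have hχ1 : e.1 ((d₀ : (ZMod M)ˣ) : ZMod M) ≠ 1 := by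
    intro h1
    have h2 := congrFun (hg (Sum.inr ())).1 e
    have h3 : (polyFam (opsTot (K := K) (S := S) H.dvd u dv) Φ (Sum.inr ()) g) e
        = (p : ℂ) • g e := by
      show (Polynomial.aeval (opsTot (K := K) (S := S) H.dvd u dv (Sum.inr ()))
        (geomPoly p) g) e = _
      rw [aeval_geomPoly, LinearMap.sum_apply, Finset.sum_apply]
      simp only [hpow, h1, one_pow, one_smul]
      rw [Finset.sum_const, Finset.card_range, Nat.cast_smul_eq_nsmul]
    rw [h3] at h2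
    have h4 : ((p : ℂ)) = (c (Sum.inr ()) : ℂ) := smul_left_injective ℂ he h2
    have h5 : c (Sum.inr ()) = ((p : ℕ) : R₀) := Subtype.ext (by rw [← h4]; simp)
    have h6 := (hg (Sum.inr ())).2
    rw [h5, map_natCast] at h6
    have h7 : ((p : ℕ) : O') = 0 := h6
    exact hp (Nat.cast_eq_zero.mp h7)
  -- the twist
  obtain ⟨D, hD⟩ := H.twist e.1 e.2
  have hF0 : nebTwist D (g e) ≠ 0 := fun h0 =>
    he (nebTwist_injective D (h0.trans (map_zero _).symm))
  have heig : ∀ i : GoodPrime N' S,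
      CuspForm.heckeTLin 2 i.2.1 i.2.2.1 (nebTwist D (g e))
        = ((c (Sum.inl i) : R₀) : ℂ) • nebTwist D (g e) := by
    intro i
    haveI : Fact i.1.Prime := ⟨i.2.1⟩
    have hℓM : ¬ i.1 ∣ M := fun h => i.2.2.1 (h.trans H.dvd)
    have h1 := heckeTLin_nebTwist D i.2.2.1 hℓM (g e)
    rw [hD i.1 i.2.1 i.2.2.1] at h1
    have h2 : nebT e.1 hℓM (e.1 ((u i.1 : (ZMod M)ˣ) : ZMod M)) (g e)
        = ((c (Sum.inl i) : R₀) : ℂ) • g e := congrFun (hg (Sum.inl i)).1 e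
    rw [h2, nebTwist_smul] at h1
    exact h1
  exact newform_of_twist D (g e) hF0 S hS hNM R₀ (fun i => c (Sum.inl i)) heig L
    (emb.comp πH) (fun i => ((hg (Sum.inl i)).2).symm) hv d₀ hχ1 hdv

end Fermat.Agent.S38.H227

end
end
-- ===== PACK-END S38/H227/DictR.lean

-- ===== PACK-BEGIN S38/H227/IADictR.lean
section









/-!
# Row HARD, cell HECKE, leaf IA-CMP, sub-leaf IA-DICT-R   (helper227)

`iaDictR227 : H183.IADictRStatement` (VERBATIM, `S38/IA/Hecke/H183/CmpSpecIA.lean`): an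
eigenvector `y` of `T_Q` in `V` with `(1 + ⟨u⟩_j + … + ⟨u⟩_j^(p-1)) y = 0` (`q_j` a Taylor–Wiles
prime, `u` a primitive root) is a newform point of a level `M₁` with `q_j² ∥ M₁`.

Chain: the point of the prime `Ann y` (`H673.exists_dvr_point`, helper673/helper109), the generic
core `H227.dictR_core` (relation form of the dictionary for the family `(t_ℓ, Φ_p(⟨d⟩))`), the
twist hypothesis at `K_IA` and the lifts `d ≡ 1 mod N₀` (helper47), cuspidality of the localised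
part (helper324), and the eigen-character `H94.chigOf`.
-/

set_option autoImplicit false
set_option linter.unusedSectionVars false
set_option linter.unusedVariables false
set_option linter.style.haveILetI false

open Polynomial IsLocalRing CongruenceSubgroup
open scoped MatrixGroups

namespace Fermat.Agent.S38.H227

open Fermat.Agent.S59.Arch Fermat.Agent.S59.TW.H959 Fermat.Agent.S59.TW Fermat.Agent.S59.H765
open Fermat.Agent.S59.TW.H653 Fermat.Agent.S59.TW.Aut Fermat.Agent.S59.TW.H658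
open Fermat.Agent.S38.IA Fermat.Agent.S38.IA.Hecke Fermat.Agent.S38.IA.Hecke.H183
open Fermat.Agent.S38.H47
open CuspForm

section Fac

variable {p : ℕ} [hpF : Fact p.Prime]
  {𝒪 : Type} [CommRing 𝒪] [IsDomain 𝒪] [IsDiscreteValuationRing 𝒪]
  {ρbar : ResidualGaloisRep (ResidueField 𝒪)} {Smin Piv : Finset ℕ}
  {k r : ℕ} {pv : Fin k → ℕ} {qv : Fin r → ℕ}

include hpF in
/-- `q² ∥ N_{Smin ∪ Piv ∪ Q}` for every Taylor–Wiles prime `q`. -/
theorem factorization_wilesLevel_tw (hR : ResidualHyp p 𝒪 ρbar Smin)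
    (hPiv : IsPivotSet p ρbar Smin Piv) (hpvi : Function.Injective pv)
    (hpvPiv : Finset.univ.image pv = Piv) {n : ℕ} (hq : IsTWSet p ρbar (Smin ∪ Piv) n qv)
    (j : Fin r) :
    (wilesLevel p .flat Smin (Smin ∪ Piv ∪ Finset.univ.image qv)).factorization (qv j) = 2 := by
  classical
  subst hpvPiv
  have hmem : ∀ i, pv i ∈ Finset.univ.image pv := fun i =>
    Finset.mem_image.mpr ⟨i, Finset.mem_univ _, rfl⟩
  have hpvp : ∀ i, (pv i).Prime ∧ pv i ∉ Smin := fun i =>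
    ⟨(hPiv _ (hmem i)).1, (hPiv _ (hmem i)).2.1⟩
  have hqvp : ∀ j, (qv j).Prime ∧ qv j ∉ Smin := fun j =>
    ⟨(hq.2.1 j).1, fun hj => (hq.2.1 j).2.1 (Finset.mem_union_left _ hj)⟩
  have hdisj : ∀ i j, pv i ≠ qv j := fun i j hij =>
    (hq.2.1 j).2.1 (Finset.mem_union_right _ (hij ▸ hmem i))
  have hinj := elim_injective pv qv hpvi hq.1 hdisj
  have hprime : ∀ s, (Sum.elim pv qv s).Prime := by
    rintro (i | j)
    · exact (hpvp i).1
    · exact (hqvp j).1
  rw [wilesLevel_IA p Smin pv qv .flat hpvi hq.1 hdisj (fun i => (hpvp i).2)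
    (fun j => (hqvp j).2)]
  have hN₀ : wilesLevel p .flat Smin Smin ≠ 0 := by
    unfold wilesLevel
    rw [Finset.sdiff_self, Finset.prod_empty, mul_one, mul_one]
    exact Finset.prod_ne_zero_iff.mpr fun q hq' =>
      (hR.hSmin q (Finset.mem_of_mem_erase hq')).ne_zero
  have hP0 : (∏ s, (Sum.elim pv qv s) ^ 2) ≠ 0 :=
    Finset.prod_ne_zero_iff.mpr fun s _ => pow_ne_zero _ (hprime s).ne_zero
  rw [Nat.factorization_mul hN₀ hP0, Finsupp.add_apply]
  have h0 : (wilesLevel p .flat Smin Smin).factorization (qv j) = 0 := by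
    rw [Nat.factorization_eq_zero_iff]
    right; left
    exact fun hd => (hqvp j).2 (mem_of_dvd_wilesLevel p .flat Smin hR.hpSmin hR.hSmin
      (hqvp j).1 hd)
  rw [h0, zero_add, Nat.factorization_prod (fun s _ => pow_ne_zero _ (hprime s).ne_zero),
    Finset.sum_apply']
  rw [Finset.sum_eq_single (Sum.inr j : Fin k ⊕ Fin r)]
  · rw [Sum.elim_inr, Nat.factorization_pow, Finsupp.smul_apply,
      (hqvp j).1.factorization_self, smul_eq_mul, mul_one]
  · intro s _ hs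
    rw [Nat.factorization_pow, Finsupp.smul_apply, smul_eq_mul, mul_eq_zero]
    right
    rw [Nat.factorization_eq_zero_iff]
    right; left
    intro hd
    have := (Nat.prime_dvd_prime_iff_eq (hqvp j).1 (hprime s)).mp hd
    exact hs (hinj (by rw [Sum.elim_inr]; exact this.symm))
  · intro h
    exact absurd (Finset.mem_univ _) h

end Fac

/-- **IA-DICT-R** (VERBATIM). -/
theorem iaDictR227 : IADictRStatement := by
  intro p hpF hp5 𝒪 _ _ _ _ _ _ ρbar Smin hR hflat Piv hPiv k pv hpv hpvPiv n r qv hq hNQ PQ α hα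
    V h a hV hhalf₁ hhalf₂ ha j u hu y hy hsum
  classical
  obtain ⟨hpvP, hpvd, hqvP, hsurj, hMne, hsig, hM⟩ :=
    Fermat.Agent.S38.H473.ia_basic_facts hR hPiv hpv hpvPiv hq
  haveI : NeZero (MIA p Smin pv qv) := ⟨hMne⟩
  have hH := twistHyp_KIA_of_spec hR hPiv hpv hpvPiv hq hhalf₁ hhalf₂
  have hvfac := factorization_wilesLevel_tw hR hPiv hpv hpvPiv hq j
  subst hpvPiv
  -- the standing facts
  have hpvMem : ∀ i, pv i ∈ Finset.univ.image pv := fun i =>
    Finset.mem_image_of_mem pv (Finset.mem_univ i)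
  have hpvS : ∀ i, pv i ∉ Smin := fun i => (hPiv (pv i) (hpvMem i)).2.1
  have hqvS : ∀ j, qv j ∉ Smin := fun j hj => (hq.2.1 j).2.1 (Finset.mem_union_left _ hj)
  have hdisj : ∀ i j, pv i ≠ qv j := fun i j hij =>
    (hq.2.1 j).2.1 (Finset.mem_union_right _ (hij ▸ hpvMem i))
  have hinj : Function.Injective (Sum.elim pv qv) := elim_injective pv qv hpv hq.1 hdisj
  have hprime : ∀ s, (Sum.elim pv qv s).Prime := by
    rintro (i | j)
    · exact hpvP i
    · exact hqvP j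
  have hN₀ : wilesLevel p .flat Smin Smin ≠ 0 := wilesLevel_ne_zero hpF.out hR.hSmin hR.hSmin
  have hcop : ∀ s, Nat.Coprime (wilesLevel p .flat Smin Smin) (Sum.elim pv qv s) := by
    intro s
    refine Nat.Coprime.symm ((Nat.Prime.coprime_iff_not_dvd (hprime s)).mpr fun hd => ?_)
    have hmem : Sum.elim pv qv s ∈ Smin :=
      mem_of_prime_dvd_wilesLevel hpF.out hR.hSmin hR.hSmin hR.hpSmin (Finset.Subset.refl _)
        _ (hprime s) hd
    rcases s with i | j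
    · exact hpvS i hmem
    · exact hqvS j hmem
  have hsub : Smin ⊆ Smin ∪ Finset.univ.image pv ∪ Finset.univ.image qv :=
    Finset.subset_union_left.trans Finset.subset_union_left
  have hSigP : ∀ q ∈ Smin ∪ Finset.univ.image pv ∪ Finset.univ.image qv, q.Prime := by
    intro q hq'
    rcases Finset.mem_union.mp hq' with h' | h'
    · rcases Finset.mem_union.mp h' with h'' | h''
      · exact hR.hSmin q h''
      · exact (hPiv q h'').1
    · obtain ⟨j, -, rfl⟩ := Finset.mem_image.mp h'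
      exact hqvP j
  have hK : IsMid (MIA p Smin pv qv) (KIA p Smin pv qv) := isMid_KIA p Smin pv qv
  haveI : (KIA p Smin pv qv).FiniteIndex :=
    Fermat.Agent.S59.TW.H564.finiteIndex_of_Gamma1_le (M := MIA p Smin pv qv) hK.ge
  -- the nice lift of the diamond index at `q_j`
  obtain ⟨d₀, hd₀, hd₀1⟩ :=
    exists_niceLift (wilesLevel p .flat Smin Smin) (Sum.elim pv qv) hN₀ hinj hprime hcop
      (pairU (1 : ∀ i : Fin k, (ZMod (pv i))ˣ) (Pi.mulSingle j u))
  have hdia : ∀ y : XIA p Smin pv qv 𝒪,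
      diamondU hK d₀ y = diaIA p Smin pv qv 𝒪 1 (Pi.mulSingle j u) y := fun y =>
    diamondU_eq_gLift p (wilesLevel p .flat Smin Smin) (Sum.elim pv qv) hsurj hd₀ y
  have hiter : ∀ (i : ℕ) (y : XIA p Smin pv qv 𝒪),
      (diamondU hK d₀)^[i] y = (diaIA p Smin pv qv 𝒪 1 (Pi.mulSingle j u))^[i] y := by
    intro i
    induction i with
    | zero => intro y; rfl
    | succ i ih =>
      intro y
      rw [Function.iterate_succ_apply, Function.iterate_succ_apply, hdia, ih]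
  have hd : (∑ i ∈ Finset.range p,
      (diamondU hK d₀)^[i] (y : XIA p Smin pv qv 𝒪)) = 0 := by
    rw [← hsum]
    exact Finset.sum_congr rfl fun i _ => hiter i _
  -- parabolic classes
  have hpar : ∀ v ∈ V, ModularCurve.Period.IsParabolicHom (KIA p Smin pv qv) v :=
    Fermat.Agent.S59.TW.H324.isLocPart_parabolic_of_pkg p 𝒪 ρbar Smin hR .flat _ hsub hSigP PQ
      hMne hK hV
  -- the point of the prime `Ann y`
  let 𝔔 : Ideal PQ.T :=
    { carrier := {s | a s y = 0}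
      add_mem' := fun {s t} hs ht => by
        show a (s + t) y = 0
        rw [map_add, LinearMap.add_apply, (hs : a s y = 0), (ht : a t y = 0), add_zero]
      zero_mem' := by
        show a 0 y = 0
        rw [map_zero, LinearMap.zero_apply]
      smul_mem' := fun c s hs => by
        show a (c • s) y = 0
        rw [smul_eq_mul, map_mul, Module.End.mul_apply, (hs : a s y = 0), map_zero] }
  have h𝔔mem : ∀ s : PQ.T, s ∈ 𝔔 ↔ a s y = 0 := fun s => Iff.rfl
  haveI h𝔔p : 𝔔.IsPrime := by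
    refine ⟨?_, ?_⟩
    · intro htop
      have h1 : (1 : PQ.T) ∈ 𝔔 := by rw [htop]; exact Submodule.mem_top
      rw [h𝔔mem, map_one, Module.End.one_apply] at h1
      exact hy.1 h1
    · intro s t hst
      exact hy.2 s t hst
  have h𝔔𝒪 : ∀ c : 𝒪, algebraMap 𝒪 PQ.T c ∈ 𝔔 → c = 0 := by
    intro c hc
    rw [h𝔔mem, AlgHom.commutes, Module.algebraMap_end_apply] at hc
    by_contra hc0
    apply hy.1
    apply Subtype.ext
    have h1 : c • (y : XIA p Smin pv qv 𝒪) = 0 := by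
      have := congrArg Subtype.val hc
      simpa using this
    refine AddMonoidHom.ext fun g => ?_
    have h2 := DFunLike.congr_fun h1 g
    rw [AddMonoidHom.smul_apply, AddMonoidHom.zero_apply, smul_eq_mul] at h2
    rcases mul_eq_zero.mp h2 with h3 | h3
    · exact absurd h3 hc0
    · simpa using h3
  obtain ⟨O', i1, i2, i3, i4, i5, i6, i7, ev, hloc, hinjO, hev⟩ :=
    Fermat.Agent.S59.TW.Aut.H673.exists_dvr_point 𝒪 PQ.T 𝔔 h𝔔𝒪
  haveI := hloc
  haveI : Algebra.IsIntegral 𝒪 PQ.T := Algebra.IsIntegral.of_finite 𝒪 PQ.T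
  have hlocT : IsLocalHom ev.toRingHom :=
    Fermat.Agent.S59.TW.Aut.H673.isLocalHom_of_integral_h673 𝒪 PQ.T O' ev.toRingHom
      (fun c => AlgHom.commutes ev c)
  have hker : ∀ s : PQ.T, a s y = 0 ↔ ev.toRingHom s = 0 := fun s =>
    ((hev s).trans (h𝔔mem s)).symm
  -- the levels
  have hNM : ∀ r' : ℕ, r'.Prime →
      r' ∣ wilesLevel p .flat Smin (Smin ∪ Finset.univ.image pv ∪ Finset.univ.image qv) →
      r' ∣ MIA p Smin pv qv := by
    intro r' hr hrN
    rw [← gLevel_mul_prod_IA p Smin pv qv .flat hpv hq.1 hdisj hpvS hqvS] at hrN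
    rcases (Nat.Prime.dvd_mul hr).mp hrN with h1 | h1
    · exact h1
    · obtain ⟨s, -, hs⟩ := (Prime.dvd_finsetProd_iff hr.prime _).mp h1
      exact hs.trans (dvd_gLevel _ _ s)
  have hdvq : ∀ q : ℕ, q.Prime → q ∣ MIA p Smin pv qv → q ≠ qv j →
      (((((d₀ : (ZMod (MIA p Smin pv qv))ˣ) :
        ZMod (MIA p Smin pv qv)).val : ℕ) : ℤ) : ZMod q) = 1 := by
    intro q hqP hqM hqne
    refine cast_niceLift_of_prime (wilesLevel p .flat Smin Smin) (Sum.elim pv qv) hprime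
      hd₀ hd₀1 hqP hqM ?_
    rintro (i | j') hne
    · exact absurd rfl hne
    · by_cases hjj : j' = j
      · subst hjj
        exact hqne
      · exfalso
        apply hne
        show (Pi.mulSingle j u : ∀ j : Fin r, (ZMod (qv j))ˣ) j' = 1
        exact Pi.mulSingle_eq_of_ne (M := fun j => (ZMod (qv j))ˣ) hjj u
  -- the dictionary
  obtain ⟨chiF, jj, M₁, hM₁, g, hj, hg, hM₁N, hM₁v, hgF⟩ :=
    dictR_core hK hH
      (↑(Smin ∪ Finset.univ.image pv ∪ Finset.univ.image qv) : Set ℕ) hsig hNM V hpar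
      a.toRingHom PQ.H.π (fun i v => ha i.1 i.2.1 i.2.2.1 i.2.2.2 v) y hpF.out.ne_zero d₀ hd
      ev.toRingHom (fun t ht => (hker t).mp ht) hvfac hdvq
  haveI := hM₁
  have hM₁S : ∀ q : ℕ, q.Prime → q ∣ M₁ →
      q ∈ (↑(Smin ∪ Finset.univ.image pv ∪ Finset.univ.image qv) : Set ℕ) :=
    fun q hqP hqd => hsig q hqP (hqd.trans hM₁N)
  have hNS : ∀ ℓ : ℕ, ℓ.Prime →
      ℓ ∉ (↑(Smin ∪ Finset.univ.image pv ∪ Finset.univ.image qv) : Set ℕ) →
      ¬ ℓ ∣ wilesLevel p .flat Smin (Smin ∪ Finset.univ.image pv ∪ Finset.univ.image qv) :=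
    fun ℓ hℓ hℓS hd => hℓS (hsig ℓ hℓ hd)
  -- the eigen-character of `g`
  have hle : (Fermat.Agent.S58.H94.chigOf hg.1
      (↑(Smin ∪ Finset.univ.image pv ∪ Finset.univ.image qv) : Set ℕ)).range ≤ chiF.range :=
    Fermat.Agent.S58.H94.chigOf_range_le hg.1 _ chiF.range
      (fun ℓ hℓ hℓM hℓS => by
        rw [hgF ℓ hℓ (hNS ℓ hℓ hℓS) hℓS]
        exact ⟨_, rfl⟩) hM₁S
  refine ⟨O', i1, i2, i3, i4, i5, i6, ev.toRingHom, hlocT, hker, M₁, hM₁, g, hg, hM₁v, hM₁S,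
    Fermat.Agent.S58.H94.chigOf hg.1 _, jj.comp (Subring.inclusion hle), ?_, ?_⟩
  · intro ℓ hℓ hℓM hℓS
    exact Fermat.Agent.S58.H94.chigOf_T hg.1 _ hℓ hℓM hℓS
  · intro ℓ hℓ hℓN hℓM hℓS
    rw [← hj]
    rw [RingHom.comp_apply]
    congr 1
    apply Subtype.ext
    show Fermat.Agent.S58.H94.chigOf hg.1 _ (CuspForm.heckeAlgebra.T hℓ hℓM hℓS) =
      chiF (CuspForm.heckeAlgebra.T hℓ hℓN hℓS)
    rw [Fermat.Agent.S58.H94.chigOf_T hg.1 _ hℓ hℓM hℓS, hgF ℓ hℓ hℓN hℓS]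

end Fermat.Agent.S38.H227

end
-- ===== PACK-END S38/H227/IADictR.lean

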