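import Fermat.Agent.Pack.S43C.E1L2
import Fermat.Agent.Pack.S43C.E2L2
import Fermat.Agent.Pack.S43MC.G0E22L1
import Fermat.Agent.Pack.S43MC.G0E26L1
import Fermat.Agent.Pack.S43C.E0L2
import Fermat.Agent.Pack.S43MC.G0E21L2
import Fermat.Agent.Pack.S43MC.G0E17L2
import Fermat.Agent.Pack.S43C.E0L1
import Fermat.Agent.Pack.S43C.E1L1
import Fermat.Agent.Pack.S43C.E2L3
import Fermat.Agent.Pack.S43MC.G0E20L1
import Fermat.Agent.Pack.S43MC.G0E27L2
import Fermat.Agent.Pack.S43GC.G0E11L1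
import Fermat.Agent.Pack.S43C.E2L0
import Fermat.Agent.Pack.Fast891

-- ===== PACK-BEGIN S38/IA/Hecke/H183/CmpWireIA.lean
section




/-!
# Row HARD, cell HECKE, layer 4: the leaf IA-CMP, wired  (helper183)

`iaCmp_of_dict : IAFreeStatement → IADictTStatement → IADictRStatement →
    G4Statement → S34Shape494 → S30Statement → (∀ M, HasIntegralStructure M 2) → S36Statement →
    Hecke.IACmpStatement`

(= `iaCmp_of_leaves` + `iaGalT_of` [helper494's general GAL-T] + `iaGalR_of` [helper788's general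
GAL-R]).  The Galois half of IA-CMP is closed; what is left is IA-FREE and the automorphic
dictionary IA-DICT-T, IA-DICT-R.  The hypotheses `G4Statement`, `S34Shape494`, `S30Statement`,
`HasIntegralStructure` are theorems on main (`S59.H294.g4_294`, `S34.result`, `S30.result`,
`S23.result`); `S36Statement` is the frozen S36.
-/

set_option autoImplicit false

open Polynomial IsLocalRing CongruenceSubgroup
open scoped MatrixGroups

namespace Fermat.Agent.S38.IA.Hecke.H183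

open Fermat.Agent.S38.IA Fermat.Agent.S38.IA.Hecke

/-- **The leaf IA-CMP from IA-FREE and the dictionary.** -/
theorem iaCmp_of_dict (hFree : IAFreeStatement) (hDT : IADictTStatement)
    (hDR : IADictRStatement)
    (hG4 : Fermat.Agent.S59.G4.G4Statement)
    (h34 : Fermat.Agent.S59.TW.H494.S34Shape494)
    (h30 : Fermat.Agent.S31.S30Statement)
    (hIS : ∀ (M : ℕ) [NeZero M], CuspForm.HasIntegralStructure M 2)
    (h36 : Fermat.Agent.S58.S36Statement) : IACmpStatement :=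
  iaCmp_of_leaves hFree hDT hDR (iaGalT_of hG4 h34 h30 hIS) (iaGalR_of h36)

end Fermat.Agent.S38.IA.Hecke.H183

end
-- ===== PACK-END S38/IA/Hecke/H183/CmpWireIA.lean

-- ===== PACK-BEGIN S38/H59/TWMinSpec.lean
section



/-!
# Row HARD (row 37, hard case), cell HECKE, leaf TW-MIN = "Taylor–Wiles control at level `L/q`"
(squad S55/S59, squad-lead helper59) — frozen interface

## What the leaf says
`TWMinStatement`: let `P` be a Frey package with `E[p]` irreducible, `N > 0` a level, `Q` a finite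
set of odd primes `q ∤ N p` at which `q ≢ 1 mod p` or some Frobenius is not scalar on `E[p]`
(Taylor–Wiles primes: distinct Frobenius eigenvalues), `M = N ∏_{q ∈ Q} q`, and
`κ : Γ₀(M) → D` a `p`-group quotient through the lower right entry (`Γ' = ker κ`, e.g.
`Γ' = Γ₀(N) ∩ Γ_H(Q)`).  If the mod-`p` eigensystem of `E` occurs in the Betti cohomology
`Hom(Γ', 𝔽_p)`, then `P.ModularRepOfLevel N`.

## How the row uses it
With `N = L / q` (`q` the pivot) and the hypothesis (MIN) `¬ P.ModularRepOfLevel (L / q)`: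
the eigensystem of `E[p]` does not occur in `Hom(Γ₀(L/q) ∩ Γ_H(Q), 𝔽_p)`, hence the two
`q`-traces vanish on the `𝔪`-part `M¹_Q` of `Hom(Γ₀(L) ∩ Γ_H(Q), 𝒪)`: every eigensystem of
`M¹_Q` is `q`-new.  (Then (ST): `h_q M¹_Q = 0`.)

## Leaves (each a `Prop`; prove `theorem foo : FooStatement`)
| leaf | Prop | content |
|---|---|---|
| ALG  | `CommKerRangeStatement` | Mathlib only: commuting family on a finite-dimensional space: `⨆ range = ⊤ ↔ ⨅ ker = ⊥` |
| TORS | `TorsionTwelveStatement` | Mathlib only: elements of finite order of `SL(2,ℤ)` satisfy `g ^ 12 = 1` |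
| COMM | `HeckeKerCommStatement` | the `heckeKer` operators commute (bridge to `S59.TW.H653.TK_comm`) |
| CTRL | `CtrlModPStatement` | mod-`p` control WITHOUT idempotents: occurs in `Hom(Γ', 𝔽_p)` ⇒ occurs in `Hom(Γ₀(M), 𝔽_p)` |
| BDRY | `BdryStatement` | the boundary is Eisenstein: `T_ℓ φ = (ℓ + 1) φ` on parabolic elements, `ℓ ≡ 1 mod M` |
| FORM | `FormOfClassStatement` | occurs in `Hom(Γ₀(M), 𝔽_p)` ⇒ `P.ModularRepOfLevel M` |
| MPIT | `MPIterStatement` | `MP⁺` iterated over `Q`: level `N ∏ Q` ⇒ level `N` |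
Glue: `twMin_of_leaves` (file `TWMinGlue.lean`).
-/

set_option autoImplicit false

open WeierstrassCurve WeierstrassCurve.Affine WeierstrassCurve.Affine.Point

namespace Fermat.Agent.S38.H59

open CongruenceSubgroup Matrix.SpecialLinearGroup
open Fermat.Agent.S29.H642 Fermat.Agent.S59.MFree Fermat.Agent.S59.MFree.H587
open Fermat.Agent.Ribet.H723
open scoped MatrixGroups

/-! ## Occurrence of an eigensystem in Betti cohomology mod `p` -/

/-- The eigensystem `a` (integers, taken mod `p`; only the primes `ℓ ∤ M` with `good ℓ` matter)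
**occurs in `Hom(Γ', 𝔽_p)`**, `Γ' = ker κ`, for the Hecke operators `MFree.H587.heckeKer`. -/
def OccursKer (p : ℕ) {M : ℕ} {D : Type} [Group D] (κ : Gamma0 M →* D)
    (hΓ1 : ∀ γ : Gamma0 M, ((((γ : SL(2, ℤ)) 1 1 : ℤ)) : ZMod M) = 1 → κ γ = 1)
    (good : ℕ → Prop) (a : ℕ → ℤ) : Prop :=
  ∃ x : Additive (kerSub κ) →+ ZMod p, x ≠ 0 ∧
    ∀ (ℓ : ℕ) [Fact ℓ.Prime] (hℓ : ¬ ℓ ∣ M), good ℓ →
      heckeKer hℓ κ hΓ1 x = ((a ℓ : ℤ) : ZMod p) • x

/-- The eigensystem `a` **occurs in `Hom(Γ₀(M), 𝔽_p)`**, for the Hecke transfers of S29/S41. -/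
def OccursGamma0 (p M : ℕ) (good : ℕ → Prop) (a : ℕ → ℤ) : Prop :=
  ∃ y : Additive (Gamma0 M) →+ ZMod p, y ≠ 0 ∧
    ∀ (ℓ : ℕ) [Fact ℓ.Prime] (hℓ : ¬ ℓ ∣ M), good ℓ →
      heckeTransfer hℓ y = ((a ℓ : ℤ) : ZMod p) • y

/-! ## Leaves -/

/-- **ALG (Mathlib only).**  For a pairwise commuting family of endomorphisms of a
finite-dimensional vector space: the ranges span everything iff the common kernel is zero.
(`⇒`: Nakayama over the commutative algebra generated by the family, which acts faithfully;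
`⇐`: apply `⇒` to the transposes on the dual space.) -/
def CommKerRangeStatement : Prop :=
  ∀ (k : Type) [Field k] (V : Type) [AddCommGroup V] [Module k V] [FiniteDimensional k V]
    (ι : Type) (f : ι → Module.End k V), (∀ i j, Commute (f i) (f j)) →
    ((⨆ i, LinearMap.range (f i)) = ⊤ ↔ (⨅ i, LinearMap.ker (f i)) = ⊥)

/-- **TORS (Mathlib only).**  An element of finite order of `SL(2,ℤ)` has order dividing `12`. -/
def TorsionTwelveStatement : Prop :=
  ∀ g : SL(2, ℤ), IsOfFinOrder g → g ^ 12 = 1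

/-- **COMM.**  The Hecke operators `heckeKer` on `Hom(ker κ, A)` commute.
(`S59.TW.H653.TK_comm` for the mid subgroup `K = ker κ`, after identifying `heckeKer` with
`TK`: both are transfers of normalised coset systems with constant `ℓ`,
`H587.heckeKerOf_congr`.) -/
def HeckeKerCommStatement : Prop :=
  ∀ (M ℓ ℓ' : ℕ) [Fact ℓ.Prime] [Fact ℓ'.Prime] (hℓ : ¬ ℓ ∣ M) (hℓ' : ¬ ℓ' ∣ M), M ≠ 0 →
    ∀ (D : Type) [Group D] (κ : Gamma0 M →* D)
      (hΓ1 : ∀ γ : Gamma0 M, ((((γ : SL(2, ℤ)) 1 1 : ℤ)) : ZMod M) = 1 → κ γ = 1)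
      (A : Type) [AddCommGroup A] (φ : Additive (kerSub κ) →+ A),
      heckeKer hℓ κ hΓ1 (heckeKer hℓ' κ hΓ1 φ) = heckeKer hℓ' κ hΓ1 (heckeKer hℓ κ hΓ1 φ)

/-- **CTRL: control modulo `p`, without idempotents.**  `p ≥ 5`, `D` a finite `p`-group,
`κ : Γ₀(M) ↠ D` trivial on `{d ≡ 1 mod M}`.  An eigensystem occurring in `Hom(ker κ, 𝔽_p)` occurs
in `Hom(Γ₀(M), 𝔽_p)`.
(`cor : V = Hom(ker κ, 𝔽_p) → Y = Hom(Γ₀(M), 𝔽_p)` is onto with kernel `I_D V`
(`MFree.H761.kerCor`, `corSurj`; all classes are torsion-trivial by TORS) and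
`cor ∘ t_ℓ = T_ℓ ∘ cor` (`H587.cor_heckeKerOf`).  The eigenspace of `V` is `D`-stable, so it
contains a `D`-fixed `x₀ ≠ 0` (`p`-group); ALG on `V` for the family `t_ℓ - a_ℓ`, `d - 1`:
`V ≠ ∑ (t_ℓ - a_ℓ) V + I_D V`, hence `Y ≠ ∑ (T_ℓ - a_ℓ) Y`; ALG on `Y`.) -/
def CtrlModPStatement : Prop :=
  ∀ (p : ℕ) [Fact p.Prime], 5 ≤ p → ∀ (M : ℕ), M ≠ 0 →
    ∀ (D : Type) [Group D] [Fintype D] (κ : Gamma0 M →* D)
      (hΓ1 : ∀ γ : Gamma0 M, ((((γ : SL(2, ℤ)) 1 1 : ℤ)) : ZMod M) = 1 → κ γ = 1),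
      Function.Surjective κ → (∃ n : ℕ, Fintype.card D = p ^ n) →
      ∀ (good : ℕ → Prop) (a : ℕ → ℤ), OccursKer p κ hΓ1 good a → OccursGamma0 p M good a

/-- **BDRY: the boundary is Eisenstein.**  For a prime `ℓ ≡ 1 mod M`, `ℓ ≠ 2`, every
`φ ∈ Hom(Γ₀(M), A)` and every parabolic `γ ∈ Γ₀(M)` (`(tr γ)² = 4`):
`(T_ℓ φ)(γ) = (ℓ + 1) φ(γ)`.
(Cycle decomposition of the permutation of `ℙ¹(𝔽_ℓ)` induced by `γ`: the orbit products are
`α γ^m α⁻¹`, `α` integral of determinant `ℓ`, `≡` unipotent upper triangular mod `M`; such an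
element is `Γ(M)`-conjugate to `γ^{m'}`, and the exponents add up to `ℓ + 1`.) -/
def BdryStatement : Prop :=
  ∀ (M ℓ : ℕ) [Fact ℓ.Prime] (hℓ : ¬ ℓ ∣ M), M ≠ 0 → ℓ ≠ 2 → ℓ ≡ 1 [MOD M] →
    ∀ (A : Type) [AddCommGroup A] (φ : Additive (Gamma0 M) →+ A) (γ : Gamma0 M),
      ((γ : SL(2, ℤ)) : Matrix (Fin 2) (Fin 2) ℤ).trace ^ 2 = 4 →
      heckeTransfer hℓ φ (Additive.ofMul γ) = (ℓ + 1) • φ (Additive.ofMul γ)

/-- **FORM: from Betti cohomology mod `p` to eigenforms.**  If the eigensystem of the Frey curve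
occurs in `Hom(Γ₀(M), 𝔽_p)` and `E[p]` is irreducible, then `E[p]` is modular of level `M`.
(`S41.H45.ne_h45` gives a good `ℓ₀ ≡ 1 mod M` with `a_ℓ₀ ≢ ℓ₀ + 1`; BDRY + TORS ⇒ the class is
parabolic and torsion-trivial; `Lib.HFree.H412.exists_lift_isParHom` (lift to `ℤ`),
`Ribet.H883.exists_eigenform_of_lattice_class` (Deligne–Serre + S21),
`Ribet.H943.almostAllToWitness`.) -/
def FormOfClassStatement : Prop :=
  ∀ (P : FreyPackage) (W : WeierstrassCurve ℤ), W.IsIntegralModelOf P.freyCurve →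
    GaloisRepIsIrreducible (K := AlgebraicClosure ℚ) ℚ P.freyCurve P.p →
    ∀ (M : ℕ), 0 < M →
      OccursGamma0 P.p M (fun ℓ => W.IsGoodPrimeFor ℓ ∧ ℓ ≠ P.p) (fun ℓ => W.apOfModel ℓ) →
      P.ModularRepOfLevel M

/-- The hypothesis on the auxiliary primes: odd, prime to `N p`, and "not hard-scalar". -/
def IsSoftSet (P : FreyPackage) (N : ℕ) (Q : Finset ℕ) : Prop :=
  ∀ q ∈ Q, q.Prime ∧ q ≠ 2 ∧ q ≠ P.p ∧ ¬ q ∣ N ∧ (¬ P.p ∣ q - 1 ∨ ¬ FrobScalarAt P q)

/-- **MPIT: `MP⁺` iterated.**  Given Mazur's principle in the sharp form and the unramifiedness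
of `E[p]` at the odd primes `q ≠ p` (S05), the primes of a soft set can be removed from the
level. -/
def MPIterStatement : Prop :=
  MazurPrincipleOddPlusStatement →
  (∀ (P : FreyPackage) (q : ℕ), q.Prime → q ≠ 2 → q ≠ P.p → P.GaloisRepUnramifiedAt q) →
  ∀ (P : FreyPackage) (N : ℕ) (Q : Finset ℕ), 0 < N → IsSoftSet P N Q →
    GaloisRepIsIrreducible (K := AlgebraicClosure ℚ) ℚ P.freyCurve P.p →
    P.ModularRepOfLevel (N * ∏ q ∈ Q, q) → P.ModularRepOfLevel N

/-! ## Conditional forms (what the owners prove first) -/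

/-- CTRL from COMM and TORS (owner: helper59). -/
def CtrlOfStatement : Prop :=
  HeckeKerCommStatement → TorsionTwelveStatement → CtrlModPStatement

/-- FORM from BDRY and TORS. -/
def FormOfStatement : Prop :=
  BdryStatement → TorsionTwelveStatement → FormOfClassStatement

/-! ## The leaf of the row -/

/-- **TW-MIN = Taylor–Wiles control at a level where `ρ̄` need not be modular.**
If the eigensystem of the Frey curve occurs in `Hom(Γ', 𝔽_p)`, `Γ' = ker κ ≤ Γ₀(N ∏ Q)` of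
`p`-power index (`Γ₁(N ∏ Q) ≤ Γ'`), `Q` a soft set, then `E[p]` is modular of level `N`. -/
def TWMinStatement : Prop :=
  MazurPrincipleOddPlusStatement →
  ∀ (P : FreyPackage) (W : WeierstrassCurve ℤ), W.IsIntegralModelOf P.freyCurve →
    GaloisRepIsIrreducible (K := AlgebraicClosure ℚ) ℚ P.freyCurve P.p →
    ∀ (N : ℕ) (Q : Finset ℕ), 0 < N → IsSoftSet P N Q →
    ∀ (D : Type) [Group D] [Fintype D] (κ : Gamma0 (N * ∏ q ∈ Q, q) →* D)
      (hΓ1 : ∀ γ : Gamma0 (N * ∏ q ∈ Q, q),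
        ((((γ : SL(2, ℤ)) 1 1 : ℤ)) : ZMod (N * ∏ q ∈ Q, q)) = 1 → κ γ = 1),
      Function.Surjective κ → (∃ n : ℕ, Fintype.card D = P.p ^ n) →
      OccursKer P.p κ hΓ1 (fun ℓ => W.IsGoodPrimeFor ℓ ∧ ℓ ≠ P.p) (fun ℓ => W.apOfModel ℓ) →
      P.ModularRepOfLevel N

end Fermat.Agent.S38.H59

end
-- ===== PACK-END S38/H59/TWMinSpec.lean

-- ===== PACK-BEGIN S38/H59/CtrlModP.lean
section





/-!
# Row HARD, leaf TW-MIN, CTRL: control modulo `p` without idempotents (helper59)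

`ctrlOf : CtrlOfStatement`, i.e. `HeckeKerCommStatement → TorsionTwelveStatement →
CtrlModPStatement`: for `p ≥ 5` and a `p`-group quotient `κ : Γ₀(M) ↠ D` through the lower right
entry, an eigensystem occurring in `Hom(ker κ, 𝔽_p)` occurs in `Hom(Γ₀(M), 𝔽_p)`.

Instantiation of `ctrl_core_h59` (`CtrlCore.lean`) with
`V = Hom(ker κ, 𝔽_p)`, `Y = Hom(Γ₀(M), 𝔽_p)`, `cor = MFree.cor κ` (onto by `H761.corSurj`, kernel
`I_D V` by `H761.kerCor`), `t = heckeKer - a`, `T = heckeTransfer - a`, `s d = ⟨d⟩ - 1`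
(nilpotent: `D` is a `p`-group and the characteristic is `p`).
-/

set_option autoImplicit false
set_option linter.style.haveILetI false
set_option linter.unusedSectionVars false

namespace Fermat.Agent.S38.H59

open CongruenceSubgroup Matrix.SpecialLinearGroup
open Fermat.Agent.S29.H642 Fermat.Agent.S41.Spec
open Fermat.Agent.S59.MFree Fermat.Agent.S59.MFree.H587 Fermat.Agent.S59.MFree.H941
open scoped MatrixGroups

section Lin

variable {M : ℕ}

/-- `T_ℓ` on `Hom(Γ₀(M), O)`, `O`-linear. -/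
noncomputable def heckeTransferLin59 {ℓ : ℕ} [Fact ℓ.Prime] (hℓ : ¬ ℓ ∣ M) (O : Type*)
    [CommRing O] : (Additive (Gamma0 M) →+ O) →ₗ[O] (Additive (Gamma0 M) →+ O) where
  toFun φ := heckeTransfer hℓ φ
  map_add' := heckeTransfer_add hℓ
  map_smul' a φ := by
    have h1 : a • φ = (AddMonoidHom.mulLeft a).comp φ := by
      ext h
      rfl
    have h2 : a • heckeTransfer hℓ φ = (AddMonoidHom.mulLeft a).comp (heckeTransfer hℓ φ) := by
      ext h
      rfl
    rw [RingHom.id_apply, h1, h2, heckeTransfer_comp]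

@[simp] theorem heckeTransferLin59_apply {ℓ : ℕ} [Fact ℓ.Prime] (hℓ : ¬ ℓ ∣ M) (O : Type*)
    [CommRing O] (φ : Additive (Gamma0 M) →+ O) :
    heckeTransferLin59 hℓ O φ = heckeTransfer hℓ φ := rfl

variable {D : Type} [Group D] [Fintype D] (κ : Gamma0 M →* D)

/-- `cor`, `O`-linear. -/
noncomputable def corLin59 (O : Type*) [CommRing O] :
    (Additive (kerSub κ) →+ O) →ₗ[O] (Additive (Gamma0 M) →+ O) where
  toFun := cor κ
  map_add' := cor_add κ
  map_smul' a x := cor_smul κ a x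

@[simp] theorem corLin59_apply (O : Type*) [CommRing O] (x : Additive (kerSub κ) →+ O) :
    corLin59 κ O x = cor κ x := rfl

/-- Powers of the diamond operators. -/
theorem conjL_pow59 {O : Type*} [CommRing O] (g : Gamma0 M) (m : ℕ) :
    (H761.conjL (O := O) κ g) ^ m = H761.conjL κ (g ^ m) := by
  induction m with
  | zero =>
    apply LinearMap.ext
    intro x
    rw [pow_zero, pow_zero, H761.conjL_apply, H761.conjAct_one]
    rfl
  | succ m ih =>
    apply LinearMap.ext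
    intro x
    rw [pow_succ, ih, pow_succ, H761.conjL_apply, H761.conjAct_mul]
    rfl

end Lin

/-- Homomorphisms to `𝔽_p`, `p ≥ 5`, vanish on the elements `g` with `g ^ 12 = 1`. -/
theorem apply_eq_zero_of_pow_twelve59 {p : ℕ} [Fact p.Prime] (hp5 : 5 ≤ p) {G : Type*} [Group G]
    (φ : Additive G →+ ZMod p) (g : G) (hg : g ^ 12 = 1) : φ (Additive.ofMul g) = 0 := by
  have h1 : (12 : ℕ) • φ (Additive.ofMul g) = 0 := by
    rw [← map_nsmul, ← ofMul_pow, hg, ofMul_one, map_zero]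
  rw [nsmul_eq_mul] at h1
  rcases mul_eq_zero.mp h1 with h | h
  · exfalso
    have hp : p.Prime := Fact.out
    have hdvd : p ∣ 12 := (ZMod.natCast_eq_zero_iff 12 p).mp h
    have h12 : (12 : ℕ) = 2 ^ 2 * 3 := by norm_num
    rw [h12] at hdvd
    rcases (Nat.Prime.dvd_mul hp).mp hdvd with h2 | h3
    · have := (Nat.prime_dvd_prime_iff_eq hp Nat.prime_two).mp (hp.dvd_of_dvd_pow h2)
      omega
    · have := (Nat.prime_dvd_prime_iff_eq hp Nat.prime_three).mp h3
      omega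
  · exact h

theorem commute_sub_one59 {E : Type*} [Ring E] (a b : E) (h : Commute a b) :
    Commute (a - 1) (b - 1) :=
  (h.sub_right (Commute.one_right a)).sub_left ((Commute.one_left b).sub_right (Commute.one_left 1))

theorem commute_sub_smul59 {k E : Type*} [CommRing k] [Ring E] [Algebra k E] (a b : E)
    (c c' : k) (h : Commute a b) : Commute (a - c • 1) (b - c' • 1) :=
  (h.sub_right ((Commute.one_right a).smul_right c')).sub_left
    (((Commute.one_left b).smul_left c).sub_right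
      (((Commute.one_left (1 : E)).smul_left c).smul_right c'))

theorem commute_sub_smul_sub_one59 {k E : Type*} [CommRing k] [Ring E] [Algebra k E] (a b : E)
    (c : k) (h : Commute a b) : Commute (a - c • 1) (b - 1) :=
  (h.sub_right (Commute.one_right a)).sub_left
    (((Commute.one_left b).smul_left c).sub_right ((Commute.one_left (1 : E)).smul_left c))

theorem isNilpotent_sub_one59 {E : Type*} [Ring E] (p n : ℕ) [Fact p.Prime] [CharP E p] (a : E)
    (h : a ^ p ^ n = 1) : IsNilpotent (a - 1) :=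
  ⟨p ^ n, by rw [sub_pow_expChar_pow_of_commute p n (Commute.one_right a), one_pow, h, sub_self]⟩

/-- **CTRL** from COMM and TORS. -/
theorem ctrlOf : CtrlOfStatement := by
  intro hComm hTors p _ hp5 M hM D _ _ κ hΓ1 hκ hcard good a hocc
  classical
  obtain ⟨x, hx0, hxT⟩ := hocc
  obtain ⟨n, hn⟩ := hcard
  haveI : NeZero M := ⟨hM⟩
  have hp : p.Prime := Fact.out
  -- torsion
  have hfin12 : ∀ g : Gamma0 M, IsOfFinOrder g → g ^ 12 = 1 := by
    intro g hg
    have h1 : IsOfFinOrder ((Gamma0 M).subtype g) := (Gamma0 M).subtype.isOfFinOrder hg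
    have h2 := hTors _ h1
    apply Subtype.ext
    rw [Subgroup.coe_pow]
    exact h2
  have hcop : Nat.Coprime 12 (p ^ n) := by
    apply Nat.Coprime.pow_right
    rw [Nat.coprime_comm, Nat.Prime.coprime_iff_not_dvd hp]
    intro hdvd
    have h12 : (12 : ℕ) = 2 ^ 2 * 3 := by norm_num
    rw [h12] at hdvd
    rcases (Nat.Prime.dvd_mul hp).mp hdvd with h2 | h3
    · have := (Nat.prime_dvd_prime_iff_eq hp Nat.prime_two).mp (hp.dvd_of_dvd_pow h2)
      omega
    · have := (Nat.prime_dvd_prime_iff_eq hp Nat.prime_three).mp h3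
      omega
  have hpowD : ∀ d : D, d ^ (p ^ n) = 1 := fun d => by
    rw [← hn]
    exact pow_card_eq_one
  have hell : ∀ g : Gamma0 M, IsOfFinOrder g → κ g = 1 := by
    intro g hg
    have h1 : κ g ^ 12 = 1 := by rw [← map_pow, hfin12 g hg, map_one]
    have h2 : κ g ^ (p ^ n) = 1 := hpowD _
    have h3 := Nat.dvd_gcd (orderOf_dvd_of_pow_eq_one h1) (orderOf_dvd_of_pow_eq_one h2)
    rw [Nat.Coprime.gcd_eq_one hcop, Nat.dvd_one] at h3
    exact orderOf_eq_one_iff.mp h3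
  have hneg1 : (-1 : SL(2, ℤ)) ∈ Gamma0 M := by
    rw [Gamma0_mem]
    simp
  have hneg1fin : IsOfFinOrder (⟨-1, hneg1⟩ : Gamma0 M) := by
    refine isOfFinOrder_iff_pow_eq_one.2 ⟨2, by norm_num, ?_⟩
    apply Subtype.ext
    simp
  have hneg : (-1 : SL(2, ℤ)) ∈ kerSub κ := mem_kerSub.mpr ⟨hneg1, hell _ hneg1fin⟩
  have httV : ∀ v : Additive (kerSub κ) →+ ZMod p, IsTorsionTrivial v := by
    intro v γ hγ
    apply apply_eq_zero_of_pow_twelve59 hp5
    have h1 : IsOfFinOrder ((kerSub κ).subtype γ) := (kerSub κ).subtype.isOfFinOrder hγ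
    have h2 := hTors _ h1
    apply Subtype.ext
    rw [Subgroup.coe_pow]
    exact h2
  have httY : ∀ y : Additive (Gamma0 M) →+ ZMod p, IsTorsionTrivial y := by
    intro y γ hγ
    exact apply_eq_zero_of_pow_twelve59 hp5 y γ (hfin12 γ hγ)
  -- finiteness
  haveI : (kerSub κ).FiniteIndex := H761.finiteIndex_kerSub κ
  have hfinHom : ∀ (Γ' : Subgroup SL(2, ℤ)) [Γ'.FiniteIndex],
      Module.Finite (ZMod p) (Additive Γ' →+ ZMod p) := by
    intro Γ' _
    have := H761.fg_SL2Z_h761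
    have : Group.FG Γ' := Subgroup.fg_of_index_ne_zero Γ'
    obtain ⟨S, hS, hfin⟩ := Group.fg_iff.mp this
    have : Finite S := hfin
    exact (H761.finite_free_of_injective (H761.evalOn (O := ZMod p) S)
      (H761.evalOn_injective S hS)).1
  haveI hVfin : Module.Finite (ZMod p) (Additive (kerSub κ) →+ ZMod p) := hfinHom _
  haveI hYfin : Module.Finite (ZMod p) (Additive (Gamma0 M) →+ ZMod p) := hfinHom _
  -- the operators
  let I : Type := {ℓ : ℕ // ℓ.Prime ∧ ¬ ℓ ∣ M ∧ good ℓ}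
  let t : I → Module.End (ZMod p) (Additive (kerSub κ) →+ ZMod p) := fun i =>
    haveI : Fact i.1.Prime := ⟨i.2.1⟩
    heckeKerLin i.2.2.1 κ hΓ1 (ZMod p) - ((a i.1 : ℤ) : ZMod p) • 1
  let T : I → Module.End (ZMod p) (Additive (Gamma0 M) →+ ZMod p) := fun i =>
    haveI : Fact i.1.Prime := ⟨i.2.1⟩
    heckeTransferLin59 i.2.2.1 (ZMod p) - ((a i.1 : ℤ) : ZMod p) • 1
  let sec : D → Gamma0 M := Function.surjInv hκ
  have hsec : ∀ d, κ (sec d) = d := Function.surjInv_eq hκ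
  let s : D → Module.End (ZMod p) (Additive (kerSub κ) →+ ZMod p) := fun d =>
    H761.conjL κ (sec d) - 1
  -- commutation
  have htt : ∀ i i', Commute (t i) (t i') := by
    intro i i'
    haveI : Fact i.1.Prime := ⟨i.2.1⟩
    haveI : Fact i'.1.Prime := ⟨i'.2.1⟩
    refine commute_sub_smul59 (E := Module.End (ZMod p) (Additive (kerSub κ) →+ ZMod p))
      (heckeKerLin i.2.2.1 κ hΓ1 (ZMod p)) (heckeKerLin i'.2.2.1 κ hΓ1 (ZMod p)) _ _ ?_
    apply LinearMap.ext
    intro φ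
    exact hComm M i.1 i'.1 i.2.2.1 i'.2.2.1 hM D κ hΓ1 (ZMod p) φ
  have hTT : ∀ i i', Commute (T i) (T i') := by
    intro i i'
    haveI : Fact i.1.Prime := ⟨i.2.1⟩
    haveI : Fact i'.1.Prime := ⟨i'.2.1⟩
    refine commute_sub_smul59 (E := Module.End (ZMod p) (Additive (Gamma0 M) →+ ZMod p))
      (heckeTransferLin59 i.2.2.1 (ZMod p)) (heckeTransferLin59 i'.2.2.1 (ZMod p)) _ _ ?_
    apply LinearMap.ext
    intro φ
    exact Fermat.Agent.S41.H761.heckeComm M i.1 i'.1 i.2.2.1 i'.2.2.1 (ZMod p) φ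
  have hconj_comm : ∀ g g' : Gamma0 M, Commute (H761.conjL (O := ZMod p) κ g)
      (H761.conjL κ g') := by
    intro g g'
    apply LinearMap.ext
    intro φ
    show H761.conjL κ g (H761.conjL κ g' φ) = H761.conjL κ g' (H761.conjL κ g φ)
    rw [H761.conjL_apply, H761.conjL_apply, H761.conjL_apply, H761.conjL_apply,
      ← H761.conjAct_mul, ← H761.conjAct_mul]
    apply H57.conjAct_congr57
    apply kappa_congr κ hΓ1
    rw [eisD_mul, eisD_mul, mul_comm]
  have hss : ∀ d d', Commute (s d) (s d') := by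
    intro d d'
    exact commute_sub_one59 (E := Module.End (ZMod p) (Additive (kerSub κ) →+ ZMod p))
      (H761.conjL κ (sec d)) (H761.conjL κ (sec d')) (hconj_comm _ _)
  have hts : ∀ i d, Commute (t i) (s d) := by
    intro i d
    haveI : Fact i.1.Prime := ⟨i.2.1⟩
    have h1 : Commute (heckeKerLin i.2.2.1 κ hΓ1 (ZMod p)) (H761.conjL κ (sec d)) := by
      apply LinearMap.ext
      intro φ
      exact heckeKerOf_conjAct i.2.2.1 κ hΓ1 (wStd i.2.2.1) (i.1 : ZMod M)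
        (isNormalising_wStd i.2.2.1) (sec d) φ
    exact commute_sub_smul_sub_one59 (E := Module.End (ZMod p) (Additive (kerSub κ) →+ ZMod p))
      (heckeKerLin i.2.2.1 κ hΓ1 (ZMod p)) (H761.conjL κ (sec d)) _ h1
  -- nilpotency
  have hnil : ∀ d, IsNilpotent (s d) := by
    intro d
    haveI : Nontrivial (Module.End (ZMod p) (Additive (kerSub κ) →+ ZMod p)) :=
      ⟨⟨1, 0, fun h => hx0 (by
        have := congrArg (fun T : Module.End (ZMod p) (Additive (kerSub κ) →+ ZMod p) => T x) h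
        simpa using this)⟩⟩
    haveI : CharP (Module.End (ZMod p) (Additive (kerSub κ) →+ ZMod p)) p :=
      charP_of_injective_algebraMap
        (algebraMap (ZMod p) (Module.End (ZMod p) (Additive (kerSub κ) →+ ZMod p))).injective p
    refine isNilpotent_sub_one59 (E := Module.End (ZMod p) (Additive (kerSub κ) →+ ZMod p))
      p n (H761.conjL κ (sec d)) ?_
    rw [conjL_pow59]
    apply LinearMap.ext
    intro φ
    rw [H761.conjL_apply, Module.End.one_apply]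
    have h1 : κ (sec d ^ p ^ n) = κ 1 := by rw [map_pow, hpowD, map_one]
    rw [H57.conjAct_congr57 κ φ h1.symm, H761.conjAct_one]
  -- `cor`
  have hcor : ∀ i v, corLin59 κ (ZMod p) (t i v) = T i (corLin59 κ (ZMod p) v) := by
    intro i v
    haveI : Fact i.1.Prime := ⟨i.2.1⟩
    show cor κ (heckeKerLin i.2.2.1 κ hΓ1 (ZMod p) v - ((a i.1 : ℤ) : ZMod p) • v) =
      heckeTransfer i.2.2.1 (cor κ v) - ((a i.1 : ℤ) : ZMod p) • cor κ v
    rw [cor_sub, cor_smul]
    congr 1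
    exact cor_heckeKerOf i.2.2.1 κ hΓ1 (wStd i.2.2.1) (i.1 : ZMod M)
      (isNormalising_wStd i.2.2.1) v
  have hsurj : Function.Surjective (corLin59 κ (ZMod p)) := by
    intro y
    obtain ⟨v, -, hv⟩ := H761.corSurj (Gamma0 M) D κ hneg (ZMod p) y (httY y)
    exact ⟨v, hv⟩
  have hker : LinearMap.ker (corLin59 κ (ZMod p)) ≤ ⨆ d, LinearMap.range (s d) := by
    intro v hv
    have hv0 : cor κ v = 0 := hv
    have hmem := H761.kerCor (Gamma0 M) D κ hneg hell (ZMod p) v (httV v) hv0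
    unfold augSub at hmem
    refine AddSubgroup.closure_induction
      (p := fun w _ => w ∈ ⨆ d, LinearMap.range (s d)) ?_ ?_ ?_ ?_ hmem
    · rintro w ⟨g, y, -, rfl⟩
      refine Submodule.mem_iSup_of_mem (κ g) ⟨y, ?_⟩
      show H761.conjL κ (sec (κ g)) y - y = conjAct κ g y - y
      rw [H761.conjL_apply, H57.conjAct_congr57 κ y (hsec (κ g)).symm]
    · exact Submodule.zero_mem _
    · intro w w' _ _ hw hw'
      exact Submodule.add_mem _ hw hw'
    · intro w _ hw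
      exact Submodule.neg_mem _ hw
  -- conclusion
  have hxt : ∀ i, t i x = 0 := by
    intro i
    haveI : Fact i.1.Prime := ⟨i.2.1⟩
    show heckeKerLin i.2.2.1 κ hΓ1 (ZMod p) x - ((a i.1 : ℤ) : ZMod p) • x = 0
    rw [sub_eq_zero]
    exact hxT i.1 i.2.2.1 i.2.2.2
  obtain ⟨y, hy0, hyT⟩ := ctrl_core_h59 t s T (corLin59 κ (ZMod p)) htt hts hss hTT hnil hcor
    hsurj hker x hx0 hxt
  refine ⟨y, hy0, fun ℓ _ hℓ hg => ?_⟩
  have h := hyT ⟨ℓ, Fact.out, hℓ, hg⟩
  have h' : heckeTransfer hℓ y - ((a ℓ : ℤ) : ZMod p) • y = 0 := h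
  exact sub_eq_zero.mp h'

end Fermat.Agent.S38.H59

end
-- ===== PACK-END S38/H59/CtrlModP.lean

-- ===== PACK-BEGIN S38/H59/LeavesMathlib.lean
section




/-!
# Row HARD, leaf TW-MIN: the two Mathlib-only leaves ALG and TORS in the frozen form (helper59)

`commKerRange : CommKerRangeStatement`, `torsionTwelve : TorsionTwelveStatement`.
-/

set_option autoImplicit false

namespace Fermat.Agent.S38.H59

open scoped MatrixGroups

/-- **TORS.** -/
theorem torsionTwelve : TorsionTwelveStatement :=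
  fun g hg => pow_twelve_eq_one_of_isOfFinOrder_h59 g hg

/-- **ALG.** -/
theorem commKerRange : CommKerRangeStatement := by
  intro k _ V _ _ _ ι f hf
  exact iSup_range_eq_top_iff_h59 f hf

end Fermat.Agent.S38.H59

end
-- ===== PACK-END S38/H59/LeavesMathlib.lean

-- ===== PACK-BEGIN S38/H59/MinZeroCore.lean
section




/-!
# Row HARD, leaf IA-MINZERO, piece Z4 = KERCOR-LOC (helper59)

`eq_zero_of_cor_eq_zero59` : `p ≥ 5`, `κ : Γ₀(M) ↠ D` onto a finite `p`-group, trivial on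
`{d ≡ 1 mod M}`; `𝒪` a domain of characteristic `0`, `ϖ ∣ p`, `𝒪` `ϖ`-adically separated; `e` a
projector of `X = Hom(ker κ, 𝒪)` commuting with the diamond operators `conjAct κ g`.
If `cor` vanishes on `e X`, then `e X = 0`.

NO freeness, NO Hecke operators: `ker cor = I_D X` (`MFree.H761.kerCor`, (Ell) from TORS), so
`V = e X ⊆ I_D V`; `(δ - 1)^{p^n} ∈ p · End(X)`; finite induction over `D`
(`le_of_le_sup_map_nilp59`) gives `V ⊆ ϖ V`.
(Drop-in replacement of `S38.H719.eH_eq_zero_of_cor_eq_zero`, which needs `FreeConclusion`.)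
-/

set_option autoImplicit false
set_option linter.style.haveILetI false
set_option linter.unusedSectionVars false

namespace Fermat.Agent.S38.H59

open CongruenceSubgroup Matrix.SpecialLinearGroup
open Fermat.Agent.S59.MFree Fermat.Agent.S59.MFree.H587 Fermat.Agent.S59.MFree.H941
open scoped MatrixGroups

/-- **Z4 = KERCOR-LOC.** -/
theorem eq_zero_of_cor_eq_zero59 {p : ℕ} [Fact p.Prime] (hp5 : 5 ≤ p) {M : ℕ} (hM : M ≠ 0)
    {D : Type} [Group D] [Fintype D] (κ : Gamma0 M →* D)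
    (hΓ1 : ∀ γ : Gamma0 M, ((((γ : SL(2, ℤ)) 1 1 : ℤ)) : ZMod M) = 1 → κ γ = 1)
    (hκ : Function.Surjective κ) (hcard : ∃ n : ℕ, Fintype.card D = p ^ n)
    {𝒪 : Type} [CommRing 𝒪] [IsDomain 𝒪] [CharZero 𝒪] (ϖ : 𝒪) (hpϖ : ϖ ∣ (p : 𝒪))
    (hsep : ∀ a : 𝒪, (∀ n : ℕ, ϖ ^ n ∣ a) → a = 0)
    (e : (Additive (kerSub κ) →+ 𝒪) →ₗ[𝒪] (Additive (kerSub κ) →+ 𝒪))
    (he : ∀ x, e (e x) = e x)
    (hcomm : ∀ (g : Gamma0 M) x, e (conjAct κ g x) = conjAct κ g (e x))
    (hcor : ∀ x, e x = x → cor κ x = 0) :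
    ∀ x, e x = x → x = 0 := by
  classical
  obtain ⟨n, hn⟩ := hcard
  haveI : NeZero M := ⟨hM⟩
  have hp : p.Prime := Fact.out
  have hp2 : p ≠ 2 := by omega
  have hTors := torsionTwelve
  -- torsion
  have hfin12 : ∀ g : Gamma0 M, IsOfFinOrder g → g ^ 12 = 1 := by
    intro g hg
    have h1 : IsOfFinOrder ((Gamma0 M).subtype g) := (Gamma0 M).subtype.isOfFinOrder hg
    have h2 := hTors _ h1
    apply Subtype.ext
    rw [Subgroup.coe_pow]
    exact h2
  have hcop : Nat.Coprime 12 (p ^ n) := by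
    apply Nat.Coprime.pow_right
    rw [Nat.coprime_comm, Nat.Prime.coprime_iff_not_dvd hp]
    intro hdvd
    have h12 : (12 : ℕ) = 2 ^ 2 * 3 := by norm_num
    rw [h12] at hdvd
    rcases (Nat.Prime.dvd_mul hp).mp hdvd with h2 | h3
    · have := (Nat.prime_dvd_prime_iff_eq hp Nat.prime_two).mp (hp.dvd_of_dvd_pow h2)
      omega
    · have := (Nat.prime_dvd_prime_iff_eq hp Nat.prime_three).mp h3
      omega
  have hpowD : ∀ d : D, d ^ (p ^ n) = 1 := fun d => by
    rw [← hn]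
    exact pow_card_eq_one
  have hell : ∀ g : Gamma0 M, IsOfFinOrder g → κ g = 1 := by
    intro g hg
    have h1 : κ g ^ 12 = 1 := by rw [← map_pow, hfin12 g hg, map_one]
    have h2 : κ g ^ (p ^ n) = 1 := hpowD _
    have h3 := Nat.dvd_gcd (orderOf_dvd_of_pow_eq_one h1) (orderOf_dvd_of_pow_eq_one h2)
    rw [Nat.Coprime.gcd_eq_one hcop, Nat.dvd_one] at h3
    exact orderOf_eq_one_iff.mp h3
  have hneg1 : (-1 : SL(2, ℤ)) ∈ Gamma0 M := by
    rw [Gamma0_mem]
    simp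
  have hneg1fin : IsOfFinOrder (⟨-1, hneg1⟩ : Gamma0 M) := by
    refine isOfFinOrder_iff_pow_eq_one.2 ⟨2, by norm_num, ?_⟩
    apply Subtype.ext
    simp
  have hneg : (-1 : SL(2, ℤ)) ∈ kerSub κ := mem_kerSub.mpr ⟨hneg1, hell _ hneg1fin⟩
  have httV : ∀ v : Additive (kerSub κ) →+ 𝒪, IsTorsionTrivial v := by
    intro v γ hγ
    obtain ⟨m, hm, hγm⟩ := isOfFinOrder_iff_pow_eq_one.mp hγ
    have h1 : (m : ℕ) • v (Additive.ofMul γ) = 0 := by
      rw [← map_nsmul, ← ofMul_pow, hγm, ofMul_one, map_zero]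
    rw [nsmul_eq_mul] at h1
    rcases mul_eq_zero.mp h1 with h | h
    · exact absurd (Nat.cast_eq_zero.mp h) hm.ne'
    · exact h
  -- the operators
  let X : Type := Additive (kerSub κ) →+ 𝒪
  let sec : D → Gamma0 M := Function.surjInv hκ
  have hsec : ∀ d, κ (sec d) = d := Function.surjInv_eq hκ
  let δ : D → Module.End 𝒪 X := fun d => H761.conjL κ (sec d)
  let s : D → Module.End 𝒪 X := fun d => δ d - 1
  let V : Submodule 𝒪 X := LinearMap.range e
  let B : Submodule 𝒪 X := V.map (ϖ • (1 : Module.End 𝒪 X))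
  have hVe : ∀ x ∈ V, e x = x := by
    rintro x ⟨y, rfl⟩
    exact he y
  have heV : ∀ x, e x ∈ V := fun x => ⟨x, rfl⟩
  have hconj_comm : ∀ g g' : Gamma0 M, Commute (H761.conjL (O := 𝒪) κ g)
      (H761.conjL κ g') := by
    intro g g'
    apply LinearMap.ext
    intro φ
    show H761.conjL κ g (H761.conjL κ g' φ) = H761.conjL κ g' (H761.conjL κ g φ)
    rw [H761.conjL_apply, H761.conjL_apply, H761.conjL_apply, H761.conjL_apply,
      ← H761.conjAct_mul, ← H761.conjAct_mul]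
    apply H57.conjAct_congr57
    apply kappa_congr κ hΓ1
    rw [eisD_mul, eisD_mul, mul_comm]
  have hss : ∀ d d', Commute (s d) (s d') := by
    intro d d'
    exact commute_sub_one59 (E := Module.End 𝒪 X) (δ d) (δ d') (hconj_comm _ _)
  have hes : ∀ d x, e (s d x) = s d (e x) := by
    intro d x
    show e (conjAct κ (sec d) x - x) = conjAct κ (sec d) (e x) - e x
    rw [map_sub, hcomm]
  have hW : ∀ d, V.map (s d) ≤ V := by
    rintro d x ⟨y, hy, rfl⟩
    rw [← hVe y hy, ← hes]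
    exact heV _
  have hB : ∀ d, B.map (s d) ≤ B := by
    rintro d x ⟨y, ⟨v, hv, rfl⟩, rfl⟩
    refine ⟨s d v, hW d ⟨v, hv, rfl⟩, ?_⟩
    simp only [LinearMap.smul_apply, Module.End.one_apply, map_smul]
  have hWpow : ∀ d (k : ℕ), V.map ((s d) ^ k) ≤ V := by
    intro d k
    induction k with
    | zero =>
      rintro x ⟨y, hy, rfl⟩
      simpa using hy
    | succ k ih =>
      rintro x ⟨y, hy, rfl⟩
      rw [pow_succ, Module.End.mul_apply]
      exact ih ⟨s d y, hW d ⟨y, hy, rfl⟩, rfl⟩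
  have hδpow : ∀ d, (δ d) ^ p ^ n = 1 := by
    intro d
    show (H761.conjL κ (sec d)) ^ p ^ n = 1
    rw [conjL_pow59]
    apply LinearMap.ext
    intro φ
    rw [H761.conjL_apply, Module.End.one_apply]
    have h1 : κ (sec d ^ p ^ n) = κ 1 := by rw [map_pow, hpowD, map_one]
    rw [H57.conjAct_congr57 κ φ h1.symm, H761.conjAct_one]
  obtain ⟨u, hu⟩ := hpϖ
  have hnil : ∀ d, ∃ k : ℕ, V.map ((s d) ^ k) ≤ B := by
    intro d
    refine ⟨p ^ n, ?_⟩
    obtain ⟨r, hr, -⟩ := exists_sub_one_pow_eq59 (E := Module.End 𝒪 X) hp hp2 (δ d) n (hδpow d)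
    rintro x ⟨v, hv, rfl⟩
    have h1 : ((s d) ^ p ^ n) v ∈ V := hWpow d _ ⟨v, hv, rfl⟩
    have h2 : ((s d) ^ p ^ n) v = (p : 𝒪) • r v := by
      show ((δ d - 1) ^ p ^ n) v = _
      rw [hr, Module.End.mul_apply]
      have h3 : ((p : ℕ) : Module.End 𝒪 X) = (p : 𝒪) • (1 : Module.End 𝒪 X) := by
        rw [Nat.cast_smul_eq_nsmul, nsmul_eq_mul, mul_one]
      rw [h3, LinearMap.smul_apply, Module.End.one_apply]
    refine ⟨u • e (r v), V.smul_mem u (heV _), ?_⟩
    rw [LinearMap.smul_apply, Module.End.one_apply, smul_smul, ← hu, ← map_smul, ← h2]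
    exact hVe _ h1
  have hker : V ≤ (⨆ d ∈ (Finset.univ : Finset D), V.map (s d)) ⊔ B := by
    intro x hx
    apply Submodule.mem_sup_left
    have hex : e x = x := hVe x hx
    have hmem := H761.kerCor (Gamma0 M) D κ hneg hell 𝒪 x (httV x) (hcor x hex)
    unfold augSub at hmem
    rw [← hex]
    refine AddSubgroup.closure_induction
      (p := fun w _ => e w ∈ ⨆ d ∈ (Finset.univ : Finset D), V.map (s d)) ?_ ?_ ?_ ?_ hmem
    · rintro w ⟨g, y, -, rfl⟩
      refine Submodule.mem_iSup_of_mem (κ g)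
        (Submodule.mem_iSup_of_mem (Finset.mem_univ _) ⟨e y, heV y, ?_⟩)
      show H761.conjL κ (sec (κ g)) (e y) - e y = e (conjAct κ g y - y)
      rw [H761.conjL_apply, H57.conjAct_congr57 κ (e y) (hsec (κ g)).symm, map_sub, hcomm]
    · rw [map_zero]
      exact Submodule.zero_mem _
    · intro w w' _ _ hw hw'
      rw [map_add]
      exact Submodule.add_mem _ hw hw'
    · intro w _ hw
      rw [map_neg]
      exact Submodule.neg_mem _ hw
  have hVB : V ≤ B := le_of_le_sup_map_nilp59 s hss V B hW hB hnil Finset.univ hker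
  -- separatedness
  have hdiv : ∀ k : ℕ, ∀ x ∈ V, ∃ z ∈ V, x = ϖ ^ k • z := by
    intro k
    induction k with
    | zero => exact fun x hx => ⟨x, hx, by simp⟩
    | succ k ih =>
      intro x hx
      obtain ⟨z, hz, rfl⟩ := ih x hx
      obtain ⟨z', hz', hzz'⟩ := hVB hz
      refine ⟨z', hz', ?_⟩
      rw [← hzz', LinearMap.smul_apply, Module.End.one_apply, smul_smul, pow_succ]
  intro x hx
  have hxV : x ∈ V := ⟨x, hx⟩
  refine AddMonoidHom.ext fun g => ?_
  apply hsep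
  intro k
  obtain ⟨z, -, hz⟩ := hdiv k x hxV
  rw [hz]
  exact ⟨z g, rfl⟩

end Fermat.Agent.S38.H59

end
-- ===== PACK-END S38/H59/MinZeroCore.lean

-- ===== PACK-BEGIN S38/H59/MinZeroGlue.lean
section










/-!
# Row HARD, cell HECKE, layer 4: leaf IA-MINZERO, assembly (helper59)

`iaMinZero59 : IAMinZeroStatement` VERBATIM (`S38/IA/Hecke/Spec4.lean`, helper3).

Pieces (cut Z1–Z6 of the board):
* Z1 (`IsLocPart` ⟹ `H719.IsPartKer`): `H105.isLocPart_nilpT/U` + `topNilAt_of_nilp59`;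
* Z2 (`cor` of the part is `0`): `H719.IsPartKer.cor` + `H719.eq_zero_of_isPart_chain`;
* Z3 (`α_j² - 1` units): `isUnit_sq_sub_one59`;
* Z4 (`cor = 0` on the image of the projector ⟹ the image is `0`): `eq_zero_of_cor_eq_zero59`;
* Z5 (DICT-MIN): `H841.dictMin_isPart_h841` (helper841).
-/

set_option autoImplicit false
set_option linter.style.haveILetI false

open Polynomial IsLocalRing CongruenceSubgroup
open scoped MatrixGroups

namespace Fermat.Agent.S38.H59

open Fermat.Agent.S59.Arch Fermat.Agent.S59.TW.H959 Fermat.Agent.S59.TW Fermat.Agent.S59.H765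
open Fermat.Agent.S59.TW.H653 Fermat.Agent.S59.TW.Aut Fermat.Agent.S59.MFree
open Fermat.Agent.S59.MFree.H587
open Fermat.Agent.S38.IA Fermat.Agent.S38.IA.Hecke Fermat.Agent.S38.H916
open Fermat.Agent.S38.H719 Fermat.Agent.S38.H841 Fermat.Agent.S59.H105
open CuspForm

/-! ## Abstract pieces -/

/-- nilpotence modulo `ϖ` on a stable submodule ⟹ topological nilpotence at every vector -/
theorem topNilAt_of_nilp59 {R X : Type*} [CommRing R] [AddCommGroup X] [Module R X]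
    (V : Submodule R X) (f : X →ₗ[R] X) (ϖ : R) (m : ℕ)
    (h : ∀ x ∈ V, ∃ z ∈ V, (f ^ m) x = ϖ • z) {x : X} (hx : x ∈ V) :
    TopNilAt ϖ f x := by
  have key : ∀ n : ℕ, ∀ x ∈ V, ∃ z ∈ V, (f ^ (m * n)) x = ϖ ^ n • z := by
    intro n
    induction n with
    | zero =>
      intro x hx
      exact ⟨x, hx, by simp⟩
    | succ n ih =>
      intro x hx
      obtain ⟨z, hz, hfz⟩ := h x hx
      obtain ⟨w, hw, hfw⟩ := ih z hz
      refine ⟨w, hw, ?_⟩
      rw [Nat.mul_succ, pow_add, Module.End.mul_apply, hfz, map_smul, hfw, smul_smul,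
        ← pow_succ']
  intro n
  obtain ⟨z, -, hz⟩ := key n x hx
  exact ⟨m * n, z, by rw [← Module.End.pow_apply]; exact hz⟩

theorem foldl_mul_eq59 (L : List ℕ) : ∀ a : ℕ, L.foldl (· * ·) a = a * L.prod := by
  induction L with
  | nil => intro a; simp
  | cons x L ih =>
    intro a
    rw [List.foldl_cons, ih, List.prod_cons, mul_assoc]

theorem foldl_ofFn_eq_gLevel59 (N₀ : ℕ) {r : ℕ} (qv : Fin r → ℕ) :
    (List.ofFn qv).foldl (· * ·) N₀ = gLevel N₀ qv := by
  rw [foldl_mul_eq59, List.prod_ofFn]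
  rfl

/-- The primes dividing Ribet's level lie in `Smin ∪ Piv`. -/
theorem mem_of_dvd_ribetLevel59 {p : ℕ} {Smin Piv : Finset ℕ}
    (hS : ∀ q ∈ Smin, q.Prime) (hP : ∀ q ∈ Piv, q.Prime) {q : ℕ} (hq : q.Prime)
    (hdvd : q ∣ ribetLevel p Smin Piv) : q ∈ Smin ∪ Piv := by
  unfold ribetLevel at hdvd
  rw [Finset.mem_union]
  rcases (Nat.Prime.dvd_mul hq).mp hdvd with h | h
  · obtain ⟨a, ha, hqa⟩ := (Prime.dvd_finsetProd_iff hq.prime _).mp h
    have ha' : a ∈ Smin := Finset.mem_of_mem_erase ha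
    have : q = a := (Nat.prime_dvd_prime_iff_eq hq (hS a ha')).mp hqa
    exact Or.inl (this ▸ ha')
  · obtain ⟨a, ha, hqa⟩ := (Prime.dvd_finsetProd_iff hq.prime _).mp h
    have : q = a := (Nat.prime_dvd_prime_iff_eq hq (hP a ha)).mp hqa
    exact Or.inr (this ▸ ha)

theorem ribetLevel_ne_zero59 {p : ℕ} {Smin Piv : Finset ℕ}
    (hS : ∀ q ∈ Smin, q.Prime) (hP : ∀ q ∈ Piv, q.Prime) : ribetLevel p Smin Piv ≠ 0 := by
  unfold ribetLevel
  refine Nat.mul_ne_zero ?_ ?_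
  · exact Finset.prod_ne_zero_iff.mpr fun a ha => (hS a (Finset.mem_of_mem_erase ha)).ne_zero
  · exact Finset.prod_ne_zero_iff.mpr fun a ha => (hP a ha).ne_zero

/-! ## The general form -/

section Gen

variable (p : ℕ) [Fact p.Prime]
  (𝒪 : Type) [CommRing 𝒪] [IsDomain 𝒪] [IsDiscreteValuationRing 𝒪]
  [IsAdicComplete (maximalIdeal 𝒪) 𝒪] [Finite (ResidueField 𝒪)] [CharZero 𝒪]
  (ρbar : ResidualGaloisRep (ResidueField 𝒪))

/-- **IA-MINZERO, general form.**  `N₀` a level at which `ρ̄` is NOT modular, `qv` a family of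
distinct primes not dividing `N₀` with `α_j² - 1` units: the localisation of
`X_K(𝒪)`, `K = Γ₀(N₀) ∩ Γ_H(qv)`, at the maximal ideal `(𝔪, T_ℓ - c_ℓ, U_{q_j} - α_j)` of a
package is zero. -/
theorem minZero_gen59 (hp5 : 5 ≤ p) (Smin : Finset ℕ) (h : ResidualHyp p 𝒪 ρbar Smin)
    (N₀ : ℕ) (hN₀ : N₀ ≠ 0) (Sig : Finset ℕ) (hSigP : ∀ q ∈ Sig, q.Prime) (hsub : Smin ⊆ Sig)
    (hN₀S : ∀ q : ℕ, q.Prime → q ∣ N₀ → q ∈ Sig)
    (hmin : ¬ ResModular 𝒪 ρbar N₀ Sig)
    (t : PType) [NeZero (wilesLevel p t Smin Sig)] (PQ : HeckePkg p 𝒪 ρbar t Smin Sig)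
    {r : ℕ} (qv : Fin r → ℕ) (hinj : Function.Injective qv) (hqvP : ∀ j, (qv j).Prime)
    (hqvS : ∀ j, qv j ∈ Sig) (hqvN : ∀ j, ¬ qv j ∣ N₀)
    (α : Fin r → 𝒪) (hunit : ∀ j, IsUnit (α j ^ 2 - 1))
    (V' : Submodule 𝒪 (Additive (KG p N₀ qv) →+ 𝒪))
    (hV' : IsLocPart (isMid_KG p N₀ qv) (TsetOf PQ) (UsetOf qv α) V') : V' = ⊥ := by
  classical
  have hp : p.Prime := Fact.out
  have hM : NeZero (gLevel N₀ qv) := neZero_gLevel_h916 N₀ qv hN₀ hqvP
  haveI : NeZero N₀ := ⟨hN₀⟩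
  have hqne : ∀ s, NeZero (qv s) := fun s => ⟨(hqvP s).ne_zero⟩
  obtain ⟨ϖ, hϖ0, hϖ⟩ := exists_uniformizer 𝒪
  have hϖm : ϖ ∈ maximalIdeal 𝒪 := by
    rw [hϖ]
    exact Ideal.mem_span_singleton_self ϖ
  have hϖp : ϖ ∣ (p : 𝒪) := by
    have := h.hp𝒪
    rw [hϖ] at this
    exact Ideal.mem_span_singleton.mp this
  have hsepO : ∀ a : 𝒪, (∀ n : ℕ, ∃ z : 𝒪, a = ϖ ^ n • z) → a = 0 := fun a ha => o_sep hϖ a ha
  -- `κ`
  have hred := gRed_surjective_h916 N₀ qv hN₀ hinj hqvP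
  have hκ := gKappa_surjective_h916 p N₀ qv hred
  letI : Fintype (GDelta p qv) := Fintype.ofFinite _
  have hcard : ∃ a : ℕ, Fintype.card (GDelta p qv) = p ^ a :=
    ⟨_, by rw [← Nat.card_eq_fintype_card]; exact card_gDelta_h916 p qv hqvP⟩
  have hΓ1 := gKappa_trivial_h916 p N₀ qv
  obtain ⟨e, he, heV, hVe, -, -, hD, -⟩ := hV'.exists_proj
  have hconj : ∀ (g : Gamma0 (gLevel N₀ qv))
      (z : Additive (kerSub (gKappa p N₀ qv)) →+ 𝒪),
      conjAct (gKappa p N₀ qv) g z =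
        diamondU (isMid_KG p N₀ qv) (dUnit (gLevel N₀ qv) g⁻¹) z := by
    intro g z
    rw [conjAct_eq_diamond (gKappa p N₀ qv) hΓ1 g z, diamond_eq_diamondU]
    rfl
  -- the eigen-data
  have hTmem : ∀ l : ℕ, l.Prime → l ∉ Sig → ¬ l ∣ wilesLevel p t Smin Sig :=
    fun l hl hlS hdvd =>
      hlS (mem_of_prime_dvd_wilesLevel hp h.hSmin hSigP h.hpSmin hsub l hl hdvd)
  have hcoe : ∀ l : ℕ, l ∉ Sig → l ∉ (↑Sig : Set ℕ) := fun l hl hl' => hl (Finset.mem_coe.mp hl')
  let c : ℕ → 𝒪 := fun l =>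
    if hl : l.Prime ∧ l ∉ Sig then
      (residue_surjective (PQ.θ (heckeAlgebra.T hl.1 (hTmem l hl.1 hl.2) (hcoe l hl.2)))).choose
    else 0
  have hcres : ∀ (l : ℕ) (hl : l.Prime) (hlS : l ∉ Sig),
      residue 𝒪 (c l) = PQ.θ (heckeAlgebra.T hl (hTmem l hl hlS) (hcoe l hlS)) := by
    intro l hl hlS
    simp only [c, dif_pos (And.intro hl hlS)]
    exact (residue_surjective
      (PQ.θ (heckeAlgebra.T hl (hTmem l hl hlS) (hcoe l hlS)))).choose_spec
  let α' : ℕ → 𝒪 := fun q' => if hq' : ∃ j, qv j = q' then α hq'.choose else 0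
  have hα' : ∀ j, α' (qv j) = α j := by
    intro j
    have hex : ∃ i, qv i = qv j := ⟨j, rfl⟩
    simp only [α', dif_pos hex]
    exact congrArg α (hinj hex.choose_spec)
  let Ipr : Set ℕ := {l | l.Prime ∧ l ∉ Sig}
  have hnd : (List.ofFn qv).Nodup := List.nodup_ofFn.mpr hinj
  -- Z1: the part
  have hpart : ∀ x : Additive (kerSub (gKappa p N₀ qv)) →+ 𝒪, e x = x →
      IsPartKer (gKappa p N₀ qv) hΓ1 ϖ Ipr c {q' | q' ∈ List.ofFn qv} α' x := by
    intro x hx
    have hxV : x ∈ V' := by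
      rw [← hx]
      exact heV x
    refine ⟨fun l _ hl hlI => ?_, fun q' _ hq' hq'Q => ?_⟩
    · have hlp : l.Prime := hlI.1
      have hmem : (l, c l) ∈ TsetOf PQ :=
        ⟨hlp, hTmem l hlp hlI.2, hcoe l hlI.2, hcres l hlp hlI.2⟩
      obtain ⟨m, hm⟩ := isLocPart_nilpT (isMid_KG p N₀ qv) hV' hϖ hl hmem
      have hnil := topNilAt_of_nilp59 V' (shiftE 𝒪 (TKL (isMid_KG p N₀ qv) 𝒪 hl) (c l)) ϖ m hm hxV
      have heq : shiftBy (heckeKerLin hl (gKappa p N₀ qv) hΓ1 𝒪) (c l) =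
          shiftE 𝒪 (TKL (isMid_KG p N₀ qv) 𝒪 hl) (c l) := by
        apply LinearMap.ext
        intro y
        show heckeKerLin hl (gKappa p N₀ qv) hΓ1 𝒪 y - c l • y =
          TK (gLevel N₀ qv) (kerSub (gKappa p N₀ qv)) l y - c l • y
        congr 1
        exact heckeKer_eq_TK hl (gKappa p N₀ qv) hΓ1 y
      rw [heq]
      exact hnil
    · obtain ⟨j, rfl⟩ := List.mem_ofFn.mp hq'Q
      have hmem : (qv j, α j) ∈ UsetOf qv α := ⟨j, rfl⟩
      obtain ⟨m, hm⟩ := isLocPart_nilpU (isMid_KG p N₀ qv) hV' hϖ hq' hmem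
      have hnil := topNilAt_of_nilp59 V' (shiftE 𝒪 (UKL (isMid_KG p N₀ qv) 𝒪 hq') (α j)) ϖ m hm hxV
      have heq : shiftBy (UqKerLin (gKappa p N₀ qv) hΓ1 hq' 𝒪) (α' (qv j)) =
          shiftE 𝒪 (UKL (isMid_KG p N₀ qv) 𝒪 hq') (α j) := by
        rw [hα']
        apply LinearMap.ext
        intro y
        rfl
      rw [heq]
      exact hnil
  -- Z5: (MIN) at level `N₀`
  have hc : ∀ (l : ℕ), l.Prime → l ∉ Sig →
      ∀ B : ValuationSubring Fermat.Agent.S31.Qb, B.LiesOverPrime l →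
        ∀ σ : Fermat.Agent.S31.GQ, B.IsFrobeniusAt σ l →
          LinearMap.charpoly (ρbar.ρ σ) =
            X ^ 2 - C (residue 𝒪 (c l)) * X + C ((l : ResidueField 𝒪)) := by
    intro l hl hlS B hB σ hσ
    rw [hcres l hl hlS]
    exact H31.resFrobCond_of_pkg PQ l hl (hTmem l hl hlS) (hcoe l hlS) B hB σ hσ
  have hmin' : ∀ y : Additive (Gamma0 N₀) →+ 𝒪, IsPart 𝒪 𝒪 ϖ Ipr c ∅ α' N₀ y → y = 0 :=
    dictMin_isPart_h841 p 𝒪 ρbar h.hp2 h.hp𝒪 h.habs h.hsplit N₀ Sig (hsub h.hpSmin) hN₀S hmin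
      ϖ hϖm c hc Ipr (fun l hl hlS => ⟨hl, hlS⟩) α'
  -- Z2: the chain
  have hLall : ∀ q' ∈ List.ofFn qv,
      q'.Prime ∧ ¬ q' ∣ N₀ ∧ q' ∉ Ipr ∧ IsUnit (α' q' ^ 2 - 1) := by
    intro q' hq'
    obtain ⟨j, rfl⟩ := List.mem_ofFn.mp hq'
    exact ⟨hqvP j, hqvN j, fun hI => hI.2 (hqvS j), by rw [hα']; exact hunit j⟩
  have hchain := eq_zero_of_isPart_chain (O := 𝒪) (A := 𝒪) (ϖ := ϖ) (Ipr := Ipr) (c := c)
    (α := α') hsepO (List.ofFn qv) N₀ ∅ hN₀ hnd hLall hmin'
  have hchain' : ∀ (M : ℕ), M = (List.ofFn qv).foldl (· * ·) N₀ →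
      ∀ y : Additive (Gamma0 M) →+ 𝒪,
        IsPart 𝒪 𝒪 ϖ Ipr c (∅ ∪ {q' | q' ∈ List.ofFn qv}) α' M y → y = 0 := by
    intro M hMeq
    subst hMeq
    exact hchain
  have hcor : ∀ x : Additive (kerSub (gKappa p N₀ qv)) →+ 𝒪, e x = x →
      cor (gKappa p N₀ qv) x = 0 := by
    intro x hx
    refine hchain' _ (foldl_ofFn_eq_gLevel59 N₀ qv).symm _ ((hpart x hx).cor.mono ?_)
    intro z hz
    rcases hz with hz | hz
    · exact absurd hz (Set.notMem_empty z)
    · exact hz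
  -- Z4
  have hzero := eq_zero_of_cor_eq_zero59 hp5 (NeZero.ne (gLevel N₀ qv)) (gKappa p N₀ qv) hΓ1 hκ
    hcard ϖ hϖp (fun a ha => hsepO a fun n => by
      obtain ⟨z, hz⟩ := ha n
      exact ⟨z, hz⟩) e he
    (fun g x => by rw [hconj, hconj]; exact hD _ x) hcor
  rw [eq_bot_iff]
  intro x hx
  rw [Submodule.mem_bot]
  exact hzero x (hVe x hx)

end Gen

/-! ## The leaf -/

/-- **IA-MINZERO**, verbatim. -/
theorem iaMinZero59 : IAMinZeroStatement := by
  intro p _ hp5 𝒪 _ _ _ _ _ _ ρbar Smin h _ Piv hPiv hmin n r qv hq _ PQ α hα q hqP V' hV'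
  have hPivP : ∀ q' ∈ Piv, q'.Prime := fun q' hq' => (hPiv q' hq').1
  have hPivP' : ∀ q' ∈ Piv.erase q, q'.Prime := fun q' hq' => hPivP q' (Finset.mem_of_mem_erase hq')
  have hqvP : ∀ j, (qv j).Prime := fun j => (hq.2.1 j).1
  have hSigP : ∀ q' ∈ Smin ∪ Piv ∪ Finset.univ.image qv, q'.Prime := by
    intro q' hq'
    rcases Finset.mem_union.mp hq' with h1 | h1
    · rcases Finset.mem_union.mp h1 with h2 | h2
      · exact h.hSmin q' h2
      · exact hPivP q' h2
    · obtain ⟨j, -, rfl⟩ := Finset.mem_image.mp h1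
      exact hqvP j
  have hsub : Smin ⊆ Smin ∪ Piv ∪ Finset.univ.image qv := fun x hx =>
    Finset.mem_union_left _ (Finset.mem_union_left _ hx)
  have hLS : ∀ q' : ℕ, q'.Prime → q' ∣ ribetLevel p Smin (Piv.erase q) → q' ∈ Smin ∪ Piv := by
    intro q' hq' hdvd
    rcases Finset.mem_union.mp (mem_of_dvd_ribetLevel59 h.hSmin hPivP' hq' hdvd) with h1 | h1
    · exact Finset.mem_union_left _ h1
    · exact Finset.mem_union_right _ (Finset.mem_of_mem_erase h1)
  exact minZero_gen59 p 𝒪 ρbar hp5 Smin h (ribetLevel p Smin (Piv.erase q))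
    (ribetLevel_ne_zero59 h.hSmin hPivP') (Smin ∪ Piv ∪ Finset.univ.image qv) hSigP hsub
    (fun q' hq' hdvd => Finset.mem_union_left _ (hLS q' hq' hdvd))
    (hmin q hqP _) .flat PQ qv hq.1 hqvP
    (fun j => Finset.mem_union_right _ (Finset.mem_image_of_mem qv (Finset.mem_univ j)))
    (fun j hdvd => (hq.2.1 j).2.1 (hLS (qv j) (hqvP j) hdvd))
    α (fun j => isUnit_sq_sub_one59 p 𝒪 ρbar h.hdet (Smin ∪ Piv)
      (Finset.mem_union_left _ h.hpSmin) n r qv hq α hα j)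
    V' hV'

end Fermat.Agent.S38.H59

end
-- ===== PACK-END S38/H59/MinZeroGlue.lean

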