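import Fermat.Agent.Pack.S43C.E2L0
import Fermat.Agent.Pack.S43GC.G0E23L0
import Fermat.Agent.Pack.S43C.E0L0
import Fermat.Agent.Pack.S43MC.G0E26L3
import Fermat.Agent.Pack.S44C.G0E18L3
import Fermat.Agent.Pack.S43MC.G0E28L1
import Fermat.Agent.Pack.S43MC.G0E26L1
import Fermat.Agent.Pack.S44C.G0E27L2
import Fermat.Agent.Pack.S44C.G0E25L3
import Fermat.Agent.Pack.S43MC.G0E19L3
import Fermat.Agent.Pack.S43MC.G0E28L2
import Fermat.Agent.Pack.S43MC.G0E24L3
import Fermat.Agent.Pack.S44C.G0E26L0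
import Fermat.Agent.Pack.S44C.G0E26L2
import Fermat.Agent.Pack.S44C.G0E23L3
import Fermat.Agent.Pack.S44C.G0E28L2
import Fermat.Agent.Pack.S43C.E2L3
import Fermat.Agent.Pack.S43C.E1L1
import Fermat.Agent.Pack.S43MC.G0E17L1
import Fermat.Agent.Pack.S43C.E1L3
import Fermat.Agent.Pack.S43C.E2L1
import Fermat.Agent.Pack.S43C.E0L1
import Fermat.Agent.Pack.S43MC.G0E27L3
import Fermat.Agent.Pack.S43MC.G0E14L1
import Fermat.Agent.Pack.S43MC.G0E20L1
import Fermat.Agent.Pack.S43MC.G0E12L3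
import Fermat.Agent.Pack.S43MC.G0E25L2
import Fermat.Agent.Pack.S43MC.G0E25L1
import Fermat.Agent.Pack.S43GC.G0E19L2
import Fermat.Agent.Pack.S43MC.G0E26L2
import Fermat.Agent.Pack.S44C.G0E26L3
import Fermat.Agent.Pack.S44C.G0E19L1
import Fermat.Agent.Pack.S43MC.G0E7L1
import Fermat.Agent.Pack.S43MC.G0E10L3
import Fermat.Agent.Pack.S43MC.G0E3L2
import Fermat.Agent.Pack.S44C.G0E30L1
import Fermat.Agent.Pack.S44C.G0E31L0
import Fermat.Agent.Pack.Fast891

-- ===== PACK-BEGIN S38/IA/H183/BaseOver.lean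
section



/-!
# Row 37 pivot (Ihara avoidance), Galois side — BASE-BIG-OVER (helper183)

`BaseBigOverStatement` (`RelWall.lean`): (BASE) of row S56 for some finite set of primes `S'`
containing `Smin` AND a prescribed finite set `T` of primes.  This is `H716.BaseBigStatement`
with a lower bound on the big set; the proof is helper366's `Euler.baseBig_of`, word for word,
with (E-BIG) applied to `S₀ ∪ T` instead of `S₀`.

* `baseBigOver_of      : (∀ p, EulerBigSpec p) → (∀ p S, H2FormulaSpec p S) → BridgeBaseSpec →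
                          BaseBigOverStatement`
* `baseBigOver_of_p1   : (S55 inputs of route C′) → (∀ p, H419.P1CharSpec p) →
                          BaseBigOverStatement`     (same inputs as `Euler.baseBig_of_p1`)

Nothing unproved in this file.
-/

set_option autoImplicit false

open Polynomial IsLocalRing

noncomputable section

namespace Fermat.Agent.S38.IA.H183

open Fermat.Agent.S56 Fermat.Agent.S56.Euler Fermat.Agent.S55.PT ExtCitation Module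
  groupCohomology

/-- **BASE-BIG-OVER from E-BIG, H2F and BRIDGE-BASE.** -/
theorem baseBigOver_of (hE : ∀ (p : ℕ) [Fact p.Prime], EulerBigSpec p)
    (hH2 : ∀ (p : ℕ) [Fact p.Prime] (S : Finset Nat.Primes), H2FormulaSpec p S)
    (hB : BridgeBaseSpec) : BaseBigOverStatement := by
  classical
  intro 𝒪 _ _ _ _ _ p ρbar S Smin hyp T hT
  have : Fact p.Prime := ⟨hyp.hp⟩
  obtain ⟨S₀, U, N, Pl, d, hpS₀, hSmin, hU, hfd, hUN, hPl, hd, h0, hch, hminus, hS'⟩ :=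
    hB 𝒪 p ρbar S Smin hyp
  -- the prescribed primes, as a set of primes
  let T' : Finset Nat.Primes := T.attach.image fun q => (⟨q.1, hT q.1 q.2⟩ : Nat.Primes)
  have hT' : ∀ q (hq : q ∈ T), (⟨q, hT q hq⟩ : Nat.Primes) ∈ T' := fun q hq =>
    Finset.mem_image.2 ⟨⟨q, hq⟩, Finset.mem_attach _ _, rfl⟩
  have hS₀T : S₀ ⊆ S₀ ∪ T' := Finset.subset_union_left
  obtain ⟨S', hS₁S', hphi⟩ := hE p hyp.hp2 (S₀ ∪ T') (hS₀T hpS₀) U
    (mem_levels_of_subset hS₀T hU)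
  have hS₀S' : S₀ ⊆ S' := hS₀T.trans hS₁S'
  have hphiN := hphi N hfd hUN
  obtain ⟨hchv, ⟨D, hD, hDunr, hDle⟩, ⟨X, hXfin, hXrep, hXle⟩⟩ := hS' S' hS₀S'
  have hUS' : U ∈ (globalLevels S').levels := mem_levels_of_subset hS₀S' hU
  have hsm : (globalLevels S').IsUSmooth N :=
    ⟨U, hUS', fun s hs a => by rw [hUN s hs]; rfl⟩
  obtain ⟨-, hh2⟩ := hH2 p S' hyp.hp2 (hS₀S' hpS₀) N hfd hsm
  -- the set of primes as a `Finset ℕ`
  refine ⟨S'.image (fun v : Nat.Primes => (v : ℕ)), ?_, ?_, Pl, ?_, D, X, hD, hDunr, hXfin,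
    hXrep, ?_⟩
  · intro q hq
    rcases Finset.mem_union.1 hq with hq | hq
    · obtain ⟨h, hq'⟩ := hSmin q hq
      exact Finset.mem_image.2 ⟨⟨q, h⟩, hS₀S' hq', rfl⟩
    · exact Finset.mem_image.2 ⟨⟨q, hT q hq⟩,
        hS₁S' (Finset.mem_union_right _ (hT' q hq)), rfl⟩
  · intro q hq
    obtain ⟨v, -, rfl⟩ := Finset.mem_image.1 hq
    exact v.2
  · intro v hv
    obtain ⟨w, -, rfl⟩ := Finset.mem_image.1 hv
    exact hPl _ w.2
  · -- the numerical inequality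
    have hsum : ∑ v ∈ S'.image (fun v : Nat.Primes => (v : ℕ)),
        finrank (ResidueField 𝒪) ↥(H716.adInv ρbar ((Pl v).decompositionSubgroup ℚ)) =
        ∑ v : ↥S', finrank (ResidueField 𝒪)
          ↥(H716.adInv ρbar ((Pl (v.1 : ℕ)).decompositionSubgroup ℚ)) := by
      have hinj : ∀ a ∈ S', ∀ b ∈ S', (fun v : Nat.Primes => (v : ℕ)) a =
          (fun v : Nat.Primes => (v : ℕ)) b → a = b := fun a _ b _ h => Subtype.ext h
      rw [Finset.sum_image hinj]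
      exact (Finset.sum_coe_sort S' (fun v : Nat.Primes => finrank (ResidueField 𝒪)
        ↥(H716.adInv ρbar ((Pl (v : ℕ)).decompositionSubgroup ℚ)))).symm
    rw [hsum]
    have hsumd : ∑ v : ↥S', finrank (ZMod p)
        ↥(charHom (cycloLoc p v.1) (Rep.res (rl v.1) N)) =
        d * ∑ v : ↥S', finrank (ResidueField 𝒪)
          ↥(H716.adInv ρbar ((Pl (v.1 : ℕ)).decompositionSubgroup ℚ)) := by
      rw [Finset.mul_sum]
      exact Finset.sum_congr rfl fun v _ => hchv v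
    rw [hsumd, hch, add_zero] at hh2
    unfold H419.phi H419.eulerChar at hphiN
    rw [h0, hminus] at hphiN
    have h1 : (finrank (ZMod p) ((globalLevels S').H1 N) : ℤ) =
        finrank (ZMod p) ((globalLevels S').H2 N) + d := by
      push_cast at hphiN ⊢
      linarith
    have h1' : finrank (ZMod p) ((globalLevels S').H1 N) =
        finrank (ZMod p) ((globalLevels S').H2 N) + d := by exact_mod_cast h1
    have key : d * (finrank (ResidueField 𝒪) ↥X +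
        ∑ v : ↥S', finrank (ResidueField 𝒪)
          ↥(H716.adInv ρbar ((Pl (v.1 : ℕ)).decompositionSubgroup ℚ)) + 1) ≤
        d * finrank (ResidueField 𝒪) ↥D := by
      calc d * (finrank (ResidueField 𝒪) ↥X +
            ∑ v : ↥S', finrank (ResidueField 𝒪)
              ↥(H716.adInv ρbar ((Pl (v.1 : ℕ)).decompositionSubgroup ℚ)) + 1)
          = d * finrank (ResidueField 𝒪) ↥X +
            d * ∑ v : ↥S', finrank (ResidueField 𝒪)
              ↥(H716.adInv ρbar ((Pl (v.1 : ℕ)).decompositionSubgroup ℚ)) + d := by ring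
        _ ≤ finrank (ZMod p) ↥(Sha1 (hrl S') (tdual p N)) +
            d * ∑ v : ↥S', finrank (ResidueField 𝒪)
              ↥(H716.adInv ρbar ((Pl (v.1 : ℕ)).decompositionSubgroup ℚ)) + d := by
            gcongr
        _ = finrank (ZMod p) ((globalLevels S').H1 N) := by rw [h1', hh2]
        _ ≤ d * finrank (ResidueField 𝒪) ↥D := hDle
    exact Nat.le_of_mul_le_mul_left key hd

/-- (E-BIG) and (H2F) from the S55 inputs (route C′) and P1-CHAR: the first half of helper366's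
`Euler.baseBig_of_p1`. -/
theorem eulerBig_h2_of_p1
    (h4 : ∀ (p : ℕ) [Fact p.Prime] (S : Finset Nat.Primes), p ≠ 2 → pPrime p ∈ S →
      Surj2GlobSpec p S ∧ Surj2LocSpec p S ∧ InvSpec p S ∧ CapSpec p S)
    (hP1 : ∀ (p : ℕ) [Fact p.Prime], H419.P1CharSpec p) :
    (∀ (p : ℕ) [Fact p.Prime], EulerBigSpec p) ∧
      ∀ (p : ℕ) [Fact p.Prime] (S : Finset Nat.Primes), H2FormulaSpec p S := by
  have hH2 : ∀ (p : ℕ) [Fact p.Prime] (S : Finset Nat.Primes), H2FormulaSpec p S := by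
    intro p _ S hp2 hpS
    obtain ⟨a, b, c, d⟩ := h4 p S hp2 hpS
    exact H29.h2Formula_of_four p S a b c d hp2 hpS
  refine ⟨fun p _ => ?_, hH2⟩
  intro hp2
  refine eulerBig_of_red (H614.red_of H314.lemmaA) (fun S hpS => ?_) (fun S hpS => ?_) ?_ hp2
  · exact H419.phiAdd_of p S H113.les0Spec H113.les1Spec H113.lesMidSpec
      H724.globalNormalCofinal (H593.finGlob p S)
      (fun N hN hsm => (hH2 p S hp2 hpS N hN hsm).1) (h4 p S hp2 hpS).1
  · exact fun N hN hsm => (hH2 p S hp2 hpS N hN hsm).1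
  · refine H419.charEulerBig_of (fun S hp2' hpS => ?_) ?_ H419.clSpec' (hP1 p)
    · obtain ⟨a, b, c, d⟩ := h4 p S hp2' hpS
      exact H765.h2cp_of_four p S a b c d hp2' hpS
    · intro S₀ hpS₀ U hUn hU hχ
      refine H726.exists_sha2_indMu_eq_bot p S₀ (fun T hT => ?_) U hU hUn ?_
      · obtain ⟨a, b, c, d⟩ := h4 p T hp2 (hT hpS₀)
        exact theoremD_of_four p T (hT hpS₀) a b c d
      · intro u hu
        apply LinearMap.ext
        intro x
        rw [ofChar_ρ_apply, hχ u hu]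
        simp

/-- **BASE-BIG-OVER from the S55 inputs (route C′) and P1-CHAR.** -/
theorem baseBigOver_of_p1
    (h4 : ∀ (p : ℕ) [Fact p.Prime] (S : Finset Nat.Primes), p ≠ 2 → pPrime p ∈ S →
      Surj2GlobSpec p S ∧ Surj2LocSpec p S ∧ InvSpec p S ∧ CapSpec p S)
    (hP1 : ∀ (p : ℕ) [Fact p.Prime], H419.P1CharSpec p) : BaseBigOverStatement :=
  baseBigOver_of (eulerBig_h2_of_p1 h4 hP1).1 (eulerBig_h2_of_p1 h4 hP1).2
    Fermat.Agent.S56.Br.bridgeBase

end Fermat.Agent.S38.IA.H183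

end

end
-- ===== PACK-END S38/IA/H183/BaseOver.lean

-- ===== PACK-BEGIN S38/IA/PkgWired.lean
section

















/-!
# Row HARD, leaf PKG (flat type) CLOSED  (helper995, wiring only)

`pkgFlat_h995 : IA.Hecke.PkgFlatStatement`, by `S59.TW.H659.pkgFlat_of` (helper659) applied to the
landed proofs of S23, S30, S31, S32 (realizer-free chain `H659.Clean`), S34.  The PLAIN tops of
these rows are imported (never the
statement files `Fermat/Agent/SNN.lean`, which may be replaced by packed versions on main); the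
five short proof terms below are the bodies of the landed `SNN.result`.
-/

set_option autoImplicit false

open Polynomial IsLocalRing

namespace Fermat.Agent.S38.IA

/-- S23 in the shape used by `pkgFlat_of`. -/
theorem s23Shape_h995 : Fermat.Agent.S59.TW.H659.S23Shape :=
  fun N _ => Fermat.Agent.S23.Cap.hasIntegralStructure N 2

/-- S30 in the shape used by `pkgFlat_of`. -/
theorem s30Statement_h995 : Fermat.Agent.S31.S30Statement := by
  intro p _ N _ S hpS hNS 𝒪' _ _ _ _ _ _ hp𝒪' χ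
  exact Fermat.Agent.S30.Chain.result_of_T
    (Fermat.Agent.S30.H694.torsionRelations_of_nodes
      (fun M _ _ _ hℓM A hA => Fermat.Agent.S18.Mod.H216.node_mod M hℓM A hA)
      (fun M => Fermat.Agent.S18.H438.node_alg M))
    p N S hpS hNS 𝒪' hp𝒪' χ

/-- S31 in the shape used by `pkgFlat_of`. -/
theorem s31Shape_h995 : Fermat.Agent.S59.TW.H659.S31Shape :=
  fun hp hp𝒪 hpS hNS H q hq hqS =>
    Fermat.Agent.S31.H22.result_of_S30 s30Statement_h995 hp hp𝒪 hpS hNS H q hq hqS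

/-- S32 in the shape used by `pkgFlat_of`, on helper659's realizer-free chain
(`Fermat.Agent.S32.OfS19` has `S31/H982/TracePow` in its closure, which realizes
`S31.powTr.eq_def` differently from `S31/H22/PowTr`: collision found by helper63 / helper475). -/
theorem s32Statement_h995 : Fermat.Agent.S32.S32Statement :=
  Fermat.Agent.S59.TW.H659.Clean.s32Statement_clean659

/-- S34 in the shape used by `pkgFlat_of`. -/
theorem s34Shape_h995 : Fermat.Agent.S59.TW.H659.S34Shape :=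
  fun hp hp𝒪 => fun hpS hNS => fun H q hq hqp hqN hq2 =>
    Fermat.Agent.S34.K789.result_of_wall
      (Fermat.Agent.A2.Top.H96.wall_noSep
        (fun P E M q _ _ w => Fermat.Agent.A2.Mod.H142.s2 P E M q w)
        (fun P E M q _ _ w => Fermat.Agent.A2.Mod.H372.s3_of_leaves P E M q w
          (Fermat.Agent.A2.Mod.H751.frickeExists E)
          (Fermat.Agent.A2.Mod.H751.frickeCompat E M q)
          (Fermat.Agent.A2.Mod.H900.frickeStable P E M q w)
          (Fermat.Agent.A2.Mod.H31.deg E M q)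
          (Fermat.Agent.A2.Mod.H378.resInf P E M q w)
          (Fermat.Agent.A2.Mod.H96.kron P E M q w)
          (Fermat.Agent.A2.Mod.H142.s2 P E M q w))
        Fermat.Agent.A2.Top.H216.goodRedStatement)
      hp hp𝒪 hpS hNS H q hq hqp hqN hq2

/-- **Leaf PKG (flat type) of the cell HECKE, closed.** -/
theorem pkgFlat_h995 : Hecke.PkgFlatStatement :=
  Fermat.Agent.S59.TW.H659.pkgFlat_of s23Shape_h995 s30Statement_h995 s31Shape_h995
    s32Statement_h995 s34Shape_h995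

end Fermat.Agent.S38.IA

end
-- ===== PACK-END S38/IA/PkgWired.lean

-- ===== PACK-BEGIN S38/H53/StCore.lean
section




/-!
# Row HARD, cell HECKE, leaf IA-ST: the abstract core **"(ST) from a `U_q`-extended action"**
(helper53, squad-lead S55/S53)

The Betti side of Ihara avoidance produces, on the trivial-character module `V'` of level
`Γ₀(N¹) ∩ Γ_H(Q)` (`q ∥ N¹` the pivot), a ring homomorphism

  `Ψ : heckeAlgebra N¹ 2 S →+* End(V')`,   `S ∌ q`, all other primes of `N¹` in `S`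

(MODQ-U, helper264 `exists_heckeActionU_sub_of_odd`: `T_ℓ ↦ ⟨ℓ⟩^m T_ℓ`, `U_q ↦ ⟨q⟩^m U_q`) with
`Ψ(U_q)² = 1` ((MIN) + control at level `N¹ / q` + the identity (UU)).  This file turns this,
and the fact that a point `x` of the Hecke ring `T_Q` OCCURS in `V'`
(`hocc`: every integer polynomial relation of the `Ψ(T_ℓ)` holds for the values `x(T_ℓ)`), into
the vanishing of the Steinberg element at `x`:

* `eq_zero_of_ker_le_h53` : incomparability for characters of a ring integral over `ℤ` with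
  values in a characteristic-zero domain;
* `heckeAlgebra_induction_h53` : induction principle for `heckeAlgebra N 2 S`;
* `exists_char_of_action_h53` : (pure algebra, lying-over) `Ψ`, `Ψ(U_q)² = 1`, `hocc` ⟹ a
  character `c : heckeAlgebra N 2 S →+* D` with `c(T_ℓ) = v_ℓ` and `c(U_q)² = 1`;
* `exists_eigenform_of_char_Uq_h53` : a character `c` of the Hecke algebra WITH `U_q`, values in a
  characteristic-zero domain ⟹ a normalized eigenform `g`, `j : R →+* D` (`R ⊆ ℂ`),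
  `j(a_ℓ(g)) = c(T_ℓ)`, `j(a_q(g)) = c(U_q)`, and `c(U_q)² = 1 → a_q(g)² = 1`;
* `isUqPoint_of_char_h53`, `isUqPoint_of_action_h53` : the point `x` is a `U_q`-point;
* `st_of_action_h53` : `x (tr ρ(φ)² - (1 + q)²) = 0` for every Frobenius `φ` at `q`
  (frozen S35 as the hypothesis `S58.S35Statement`).
-/

set_option autoImplicit false

open Polynomial IsLocalRing CuspForm CongruenceSubgroup ModularFormClass

namespace Fermat.Agent.S38.H53

open Fermat.Agent.S58 Fermat.Agent.S38.H113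

/-! ## Incomparability -/

/-- If `B` is integral over `ℤ`, `χ : B → D` is a character with values in a domain of
characteristic zero and `χ' : B → ℂ` a character with `ker χ' ≤ ker χ`, then
`ker χ ≤ ker χ'`. -/
theorem eq_zero_of_ker_le_h53 {B D : Type*} [CommRing B] [Algebra.IsIntegral ℤ B]
    [CommRing D] [IsDomain D] [CharZero D]
    (χ : B →+* D) (χ' : B →+* ℂ) (hker : RingHom.ker χ' ≤ RingHom.ker χ)
    {c : B} (hc : χ c = 0) : χ' c = 0 := by
  by_contra hx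
  obtain ⟨P, hPmonic, hP⟩ := Algebra.IsIntegral.isIntegral (R := ℤ) c
  have hP0 : P ≠ 0 := hPmonic.ne_zero
  obtain ⟨Q, hPQ, hQ⟩ := Polynomial.exists_eq_pow_rootMultiplicity_mul_and_not_dvd P hP0 0
  rw [map_zero, sub_zero] at hPQ hQ
  have hQ0 : Q.coeff 0 ≠ 0 := by
    intro h0
    apply hQ
    exact Polynomial.X_dvd_iff.mpr h0
  have e1 : ∀ R : ℤ[X], χ' (eval₂ (algebraMap ℤ B) c R) = eval₂ (Int.castRingHom ℂ) (χ' c) R := by
    intro R
    rw [Polynomial.hom_eval₂]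
    congr 1
    exact RingHom.ext_int _ _
  have e2 : ∀ R : ℤ[X], χ (eval₂ (algebraMap ℤ B) c R) = eval₂ (Int.castRingHom D) (χ c) R := by
    intro R
    rw [Polynomial.hom_eval₂]
    congr 1
    exact RingHom.ext_int _ _
  have h1 := e1 P
  rw [hP, map_zero, hPQ, eval₂_mul, eval₂_pow, eval₂_X] at h1
  have h2 : eval₂ (Int.castRingHom ℂ) (χ' c) Q = 0 := by
    rcases mul_eq_zero.mp h1.symm with h | h
    · exact absurd h (pow_ne_zero _ hx)
    · exact h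
  have h3 : eval₂ (algebraMap ℤ B) c Q ∈ RingHom.ker χ := by
    apply hker
    rw [RingHom.mem_ker, e1 Q, h2]
  rw [RingHom.mem_ker, e2 Q, hc, Polynomial.eval₂_at_zero] at h3
  rw [eq_intCast, Int.cast_eq_zero] at h3
  exact hQ0 h3

/-! ## Induction on the Hecke algebra -/

section Ind

variable {N : ℕ} [NeZero N] {S : Set ℕ}

/-- Induction principle for the Hecke algebra `heckeAlgebra N 2 S`. -/
theorem heckeAlgebra_induction_h53 {p : heckeAlgebra N 2 S → Prop}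
    (hT : ∀ (ℓ : ℕ) (hℓ : ℓ.Prime) (hℓN : ¬ ℓ ∣ N) (hℓS : ℓ ∉ S),
      p (heckeAlgebra.T hℓ hℓN hℓS))
    (hU : ∀ (r : ℕ) (hr : r.Prime) (hrN : r ∣ N) (hrS : r ∉ S),
      p (heckeAlgebra.U hr hrN hrS))
    (hint : ∀ n : ℤ, p (algebraMap ℤ (heckeAlgebra N 2 S) n))
    (hadd : ∀ a b, p a → p b → p (a + b)) (hmul : ∀ a b, p a → p b → p (a * b))
    (b : heckeAlgebra N 2 S) : p b := by
  obtain ⟨b, hb⟩ := b
  refine Algebra.adjoin_induction (p := fun x hx => p ⟨x, hx⟩) ?_ ?_ ?_ ?_ hb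
  · rintro x (⟨ℓ, hℓ, hℓN, hℓS, rfl⟩ | ⟨q, hqN, hq, hqS, rfl⟩)
    · exact hT ℓ hℓ hℓN hℓS
    · exact hU q hq hqN hqS
  · intro n
    exact hint n
  · intro x y hx hy ihx ihy
    exact hadd _ _ ihx ihy
  · intro x y hx hy ihx ihy
    exact hmul _ _ ihx ihy

end Ind

/-! ## From the action to a character: commutative algebra -/

section Alg

variable {B : Type*} [CommRing B] [Algebra.IsIntegral ℤ B]
  {D : Type*} [CommRing D] [IsDomain D]

/-- **Lying-over with a square root of `1`.**  `B` integral over `ℤ`, `B₀ ⊆ B` a subalgebra,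
`I` an ideal of `B`, `x₀ : B₀ → D` a character (`D` a domain) killing `B₀ ∩ I`, `U ∈ B` with
`U² ≡ 1` modulo `I`, and `B` generated by `B₀` and `U` (`hgen`).  Then `x₀` extends to a
character `c` of `B` killing `I`, and `c(U)² = 1`. -/
theorem exists_char_ext_h53 (B₀ : Subalgebra ℤ B) (I : Ideal B) (x₀ : B₀ →+* D)
    (hx₀ : ∀ b : B₀, (b : B) ∈ I → x₀ b = 0) (U : B) (hU : U * U - 1 ∈ I)
    (hgen : ∀ p : B → Prop, (∀ b : B₀, p (b : B)) → p U →
      (∀ a b, p a → p b → p (a + b)) → (∀ a b, p a → p b → p (a * b)) → ∀ b, p b) :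
    ∃ c : B →+* D, (∀ b : B₀, c (b : B) = x₀ b) ∧ c U ^ 2 = 1 ∧ ∀ b ∈ I, c b = 0 := by
  classical
  have : Algebra.IsIntegral B₀ B := Algebra.IsIntegral.tower_top (R := ℤ) (S := B₀) (T := B)
  have h𝔭 : (RingHom.ker x₀).IsPrime := RingHom.ker_isPrime x₀
  have hIP : I.comap (algebraMap B₀ B) ≤ RingHom.ker x₀ := by
    intro b hb
    rw [Ideal.mem_comap] at hb
    rw [RingHom.mem_ker]
    exact hx₀ b hb
  obtain ⟨𝔓, h𝔓I, h𝔓prime, h𝔓comap⟩ :=
    Ideal.exists_ideal_over_prime_of_isIntegral (RingHom.ker x₀) I hIP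
  have := h𝔓prime
  set c₁ : B →+* (B ⧸ 𝔓) := Ideal.Quotient.mk 𝔓 with hc₁
  have hc₁I : ∀ b ∈ I, c₁ b = 0 := fun b hb => Ideal.Quotient.eq_zero_iff_mem.mpr (h𝔓I hb)
  have hUU₁ : c₁ (U * U) = 1 := by
    have h2 := hc₁I _ hU
    rw [map_sub, map_one, sub_eq_zero] at h2
    exact h2
  have hU₁ : c₁ U = 1 ∨ c₁ U = -1 := by
    have h1 : (c₁ U - 1) * (c₁ U + 1) = 0 := by
      have : c₁ U * c₁ U = 1 := by rw [← map_mul]; exact hUU₁
      linear_combination this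
    rcases mul_eq_zero.mp h1 with h | h
    · exact Or.inl (sub_eq_zero.mp h)
    · exact Or.inr (eq_neg_of_add_eq_zero_left h)
  set c₀ : B₀ →+* (B ⧸ 𝔓) := c₁.comp (algebraMap B₀ B) with hc₀
  have hkerc₀ : RingHom.ker c₀ ≤ RingHom.ker x₀ := by
    intro b hb
    rw [← h𝔓comap, Ideal.mem_comap]
    rw [RingHom.mem_ker, hc₀, RingHom.comp_apply] at hb
    exact Ideal.Quotient.eq_zero_iff_mem.mp hb
  have hmem : ∀ b : B, c₁ b ∈ c₀.range := by
    refine hgen (fun b => c₁ b ∈ c₀.range) ?_ ?_ ?_ ?_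
    · intro b
      exact ⟨b, rfl⟩
    · rcases hU₁ with h | h
      · rw [h]
        exact c₀.range.one_mem
      · rw [h]
        exact c₀.range.neg_mem c₀.range.one_mem
    · intro a b ha hb
      rw [map_add]
      exact c₀.range.add_mem ha hb
    · intro a b ha hb
      rw [map_mul]
      exact c₀.range.mul_mem ha hb
  set c₁' : B →+* c₀.range := c₁.codRestrict c₀.range hmem with hc₁'
  refine ⟨(rangeLift c₀ x₀ hkerc₀).comp c₁', fun b => ?_, ?_, fun b hb => ?_⟩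
  · have e1 : c₁' (b : B) = c₀.rangeRestrict b := Subtype.ext rfl
    rw [RingHom.comp_apply, e1, rangeLift_apply]
  · have e1 : c₁' (U * U) = 1 := Subtype.ext hUU₁
    rw [pow_two, ← map_mul, RingHom.comp_apply, e1, map_one]
  · have e1 : c₁' b = 0 := Subtype.ext (hc₁I b hb)
    rw [RingHom.comp_apply, e1, map_zero]

end Alg

/-! ## From the action to a character: the Hecke algebra -/

/-- The good primes of level `N` away from `S` (definitionally `S59.TW.H658.GoodPrime N S`). -/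
abbrev GoodIdx (N : ℕ) (S : Set ℕ) : Type := {ℓ : ℕ // ℓ.Prime ∧ ¬ ℓ ∣ N ∧ ℓ ∉ S}

/-- The family of the `T_ℓ` in the Hecke algebra. -/
noncomputable def tFamA (N : ℕ) [NeZero N] (S : Set ℕ) (i : GoodIdx N S) : heckeAlgebra N 2 S :=
  heckeAlgebra.T i.2.1 i.2.2.1 i.2.2.2

section Char

variable {N : ℕ} [NeZero N] {S : Set ℕ}

/-- **From a `U_q`-extended action to a character.**
`Ψ` a ring homomorphism from the Hecke algebra `heckeAlgebra N 2 S` (`q ∣ N`, `q ∉ S`, all other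
primes of `N` in `S`, so that the algebra is generated by the `T_ℓ`, `ℓ ∉ S`, and by `U_q`) to
any ring `E` with `Ψ(U_q)² = 1`; `v_ℓ ∈ D` (a domain) values such that every integer
noncommutative polynomial `P` in the `T_ℓ` with `Ψ(P(T)) = 0` satisfies `P(v) = 0`.
Then there is a character `c` of the Hecke algebra with `c(T_ℓ) = v_ℓ` and `c(U_q)² = 1`. -/
theorem exists_char_of_action_h53 {q : ℕ} (hq : q.Prime) (hqN : q ∣ N) (hqS : q ∉ S)
    (hNS : ∀ r : ℕ, r.Prime → r ∣ N → r ∉ S → r = q)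
    {E : Type*} [Ring E] (Ψ : heckeAlgebra N 2 S →+* E)
    (hUU : Ψ (heckeAlgebra.U hq hqN hqS) * Ψ (heckeAlgebra.U hq hqN hqS) = 1)
    {D : Type*} [CommRing D] [IsDomain D] (v : GoodIdx N S → D)
    (hocc : ∀ P : FreeAlgebra ℤ (GoodIdx N S),
      Ψ (FreeAlgebra.lift ℤ (tFamA N S) P) = 0 → FreeAlgebra.lift ℤ v P = 0) :
    ∃ c : heckeAlgebra N 2 S →+* D,
      (∀ i : GoodIdx N S, c (tFamA N S i) = v i) ∧ c (heckeAlgebra.U hq hqN hqS) ^ 2 = 1 := by
  classical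
  have hfin : Module.Finite ℤ (heckeAlgebra N 2 S) := Fermat.Agent.S22.result N 2 S
  have hint : Algebra.IsIntegral ℤ (heckeAlgebra N 2 S) := inferInstance
  -- the character of `B₀ = ℤ[T_ℓ]`
  have hker0 : RingHom.ker
      ((FreeAlgebra.lift ℤ (tFamA N S)).rangeRestrict :
        FreeAlgebra ℤ (GoodIdx N S) →+* (FreeAlgebra.lift ℤ (tFamA N S)).range) ≤
      RingHom.ker (FreeAlgebra.lift ℤ v : FreeAlgebra ℤ (GoodIdx N S) →+* D) := by
    intro P hP
    rw [RingHom.mem_ker] at hP ⊢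
    have h1 : FreeAlgebra.lift ℤ (tFamA N S) P = 0 := congrArg Subtype.val hP
    exact hocc P (by rw [h1, map_zero])
  obtain ⟨x₀, hx₀P⟩ : ∃ x₀ : (FreeAlgebra.lift ℤ (tFamA N S)).range →+* D,
      ∀ P : FreeAlgebra ℤ (GoodIdx N S),
        x₀ ((FreeAlgebra.lift ℤ (tFamA N S)).rangeRestrict P) = FreeAlgebra.lift ℤ v P :=
    ⟨RingHom.liftOfRightInverse
      ((FreeAlgebra.lift ℤ (tFamA N S)).rangeRestrict :
        FreeAlgebra ℤ (GoodIdx N S) →+* (FreeAlgebra.lift ℤ (tFamA N S)).range)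
      (Function.surjInv (FreeAlgebra.lift ℤ (tFamA N S)).rangeRestrict_surjective)
      (Function.rightInverse_surjInv (FreeAlgebra.lift ℤ (tFamA N S)).rangeRestrict_surjective)
      ⟨(FreeAlgebra.lift ℤ v : FreeAlgebra ℤ (GoodIdx N S) →+* D), hker0⟩,
      fun P => RingHom.liftOfRightInverse_comp_apply _ _ _ _ P⟩
  have hx₀I : ∀ b : (FreeAlgebra.lift ℤ (tFamA N S)).range,
      (b : heckeAlgebra N 2 S) ∈ RingHom.ker Ψ → x₀ b = 0 := by
    intro b hb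
    obtain ⟨P, rfl⟩ := (FreeAlgebra.lift ℤ (tFamA N S)).rangeRestrict_surjective b
    rw [RingHom.mem_ker] at hb
    rw [hx₀P]
    exact hocc P hb
  have hUI : heckeAlgebra.U hq hqN hqS * heckeAlgebra.U hq hqN hqS - 1 ∈ RingHom.ker Ψ := by
    rw [RingHom.mem_ker, map_sub, map_mul, map_one, hUU, sub_self]
  have hgen : ∀ p : heckeAlgebra N 2 S → Prop,
      (∀ b : (FreeAlgebra.lift ℤ (tFamA N S)).range, p (b : heckeAlgebra N 2 S)) →
      p (heckeAlgebra.U hq hqN hqS) →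
      (∀ a b, p a → p b → p (a + b)) → (∀ a b, p a → p b → p (a * b)) → ∀ b, p b := by
    intro p hp₀ hpU hadd hmul b
    refine heckeAlgebra_induction_h53 (p := p) ?_ ?_ ?_ hadd hmul b
    · intro ℓ hℓ hℓN hℓS
      exact hp₀ ⟨tFamA N S ⟨ℓ, hℓ, hℓN, hℓS⟩, ⟨FreeAlgebra.ι ℤ ⟨ℓ, hℓ, hℓN, hℓS⟩, by simp⟩⟩
    · intro r hr hrN hrS
      obtain rfl := hNS r hr hrN hrS
      exact hpU
    · intro n
      exact hp₀ (algebraMap ℤ _ n)
  obtain ⟨c, hc, hcU, -⟩ := exists_char_ext_h53 (D := D)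
    (FreeAlgebra.lift ℤ (tFamA N S)).range (RingHom.ker Ψ) x₀ hx₀I
    (heckeAlgebra.U hq hqN hqS) hUI hgen
  refine ⟨c, fun i => ?_, hcU⟩
  have h1 := hc ((FreeAlgebra.lift ℤ (tFamA N S)).rangeRestrict (FreeAlgebra.ι ℤ i))
  rw [hx₀P] at h1
  have h3 : FreeAlgebra.lift ℤ v (FreeAlgebra.ι ℤ i) = v i := by simp
  have h4 : (((FreeAlgebra.lift ℤ (tFamA N S)).rangeRestrict
      (FreeAlgebra.ι ℤ i) : (FreeAlgebra.lift ℤ (tFamA N S)).range) : heckeAlgebra N 2 S)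
      = tFamA N S i := by simp
  rw [h4, h3] at h1
  exact h1

end Char

/-! ## From a character with `U_q` to a normalized eigenform -/

section Eigen

variable {N : ℕ} [NeZero N] {S : Set ℕ}

/-- **Character with `U_q` ⟹ normalized eigenform.**  A character `c` of the Hecke algebra
`heckeAlgebra N 2 S` (`q ∣ N`, `q ∉ S`) with values in a domain of characteristic zero is the
image, along a ring homomorphism `j` defined on a subring of `ℂ`, of the eigencharacter `χ'` of a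
normalized eigenform `g` of level `N`: `a_ℓ(g) = χ'(T_ℓ)`, `a_q(g) = χ'(U_q)`, `j ∘ χ' = c`.
In particular `c(U_q)² = 1` implies `a_q(g)² = 1`. -/
theorem exists_eigenform_of_char_Uq_h53 {D : Type*} [CommRing D] [IsDomain D] [CharZero D]
    {q : ℕ} (hq : q.Prime) (hqN : q ∣ N) (hqS : q ∉ S)
    (c : heckeAlgebra N 2 S →+* D) :
    ∃ (χ' : heckeAlgebra N 2 S →+* ℂ) (j : χ'.range →+* D) (g : CuspForm (Gamma0 N) 2),
      g.IsNormalizedEigenform ∧
      (∀ t, j (χ'.rangeRestrict t) = c t) ∧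
      (∀ (ℓ : ℕ) (hℓ : ℓ.Prime) (hℓN : ¬ ℓ ∣ N) (hℓS : ℓ ∉ S),
        qCoeff g ℓ = χ' (heckeAlgebra.T hℓ hℓN hℓS)) ∧
      qCoeff g q = χ' (heckeAlgebra.U hq hqN hqS) ∧
      (c (heckeAlgebra.U hq hqN hqS) ^ 2 = 1 → qCoeff g q ^ 2 = 1) := by
  classical
  have := Fermat.Agent.Lib.Newform.H863.finiteDimensional_cuspForm N
  have hfin : Module.Finite ℤ (heckeAlgebra N 2 S) := Fermat.Agent.S22.result N 2 S
  have hint : Algebra.IsIntegral ℤ (heckeAlgebra N 2 S) := inferInstance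
  have : (RingHom.ker c).IsPrime := RingHom.ker_isPrime c
  obtain ⟨h, χ', hh, hχ', hker⟩ := Fermat.Agent.S49.exists_eigenvector_ker_le
    (K := ℂ) (V := CuspForm (Gamma0 N) 2)
    ((heckeAlgebra N 2 S).val.toRingHom) Subtype.val_injective (RingHom.ker c)
  let lam : ℕ → ℂ := fun ℓ =>
    if hc : ℓ.Prime ∧ ¬ ℓ ∣ N ∧ ℓ ∉ S then χ' (heckeAlgebra.T hc.1 hc.2.1 hc.2.2) else 0
  have hlam : ∀ (ℓ : ℕ) (hℓ : ℓ.Prime) (hℓN : ¬ ℓ ∣ N) (hℓS : ℓ ∉ S),
      lam ℓ = χ' (heckeAlgebra.T hℓ hℓN hℓS) := by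
    intro ℓ hℓ hℓN hℓS
    simp only [lam, dif_pos (⟨hℓ, hℓN, hℓS⟩ : ℓ.Prime ∧ ¬ ℓ ∣ N ∧ ℓ ∉ S)]
  obtain ⟨g, hg, hgl, hgq⟩ := exists_normalizedEigenform_of_eigenvector_Uq S lam hq hqN
    (χ' (heckeAlgebra.U hq hqN hqS)) h hh
    (fun ℓ hℓ hℓN hℓS => by
      have h1 := hχ' (heckeAlgebra.T hℓ hℓN hℓS)
      rw [hlam ℓ hℓ hℓN hℓS]
      exact h1)
    (hχ' (heckeAlgebra.U hq hqN hqS))
  refine ⟨χ', rangeLift χ' c hker, g, hg, fun t => rangeLift_apply χ' c hker t,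
    fun ℓ hℓ hℓN hℓS => ?_, hgq, fun hc2 => ?_⟩
  · rw [hgl ℓ hℓ hℓN hℓS, hlam ℓ hℓ hℓN hℓS]
  · have h1 : c (heckeAlgebra.U hq hqN hqS * heckeAlgebra.U hq hqN hqS - 1) = 0 := by
      rw [map_sub, map_mul, map_one, ← pow_two, hc2, sub_self]
    have h2 := eq_zero_of_ker_le_h53 c χ' hker h1
    rw [map_sub, map_mul, map_one, sub_eq_zero, ← pow_two] at h2
    rw [hgq, h2]

end Eigen

/-! ## The point is a `U_q`-point; the Steinberg element vanishes -/

section Point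

variable {N₀ : ℕ} [NeZero N₀] {Sig₀ : Finset ℕ}
  {𝒪 : Type} [CommRing 𝒪] [IsDomain 𝒪] [IsDiscreteValuationRing 𝒪]
  [IsAdicComplete (maximalIdeal 𝒪) 𝒪]
  {θ : CuspForm.heckeAlgebra N₀ 2 (↑Sig₀ : Set ℕ) →+* ResidueField 𝒪}
  {T : Type} [CommRing T] [IsLocalRing T] [IsNoetherianRing T]
  [IsAdicComplete (maximalIdeal T) T] [Algebra 𝒪 T] [IsLocalHom (algebraMap 𝒪 T)]
  [Module.Finite 𝒪 T] [Module.Free 𝒪 T]

/-- **A character with `U_q` makes the point a `U_q`-point.**  `x` a point of the datum `H`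
(level `N₀`, away from `Sig₀`), `c` a character of the Hecke algebra of a level `N` with `q ∥ N`
away from `S ∌ q` (`S` contains `lam` and the primes `≠ q` of `N`) with `c(T_ℓ) = x(T_ℓ)` at the
primes good for both and `c(U_q)² = 1`. -/
theorem isUqPoint_of_char_h53 (H : CuspForm.HeckeGaloisRepDatum N₀ (↑Sig₀ : Set ℕ) 𝒪 θ T)
    {𝒪' : Type} [CommRing 𝒪'] [IsDomain 𝒪'] [CharZero 𝒪'] (x : T →+* 𝒪') (lam : ℕ)
    {N : ℕ} [NeZero N] {q : ℕ} (hq : q.Prime) (hqN : q ∣ N) (hq2 : ¬ q ^ 2 ∣ N)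
    (S : Finset ℕ) (hqS : q ∉ (↑S : Set ℕ)) (hlamS : lam ∈ S)
    (hNS : ∀ r : ℕ, r.Prime → r ∣ N → r ≠ q → r ∈ S)
    (c : heckeAlgebra N 2 (↑S : Set ℕ) →+* 𝒪')
    (hcT : ∀ (ℓ : ℕ) (hℓ : ℓ.Prime) (hℓN : ¬ ℓ ∣ N) (hℓS : ℓ ∉ (↑S : Set ℕ))
      (hℓN₀ : ¬ ℓ ∣ N₀) (hℓSig₀ : ℓ ∉ (↑Sig₀ : Set ℕ)),
      x (H.π (heckeAlgebra.T hℓ hℓN₀ hℓSig₀)) = c (heckeAlgebra.T hℓ hℓN hℓS))
    (hcU : c (heckeAlgebra.U hq hqN hqS) ^ 2 = 1) : IsUqPoint H lam q x := by
  obtain ⟨χ', j, g, hg, hj, hgT, hgq, hgq2⟩ := exists_eigenform_of_char_Uq_h53 hq hqN hqS c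
  have hgood : ∀ ℓ : ℕ, ℓ.Prime → ℓ ∉ (↑(insert q S) : Set ℕ) → ¬ ℓ ∣ N ∧ ℓ ∉ (↑S : Set ℕ) := by
    intro ℓ hℓ hℓS
    have h1 : ℓ ≠ q ∧ ℓ ∉ S := by
      rw [Finset.mem_coe, Finset.mem_insert, not_or] at hℓS
      exact hℓS
    exact ⟨fun hℓN => h1.2 (hNS ℓ hℓ hℓN h1.1), fun h => h1.2 (Finset.mem_coe.mp h)⟩
  have hR : ∀ ℓ : ℕ, ℓ.Prime → ℓ ∉ (↑(insert q S) : Set ℕ) → qCoeff g ℓ ∈ χ'.range := by
    intro ℓ hℓ hℓS
    rw [hgT ℓ hℓ (hgood ℓ hℓ hℓS).1 (hgood ℓ hℓ hℓS).2]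
    exact ⟨_, rfl⟩
  refine ⟨N, inferInstance, g, insert q S, χ'.range, j, hR, ∅, hg,
    Finset.mem_insert_of_mem hlamS, ?_, ?_, hqN, hq2, hgq2 hcU⟩
  · intro r hr hrN
    by_cases hrq : r = q
    · rw [hrq]
      exact Finset.mem_insert_self q S
    · exact Finset.mem_insert_of_mem (hNS r hr hrN hrq)
  · intro ℓ hℓ hℓN₀ hℓSig₀ hℓS _
    rw [hcT ℓ hℓ (hgood ℓ hℓ hℓS).1 (hgood ℓ hℓ hℓS).2 hℓN₀ hℓSig₀, ← hj]
    congr 1
    exact Subtype.ext (hgT ℓ hℓ (hgood ℓ hℓ hℓS).1 (hgood ℓ hℓ hℓS).2).symm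

/-- **The point is a `U_q`-point, from a `U_q`-extended action in which it occurs.** -/
theorem isUqPoint_of_action_h53 (H : CuspForm.HeckeGaloisRepDatum N₀ (↑Sig₀ : Set ℕ) 𝒪 θ T)
    {𝒪' : Type} [CommRing 𝒪'] [IsDomain 𝒪'] [CharZero 𝒪'] (x : T →+* 𝒪') (lam : ℕ)
    {N : ℕ} [NeZero N] {q : ℕ} (hq : q.Prime) (hqN : q ∣ N) (hq2 : ¬ q ^ 2 ∣ N)
    (S : Finset ℕ) (hqS : q ∉ (↑S : Set ℕ)) (hlamS : lam ∈ S)
    (hNS : ∀ r : ℕ, r.Prime → r ∣ N → r ≠ q → r ∈ S)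
    (hgood : ∀ ℓ : ℕ, ℓ.Prime → ¬ ℓ ∣ N → ℓ ∉ (↑S : Set ℕ) →
      ¬ ℓ ∣ N₀ ∧ ℓ ∉ (↑Sig₀ : Set ℕ))
    {E : Type*} [Ring E] (Ψ : heckeAlgebra N 2 (↑S : Set ℕ) →+* E)
    (hUU : Ψ (heckeAlgebra.U hq hqN hqS) * Ψ (heckeAlgebra.U hq hqN hqS) = 1)
    (hocc : ∀ P : FreeAlgebra ℤ (GoodIdx N (↑S : Set ℕ)),
      Ψ (FreeAlgebra.lift ℤ (tFamA N (↑S : Set ℕ)) P) = 0 →
        FreeAlgebra.lift ℤ (fun i : GoodIdx N (↑S : Set ℕ) =>
          x (H.π (heckeAlgebra.T i.2.1 (hgood i.1 i.2.1 i.2.2.1 i.2.2.2).1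
            (hgood i.1 i.2.1 i.2.2.1 i.2.2.2).2))) P = 0) :
    IsUqPoint H lam q x := by
  obtain ⟨c, hcT, hcU⟩ := exists_char_of_action_h53 hq hqN hqS
    (fun r hr hrN hrS => by
      by_contra hrq
      exact hrS (Finset.mem_coe.mpr (hNS r hr hrN hrq)))
    Ψ hUU _ hocc
  exact isUqPoint_of_char_h53 H x lam hq hqN hq2 S hqS hlamS hNS c
    (fun ℓ hℓ hℓN hℓS hℓN₀ hℓSig₀ => (hcT ⟨ℓ, hℓ, hℓN, hℓS⟩).symm) hcU

/-- **(ST) at a point from a `U_q`-extended action in which the point occurs.**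
`H` a Hecke–Galois datum (any level `N₀`), `x` a characteristic-zero point of it (complete DVR,
residue characteristic `lam`), `q ≠ lam` a prime, `N` a level with `q ∥ N`;
`Ψ : heckeAlgebra N 2 S →+* E` (`S ∌ q`) with `Ψ(U_q)² = 1`, such that every integer polynomial
relation of the `Ψ(T_ℓ)` holds for the `x(T_ℓ)`.  Then the Steinberg element
`tr ρ(φ)² - (1 + q)²` vanishes at `x` for every Frobenius `φ` at `q`. -/
theorem st_of_action_h53 (hS35 : S35Statement)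
    (H : CuspForm.HeckeGaloisRepDatum N₀ (↑Sig₀ : Set ℕ) 𝒪 θ T)
    {𝒪' : Type} [CommRing 𝒪'] [IsDomain 𝒪'] [IsDiscreteValuationRing 𝒪']
    [IsAdicComplete (maximalIdeal 𝒪') 𝒪'] [Finite (ResidueField 𝒪')] [CharZero 𝒪']
    (x : T →+* 𝒪') (hx : IsLocalHom x)
    (lam : ℕ) [Fact lam.Prime] (hlam : (lam : 𝒪') ∈ maximalIdeal 𝒪')
    {N : ℕ} [NeZero N] {q : ℕ} (hq : q.Prime) (hqlam : q ≠ lam) (hqN : q ∣ N)
    (hq2 : ¬ q ^ 2 ∣ N)
    (S : Finset ℕ) (hqS : q ∉ (↑S : Set ℕ)) (hlamS : lam ∈ S)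
    (hNS : ∀ r : ℕ, r.Prime → r ∣ N → r ≠ q → r ∈ S)
    (hgood : ∀ ℓ : ℕ, ℓ.Prime → ¬ ℓ ∣ N → ℓ ∉ (↑S : Set ℕ) →
      ¬ ℓ ∣ N₀ ∧ ℓ ∉ (↑Sig₀ : Set ℕ))
    {E : Type*} [Ring E] (Ψ : heckeAlgebra N 2 (↑S : Set ℕ) →+* E)
    (hUU : Ψ (heckeAlgebra.U hq hqN hqS) * Ψ (heckeAlgebra.U hq hqN hqS) = 1)
    (hocc : ∀ P : FreeAlgebra ℤ (GoodIdx N (↑S : Set ℕ)),
      Ψ (FreeAlgebra.lift ℤ (tFamA N (↑S : Set ℕ)) P) = 0 →
        FreeAlgebra.lift ℤ (fun i : GoodIdx N (↑S : Set ℕ) =>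
          x (H.π (heckeAlgebra.T i.2.1 (hgood i.1 i.2.1 i.2.2.1 i.2.2.2).1
            (hgood i.1 i.2.1 i.2.2.1 i.2.2.2).2))) P = 0)
    (P : ValuationSubring Qb) (hP : P.LiesOverPrime q) (φ : GQ) (hφ : P.IsFrobeniusAt φ q) :
    x (H.ρ.trace φ ^ 2 - ((1 + q : ℕ) : T) ^ 2) = 0 :=
  stUq_of_isUqPoint hS35 H x hx lam hlam q hq hqlam
    (isUqPoint_of_action_h53 H x lam hq hqN hq2 S hqS hlamS hNS hgood Ψ hUU hocc) P hP φ hφ

end Point

end Fermat.Agent.S38.H53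

end
-- ===== PACK-END S38/H53/StCore.lean

-- ===== PACK-BEGIN S38/H593/StAsm.lean
section








/-!
# Row HARD, cell HECKE, leaf IA-ST, middle glue (C): the final assembly  (helper593)

`iaStPt_h593 : IAMinZeroStatement → S35Statement → IAStCorStatement → IAStPtStatement953`.
-/

set_option autoImplicit false

open Polynomial IsLocalRing CongruenceSubgroup
open scoped MatrixGroups

namespace Fermat.Agent.S38.H593

open Fermat.Agent.S59.Arch Fermat.Agent.S59.TW.H959 Fermat.Agent.S59.TW Fermat.Agent.S59.H765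
open Fermat.Agent.S59.TW.H653 Fermat.Agent.S59.TW.Aut Fermat.Agent.S59.TW.H201
open Fermat.Agent.S38.IA Fermat.Agent.S38.IA.Hecke
open Fermat.Agent.S38.H953
open CuspForm

section Stab

variable {M : ℕ} {K : Subgroup SL(2, ℤ)} (hK : IsMid M K)
  {𝒪 : Type} [CommRing 𝒪] [IsLocalRing 𝒪]
  {Tset Uset : Set (ℕ × 𝒪)} {V : Submodule 𝒪 (Additive K →+ 𝒪)}

include hK in
theorem isLocPart_TK_mem_h593 (hV : IsLocPart hK Tset Uset V) (ℓ : ℕ) [Fact ℓ.Prime]
    (hℓ : ¬ ℓ ∣ M) {x : Additive K →+ 𝒪} (hx : x ∈ V) : TK M K ℓ x ∈ V := by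
  obtain ⟨e, -, e2, e3, e4, -, -, -⟩ := hV.exists_proj
  rw [← e3 x hx, ← e4 ℓ hℓ]
  exact e2 _

include hK in
theorem isLocPart_UK_mem_h593 (hV : IsLocPart hK Tset Uset V) (q : ℕ) [Fact q.Prime]
    (hq : q ∣ M) {x : Additive K →+ 𝒪} (hx : x ∈ V) : UK K q x ∈ V := by
  obtain ⟨e, -, e2, e3, -, e5, -, -⟩ := hV.exists_proj
  rw [← e3 x hx, ← e5 q hq]
  exact e2 _

theorem isLocPart_diamondU_mem_h593 (hV : IsLocPart hK Tset Uset V) (u : (ZMod M)ˣ)
    {x : Additive K →+ 𝒪} (hx : x ∈ V) : diamondU hK u x ∈ V := by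
  obtain ⟨e, -, e2, e3, -, -, e6, -⟩ := hV.exists_proj
  rw [← e3 x hx, ← e6 u]
  exact e2 _

theorem isLocPart_tOpTw_mem_h593 (hV : IsLocPart hK Tset Uset V) (h ℓ : ℕ) (hℓ : ℓ.Prime)
    (hℓM : ¬ ℓ ∣ M) {x : Additive K →+ 𝒪} (hx : x ∈ V) : tOpTw hK 𝒪 h ℓ hℓ x ∈ V := by
  unfold tOpTw tOp
  have : Fact ℓ.Prime := ⟨hℓ⟩
  exact isLocPart_diamondU_mem_h593 hK hV _ (isLocPart_TK_mem_h593 hK hV ℓ hℓM hx)

end Stab

/-! ## Arithmetic -/

section Arith2

variable {p : ℕ} {Smin Piv : Finset ℕ} {r : ℕ} {qv : Fin r → ℕ}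

theorem gLevel_dvd_sq_h593 (L : ℕ) : gLevel L qv ∣ L * ∏ j, qv j ^ 2 := by
  unfold gLevel
  refine Nat.mul_dvd_mul_left L ?_
  rw [Finset.prod_pow]
  exact Dvd.intro _ (sq _).symm

/-- A prime dividing `L · ∏ qv²` divides `L · ∏ qv`. -/
theorem dvd_gLevel_of_dvd_sq_h593 (L : ℕ) {ℓ : ℕ} (hℓ : ℓ.Prime)
    (hd : ℓ ∣ L * ∏ j, qv j ^ 2) : ℓ ∣ gLevel L qv := by
  unfold gLevel
  rcases (Nat.Prime.dvd_mul hℓ).mp hd with h1 | h1
  · exact dvd_mul_of_dvd_left h1 _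
  · rw [Finset.prod_pow] at h1
    exact dvd_mul_of_dvd_right (hℓ.dvd_of_dvd_pow h1) _

end Arith2

/-! ## The assembly -/

set_option maxSynthPendingDepth 3 in
theorem iaStPt_h593 (hMZ : IAMinZeroStatement) (hS35 : Fermat.Agent.S58.S35Statement)
    (hCor : IAStCorStatement) : IAStPtStatement953 := by
  intro p _ hp5 𝒪 _ _ _ _ _ _ ρbar Smin h hflat Piv hPiv hmin k pv hpv hpvPiv n r qv hq _ PQ α hα
    V h' a hV hh1 hh2 ha 𝒪' _ _ _ _ _ _ _ x hx hp' hsupp q hqP P hP φ hφ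
  classical
  have hSp : ∀ x ∈ Smin, x.Prime := h.hSmin
  have hPp : ∀ x ∈ Piv, x.Prime := fun x hx => (hPiv x hx).1
  have hQp : ∀ j, (qv j).Prime := fun j => (hq.2.1 j).1
  have hqv : ∀ j, (qv j).Prime ∧ qv j ∉ Smin ∪ Piv := fun j => ⟨(hq.2.1 j).1, (hq.2.1 j).2.1⟩
  have hqprime : q.Prime := hPp q hqP
  have : Fact q.Prime := ⟨hqprime⟩
  have : NeZero q := ⟨hqprime.ne_zero⟩
  have hpprime : p.Prime := Fact.out
  have hL : ribetLevel p Smin Piv ≠ 0 := H264.ribetLevel_ne_zero p Smin Piv hSp hPp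
  have hM₁ : gLevel (ribetLevel p Smin Piv) qv ≠ 0 := gLevel_ribetLevel_ne_zero Piv hSp hPp hQp
  have hN₁ : ribetLevel p Smin Piv * ∏ j, qv j ^ 2 ≠ 0 :=
    Nat.mul_ne_zero hL (Finset.prod_ne_zero_iff.mpr fun j _ => pow_ne_zero 2 (hQp j).ne_zero)
  have : NeZero (ribetLevel p Smin Piv * ∏ j, qv j ^ 2) := ⟨hN₁⟩
  have hSigP : ∀ x ∈ Smin ∪ Piv ∪ Finset.univ.image qv, x.Prime := by
    intro x hx
    rcases Finset.mem_union.mp hx with h1 | h1
    · rcases Finset.mem_union.mp h1 with h2 | h2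
      · exact hSp x h2
      · exact hPp x h2
    · obtain ⟨j, -, rfl⟩ := Finset.mem_image.mp h1
      exact hQp j
  have hsub : Smin ⊆ Smin ∪ Piv ∪ Finset.univ.image qv := fun x hx =>
    Finset.mem_union_left _ (Finset.mem_union_left _ hx)
  have hpSig : p ∈ Smin ∪ Piv ∪ Finset.univ.image qv := hsub h.hpSmin
  have hqp : q ≠ p := fun e => (hPiv q hqP).2.1 (e ▸ h.hpSmin)
  have hqSig : q ∈ Smin ∪ Piv ∪ Finset.univ.image qv :=
    Finset.mem_union_left _ (Finset.mem_union_right _ hqP)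
  -- the primes of the levels
  have hdvdM₁ : ∀ ℓ : ℕ, ℓ.Prime → ℓ ∣ gLevel (ribetLevel p Smin Piv) qv →
      ℓ ∈ Smin ∪ Piv ∪ Finset.univ.image qv := by
    intro ℓ hℓ hd
    rcases mem_of_prime_dvd_gLevel Piv hSp hPp hQp hℓ hd with (h1 | h1) | ⟨j, hj⟩
    · exact Finset.mem_union_left _ (Finset.mem_union_left _ (Finset.mem_of_mem_erase h1))
    · exact Finset.mem_union_left _ (Finset.mem_union_right _ h1)
    · exact Finset.mem_union_right _ (Finset.mem_image.mpr ⟨j, Finset.mem_univ j, hj.symm⟩)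
  have hT : ∀ x ∈ TsetOf PQ, x.1.Prime ∧ ¬ x.1 ∣ gLevel (ribetLevel p Smin Piv) qv := by
    rintro x ⟨hℓ, _, hℓS, _⟩
    exact ⟨hℓ, fun hd => hℓS (Finset.mem_coe.mpr (hdvdM₁ x.1 hℓ hd))⟩
  have hU : ∀ x ∈ UsetOf qv α, x.1.Prime ∧ x.1 ∣ gLevel (ribetLevel p Smin Piv) qv := by
    rintro x ⟨j, rfl⟩
    exact ⟨hQp j, dvd_gLevel (ribetLevel p Smin Piv) qv j⟩
  -- the localisation at the level `K₁`
  obtain ⟨V₁, hV₁⟩ := Fermat.Agent.S59.TW.Aut.H511.idem 𝒪 (gLevel (ribetLevel p Smin Piv) qv) hM₁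
    (KG p (ribetLevel p Smin Piv) qv) (isMid_KG p (ribetLevel p Smin Piv) qv)
    (TsetOf PQ) (UsetOf qv α) hT hU
  have hpar : ∀ v ∈ V₁, ModularCurve.Period.IsParabolicHom (KG p (ribetLevel p Smin Piv) qv) v :=
    Fermat.Agent.S59.TW.H324.isLocPart_parabolic_of_pkg p 𝒪 ρbar Smin h .flat
      (Smin ∪ Piv ∪ Finset.univ.image qv) hsub hSigP PQ hM₁
      (isMid_KG p (ribetLevel p Smin Piv) qv) hV₁
  have hqM₁ : q ∣ gLevel (ribetLevel p Smin Piv) qv :=
    dvd_mul_of_dvd_left (H264.dvd_ribetLevel_of_mem p Smin Piv hqP) _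
  have hqN : q ∣ ribetLevel p Smin Piv * ∏ j, qv j ^ 2 :=
    dvd_mul_of_dvd_left (H264.dvd_ribetLevel_of_mem p Smin Piv hqP) _
  have hqS : q ∉ (↑((Smin ∪ Piv ∪ Finset.univ.image qv).erase q) : Set ℕ) := fun hm =>
    Finset.notMem_erase q _ (Finset.mem_coe.mp hm)
  -- the corestriction
  obtain ⟨c, m, hm, hnat, heq, hker⟩ :=
    hCor p hp5 𝒪 ρbar Smin h hflat Piv hPiv k pv hpv hpvPiv n r qv hq PQ α hα V h' hV hh1 hh2
  -- the action with `U_q`
  obtain ⟨Ψ, hΨT, hΨU⟩ := H264.exists_psiU_K1_forall p Smin Piv qv hSp hPp hq.1 hqv hh2 hqP hqN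
    hqS 𝒪 V₁ hpar
    (fun ℓ hℓ hℓN _ v hv => isLocPart_tOpTw_mem_h593 _ hV₁ h' ℓ hℓ
      (fun hd => hℓN (hd.trans (gLevel_dvd_sq_h593 _))) hv)
    (fun v hv => isLocPart_UK_mem_h593 _ hV₁ q hqM₁ hv)
    (fun u v hv => isLocPart_diamondU_mem_h593 _ hV₁ u hv)
    (iaStUU_h593 hMZ p hp5 𝒪 ρbar Smin h hflat Piv hPiv hmin n r qv hq PQ α hα q hqP V₁ hV₁)
  -- the corestriction `V → V₁`
  let c' : V →+ V₁ :=
    { toFun := fun v => ⟨c v, hnat V₁ hV₁ v v.2⟩
      map_zero' := Subtype.ext (by simp)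
      map_add' := fun v w => Subtype.ext (by simp) }
  have hc'coe : ∀ v : V, ((c' v : V₁) : Additive (KG p (ribetLevel p Smin Piv) qv) →+ 𝒪) =
      c (v : XIA p Smin pv qv 𝒪) := fun _ => rfl
  -- side conditions of `st_of_action_h53`
  have hq2 : ¬ q ^ 2 ∣ ribetLevel p Smin Piv * ∏ j, qv j ^ 2 := by
    intro hd
    have e : ribetLevel p Smin Piv * ∏ j, qv j ^ 2 =
        q * (ribetLevel p Smin (Piv.erase q) * ∏ j, qv j ^ 2) := by
      rw [ribetLevel_erase_mul (p := p) (Smin := Smin) hqP]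
      ring
    rw [e, sq] at hd
    have hd' : q ∣ ribetLevel p Smin (Piv.erase q) * ∏ j, qv j ^ 2 :=
      Nat.dvd_of_mul_dvd_mul_left hqprime.pos hd
    have hP' : ∀ x ∈ Piv.erase q, x.Prime := fun x hx => hPp x (Finset.mem_of_mem_erase hx)
    rcases mem_of_prime_dvd_gLevel (Piv.erase q) hSp hP' hQp hqprime
      (dvd_gLevel_of_dvd_sq_h593 _ hqprime hd') with (h1 | h1) | ⟨j, hj⟩
    · exact (hPiv q hqP).2.1 (Finset.mem_of_mem_erase h1)
    · exact (Finset.notMem_erase q Piv) h1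
    · have := (hq.2.1 j).2.1
      rw [← hj] at this
      exact this (Finset.mem_union_right _ hqP)
  have hpS : p ∈ (Smin ∪ Piv ∪ Finset.univ.image qv).erase q :=
    Finset.mem_erase.mpr ⟨fun e => hqp e.symm, hpSig⟩
  have hNS : ∀ r' : ℕ, r'.Prime → r' ∣ ribetLevel p Smin Piv * ∏ j, qv j ^ 2 → r' ≠ q →
      r' ∈ (Smin ∪ Piv ∪ Finset.univ.image qv).erase q := fun r' hr' hd hne =>
    Finset.mem_erase.mpr ⟨hne, hdvdM₁ r' hr' (dvd_gLevel_of_dvd_sq_h593 _ hr' hd)⟩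
  have hgood : ∀ ℓ : ℕ, ℓ.Prime → ¬ ℓ ∣ ribetLevel p Smin Piv * ∏ j, qv j ^ 2 →
      ℓ ∉ (↑((Smin ∪ Piv ∪ Finset.univ.image qv).erase q) : Set ℕ) →
      ¬ ℓ ∣ wilesLevel p .flat Smin (Smin ∪ Piv ∪ Finset.univ.image qv) ∧
        ℓ ∉ (↑(Smin ∪ Piv ∪ Finset.univ.image qv) : Set ℕ) := by
    intro ℓ hℓ hℓN hℓS
    have hℓq : ℓ ≠ q := fun e => hℓN (e ▸ hqN)
    have hℓSig : ℓ ∉ (↑(Smin ∪ Piv ∪ Finset.univ.image qv) : Set ℕ) := fun hm =>
      hℓS (Finset.mem_coe.mpr (Finset.mem_erase.mpr ⟨hℓq, Finset.mem_coe.mp hm⟩))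
    exact ⟨fun hd => hℓSig (Finset.mem_coe.mpr
      (prime_dvd_wilesLevel p .flat hsub hSigP hpSig hℓ hd)), hℓSig⟩
  -- occurrence
  have hocc : ∀ Q : FreeAlgebra ℤ (H53.GoodIdx (ribetLevel p Smin Piv * ∏ j, qv j ^ 2)
        (↑((Smin ∪ Piv ∪ Finset.univ.image qv).erase q) : Set ℕ)),
      Ψ (FreeAlgebra.lift ℤ (H53.tFamA (ribetLevel p Smin Piv * ∏ j, qv j ^ 2)
        (↑((Smin ∪ Piv ∪ Finset.univ.image qv).erase q) : Set ℕ)) Q) = 0 →
      FreeAlgebra.lift ℤ (fun i : H53.GoodIdx (ribetLevel p Smin Piv * ∏ j, qv j ^ 2)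
          (↑((Smin ∪ Piv ∪ Finset.univ.image qv).erase q) : Set ℕ) =>
        (x : PQ.T →+* 𝒪') (PQ.H.π (heckeAlgebra.T i.2.1 (hgood i.1 i.2.1 i.2.2.1 i.2.2.2).1
          (hgood i.1 i.2.1 i.2.2.1 i.2.2.2).2))) Q = 0 := by
    intro Q hQ
    refine H264.hocc_of_cor (𝒪 := 𝒪) (a : PQ.T →+* Module.End 𝒪 V) Ψ c'
      (fun i : H53.GoodIdx (ribetLevel p Smin Piv * ∏ j, qv j ^ 2)
          (↑((Smin ∪ Piv ∪ Finset.univ.image qv).erase q) : Set ℕ) =>
        PQ.H.π (heckeAlgebra.T i.2.1 (hgood i.1 i.2.1 i.2.2.1 i.2.2.2).1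
          (hgood i.1 i.2.1 i.2.2.1 i.2.2.2).2))
      (H53.tFamA (ribetLevel p Smin Piv * ∏ j, qv j ^ 2)
        (↑((Smin ∪ Piv ∪ Finset.univ.image qv).erase q) : Set ℕ)) ?_
      ((chiRelIA p Smin pv qv 1 V).comap V.subtype).toAddSubgroup m hm ?_
      (x : PQ.T →+* 𝒪') ?_ Q hQ
    · intro i v
      apply Subtype.ext
      rw [hc'coe]
      have h1 := ha i.1 i.2.1 (hgood i.1 i.2.1 i.2.2.1 i.2.2.2).1
        (hgood i.1 i.2.1 i.2.2.1 i.2.2.2).2 v
      have h2 := hΨT i.1 i.2.1 i.2.2.1 i.2.2.2 (c' v)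
      have h3 := heq i.1 i.2.1 (hgood i.1 i.2.1 i.2.2.1 i.2.2.2).1
        (hgood i.1 i.2.1 i.2.2.1 i.2.2.2).2 v v.2
      change c ((a (PQ.H.π (heckeAlgebra.T i.2.1 (hgood i.1 i.2.1 i.2.2.1 i.2.2.2).1
        (hgood i.1 i.2.1 i.2.2.1 i.2.2.2).2)) v : V) : XIA p Smin pv qv 𝒪) = _
      rw [h1, h3]
      exact h2.symm
    · intro v hv
      have h1 : c (v : XIA p Smin pv qv 𝒪) = 0 := by
        rw [← hc'coe, hv]
        rfl
      have h2 := hker v v.2 h1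
      show ((m • v : V) : XIA p Smin pv qv 𝒪) ∈ chiRelIA p Smin pv qv 1 V
      rw [Submodule.coe_smul_of_tower]
      exact h2
    · intro s hs
      exact hsupp s fun v => hs v
  exact H53.st_of_action_h53 (E := Module.End 𝒪 V₁) hS35 PQ.H (x : PQ.T →+* 𝒪') hx p hp'
    hqprime hqp hqN hq2 ((Smin ∪ Piv ∪ Finset.univ.image qv).erase q) hqS hpS hNS hgood Ψ hΨU
    hocc P hP φ hφ

end Fermat.Agent.S38.H593

end
-- ===== PACK-END S38/H593/StAsm.lean

-- ===== PACK-BEGIN S38/H401/FlatClean.lean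
section

















/-!
# Row HARD, cell TOP, piece FLAT on a realizer-free chain (helper401)

`S59/H294/ResFlat.lean` (main) has BOTH `S31/H22/PowTr.lean` (through layer G4) and
`S31/H982/TracePow.lean` (through `Fermat.Agent.S32`) in its closure, which collide in the kernel
replay of the grader (`S31.powTr.eq_def`).  This file is a copy of the two theorems
`g4_294`, `resFlat_of_dict294` of helper294 with the frozen S32 taken from the realizer-free chain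
`S59.TW.H659.Clean.s32Statement_clean659` (helper659, on main).  The closure contains
`S31/H22/PowTr.lean` only.
-/

set_option autoImplicit false
set_option linter.style.haveILetI false

open Polynomial IsLocalRing
open scoped TensorProduct WeierstrassCurve.Affine

namespace Fermat.Agent.S38.H401

open Fermat.Agent.S59 Fermat.Agent.S59.Arch Fermat.Agent.S59.H294

/-- **Layer G4, assembled** (all pieces are on main). -/
theorem g4_clean401 : G4.G4Statement :=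
  G4.g4_of Fermat.Agent.S30.result G4.H547.red G4.H109.points G4.H532.traceFn
    G4.H109.resStatement2

/-- **ResFlat from the datum**: the core of the leaf, for any coefficient data as provided by
cell DICT. -/
theorem resFlat_of_dict_clean401 (p : ℕ) [Fact p.Prime] (hp2 : p ≠ 2)
    (W : WeierstrassCurve ℤ) (hΔ : W.Δ ≠ 0) (hirr : W.ModRepIsIrreducible p)
    (hcard : Nat.card (Submodule.torsionBy ℤ
      ((W.map (Int.castRingHom ℚ))⁄(AlgebraicClosure ℚ)).Point p) = p ^ 2)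
    (hker : GaloisFactorsThroughFiniteLevel
      (WeierstrassCurve.Affine.Point.galoisRepModuleEnd (K := AlgebraicClosure ℚ) ℚ
        (W.map (Int.castRingHom ℚ)) p))
    (M : ℕ) [NeZero M] (hpM : ¬ p ∣ M) (S : Finset ℕ) (hpS : p ∈ S)
    (hNS : ∀ q : ℕ, q.Prime → q ∣ M → q ∈ S)
    (𝒪 : Type) [CommRing 𝒪] [IsDomain 𝒪] [IsDiscreteValuationRing 𝒪]
    [IsAdicComplete (maximalIdeal 𝒪) 𝒪] [Finite (ResidueField 𝒪)] [CharZero 𝒪]
    (hp𝒪 : (p : 𝒪) ∈ maximalIdeal 𝒪)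
    (ι : ZMod p →+* ResidueField 𝒪)
    (χ : CuspForm.heckeAlgebra M 2 (↑S : Set ℕ) →+* 𝒪)
    (hRF : G4.ResFrobCond (curveResidual p W hcard hker ι) ((residue 𝒪).comp χ)) :
    (GaloisRepAdic.ofResidualGaloisRep
      ((W.map (Int.castRingHom ℚ)).residualGaloisRepOf p hcard hker)).IsFlatAt p := by
  classical
  have hp : p.Prime := Fact.out
  -- the residual representation and its oddness
  set ρE : ResidualGaloisRep (ZMod p) :=
    (W.map (Int.castRingHom ℚ)).residualGaloisRepOf p hcard hker with hρE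
  have hirrE : ρE.IsIrreducible := Fermat.Agent.S58.H273.wRes_isIrreducible W hΔ p hirr
  have hdetE : LinearMap.det (ρE.ρ complexConjugation) = -1 :=
    Fermat.Agent.S58.H273.wRes_det_involution W hΔ p hp2 hirr _
      complexConjugation_mul_self
      Fermat.Agent.S59.G4.H307.complexConjugation_ne_one
  have h2p : (2 : ZMod p) ≠ 0 := Fermat.Agent.S58.H273.two_ne_zero_zmod p hp2
  set ρk : ResidualGaloisRep (ResidueField 𝒪) := curveResidual p W hcard hker ι with hρk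
  have habs : ρk.IsAbsolutelyIrreducible :=
    absIrr_baseChangeAlong294 ι h2p ρE hirrE _
      complexConjugation_mul_self hdetE
  have hirrk : ρk.IsIrreducible := Fermat.Agent.S59.G4.H307.isIrreducible_of_absIrr ρk habs
  have h2k : (2 : ResidueField 𝒪) ≠ 0 := by
    intro h
    apply h2p
    apply ι.injective
    rw [map_ofNat, h, map_zero]
  have hdetk : LinearMap.det (ρk.ρ complexConjugation) = -1 := by
    have h1 := det_baseChangeAlong294 ι ρE complexConjugation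
    rw [hdetE, map_neg, map_one] at h1
    exact h1
  -- the datum
  have hθ : G4.NonEisenstein ((residue 𝒪).comp χ) := ⟨ρk, habs, hRF⟩
  haveI : Fact (CuspForm.HasIntegralStructure M 2) := ⟨Fermat.Agent.S23.result M⟩
  obtain ⟨H, -⟩ := g4_clean401 p hp2 M S hpS hNS 𝒪 hp𝒪 ((residue 𝒪).comp χ) hθ
  have hflat : H.ρ.IsFlatAt p := Fermat.Agent.S59.TW.H659.Clean.s32Statement_clean659 hp hp2 hp𝒪 hpM hpS hNS H
  -- Brauer–Nesbitt
  obtain ⟨e⟩ := datum_residual_isEquiv294 Fermat.Agent.Lib.Cheb.chebotarev H h2k ρk hRF hirrk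
    complexConjugation
    complexConjugation_mul_self hdetk
  -- the embedding
  obtain ⟨i1, hi1, hi1σ⟩ : ∃ i : ρE.V →+ ρk.V, Function.Injective i ∧
      ∀ (σ : AlgebraicClosure ℚ ≃ₐ[ℚ] AlgebraicClosure ℚ) (v : ρE.V),
        i (ρE.ρ σ v) = ρk.ρ σ (i v) := exists_embedding_baseChangeAlong294 ι ρE
  obtain ⟨i2, hi2, hi2σ⟩ := exists_embedding_baseChangeAlong294
    (ResidueField.map (algebraMap 𝒪 (CuspForm.heckeLocal M (↑S : Set ℕ) 𝒪 ((residue 𝒪).comp χ))))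
    ρk
  have hSub := Fermat.Agent.S59.H659.hopfSubquot_closed p
  refine isFlatAt_ofResidual_of_embedding294 hSub H.ρ hflat ρE
    ((e.symm.toLinearEquiv.toLinearMap.toAddMonoidHom.comp i2).comp i1) ?_ ?_
  · exact (e.symm.toLinearEquiv.injective.comp hi2).comp hi1
  · intro σ v
    show e.symm.toLinearEquiv (i2 (i1 (ρE.ρ σ v)))
      = H.ρ.residual.ρ σ (e.symm.toLinearEquiv (i2 (i1 v)))
    rw [hi1σ, hi2σ, e.symm.map_apply]

end Fermat.Agent.S38.H401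

end
-- ===== PACK-END S38/H401/FlatClean.lean

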