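import Fermat.Agent.Pack.S43MC.G0E28L2
import Fermat.Agent.Pack.S43C.E2L2
import Fermat.Agent.Pack.S43MC.G0E27L3
import Fermat.Agent.Pack.S43GC.G0E11L1
import Fermat.Agent.Pack.S43MC.G0E19L1
import Fermat.Agent.Pack.S43C.E1L2
import Fermat.Agent.Pack.S43C.E2L0
import Fermat.Agent.Pack.S43MC.G0E27L2
import Fermat.Agent.Pack.S43C.E2L1
import Fermat.Agent.Pack.S43MC.G0E26L3
import Fermat.Agent.Pack.S43C.E1L3
import Fermat.Agent.Pack.S43MC.G0E28L3
import Fermat.Agent.Pack.S43GC.G0E22L3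
import Fermat.Agent.Pack.S43GC.G0E22L1
import Fermat.Agent.Pack.S43GC.G0E22L0
import Fermat.Agent.Pack.S43GC.G0E23L0
import Fermat.Agent.Pack.S44C.G0E30L1
import Fermat.Agent.Pack.S44C.G0E31L0
import Fermat.Agent.Pack.Fast891

-- ===== PACK-BEGIN S38/IA/Hecke/H81/DictTGen.lean
section






/-!
# Row HARD, cell HECKE, leaf IA-DICT-T: the general-family core  (helper81)

The twin of `S59/TW/H81/DictT.lean` (leaf DICT-T of the cell TW of row S59, on main) for an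
ARBITRARY finite family `qq : ι → ℕ` of distinct primes outside `Smin`, an arbitrary type `t` at
`p`, `Σ = Smin ∪ image qq`, `K = KG p N₀ qq`:

`dictT_gen` : `V ⊆ X_K(𝒪)` a localisation at an eigen-system containing `TsetOf P`, `T = P.T`
acting through `T_ℓ ↦ ⟨ℓ⟩^h T_ℓ` (`p^{m_s} ∣ 2h + 1`), `y ∈ V` a `T`-eigenvector (prime
annihilator) fixed by the diamond operator of a primitive root at `qq s₀`.  Then `y` is a newform
point of a level `M₁` with `(qq s₀)² ∤ M₁`.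

All the analytic content is in the general lemmas of `S59/TW/H81` (`frontT_abs`,
`lift_opB_coeff_eq_zero`, `exists_form_of_occurs`, `exists_newform_of_form`).
-/

set_option autoImplicit false
set_option linter.style.haveILetI false
set_option linter.unusedSectionVars false

open Polynomial IsLocalRing CongruenceSubgroup
open scoped MatrixGroups TensorProduct

namespace Fermat.Agent.S38.IA.Hecke.H81

open Fermat.Agent.S59.Arch Fermat.Agent.S59.TW.H959 Fermat.Agent.S59.TW.H653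
open Fermat.Agent.S59.TW.Aut Fermat.Agent.S59.TW.Aut.H673
open Fermat.Agent.S59.TW.H658 Fermat.Agent.S59.TW.H81 Fermat.Agent.S59.TW.H81.D561
open Fermat.Agent.S38.IA.Hecke Fermat.Agent.S38.H781
open ModularCurve.Period

/-- A submodule of `Hom(K, 𝒪)` is torsion-free over the domain `𝒪`. -/
theorem torsionFree_gen {K : Subgroup SL(2, ℤ)} {𝒪 : Type} [CommRing 𝒪] [IsDomain 𝒪]
    (V : Submodule 𝒪 (Additive K →+ 𝒪)) (c : 𝒪) (v : V) (hcv : c • v = 0) :
    c = 0 ∨ v = 0 := by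
  by_cases hc : c = 0
  · exact Or.inl hc
  · right
    apply Subtype.ext
    refine AddMonoidHom.ext fun k => ?_
    have h1 : ((c • v : V) : Additive K →+ 𝒪) k = 0 := by rw [hcv]; rfl
    have h2 : c * (v : Additive K →+ 𝒪) k = 0 := h1
    rcases mul_eq_zero.mp h2 with h3 | h3
    · exact absurd h3 hc
    · exact h3

section Dia

variable {p N₀ : ℕ} {ι : Type} [Fintype ι] {qq : ι → ℕ}
  {𝒪 : Type} [CommRing 𝒪] [IsLocalRing 𝒪] {Tset Uset : Set (ℕ × 𝒪)}
  {V : Submodule 𝒪 (Additive (KG p N₀ qq) →+ 𝒪)}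

/-- The restricted diamond operator of `g ∈ ∏ (ℤ/qq s)ˣ` on `V`. -/
noncomputable def diaGV (hV : IsLocPart (isMid_KG p N₀ qq) Tset Uset V)
    (g : ∀ s : ι, (ZMod (qq s))ˣ) : V →ₗ[𝒪] V where
  toFun v := ⟨diamondU (isMid_KG p N₀ qq) (gLift N₀ qq g) v, hV.diamondU_mem _ v.2⟩
  map_add' _ _ := Subtype.ext (diamondU_add _ _ _ _)
  map_smul' c _ := Subtype.ext (diamondU_smul _ _ c _)

theorem coe_diaGV (hV : IsLocPart (isMid_KG p N₀ qq) Tset Uset V)
    (g : ∀ s : ι, (ZMod (qq s))ˣ) (v : V) :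
    ((diaGV hV g v : V) : Additive (KG p N₀ qq) →+ 𝒪) =
      diamondU (isMid_KG p N₀ qq) (gLift N₀ qq g) v := rfl

/-- The diamond operators on `V`, as a monoid homomorphism. -/
noncomputable def diaGHom [NeZero (gLevel N₀ qq)]
    (hsurj : Function.Surjective (gRed N₀ qq))
    (hV : IsLocPart (isMid_KG p N₀ qq) Tset Uset V) :
    (∀ s : ι, (ZMod (qq s))ˣ) →* Module.End 𝒪 V where
  toFun g := diaGV hV g
  map_one' := by
    refine LinearMap.ext fun v => Subtype.ext ?_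
    rw [coe_diaGV]
    exact diamondU_gLift_one p N₀ qq hsurj _
  map_mul' g g' := by
    refine LinearMap.ext fun v => Subtype.ext ?_
    rw [coe_diaGV, Module.End.mul_apply, coe_diaGV, coe_diaGV]
    exact diamondU_gLift_mul p N₀ qq hsurj g g' _

@[simp] theorem diaGHom_apply [NeZero (gLevel N₀ qq)]
    (hsurj : Function.Surjective (gRed N₀ qq))
    (hV : IsLocPart (isMid_KG p N₀ qq) Tset Uset V) (g : ∀ s : ι, (ZMod (qq s))ˣ) :
    diaGHom hsurj hV g = diaGV hV g := rfl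

end Dia

section Gen

variable {p : ℕ} [hpF : Fact p.Prime]
  {𝒪 : Type} [CommRing 𝒪] [IsDomain 𝒪] [IsDiscreteValuationRing 𝒪]
  [IsAdicComplete (maximalIdeal 𝒪) 𝒪] [Finite (ResidueField 𝒪)] [CharZero 𝒪]
  {ρbar : ResidualGaloisRep (ResidueField 𝒪)} {Smin : Finset ℕ} {t : PType} {Sig : Finset ℕ}
  [NeZero (wilesLevel p t Smin Sig)]
  {ι : Type} [Fintype ι] [DecidableEq ι] (qq : ι → ℕ)

/-- The generators `T_ℓ ⊗ 1`, `1 ⊗ [d]` of `T ⊗ 𝒪[∏ (ℤ/qq s)ˣ]`. -/
noncomputable def genG (P : HeckePkg p 𝒪 ρbar t Smin Sig)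
    (hN : ∀ ℓ : ℕ, ℓ.Prime → ℓ ∉ (↑Sig : Set ℕ) → ¬ ℓ ∣ wilesLevel p t Smin Sig) {N' : ℕ} :
    OpIdx N' (↑Sig : Set ℕ) (gLevel (wilesLevel p t Smin Smin) qq) →
      P.T ⊗[𝒪] MonoidAlgebra 𝒪 (∀ s : ι, (ZMod (qq s))ˣ)
  | Sum.inl i =>
    P.H.π (CuspForm.heckeAlgebra.T i.2.1 (hN i.1 i.2.1 i.2.2.2) i.2.2.2) ⊗ₜ[𝒪] 1
  | Sum.inr d => 1 ⊗ₜ[𝒪] MonoidAlgebra.of 𝒪 _ (gRed (wilesLevel p t Smin Smin) qq d)

theorem genG_inl (P : HeckePkg p 𝒪 ρbar t Smin Sig)
    (hN : ∀ ℓ : ℕ, ℓ.Prime → ℓ ∉ (↑Sig : Set ℕ) → ¬ ℓ ∣ wilesLevel p t Smin Sig) {N' : ℕ}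
    (i : GoodPrime N' (↑Sig : Set ℕ)) :
    genG qq P hN (Sum.inl i : OpIdx N' (↑Sig : Set ℕ)
      (gLevel (wilesLevel p t Smin Smin) qq)) =
      P.H.π (CuspForm.heckeAlgebra.T i.2.1 (hN i.1 i.2.1 i.2.2.2) i.2.2.2) ⊗ₜ[𝒪] 1 := rfl

theorem genG_inr (P : HeckePkg p 𝒪 ρbar t Smin Sig)
    (hN : ∀ ℓ : ℕ, ℓ.Prime → ℓ ∉ (↑Sig : Set ℕ) → ¬ ℓ ∣ wilesLevel p t Smin Sig) {N' : ℕ}
    (d : (ZMod (gLevel (wilesLevel p t Smin Smin) qq))ˣ) :
    genG qq P hN (Sum.inr d : OpIdx N' (↑Sig : Set ℕ)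
      (gLevel (wilesLevel p t Smin Smin) qq)) =
      1 ⊗ₜ[𝒪] MonoidAlgebra.of 𝒪 _ (gRed (wilesLevel p t Smin Smin) qq d) := rfl

set_option maxHeartbeats 400000 in
include hpF in
/-- **IA-DICT-T, front (general family).**  The Betti point of an eigenvector fixed by the
diamond operator of a primitive root at `qq s₀`. -/
theorem occG (hRH : ResidualHyp p 𝒪 ρbar Smin)
    (hqi : Function.Injective qq) (hq : ∀ s, (qq s).Prime ∧ qq s ∉ Smin)
    (hSig : Sig = Smin ∪ Finset.univ.image qq)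
    (P : HeckePkg p 𝒪 ρbar t Smin Sig) {Uset : Set (ℕ × 𝒪)}
    (V : Submodule 𝒪 (Additive (KG p (wilesLevel p t Smin Smin) qq) →+ 𝒪))
    (hV : IsLocPart (isMid_KG p (wilesLevel p t Smin Smin) qq) (TsetOf P) Uset V)
    (h : ℕ) (a : P.T →ₐ[𝒪] Module.End 𝒪 V)
    (ha : ActsBy P V a (tOpTw (isMid_KG p (wilesLevel p t Smin Smin) qq) 𝒪 h))
    (s₀ : ι) (u : (ZMod (qq s₀))ˣ) (hu : orderOf u = qq s₀ - 1)
    (y : V) (hy : y ≠ 0)
    (hann : ∀ s s' : P.T, a (s * s') y = 0 → a s y = 0 ∨ a s' y = 0)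
    (hfix : diamondU (isMid_KG p (wilesLevel p t Smin Smin) qq)
      (gLift (wilesLevel p t Smin Smin) qq (Pi.mulSingle s₀ u))
      (y : Additive (KG p (wilesLevel p t Smin Smin) qq) →+ 𝒪) = y) :
    ∃ (O' : Type) (_ : CommRing O') (_ : IsDomain O') (_ : IsDiscreteValuationRing O')
      (_ : IsAdicComplete (maximalIdeal O') O') (_ : Finite (ResidueField O')) (_ : CharZero O')
      (emb : P.T →+* O'), IsLocalHom emb ∧ (∀ s : P.T, a s y = 0 ↔ emb s = 0) ∧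
      ∀ (N' : ℕ) (hMN : gLevel (wilesLevel p t Smin Smin) qq ∣ N'),
        ∃ vals : OpIdx N' (↑Sig : Set ℕ) (gLevel (wilesLevel p t Smin Smin) qq) → O',
          (∀ (ℓ : ℕ) (hℓ : ℓ.Prime) (hℓN' : ¬ ℓ ∣ N')
            (hℓN : ¬ ℓ ∣ wilesLevel p t Smin Sig) (hℓS : ℓ ∉ (↑Sig : Set ℕ)),
            vals (Sum.inl ⟨ℓ, hℓ, hℓN', hℓS⟩) =
              emb (P.H.π (CuspForm.heckeAlgebra.T hℓ hℓN hℓS))) ∧
          (∀ d : (ZMod (gLevel (wilesLevel p t Smin Smin) qq))ˣ,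
            (∀ s, s ≠ s₀ → gRed (wilesLevel p t Smin Smin) qq d s = 1) →
              vals (Sum.inr d) = 1) ∧
          ∀ Pl : FreeAlgebra ℤ (OpIdx N' (↑Sig : Set ℕ)
              (gLevel (wilesLevel p t Smin Smin) qq)),
            (∀ z : Additive (KG p (wilesLevel p t Smin Smin) qq) →+ ℤ,
              IsParabolicHom (KG p (wilesLevel p t Smin Smin) qq) z →
              FreeAlgebra.lift ℤ (opB (isMid_KG p (wilesLevel p t Smin Smin) qq) ℤ hMN
                (fun ℓ => uOf (gLevel (wilesLevel p t Smin Smin) qq) ℓ ^ h)) Pl z = 0) →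
            FreeAlgebra.lift ℤ vals Pl = 0 := by
  classical
  have hp : p.Prime := Fact.out
  have hS := hRH.hSmin
  have hpS := hRH.hpSmin
  have hprime : ∀ s, (qq s).Prime := fun s => (hq s).1
  have hN₀ : wilesLevel p t Smin Smin ≠ 0 := wilesLevel_ne_zero hp hS hS
  haveI hM : NeZero (gLevel (wilesLevel p t Smin Smin) qq) :=
    ⟨gLevel_ne_zero _ qq hN₀ hprime⟩
  have hK := isMid_KG p (wilesLevel p t Smin Smin) qq
  haveI : (KG p (wilesLevel p t Smin Smin) qq).FiniteIndex :=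
    Fermat.Agent.S59.TW.H564.finiteIndex_of_Gamma1_le hK.ge
  have hSigP : ∀ q ∈ Sig, q.Prime := by
    intro q hqS
    rw [hSig, Finset.mem_union] at hqS
    rcases hqS with h1 | h1
    · exact hS q h1
    · obtain ⟨s, -, rfl⟩ := Finset.mem_image.mp h1
      exact (hq s).1
  have hsub : Smin ⊆ Sig := by
    rw [hSig]
    exact Finset.subset_union_left
  have hNS : ∀ q : ℕ, q.Prime → q ∣ wilesLevel p t Smin Sig → q ∈ (↑Sig : Set ℕ) :=
    fun q hqp hd => Finset.mem_coe.mpr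
      (mem_of_prime_dvd_wilesLevel hp hS hSigP hpS hsub q hqp hd)
  have hN : ∀ ℓ : ℕ, ℓ.Prime → ℓ ∉ (↑Sig : Set ℕ) → ¬ ℓ ∣ wilesLevel p t Smin Sig :=
    fun ℓ hℓ hℓS hd => hℓS (hNS ℓ hℓ hd)
  have hMW : gLevel (wilesLevel p t Smin Smin) qq ∣ wilesLevel p t Smin Sig := by
    rw [hSig]
    exact gLevel_dvd_h781 p t Smin qq hqi fun s => (hq s).2
  have hsurj : Function.Surjective (gRed (wilesLevel p t Smin Smin) qq) :=
    gRed_surjective _ qq hN₀ hqi hprime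
  -- commutation
  have hcommv : ∀ (g : ∀ s : ι, (ZMod (qq s))ˣ) (s : P.T) (v : V),
      diaGV hV g (a s v) = a s (diaGV hV g v) := by
    intro g s
    refine pkg_induction P hNS
      (fun s => ∀ v : V, diaGV hV g (a s v) = a s (diaGV hV g v)) ?_ ?_ ?_ ?_ s
    · intro c v
      rw [AlgHom.commutes]
      exact (diaGV hV g).map_smul c v
    · intro x y' hx hy' v
      rw [map_add, LinearMap.add_apply, map_add, hx, hy', LinearMap.add_apply]
    · intro x y' hx hy' v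
      rw [map_mul, Module.End.mul_apply, hx, hy', Module.End.mul_apply]
    · intro ℓ hℓ hℓN hℓS v
      have hℓM : ¬ ℓ ∣ gLevel (wilesLevel p t Smin Smin) qq := fun hd => hℓN (hd.trans hMW)
      have : Fact ℓ.Prime := ⟨hℓ⟩
      apply Subtype.ext
      rw [coe_diaGV, ha ℓ hℓ hℓN hℓS v, ha ℓ hℓ hℓN hℓS (diaGV hV g v), coe_diaGV]
      unfold tOpTw tOp
      have h1 := diamondU_TK hK hℓM (gLift (wilesLevel p t Smin Smin) qq g)
        (v : Additive (KG p (wilesLevel p t Smin Smin) qq) →+ 𝒪)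
      rw [h1, ← diamondU_mul, ← diamondU_mul, mul_comm]
  have hcomm : ∀ (s : P.T) (g : ∀ s : ι, (ZMod (qq s))ˣ),
      Commute (a s) (diaGHom hsurj hV g) := by
    intro s g
    refine LinearMap.ext fun v => ?_
    rw [Module.End.mul_apply, Module.End.mul_apply, diaGHom_apply]
    exact (hcommv g s v).symm
  -- the fixed elements
  have hfix0 : diaGHom hsurj hV (Pi.mulSingle s₀ u) y = y := by
    apply Subtype.ext
    rw [diaGHom_apply, coe_diaGV]
    exact hfix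
  have hfixall : ∀ g ∈ {g : ∀ s : ι, (ZMod (qq s))ˣ | ∀ s, s ≠ s₀ → g s = 1},
      diaGHom hsurj hV g y = y := by
    intro g hg
    obtain ⟨n, hn⟩ := exists_pow_eq_of_orderOf_h81 (hprime s₀) u hu (g s₀)
    have h1 : g = Pi.mulSingle s₀ u ^ n := by
      funext s
      by_cases hs : s = s₀
      · subst hs
        rw [Pi.pow_apply, Pi.mulSingle_eq_same, hn]
      · rw [Pi.pow_apply, Pi.mulSingle_eq_of_ne hs, one_pow]
        exact hg s hs
    rw [h1, map_pow]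
    clear h1 hn
    induction n with
    | zero => rw [pow_zero, Module.End.one_apply]
    | succ n ih => rw [pow_succ, Module.End.mul_apply, hfix0, ih]
  obtain ⟨O', i1, i2, i3, i4, i5, i6, i7, ev, hloc, -, hx, hker, hχ, hrel⟩ :=
    frontT_abs 𝒪 P.T (∀ s : ι, (ZMod (qq s))ˣ) V (torsionFree_gen V) a
      (diaGHom hsurj hV) hcomm y hy hann _ hfixall
  refine ⟨O', i1, i2, i3, i4, i5, i6, (ev.comp
    (Algebra.TensorProduct.includeLeft :
      P.T →ₐ[𝒪] P.T ⊗[𝒪] MonoidAlgebra 𝒪 (∀ s : ι, (ZMod (qq s))ˣ))).toRingHom,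
    hx, fun s => (hker s).symm, fun N' hMN => ?_⟩
  refine ⟨fun idx => ev (genG qq P hN idx), fun ℓ hℓ hℓN' hℓN hℓS => rfl, fun d hd => ?_,
    fun Pl hP => ?_⟩
  · exact hχ _ hd
  · -- the relation
    have hΘl : ∀ s : P.T, thetaH673 (𝒪 := 𝒪) (T := P.T) (G := ∀ s : ι, (ZMod (qq s))ˣ)
        (V := V) a (diaGHom hsurj hV) hcomm
          (s ⊗ₜ[𝒪] (1 : MonoidAlgebra 𝒪 (∀ s : ι, (ZMod (qq s))ˣ))) = a s := fun s => by
      rw [← Algebra.TensorProduct.includeLeft_apply (R := 𝒪) (S := 𝒪), thetaH673_left]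
    have hΘr : ∀ g : ∀ s : ι, (ZMod (qq s))ˣ,
        thetaH673 (𝒪 := 𝒪) (T := P.T) (G := ∀ s : ι, (ZMod (qq s))ˣ)
        (V := V) a (diaGHom hsurj hV) hcomm
          ((1 : P.T) ⊗ₜ[𝒪] MonoidAlgebra.of 𝒪 (∀ s : ι, (ZMod (qq s))ˣ) g) =
          diaGHom hsurj hV g := fun g => by
      rw [thetaH673_right]
    obtain ⟨Θ, hΘ⟩ : ∃ Θ : P.T ⊗[𝒪] MonoidAlgebra 𝒪 (∀ s : ι, (ZMod (qq s))ˣ) →ₐ[𝒪]
        Module.End 𝒪 V, Θ = thetaH673 (𝒪 := 𝒪) (T := P.T) (G := ∀ s : ι, (ZMod (qq s))ˣ)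
          (V := V) a (diaGHom hsurj hV) hcomm := ⟨_, rfl⟩
    rw [← hΘ] at hrel hΘl hΘr
    have h1 : FreeAlgebra.lift ℤ (fun idx => ev (genG qq P hN (N' := N') idx)) Pl =
        ev (FreeAlgebra.lift ℤ (genG qq P hN (N' := N')) Pl) :=
      lift_ringHom_h81 ev (genG qq P hN (N' := N')) Pl
    rw [h1]
    apply hrel
    refine LinearMap.ext fun v => ?_
    rw [LinearMap.zero_apply]
    apply Subtype.ext
    have hpar : ∀ v ∈ V, IsParabolicHom (KG p (wilesLevel p t Smin Smin) qq) v :=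
      Fermat.Agent.S59.TW.H564.isParabolic_of_pkg hRH (hsub hpS) P hNS hK hMW hV
    have h2 := lift_opB_coeff_eq_zero hK hMN
      (fun ℓ => uOf (gLevel (wilesLevel p t Smin Smin) qq) ℓ ^ h) Pl hP
      (v : Additive (KG p (wilesLevel p t Smin Smin) qq) →+ 𝒪) (hpar v v.2)
    have hint : ∀ (idx : OpIdx N' (↑Sig : Set ℕ) (gLevel (wilesLevel p t Smin Smin) qq))
        (m : V),
        ((Θ (genG qq P hN idx) m : V) : Additive (KG p (wilesLevel p t Smin Smin) qq) →+ 𝒪) =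
          opB hK 𝒪 hMN (fun ℓ => uOf (gLevel (wilesLevel p t Smin Smin) qq) ℓ ^ h) idx
            (m : Additive (KG p (wilesLevel p t Smin Smin) qq) →+ 𝒪) := by
      intro idx m
      rcases idx with i | d
      · rw [genG_inl, hΘl, ha i.1 i.2.1 (hN i.1 i.2.1 i.2.2.2) i.2.2.2 m]
        rfl
      · rw [genG_inr, hΘr, diaGHom_apply, coe_diaGV, opB_inr_apply]
        apply diamondU_eq_of_gChi
        apply gChi_eq_of_gRed
        exact gRed_gLift _ _ ⟨d, rfl⟩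
    have h3 := lift_intertwine
      (fun idx => endToInt 𝒪 V (Θ (genG qq P hN (N' := N') idx)))
      (opB hK 𝒪 hMN (fun ℓ => uOf (gLevel (wilesLevel p t Smin Smin) qq) ℓ ^ h))
      (V.subtype.toAddMonoidHom) (fun idx m => hint idx m) Pl v
    have h5 : FreeAlgebra.lift ℤ (fun idx => Θ (genG qq P hN (N' := N') idx)) Pl =
        Θ (FreeAlgebra.lift ℤ (genG qq P hN (N' := N')) Pl) :=
      lift_ringHom_h81 Θ (genG qq P hN (N' := N')) Pl
    rw [lift_endToInt, h5] at h3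
    rw [Submodule.coe_zero, ← h2]
    exact h3

set_option maxHeartbeats 400000 in
include hpF in
/-- **IA-DICT-T, general family.**  An eigenvector fixed by the diamond operator of a primitive
root at `qq s₀` is a newform point of a level `M₁` with `(qq s₀)² ∤ M₁`. -/
theorem dictT_gen (hRH : ResidualHyp p 𝒪 ρbar Smin)
    (hqi : Function.Injective qq) (hq : ∀ s, (qq s).Prime ∧ qq s ∉ Smin)
    (hSig : Sig = Smin ∪ Finset.univ.image qq)
    (P : HeckePkg p 𝒪 ρbar t Smin Sig) {Uset : Set (ℕ × 𝒪)}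
    (V : Submodule 𝒪 (Additive (KG p (wilesLevel p t Smin Smin) qq) →+ 𝒪))
    (hV : IsLocPart (isMid_KG p (wilesLevel p t Smin Smin) qq) (TsetOf P) Uset V)
    (h : ℕ) (hh : ∀ s, p ^ padicValNat p (qq s - 1) ∣ 2 * h + 1)
    (a : P.T →ₐ[𝒪] Module.End 𝒪 V)
    (ha : ActsBy P V a (tOpTw (isMid_KG p (wilesLevel p t Smin Smin) qq) 𝒪 h))
    (s₀ : ι) (u : (ZMod (qq s₀))ˣ) (hu : orderOf u = qq s₀ - 1)
    (y : V) (hy : y ≠ 0)
    (hann : ∀ s s' : P.T, a (s * s') y = 0 → a s y = 0 ∨ a s' y = 0)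
    (hfix : diamondU (isMid_KG p (wilesLevel p t Smin Smin) qq)
      (gLift (wilesLevel p t Smin Smin) qq (Pi.mulSingle s₀ u))
      (y : Additive (KG p (wilesLevel p t Smin Smin) qq) →+ 𝒪) = y) :
    ∃ (O' : Type) (_ : CommRing O') (_ : IsDomain O') (_ : IsDiscreteValuationRing O')
      (_ : IsAdicComplete (maximalIdeal O') O') (_ : Finite (ResidueField O')) (_ : CharZero O')
      (emb : P.T →+* O'), IsLocalHom emb ∧ (∀ s : P.T, a s y = 0 ↔ emb s = 0) ∧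
      ∃ (M₁ : ℕ) (_ : NeZero M₁) (g : CuspForm (Gamma0 M₁) 2), g.IsNewform ∧
        ¬ qq s₀ ^ 2 ∣ M₁ ∧ (∀ q : ℕ, q.Prime → q ∣ M₁ → q ∈ Sig) ∧
        ∃ (chig : CuspForm.heckeAlgebra M₁ 2 (↑Sig : Set ℕ) →+* ℂ)
          (iota : chig.range →+* O'),
          (∀ (ℓ : ℕ) (hℓ : ℓ.Prime) (hℓM : ¬ ℓ ∣ M₁) (hℓS : ℓ ∉ (↑Sig : Set ℕ)),
            chig (CuspForm.heckeAlgebra.T hℓ hℓM hℓS) = ModularFormClass.qCoeff g ℓ) ∧
          ∀ (ℓ : ℕ) (hℓ : ℓ.Prime) (hℓN : ¬ ℓ ∣ wilesLevel p t Smin Sig) (hℓM : ¬ ℓ ∣ M₁)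
            (hℓS : ℓ ∉ (↑Sig : Set ℕ)),
            iota (chig.rangeRestrict (CuspForm.heckeAlgebra.T hℓ hℓM hℓS)) =
              emb (P.H.π (CuspForm.heckeAlgebra.T hℓ hℓN hℓS)) := by
  classical
  have hp : p.Prime := Fact.out
  have hS := hRH.hSmin
  have hpS := hRH.hpSmin
  have hprime : ∀ s, (qq s).Prime := fun s => (hq s).1
  have hN₀ : wilesLevel p t Smin Smin ≠ 0 := wilesLevel_ne_zero hp hS hS
  haveI hM : NeZero (gLevel (wilesLevel p t Smin Smin) qq) :=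
    ⟨gLevel_ne_zero _ qq hN₀ hprime⟩
  have hK := isMid_KG p (wilesLevel p t Smin Smin) qq
  haveI : (KG p (wilesLevel p t Smin Smin) qq).FiniteIndex :=
    Fermat.Agent.S59.TW.H564.finiteIndex_of_Gamma1_le hK.ge
  have hSigP : ∀ q ∈ Sig, q.Prime := by
    intro q hqS
    rw [hSig, Finset.mem_union] at hqS
    rcases hqS with h1 | h1
    · exact hS q h1
    · obtain ⟨s, -, rfl⟩ := Finset.mem_image.mp h1
      exact (hq s).1
  have hsub : Smin ⊆ Sig := by
    rw [hSig]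
    exact Finset.subset_union_left
  have hNS : ∀ q : ℕ, q.Prime → q ∣ wilesLevel p t Smin Sig → q ∈ (↑Sig : Set ℕ) :=
    fun q hqp hd => Finset.mem_coe.mpr
      (mem_of_prime_dvd_wilesLevel hp hS hSigP hpS hsub q hqp hd)
  obtain ⟨O', i1, i2, i3, i4, i5, i6, emb, hloc, hker, hvals⟩ :=
    occG qq hRH hqi hq hSig P V hV h a ha s₀ u hu y hy hann hfix
  -- the level
  obtain ⟨M, hMdef⟩ : ∃ M : ℕ, M = gLevel (wilesLevel p t Smin Smin) qq := ⟨_, rfl⟩
  obtain ⟨Qs, hQsdef⟩ : ∃ Qs : List ℕ, Qs = (Finset.univ.erase s₀).toList.map qq := ⟨_, rfl⟩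
  have hQsprod : Qs.prod = ∏ s ∈ Finset.univ.erase s₀, qq s := by
    rw [hQsdef]
    exact Finset.prod_map_toList _ _
  have hQsnd : Qs.Nodup := by
    rw [hQsdef]
    exact (Finset.nodup_toList _).map hqi
  have hQsmem : ∀ q : ℕ, q ∈ Qs ↔ ∃ s, s ≠ s₀ ∧ qq s = q := by
    intro q
    rw [hQsdef, List.mem_map]
    constructor
    · rintro ⟨s, hs, rfl⟩
      exact ⟨s, Finset.ne_of_mem_erase (Finset.mem_toList.mp hs), rfl⟩
    · rintro ⟨s, hs, rfl⟩
      exact ⟨s, Finset.mem_toList.mpr (Finset.mem_erase.mpr ⟨hs, Finset.mem_univ s⟩), rfl⟩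
  have hQsmul : qq s₀ * Qs.prod = ∏ s, qq s := by
    rw [hQsprod]
    exact Finset.mul_prod_erase Finset.univ qq (Finset.mem_univ s₀)
  have hQs0 : Qs.prod ≠ 0 := by
    intro h0
    rw [h0, mul_zero] at hQsmul
    exact (Finset.prod_ne_zero_iff.mpr fun s _ => (hprime s).ne_zero) hQsmul.symm
  have hndvd : ¬ qq s₀ ∣ Qs.prod := by
    intro hd
    obtain ⟨q, hqQ, hdq⟩ := (Prime.dvd_prod_iff (hprime s₀).prime).mp hd
    obtain ⟨s, hs, rfl⟩ := (hQsmem q).mp hqQ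
    exact hs (hqi ((Nat.prime_dvd_prime_iff_eq (hprime s₀) (hprime s)).mp hdq).symm)
  haveI hN'' : NeZero (gLevel (wilesLevel p t Smin Smin) qq * Qs.prod) :=
    ⟨Nat.mul_ne_zero (NeZero.ne _) hQs0⟩
  have hMN : gLevel (wilesLevel p t Smin Smin) qq ∣
      gLevel (wilesLevel p t Smin Smin) qq * Qs.prod := Dvd.intro _ rfl
  have hdvdW : gLevel (wilesLevel p t Smin Smin) qq * Qs.prod ∣ wilesLevel p t Smin Sig := by
    have h1 : gLevel (wilesLevel p t Smin Smin) qq * ∏ s, qq s ∣ wilesLevel p t Smin Sig := by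
      rw [hSig]
      exact gLevel_mul_prod_dvd_h781 p t Smin qq hqi fun s => (hq s).2
    refine dvd_trans ?_ h1
    rw [← hQsmul]
    exact mul_dvd_mul_left _ (Dvd.intro_left _ rfl)
  have hSigd : ∀ q : ℕ, q.Prime → q ∣ gLevel (wilesLevel p t Smin Smin) qq * Qs.prod →
      q ∈ (↑Sig : Set ℕ) := fun q hqp hqd => hNS q hqp (hqd.trans hdvdW)
  have hN2 : ∀ ℓ : ℕ, ℓ.Prime → ℓ ∉ (↑Sig : Set ℕ) →
      ¬ ℓ ∣ gLevel (wilesLevel p t Smin Smin) qq * Qs.prod :=
    fun ℓ hℓ hℓS hd => hℓS (hSigd ℓ hℓ hd)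
  obtain ⟨vals, hv1, hv2, hocc⟩ := hvals (gLevel (wilesLevel p t Smin Smin) qq * Qs.prod) hMN
  -- the form
  obtain ⟨F, c, hF, hFe, hL⟩ := exists_form_of_occurs hK Qs hQsnd
    (fun q hq' => by
      obtain ⟨s, -, rfl⟩ := (hQsmem q).mp hq'
      exact ⟨hprime s, exists_gLevel_eq_h781 p t Smin qq hpS hS hqi hq s⟩)
    h (fun γ hγ => pow_mem_KG_h781 p _ qq hh hγ) hMN dvd_rfl vals
    (fun d v hd hv => by
      apply hv2
      intro s hs
      apply Units.ext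
      rw [gRed_apply]
      show ZMod.castHom (dvd_gLevel (wilesLevel p t Smin Smin) qq s) (ZMod (qq s))
        ((v : (ZMod (gLevel (wilesLevel p t Smin Smin) qq))ˣ) :
          ZMod (gLevel (wilesLevel p t Smin Smin) qq)) = 1
      rw [hv, map_intCast]
      have h2 : ((qq s : ℕ) : ℤ) ∣ d - 1 := by
        refine dvd_trans (Int.natCast_dvd_natCast.mpr ?_) hd
        exact List.dvd_prod ((hQsmem _).mpr ⟨s, hs, rfl⟩)
      have h3 := (ZMod.intCast_zmod_eq_zero_iff_dvd _ _).mpr h2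
      push_cast at h3
      exact sub_eq_zero.mp h3)
    hocc
  -- the newform
  obtain ⟨lam, hlam_eq⟩ : ∃ lam : ℕ → ℂ, ∀ (ℓ : ℕ) (hℓ : ℓ.Prime)
      (hℓN : ¬ ℓ ∣ gLevel (wilesLevel p t Smin Smin) qq * Qs.prod)
      (hℓS : ℓ ∉ (↑Sig : Set ℕ)), lam ℓ = c (Sum.inl ⟨ℓ, hℓ, hℓN, hℓS⟩) :=
    ⟨fun ℓ => if hℓ : ℓ.Prime ∧ ¬ ℓ ∣ gLevel (wilesLevel p t Smin Smin) qq * Qs.prod ∧
        ℓ ∉ (↑Sig : Set ℕ) then c (Sum.inl ⟨ℓ, hℓ⟩) else 0,
      fun ℓ hℓ hℓN hℓS => dif_pos ⟨hℓ, hℓN, hℓS⟩⟩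
  obtain ⟨M₁, hM₁, g, hg, hM₁N, hgl⟩ := exists_newform_of_form
    (↑Sig : Set ℕ) F hF lam (fun ℓ hℓ hℓN hℓS => by
      rw [hlam_eq ℓ hℓ hℓN hℓS]
      exact hFe ⟨ℓ, hℓ, hℓN, hℓS⟩)
  have hM₁S : ∀ q : ℕ, q.Prime → q ∣ M₁ → q ∈ (↑Sig : Set ℕ) :=
    fun q hqp hqd => hSigd q hqp (hqd.trans hM₁N)
  -- the ring homomorphism
  obtain ⟨L, hLP⟩ := exists_ringHom_of_ker_le c vals hL
  have hle : ∀ x ∈ (Fermat.Agent.S58.H94.chigOf hg.1 (↑Sig : Set ℕ)).range,
      x ∈ (FreeAlgebra.lift ℤ c).range := by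
    intro x hx
    have h1 := Fermat.Agent.S58.H94.chigOf_range_le hg.1
      (↑Sig : Set ℕ) (FreeAlgebra.lift ℤ c).range.toSubring
      (fun ℓ hℓ hℓM hℓS => by
        rw [hgl ℓ hℓ (hN2 ℓ hℓ hℓS) hℓS, hlam_eq ℓ hℓ (hN2 ℓ hℓ hℓS) hℓS]
        exact ⟨FreeAlgebra.ι ℤ _, FreeAlgebra.lift_ι_apply _ _⟩) hM₁S
    exact h1 hx
  let e : (Fermat.Agent.S58.H94.chigOf hg.1 (↑Sig : Set ℕ)).range →+*
      (FreeAlgebra.lift ℤ c).range :=
    { toFun := fun x => ⟨x.1, hle x.1 x.2⟩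
      map_one' := rfl
      map_mul' := fun _ _ => rfl
      map_zero' := rfl
      map_add' := fun _ _ => rfl }
  refine ⟨O', i1, i2, i3, i4, i5, i6, emb, hloc, hker, M₁, hM₁, g, hg, ?_,
    fun q hqp hqd => Finset.mem_coe.mp (hM₁S q hqp hqd),
    Fermat.Agent.S58.H94.chigOf hg.1 (↑Sig : Set ℕ), L.comp e, ?_, ?_⟩
  · -- `(qq s₀)² ∤ M₁`
    intro hsq
    have h1 : qq s₀ ^ 2 ∣ gLevel (wilesLevel p t Smin Smin) qq * Qs.prod := hsq.trans hM₁N
    obtain ⟨M', hM', hcop⟩ := exists_gLevel_eq_h781 p t Smin qq hpS hS hqi hq s₀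
    have h2 : qq s₀ * qq s₀ ∣ qq s₀ * (M' * Qs.prod) := by
      have h3 : gLevel (wilesLevel p t Smin Smin) qq * Qs.prod = qq s₀ * (M' * Qs.prod) := by
        rw [hM']; ring
      rw [← h3, ← pow_two]
      exact h1
    have h4 : qq s₀ ∣ M' * Qs.prod :=
      (Nat.mul_dvd_mul_iff_left (hprime s₀).pos).mp h2
    rcases (Nat.Prime.dvd_mul (hprime s₀)).mp h4 with h5 | h5
    · have h6 : Nat.Coprime (qq s₀) M' := hcop.symm
      exact (Nat.Prime.coprime_iff_not_dvd (hprime s₀)).mp h6 h5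
    · exact hndvd h5
  · intro ℓ hℓ hℓM hℓS
    exact Fermat.Agent.S58.H94.chigOf_T hg.1 _ hℓ hℓM hℓS
  · intro ℓ hℓ hℓN hℓM hℓS
    have h1 : e ((Fermat.Agent.S58.H94.chigOf hg.1 (↑Sig : Set ℕ)).rangeRestrict
        (CuspForm.heckeAlgebra.T hℓ hℓM hℓS)) =
        ⟨FreeAlgebra.lift ℤ c (FreeAlgebra.ι ℤ (Sum.inl ⟨ℓ, hℓ, hN2 ℓ hℓ hℓS, hℓS⟩)),
          ⟨_, rfl⟩⟩ := by
      apply Subtype.ext
      show Fermat.Agent.S58.H94.chigOf hg.1 _ (CuspForm.heckeAlgebra.T hℓ hℓM hℓS) =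
        FreeAlgebra.lift ℤ c (FreeAlgebra.ι ℤ (Sum.inl ⟨ℓ, hℓ, hN2 ℓ hℓ hℓS, hℓS⟩))
      rw [Fermat.Agent.S58.H94.chigOf_T hg.1 _ hℓ hℓM hℓS, hgl ℓ hℓ (hN2 ℓ hℓ hℓS) hℓS,
        hlam_eq ℓ hℓ (hN2 ℓ hℓ hℓS) hℓS, FreeAlgebra.lift_ι_apply]
    rw [RingHom.comp_apply, h1, hLP, FreeAlgebra.lift_ι_apply, hv1 ℓ hℓ (hN2 ℓ hℓ hℓS) hℓN hℓS]

end Gen

end Fermat.Agent.S38.IA.Hecke.H81

end
-- ===== PACK-END S38/IA/Hecke/H81/DictTGen.lean

-- ===== PACK-BEGIN S38/IA/Hecke/H81/IADictT.lean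
section



/-!
# Row HARD, cell HECKE, layer 4: leaf IA-DICT-T  (helper81)

`iaDictT : H183.IADictTStatement` (VERBATIM, `Hecke/H183/CmpSpecIA.lean`, helper183): for the
combined family (pivots, then Taylor–Wiles primes), an eigenvector `y` of `T_Q` in `V` fixed by
the diamond operator `⟨u⟩_j` at the Taylor–Wiles prime `q_j` is a newform point of a level `M₁`
with `q_j² ∤ M₁`.  Instance of `dictT_gen` (`DictTGen.lean`) at `qq = Sum.elim pv qv`,
`s₀ = Sum.inr j`.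
-/

set_option autoImplicit false
set_option linter.style.haveILetI false
set_option linter.unusedSectionVars false

open Polynomial IsLocalRing CongruenceSubgroup
open scoped MatrixGroups

namespace Fermat.Agent.S38.IA.Hecke.H81

open Fermat.Agent.S59.Arch Fermat.Agent.S59.TW.H959 Fermat.Agent.S59.TW.H653
open Fermat.Agent.S59.TW.Aut
open Fermat.Agent.S38.IA Fermat.Agent.S38.IA.Hecke Fermat.Agent.S38.H781

/-- `(1, mulSingle j u)` is `mulSingle (inr j) u` in the combined family. -/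
theorem pairU_one_mulSingle {k r : ℕ} {pv : Fin k → ℕ} {qv : Fin r → ℕ} (j : Fin r)
    (u : (ZMod (qv j))ˣ) :
    pairU (pv := pv) (qv := qv) 1 (Pi.mulSingle j u) =
      Pi.mulSingle (M := fun s : Fin k ⊕ Fin r => (ZMod (Sum.elim pv qv s))ˣ) (Sum.inr j) u := by
  funext s
  rcases s with i | j'
  · exact (Function.update_of_ne
      (β := fun s : Fin k ⊕ Fin r => (ZMod (Sum.elim pv qv s))ˣ)
      (a := Sum.inl i) (a' := Sum.inr j) (by simp) u 1).symm
  · by_cases hj : j' = j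
    · subst hj
      exact (Function.update_self (β := fun s : Fin r => (ZMod (qv s))ˣ) j' u 1).trans
        (Function.update_self (β := fun s : Fin k ⊕ Fin r => (ZMod (Sum.elim pv qv s))ˣ)
          (Sum.inr j') u 1).symm
    · exact (Function.update_of_ne (β := fun s : Fin r => (ZMod (qv s))ˣ) hj u 1).trans
        (Function.update_of_ne
          (β := fun s : Fin k ⊕ Fin r => (ZMod (Sum.elim pv qv s))ˣ)
          (a := Sum.inr j') (a' := Sum.inr j) (by simpa using hj) u 1).symm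

/-- **IA-DICT-T** (VERBATIM). -/
theorem iaDictT : H183.IADictTStatement := by
  intro p _ _hp5 𝒪 _ _ _ _ _ _ ρbar Smin hRH _hflat Piv hPiv k pv hpv hpvPiv n r qv hq _ PQ α _hα
    V h a hV hh1 hh2 ha j u hu y hy hfix
  obtain ⟨hqinj, hqprop, -⟩ := hq
  have hpvmem : ∀ i, pv i ∈ Piv := fun i => by
    rw [← hpvPiv]
    exact Finset.mem_image_of_mem _ (Finset.mem_univ i)
  have hdisj : ∀ i j, pv i ≠ qv j := fun i j hij =>
    (hqprop j).2.1 (Finset.mem_union_right _ (hij ▸ hpvmem i))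
  have hqqinj : Function.Injective (Sum.elim pv qv) :=
    injective_sum_elim_h781 pv qv hpv hqinj hdisj
  have hqqP : ∀ s, (Sum.elim pv qv s).Prime ∧ Sum.elim pv qv s ∉ Smin := by
    rintro (i | j)
    · exact ⟨(hPiv _ (hpvmem i)).1, (hPiv _ (hpvmem i)).2.1⟩
    · exact ⟨(hqprop j).1, fun hmem => (hqprop j).2.1 (Finset.mem_union_left _ hmem)⟩
  have hset : Smin ∪ Piv ∪ Finset.univ.image qv =
      Smin ∪ Finset.univ.image (Sum.elim pv qv) := by
    rw [image_sum_elim_h781, hpvPiv, Finset.union_assoc]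
  have hfix' : diamondU (isMid_KG p (wilesLevel p .flat Smin Smin) (Sum.elim pv qv))
      (gLift (wilesLevel p .flat Smin Smin) (Sum.elim pv qv)
        (Pi.mulSingle (M := fun s : Fin k ⊕ Fin r => (ZMod (Sum.elim pv qv s))ˣ)
          (Sum.inr j) u))
      (y : Additive (KG p (wilesLevel p .flat Smin Smin) (Sum.elim pv qv)) →+ 𝒪) = y := by
    rw [← pairU_one_mulSingle]
    exact hfix
  exact dictT_gen (Sum.elim pv qv) hRH hqqinj hqqP hset PQ V hV h
    (isHalf_sum_h781 p pv qv hh1 hh2) a ha (Sum.inr j) u hu y hy.1 hy.2 hfix'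

end Fermat.Agent.S38.IA.Hecke.H81

end
-- ===== PACK-END S38/IA/Hecke/H81/IADictT.lean

-- ===== PACK-BEGIN S38/H509/IAFree.lean
section



/-!
# Row HARD, cell HECKE, LAYER 3, leaf IA-FREE (helper509)

`iaFree : IA.Hecke.IAFreeStatement` (frozen in `S38/IA/Hecke/Spec3.lean`, helper3), VERBATIM:
the localisation `V` of `X_K(𝒪)`, `K = Γ₀(N_min) ∩ Γ_H(Piv ∪ Q)`, at the maximal ideal of the
package `P_Q` and of `U_{q_j} - α_j` (`q_j` the Taylor–Wiles primes) is free over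
`𝒪[Δ_Piv × Δ_Q]`: it has an `𝒪`-basis `⟨g₁^{e₁}, g₂^{e₂}⟩ b_i`.

Proof: `free_of_locPart_h509` (`IAFreeCore.lean`: `MFree.free` + (Ell) for `5 ≤ p`) for the
family `Sum.elim pv qv`, with the auxiliary non-Eisenstein prime of helper31
(`S59/TW/Aut/H31/AuxPrime.lean`).  The rank `d` and the basis `b` do not depend on the primitive
roots.
-/

set_option autoImplicit false

open Polynomial IsLocalRing CongruenceSubgroup
open scoped MatrixGroups

namespace Fermat.Agent.S38.H509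

open Fermat.Agent.S59.Arch Fermat.Agent.S59.TW.H959 Fermat.Agent.S59.TW
open Fermat.Agent.S59.TW.H653 Fermat.Agent.S59.TW.Aut Fermat.Agent.S38.IA
open Fermat.Agent.S38.IA.Hecke

/-! ## Re-indexing -/

section Reindex

variable {R X : Type*} [CommRing R] [AddCommGroup X] [Module R X]
  {E E' : Type*} [Fintype E] [Fintype E'] {n : ℕ}

/-- Transport of the unique expression along a bijection of the index sets. -/
theorem existsUnique_reindex_h509 (Φ : E' ≃ E) (f : Fin n → E → X) (y : X)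
    (h : ∃! c : Fin n → E → R, y = ∑ i, ∑ e, c i e • f i e) :
    ∃! c' : Fin n → E' → R, y = ∑ i, ∑ e', c' i e' • f i (Φ e') := by
  have key : ∀ c' : Fin n → E' → R,
      ∑ i, ∑ e', c' i e' • f i (Φ e') = ∑ i, ∑ e, c' i (Φ.symm e) • f i e := by
    intro c'
    refine Finset.sum_congr rfl fun i _ => ?_
    rw [← Equiv.sum_comp Φ (fun e => c' i (Φ.symm e) • f i e)]
    refine Finset.sum_congr rfl fun e' _ => ?_
    rw [Equiv.symm_apply_apply]
  obtain ⟨c, hc, huniq⟩ := h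
  refine ⟨fun i e' => c i (Φ e'), ?_, ?_⟩
  · show y = ∑ i, ∑ e', c i (Φ e') • f i (Φ e')
    rw [key (fun i e' => c i (Φ e'))]
    simp only [Equiv.apply_symm_apply]
    exact hc
  · intro c' hc'
    rw [key] at hc'
    have h1 := huniq (fun i e => c' i (Φ.symm e)) hc'
    funext i e'
    have h2 := congrFun (congrFun h1 i) (Φ e')
    simp only [Equiv.symm_apply_apply] at h2
    exact h2

end Reindex

/-! ## The level -/

theorem wilesLevel_flat_self_h509 (p : ℕ) (Smin : Finset ℕ) :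
    wilesLevel p .flat Smin Smin = ∏ q ∈ Smin.erase p, q := by
  unfold wilesLevel
  simp

theorem wilesLevel_flat_self_ne_zero_h509 (p : ℕ) (Smin : Finset ℕ)
    (hSmin : ∀ q ∈ Smin, q.Prime) : wilesLevel p .flat Smin Smin ≠ 0 := by
  rw [wilesLevel_flat_self_h509]
  exact Finset.prod_ne_zero_iff.mpr fun q hq => (hSmin q (Finset.mem_of_mem_erase hq)).ne_zero

/-! ## The leaf -/

/-- **IA-FREE.** -/
theorem iaFree : IAFreeStatement := by
  intro p _ hp5 𝒪 _ _ _ _ _ _ ρbar Smin h _hflat Piv hPiv k pv hpv hpvPiv n r qv hq _ PQ α _hα V hV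
  classical
  have hN₀ : wilesLevel p .flat Smin Smin ≠ 0 :=
    wilesLevel_flat_self_ne_zero_h509 p Smin h.hSmin
  have hpvmem : ∀ i, pv i ∈ Piv := fun i => by
    rw [← hpvPiv]
    exact Finset.mem_image_of_mem pv (Finset.mem_univ i)
  have hprime : ∀ s, (Sum.elim pv qv s).Prime := by
    rintro (i | j)
    · exact (hPiv (pv i) (hpvmem i)).1
    · exact (hq.2.1 j).1
  have hinj : Function.Injective (Sum.elim pv qv) := by
    rintro (i | j) (i' | j') hij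
    · exact congrArg Sum.inl (hpv hij)
    · exfalso
      have h1 : qv j' ∈ Smin ∪ Piv := by
        have h2 : pv i = qv j' := hij
        rw [← h2]
        exact Finset.mem_union_right _ (hpvmem i)
      exact (hq.2.1 j').2.1 h1
    · exfalso
      have h1 : qv j ∈ Smin ∪ Piv := by
        have h2 : qv j = pv i' := hij
        rw [h2]
        exact Finset.mem_union_right _ (hpvmem i')
      exact (hq.2.1 j).2.1 h1
    · exact congrArg Sum.inr (hq.1 hij)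
  have hM : MIA p Smin pv qv ≠ 0 :=
    (neZero_gLevel_h509 (wilesLevel p .flat Smin Smin) (Sum.elim pv qv) hN₀ hprime).ne
  have hp𝒪 : ¬ IsUnit (p : 𝒪) := (mem_maximalIdeal _).mp h.hp𝒪
  -- the auxiliary prime
  obtain ⟨ℓ, hℓF, c, -, hℓM, -, -, -, -, -, hsurj, hinj'⟩ :=
    H31.exists_auxPrime_h31 h PQ hM (hK := isMid_KIA p Smin pv qv)
      (Tset := TsetOf PQ) (Uset := UsetOf qv α) (le_refl _) hV 1 Nat.one_pos ∅
  -- the core
  obtain ⟨d, b, hb⟩ := free_of_locPart_h509 p (wilesLevel p .flat Smin Smin) (Sum.elim pv qv) 𝒪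
    hp5 hp𝒪 hN₀ hprime hinj hV ℓ hℓM hsurj hinj'
  refine ⟨d, ?_⟩
  intro g₁ g₂ hg₁ hg₂
  refine ⟨b, fun y => ?_⟩
  have hg : ∀ s, orderOf (pairU g₁ g₂ s) = Sum.elim pv qv s - 1 := by
    rintro (i | j)
    · exact hg₁ i
    · exact hg₂ j
  have h1 := hb (pairU g₁ g₂) hg y
  -- re-index the exponents
  let Φ : ((∀ i : Fin k, Fin (p ^ padicValNat p (pv i - 1))) ×
      (∀ j : Fin r, Fin (p ^ padicValNat p (qv j - 1)))) ≃
      (∀ s : Fin k ⊕ Fin r, Fin (p ^ padicValNat p (Sum.elim pv qv s - 1))) :=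
    (Equiv.sumPiEquivProdPi
      (fun s : Fin k ⊕ Fin r => Fin (p ^ padicValNat p (Sum.elim pv qv s - 1)))).symm
  have h2 := existsUnique_reindex_h509 (R := 𝒪) Φ
    (fun (i : Fin d) (e : ∀ s : Fin k ⊕ Fin r, Fin (p ^ padicValNat p (Sum.elim pv qv s - 1))) =>
      diamondU (isMid_KG p (wilesLevel p .flat Smin Smin) (Sum.elim pv qv))
        (gLift (wilesLevel p .flat Smin Smin) (Sum.elim pv qv)
          (fun s => pairU g₁ g₂ s ^ (e s : ℕ)))
        (b i : Additive (KG p (wilesLevel p .flat Smin Smin) (Sum.elim pv qv)) →+ 𝒪))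
    (y : Additive (KG p (wilesLevel p .flat Smin Smin) (Sum.elim pv qv)) →+ 𝒪) h1
  have h3 : ∀ e : (∀ i : Fin k, Fin (p ^ padicValNat p (pv i - 1))) ×
      (∀ j : Fin r, Fin (p ^ padicValNat p (qv j - 1))),
      (fun s => pairU g₁ g₂ s ^ ((Φ e) s : ℕ)) =
        pairU (fun i' => g₁ i' ^ (e.1 i' : ℕ)) (fun j => g₂ j ^ (e.2 j : ℕ)) := by
    intro e
    funext s
    rcases s with i | j
    · rfl
    · rfl
  simp only [h3] at h2
  exact h2

end Fermat.Agent.S38.H509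

end
-- ===== PACK-END S38/H509/IAFree.lean

-- ===== PACK-BEGIN S38/H509/StNat.lean
section




/-!
# Row HARD, cell HECKE, leaf IA-ST, Betti step (helper509): the corestriction to `K₁`

`K = KIA = Γ₀(N_min) ∩ Γ_H(Piv ∪ Q)` (level `M = N_min ∏ pv ∏ qv`),
`K₁ = KG p (ribetLevel p Smin Piv) qv = Γ₀(L) ∩ Γ_H(Q)` (level `L ∏ qv = M`), `K ≤ K₁`.

`iaStCor_h509` : for `V` the localisation of `X_K(𝒪)`, `cor = coresK : X_K(𝒪) → X_{K₁}(𝒪)` is
`𝒪`-linear and

* maps `V` into `V₁`, for every localisation `V₁` of `X_{K₁}(𝒪)` at the same generators;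
* commutes with the operators `⟨ℓ⟩^e T_ℓ`, `ℓ ∤ M`;
* for `v ∈ V`: `cor v = 0 ↔ v ∈ chiRelIA 1 V = I_{Δ_Piv} V`.
-/

set_option autoImplicit false
set_option linter.style.haveILetI false

open Polynomial IsLocalRing CongruenceSubgroup
open scoped MatrixGroups

namespace Fermat.Agent.S38.H509

open Fermat.Agent.S59.Arch Fermat.Agent.S59.TW.H959 Fermat.Agent.S59.TW
open Fermat.Agent.S59.TW.H653 Fermat.Agent.S59.TW.Aut Fermat.Agent.S38.IA
open Fermat.Agent.S38.IA.Hecke Fermat.Agent.S59.TW.Aut.H762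

/-! ## The group `K₁` -/

section Group

variable (p N₀ L : ℕ) {k r : ℕ} (pv : Fin k → ℕ) (qv : Fin r → ℕ)

/-- `K₁ = Γ₀(L) ∩ Γ_H(Q)` is `Γ_{pivFree}(M)`. -/
theorem kg_eq_gammaH_h509 (hM : gLevel N₀ (Sum.elim pv qv) = gLevel L qv) :
    KG p L qv = GammaH (gLevel N₀ (Sum.elim pv qv)) (pivFree p N₀ pv qv) := by
  have key : ∀ (g : SL(2, ℤ)) (h1 : g ∈ Gamma0 (gLevel N₀ (Sum.elim pv qv)))
      (h2 : g ∈ Gamma0 (gLevel L qv)) (j : Fin r),
      redQ N₀ pv qv j (dUnit _ ⟨g, h1⟩) = gRed L qv (dUnit _ ⟨g, h2⟩) j := by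
    intro g h1 h2 j
    apply Units.ext
    rw [redQ_apply, coe_gRed_dUnit_h509, coe_gRed_dUnit_h509]
    rfl
  ext g
  rw [mem_GammaH]
  constructor
  · intro hg
    obtain ⟨h2, h3⟩ := mem_GammaH.mp hg
    have h1 : g ∈ Gamma0 (gLevel N₀ (Sum.elim pv qv)) := (gamma0_cast_h509 hM).mpr h2
    refine ⟨h1, ?_⟩
    rw [MonoidHom.mem_ker, gChi_apply_h509, QuotientGroup.eq_one_iff,
      mem_gPowSub_iff_h509] at h3
    rw [mem_pivFree]
    intro j
    rw [key g h1 h2 j]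
    exact h3 j
  · rintro ⟨h1, h3⟩
    have h2 : g ∈ Gamma0 (gLevel L qv) := (gamma0_cast_h509 hM).mp h1
    refine mem_GammaH.mpr ⟨h2, ?_⟩
    rw [MonoidHom.mem_ker, gChi_apply_h509, QuotientGroup.eq_one_iff, mem_gPowSub_iff_h509]
    intro j
    rw [← key g h1 h2 j]
    exact (mem_pivFree p N₀ pv qv).mp h3 j

end Group

/-! ## The primes of the level -/

section Primes

variable (p : ℕ) (Smin Piv : Finset ℕ) {k r : ℕ} (pv : Fin k → ℕ) (qv : Fin r → ℕ)

/-- A prime dividing `M` lies in `Smin ∪ Piv ∪ Q`. -/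
theorem mem_of_dvd_mia_h509 (hSmin : ∀ q ∈ Smin, q.Prime)
    (hprime : ∀ s, (Sum.elim pv qv s).Prime) (hpvPiv : Finset.univ.image pv = Piv)
    {ℓ : ℕ} (hℓ : ℓ.Prime) (h : ℓ ∣ MIA p Smin pv qv) :
    ℓ ∈ Smin ∪ Piv ∪ Finset.univ.image qv := by
  have h0 : MIA p Smin pv qv = (∏ x ∈ Smin.erase p, x) * ∏ s, Sum.elim pv qv s := by
    show gLevel (wilesLevel p .flat Smin Smin) (Sum.elim pv qv) = _
    unfold gLevel
    rw [wilesLevel_min_h509]
  rw [h0] at h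
  rcases (Nat.Prime.dvd_mul hℓ).mp h with h1 | h1
  · obtain ⟨x, hx, hℓx⟩ := (Prime.dvd_finsetProd_iff hℓ.prime _).mp h1
    have hxS := Finset.mem_of_mem_erase hx
    rw [(Nat.prime_dvd_prime_iff_eq hℓ (hSmin x hxS)).mp hℓx]
    exact Finset.mem_union_left _ (Finset.mem_union_left _ hxS)
  · obtain ⟨s, -, hℓs⟩ := (Prime.dvd_finsetProd_iff hℓ.prime _).mp h1
    rw [(Nat.prime_dvd_prime_iff_eq hℓ (hprime s)).mp hℓs]
    rcases s with i | j
    · refine Finset.mem_union_left _ (Finset.mem_union_right _ ?_)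
      rw [← hpvPiv]
      exact Finset.mem_image_of_mem pv (Finset.mem_univ i)
    · exact Finset.mem_union_right _ (Finset.mem_image_of_mem qv (Finset.mem_univ j))

end Primes

/-! ## The corestriction -/

section Cor

/-- **ST-BETTI, (COR).** -/
theorem iaStCor_h509 (p : ℕ) [Fact p.Prime] (hp5 : 5 ≤ p)
    (𝒪 : Type) [CommRing 𝒪] [IsDomain 𝒪] [IsDiscreteValuationRing 𝒪]
    [IsAdicComplete (maximalIdeal 𝒪) 𝒪] [Finite (ResidueField 𝒪)] [CharZero 𝒪]
    (ρbar : ResidualGaloisRep (ResidueField 𝒪)) (Smin : Finset ℕ)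
    (h : ResidualHyp p 𝒪 ρbar Smin)
    (Piv : Finset ℕ) (hPiv : IsPivotSet p ρbar Smin Piv)
    (k : ℕ) (pv : Fin k → ℕ) (hpv : Function.Injective pv)
    (hpvPiv : Finset.univ.image pv = Piv)
    (n r : ℕ) (qv : Fin r → ℕ) (hq : IsTWSet p ρbar (Smin ∪ Piv) n qv)
    [NeZero (wilesLevel p .flat Smin (Smin ∪ Piv ∪ Finset.univ.image qv))]
    (PQ : HeckePkg p 𝒪 ρbar .flat Smin (Smin ∪ Piv ∪ Finset.univ.image qv))
    (α : Fin r → 𝒪)
    (V : Submodule 𝒪 (XIA p Smin pv qv 𝒪)) (hV : IsIAPart PQ α V) (e : ℕ) :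
    ∃ cor : XIA p Smin pv qv 𝒪 →ₗ[𝒪] (Additive (KG p (ribetLevel p Smin Piv) qv) →+ 𝒪),
      (∀ V₁ : Submodule 𝒪 (Additive (KG p (ribetLevel p Smin Piv) qv) →+ 𝒪),
        IsLocPart (isMid_KG p (ribetLevel p Smin Piv) qv) (TsetOf PQ) (UsetOf qv α) V₁ →
        ∀ v ∈ V, cor v ∈ V₁) ∧
      (∀ (ℓ : ℕ) (hℓ : ℓ.Prime), ¬ ℓ ∣ MIA p Smin pv qv → ∀ v : XIA p Smin pv qv 𝒪,
        cor (tOpTw (isMid_KIA p Smin pv qv) 𝒪 e ℓ hℓ v) =
          tOpTw (isMid_KG p (ribetLevel p Smin Piv) qv) 𝒪 e ℓ hℓ (cor v)) ∧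
      (∀ v ∈ V, cor v = 0 ↔ v ∈ chiRelIA p Smin pv qv 1 V) := by
  classical
  have hN₀ : wilesLevel p .flat Smin Smin ≠ 0 :=
    wilesLevel_flat_self_ne_zero_h509 p Smin h.hSmin
  have hpvmem : ∀ i, pv i ∈ Piv := fun i => by
    rw [← hpvPiv]
    exact Finset.mem_image_of_mem pv (Finset.mem_univ i)
  have hprime : ∀ s, (Sum.elim pv qv s).Prime := by
    rintro (i | j)
    · exact (hPiv (pv i) (hpvmem i)).1
    · exact (hq.2.1 j).1
  have hinj : Function.Injective (Sum.elim pv qv) := by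
    rintro (i | j) (i' | j') hij
    · exact congrArg Sum.inl (hpv hij)
    · exfalso
      have h1 : qv j' ∈ Smin ∪ Piv := by
        have h2 : pv i = qv j' := hij
        rw [← h2]
        exact Finset.mem_union_right _ (hpvmem i)
      exact (hq.2.1 j').2.1 h1
    · exfalso
      have h1 : qv j ∈ Smin ∪ Piv := by
        have h2 : qv j = pv i' := hij
        rw [h2]
        exact Finset.mem_union_right _ (hpvmem i')
      exact (hq.2.1 j).2.1 h1
    · exact congrArg Sum.inr (hq.1 hij)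
  have hMne : MIA p Smin pv qv ≠ 0 :=
    (neZero_gLevel_h509 (wilesLevel p .flat Smin Smin) (Sum.elim pv qv) hN₀ hprime).ne
  haveI hMNe : NeZero (gLevel (wilesLevel p .flat Smin Smin) (Sum.elim pv qv)) := ⟨hMne⟩
  haveI hfin : Finite (GDelta p (Sum.elim pv qv)) := finite_gDelta_h509 p _ hprime
  have hp𝒪 : ¬ IsUnit (p : 𝒪) := (mem_maximalIdeal _).mp h.hp𝒪
  have hM : gLevel (wilesLevel p .flat Smin Smin) (Sum.elim pv qv) =
      gLevel (ribetLevel p Smin Piv) qv := mia_eq_ribet_h509 p Smin Piv pv qv hpv hpvPiv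
  have hS : KG p (ribetLevel p Smin Piv) qv =
      GammaH (gLevel (wilesLevel p .flat Smin Smin) (Sum.elim pv qv))
        (pivFree p (wilesLevel p .flat Smin Smin) pv qv) :=
    kg_eq_gammaH_h509 p (wilesLevel p .flat Smin Smin) (ribetLevel p Smin Piv) pv qv hM
  have hH' : (gChi p (wilesLevel p .flat Smin Smin) (Sum.elim pv qv)).ker ≤
      pivFree p (wilesLevel p .flat Smin Smin) pv qv :=
    ker_gChi_le_pivFree p (wilesLevel p .flat Smin Smin) pv qv
  have hle : KIA p Smin pv qv ≤ KG p (ribetLevel p Smin Piv) qv := by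
    rw [hS]
    exact GammaH_mono hH'
  have hVdia : ∀ (u : (ZMod (gLevel (wilesLevel p .flat Smin Smin) (Sum.elim pv qv)))ˣ),
      ∀ x ∈ V, diamondU (isMid_KG p (wilesLevel p .flat Smin Smin) (Sum.elim pv qv)) u x ∈ V :=
    fun u x hx => H31.locPart_diamondU_mem_h31 hV u hx
  refine ⟨coresKLin_h762 hle 𝒪, ?_, ?_, ?_⟩
  · -- NAT
    intro V₁ hV₁
    have hT : ∀ x ∈ TsetOf PQ, x.1.Prime ∧ ¬ x.1 ∣ MIA p Smin pv qv := by
      rintro x ⟨hℓ, -, hℓS, -⟩
      exact ⟨hℓ, fun hd => hℓS (Finset.mem_coe.mpr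
        (mem_of_dvd_mia_h509 p Smin Piv pv qv h.hSmin hprime hpvPiv hℓ hd))⟩
    have hU : ∀ x ∈ UsetOf qv α, x.1.Prime ∧ x.1 ∣ MIA p Smin pv qv := by
      rintro x ⟨j, rfl⟩
      exact ⟨(hq.2.1 j).1, dvd_gLevel _ (Sum.elim pv qv) (Sum.inr j)⟩
    have hT' : ∀ x ∈ TsetOf PQ, x.1.Prime ∧ ¬ x.1 ∣ gLevel (ribetLevel p Smin Piv) qv := by
      intro x hx
      rw [← hM]
      exact hT x hx
    have hU' : ∀ x ∈ UsetOf qv α, x.1.Prime ∧ x.1 ∣ gLevel (ribetLevel p Smin Piv) qv := by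
      intro x hx
      rw [← hM]
      exact hU x hx
    have hM'ne : gLevel (ribetLevel p Smin Piv) qv ≠ 0 := by
      rw [← hM]
      exact hMne
    refine Fermat.Agent.S59.H105.nat_of_isLocPart hM'ne (isMid_KIA p Smin pv qv)
      (isMid_KG p (ribetLevel p Smin Piv) qv) hV hV₁ subset_rfl subset_rfl hT hU hT' hU'
      (coresKLin_h762 hle 𝒪) ?_
    rintro (i | i) x
    · haveI : Fact i.1.1.Prime := ⟨(hT i.1 i.2).1⟩
      show coresK hle (TK _ _ i.1.1 x - i.1.2 • x) =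
        TK _ _ i.1.1 (coresK hle x) - i.1.2 • coresK hle x
      have e1 := coresK_TK_cast_h509 (gChi p (wilesLevel p .flat Smin Smin) (Sum.elim pv qv))
        (pivFree p (wilesLevel p .flat Smin Smin) pv qv) hH' hM hS hle (hT i.1 i.2).2 x
      have e2 : coresK hle (TK (MIA p Smin pv qv) (KIA p Smin pv qv) i.1.1 x - i.1.2 • x) =
          coresK hle (TK (MIA p Smin pv qv) (KIA p Smin pv qv) i.1.1 x) -
            i.1.2 • coresK hle x :=
        ((coresKLin_h762 hle 𝒪).map_sub _ _).trans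
          (congrArg _ ((coresKLin_h762 hle 𝒪).map_smul _ _))
      exact e2.trans (congrArg (fun z => z - i.1.2 • coresK hle x) e1)
    · haveI : Fact i.1.1.Prime := ⟨(hU i.1 i.2).1⟩
      show coresK hle (UK _ i.1.1 x - i.1.2 • x) =
        UK _ i.1.1 (coresK hle x) - i.1.2 • coresK hle x
      have e1 := coresK_UK_cast_h509 (gChi p (wilesLevel p .flat Smin Smin) (Sum.elim pv qv))
        (pivFree p (wilesLevel p .flat Smin Smin) pv qv) hH' hS hle (hU i.1 i.2).2 x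
      have e2 : coresK hle (UK (KIA p Smin pv qv) i.1.1 x - i.1.2 • x) =
          coresK hle (UK (KIA p Smin pv qv) i.1.1 x) - i.1.2 • coresK hle x :=
        ((coresKLin_h762 hle 𝒪).map_sub _ _).trans
          (congrArg _ ((coresKLin_h762 hle 𝒪).map_smul _ _))
      exact e2.trans (congrArg (fun z => z - i.1.2 • coresK hle x) e1)
  · -- equivariance
    intro ℓ hℓ hℓM v
    exact coresK_tOpTw_cast_h509 (gChi p (wilesLevel p .flat Smin Smin) (Sum.elim pv qv))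
      (pivFree p (wilesLevel p .flat Smin Smin) pv qv) hH' hM hS
      (isMid_KG p (ribetLevel p Smin Piv) qv) hle e ℓ hℓ hℓM v
  · -- the kernel
    obtain ⟨ℓ, hℓF, c, -, hℓM, -, -, -, -, -, hsurj, hinj'⟩ :=
      H31.exists_auxPrime_h31 h PQ hMne (hK := isMid_KIA p Smin pv qv)
        (Tset := TsetOf PQ) (Uset := UsetOf qv α) (le_refl _) hV 1 Nat.one_pos ∅
    obtain ⟨d, b, hb⟩ := free_of_locPart_h509 p (wilesLevel p .flat Smin Smin)
      (Sum.elim pv qv) 𝒪 hp5 hp𝒪 hN₀ hprime hinj hV ℓ hℓM hsurj hinj'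
    obtain ⟨g, hg⟩ := exists_primitive_roots_h509 (Sum.elim pv qv) hprime
    have hker : ∀ {y : XIA p Smin pv qv 𝒪}, y ∈ V →
        (coresK (GammaH_mono hH' : KG p (wilesLevel p .flat Smin Smin) (Sum.elim pv qv) ≤
            GammaH (gLevel (wilesLevel p .flat Smin Smin) (Sum.elim pv qv))
              (pivFree p (wilesLevel p .flat Smin Smin) pv qv)) y = 0 ↔
          y ∈ AddSubgroup.closure
            {z : Additive (KG p (wilesLevel p .flat Smin Smin) (Sum.elim pv qv)) →+ 𝒪 |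
              ∃ u ∈ pivFree p (wilesLevel p .flat Smin Smin) pv qv, ∃ y' ∈ V,
                z = diamondU (isMid_KG p (wilesLevel p .flat Smin Smin) (Sum.elim pv qv))
                  u y' - y'}) :=
      fun {y} hy => pcor_ker_G_h509 (p := p) (wilesLevel p .flat Smin Smin) hN₀
        (Sum.elim pv qv) hprime hinj 𝒪 (pivFree p (wilesLevel p .flat Smin Smin) pv qv) hH' V
        hVdia g hg (fun i => ((b i : V) : XIA p Smin pv qv 𝒪)) (fun i => (b i).2)
        (fun y hy => hb g hg ⟨y, hy⟩) hy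
    have hsurjRed := gRed_surjective_h509 (wilesLevel p .flat Smin Smin) (Sum.elim pv qv)
      hN₀ hinj hprime
    have hcast : ∀ y : XIA p Smin pv qv 𝒪, coresKLin_h762 hle 𝒪 y = 0 ↔
        coresK (GammaH_mono hH' : KG p (wilesLevel p .flat Smin Smin) (Sum.elim pv qv) ≤
            GammaH (gLevel (wilesLevel p .flat Smin Smin) (Sum.elim pv qv))
              (pivFree p (wilesLevel p .flat Smin Smin) pv qv)) y = 0 :=
      fun y => coresK_eq_zero_cast_h509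
        (gChi p (wilesLevel p .flat Smin Smin) (Sum.elim pv qv))
        (pivFree p (wilesLevel p .flat Smin Smin) pv qv) hH' hS hle y
    intro v hv
    constructor
    · intro h0
      have h1 := (hker hv).mp ((hcast v).mp h0)
      refine AddSubgroup.closure_induction
        (p := fun z _ => z ∈ chiRelIA p Smin pv qv 1 V) ?_ ?_ ?_ ?_ h1
      · rintro z ⟨u, hu, y', hy', rfl⟩
        refine Submodule.subset_span
          ⟨fun i => gRed (wilesLevel p .flat Smin Smin) (Sum.elim pv qv) u (Sum.inl i),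
            y', hy', ?_⟩
        rw [MonoidHom.one_apply, one_smul]
        congr 1
        exact diamondU_eq_of_gChi_h509 p (wilesLevel p .flat Smin Smin) (Sum.elim pv qv)
          (gChi_eq_of_mem_pivFree p (wilesLevel p .flat Smin Smin) pv qv hu _
            (gRed_gLift _ _ (hsurjRed _))) y'
      · exact zero_mem _
      · intro a b _ _ ha hb
        exact add_mem ha hb
      · intro a _ ha
        exact neg_mem ha
    · intro h0
      refine Submodule.span_induction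
        (p := fun z _ => coresKLin_h762 hle 𝒪 z = 0) ?_ ?_ ?_ ?_ h0
      · rintro z ⟨a₁, y, hy, rfl⟩
        rw [MonoidHom.one_apply, one_smul]
        have hu : gLift (wilesLevel p .flat Smin Smin) (Sum.elim pv qv) (pairU a₁ 1) ∈
            pivFree p (wilesLevel p .flat Smin Smin) pv qv :=
          mem_pivFree_of_gRed p (wilesLevel p .flat Smin Smin) pv qv a₁
            (gRed_gLift _ _ (hsurjRed _))
        have hzV : diaIA p Smin pv qv 𝒪 a₁ 1 y - y ∈ V :=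
          sub_mem (hVdia _ y hy) hy
        exact (hcast _).mpr ((hker hzV).mpr
          (AddSubgroup.subset_closure ⟨_, hu, y, hy, rfl⟩))
      · exact map_zero _
      · intro a b _ _ ha hb
        rw [map_add, ha, hb, add_zero]
      · intro c a _ ha
        rw [map_smul, ha, smul_zero]

end Cor

end Fermat.Agent.S38.H509

end
-- ===== PACK-END S38/H509/StNat.lean

-- ===== PACK-BEGIN S38/H509/StCor593.lean
section



/-!
# Row HARD, cell HECKE, leaf IA-ST, Betti step (helper509): `H593.IAStCorStatement`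

`iaStCor593_h509 : H593.IAStCorStatement` VERBATIM (the COR input of helper593's final assembly
`iaStPt_h593`), with `m = 1` (exact kernel): `iaStCor_h509` (`StNat.lean`).
-/

set_option autoImplicit false

open Polynomial IsLocalRing CongruenceSubgroup
open scoped MatrixGroups

namespace Fermat.Agent.S38.H509

open Fermat.Agent.S59.Arch Fermat.Agent.S59.TW.H959 Fermat.Agent.S59.TW
open Fermat.Agent.S59.TW.H653 Fermat.Agent.S59.TW.Aut Fermat.Agent.S38.IA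
open Fermat.Agent.S38.IA.Hecke

/-- **IA-ST-COR** (helper593's statement, verbatim). -/
theorem iaStCor593_h509 : Fermat.Agent.S38.H593.IAStCorStatement := by
  intro p _ hp5 𝒪 _ _ _ _ _ _ ρbar Smin h _hflat Piv hPiv k pv hpv hpvPiv n r qv hq _ PQ α _hα
    V e hV _ _
  classical
  obtain ⟨cor, hmem, heq, hker⟩ := iaStCor_h509 p hp5 𝒪 ρbar Smin h Piv hPiv k pv hpv hpvPiv
    n r qv hq PQ α V hV e
  have hpvmem : ∀ i, pv i ∈ Piv := fun i => by
    rw [← hpvPiv]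
    exact Finset.mem_image_of_mem pv (Finset.mem_univ i)
  have hprime : ∀ s, (Sum.elim pv qv s).Prime := by
    rintro (i | j)
    · exact (hPiv (pv i) (hpvmem i)).1
    · exact (hq.2.1 j).1
  refine ⟨cor, 1, one_ne_zero, hmem, ?_, ?_⟩
  · intro ℓ hℓ _ hℓS v _
    refine heq ℓ hℓ (fun hd => hℓS (Finset.mem_coe.mpr
      (mem_of_dvd_mia_h509 p Smin Piv pv qv h.hSmin hprime hpvPiv hℓ hd))) v
  · intro v hv h0
    rw [one_smul]
    exact (hker v hv).mp h0

end Fermat.Agent.S38.H509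

end
-- ===== PACK-END S38/H509/StCor593.lean

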