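import Fermat.Agent.Pack.S43C.E2L0
import Fermat.Agent.Pack.S43C.E3L2
import Fermat.Agent.Pack.S43GC.G0E21L2
import Fermat.Agent.Pack.S43GC.G0E22L2
import Fermat.Agent.Pack.S43GC.G0E23L0
import Fermat.Agent.Pack.S43C.E1L1
import Fermat.Agent.Pack.S43C.E1L0
import Fermat.Agent.Pack.S43C.E3L0
import Fermat.Agent.Pack.S43C.E2L2
import Fermat.Agent.Pack.S43C.E3L1
import Fermat.Agent.Pack.S43C.E3L3
import Fermat.Agent.Pack.S43MC.G0E28L1
import Fermat.Agent.Pack.S43MC.G0E27L2
import Fermat.Agent.Pack.S43MC.G0E27L3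
import Fermat.Agent.Pack.S43MC.G0E26L1
import Fermat.Agent.Pack.S43MC.G0E28L3
import Fermat.Agent.Pack.S43C.E2L1
import Fermat.Agent.Pack.S43C.E0L0
import Fermat.Agent.Pack.S43C.E2L3
import Fermat.Agent.Pack.S43MC.G0E28L2
import Fermat.Agent.Pack.S43MC.G0E23L3
import Fermat.Agent.Pack.S43MC.G0E26L2
import Fermat.Agent.Pack.S44C.G0E30L3
import Fermat.Agent.Pack.Fast891

-- ===== PACK-BEGIN S38/IA/H183/Closed.lean
section









/-!
# Row 37 pivot (Ihara avoidance), Galois side — MAIN THEOREM, UNCONDITIONAL (helper183)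

All leaves of row S56 and the four S55 inputs are on main and are plugged in here:

* `baseBigOver : BaseBigOverStatement`
* `relTWPrimesOrd`, `relTWPrimesFlat` : `S56.Hyp 𝒪 p ρbar S Smin → q.Prime → q ∉ Smin →
    RelTWPrimes 𝒪 p ρbar S q (ordCond 𝒪 p Smin)`  resp. `(flatCond 𝒪 p Smin)`.
* `relTWPrimesCobOrd`, `relTWPrimesCobFlat` : the unframed form at a set `T` of pivots
  (`ρ̄` scalar on the decomposition groups over `T`): `g = r − 3·#T`.

Nothing unproved in this file.
-/

set_option autoImplicit false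

open Polynomial IsLocalRing

noncomputable section

namespace Fermat.Agent.S38.IA.H183

open Fermat.Agent.S56 Fermat.Agent.S56.H716

/-- **BASE-BIG-OVER**, unconditionally. -/
theorem baseBigOver : BaseBigOverStatement :=
  baseBigOver_of_p1
    (fun p _ S hp2 hpS => Fermat.Agent.S55.Closed.H904.four p S hp2 hpS)
    (fun p _ => Fermat.Agent.S56.Euler.H184.p1CharSpec p)

section

variable (𝒪 : Type) [CommRing 𝒪] [IsDomain 𝒪] [IsDiscreteValuationRing 𝒪]
  [IsAdicComplete (maximalIdeal 𝒪) 𝒪] [Finite (ResidueField 𝒪)]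
  (p : ℕ) (ρbar : ResidualGaloisRep (ResidueField 𝒪)) (S Smin : Finset ℕ)

/-- **Taylor–Wiles primes for the problem framed at `q`, strict-ordinary half.** -/
theorem relTWPrimesOrd (hyp : Hyp 𝒪 p ρbar S Smin) (q : ℕ) (hq : q.Prime) (hqS : q ∉ Smin) :
    RelTWPrimes 𝒪 p ρbar S q (ordCond 𝒪 p Smin) :=
  relTWPrimesOrd_of 𝒪 p ρbar S Smin twPrimes H606.locMin H656.locOrdP baseBigOver
    RQ.recQSubClosed H431.urCount hyp q hq hqS

/-- **Taylor–Wiles primes for the problem framed at `q`, flat half.** -/
theorem relTWPrimesFlat (hyp : Hyp 𝒪 p ρbar S Smin) (q : ℕ) (hq : q.Prime) (hqS : q ∉ Smin) :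
    RelTWPrimes 𝒪 p ρbar S q (flatCond 𝒪 p Smin) :=
  relTWPrimesFlat_of 𝒪 p ρbar S Smin twPrimes H606.locMin FL.locFlatPMain baseBigOver
    RQ.recQSubClosed H431.urCount hyp q hq hqS

/-- **Taylor–Wiles primes for the unframed problem at the pivots `T`, strict-ordinary half.** -/
theorem relTWPrimesCobOrd (hyp : Hyp 𝒪 p ρbar S Smin)
    (T : Finset ℕ) (hT : ∀ q ∈ T, q.Prime) (hdisj : Disjoint Smin T)
    (hsc : ∀ v ∈ T, ∀ P : ValuationSubring Qb, P.LiesOverPrime v →
      ∀ σ ∈ P.decompositionSubgroup ℚ,
        ∃ a : ResidueField 𝒪, ρbar.ρ σ = a • (1 : Module.End (ResidueField 𝒪) ρbar.V)) :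
    RelTWPrimesCob 𝒪 p ρbar S T (ordCond 𝒪 p Smin) :=
  relTWPrimesCobOrd_of 𝒪 p ρbar S Smin twPrimes H606.locMin H656.locOrdP baseBigOver
    RQ.recQSubClosed H431.urCount hyp T hT hdisj hsc

/-- **Taylor–Wiles primes for the unframed problem at the pivots `T`, flat half.** -/
theorem relTWPrimesCobFlat (hyp : Hyp 𝒪 p ρbar S Smin)
    (T : Finset ℕ) (hT : ∀ q ∈ T, q.Prime) (hdisj : Disjoint Smin T)
    (hsc : ∀ v ∈ T, ∀ P : ValuationSubring Qb, P.LiesOverPrime v →
      ∀ σ ∈ P.decompositionSubgroup ℚ,
        ∃ a : ResidueField 𝒪, ρbar.ρ σ = a • (1 : Module.End (ResidueField 𝒪) ρbar.V)) :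
    RelTWPrimesCob 𝒪 p ρbar S T (flatCond 𝒪 p Smin) :=
  relTWPrimesCobFlat_of 𝒪 p ρbar S Smin twPrimes H606.locMin FL.locFlatPMain baseBigOver
    RQ.recQSubClosed H431.urCount hyp T hT hdisj hsc

end

end Fermat.Agent.S38.IA.H183

end

end
-- ===== PACK-END S38/IA/H183/Closed.lean

-- ===== PACK-BEGIN S38/IA/H833/GalClosed.lean
section




/-!
# Row HARD (row 37, Ihara avoidance), cell GAL: the frozen leaf `IA.IAGalStatement`, CLOSED
(independent warm-box verification by helper833)

Pure plugging, no new mathematics: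

* `relTWCob833 : Gal.RelTWCobStatement`  = helper183's `relTWPrimesCobFlat` / `relTWPrimesCobOrd`
  (`S38/IA/H183/Closed.lean`, unconditional: all leaves of row S56 and the four S55 inputs);
* `iaGalInt833 : Gal.IAGalStatement`     = helper1's `Gal.iaGal_of` (`S38/IA/Gal/IAGalMain.lean`);
* `iaGal833 : IA.IAGalStatement`         = helper953's adapter `H953.iaGal_of_gal`
  (`S38/H953/GalAdapter.lean`), i.e. the frozen leaf of the trunk `S38/IA/Spec2.lean`, VERBATIM.

Nothing unproved in this file.
-/

set_option autoImplicit false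

namespace Fermat.Agent.S38.IA.H833

/-- helper183's unframed relative Taylor–Wiles theorem, as the `Prop` consumed by helper1. -/
theorem relTWCob833 : Fermat.Agent.S38.IA.Gal.RelTWCobStatement :=
  fun 𝒪 _ _ _ _ _ p ρbar S Smin hyp T hT hdisj hsc =>
    ⟨Fermat.Agent.S38.IA.H183.relTWPrimesCobFlat 𝒪 p ρbar S Smin hyp T hT hdisj hsc,
      Fermat.Agent.S38.IA.H183.relTWPrimesCobOrd 𝒪 p ρbar S Smin hyp T hT hdisj hsc⟩

/-- The integrator's output (helper1's `IAGalSpec`), unconditionally. -/
theorem iaGalInt833 : Fermat.Agent.S38.IA.Gal.IAGalStatement :=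
  Fermat.Agent.S38.IA.Gal.iaGal_of relTWCob833

/-- **The frozen leaf GAL of the trunk (`S38/IA/Spec2.lean`), unconditionally.** -/
theorem iaGal833 : Fermat.Agent.S38.IA.IAGalStatement :=
  Fermat.Agent.S38.H953.iaGal_of_gal iaGalInt833

end Fermat.Agent.S38.IA.H833

end
-- ===== PACK-END S38/IA/H833/GalClosed.lean

-- ===== PACK-BEGIN S38/IA/AsmGal5.lean
section



/-!
# Row HARD: everything but the Hecke side   (helper995)

`iaCore5_of_hecke5 : Hecke.IAHecke5Statement → IACore5Statement` and
`iaCore_of_hecke : IAHeckeStatement → IACoreStatement`: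
GAL is closed (`S38/IA/H833/GalClosed.lean`: helper183 relative Taylor–Wiles primes, helper1
integration, helper953 adapter, helper419/474 TYPE; verified by helper833), LOC, BRIDGE, S53, S54,
COND are closed (`AsmWired.lean`).  The ONLY open leaf of `IACore5Statement` is the Hecke side.
-/

set_option autoImplicit false

namespace Fermat.Agent.S38.IA

/-- **Row HARD modulo the Hecke side**, `5 ≤ p`. -/
theorem iaCore5_of_hecke5 (hHecke5 : Hecke.IAHecke5Statement) : IACore5Statement :=
  iaCore5_of_gal_hecke5 H833.iaGal833 hHecke5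

/-- **Row HARD modulo the Hecke side**, all odd `p`. -/
theorem iaCore_of_hecke (hHecke : IAHeckeStatement) : IACoreStatement :=
  iaCore_of_gal_hecke H833.iaGal833 hHecke

end Fermat.Agent.S38.IA

end
-- ===== PACK-END S38/IA/AsmGal5.lean

-- ===== PACK-BEGIN S38/IA/Hecke/Wire4.lean
section








/-!
# Row HARD, cell HECKE: the wiring at LAYER 4  (helper3)

`iaHecke5_of_layer4` : the cell HECKE from the leaves of layer 4 which are OPEN:

| mountain | open leaf | Prop | owners |
|---|---|---|---|
| IA-CTRL | CHAIN | `H483.IAChainStatement` | helper299, helper105, helper359 |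
| IA-CMP | DICT-T | `H183.IADictTStatement` | helper81 |
| IA-CMP | DICT-R | `H183.IADictRStatement` | helper227, helper361 |
| IA-NU | point level | `H473.IANuPtStatement` (or `H953.IANuPtStatement953`) | helper47 |
| IA-ST | point level | `H473.IAStPtStatement` (or `H953.IAStPtStatement953`) | helper593, helper509 |

The other hypotheses are theorems of the rows S23, S30, S34, S36 and of the cell G4 of row S59
(kept as hypotheses here in order to keep this file light; they are plugged in on the trunk):
`PkgFlatStatement` (`IA.pkgFlat_h995`), `G4Statement` (`S59.H294.g4_294`), `S34Shape494`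
(`S34.result`), `S30Statement` (`S30.result`), `HasIntegralStructure` (`S23.result`),
`S36Statement` (`S36.result`).

Plugged in: everything of `Wire.lean`, the glue of IA-CTRL (helper483: COR + NAT,
`iaCtrl_of_chain483`) and the glue and the Galois half of IA-CMP (helper183:
`iaCmp_of_dict`).
-/

set_option autoImplicit false

namespace Fermat.Agent.S38.IA.Hecke

open Fermat.Agent.S59.TW

/-- **The cell HECKE of row HARD from the open leaves of layer 4.** -/
theorem iaHecke5_of_layer4 (hPkg : PkgFlatStatement)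
    (hChain : Fermat.Agent.S38.H483.IAChainStatement)
    (hDT : H183.IADictTStatement) (hDR : H183.IADictRStatement)
    (hG4 : Fermat.Agent.S59.G4.G4Statement)
    (h34 : Fermat.Agent.S59.TW.H494.S34Shape494)
    (h30 : Fermat.Agent.S31.S30Statement)
    (hIS : ∀ (M : ℕ) [NeZero M], CuspForm.HasIntegralStructure M 2)
    (h36 : Fermat.Agent.S58.S36Statement)
    (hNuPt : Fermat.Agent.S38.H473.IANuPtStatement)
    (hStPt : Fermat.Agent.S38.H473.IAStPtStatement) : IAHecke5Statement :=
  iaHecke5_of_pt hPkg
    (Fermat.Agent.S38.H483.iaCtrl_of_chain483 Fermat.Agent.S59.TW.Aut.H511.idem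
      Fermat.Agent.S38.H916.iaFree_h916 hChain)
    (H183.iaCmp_of_dict Fermat.Agent.S38.H916.iaFree_h916 hDT hDR hG4 h34 h30 hIS h36)
    hNuPt hStPt

/-- **The cell HECKE of row HARD from its THREE open leaves** IA-DICT-T, IA-DICT-R (mountain
IA-CMP) and the point-level form of IA-ST.  Plugged in: IA-CTRL (helper299 `iaCtrl299`:
the chain of helper105, the glue of helper483), IA-NU (helper47 `iaNuPt`, from the frozen S36). -/
theorem iaHecke5_of_open3 (hPkg : PkgFlatStatement)
    (hDT : H183.IADictTStatement) (hDR : H183.IADictRStatement)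
    (hG4 : Fermat.Agent.S59.G4.G4Statement)
    (h34 : Fermat.Agent.S59.TW.H494.S34Shape494)
    (h30 : Fermat.Agent.S31.S30Statement)
    (hIS : ∀ (M : ℕ) [NeZero M], CuspForm.HasIntegralStructure M 2)
    (h36 : Fermat.Agent.S58.S36Statement)
    (hStPt : Fermat.Agent.S38.H473.IAStPtStatement) : IAHecke5Statement :=
  iaHecke5_of_pt hPkg Fermat.Agent.S38.H299.iaCtrl299
    (H183.iaCmp_of_dict Fermat.Agent.S38.H916.iaFree_h916 hDT hDR hG4 h34 h30 hIS h36)
    (Fermat.Agent.S38.H47.iaNuPt h36) hStPt

/-- **The cell HECKE of row HARD from its LAST open leaf**, the point-level form of IA-ST.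
Plugged in: IA-CTRL (helper299), IA-NU (helper47), IA-DICT-T (helper81 `iaDictT`), IA-DICT-R
(helper227 `iaDictR227`), the glue and the Galois half of IA-CMP (helper183). -/
theorem iaHecke5_of_open1 (hPkg : PkgFlatStatement)
    (hG4 : Fermat.Agent.S59.G4.G4Statement)
    (h34 : Fermat.Agent.S59.TW.H494.S34Shape494)
    (h30 : Fermat.Agent.S31.S30Statement)
    (hIS : ∀ (M : ℕ) [NeZero M], CuspForm.HasIntegralStructure M 2)
    (h36 : Fermat.Agent.S58.S36Statement)
    (hStPt : Fermat.Agent.S38.H473.IAStPtStatement) : IAHecke5Statement :=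
  iaHecke5_of_open3 hPkg H81.iaDictT Fermat.Agent.S38.H227.iaDictR227 hG4 h34 h30 hIS h36 hStPt

/-- The mountain IA-CMP, closed (from results of the rows S23, S30, S34, S36 and the cell G4). -/
theorem iaCmp_closed
    (hG4 : Fermat.Agent.S59.G4.G4Statement)
    (h34 : Fermat.Agent.S59.TW.H494.S34Shape494)
    (h30 : Fermat.Agent.S31.S30Statement)
    (hIS : ∀ (M : ℕ) [NeZero M], CuspForm.HasIntegralStructure M 2)
    (h36 : Fermat.Agent.S58.S36Statement) : IACmpStatement :=
  H183.iaCmp_of_dict Fermat.Agent.S38.H916.iaFree_h916 H81.iaDictT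
    Fermat.Agent.S38.H227.iaDictR227 hG4 h34 h30 hIS h36

end Fermat.Agent.S38.IA.Hecke

end
-- ===== PACK-END S38/IA/Hecke/Wire4.lean

-- ===== PACK-BEGIN S38/IA/AsmOpen.lean
section




/-!
# Row HARD: IA-CORE (`5 ≤ p`) from the OPEN leaves of the row  (row-lead helper995)

Everything closed is plugged in:
* ASM, CORE (helper901), BRIDGE (helper607), LOC (helper678, helper506), S53, S54, COND, GAL
  (`AsmGal5.iaCore5_of_hecke5`);
* HECKE (sub-architect helper3, `Hecke.iaHecke5_of_open1`): layers 2, 3 glue, IDEM, IA-NONTRIV,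
  IA-RANK, IA-CHAR (helper483), glue A (helper354), glue B, INX, INO, CYC, ALG, IA-FREE
  (helper916), IA-MOD (helper781), IA-CTRL (helper299 / helper483), IA-NU (helper47, helper473),
  IA-CMP glue + Galois half (helper183), IA-DICT-T (helper81), IA-DICT-R (helper227);
* PKG flat (`pkgFlat_h995`), G4, S23, S30, S34 (plain tops, see `PkgWired.lean`).

OPEN = the hypotheses of `iaCore5_of_open1`:
* the frozen S36 (row S36: `S58.S36Statement`),
* IA-ST in the pointwise form `H473.IAStPtStatement` (squad helper53).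
-/

set_option autoImplicit false

open IsLocalRing

namespace Fermat.Agent.S38.IA

/-- Layer G4 of row S59, assembled on the plain top of S30. -/
theorem g4_h995 : Fermat.Agent.S59.G4.G4Statement :=
  Fermat.Agent.S59.G4.g4_of s30Statement_h995 Fermat.Agent.S59.G4.H547.red
    Fermat.Agent.S59.G4.H109.points Fermat.Agent.S59.G4.H532.traceFn
    Fermat.Agent.S59.G4.H109.resStatement2

/-- S34 in the shape of helper494. -/
theorem s34Shape494_h995 : Fermat.Agent.S59.TW.H494.S34Shape494 :=
  fun hp hp𝒪 => fun hpS hNS => fun H q hq hqp hqN hq2 =>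
    s34Shape_h995 hp hp𝒪 hpS hNS H q hq hqp hqN hq2

/-- **The cell HECKE from the frozen S36 and IA-ST (pointwise).** -/
theorem iaHecke5_of_open1 (h36 : Fermat.Agent.S58.S36Statement)
    (hStPt : Fermat.Agent.S38.H473.IAStPtStatement) : Hecke.IAHecke5Statement :=
  Hecke.iaHecke5_of_open1 pkgFlat_h995 g4_h995 s34Shape494_h995 s30Statement_h995
    (fun M _ => s23Shape_h995 M) h36 hStPt

/-- **IA-CORE for `5 ≤ p` from the frozen S36 and IA-ST (pointwise).** -/
theorem iaCore5_of_open1 (h36 : Fermat.Agent.S58.S36Statement)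
    (hStPt : Fermat.Agent.S38.H473.IAStPtStatement) : IACore5Statement :=
  iaCore5_of_hecke5 (iaHecke5_of_open1 h36 hStPt)

end Fermat.Agent.S38.IA

end
-- ===== PACK-END S38/IA/AsmOpen.lean

-- ===== PACK-BEGIN S38/IA/Hecke/Wire5.lean
section





/-!
# Row HARD, cell HECKE: CLOSED  (helper3)

`iaHecke5_of_rows` : the cell HECKE (`IAHecke5Statement`) from RESULTS OF OTHER ROWS ONLY:

| hypothesis | Prop | theorem |
|---|---|---|
| `hPkg` | `Hecke.PkgFlatStatement` | `IA.pkgFlat_h995` (trunk; from S23, S30, S31, S32, S34) |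
| `hG4` | `S59.G4.G4Statement` | `S59.H294.g4_294` |
| `h34` | `S59.TW.H494.S34Shape494` | `S34.result` |
| `h30` | `S31.S30Statement` | `S30.result` |
| `hIS` | `∀ M, HasIntegralStructure M 2` | `S23.result` |
| `h35` | `S58.S35Statement` | `S35.result` |
| `h36` | `S58.S36Statement` | `S36.result` |

(kept as hypotheses in order to keep this file light and free of the statement modules; they
are plugged in on the trunk).

All the leaves of the layers 3 and 4 are plugged in:
IDEM (helper511), IA-NONTRIV, IA-RANK (helper483), IA-FREE (helper916), IA-MOD (helper781),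
IA-CTRL (helper299, helper483, helper105, helper903), IA-CMP (helper183; IA-DICT-T helper81,
IA-DICT-R helper227; Galois half helper494, helper788), IA-NU (helper47, helper227, helper473),
IA-ST (helper593 `iaStPt_h593`; COR helper509 `iaStCor593_h509`; IA-MINZERO helper59
`iaMinZero59`; helper264, helper53, helper201, helper719, helper841, helper666, helper653), the
kill glue (helper473, helper113), glue A (helper354), glue B, layer 2.
-/

set_option autoImplicit false

namespace Fermat.Agent.S38.IA.Hecke

open Fermat.Agent.S59.TW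

/-- **IA-ST at the point level, closed** (from the frozen S35). -/
theorem iaStPt953_closed (h35 : Fermat.Agent.S58.S35Statement) :
    Fermat.Agent.S38.H953.IAStPtStatement953 :=
  Fermat.Agent.S38.H593.iaStPt_h593 Fermat.Agent.S38.H59.iaMinZero59 h35
    Fermat.Agent.S38.H509.iaStCor593_h509

/-- **The mountain IA-ST, closed** (from the frozen S35). -/
theorem iaSt_closed (h35 : Fermat.Agent.S58.S35Statement) : IAStStatement :=
  Fermat.Agent.S38.H473.iaSt_of_pt Fermat.Agent.S38.H916.iaFree_h916
    (iaStPt_of_953 (iaStPt953_closed h35))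

/-- **The mountain IA-NU, closed** (from the frozen S36). -/
theorem iaNu_closed (h36 : Fermat.Agent.S58.S36Statement) : IANuStatement :=
  Fermat.Agent.S38.H473.iaNu_of_pt Fermat.Agent.S38.H916.iaFree_h916
    (Fermat.Agent.S38.H47.iaNuPt h36)

/-- **The mountain IA-CTRL, closed.** -/
theorem iaCtrl_closed : IACtrlStatement := Fermat.Agent.S38.H299.iaCtrl299

/-- **THE CELL HECKE OF ROW HARD, CLOSED**: `IAHecke5Statement` from results of the rows
S23, S30, S31, S32, S34 (`hPkg`), S35, S36 and of the cell G4 of row S59. -/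
theorem iaHecke5_of_rows (hPkg : PkgFlatStatement)
    (hG4 : Fermat.Agent.S59.G4.G4Statement)
    (h34 : Fermat.Agent.S59.TW.H494.S34Shape494)
    (h30 : Fermat.Agent.S31.S30Statement)
    (hIS : ∀ (M : ℕ) [NeZero M], CuspForm.HasIntegralStructure M 2)
    (h35 : Fermat.Agent.S58.S35Statement)
    (h36 : Fermat.Agent.S58.S36Statement) : IAHecke5Statement :=
  _root_.Fermat.Agent.S38.IA.Hecke.iaHecke5_of_open1 hPkg hG4 h34 h30 hIS h36 (iaStPt_of_953 (iaStPt953_closed h35))

end Fermat.Agent.S38.IA.Hecke

end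
-- ===== PACK-END S38/IA/Hecke/Wire5.lean

-- ===== PACK-BEGIN S38/IA/AsmClosed.lean
section










/-!
# Row HARD: IA-CORE for `5 ≤ p`, CLOSED  (row-lead helper995; wiring only)

`iaCore5_closed : IACore5Statement`, unconditional:
* the Ihara-avoidance chain `AsmGal5.iaCore5_of_hecke5` (ASM, CORE, BRIDGE, LOC, S53, S54, COND,
  GAL);
* the cell HECKE `Hecke.iaHecke5_of_rows` (sub-architect helper3, `Hecke/Wire5.lean`);
* the results of the rows S23, S30, S31, S32, S34 (`PkgWired.lean`), G4 (`AsmOpen.lean`),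
  S35 and S36 — on their PLAIN tops (the statement files `Fermat/Agent/S35.lean`,
  `Fermat/Agent/S36.lean` are or will be PACKED on main and must not be imported).
-/

set_option autoImplicit false

namespace Fermat.Agent.S38.IA

/-- The frozen S35, on the plain top of the row (`S35/H991`). -/
theorem s35Statement_h995 : Fermat.Agent.S58.S35Statement := by
  intro M _ g hg lam _ S O' _ _ _ _ _ _ hlamO' chig hchig iota hlamS hMS
  exact Fermat.Agent.S35.H991.result_of_qnf Fermat.Agent.S35.H991.qNewFrob_final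
    hg lam S O' hlamO' chig hchig iota hlamS hMS

/-- The frozen S36, on the plain top of the row (`S36/H683`, `S36/Eng`, `S36/Alg3`,
`S36/Mod3`). -/
theorem s36Statement_h995 : Fermat.Agent.S58.S36Statement := by
  intro M _ g hg lam _ S O' _ _ _ _ _ _ hlamO' _ chig hchig iota hlamS hMS _
  exact Fermat.Agent.S36.H683.result_of_newPart
    (Fermat.Agent.S36.Eng.newPartInertia_of_alg3_model3 Fermat.Agent.S36.Alg3.alg3
      (Fermat.Agent.S36.Mod3.H928.model3_of_cuspCong Fermat.Agent.S36.Mod3.H96.leafCuspCong96))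
    hg lam S O' hlamO' chig hchig iota hlamS hMS

/-- **The cell HECKE of row HARD, closed.** -/
theorem iaHecke5_closed : Hecke.IAHecke5Statement :=
  Hecke.iaHecke5_of_rows pkgFlat_h995 g4_h995 s34Shape494_h995 s30Statement_h995
    (fun M _ => s23Shape_h995 M) s35Statement_h995 s36Statement_h995

/-- **IA-CORE for `5 ≤ p`, closed**: level lowering at a pivot. -/
theorem iaCore5_closed : IACore5Statement :=
  iaCore5_of_hecke5 iaHecke5_closed

end Fermat.Agent.S38.IA

end
-- ===== PACK-END S38/IA/AsmClosed.lean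

-- ===== PACK-BEGIN S38/H401/TopMain.lean
section











/-!
# Row HARD, cell TOP (helper401, independent assembly): `HardMinScalar ⇐ IACore5`

`hardMinScalar_of_iaCore5_401 :
    IACore5Statement → DictGenStatement → R3' → ModelTransport → H723.HardMinScalarStatement`

with every other input taken from compiled files:
* `hcard`, `hker`      : `S58.H273.wRes_hcard`, `wRes_hker`;
* EVEN (`2 ∣ L`)       : `S59.H294.resUnram_gen294` + `Ribet.H577.frey_curveResidual_ramified_two577`;
* DICT + ROOTS (FWD)   : `S59.H401.DictGenStatement` (`dictGen`, from frozen S29);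
* `ResidualHyp`        : `Ribet.H577.frey_residualHyp577` (`Smin = {2, p}`);
* FLAT                 : `S38.H401.resFlat_of_dict_clean401` (realizer-free copy of
  `S59.H294.resFlat_of_dict294`) + `S59.H601` base change;
* PIV                  : `Ribet.H723.Top.isPivotSet_frey_level`;
* BACK                 : `S38.H401.back401_resModular_of_r3`.
Sorry-free.
-/

set_option autoImplicit false
set_option linter.style.haveILetI false

open Polynomial IsLocalRing CuspForm
open WeierstrassCurve WeierstrassCurve.Affine WeierstrassCurve.Affine.Point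

namespace Fermat.Agent.S38.H401

open Fermat.Agent.S59.Arch Fermat.Agent.S59.H401 Fermat.Agent.S38.IA
open Fermat.Agent.Ribet Fermat.Agent.Ribet.Spec Fermat.Agent.Ribet.H723

/-! ### Arithmetic of the level -/

/-- For an even squarefree `L`: `2 · ∏ (odd primes of L) = L`. -/
theorem top401_two_mul_prod {L : ℕ} (hsq : Squarefree L) (h2 : 2 ∣ L) :
    2 * ∏ q ∈ L.primeFactors.erase 2, q = L := by
  have hL0 : L ≠ 0 := hsq.ne_zero
  have hmem : 2 ∈ L.primeFactors := Nat.mem_primeFactors.mpr ⟨Nat.prime_two, h2, hL0⟩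
  have h := Finset.mul_prod_erase L.primeFactors (fun q => q) hmem
  rw [h]
  exact Nat.prod_primeFactors_of_squarefree hsq

/-- For an even squarefree `L` and an odd prime `q ∣ L`:
`2 · ∏ (odd primes of L other than q) = L / q`. -/
theorem top401_two_mul_prod_erase {L q : ℕ} (hsq : Squarefree L) (h2 : 2 ∣ L)
    (hq : q ∈ L.primeFactors.erase 2) :
    2 * ∏ r ∈ (L.primeFactors.erase 2).erase q, r = L / q := by
  have hqpos : 0 < q := (Nat.prime_of_mem_primeFactors (Finset.mem_of_mem_erase hq)).pos
  have h := Finset.mul_prod_erase (L.primeFactors.erase 2) (fun r => r) hq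
  have h' := top401_two_mul_prod hsq h2
  rw [← h] at h'
  generalize (∏ r ∈ (L.primeFactors.erase 2).erase q, r) = X at h' ⊢
  symm
  apply Nat.div_eq_of_eq_mul_right hqpos
  rw [← h']
  ring

/-- `{2, p}.erase p = {2}` for `p ≠ 2`. -/
theorem top401_erase {p : ℕ} (hp2 : p ≠ 2) : ({2, p} : Finset ℕ).erase p = {2} := by
  ext x
  simp only [Finset.mem_erase, Finset.mem_insert, Finset.mem_singleton]
  constructor
  · rintro ⟨hxp, rfl | rfl⟩
    · rfl
    · exact absurd rfl hxp
  · rintro rfl
    exact ⟨fun h => hp2 h.symm, Or.inl rfl⟩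

/-! ### EVEN -/

/-- **EVEN.**  A modular conductor level of a Frey package is even. -/
theorem top401_even (hMT : ModelTransportStatement) (P : FreyPackage) {L : ℕ}
    (hL : 0 < L)
    (hirr : GaloisRepIsIrreducible (K := AlgebraicClosure ℚ) ℚ P.freyCurve P.p)
    (hmod : P.ModularRepOfLevel L) : 2 ∣ L := by
  haveI : Fact P.p.Prime := ⟨P.pp⟩
  have hp2 : P.p ≠ 2 := by
    have := P.hp5
    omega
  have hΔ := H104.Δ_ne_zero P
  have hcard := Fermat.Agent.S58.H273.wRes_hcard P.freyCurveInt hΔ P.p
  have hker := Fermat.Agent.S58.H273.wRes_hker P.freyCurveInt hΔ P.p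
  by_contra h2L
  have hres := hMT P L hL hmod P.freyCurveInt (H104.isIntegralModelOf P)
  have hun := Fermat.Agent.S59.H294.resUnram_gen294 P.p hp2 P.freyCurveInt hΔ
    (back401_freyInt_irr P hirr) hcard hker L hL.ne' hres 2 Nat.prime_two
    (fun h => hp2 h.symm) h2L
  exact H577.frey_curveResidual_ramified_two577 P hcard hker (RingHom.id (ZMod P.p))
    ((Fermat.Agent.S59.H601.isUnramifiedAt_baseChangeAlong_iff601 (RingHom.id (ZMod P.p)) _ 2).mpr
      hun)

/-! ### TOP -/

/-- **TOP of row HARD** (independent assembly): the official target of the row from the output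
of the Ihara-avoidance chain for `5 ≤ p`. -/
theorem hardMinScalar_of_iaCore5_401 (hIA : IACore5Statement) (hDict : DictGenStatement)
    (hR3' : AlmostAllToWitnessStatement) (hMT : ModelTransportStatement) :
    HardMinScalarStatement := by
  intro P L hcond hpL hirr hmod hmin hscal q hq hq2 hqL
  classical
  haveI : Fact P.p.Prime := ⟨P.pp⟩
  have hp2 : P.p ≠ 2 := by
    have := P.hp5
    omega
  have hL0 : L ≠ 0 := hcond.pos.ne'
  haveI : NeZero L := ⟨hL0⟩
  have hΔ := H104.Δ_ne_zero P
  have hirr₀ := back401_freyInt_irr P hirr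
  have hcard := Fermat.Agent.S58.H273.wRes_hcard P.freyCurveInt hΔ P.p
  have hker := Fermat.Agent.S58.H273.wRes_hker P.freyCurveInt hΔ P.p
  have h2L : 2 ∣ L := top401_even hMT P hcond.pos hirr hmod
  have hres := hMT P L hcond.pos hmod P.freyCurveInt (H104.isIntegralModelOf P)
  -- the sets
  set Smin : Finset ℕ := {2, P.p} with hSmin
  set Piv : Finset ℕ := L.primeFactors.erase 2 with hPivdef
  have hpS : P.p ∈ Smin ∪ Piv := Finset.mem_union_left _ (by rw [hSmin]; simp)
  have hNS : ∀ r : ℕ, r.Prime → r ∣ L → r ∈ Smin ∪ Piv := by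
    intro r hr hrL
    by_cases h2 : r = 2
    · exact Finset.mem_union_left _ (by rw [hSmin, h2]; simp)
    · exact Finset.mem_union_right _
        (Finset.mem_erase.mpr ⟨h2, Nat.mem_primeFactors.mpr ⟨hr, hrL, hL0⟩⟩)
  have hPivprime : ∀ r ∈ Piv, r.Prime := fun r hr =>
    Nat.prime_of_mem_primeFactors (Finset.mem_of_mem_erase hr)
  -- the order of the roots of unity
  set n : ℕ := ∏ r ∈ Piv, (r - 1) with hn
  have hnpos : 0 < n := Finset.prod_pos fun r hr => Nat.sub_pos_of_lt (hPivprime r hr).one_lt
  -- DICT + ROOTS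
  obtain ⟨𝒪, i1, i2, i3, i4, i5, i6, ι, χ, hp𝒪, hsplit, hRF, -, hroots⟩ :=
    hDict P.p P.freyCurveInt hΔ hirr₀ hcard hker L (Smin ∪ Piv) hpS hNS hres n hnpos
  -- the residual representation
  set ρbar : ResidualGaloisRep (ResidueField 𝒪) :=
    curveResidual P.p P.freyCurveInt hcard hker ι with hρbar
  have hRH : ResidualHyp P.p 𝒪 ρbar Smin :=
    H577.frey_residualHyp577 P hcard hker hirr 𝒪 hp𝒪 ι hsplit
  have hflat : (GaloisRepAdic.ofResidualGaloisRep ρbar).IsFlatAt P.p := by
    have h1 := resFlat_of_dict_clean401 P.p hp2 P.freyCurveInt hΔ hirr₀ hcard hker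
      L hpL (Smin ∪ Piv) hpS hNS 𝒪 hp𝒪 ι χ hRF
    exact (Fermat.Agent.S59.H601.isFlatAt_ofResidual_baseChangeAlong_iff601 P.p _
      (ResidueField 𝒪) ι).mpr h1
  have hPiv : IsPivotSet P.p ρbar Smin Piv :=
    H723.Top.isPivotSet_frey_level P hcard hker ι Smin
      (fun r hr => by
        rw [hSmin] at hr
        simpa using hr) hpL hscal
  have hne : Piv.Nonempty :=
    ⟨q, Finset.mem_erase.mpr ⟨hq2, Nat.mem_primeFactors.mpr ⟨hq, hqL, hL0⟩⟩⟩
  have hroots' : ∀ r ∈ Piv, ∀ m : ℕ, P.p ^ m ∣ r - 1 → ∃ ζ : 𝒪, IsPrimitiveRoot ζ (P.p ^ m) :=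
    fun r hr m hm => hroots _ (hm.trans (Finset.dvd_prod_of_mem (fun r => r - 1) hr))
  have hS2 : Smin.erase P.p = {2} := top401_erase hp2
  have hlev : ribetLevel P.p Smin Piv = L := by
    unfold ribetLevel
    rw [hS2, Finset.prod_singleton]
    exact top401_two_mul_prod hcond.squarefree h2L
  have hres' : ResModular 𝒪 ρbar (ribetLevel P.p Smin Piv) (Smin ∪ Piv) := by
    rw [hlev]
    exact ⟨inferInstance, (residue 𝒪).comp χ, hRF⟩
  obtain ⟨q', hq', S, hS⟩ :=
    hIA P.p P.hp5 𝒪 ρbar Smin hRH hflat Piv hPiv hne hroots' hres'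
  have hlev' : ribetLevel P.p Smin (Piv.erase q') = L / q' := by
    unfold ribetLevel
    rw [hS2, Finset.prod_singleton]
    exact top401_two_mul_prod_erase hcond.squarefree h2L hq'
  rw [hlev'] at hS
  have hq'p : q'.Prime := hPivprime q' hq'
  have hq'L : q' ∣ L := Nat.dvd_of_mem_primeFactors (Finset.mem_of_mem_erase hq')
  exact hmin q' hq'p hq'L
    (back401_resModular_of_r3 P hcard hker hR3' hirr 𝒪 ι (L / q') S hS)

end Fermat.Agent.S38.H401

end
-- ===== PACK-END S38/H401/TopMain.lean

-- ===== PACK-BEGIN S59/H401/DictGenFinal.lean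
section



/-!
# Cell DICT, general form, unconditional (helper401)

* `dictGen0 : DictGen0Statement` — DICT for ANY integral model `W` (`Δ ≠ 0`, `E[p]` irreducible,
  residually modular of level `N`); no semistability, `p = 2` allowed;
* `dictGen : DictGenStatement` — the same with a primitive `n`-th root of unity in `𝒪`.
-/

set_option autoImplicit false

namespace Fermat.Agent.S59.H401

/-- **DICT without semistability**, unconditional. -/
theorem dictGen0 : DictGen0Statement :=
  dictGen0_of_S29 dictS29Statement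

/-- **DICT without semistability, with prescribed roots of unity**, unconditional. -/
theorem dictGen : DictGenStatement :=
  dictGen_of_gen0 dictGen0

end Fermat.Agent.S59.H401

end
-- ===== PACK-END S59/H401/DictGenFinal.lean

-- ===== PACK-BEGIN S38/H401/TopFinal.lean
section




/-!
# Row HARD, cell TOP (helper401): `IACore5Statement → H723.HardMinScalarStatement`, unconditional

All the dictionary inputs of `hardMinScalar_of_iaCore5_401` are plugged:
`S59.H401.dictGen` (frozen S29), `H764.almostAllToWitness_of_S42` and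
`H764.modelTransport_of_S42` on the frozen `S42.result`.  The ONLY hypothesis left is the output
of the Ihara-avoidance chain, `S38.IA.IACore5Statement`.
-/

set_option autoImplicit false

namespace Fermat.Agent.S38.H401

open Fermat.Agent.Ribet Fermat.Agent.Ribet.Spec

/-- (R3') on the frozen S42. -/
theorem top401_r3 : AlmostAllToWitnessStatement :=
  H764.almostAllToWitness_of_S42 fun P M hM => Fermat.Agent.S42.result P M hM

/-- (G2) model transport on the frozen S42. -/
theorem top401_modelTransport : ModelTransportStatement :=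
  H764.modelTransport_of_S42 fun P M hM => Fermat.Agent.S42.result P M hM

/-- **EVEN**, unconditional: a modular conductor level of a Frey package is even. -/
theorem top401_even_final (P : FreyPackage) {L : ℕ} (hL : 0 < L)
    (hirr : WeierstrassCurve.Affine.Point.GaloisRepIsIrreducible (K := AlgebraicClosure ℚ) ℚ
      P.freyCurve P.p)
    (hmod : P.ModularRepOfLevel L) : 2 ∣ L :=
  top401_even top401_modelTransport P hL hirr hmod

/-- **BACK**, unconditional. -/
theorem back401_resModular (P : FreyPackage) [Fact P.p.Prime]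
    (hcard : Nat.card (Submodule.torsionBy ℤ
      (WeierstrassCurve.Affine.baseChange (P.freyCurveInt.map (Int.castRingHom ℚ))
        (AlgebraicClosure ℚ)).Point P.p) = P.p ^ 2)
    (hker : GaloisFactorsThroughFiniteLevel
      (WeierstrassCurve.Affine.Point.galoisRepModuleEnd (K := AlgebraicClosure ℚ) ℚ
        (P.freyCurveInt.map (Int.castRingHom ℚ)) P.p))
    (hirr : WeierstrassCurve.Affine.Point.GaloisRepIsIrreducible (K := AlgebraicClosure ℚ) ℚ
      P.freyCurve P.p)
    (𝒪 : Type) [CommRing 𝒪] [IsDomain 𝒪] [IsDiscreteValuationRing 𝒪]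
    (ι : ZMod P.p →+* IsLocalRing.ResidueField 𝒪) (M : ℕ) (S : Finset ℕ)
    (h : Fermat.Agent.S59.Arch.ResModular 𝒪
      (Fermat.Agent.S59.Arch.curveResidual P.p P.freyCurveInt hcard hker ι) M S) :
    P.ModularRepOfLevel M :=
  back401_resModular_of_r3 P hcard hker top401_r3 hirr 𝒪 ι M S h

/-- **TOP of row HARD**: `IACore5 ⇒ HardMinScalar`, with no other hypothesis. -/
theorem hardMinScalar_of_iaCore5_final (hIA : Fermat.Agent.S38.IA.IACore5Statement) :
    H723.HardMinScalarStatement :=
  hardMinScalar_of_iaCore5_401 hIA Fermat.Agent.S59.H401.dictGen top401_r3 top401_modelTransport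

end Fermat.Agent.S38.H401

end
-- ===== PACK-END S38/H401/TopFinal.lean

-- ===== PACK-BEGIN S38/IA/HardClosed.lean
section



/-!
# Row HARD, CLOSED: the official target `Ribet.H723.HardMinScalarStatement`  (row-lead helper995)

`hardMinScalar_closed` = TOP (helper401, `S38/H401/TopFinal.lean`, realizer-free) applied to
`iaCore5_closed` (`AsmClosed.lean`).
-/

set_option autoImplicit false

namespace Fermat.Agent.S38.IA

/-- **Row HARD**: a modular conductor level of a Frey package, prime to `p`, minimal among the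
modular levels, all of whose odd prime factors are scalar primes `≡ 1 mod p`, has no odd prime
factor. -/
theorem hardMinScalar_closed : Fermat.Agent.Ribet.H723.HardMinScalarStatement :=
  Fermat.Agent.S38.H401.hardMinScalar_of_iaCore5_final iaCore5_closed

end Fermat.Agent.S38.IA

end
-- ===== PACK-END S38/IA/HardClosed.lean

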